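import Fermat.Agent.S21.helper921_Wiring

set_option autoImplicit false

open ModularCurve ModularCurve.Period CongruenceSubgroup UpperHalfPlane Filter Topology
open scoped MatrixGroups ModularForm Manifold Real

namespace Fermat.Agent.S21.helper21

/-- The upper half plane, as a subset of `ℂ`, is convex. -/
theorem convex_upperHalfPlaneSet : Convex ℝ upperHalfPlaneSet := by
  have : upperHalfPlaneSet = Complex.imCLM ⁻¹' (Set.Ioi (0 : ℝ)) := by
    ext z; simp [upperHalfPlaneSet]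
  rw [this]
  exact (convex_Ioi (0 : ℝ)).linear_preimage Complex.imCLM.toLinearMap

/-- A function on `ℍ` whose derivative vanishes identically is constant. -/
theorem eq_of_hasDerivAt_zero {D : ℍ → ℂ}
    (hD : ∀ τ : ℍ, HasDerivAt (D ∘ ofComplex) 0 (τ : ℂ)) (z w : ℍ) : D z = D w := by
  have h := isOpen_upperHalfPlaneSet.is_const_of_deriv_eq_zero
    convex_upperHalfPlaneSet.isPreconnected (f := D ∘ ofComplex)
    (fun x hx => (hD ⟨x, hx⟩).differentiableAt.differentiableWithinAt)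
    (fun x hx => (hD ⟨x, hx⟩).deriv) z.im_pos w.im_pos
  simpa only [Function.comp_apply, ofComplex_apply] using h

/-- Derivative of the parameter `q = exp (2 π i z / h)`. -/
theorem hasDerivAt_qParam (h : ℝ) (z : ℂ) :
    HasDerivAt (Function.Periodic.qParam h) (2 * π * Complex.I / h * Function.Periodic.qParam h z) z := by
  unfold Function.Periodic.qParam
  have h1 : HasDerivAt (fun z : ℂ => 2 * π * Complex.I * z / h) (2 * π * Complex.I / h) z := by
    have := ((hasDerivAt_id z).const_mul (2 * π * Complex.I)).div_const (h : ℂ)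
    simpa using this
  have h2 := h1.cexp
  have h3 : Complex.exp (2 * π * Complex.I * z / h) * (2 * π * Complex.I / h)
      = 2 * π * Complex.I / h * Complex.exp (2 * π * Complex.I * z / h) := by ring
  rw [h3] at h2
  exact h2

/-- A holomorphic `h`-periodic function on `ℍ` which tends to zero at `i∞` has a primitive which
tends to zero at `i∞`. -/
theorem exists_primitive_of_periodic {φ : ℍ → ℂ} {h : ℝ} (hh : 0 < h)
    (hper : Function.Periodic (φ ∘ ofComplex) h) (hhol : MDiff φ) (hzero : IsZeroAtImInfty φ) :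
    ∃ Φ : ℍ → ℂ, (∀ τ : ℍ, HasDerivAt (Φ ∘ ofComplex) (φ τ) (τ : ℂ)) ∧
      Tendsto Φ atImInfty (𝓝 0) := by
  set g := cuspFunction h φ with hg_def
  have hbdd : IsBoundedAtImInfty φ := hzero.isBoundedAtImInfty
  have hg : DifferentiableOn ℂ g (Metric.ball 0 1) :=
    differentiableOn_cuspFunction_ball hh hper hhol hbdd
  have hg0 : g 0 = 0 := by
    rw [hg_def, cuspFunction_apply_zero hh (analyticAt_cuspFunction_zero hh hper hhol hbdd) hper]
    exact hzero.valueAtInfty_eq_zero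
  have hg1 : DifferentiableOn ℂ (dslope g 0) (Metric.ball 0 1) :=
    (Complex.differentiableOn_dslope (Metric.ball_mem_nhds 0 one_pos)).mpr hg
  obtain ⟨G, hG0, hG⟩ := (hg1.isExactOn_ball).with_val_at 0 0
  have hmul : ∀ q : ℂ, q * dslope g 0 q = g q := by
    intro q
    have := sub_smul_dslope g 0 q
    simpa [hg0] using this
  have hpi : (2 * π * Complex.I : ℂ) ≠ 0 := Complex.two_pi_I_ne_zero
  have hh' : (h : ℂ) ≠ 0 := by exact_mod_cast hh.ne'
  refine ⟨fun τ => (h / (2 * π * Complex.I)) * G (Function.Periodic.qParam h τ), ?_, ?_⟩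
  · intro τ
    have hq : Function.Periodic.qParam h (τ : ℂ) ∈ Metric.ball (0 : ℂ) 1 := by
      rw [mem_ball_zero_iff]
      exact Function.Periodic.norm_qParam_lt_one hh τ.im_pos
    have h1 : HasDerivAt (fun z : ℂ => (h / (2 * π * Complex.I)) * G (Function.Periodic.qParam h z))
        (φ τ) (τ : ℂ) := by
      have h2 := (hG _ hq).comp (τ : ℂ) (hasDerivAt_qParam h τ)
      have h3 := h2.const_mul ((h : ℂ) / (2 * π * Complex.I))
      have key : (h : ℂ) / (2 * π * Complex.I) *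
          (dslope g 0 (Function.Periodic.qParam h ↑τ) *
            (2 * π * Complex.I / h * Function.Periodic.qParam h ↑τ)) = φ τ := by
        rw [← eq_cuspFunction τ hh.ne' hper, ← hg_def, ← hmul]
        field_simp
      rw [key] at h3
      exact h3
    refine h1.congr_of_eventuallyEq ?_
    filter_upwards [isOpen_upperHalfPlaneSet.mem_nhds τ.im_pos] with z hz
    simp only [Function.comp_apply]
    rw [ofComplex_apply_of_im_pos hz]
  · have hcont : ContinuousAt G 0 := (hG 0 (Metric.mem_ball_self one_pos)).continuousAt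
    have h1 : Tendsto (fun τ : ℍ => G (Function.Periodic.qParam h τ)) atImInfty (𝓝 (G 0)) :=
      hcont.tendsto.comp (qParam_tendsto_atImInfty hh)
    have h2 := h1.const_mul ((h : ℂ) / (2 * π * Complex.I))
    rw [hG0, mul_zero] at h2
    exact h2

/-- Chain rule for Möbius transformations: if `F` is a primitive of `f` on `ℍ`, then
`w ↦ F (g • w)` is a primitive of the weight-two slash `f ∣[2] g`. -/
theorem hasDerivAt_comp_smul {F f : ℍ → ℂ}
    (hF : ∀ τ : ℍ, HasDerivAt (F ∘ ofComplex) (f τ) (τ : ℂ)) (g : SL(2, ℤ)) (τ : ℍ) :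
    HasDerivAt ((fun w : ℍ => F (g • w)) ∘ ofComplex) ((f ∣[(2 : ℤ)] g) τ) (τ : ℂ) := by
  set a : ℂ := ((algebraMap ℤ ℝ (g 0 0) : ℝ) : ℂ) with ha
  set b : ℂ := ((algebraMap ℤ ℝ (g 0 1) : ℝ) : ℂ) with hb
  set c : ℂ := ((algebraMap ℤ ℝ (g 1 0) : ℝ) : ℂ) with hc
  set d : ℂ := ((algebraMap ℤ ℝ (g 1 1) : ℝ) : ℂ) with hd
  have hdet : a * d - b * c = 1 := by
    have h1 : g 0 0 * g 1 1 - g 0 1 * g 1 0 = 1 := by
      have := g.det_coe
      rwa [Matrix.det_fin_two] at this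
    have h2 := congrArg (fun n : ℤ => (n : ℂ)) h1
    simp only [Int.cast_sub, Int.cast_mul, Int.cast_one] at h2
    simpa [ha, hb, hc, hd] using h2
  have hden : c * (τ : ℂ) + d ≠ 0 := by
    have := UpperHalfPlane.denom_ne_zero (g : GL (Fin 2) ℝ) τ
    simpa [UpperHalfPlane.denom, hc, hd] using this
  have hm : HasDerivAt (fun z : ℂ => (a * z + b) / (c * z + d)) (1 / (c * (τ : ℂ) + d) ^ 2)
      (τ : ℂ) := by
    have h1 : HasDerivAt (fun z : ℂ => a * z + b) a (τ : ℂ) := by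
      simpa using ((hasDerivAt_id (τ : ℂ)).const_mul a).add_const b
    have h2 : HasDerivAt (fun z : ℂ => c * z + d) c (τ : ℂ) := by
      simpa using ((hasDerivAt_id (τ : ℂ)).const_mul c).add_const d
    have h3 := h1.div h2 hden
    have h4 : (a * (c * (τ : ℂ) + d) - (a * (τ : ℂ) + b) * c) / (c * (τ : ℂ) + d) ^ 2
        = 1 / (c * (τ : ℂ) + d) ^ 2 := by
      congr 1
      linear_combination hdet
    rw [h4] at h3
    exact h3
  have hval : (a * (τ : ℂ) + b) / (c * (τ : ℂ) + d) = ((g • τ : ℍ) : ℂ) :=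
    (coe_specialLinearGroup_apply g τ).symm
  have hF' : HasDerivAt (F ∘ ofComplex) (f (g • τ)) ((a * (τ : ℂ) + b) / (c * (τ : ℂ) + d)) := by
    rw [hval]; exact hF (g • τ)
  have hcomp := hF'.comp (τ : ℂ) hm
  have hslash : (f ∣[(2 : ℤ)] g) τ = f (g • τ) * (1 / (c * (τ : ℂ) + d) ^ 2) := by
    rw [ModularForm.SL_slash_apply]
    congr 1
    rw [one_div, zpow_neg]
    congr 1
  rw [hslash]
  refine hcomp.congr_of_eventuallyEq ?_
  filter_upwards [isOpen_upperHalfPlaneSet.mem_nhds τ.im_pos] with z hz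
  simp only [Function.comp_apply]
  rw [ofComplex_apply_of_im_pos hz]
  have := coe_specialLinearGroup_apply g ⟨z, hz⟩
  simp only at this ⊢
  rw [← this, ofComplex_apply]

section Gamma0

open Matrix.SpecialLinearGroup

variable {N : ℕ} [NeZero N] (f : CuspForm (Gamma0 N) 2)

set_option linter.unusedSectionVars false

theorem isCusp_smul_infty (δ : SL(2, ℤ)) :
    IsCusp (mapGL ℝ δ • OnePoint.infty)
      ((Gamma0 N : Subgroup SL(2, ℤ)) : Subgroup (GL (Fin 2) ℝ)) :=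
  (Subgroup.IsArithmetic.isCusp_iff_isCusp_SL2Z _).mpr (isCusp_SL2Z_iff'.mpr ⟨δ, rfl⟩)

theorem isZeroAtImInfty_slash (δ : SL(2, ℤ)) :
    IsZeroAtImInfty ((f : ℍ → ℂ) ∣[(2 : ℤ)] δ) :=
  CuspFormClass.zero_at_cusps f (isCusp_smul_infty δ) (mapGL ℝ δ) rfl

theorem mdiff_slash (δ : SL(2, ℤ)) : MDiff ((f : ℍ → ℂ) ∣[(2 : ℤ)] δ) :=
  (CuspFormClass.holo f).slash 2 (mapGL ℝ δ)

theorem slash_Gamma0 (γ : SL(2, ℤ)) (hγ : γ ∈ Gamma0 N) : (f : ℍ → ℂ) ∣[(2 : ℤ)] γ = f :=
  SlashInvariantForm.slash_action_eqn f _ ⟨γ, hγ, rfl⟩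

theorem conj_T_pow_mem_Gamma0 (δ : SL(2, ℤ)) :
    δ * ModularGroup.T ^ (N : ℤ) * δ⁻¹ ∈ Gamma0 N := by
  have h1 : ModularGroup.T ^ (N : ℤ) ∈ Gamma N := by
    simpa using ModularGroup_T_pow_mem_Gamma (N : ℤ) (N : ℤ) dvd_rfl
  have h2 : δ * ModularGroup.T ^ (N : ℤ) * δ⁻¹ ∈ Gamma N := (Gamma_normal N).conj_mem _ h1 δ
  rw [Gamma_mem] at h2
  rw [Gamma0_mem]
  exact h2.2.2.1

theorem slash_T_pow (δ : SL(2, ℤ)) :
    ((f : ℍ → ℂ) ∣[(2 : ℤ)] δ) ∣[(2 : ℤ)] (ModularGroup.T ^ (N : ℤ)) = (f : ℍ → ℂ) ∣[(2 : ℤ)] δ := by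
  rw [← SlashAction.slash_mul]
  have h : δ * ModularGroup.T ^ (N : ℤ) = (δ * ModularGroup.T ^ (N : ℤ) * δ⁻¹) * δ := by group
  rw [h, SlashAction.slash_mul, slash_Gamma0 f _ (conj_T_pow_mem_Gamma0 δ)]

theorem slash_vadd (δ : SL(2, ℤ)) (w : ℍ) :
    ((f : ℍ → ℂ) ∣[(2 : ℤ)] δ) ((N : ℝ) +ᵥ w) = ((f : ℍ → ℂ) ∣[(2 : ℤ)] δ) w := by
  have h := congrFun (slash_T_pow f δ) w
  rw [ModularForm.SL_slash_apply] at h
  have h1 : ModularGroup.T ^ (N : ℤ) • w = (N : ℝ) +ᵥ w := by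
    have := modular_T_zpow_smul w (N : ℤ)
    rw [this]
    simp
  have h2 : UpperHalfPlane.denom ((ModularGroup.T ^ (N : ℤ) : SL(2, ℤ)) : GL (Fin 2) ℝ) (w : ℂ)
      = 1 := by
    have h3 : ((ModularGroup.T ^ (N : ℤ) : SL(2, ℤ)) : Matrix (Fin 2) (Fin 2) ℤ) 1 0 = 0 := by
      rw [ModularGroup.coe_T_zpow]; rfl
    have h4 : ((ModularGroup.T ^ (N : ℤ) : SL(2, ℤ)) : Matrix (Fin 2) (Fin 2) ℤ) 1 1 = 1 := by
      rw [ModularGroup.coe_T_zpow]; rfl
    rw [ModularGroup.denom_apply, h3, h4]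
    simp
  rw [h1, h2] at h
  rw [← h]
  simp

theorem periodic_slash (δ : SL(2, ℤ)) :
    Function.Periodic (((f : ℍ → ℂ) ∣[(2 : ℤ)] δ) ∘ ofComplex) (N : ℝ) := by
  intro w
  by_cases hw : 0 < w.im
  · have hw' : 0 < (w + ((N : ℝ) : ℂ)).im := by simpa using hw
    have hpt : (⟨w + ((N : ℝ) : ℂ), hw'⟩ : ℍ) = (N : ℝ) +ᵥ (⟨w, hw⟩ : ℍ) := by
      apply UpperHalfPlane.ext
      simp [add_comm]
    rw [Function.comp_apply, Function.comp_apply, ofComplex_apply_of_im_pos hw',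
      ofComplex_apply_of_im_pos hw, hpt, slash_vadd f δ ⟨w, hw⟩]
  · have hw1 : w.im ≤ 0 := not_lt.mp hw
    have hw' : (w + ((N : ℝ) : ℂ)).im ≤ 0 := by simpa using hw1
    rw [Function.comp_apply, Function.comp_apply, ofComplex_apply_of_im_nonpos hw',
      ofComplex_apply_of_im_nonpos hw1]

end Gamma0

/-- **(A)** every weight-two cusp form on `Γ₀(N)` has an equivariant primitive. -/
theorem stmtA (N : ℕ) [NeZero N] : helper921.StmtA N := by
  intro f
  have hper1 : Function.Periodic ((f : ℍ → ℂ) ∘ ofComplex) (1 : ℝ) :=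
    SlashInvariantFormClass.periodic_comp_ofComplex f
      (by rw [CongruenceSubgroup.strictPeriods_Gamma0]; exact AddSubgroup.mem_zmultiples 1)
  have hzero : IsZeroAtImInfty (f : ℍ → ℂ) := by
    have := isZeroAtImInfty_slash f 1
    rwa [SlashAction.slash_one] at this
  obtain ⟨F, hF1, hF2⟩ := exists_primitive_of_periodic one_pos hper1 (CuspFormClass.holo f) hzero
  refine ⟨F, hF1, hF2, ?_, ?_⟩
  · intro γ
    refine ⟨F ((γ : SL(2, ℤ)) • UpperHalfPlane.I) - F UpperHalfPlane.I, fun z => ?_⟩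
    have hD : ∀ τ : ℍ, HasDerivAt
        ((fun w : ℍ => F ((γ : SL(2, ℤ)) • w) - F w) ∘ ofComplex) 0 (τ : ℂ) := by
      intro τ
      have h1 := hasDerivAt_comp_smul hF1 (γ : SL(2, ℤ)) τ
      rw [slash_Gamma0 f γ γ.2] at h1
      have h2 := h1.sub (hF1 τ)
      rw [sub_self] at h2
      exact h2
    exact eq_of_hasDerivAt_zero hD z UpperHalfPlane.I
  · intro δ
    have hN : (0 : ℝ) < (N : ℝ) := by exact_mod_cast Nat.pos_of_ne_zero (NeZero.ne N)
    obtain ⟨Φ, hΦ1, hΦ2⟩ := exists_primitive_of_periodic hN (periodic_slash f δ)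
      (mdiff_slash f δ) (isZeroAtImInfty_slash f δ)
    refine ⟨F (δ • UpperHalfPlane.I) - Φ UpperHalfPlane.I, ?_⟩
    have hD : ∀ τ : ℍ, HasDerivAt ((fun w : ℍ => F (δ • w) - Φ w) ∘ ofComplex) 0 (τ : ℂ) := by
      intro τ
      have h1 := hasDerivAt_comp_smul hF1 δ τ
      have h2 := h1.sub (hΦ1 τ)
      rw [sub_self] at h2
      exact h2
    have hconst : ∀ w : ℍ, Φ w + (F (δ • UpperHalfPlane.I) - Φ UpperHalfPlane.I) = F (δ • w) := by
      intro w
      have := eq_of_hasDerivAt_zero hD w UpperHalfPlane.I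
      linear_combination -this
    have h3 := hΦ2.add_const (F (δ • UpperHalfPlane.I) - Φ UpperHalfPlane.I)
    rw [zero_add] at h3
    exact h3.congr hconst

end Fermat.Agent.S21.helper21
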