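import Mathlib
import Fermat.Prelude.Def_ModularCurve_PeriodHomPair
import Fermat.Prelude.Def_ModularCurve_GenusNumerics

set_option autoImplicit false

namespace Fermat.Agent.S21.helper681

open scoped MatrixGroups
open ModularCurve.Period

/-! ## Abstract cocycle attached to a hom on a subgroup -/

section Cocycle

variable {G : Type*} [Group G] (Γ : Subgroup G)

/-- the element `s(g x)⁻¹ g s(x)` of `Γ`, for the section `s = Quotient.out`. -/
noncomputable def cocElt (g : G) (x : G ⧸ Γ) : Γ :=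
  ⟨(Quotient.out (g • x))⁻¹ * g * Quotient.out x, by
    have h1 : ((Quotient.out (g • x) : G) : G ⧸ Γ) = ((g * Quotient.out x : G) : G ⧸ Γ) := by
      rw [QuotientGroup.out_eq']
      conv_lhs => rw [← QuotientGroup.out_eq' x]
      rfl
    have := QuotientGroup.eq.mp h1
    simpa [mul_assoc] using this⟩

theorem cocElt_mul (g h : G) (x : G ⧸ Γ) :
    cocElt Γ (g * h) x = cocElt Γ g (h • x) * cocElt Γ h x := by
  apply Subtype.ext
  simp only [cocElt, Subgroup.coe_mul, mul_smul]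
  group

variable {Γ}

/-- the cocycle `c^φ_g(x) = φ(s(g x)⁻¹ g s(x))`. -/
noncomputable def coc {A : Type*} [AddCommGroup A] (φ : Additive Γ →+ A) (g : G) (x : G ⧸ Γ) : A :=
  φ (Additive.ofMul (cocElt Γ g x))

theorem coc_mul {A : Type*} [AddCommGroup A] (φ : Additive Γ →+ A) (g h : G) (x : G ⧸ Γ) :
    coc φ (g * h) x = coc φ g (h • x) + coc φ h x := by
  simp only [coc, cocElt_mul, ofMul_mul, map_add]

theorem coc_one {A : Type*} [AddCommGroup A] (φ : Additive Γ →+ A) (x : G ⧸ Γ) :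
    coc φ 1 x = 0 := by
  have := coc_mul φ 1 1 x
  simp only [mul_one, one_smul] at this
  simpa using this

theorem coc_pow_succ {A : Type*} [AddCommGroup A] (φ : Additive Γ →+ A) (g : G) (n : ℕ)
    (x : G ⧸ Γ) :
    coc φ (g ^ (n + 1)) x = coc φ g (g ^ n • x) + coc φ (g ^ n) x := by
  rw [pow_succ', coc_mul]

theorem coc_pow_eq_sum {A : Type*} [AddCommGroup A] (φ : Additive Γ →+ A) (g : G) (n : ℕ)
    (x : G ⧸ Γ) :
    coc φ (g ^ n) x = ∑ j ∈ Finset.range n, coc φ g (g ^ j • x) := by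
  induction n with
  | zero => simp [coc_one]
  | succ n ih => rw [coc_pow_succ, ih, Finset.sum_range_succ, add_comm]

/-- value of the cocycle at the base point on elements of `Γ`. -/
theorem coc_mem_base {A : Type*} [AddCommGroup A] (φ : Additive Γ →+ A) (γ : Γ) :
    coc φ (γ : G) ((1 : G) : G ⧸ Γ) = φ (Additive.ofMul γ) := by
  have hx : (γ : G) • ((1 : G) : G ⧸ Γ) = ((1 : G) : G ⧸ Γ) := by
    rw [MulAction.Quotient.smul_mk, smul_eq_mul, mul_one]
    exact QuotientGroup.eq.mpr (by simp)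
  have hσ : (Quotient.out ((1 : G) : G ⧸ Γ) : G) ∈ Γ := by
    have h1 := QuotientGroup.out_eq' ((1 : G) : G ⧸ Γ)
    have h2 := QuotientGroup.eq.mp h1
    simpa using Γ.inv_mem h2
  have key : cocElt Γ (γ : G) ((1 : G) : G ⧸ Γ)
      = (⟨_, hσ⟩ : Γ)⁻¹ * γ * ⟨_, hσ⟩ := by
    apply Subtype.ext
    simp only [cocElt, hx]
    rfl
  rw [coc, key]
  simp [ofMul_mul, ofMul_inv]

end Cocycle

/-! ## Fiber sums -/

section FiberSum

variable {X Q : Type*} [Fintype X]

open scoped Classical in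
/-- sum of a function over the fibers of `π`. -/
noncomputable def fiberSum (π : X → Q) : (X → ℂ) →ₗ[ℂ] (Q → ℂ) where
  toFun m q := ∑ x, if π x = q then m x else 0
  map_add' m m' := by
    funext q
    simp only [Pi.add_apply, ← Finset.sum_add_distrib]
    refine Finset.sum_congr rfl fun x _ => ?_
    split_ifs <;> simp
  map_smul' c m := by
    funext q
    simp only [Pi.smul_apply, smul_eq_mul, RingHom.id_apply, Finset.mul_sum]
    refine Finset.sum_congr rfl fun x _ => ?_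
    split_ifs <;> simp

open scoped Classical in
theorem fiberSum_apply (π : X → Q) (m : X → ℂ) (q : Q) :
    fiberSum π m q = ∑ x, if π x = q then m x else 0 := rfl

open scoped Classical in
theorem fiberSum_single (π : X → Q) (x : X) (c : ℂ) :
    fiberSum π (Pi.single x c) = Pi.single (π x) c := by
  funext q
  rw [fiberSum_apply]
  by_cases hq : π x = q
  · subst hq
    rw [Pi.single_eq_same, Finset.sum_eq_single x]
    · simp
    · intro y _ hy
      simp [Pi.single_eq_of_ne hy]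
    · intro h; exact absurd (Finset.mem_univ x) h
  · rw [Pi.single_eq_of_ne (Ne.symm hq)]
    refine Finset.sum_eq_zero fun y _ => ?_
    by_cases hy : y = x
    · subst hy; simp [hq]
    · simp [Pi.single_eq_of_ne hy]

/-- fiber sums are invariant under precomposition with a fiber-preserving permutation. -/
theorem fiberSum_comp_equiv (π : X → Q) (σ : X ≃ X) (hσ : ∀ x, π (σ x) = π x) (m : X → ℂ) :
    fiberSum π (fun x => m (σ x)) = fiberSum π m := by
  classical
  funext q
  rw [fiberSum_apply, fiberSum_apply]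
  refine Fintype.sum_equiv σ _ _ fun x => ?_
  rw [hσ]

theorem fiberSum_surjective (π : X → Q) (hπ : Function.Surjective π) [Finite Q] :
    Function.Surjective (fiberSum π) := by
  classical
  have := Fintype.ofFinite Q
  intro α
  choose r hr using hπ
  refine ⟨∑ q, Pi.single (r q) (α q), ?_⟩
  rw [map_sum]
  simp only [fiberSum_single, hr]
  funext q
  simp [Finset.sum_apply, Pi.single_apply]

end FiberSum

/-! ## The abstract dimension bound -/

section Main

variable {G : Type*} [Group G] (Γ : Subgroup G)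

/-- projection to the orbits of the cyclic group generated by `g`. -/
def orbProj (g : G) (x : G ⧸ Γ) : MulAction.orbitRel.Quotient (Subgroup.zpowers g) (G ⧸ Γ) :=
  Quotient.mk'' x

theorem orbProj_surjective (g : G) : Function.Surjective (orbProj Γ g) :=
  Quotient.mk''_surjective

theorem orbProj_pow_smul (g : G) (n : ℕ) (x : G ⧸ Γ) :
    orbProj Γ g (g ^ n • x) = orbProj Γ g x := by
  refine Quotient.sound' ?_
  rw [MulAction.orbitRel_apply]
  exact ⟨⟨g ^ n, Subgroup.pow_mem _ (Subgroup.mem_zpowers g) n⟩, rfl⟩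

theorem orbProj_smul (g : G) (x : G ⧸ Γ) : orbProj Γ g (g • x) = orbProj Γ g x := by
  simpa using orbProj_pow_smul Γ g 1 x

/-- translation operator on functions on the coset space: `(ρ_g m)(x) = m(g x)`. -/
noncomputable def rho (g : G) : ((G ⧸ Γ) → ℂ) →ₗ[ℂ] ((G ⧸ Γ) → ℂ) :=
  LinearMap.funLeft ℂ ℂ (fun x => g • x)

@[simp] theorem rho_apply (g : G) (m : (G ⧸ Γ) → ℂ) (x : G ⧸ Γ) : rho Γ g m x = m (g • x) := rfl

variable [Finite (G ⧸ Γ)]

/-- orbit sum map for the cyclic group generated by `g`. -/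
noncomputable def orbSum (g : G) :
    ((G ⧸ Γ) → ℂ) →ₗ[ℂ] (MulAction.orbitRel.Quotient (Subgroup.zpowers g) (G ⧸ Γ) → ℂ) :=
  letI := Fintype.ofFinite (G ⧸ Γ)
  fiberSum (orbProj Γ g)

theorem orbSum_rho_pow (g : G) (n : ℕ) (m : (G ⧸ Γ) → ℂ) :
    orbSum Γ g (rho Γ (g ^ n) m) = orbSum Γ g m := by
  let _ := Fintype.ofFinite (G ⧸ Γ)
  exact fiberSum_comp_equiv (orbProj Γ g) (MulAction.toPerm (g ^ n))
    (fun x => orbProj_pow_smul Γ g n x) m

theorem orbSum_rho (g : G) (m : (G ⧸ Γ) → ℂ) :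
    orbSum Γ g (rho Γ g m) = orbSum Γ g m := by
  simpa using orbSum_rho_pow Γ g 1 m

theorem orbSum_single (g : G) [DecidableEq (G ⧸ Γ)]
    [DecidableEq (MulAction.orbitRel.Quotient (Subgroup.zpowers g) (G ⧸ Γ))] (x : G ⧸ Γ) (c : ℂ) :
    orbSum Γ g (Pi.single x c) = Pi.single (orbProj Γ g x) c := by
  unfold orbSum
  convert @fiberSum_single _ _ (Fintype.ofFinite (G ⧸ Γ)) (orbProj Γ g) x c

theorem orbSum_surjective (g : G) : Function.Surjective (orbSum Γ g) := by
  let _ := Fintype.ofFinite (G ⧸ Γ)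
  exact fiberSum_surjective (orbProj Γ g) (orbProj_surjective Γ g)

/-- if the `n`-fold norm of `c` along `g` vanishes (`n > 0`), the orbit sums of `c` vanish. -/
theorem orbSum_eq_zero_of_norm (g : G) (n : ℕ) (hn : 0 < n) (c : (G ⧸ Γ) → ℂ)
    (h : ∀ x, ∑ j ∈ Finset.range n, c (g ^ j • x) = 0) : orbSum Γ g c = 0 := by
  have h1 : ∑ j ∈ Finset.range n, rho Γ (g ^ j) c = 0 := by
    funext x
    simpa [Finset.sum_apply] using h x
  have h2 := congrArg (orbSum Γ g) h1
  rw [map_sum, map_zero] at h2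
  simp only [orbSum_rho_pow, Finset.sum_const, Finset.card_range] at h2
  have hn' : (n : ℂ) ≠ 0 := by exact_mod_cast hn.ne'
  have h3 : (n : ℂ) • orbSum Γ g c = 0 := by
    rw [← h2, Nat.cast_smul_eq_nsmul]
  exact (smul_eq_zero.mp h3).resolve_left hn'

omit [Finite (G ⧸ Γ)] in
/-- the kernel lemma: a cocycle-plus-coboundary vanishing on generators vanishes identically. -/
theorem kernel_aux (S T : G) (hgen : Subgroup.closure {S, T} = ⊤) (φ : Additive Γ →+ ℂ)
    (m : (G ⧸ Γ) → ℂ)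
    (hS : ∀ x, coc φ S x + m (S • x) - m x = 0)
    (hU : ∀ x, coc φ (S * T) x + m ((S * T) • x) - m x = 0) :
    φ = 0 ∧ ∀ x y, m x = m y := by
  set κ : G → (G ⧸ Γ) → ℂ := fun g x => coc φ g x + m (g • x) - m x with hκ
  have κ_mul : ∀ g h x, κ (g * h) x = κ g (h • x) + κ h x := by
    intro g h x
    simp only [hκ, coc_mul, mul_smul]
    ring
  have κ_one : ∀ x, κ 1 x = 0 := by
    intro x
    simp [hκ, coc_one]
  have κT : ∀ x, κ T x = 0 := by
    intro x
    have h1 := κ_mul S T x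
    have h2 : κ (S * T) x = 0 := hU x
    have h3 : κ S (T • x) = 0 := hS (T • x)
    rw [h2, h3, zero_add] at h1
    exact h1.symm
  have all : ∀ g : G, ∀ x, κ g x = 0 := by
    intro g
    have hg : g ∈ Subgroup.closure {S, T} := by rw [hgen]; trivial
    induction hg using Subgroup.closure_induction with
    | mem y hy =>
      rcases hy with rfl | rfl
      · exact hS
      · exact κT
    | one => exact κ_one
    | mul a b _ _ iha ihb =>
      intro x
      rw [κ_mul, iha, ihb, add_zero]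
    | inv a _ iha =>
      intro x
      have h1 := κ_mul a a⁻¹ x
      rw [mul_inv_cancel, κ_one, iha, zero_add] at h1
      exact h1.symm
  have hφ : φ = 0 := by
    refine AddMonoidHom.ext fun γ => ?_
    obtain ⟨γ, rfl⟩ : ∃ γ' : Γ, Additive.ofMul γ' = γ := ⟨Additive.toMul γ, rfl⟩
    have h1 := all (γ : G) ((1 : G) : G ⧸ Γ)
    have hx : (γ : G) • ((1 : G) : G ⧸ Γ) = ((1 : G) : G ⧸ Γ) := by
      rw [MulAction.Quotient.smul_mk, smul_eq_mul, mul_one]
      exact QuotientGroup.eq.mpr (by simp)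
    simp only [hκ, coc_mem_base, hx, add_sub_cancel_right] at h1
    simpa using h1
  refine ⟨hφ, fun x y => ?_⟩
  obtain ⟨g, rfl⟩ := MulAction.exists_smul_eq G x y
  have h1 := all g x
  simp only [hκ, hφ, coc, AddMonoidHom.zero_apply, zero_add] at h1
  exact (sub_eq_zero.mp h1).symm

/-- the map `(a, b) ↦ (Λ_S a, Λ_{ST} b, Λ_T (b - a))` of orbit sums. -/
noncomputable def psiMap (S T : G) :
    (((G ⧸ Γ) → ℂ) × ((G ⧸ Γ) → ℂ)) →ₗ[ℂ]
      ((MulAction.orbitRel.Quotient (Subgroup.zpowers S) (G ⧸ Γ) → ℂ) ×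
        (MulAction.orbitRel.Quotient (Subgroup.zpowers (S * T)) (G ⧸ Γ) → ℂ) ×
        (MulAction.orbitRel.Quotient (Subgroup.zpowers T) (G ⧸ Γ) → ℂ)) :=
  ((orbSum Γ S) ∘ₗ LinearMap.fst ℂ _ _).prod
    (((orbSum Γ (S * T)) ∘ₗ LinearMap.snd ℂ _ _).prod
      ((orbSum Γ T) ∘ₗ (LinearMap.snd ℂ _ _ - LinearMap.fst ℂ _ _)))

theorem psiMap_apply (S T : G) (a b : (G ⧸ Γ) → ℂ) :
    psiMap Γ S T (a, b) = (orbSum Γ S a, orbSum Γ (S * T) b, orbSum Γ T (b - a)) := rfl

/-- the third inclusion. -/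
noncomputable def iotaThree (S T : G) :
    (MulAction.orbitRel.Quotient (Subgroup.zpowers T) (G ⧸ Γ) → ℂ) →ₗ[ℂ]
      ((MulAction.orbitRel.Quotient (Subgroup.zpowers S) (G ⧸ Γ) → ℂ) ×
        (MulAction.orbitRel.Quotient (Subgroup.zpowers (S * T)) (G ⧸ Γ) → ℂ) ×
        (MulAction.orbitRel.Quotient (Subgroup.zpowers T) (G ⧸ Γ) → ℂ)) :=
  LinearMap.inr ℂ _ _ ∘ₗ LinearMap.inr ℂ _ _

omit [Finite (G ⧸ Γ)] in
theorem iotaThree_apply (S T : G)
    (τ : MulAction.orbitRel.Quotient (Subgroup.zpowers T) (G ⧸ Γ) → ℂ) :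
    iotaThree Γ S T τ = (0, 0, τ) := rfl

theorem psiMap_range_sup (S T : G) (hgen : Subgroup.closure {S, T} = ⊤) (x₀ : G ⧸ Γ)
    [DecidableEq (MulAction.orbitRel.Quotient (Subgroup.zpowers T) (G ⧸ Γ))] :
    LinearMap.range (psiMap Γ S T) ⊔
      Submodule.span ℂ {iotaThree Γ S T (Pi.single (orbProj Γ T x₀) 1)} = ⊤ := by
  classical
  set R := LinearMap.range (psiMap Γ S T) ⊔
      Submodule.span ℂ {iotaThree Γ S T (Pi.single (orbProj Γ T x₀) 1)} with hR
  have hSx : ∀ x, (iotaThree Γ S T (Pi.single (orbProj Γ T x) 1) ∈ R ↔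
      iotaThree Γ S T (Pi.single (orbProj Γ T (S • x)) 1) ∈ R) := by
    intro x
    have hdiff : iotaThree Γ S T (Pi.single (orbProj Γ T x) 1)
        - iotaThree Γ S T (Pi.single (orbProj Γ T (S • x)) 1) ∈ R := by
      refine Submodule.mem_sup_left ⟨(Pi.single (S • x) 1 - Pi.single x 1, 0), ?_⟩
      rw [psiMap_apply, iotaThree_apply, iotaThree_apply]
      simp [map_sub, orbSum_single, orbProj_smul]
    constructor
    · intro h
      have := R.sub_mem h hdiff
      simpa using this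
    · intro h
      have := R.add_mem h hdiff
      simpa using this
  have hall : ∀ g : G, ∀ x, (iotaThree Γ S T (Pi.single (orbProj Γ T x) 1) ∈ R ↔
      iotaThree Γ S T (Pi.single (orbProj Γ T (g • x)) 1) ∈ R) := by
    intro g
    have hg : g ∈ Subgroup.closure {S, T} := by rw [hgen]; trivial
    induction hg using Subgroup.closure_induction with
    | mem y hy =>
      rcases hy with rfl | rfl
      · exact hSx
      · intro x
        rw [orbProj_smul]
    | one => intro x; rw [one_smul]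
    | mul a b _ _ iha ihb =>
      intro x
      rw [mul_smul]
      exact (ihb x).trans (iha (b • x))
    | inv a _ iha =>
      intro x
      have := iha (a⁻¹ • x)
      rw [smul_inv_smul] at this
      exact this.symm
  have hι : ∀ x, iotaThree Γ S T (Pi.single (orbProj Γ T x) 1) ∈ R := by
    intro x
    obtain ⟨g, rfl⟩ := MulAction.exists_smul_eq G x₀ x
    exact (hall g x₀).mp (Submodule.mem_sup_right (Submodule.subset_span rfl))
  have hτ : ∀ τ, iotaThree Γ S T τ ∈ R := by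
    intro τ
    have := Fintype.ofFinite (MulAction.orbitRel.Quotient (Subgroup.zpowers T) (G ⧸ Γ))
    have hdec : τ = ∑ q, τ q • Pi.single q (1 : ℂ) := by
      funext q
      simp [Finset.sum_apply, Pi.single_apply]
    rw [hdec, map_sum]
    refine Submodule.sum_mem _ fun q _ => ?_
    rw [map_smul]
    refine Submodule.smul_mem _ _ ?_
    obtain ⟨x, rfl⟩ := orbProj_surjective Γ T q
    exact hι x
  rw [eq_top_iff]
  rintro ⟨α, β, τ⟩ -
  obtain ⟨a, rfl⟩ := orbSum_surjective Γ S α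
  obtain ⟨b, rfl⟩ := orbSum_surjective Γ (S * T) β
  have h1 : psiMap Γ S T (a, b) ∈ R := Submodule.mem_sup_left ⟨_, rfl⟩
  have h2 := hτ (τ - orbSum Γ T (b - a))
  have h3 := R.add_mem h1 h2
  convert h3 using 1
  rw [psiMap_apply, iotaThree_apply]
  simp

/-- the cocycle as a linear map on a submodule of homs. -/
noncomputable def cocL (E : Submodule ℂ (Additive Γ →+ ℂ)) (g : G) : E →ₗ[ℂ] ((G ⧸ Γ) → ℂ) where
  toFun φ x := coc (φ : Additive Γ →+ ℂ) g x
  map_add' φ ψ := by funext x; simp [coc]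
  map_smul' c φ := by funext x; simp [coc]

omit [Finite (G ⧸ Γ)] in
@[simp] theorem cocL_apply (E : Submodule ℂ (Additive Γ →+ ℂ)) (g : G) (φ : E) (x : G ⧸ Γ) :
    cocL Γ E g φ x = coc (φ : Additive Γ →+ ℂ) g x := rfl

/-- the map `(φ, m) ↦ (c_S + ρ_S m - m, c_{ST} + ρ_{ST} m - m)`. -/
noncomputable def thetaMap (E : Submodule ℂ (Additive Γ →+ ℂ)) (S T : G) :
    (E × ((G ⧸ Γ) → ℂ)) →ₗ[ℂ] (((G ⧸ Γ) → ℂ) × ((G ⧸ Γ) → ℂ)) :=
  ((cocL Γ E S) ∘ₗ LinearMap.fst ℂ _ _ + (rho Γ S - LinearMap.id) ∘ₗ LinearMap.snd ℂ _ _).prod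
    ((cocL Γ E (S * T)) ∘ₗ LinearMap.fst ℂ _ _
      + (rho Γ (S * T) - LinearMap.id) ∘ₗ LinearMap.snd ℂ _ _)

omit [Finite (G ⧸ Γ)] in
theorem thetaMap_apply (E : Submodule ℂ (Additive Γ →+ ℂ)) (S T : G) (φ : E)
    (m : (G ⧸ Γ) → ℂ) :
    thetaMap Γ E S T (φ, m)
      = (cocL Γ E S φ + (rho Γ S m - m), cocL Γ E (S * T) φ + (rho Γ (S * T) m - m)) := rfl

theorem abstract_bound (S T : G) (hgen : Subgroup.closure {S, T} = ⊤)
    (E : Submodule ℂ (Additive Γ →+ ℂ))
    (hS : ∀ φ ∈ E, ∀ x : G ⧸ Γ, coc φ S (S • x) + coc φ S x = 0)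
    (hU : ∀ φ ∈ E, ∀ x : G ⧸ Γ, coc φ (S * T) ((S * T) • (S * T) • x)
        + coc φ (S * T) ((S * T) • x) + coc φ (S * T) x = 0)
    (hT : ∀ φ ∈ E, ∀ (n : ℕ) (x : G ⧸ Γ), T ^ n • x = x → coc φ (T ^ n) x = 0) :
    Module.Finite ℂ E ∧
    Module.finrank ℂ E
      + (Nat.card (MulAction.orbitRel.Quotient (Subgroup.zpowers S) (G ⧸ Γ))
      + Nat.card (MulAction.orbitRel.Quotient (Subgroup.zpowers T) (G ⧸ Γ))
      + Nat.card (MulAction.orbitRel.Quotient (Subgroup.zpowers (S * T)) (G ⧸ Γ)))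
      ≤ Nat.card (G ⧸ Γ) + 2 := by
  classical
  have instX := Fintype.ofFinite (G ⧸ Γ)
  -- kernel of Θ
  have hker : ∀ (φ : E) (m : (G ⧸ Γ) → ℂ), thetaMap Γ E S T (φ, m) = 0 →
      φ = 0 ∧ ∀ x y, m x = m y := by
    intro φ m h
    rw [thetaMap_apply, Prod.mk_eq_zero] at h
    have h1 : ∀ x, coc (φ : Additive Γ →+ ℂ) S x + m (S • x) - m x = 0 := by
      intro x
      have := congrFun h.1 x
      simp only [Pi.add_apply, Pi.sub_apply, cocL_apply, rho_apply, Pi.zero_apply] at this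
      linear_combination this
    have h2 : ∀ x, coc (φ : Additive Γ →+ ℂ) (S * T) x + m ((S * T) • x) - m x = 0 := by
      intro x
      have := congrFun h.2 x
      simp only [Pi.add_apply, Pi.sub_apply, cocL_apply, rho_apply, Pi.zero_apply] at this
      linear_combination this
    obtain ⟨h3, h4⟩ := kernel_aux Γ S T hgen (φ : Additive Γ →+ ℂ) m h1 h2
    exact ⟨Subtype.ext h3, h4⟩
  -- finiteness of E
  have hfin : Module.Finite ℂ E := by
    refine Module.Finite.of_injective ((thetaMap Γ E S T) ∘ₗ LinearMap.inl ℂ _ _) ?_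
    rw [← LinearMap.ker_eq_bot, LinearMap.ker_eq_bot']
    intro φ hφ
    exact (hker φ 0 hφ).1
  refine ⟨hfin, ?_⟩
  -- Ψ ∘ Θ = 0
  have hcomp : ∀ (φ : E) (m : (G ⧸ Γ) → ℂ), psiMap Γ S T (thetaMap Γ E S T (φ, m)) = 0 := by
    intro φ m
    rw [thetaMap_apply, psiMap_apply]
    have hφ := φ.2
    have c1 : orbSum Γ S (cocL Γ E S φ) = 0 := by
      refine orbSum_eq_zero_of_norm Γ S 2 (by norm_num) _ fun x => ?_
      simp only [Finset.sum_range_succ, Finset.sum_range_zero, pow_zero, one_smul, pow_one,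
        zero_add, cocL_apply]
      have := hS φ hφ x
      linear_combination this
    have c2 : orbSum Γ (S * T) (cocL Γ E (S * T) φ) = 0 := by
      refine orbSum_eq_zero_of_norm Γ (S * T) 3 (by norm_num) _ fun x => ?_
      simp only [Finset.sum_range_succ, Finset.sum_range_zero, pow_zero, one_smul, pow_one,
        zero_add, cocL_apply, pow_two, mul_smul]
      have := hU φ hφ x
      simp only [mul_smul] at this
      linear_combination this
    have c3 : orbSum Γ T (fun x => coc (φ : Additive Γ →+ ℂ) T x) = 0 := by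
      set n := orderOf (MulAction.toPermHom G (G ⧸ Γ) T) with hn
      have hnpos : 0 < n := orderOf_pos _
      have hfix : ∀ x : G ⧸ Γ, T ^ n • x = x := by
        intro x
        have h1 : (MulAction.toPermHom G (G ⧸ Γ) T) ^ n = 1 := pow_orderOf_eq_one _
        rw [← map_pow] at h1
        have h2 := DFunLike.congr_fun h1 x
        simpa using h2
      refine orbSum_eq_zero_of_norm Γ T n hnpos _ fun x => ?_
      rw [← coc_pow_eq_sum]
      exact hT φ hφ n x (hfix x)
    have e3 : (cocL Γ E (S * T) φ + (rho Γ (S * T) m - m)) - (cocL Γ E S φ + (rho Γ S m - m))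
        = (rho Γ T (cocL Γ E S φ) - cocL Γ E S φ)
          + (fun x => coc (φ : Additive Γ →+ ℂ) T x) + (rho Γ T (rho Γ S m) - rho Γ S m) := by
      funext x
      simp only [Pi.add_apply, Pi.sub_apply, cocL_apply, rho_apply, coc_mul, mul_smul]
      ring
    rw [e3]
    simp only [map_add, map_sub, orbSum_rho, c1, c2, c3, sub_self, add_zero]
    rfl
  have hΨΘ : LinearMap.range (thetaMap Γ E S T) ≤ LinearMap.ker (psiMap Γ S T) := by
    rintro _ ⟨⟨φ, m⟩, rfl⟩
    exact hcomp φ m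
  obtain ⟨x₀⟩ : Nonempty (G ⧸ Γ) := ⟨((1 : G) : G ⧸ Γ)⟩
  have hkerle : LinearMap.ker (thetaMap Γ E S T)
      ≤ Submodule.span ℂ {((0 : E), (fun _ => (1 : ℂ) : (G ⧸ Γ) → ℂ))} := by
    rintro ⟨φ, m⟩ h
    obtain ⟨h1, h2⟩ := hker φ m h
    rw [Submodule.mem_span_singleton]
    refine ⟨m x₀, ?_⟩
    rw [h1, Prod.smul_mk, smul_zero]
    congr 1
    funext x
    simp [h2 x x₀]
  have d1 := LinearMap.finrank_range_add_finrank_ker (thetaMap Γ E S T)
  have d2 : Module.finrank ℂ (LinearMap.ker (thetaMap Γ E S T)) ≤ 1 := by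
    refine (Submodule.finrank_mono hkerle).trans ?_
    refine (finrank_span_le_card _).trans ?_
    simp
  have d3 := Submodule.finrank_mono hΨΘ
  have d4 := LinearMap.finrank_range_add_finrank_ker (psiMap Γ S T)
  have d5 := psiMap_range_sup Γ S T hgen x₀
  have d6 : Module.finrank ℂ
      ((MulAction.orbitRel.Quotient (Subgroup.zpowers S) (G ⧸ Γ) → ℂ) ×
        (MulAction.orbitRel.Quotient (Subgroup.zpowers (S * T)) (G ⧸ Γ) → ℂ) ×
        (MulAction.orbitRel.Quotient (Subgroup.zpowers T) (G ⧸ Γ) → ℂ))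
      ≤ Module.finrank ℂ (LinearMap.range (psiMap Γ S T)) + 1 := by
    rw [← finrank_top (R := ℂ), ← d5]
    refine (Submodule.finrank_add_le_finrank_add_finrank _ _).trans ?_
    refine Nat.add_le_add_left ?_ _
    refine (finrank_span_le_card _).trans ?_
    simp
  have instS := Fintype.ofFinite (MulAction.orbitRel.Quotient (Subgroup.zpowers S) (G ⧸ Γ))
  have instT := Fintype.ofFinite (MulAction.orbitRel.Quotient (Subgroup.zpowers T) (G ⧸ Γ))
  have instU := Fintype.ofFinite (MulAction.orbitRel.Quotient (Subgroup.zpowers (S * T)) (G ⧸ Γ))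
  simp only [Module.finrank_prod, Module.finrank_fintype_fun_eq_card] at d1 d4 d6
  simp only [Nat.card_eq_fintype_card]
  omega

end Main

/-! ## Specialisation to `SL(2, ℤ)` -/

section SL2Z

/-- central elements of `Γ` of order dividing two are killed by the cocycle. -/
theorem coc_central_sq {G : Type*} [Group G] {Γ : Subgroup G} (z : G) (hz : z ∈ Γ)
    (hc : ∀ g : G, g * z = z * g) (hz2 : z * z = 1) (φ : Additive Γ →+ ℂ) (x : G ⧸ Γ) :
    coc φ z x = 0 := by
  have hx : z • x = x := by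
    induction x using QuotientGroup.induction_on with
    | H g =>
      rw [MulAction.Quotient.smul_mk, smul_eq_mul]
      refine QuotientGroup.eq.mpr ?_
      have : (z * g)⁻¹ * g = z⁻¹ := by rw [← hc g]; group
      rw [this]
      exact Γ.inv_mem hz
  have key : cocElt Γ z x = ⟨z, hz⟩ := by
    apply Subtype.ext
    simp only [cocElt, hx]
    rw [mul_assoc, ← hc, ← mul_assoc, inv_mul_cancel, one_mul]
  rw [coc, key]
  have h2 : (2 : ℂ) • φ (Additive.ofMul (⟨z, hz⟩ : Γ)) = 0 := by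
    rw [two_smul, ← map_add, ← ofMul_mul]
    have : (⟨z, hz⟩ : Γ) * ⟨z, hz⟩ = 1 := Subtype.ext hz2
    rw [this]
    simp
  simpa using h2

theorem S_mul_S_eq_neg_one : ModularGroup.S * ModularGroup.S = (-1 : SL(2, ℤ)) := by
  apply Subtype.ext
  rw [Matrix.SpecialLinearGroup.coe_mul, ModularGroup.S_mul_S_eq]
  simp

theorem ST_cube_eq_neg_one :
    (ModularGroup.S * ModularGroup.T) * ((ModularGroup.S * ModularGroup.T)
      * (ModularGroup.S * ModularGroup.T)) = (-1 : SL(2, ℤ)) := by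
  ext i j
  fin_cases i <;> fin_cases j <;>
    simp [ModularGroup.coe_S, ModularGroup.coe_T, Matrix.mul_apply, Fin.sum_univ_two]

/-- **D2, abstract form**: for a finite-index subgroup `Γ ∋ -1` of `SL(2, ℤ)`, the dimension of
the space of parabolic homs plus the number of orbits of `S`, `T`, `S * T` on `SL(2, ℤ) ⧸ Γ`
is at most the index plus two. -/
theorem finrank_parabolicHoms_add_orbits_le (Γ : Subgroup SL(2, ℤ)) [Γ.FiniteIndex]
    (hneg : (-1 : SL(2, ℤ)) ∈ Γ) :
    Module.Finite ℂ (parabolicHoms ℂ Γ ℂ) ∧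
    Module.finrank ℂ (parabolicHoms ℂ Γ ℂ)
      + (Nat.card (MulAction.orbitRel.Quotient (Subgroup.zpowers ModularGroup.S) (SL(2, ℤ) ⧸ Γ))
      + Nat.card (MulAction.orbitRel.Quotient (Subgroup.zpowers ModularGroup.T) (SL(2, ℤ) ⧸ Γ))
      + Nat.card (MulAction.orbitRel.Quotient
          (Subgroup.zpowers (ModularGroup.S * ModularGroup.T)) (SL(2, ℤ) ⧸ Γ)))
      ≤ Nat.card (SL(2, ℤ) ⧸ Γ) + 2 := by
  have hneg_c : ∀ g : SL(2, ℤ), g * (-1) = (-1) * g := by intro g; simp
  have hneg2 : (-1 : SL(2, ℤ)) * (-1) = 1 := by simp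
  refine abstract_bound Γ ModularGroup.S ModularGroup.T
    SpecialLinearGroup.SL2Z_generators (parabolicHoms ℂ Γ ℂ) ?_ ?_ ?_
  · intro φ _ x
    rw [← coc_mul, S_mul_S_eq_neg_one]
    exact coc_central_sq (-1) hneg hneg_c hneg2 φ x
  · intro φ _ x
    have h := coc_mul φ (ModularGroup.S * ModularGroup.T)
      ((ModularGroup.S * ModularGroup.T) * (ModularGroup.S * ModularGroup.T)) x
    rw [coc_mul φ (ModularGroup.S * ModularGroup.T) (ModularGroup.S * ModularGroup.T) x,
      mul_smul, ST_cube_eq_neg_one, coc_central_sq (-1) hneg hneg_c hneg2 φ x] at h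
    rw [add_assoc]
    exact h.symm
  · intro φ hφ n x hx
    rw [coc]
    apply hφ
    have hcoe : ((cocElt Γ (ModularGroup.T ^ n) x : Γ) : SL(2, ℤ))
        = (Quotient.out x)⁻¹ * ModularGroup.T ^ n * Quotient.out x := by
      simp only [cocElt, hx]
    rw [hcoe]
    have htr : ((((Quotient.out x)⁻¹ * ModularGroup.T ^ n * Quotient.out x : SL(2, ℤ)) :
        Matrix (Fin 2) (Fin 2) ℤ)).trace = 2 := by
      rw [Matrix.SpecialLinearGroup.coe_mul, Matrix.trace_mul_comm,
        ← Matrix.SpecialLinearGroup.coe_mul, mul_inv_cancel_left, ← zpow_natCast,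
        ModularGroup.coe_T_zpow]
      simp [Matrix.trace_fin_two]
    rw [htr]
    norm_num

end SL2Z

/-! ## The bound for `Γ₀(N)` in terms of `genusFormula` -/

section Gamma0

open CongruenceSubgroup ModularCurve

theorem neg_one_mem_Gamma0 (N : ℕ) : (-1 : SL(2, ℤ)) ∈ Gamma0 N := by
  rw [Gamma0_mem]
  simp

/-- **D2 for `Γ₀(N)`**, with the four coset-counting facts as hypotheses. -/
theorem finrank_parabolicHoms_Gamma0_le (N : ℕ) [NeZero N]
    (h1 : (Gamma0 N).index = dedekindPsi N)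
    (hT : Nat.card (MulAction.orbitRel.Quotient (Subgroup.zpowers ModularGroup.T)
      (SL(2, ℤ) ⧸ Gamma0 N)) = cuspCount N)
    (hS : 2 * Nat.card (MulAction.orbitRel.Quotient (Subgroup.zpowers ModularGroup.S)
      (SL(2, ℤ) ⧸ Gamma0 N)) = dedekindPsi N + nuTwo N)
    (hST : 3 * Nat.card (MulAction.orbitRel.Quotient
      (Subgroup.zpowers (ModularGroup.S * ModularGroup.T))
      (SL(2, ℤ) ⧸ Gamma0 N)) = dedekindPsi N + 2 * nuThree N) :
    Module.Finite ℂ (parabolicHoms ℂ (Gamma0 N) ℂ) ∧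
    (Module.finrank ℂ (parabolicHoms ℂ (Gamma0 N) ℂ) : ℚ) ≤ 2 * genusFormula N := by
  obtain ⟨hfin, hle⟩ := finrank_parabolicHoms_add_orbits_le (Gamma0 N) (neg_one_mem_Gamma0 N)
  refine ⟨hfin, ?_⟩
  rw [← Subgroup.index_eq_card, h1, hT] at hle
  have hle' : (Module.finrank ℂ (parabolicHoms ℂ (Gamma0 N) ℂ) : ℚ)
      + ((Nat.card (MulAction.orbitRel.Quotient (Subgroup.zpowers ModularGroup.S)
          (SL(2, ℤ) ⧸ Gamma0 N)) : ℚ) + (cuspCount N : ℚ)
        + (Nat.card (MulAction.orbitRel.Quotient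
          (Subgroup.zpowers (ModularGroup.S * ModularGroup.T)) (SL(2, ℤ) ⧸ Gamma0 N)) : ℚ))
      ≤ (dedekindPsi N : ℚ) + 2 := by
    exact_mod_cast hle
  have hS' : (2 : ℚ) * (Nat.card (MulAction.orbitRel.Quotient (Subgroup.zpowers ModularGroup.S)
      (SL(2, ℤ) ⧸ Gamma0 N)) : ℚ) = (dedekindPsi N : ℚ) + (nuTwo N : ℚ) := by
    exact_mod_cast hS
  have hST' : (3 : ℚ) * (Nat.card (MulAction.orbitRel.Quotient
      (Subgroup.zpowers (ModularGroup.S * ModularGroup.T)) (SL(2, ℤ) ⧸ Gamma0 N)) : ℚ)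
      = (dedekindPsi N : ℚ) + 2 * (nuThree N : ℚ) := by
    exact_mod_cast hST
  unfold genusFormula
  linarith

end Gamma0

end Fermat.Agent.S21.helper681
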