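import Fermat.Agent.S21.helper21_Assembly
import Fermat.Agent.S21.helper681_ParabolicDim
import Fermat.Agent.Lib.helper804_Gamma0Cosets
import Fermat.Agent.S24.helper227_CuspCount

/-!
# S21 / S20: the unconditional upper bounds (captain file, helper21)

* `finrank_parabolicHoms_le` : `dim Hom_par(Γ₀(N), ℂ) ≤ 2 * genusFormula N`
  (helper681's abstract bound + the coset counts of helper804 / helper227);
* `finrank_cuspForm_le` : `dim S₂(Γ₀(N)) ≤ genusFormula N`  (the S20 upper bound);
* `result_of_genus_le` : the S21 statement from the S20 lower bound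
  `genusFormula N ≤ dim S₂(Γ₀(N))`.
-/

set_option autoImplicit false

open ModularCurve ModularCurve.Period CongruenceSubgroup MatrixGroups

namespace Fermat.Agent.S21.helper21

/-- `dim Hom_par(Γ₀(N), ℂ) ≤ 2 g(N)`, unconditionally. -/
theorem finrank_parabolicHoms_le (N : ℕ) [NeZero N] :
    (Module.finrank ℂ (parabolicHoms ℂ (Gamma0 N) ℂ) : ℚ) ≤ 2 * genusFormula N :=
  (Fermat.Agent.S21.helper681.finrank_parabolicHoms_Gamma0_le N
    (Fermat.Agent.Lib.helper804.index_Gamma0 N)
    (Fermat.Agent.S24.helper227.card_orbits_T N)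
    (Fermat.Agent.Lib.helper804.card_orbits_S N)
    (Fermat.Agent.Lib.helper804.card_orbits_ST N)).2

/-- **The S20 upper bound**: `dim S₂(Γ₀(N)) ≤ g(N)`, unconditionally. -/
theorem finrank_cuspForm_le (N : ℕ) [NeZero N] :
    (Module.finrank ℂ (CuspForm (Gamma0 N) 2) : ℚ) ≤ genusFormula N := by
  have h1 := finrank_parabolicHoms_le N
  have h2 : ((2 * Module.finrank ℂ (CuspForm (Gamma0 N) 2) : ℕ) : ℚ)
      ≤ (Module.finrank ℂ (parabolicHoms ℂ (Gamma0 N) ℂ) : ℚ) := by
    exact_mod_cast two_mul_finrank_cuspForm_le N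
  push_cast at h2
  linarith

/-- The S21 statement from the S20 lower bound `g(N) ≤ dim S₂(Γ₀(N))`. -/
theorem result_of_genus_le (N : ℕ) [NeZero N]
    (h : genusFormula N ≤ (Module.finrank ℂ (CuspForm (Gamma0 N) 2) : ℚ)) :
    Function.Injective (periodHomPair N)
      ∧ LinearMap.range (periodHomPair N) = parabolicHoms ℂ (Gamma0 N) ℂ := by
  refine result_of_rank N ?_
  have h1 := finrank_parabolicHoms_le N
  have h2 : (Module.finrank ℂ (parabolicHoms ℂ (Gamma0 N) ℂ) : ℚ)
      ≤ ((2 * Module.finrank ℂ (CuspForm (Gamma0 N) 2) : ℕ) : ℚ) := by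
    push_cast
    linarith
  exact_mod_cast h2

/-- The S20 statement from the S20 lower bound. -/
theorem finrank_cuspForm_eq_of_genus_le (N : ℕ) [NeZero N]
    (h : genusFormula N ≤ (Module.finrank ℂ (CuspForm (Gamma0 N) 2) : ℚ)) :
    (Module.finrank ℂ (CuspForm (Gamma0 N) 2) : ℚ) = genusFormula N :=
  le_antisymm (finrank_cuspForm_le N) h

end Fermat.Agent.S21.helper21
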