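import Fermat.Agent.S20.helper1040_Assembly
import Fermat.Agent.S20.helper1235_StmtFree1040
import Fermat.Agent.S20.helper116_Sep
import Fermat.Agent.S20.helper1559_Liouville
import Fermat.Agent.S20.helper2507_Basic
import Fermat.Agent.S20.helper5021_Ell
import Fermat.Agent.S20.helper1177_CuspFact
import Fermat.Agent.S20.helper4608_Dual
import Fermat.Agent.S20.helper34_StmtIndex1040
import Fermat.Agent.S20.helper2600_Goals
import Fermat.Agent.S21.helper21_Upper

/-!
# S20 and S21 through Track B (helper1040 Spec), captain file helper21

All leaves of `helper1040.result_of_leaves` are on main; this file plugs them in and derives the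
frozen statements S20 and S21 (the latter through `helper21.result_of_genus_le`).
-/

set_option autoImplicit false

open CongruenceSubgroup MatrixGroups

namespace Fermat.Agent.S21.helper21

/-- **The frozen statement S20 (verbatim)**, through Track B. -/
theorem s20_trackB (N : ℕ) [NeZero N] :
    (Module.finrank ℂ (CuspForm (CongruenceSubgroup.Gamma0 N) 2) : ℚ) =
      ModularCurve.genusFormula N := by
  classical
  have : Fintype (SL(2, ℤ) ⧸ Gamma0 N) := Fintype.ofFinite _
  exact Fermat.Agent.S20.helper1040.result_of_leaves N
    (Fermat.Agent.S20.helper1235.stmt_Free N)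
    (Fermat.Agent.S20.helper116.stmt_Sep N)
    (Fermat.Agent.S20.helper1559.stmt_liouville _)
    (Fermat.Agent.S20.helper2507.stmt_basic _ (Fermat.Agent.S21.helper681.neg_one_mem_Gamma0 N))
    (Fermat.Agent.S20.helper5021.stmt_ell _)
    (Fermat.Agent.S20.helper1177.stmt_CuspFact _)
    (Fermat.Agent.S20.helper4608.stmt_dual _)
    (Fermat.Agent.S20.helper34.stmt_Index_1040 N)
    (Fermat.Agent.S20.helper2600.stmt_EllTwo N)
    (Fermat.Agent.S20.helper2600.stmt_EllThree N)
    (Fermat.Agent.S20.helper2600.stmt_CuspNum N)

/-- **The frozen statement S21 (verbatim)**, through Track B. -/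
theorem s21_trackB (N : ℕ) [NeZero N] :
    Function.Injective (ModularCurve.periodHomPair N)
      ∧ LinearMap.range (ModularCurve.periodHomPair N)
          = ModularCurve.Period.parabolicHoms ℂ (CongruenceSubgroup.Gamma0 N) ℂ :=
  result_of_genus_le N (s20_trackB N).ge

end Fermat.Agent.S21.helper21
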