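/-
helper2438: board row 33 (S21-Dfin).
`parabolicHoms ℂ (Gamma0 N) ℂ` is a finite-dimensional complex vector space, because
`Gamma0 N` has finite index in `SL(2, ℤ) = ⟨S, T⟩` and is therefore finitely generated.
-/
import Fermat.Prelude.Def_ModularCurve_PeriodMap
import Mathlib.GroupTheory.Schreier
import Mathlib.LinearAlgebra.Matrix.FixedDetMatrices
import Mathlib.NumberTheory.ModularForms.CongruenceSubgroups
import Mathlib.LinearAlgebra.FiniteDimensional.Defs
import Mathlib.RingTheory.Noetherian.Basic

set_option autoImplicit false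

namespace Fermat.Agent.S21.helper2438

open scoped MatrixGroups

/-- `SL(2, ℤ)` is finitely generated (by `S` and `T`). -/
theorem fg_SL2Z : Group.FG SL(2, ℤ) := by
  classical
  rw [Group.fg_iff]
  refine ⟨{ModularGroup.S, ModularGroup.T}, SpecialLinearGroup.SL2Z_generators, ?_⟩
  exact Set.toFinite _

/-- Any finite-index subgroup of `SL(2, ℤ)` is finitely generated. -/
theorem fg_of_finiteIndex (Γ : Subgroup SL(2, ℤ)) [Γ.FiniteIndex] : Group.FG Γ :=
  haveI : Group.FG SL(2, ℤ) := fg_SL2Z
  Subgroup.fg_of_index_ne_zero Γ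

/-- `Gamma0 N` is finitely generated for `N ≠ 0`. -/
theorem fg_Gamma0 (N : ℕ) [NeZero N] : Group.FG (CongruenceSubgroup.Gamma0 N) :=
  fg_of_finiteIndex _

/-- Additive characters of a finitely generated group with values in a field form a
finite-dimensional vector space. -/
theorem finite_addHom_of_fg (G : Type*) [Group G] [Group.FG G] (K : Type*) [Field K] :
    Module.Finite K (Additive G →+ K) := by
  classical
  obtain ⟨S, hS⟩ := Group.fg_def.mp (inferInstance : Group.FG G)
  let ev : (Additive G →+ K) →ₗ[K] ({x // x ∈ S} → K) :=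
    { toFun := fun φ s => φ (Additive.ofMul (s : G))
      map_add' := fun _ _ => rfl
      map_smul' := fun _ _ => rfl }
  have hinj : Function.Injective ev := by
    intro φ ψ h
    refine AddMonoidHom.ext fun g => ?_
    have hg : Additive.toMul g ∈ Subgroup.closure (S : Set G) := by rw [hS]; trivial
    have key : ∀ x ∈ Subgroup.closure (S : Set G),
        φ (Additive.ofMul x) = ψ (Additive.ofMul x) := by
      intro x hx
      induction hx using Subgroup.closure_induction with
      | mem x hx => exact congrFun h ⟨x, Finset.mem_coe.mp hx⟩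
      | one => rw [ofMul_one, map_zero, map_zero]
      | mul x y _ _ hx hy => rw [ofMul_mul, map_add, map_add, hx, hy]
      | inv x _ hx => rw [ofMul_inv, map_neg, map_neg, hx]
    exact key _ hg
  exact Module.Finite.of_injective ev hinj

/-- Board row 33 (S21-Dfin), for any finite-index subgroup. -/
theorem parabolicHoms_finite_of_finiteIndex (Γ : Subgroup SL(2, ℤ)) [Γ.FiniteIndex] :
    Module.Finite ℂ ↥(ModularCurve.Period.parabolicHoms ℂ Γ ℂ) := by
  have : Group.FG Γ := fg_of_finiteIndex Γ
  have : Module.Finite ℂ (Additive Γ →+ ℂ) := finite_addHom_of_fg Γ ℂ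
  infer_instance

/-- Board row 33 (S21-Dfin): `parabolicHoms ℂ (Gamma0 N) ℂ` is finite-dimensional. -/
theorem parabolicHoms_finite (N : ℕ) [NeZero N] :
    Module.Finite ℂ ↥(ModularCurve.Period.parabolicHoms ℂ (CongruenceSubgroup.Gamma0 N) ℂ) :=
  parabolicHoms_finite_of_finiteIndex _

/-- The ambient space of all additive characters of `Gamma0 N` is finite-dimensional too. -/
theorem addHom_Gamma0_finite (N : ℕ) [NeZero N] :
    Module.Finite ℂ (Additive (CongruenceSubgroup.Gamma0 N) →+ ℂ) := by
  have : Group.FG (CongruenceSubgroup.Gamma0 N) := fg_of_finiteIndex _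
  exact finite_addHom_of_fg _ ℂ

end Fermat.Agent.S21.helper2438
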