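import Fermat.Agent.S21.helper921_Wiring

set_option autoImplicit false

namespace Fermat.Agent.S21.helper376

open ModularCurve ModularCurve.Period CongruenceSubgroup UpperHalfPlane Filter Topology
open scoped MatrixGroups

/-- Build an element of `SL(2, ℤ)` with prescribed first column `(x, y)` from a Bezout
relation `u * x + v * y = 1`. -/
def colSL (x y u v : ℤ) (h : u * x + v * y = 1) : SL(2, ℤ) :=
  ⟨!![x, -v; y, u], by rw [Matrix.det_fin_two_of]; linarith⟩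

theorem lowerLeft_conj (γ δ : SL(2, ℤ)) :
    (δ⁻¹ * γ * δ) 1 0
      = -(δ 1 0) * (γ 0 0 * δ 0 0 + γ 0 1 * δ 1 0) + δ 0 0 * (γ 1 0 * δ 0 0 + γ 1 1 * δ 1 0) := by
  simp only [Matrix.SpecialLinearGroup.coe_mul, Matrix.SpecialLinearGroup.coe_inv,
    Matrix.adjugate_fin_two, Matrix.mul_apply, Fin.sum_univ_two, Matrix.of_apply,
    Matrix.cons_val_zero, Matrix.cons_val_one]
  ring

/-- A trace `±2` element of `SL(2, ℤ)` is `SL(2, ℤ)`-conjugate to an upper triangular matrix. -/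
theorem exists_conj_lowerLeft_eq_zero (γ : SL(2, ℤ))
    (h : (γ : Matrix (Fin 2) (Fin 2) ℤ).trace ^ 2 = 4) :
    ∃ δ : SL(2, ℤ), (δ⁻¹ * γ * δ) 1 0 = 0 := by
  have hdet : γ 0 0 * γ 1 1 - γ 0 1 * γ 1 0 = 1 := by
    have := γ.det_coe
    rwa [Matrix.det_fin_two] at this
  rw [Matrix.trace_fin_two] at h
  by_cases hc : γ 1 0 = 0
  · exact ⟨1, by simpa using hc⟩
  -- `ε = ±1` with `a + d = 2 ε`
  obtain ⟨ε, hε, htr⟩ : ∃ ε : ℤ, ε ^ 2 = 1 ∧ γ 0 0 + γ 1 1 = 2 * ε := by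
    have h' : (γ 0 0 + γ 1 1 - 2) * (γ 0 0 + γ 1 1 + 2) = 0 := by linear_combination h
    rcases mul_eq_zero.mp h' with h1 | h1
    · exact ⟨1, by norm_num, by linarith⟩
    · exact ⟨-1, by norm_num, by linarith⟩
  -- eigenvector `(ε - d, c)`
  have hg : 0 < Int.gcd (ε - γ 1 1) (γ 1 0) := Int.gcd_pos_of_ne_zero_right _ hc
  obtain ⟨x, y, hxy, hx, hy⟩ := Int.exists_gcd_one hg
  obtain ⟨u, v, huv⟩ := Int.isCoprime_iff_gcd_eq_one.mpr hxy
  refine ⟨colSL x y u v huv, ?_⟩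
  rw [lowerLeft_conj]
  have e00 : (colSL x y u v huv) 0 0 = x := rfl
  have e10 : (colSL x y u v huv) 1 0 = y := rfl
  rw [e00, e10]
  set g : ℤ := (Int.gcd (ε - γ 1 1) (γ 1 0) : ℤ) with hgdef
  have hg0 : g ≠ 0 := by
    have : (0 : ℤ) < g := by rw [hgdef]; exact_mod_cast hg
    exact this.ne'
  have key : g ^ 2 * (-y * (γ 0 0 * x + γ 0 1 * y) + x * (γ 1 0 * x + γ 1 1 * y)) = 0 := by
    have hx' : x * g = ε - γ 1 1 := hx.symm
    have hy' : y * g = γ 1 0 := hy.symm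
    have : g ^ 2 * (-y * (γ 0 0 * x + γ 0 1 * y) + x * (γ 1 0 * x + γ 1 1 * y))
        = -(y * g) * (γ 0 0 * (x * g) + γ 0 1 * (y * g))
          + (x * g) * (γ 1 0 * (x * g) + γ 1 1 * (y * g)) := by ring
    rw [this, hx', hy']
    have ha : γ 0 0 = 2 * ε - γ 1 1 := by linarith
    rw [ha] at hdet ⊢
    linear_combination (γ 1 0) * hdet - (γ 1 0) * hε
  exact (mul_eq_zero.mp key).resolve_left (pow_ne_zero 2 hg0)


/-- The period homomorphism of an equivariant primitive vanishes on trace `±2` elements. -/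
theorem periodMap_apply_eq_zero_of_trace {N : ℕ} {f : CuspForm (Gamma0 N) 2} {F : ℍ → ℂ}
    (hF : HasEquivariantPrimitive N f F) (γ : Gamma0 N)
    (hγ : ((γ : SL(2, ℤ)) : Matrix (Fin 2) (Fin 2) ℤ).trace ^ 2 = 4) :
    periodMap N f (Additive.ofMul γ) = 0 := by
  obtain ⟨δ, hδ⟩ := exists_conj_lowerLeft_eq_zero (γ : SL(2, ℤ)) hγ
  obtain ⟨L, hL⟩ := hF.2.2.2 δ
  set g : SL(2, ℤ) := δ⁻¹ * γ * δ with hg
  have hper : ∀ z : ℍ, F ((γ : SL(2, ℤ)) • z) - F z = periodMap N f (Additive.ofMul γ) := by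
    intro z
    rw [helper921.periodMap_eq_of_primitive hF]
    exact hF.2.2.1.sub_eq_period γ z
  have hsmul : ∀ w : ℍ, (γ : SL(2, ℤ)) • (δ • w) = δ • (g • w) := by
    intro w
    rw [hg, ← mul_smul, ← mul_smul]
    congr 1
    group
  have htend : Tendsto (fun w : ℍ => g • w) atImInfty atImInfty := by
    have := UpperHalfPlane.tendsto_smul_atImInfty (g := (g : GL (Fin 2) ℝ)) (by simp [hδ])
    exact this
  have h1 : Tendsto (fun w : ℍ => F (δ • (g • w))) atImInfty (𝓝 L) := hL.comp htend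
  have h2 : Tendsto (fun w : ℍ => F (δ • (g • w)) - F (δ • w)) atImInfty (𝓝 (L - L)) :=
    h1.sub hL
  have h3 : (fun w : ℍ => F (δ • (g • w)) - F (δ • w))
      = fun _ => periodMap N f (Additive.ofMul γ) := by
    funext w
    rw [← hsmul w]
    exact hper (δ • w)
  rw [h3, sub_self] at h2
  exact tendsto_nhds_unique tendsto_const_nhds h2

/-- **S21-B**: given (A) (existence of equivariant primitives), the period homomorphism of
every weight-2 cusp form on `Γ₀(N)` is a parabolic homomorphism. -/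
theorem stmtB_of_stmtA (N : ℕ) (hA : helper921.StmtA N) : helper921.StmtB N := by
  intro f
  obtain ⟨F, hF⟩ := hA f
  rw [mem_parabolicHoms_iff]
  intro γ hγ
  exact periodMap_apply_eq_zero_of_trace hF γ hγ

end Fermat.Agent.S21.helper376
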