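import Fermat.Agent.S21.helper921_Wiring

set_option autoImplicit false

namespace Fermat.Agent.S21.helper81

open UpperHalfPlane CongruenceSubgroup ModularCurve ModularCurve.Period Filter Topology Function
open scoped MatrixGroups Manifold ComplexConjugate ModularForm

local notation "𝕢" => Periodic.qParam

/-- `T ^ N`-conjugates lie in `Gamma0 N`. -/
theorem conj_T_pow_mem_Gamma0 (N : ℕ) (δ : SL(2, ℤ)) :
    δ * ModularGroup.T ^ (N : ℤ) * δ⁻¹ ∈ Gamma0 N := by
  have h1 : ModularGroup.T ^ (N : ℤ) ∈ Gamma N := by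
    simpa using ModularGroup_T_pow_mem_Gamma (N : ℤ) (N : ℤ) dvd_rfl
  have h2 : δ * ModularGroup.T ^ (N : ℤ) * δ⁻¹ ∈ Gamma N :=
    (Gamma_normal N).conj_mem _ h1 δ
  rw [Gamma_mem] at h2
  rw [Gamma0_mem]
  exact h2.2.2.1

/-- translation by a real number preserves `atImInfty`. -/
theorem tendsto_vadd_atImInfty (x : ℝ) :
    Tendsto (fun w : ℍ => x +ᵥ w) atImInfty atImInfty := by
  rw [atImInfty, tendsto_comap_iff]
  have : (UpperHalfPlane.im ∘ fun w : ℍ => x +ᵥ w) = UpperHalfPlane.im := by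
    funext w
    simp [UpperHalfPlane.vadd_im]
  rw [this]
  exact tendsto_comap

/-- The key periodicity: if `K` has constant periods along `Gamma0 N` and limits at all cusps,
then `K (δ • (N +ᵥ w)) = K (δ • w)`. -/
theorem K_periodic (N : ℕ) (K : ℍ → ℂ)
    (hper : ∀ γ : Gamma0 N, ∃ c : ℂ, ∀ z : ℍ, K ((γ : SL(2, ℤ)) • z) - K z = c)
    (hlim : ∀ δ : SL(2, ℤ), ∃ L : ℂ, Tendsto (fun w : ℍ => K (δ • w)) atImInfty (𝓝 L))
    (δ : SL(2, ℤ)) (w : ℍ) : K (δ • ((N : ℝ) +ᵥ w)) = K (δ • w) := by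
  obtain ⟨c, hc⟩ := hper ⟨_, conj_T_pow_mem_Gamma0 N δ⟩
  obtain ⟨L, hL⟩ := hlim δ
  have key : ∀ w : ℍ, K (δ • ((N : ℝ) +ᵥ w)) - K (δ • w) = c := by
    intro w
    have := hc (δ • w)
    rw [← this]
    congr 2
    simp only
    rw [← mul_smul, inv_mul_cancel_right, mul_smul, modular_T_zpow_smul]
    simp
  have h1 : Tendsto (fun w : ℍ => K (δ • ((N : ℝ) +ᵥ w)) - K (δ • w)) atImInfty (𝓝 (L - L)) :=
    (hL.comp (tendsto_vadd_atImInfty N)).sub hL
  have h2 : Tendsto (fun w : ℍ => K (δ • ((N : ℝ) +ᵥ w)) - K (δ • w)) atImInfty (𝓝 c) := by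
    simp_rw [key]; exact tendsto_const_nhds
  have hc0 : c = 0 := by
    have := tendsto_nhds_unique h2 h1
    simpa using this
  have := key w
  rw [hc0] at this
  exact sub_eq_zero.mp this

/-- exponential of `K` translated by `δ`. -/
noncomputable def expK (K : ℍ → ℂ) (δ : SL(2, ℤ)) : ℍ → ℂ := fun w => Complex.exp (K (δ • w))

theorem expK_mdiff (K : ℍ → ℂ) (hK : MDiff K) (δ : SL(2, ℤ)) : MDiff (expK K δ) := by
  have h1 : MDiff (fun w : ℍ => K (δ • w)) := by
    have hg : 0 < ((δ : GL (Fin 2) ℝ)).det.val := by simp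
    exact hK.comp (mdifferentiable_smul hg)
  rw [UpperHalfPlane.mdifferentiable_iff] at h1 ⊢
  exact h1.cexp

theorem expK_bdd (K : ℍ → ℂ) (δ : SL(2, ℤ))
    (hlim : ∃ L : ℂ, Tendsto (fun w : ℍ => K (δ • w)) atImInfty (𝓝 L)) :
    IsBoundedAtImInfty (expK K δ) := by
  obtain ⟨L, hL⟩ := hlim
  have : Tendsto (expK K δ) atImInfty (𝓝 (Complex.exp L)) :=
    (Complex.continuous_exp.tendsto L).comp hL
  exact this.isBigO_one ℝ

theorem expK_periodic (N : ℕ) (K : ℍ → ℂ)
    (hper : ∀ γ : Gamma0 N, ∃ c : ℂ, ∀ z : ℍ, K ((γ : SL(2, ℤ)) • z) - K z = c)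
    (hlim : ∀ δ : SL(2, ℤ), ∃ L : ℂ, Tendsto (fun w : ℍ => K (δ • w)) atImInfty (𝓝 L))
    (δ : SL(2, ℤ)) : Periodic (expK K δ ∘ ofComplex) ((N : ℝ) : ℂ) := by
  intro w
  by_cases hw : 0 < Complex.im w
  · have hw' : 0 < Complex.im (w + ((N : ℝ) : ℂ)) := by simp [hw]
    simp only [comp_apply, ofComplex_apply_of_im_pos hw', ofComplex_apply_of_im_pos hw]
    have e : (⟨w + ((N : ℝ) : ℂ), hw'⟩ : ℍ) = (N : ℝ) +ᵥ (⟨w, hw⟩ : ℍ) := by
      ext
      simp [add_comm]
    rw [e, expK, expK, K_periodic N K hper hlim δ]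
  · have hw1 : Complex.im w ≤ 0 := not_lt.mp hw
    have hw' : Complex.im (w + ((N : ℝ) : ℂ)) ≤ 0 := by simpa using hw1
    simp only [comp_apply]
    rw [ofComplex_apply_of_im_nonpos hw', ofComplex_apply_of_im_nonpos hw1]

/-- Main lemma: a holomorphic `K` on `ℍ` with constant purely imaginary periods along `Gamma0 N`
and limits at all cusps has `exp ∘ K` constant. -/
theorem expK_const (N : ℕ) [NeZero N] (K : ℍ → ℂ) (hK : MDiff K)
    (hper : ∀ γ : Gamma0 N, ∃ c : ℂ, c.re = 0 ∧ ∀ z : ℍ, K ((γ : SL(2, ℤ)) • z) - K z = c)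
    (hlim : ∀ δ : SL(2, ℤ), ∃ L : ℂ, Tendsto (fun w : ℍ => K (δ • w)) atImInfty (𝓝 L)) :
    ∃ C : ℂ, ∀ z : ℍ, Complex.exp (K z) = C := by
  have hper' : ∀ γ : Gamma0 N, ∃ c : ℂ, ∀ z : ℍ, K ((γ : SL(2, ℤ)) • z) - K z = c :=
    fun γ => let ⟨c, _, hc⟩ := hper γ; ⟨c, hc⟩
  have hN : (0 : ℝ) < (N : ℝ) := by exact_mod_cast Nat.pos_of_ne_zero (NeZero.ne N)
  -- cusp functions
  set φ : SL(2, ℤ) → ℂ → ℂ := fun δ => cuspFunction (N : ℝ) (expK K δ) with hφ
  have hφ_diff : ∀ δ, DifferentiableOn ℂ (φ δ) (Metric.ball 0 1) := fun δ =>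
    differentiableOn_cuspFunction_ball hN (expK_periodic N K hper' hlim δ) (expK_mdiff K hK δ)
      (expK_bdd K δ (hlim δ))
  have hφ_eq : ∀ δ (w : ℍ), φ δ (𝕢 (N : ℝ) w) = expK K δ w := fun δ w =>
    eq_cuspFunction w hN.ne' (expK_periodic N K hper' hlim δ)
  -- norm invariance
  have hnorm : ∀ (γ : Gamma0 N) (z : ℍ),
      ‖Complex.exp (K ((γ : SL(2, ℤ)) • z))‖ = ‖Complex.exp (K z)‖ := by
    intro γ z
    obtain ⟨c, hc0, hc⟩ := hper γ
    have : K ((γ : SL(2, ℤ)) • z) = K z + c := by rw [← hc z]; ring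
    rw [this, Complex.norm_exp, Complex.norm_exp, Complex.add_re, hc0, add_zero]
  -- radius
  set r : ℝ := Real.exp (-Real.pi / N) with hr
  have hr0 : 0 ≤ r := (Real.exp_pos _).le
  have hr1 : r < 1 := by
    rw [hr, Real.exp_lt_one_iff]
    exact div_neg_of_neg_of_pos (neg_lt_zero.mpr Real.pi_pos) hN
  -- finite quotient
  have : Finite (SL(2, ℤ) ⧸ Gamma0 N) := Subgroup.finite_quotient_of_finiteIndex
  have := Fintype.ofFinite (SL(2, ℤ) ⧸ Gamma0 N)
  set rep : SL(2, ℤ) ⧸ Gamma0 N → SL(2, ℤ) := fun q => (Quotient.out q)⁻¹ with hrep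
  -- maxima on closed ball
  have hmax : ∀ q : SL(2, ℤ) ⧸ Gamma0 N, ∃ x ∈ Metric.closedBall (0 : ℂ) r,
      ∀ y ∈ Metric.closedBall (0 : ℂ) r, ‖φ (rep q) y‖ ≤ ‖φ (rep q) x‖ := by
    intro q
    have hcont : ContinuousOn (fun y => ‖φ (rep q) y‖) (Metric.closedBall (0 : ℂ) r) :=
      ((hφ_diff (rep q)).continuousOn.mono (Metric.closedBall_subset_ball hr1)).norm
    obtain ⟨x, hx, hxmax⟩ :=
      (isCompact_closedBall (0 : ℂ) r).exists_isMaxOn ⟨0, by simp [hr0]⟩ hcont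
    exact ⟨x, hx, fun y hy => hxmax hy⟩
  choose x hx hxmax using hmax
  obtain ⟨q₀, -, hq₀⟩ := Finset.exists_max_image Finset.univ (fun q => ‖φ (rep q) (x q)‖)
    ⟨((1 : SL(2, ℤ)) : SL(2, ℤ) ⧸ Gamma0 N), Finset.mem_univ _⟩
  -- global bound
  have hbound : ∀ z : ℍ, ‖Complex.exp (K z)‖ ≤ ‖φ (rep q₀) (x q₀)‖ := by
    intro z
    obtain ⟨g, hg⟩ := ModularGroup.exists_one_half_le_im_smul z
    obtain ⟨h, hh⟩ := QuotientGroup.mk_out_eq_mul (Gamma0 N) g
    have hz : z = ((h : SL(2, ℤ))) • (rep (g : SL(2, ℤ) ⧸ Gamma0 N) • (g • z)) := by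
      rw [hrep]
      simp only
      rw [hh, ← mul_smul, ← mul_smul]
      simp
    have hq : 𝕢 (N : ℝ) ((g • z : ℍ) : ℂ) ∈ Metric.closedBall (0 : ℂ) r := by
      rw [mem_closedBall_zero_iff, Periodic.norm_qParam, hr]
      apply Real.exp_le_exp.mpr
      rw [div_le_div_iff_of_pos_right hN]
      have : (1 : ℝ) / 2 ≤ ((g • z : ℍ) : ℂ).im := hg
      nlinarith [Real.pi_pos]
    calc ‖Complex.exp (K z)‖
        = ‖Complex.exp (K (rep (g : SL(2, ℤ) ⧸ Gamma0 N) • (g • z)))‖ := by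
          conv_lhs => rw [hz]
          exact hnorm h _
      _ = ‖φ (rep (g : SL(2, ℤ) ⧸ Gamma0 N)) (𝕢 (N : ℝ) ((g • z : ℍ) : ℂ))‖ := by
          rw [hφ_eq]; rfl
      _ ≤ ‖φ (rep (g : SL(2, ℤ) ⧸ Gamma0 N)) (x _)‖ := hxmax _ _ hq
      _ ≤ ‖φ (rep q₀) (x q₀)‖ := hq₀ _ (Finset.mem_univ _)
  -- apply the maximum principle to `φ (rep q₀)`
  have hconst : Set.EqOn (φ (rep q₀)) (Function.const ℂ (φ (rep q₀) 0)) (Metric.ball 0 1) := by
    refine Complex.eq_const_of_exists_le (hφ_diff (rep q₀)) hr0 hr1 (fun z hz => ?_)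
    rcases eq_or_ne z 0 with rfl | hz0
    · exact ⟨0, by simp [hr0], le_rfl⟩
    · refine ⟨x q₀, hx q₀, ?_⟩
      have him : 0 < (Periodic.invQParam (N : ℝ) z).im :=
        Periodic.im_invQParam_pos_of_norm_lt_one hN (mem_ball_zero_iff.mp hz) hz0
      have e : φ (rep q₀) z = expK K (rep q₀) ⟨_, him⟩ := by
        rw [← hφ_eq]
        congr 1
        exact (Periodic.qParam_right_inv hN.ne' hz0).symm
      rw [e]
      exact hbound _
  refine ⟨φ (rep q₀) 0, fun z => ?_⟩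
  have hz : z = rep q₀ • ((rep q₀)⁻¹ • z) := by rw [← mul_smul]; simp
  have hb : 𝕢 (N : ℝ) (((rep q₀)⁻¹ • z : ℍ) : ℂ) ∈ Metric.ball (0 : ℂ) 1 := by
    rw [mem_ball_zero_iff]
    exact Periodic.norm_qParam_lt_one hN (UpperHalfPlane.im_pos _)
  have := hconst hb
  rw [hφ_eq] at this
  conv_lhs => rw [hz]
  exact this

theorem convex_upperHalfPlaneSet : Convex ℝ upperHalfPlaneSet := by
  have : upperHalfPlaneSet = Complex.imCLM ⁻¹' (Set.Ioi (0 : ℝ)) := by
    ext z; simp [upperHalfPlaneSet]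
  rw [this]
  exact (convex_Ioi (0 : ℝ)).linear_preimage Complex.imCLM.toLinearMap

/-- If `exp ∘ K` is constant on `ℍ` for a holomorphic `K`, then `K` is constant. -/
theorem const_of_exp_const (K : ℍ → ℂ) (hK : MDiff K) (C : ℂ)
    (hC : ∀ z : ℍ, Complex.exp (K z) = C) : ∀ z w : ℍ, K z = K w := by
  rw [UpperHalfPlane.mdifferentiable_iff] at hK
  have hderiv : ∀ x ∈ upperHalfPlaneSet, deriv (K ∘ ofComplex) x = 0 := by
    intro x hx
    have hd : DifferentiableAt ℂ (K ∘ ofComplex) x :=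
      (hK x hx).differentiableAt (isOpen_upperHalfPlaneSet.mem_nhds hx)
    have h1 : HasDerivAt (fun y => Complex.exp ((K ∘ ofComplex) y))
        (Complex.exp ((K ∘ ofComplex) x) * deriv (K ∘ ofComplex) x) x := hd.hasDerivAt.cexp
    have h2 : (fun y => Complex.exp ((K ∘ ofComplex) y)) = fun _ => C := by
      funext y
      exact hC _
    rw [h2] at h1
    have := h1.unique (hasDerivAt_const x C)
    exact (mul_eq_zero.mp this).resolve_left (Complex.exp_ne_zero _)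
  intro z w
  have := isOpen_upperHalfPlaneSet.is_const_of_deriv_eq_zero
    convex_upperHalfPlaneSet.isPreconnected hK (fun x hx => hderiv x hx) z.im_pos w.im_pos
  simpa using this

/-- A holomorphic `K` on `ℍ` with constant purely imaginary periods along `Gamma0 N`
and limits at all cusps is constant. -/
theorem const_of_re_invariant (N : ℕ) [NeZero N] (K : ℍ → ℂ) (hK : MDiff K)
    (hper : ∀ γ : Gamma0 N, ∃ c : ℂ, c.re = 0 ∧ ∀ z : ℍ, K ((γ : SL(2, ℤ)) • z) - K z = c)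
    (hlim : ∀ δ : SL(2, ℤ), ∃ L : ℂ, Tendsto (fun w : ℍ => K (δ • w)) atImInfty (𝓝 L)) :
    ∀ z w : ℍ, K z = K w := by
  obtain ⟨C, hC⟩ := expK_const N K hK hper hlim
  exact const_of_exp_const K hK C hC

/-- the conjugate-reflected function `z ↦ conj (F (J • z))`. -/
noncomputable def reflect (F : ℍ → ℂ) : ℍ → ℂ := fun z => conj (F (J • z))

theorem reflect_mdiff (F : ℍ → ℂ) (hF : MDiff F) : MDiff (reflect F) := by
  have h := MDifferentiable.slash hF 0 J
  have e : reflect F = F ∣[(0 : ℤ)] J := by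
    funext z
    simp [reflect, ModularForm.slash_def]
  rw [e]
  exact h

/-- `J` intertwines `γ` and its `jConj`. -/
theorem J_smul_smul (γ : SL(2, ℤ)) (z : ℍ) : J • (γ • z) = (jConjSL γ) • (J • z) := by
  ext
  rw [coe_J_smul, coe_specialLinearGroup_apply, coe_specialLinearGroup_apply, coe_J_smul]
  simp only [jConjSL_coe, jConjMat_apply_zero_zero, jConjMat_apply_zero_one,
    jConjMat_apply_one_zero, jConjMat_apply_one_one, map_div₀, map_add, map_mul]
  simp
  ring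

theorem tendsto_J_smul_atImInfty : Tendsto (fun w : ℍ => J • w) atImInfty atImInfty := by
  rw [atImInfty, tendsto_comap_iff]
  have : (UpperHalfPlane.im ∘ fun w : ℍ => J • w) = UpperHalfPlane.im := by
    funext w
    have h : ((J • w : ℍ) : ℂ).im = (w : ℂ).im := by
      rw [coe_J_smul]; simp
    exact h
  rw [this]
  exact tendsto_comap

/-- Core: if `F`, `G` are holomorphic on `ℍ` with limits at all cusps, and periods `p γ` and
`-conj (p γ)` respectively along `Gamma0 N`, then `F` is constant. -/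
theorem const_of_conj_periods (N : ℕ) [NeZero N] (F G : ℍ → ℂ) (hF : MDiff F) (hG : MDiff G)
    (p : Gamma0 N → ℂ)
    (hFp : ∀ (γ : Gamma0 N) (z : ℍ), F ((γ : SL(2, ℤ)) • z) - F z = p γ)
    (hGp : ∀ (γ : Gamma0 N) (z : ℍ), G ((γ : SL(2, ℤ)) • z) - G z = -conj (p γ))
    (hFlim : ∀ δ : SL(2, ℤ), ∃ L : ℂ, Tendsto (fun w : ℍ => F (δ • w)) atImInfty (𝓝 L))
    (hGlim : ∀ δ : SL(2, ℤ), ∃ L : ℂ, Tendsto (fun w : ℍ => G (δ • w)) atImInfty (𝓝 L)) :
    ∀ z w : ℍ, F z = F w := by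
  have hF' := UpperHalfPlane.mdifferentiable_iff.mp hF
  have hG' := UpperHalfPlane.mdifferentiable_iff.mp hG
  have h1 : ∀ z w : ℍ, (fun z => F z + G z) z = (fun z => F z + G z) w := by
    apply const_of_re_invariant N (fun z => F z + G z)
    · rw [UpperHalfPlane.mdifferentiable_iff]
      exact hF'.add hG'
    · intro γ
      refine ⟨p γ - conj (p γ), by simp, fun z => ?_⟩
      linear_combination hFp γ z + hGp γ z
    · intro δ
      obtain ⟨L₁, h₁⟩ := hFlim δ
      obtain ⟨L₂, h₂⟩ := hGlim δ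
      exact ⟨L₁ + L₂, h₁.add h₂⟩
  have h2 : ∀ z w : ℍ, (fun z => Complex.I * (F z - G z)) z
      = (fun z => Complex.I * (F z - G z)) w := by
    apply const_of_re_invariant N (fun z => Complex.I * (F z - G z))
    · rw [UpperHalfPlane.mdifferentiable_iff]
      exact (hF'.sub hG').const_mul Complex.I
    · intro γ
      refine ⟨Complex.I * (p γ + conj (p γ)), by simp, fun z => ?_⟩
      linear_combination Complex.I * hFp γ z - Complex.I * hGp γ z
    · intro δ
      obtain ⟨L₁, h₁⟩ := hFlim δ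
      obtain ⟨L₂, h₂⟩ := hGlim δ
      exact ⟨Complex.I * (L₁ - L₂), (h₁.sub h₂).const_mul _⟩
  intro z w
  have e1 := h1 z w
  have e2 := h2 z w
  simp only at e1 e2
  have e3 : F z - G z = F w - G w := mul_left_cancel₀ Complex.I_ne_zero e2
  linear_combination (1 / 2 : ℂ) * e1 + (1 / 2 : ℂ) * e3

theorem eq_zero_of_const (N : ℕ) (f : CuspForm (Gamma0 N) 2) (F : ℍ → ℂ)
    (hF : HasEquivariantPrimitive N f F) (hconst : ∀ z w : ℍ, F z = F w) : f = 0 := by
  ext τ
  have h1 := hF.1 τ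
  have h2 : (F ∘ ofComplex) = fun _ => F UpperHalfPlane.I := by
    funext y; exact hconst _ _
  rw [h2] at h1
  have := h1.unique (hasDerivAt_const _ _)
  simpa using this

theorem mdiff_of_primitive (N : ℕ) (f : CuspForm (Gamma0 N) 2) (F : ℍ → ℂ)
    (hF : HasEquivariantPrimitive N f F) : MDiff F :=
  fun τ => UpperHalfPlane.mdifferentiableAt_iff.mpr (hF.1 τ).differentiableAt

theorem reflect_period (N : ℕ) (F : ℍ → ℂ) (p : Gamma0 N → ℂ)
    (hFp : ∀ (γ : Gamma0 N) (z : ℍ), F ((γ : SL(2, ℤ)) • z) - F z = p γ)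
    (γ : Gamma0 N) (z : ℍ) :
    reflect F ((γ : SL(2, ℤ)) • z) - reflect F z = conj (p (jConjGamma0 N γ)) := by
  have := hFp (jConjGamma0 N γ) (J • z)
  rw [jConjGamma0_coe] at this
  simp only [reflect]
  rw [J_smul_smul, ← map_sub, this]

theorem reflect_lim (F : ℍ → ℂ)
    (hFlim : ∀ δ : SL(2, ℤ), ∃ L : ℂ, Tendsto (fun w : ℍ => F (δ • w)) atImInfty (𝓝 L))
    (δ : SL(2, ℤ)) : ∃ L : ℂ, Tendsto (fun w : ℍ => reflect F (δ • w)) atImInfty (𝓝 L) := by
  obtain ⟨L, hL⟩ := hFlim (jConjSL δ)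
  refine ⟨conj L, ?_⟩
  have : (fun w : ℍ => reflect F (δ • w)) = fun w => conj (F (jConjSL δ • (J • w))) := by
    funext w; simp only [reflect]; rw [J_smul_smul]
  rw [this]
  exact (Complex.continuous_conj.tendsto L).comp (hL.comp tendsto_J_smul_atImInfty)

/-- (C+) from (A). -/
theorem stmtCplus_of_stmtA (N : ℕ) [NeZero N] (hA : helper921.StmtA N) :
    helper921.StmtCplus N := by
  intro f h
  obtain ⟨F, hF⟩ := hA f
  have hFmd : MDiff F := mdiff_of_primitive N f F hF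
  set p : Gamma0 N → ℂ := fun γ => hF.2.2.1.period γ with hp
  have hFp : ∀ (γ : Gamma0 N) (z : ℍ), F ((γ : SL(2, ℤ)) • z) - F z = p γ :=
    fun γ z => hF.2.2.1.sub_eq_period γ z
  have hrel : ∀ γ : Gamma0 N, p γ + p (jConjGamma0 N γ) = 0 := by
    intro γ
    have := congrArg (fun φ : Additive (Gamma0 N) →+ ℂ => φ (Additive.ofMul γ)) h
    simp only [AddMonoidHom.add_apply, charInvolution_apply, AddMonoidHom.zero_apply,
      toMul_ofMul] at this
    rw [helper921.periodMap_apply_of_primitive hF, helper921.periodMap_apply_of_primitive hF]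
      at this
    exact this
  apply eq_zero_of_const N f F hF
  apply const_of_conj_periods N F (reflect F) hFmd (reflect_mdiff F hFmd) p hFp
  · intro γ z
    rw [reflect_period N F p hFp γ z]
    have := hrel γ
    have e : p (jConjGamma0 N γ) = -p γ := by linear_combination this
    rw [e, map_neg]
  · exact hF.2.2.2
  · exact reflect_lim F hF.2.2.2

/-- (C-) from (A). -/
theorem stmtCminus_of_stmtA (N : ℕ) [NeZero N] (hA : helper921.StmtA N) :
    helper921.StmtCminus N := by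
  intro f h
  obtain ⟨F, hF⟩ := hA f
  have hFmd : MDiff F := mdiff_of_primitive N f F hF
  set p : Gamma0 N → ℂ := fun γ => hF.2.2.1.period γ with hp
  have hFp : ∀ (γ : Gamma0 N) (z : ℍ), F ((γ : SL(2, ℤ)) • z) - F z = p γ :=
    fun γ z => hF.2.2.1.sub_eq_period γ z
  have hrel : ∀ γ : Gamma0 N, p γ - p (jConjGamma0 N γ) = 0 := by
    intro γ
    have := congrArg (fun φ : Additive (Gamma0 N) →+ ℂ => φ (Additive.ofMul γ)) h
    simp only [AddMonoidHom.sub_apply, charInvolution_apply, AddMonoidHom.zero_apply,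
      toMul_ofMul] at this
    rw [helper921.periodMap_apply_of_primitive hF, helper921.periodMap_apply_of_primitive hF]
      at this
    exact this
  apply eq_zero_of_const N f F hF
  have hRmd : MDiff (fun z => -reflect F z) := by
    have := UpperHalfPlane.mdifferentiable_iff.mp (reflect_mdiff F hFmd)
    rw [UpperHalfPlane.mdifferentiable_iff]
    exact this.neg
  apply const_of_conj_periods N F (fun z => -reflect F z) hFmd hRmd p hFp
  · intro γ z
    have h1 := reflect_period N F p hFp γ z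
    have := hrel γ
    have e : p (jConjGamma0 N γ) = p γ := by linear_combination -this
    rw [e] at h1
    linear_combination -h1
  · exact hF.2.2.2
  · intro δ
    obtain ⟨L, hL⟩ := reflect_lim F hF.2.2.2 δ
    exact ⟨-L, hL.neg⟩

/-- Injectivity of the Eichler–Shimura map, given existence of primitives. -/
theorem stmtC_of_stmtA (N : ℕ) [NeZero N] (hA : helper921.StmtA N) :
    helper921.StmtCplus N ∧ helper921.StmtCminus N :=
  ⟨stmtCplus_of_stmtA N hA, stmtCminus_of_stmtA N hA⟩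

end Fermat.Agent.S21.helper81
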