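import Fermat.Agent.S21.helper921_Wiring
import Fermat.Agent.S21.helper21_Primitive
import Fermat.Agent.S21.helper376_Parabolic
import Fermat.Agent.S21.helper81_Injective
import Fermat.Agent.S21.helper2438_ParabolicFinite

/-!
# S21: captain's assembly

All inputs of `helper921.result_of_ABCD` except the rank inequality are discharged here:
* (A) `helper21.stmtA` (self-contained, `helper21_Primitive`),
* (B) `helper376.stmtB_of_stmtA`,
* (C±) `helper81.stmtC_of_stmtA`,
* finiteness of `parabolicHoms`: `helper2438.parabolicHoms_finite`.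

So the Eichler–Shimura statement S21 follows from the single inequality
`finrank parabolicHoms ≤ 2 * finrank S₂` (`result_of_rank`).  Conversely the reverse
inequality holds unconditionally (`two_mul_finrank_cuspForm_le`).
-/

set_option autoImplicit false

open ModularCurve ModularCurve.Period CongruenceSubgroup UpperHalfPlane

namespace Fermat.Agent.S21.helper21

/-- (B) holds. -/
theorem stmtB (N : ℕ) [NeZero N] : helper921.StmtB N :=
  helper376.stmtB_of_stmtA N (stmtA N)

/-- (C+) holds. -/
theorem stmtCplus (N : ℕ) [NeZero N] : helper921.StmtCplus N :=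
  (helper81.stmtC_of_stmtA N (stmtA N)).1

/-- (C-) holds. -/
theorem stmtCminus (N : ℕ) [NeZero N] : helper921.StmtCminus N :=
  (helper81.stmtC_of_stmtA N (stmtA N)).2

/-- The Eichler–Shimura statement S21 follows from the rank inequality
`finrank parabolicHoms ≤ 2 * finrank S₂(Γ₀(N))`. -/
theorem result_of_rank (N : ℕ) [NeZero N]
    (hrank : Module.finrank ℂ ↥(parabolicHoms ℂ (Gamma0 N) ℂ)
      ≤ 2 * Module.finrank ℂ (CuspForm (Gamma0 N) 2)) :
    Function.Injective (ModularCurve.periodHomPair N)
      ∧ LinearMap.range (ModularCurve.periodHomPair N)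
          = ModularCurve.Period.parabolicHoms ℂ (CongruenceSubgroup.Gamma0 N) ℂ :=
  helper921.result_of_ABCD N (stmtA N) (stmtB N) (stmtCplus N) (stmtCminus N)
    ⟨helper2438.parabolicHoms_finite N, hrank⟩

/-- The formula for `periodHomPair` in terms of the period map. -/
theorem periodHomPair_apply (N : ℕ) [NeZero N] (f g : CuspForm (Gamma0 N) 2) :
    periodHomPair N (f, g)
      = (periodMap N f + charInvolution N ℂ ℂ (periodMap N f))
        + (periodMap N g - charInvolution N ℂ ℂ (periodMap N g)) := by
  obtain ⟨pml, hpml, hdef⟩ :=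
    periodHomPair_def N (helper921.existsPeriodMapLinear_of_A (stmtA N))
  rw [hdef]
  simp [LinearMap.coprod_apply, hpml]

/-- `periodHomPair` takes values in the parabolic homomorphisms. -/
theorem periodHomPair_mem_parabolicHoms (N : ℕ) [NeZero N]
    (x : CuspForm (Gamma0 N) 2 × CuspForm (Gamma0 N) 2) :
    periodHomPair N x ∈ parabolicHoms ℂ (Gamma0 N) ℂ := by
  obtain ⟨f, g⟩ := x
  rw [periodHomPair_apply]
  exact Submodule.add_mem _
    (Submodule.add_mem _ (stmtB N f) (charInvolution_mem_parabolicHoms N ℂ ℂ (stmtB N f)))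
    (Submodule.sub_mem _ (stmtB N g) (charInvolution_mem_parabolicHoms N ℂ ℂ (stmtB N g)))

/-- `periodHomPair` is injective (unconditionally). -/
theorem periodHomPair_injective (N : ℕ) [NeZero N] : Function.Injective (periodHomPair N) := by
  rw [injective_iff_map_eq_zero]
  rintro ⟨f, g⟩ h
  rw [periodHomPair_apply] at h
  set x := periodMap N f with hx
  set y := periodMap N g with hy
  have h' := congrArg (charInvolution N ℂ ℂ) h
  rw [map_add, map_add, map_sub, charInvolution_charInvolution,
    charInvolution_charInvolution, map_zero] at h'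
  have h2 : (2 : ℂ) ≠ 0 := two_ne_zero
  have e1 : x + charInvolution N ℂ ℂ x = 0 := by
    have : (2 : ℂ) • (x + charInvolution N ℂ ℂ x) = 0 := by
      rw [two_smul]
      have := congrArg₂ (· + ·) h h'
      simp only [add_zero] at this
      rw [← this]; abel
    exact (smul_eq_zero.mp this).resolve_left h2
  have e2 : y - charInvolution N ℂ ℂ y = 0 := by
    have : (2 : ℂ) • (y - charInvolution N ℂ ℂ y) = 0 := by
      rw [two_smul]
      have := congrArg₂ (· - ·) h h'
      simp only [sub_zero] at this
      rw [← this]; abel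
    exact (smul_eq_zero.mp this).resolve_left h2
  rw [stmtCplus N f e1, stmtCminus N g e2]
  rfl

/-- The space of weight-two cusp forms on `Γ₀(N)` is finite-dimensional. -/
theorem finite_cuspForm (N : ℕ) [NeZero N] : Module.Finite ℂ (CuspForm (Gamma0 N) 2) := by
  have := helper2438.parabolicHoms_finite N
  let Φ : (CuspForm (Gamma0 N) 2 × CuspForm (Gamma0 N) 2) →ₗ[ℂ]
      ↥(parabolicHoms ℂ (Gamma0 N) ℂ) :=
    (periodHomPair N).codRestrict _ (periodHomPair_mem_parabolicHoms N)
  have hΦ : Function.Injective Φ := fun a b hab =>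
    periodHomPair_injective N (congrArg Subtype.val hab)
  have : Module.Finite ℂ (CuspForm (Gamma0 N) 2 × CuspForm (Gamma0 N) 2) :=
    Module.Finite.of_injective Φ hΦ
  exact Module.Finite.of_surjective
    (LinearMap.fst ℂ (CuspForm (Gamma0 N) 2) (CuspForm (Gamma0 N) 2)) LinearMap.fst_surjective

/-- Unconditional half of the dimension count (Eichler–Shimura injectivity):
`2 * dim S₂(Γ₀(N)) ≤ dim H¹_par(Γ₀(N), ℂ)`. -/
theorem two_mul_finrank_cuspForm_le (N : ℕ) [NeZero N] :
    2 * Module.finrank ℂ (CuspForm (Gamma0 N) 2)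
      ≤ Module.finrank ℂ ↥(parabolicHoms ℂ (Gamma0 N) ℂ) := by
  have := helper2438.parabolicHoms_finite N
  have := finite_cuspForm N
  let Φ : (CuspForm (Gamma0 N) 2 × CuspForm (Gamma0 N) 2) →ₗ[ℂ]
      ↥(parabolicHoms ℂ (Gamma0 N) ℂ) :=
    (periodHomPair N).codRestrict _ (periodHomPair_mem_parabolicHoms N)
  have hΦ : Function.Injective Φ := fun a b hab =>
    periodHomPair_injective N (congrArg Subtype.val hab)
  have h := LinearMap.finrank_le_finrank_of_injective hΦ
  rw [Module.finrank_prod] at h
  omega

end Fermat.Agent.S21.helper21
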