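import Fermat.Statements.S21

set_option autoImplicit false

namespace Fermat.Agent.S21.helper921

open ModularCurve ModularCurve.Period CongruenceSubgroup UpperHalfPlane Filter Topology

variable (N : ℕ)

/-- (A) every weight-2 cusp form on `Γ₀(N)` has an equivariant primitive. -/
def StmtA : Prop :=
  ∀ f : CuspForm (Gamma0 N) 2, ∃ F : ℍ → ℂ, HasEquivariantPrimitive N f F

/-- (B) the period homomorphism of a cusp form kills parabolic elements. -/
def StmtB : Prop :=
  ∀ f : CuspForm (Gamma0 N) 2, periodMap N f ∈ parabolicHoms ℂ (Gamma0 N) ℂ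

/-- (C+) injectivity on the plus part. -/
def StmtCplus : Prop :=
  ∀ f : CuspForm (Gamma0 N) 2,
    periodMap N f + charInvolution N ℂ ℂ (periodMap N f) = 0 → f = 0

/-- (C-) injectivity on the minus part. -/
def StmtCminus : Prop :=
  ∀ f : CuspForm (Gamma0 N) 2,
    periodMap N f - charInvolution N ℂ ℂ (periodMap N f) = 0 → f = 0

/-- (D) the dimension bound. -/
def StmtD : Prop :=
  Module.Finite ℂ ↥(parabolicHoms ℂ (Gamma0 N) ℂ) ∧
    Module.finrank ℂ ↥(parabolicHoms ℂ (Gamma0 N) ℂ)
      ≤ 2 * Module.finrank ℂ (CuspForm (Gamma0 N) 2)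

variable {N}

/-- Two equivariant primitives of the same cusp form coincide. -/
theorem primitive_unique {f : CuspForm (Gamma0 N) 2} {F G : ℍ → ℂ}
    (hF : HasEquivariantPrimitive N f F) (hG : HasEquivariantPrimitive N f G) : F = G := by
  have hD : ∀ z ∈ upperHalfPlaneSet,
      HasDerivAt (F ∘ ofComplex - G ∘ ofComplex) 0 z := by
    intro z hz
    have h1 := hF.1 ⟨z, hz⟩
    have h2 := hG.1 ⟨z, hz⟩
    have h3 := h1.sub h2
    rwa [sub_self] at h3
  have hconst : ∀ z ∈ upperHalfPlaneSet, ∀ w ∈ upperHalfPlaneSet,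
      (F ∘ ofComplex - G ∘ ofComplex) z = (F ∘ ofComplex - G ∘ ofComplex) w := by
    intro z hz w hw
    have hconv : Convex ℝ upperHalfPlaneSet := by
      have : upperHalfPlaneSet = Complex.imCLM ⁻¹' (Set.Ioi (0:ℝ)) := by
        ext z; simp [upperHalfPlaneSet]
      rw [this]
      exact (convex_Ioi (0:ℝ)).linear_preimage Complex.imCLM.toLinearMap
    exact isOpen_upperHalfPlaneSet.is_const_of_deriv_eq_zero hconv.isPreconnected
      (fun x hx => (hD x hx).differentiableAt.differentiableWithinAt)
      (fun x hx => (hD x hx).deriv) hz hw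
  have hc : ∀ τ : ℍ, F τ - G τ = F UpperHalfPlane.I - G UpperHalfPlane.I := by
    intro τ
    have := hconst (τ : ℂ) τ.im_pos ((UpperHalfPlane.I : ℍ) : ℂ) UpperHalfPlane.I.im_pos
    simpa only [Pi.sub_apply, Function.comp_apply, ofComplex_apply] using this
  have hlim : Tendsto (fun τ : ℍ => F τ - G τ) atImInfty (𝓝 (0 - 0)) := hF.2.1.sub hG.2.1
  have hlim' : Tendsto (fun τ : ℍ => F τ - G τ) atImInfty
      (𝓝 (F UpperHalfPlane.I - G UpperHalfPlane.I)) := by
    have : (fun τ : ℍ => F τ - G τ) = fun _ => F UpperHalfPlane.I - G UpperHalfPlane.I :=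
      funext hc
    rw [this]; exact tendsto_const_nhds
  have h0 : F UpperHalfPlane.I - G UpperHalfPlane.I = 0 - 0 := tendsto_nhds_unique hlim' hlim
  funext τ
  have := hc τ
  rw [h0] at this
  simpa [sub_eq_zero] using this

/-- Given any equivariant primitive `F` of `f`, the period map of `f` is the period
homomorphism of `F`. -/
theorem periodMap_eq_of_primitive {f : CuspForm (Gamma0 N) 2} {F : ℍ → ℂ}
    (hF : HasEquivariantPrimitive N f F) : periodMap N f = hF.2.2.1.periodHom := by
  obtain ⟨F₀, h₀, h⟩ := periodMap_def N f hF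
  have hEq : F₀ = F := primitive_unique h₀ hF
  subst hEq
  exact h

theorem periodMap_apply_of_primitive {f : CuspForm (Gamma0 N) 2} {F : ℍ → ℂ}
    (hF : HasEquivariantPrimitive N f F) (γ : Gamma0 N) :
    periodMap N f (Additive.ofMul γ)
      = F ((γ : Matrix.SpecialLinearGroup (Fin 2) ℤ) • UpperHalfPlane.I) - F UpperHalfPlane.I := by
  rw [periodMap_eq_of_primitive hF]
  rfl

theorem hasEquivariantPrimitive_add {f g : CuspForm (Gamma0 N) 2} {F G : ℍ → ℂ}
    (hF : HasEquivariantPrimitive N f F) (hG : HasEquivariantPrimitive N g G) :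
    HasEquivariantPrimitive N (f + g) (F + G) := by
  refine ⟨fun τ => ?_, ?_, fun γ => ?_, fun δ => ?_⟩
  · have := (hF.1 τ).add (hG.1 τ)
    exact this
  · have := hF.2.1.add hG.2.1
    rw [add_zero] at this
    exact this
  · obtain ⟨c₁, h₁⟩ := hF.2.2.1 γ
    obtain ⟨c₂, h₂⟩ := hG.2.2.1 γ
    refine ⟨c₁ + c₂, fun z => ?_⟩
    have e₁ := h₁ z
    have e₂ := h₂ z
    simp only [Pi.add_apply]
    linear_combination e₁ + e₂
  · obtain ⟨L₁, h₁⟩ := hF.2.2.2 δ
    obtain ⟨L₂, h₂⟩ := hG.2.2.2 δ
    exact ⟨L₁ + L₂, h₁.add h₂⟩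

theorem hasEquivariantPrimitive_smul (c : ℂ) {f : CuspForm (Gamma0 N) 2} {F : ℍ → ℂ}
    (hF : HasEquivariantPrimitive N f F) :
    HasEquivariantPrimitive N (c • f) (c • F) := by
  refine ⟨fun τ => ?_, ?_, fun γ => ?_, fun δ => ?_⟩
  · have := (hF.1 τ).const_smul c
    exact this
  · have := hF.2.1.const_smul c
    rw [smul_zero] at this
    exact this
  · obtain ⟨c₁, h₁⟩ := hF.2.2.1 γ
    refine ⟨c * c₁, fun z => ?_⟩
    have e₁ := h₁ z
    simp only [Pi.smul_apply, smul_eq_mul]
    linear_combination c * e₁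
  · obtain ⟨L₁, h₁⟩ := hF.2.2.2 δ
    exact ⟨c • L₁, h₁.const_smul c⟩

/-- (A) implies that the period map is linear. -/
theorem existsPeriodMapLinear_of_A (hA : StmtA N) : ExistsPeriodMapLinear N := by
  refine ⟨{ toFun := periodMap N, map_add' := ?_, map_smul' := ?_ }, fun f => rfl⟩
  · intro f g
    obtain ⟨F, hF⟩ := hA f
    obtain ⟨G, hG⟩ := hA g
    refine AddMonoidHom.ext fun γ => ?_
    obtain ⟨γ, rfl⟩ := Additive.ofMul.surjective γ
    rw [AddMonoidHom.add_apply, periodMap_apply_of_primitive hF,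
      periodMap_apply_of_primitive hG,
      periodMap_apply_of_primitive (hasEquivariantPrimitive_add hF hG)]
    simp only [Pi.add_apply]
    ring
  · intro c f
    obtain ⟨F, hF⟩ := hA f
    refine AddMonoidHom.ext fun γ => ?_
    obtain ⟨γ, rfl⟩ := Additive.ofMul.surjective γ
    rw [RingHom.id_apply, AddMonoidHom.smul_apply, periodMap_apply_of_primitive hF,
      periodMap_apply_of_primitive (hasEquivariantPrimitive_smul c hF)]
    simp only [Pi.smul_apply, smul_eq_mul]
    ring

end Fermat.Agent.S21.helper921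

namespace Fermat.Agent.S21.helper921

open ModularCurve ModularCurve.Period CongruenceSubgroup UpperHalfPlane Filter Topology

/-- The Eichler–Shimura statement S21 follows from the five sub-statements (A)–(D). -/
theorem result_of_ABCD (N : ℕ) [NeZero N] (hA : StmtA N) (hB : StmtB N) (hCp : StmtCplus N)
    (hCm : StmtCminus N) (hD : StmtD N) :
    Function.Injective (ModularCurve.periodHomPair N)
      ∧ LinearMap.range (ModularCurve.periodHomPair N)
          = ModularCurve.Period.parabolicHoms ℂ (CongruenceSubgroup.Gamma0 N) ℂ := by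
  obtain ⟨pml, hpml, hdef⟩ := periodHomPair_def N (existsPeriodMapLinear_of_A hA)
  have happ : ∀ f g : CuspForm (Gamma0 N) 2, periodHomPair N (f, g)
      = (periodMap N f + charInvolution N ℂ ℂ (periodMap N f))
        + (periodMap N g - charInvolution N ℂ ℂ (periodMap N g)) := by
    intro f g
    rw [hdef]
    simp [LinearMap.coprod_apply, hpml]
  have hinj : Function.Injective (periodHomPair N) := by
    rw [injective_iff_map_eq_zero]
    rintro ⟨f, g⟩ h
    rw [happ] at h
    set x := periodMap N f with hx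
    set y := periodMap N g with hy
    have h' := congrArg (charInvolution N ℂ ℂ) h
    rw [map_add, map_add, map_sub, charInvolution_charInvolution,
      charInvolution_charInvolution, map_zero] at h'
    have h2 : (2 : ℂ) ≠ 0 := two_ne_zero
    have e1 : x + charInvolution N ℂ ℂ x = 0 := by
      have : (2 : ℂ) • (x + charInvolution N ℂ ℂ x) = 0 := by
        rw [two_smul]
        have := congrArg₂ (· + ·) h h'
        simp only [add_zero] at this
        rw [← this]; abel
      exact (smul_eq_zero.mp this).resolve_left h2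
    have e2 : y - charInvolution N ℂ ℂ y = 0 := by
      have : (2 : ℂ) • (y - charInvolution N ℂ ℂ y) = 0 := by
        rw [two_smul]
        have := congrArg₂ (· - ·) h h'
        simp only [sub_zero] at this
        rw [← this]; abel
      exact (smul_eq_zero.mp this).resolve_left h2
    rw [hCp f e1, hCm g e2]
    rfl
  refine ⟨hinj, ?_⟩
  have hle : LinearMap.range (periodHomPair N) ≤ parabolicHoms ℂ (Gamma0 N) ℂ := by
    rintro _ ⟨⟨f, g⟩, rfl⟩
    rw [happ]
    exact Submodule.add_mem _
      (Submodule.add_mem _ (hB f) (charInvolution_mem_parabolicHoms N ℂ ℂ (hB f)))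
      (Submodule.sub_mem _ (hB g) (charInvolution_mem_parabolicHoms N ℂ ℂ (hB g)))
  obtain ⟨hfin, hrank⟩ := hD
  have := hfin
  -- the codomain-restricted map
  let Φ : (CuspForm (Gamma0 N) 2 × CuspForm (Gamma0 N) 2) →ₗ[ℂ]
      ↥(parabolicHoms ℂ (Gamma0 N) ℂ) :=
    (periodHomPair N).codRestrict _ (fun x => hle ⟨x, rfl⟩)
  have hΦ : Function.Injective Φ := by
    intro a b hab
    apply hinj
    have := congrArg Subtype.val hab
    exact this
  have : Module.Finite ℂ (CuspForm (Gamma0 N) 2 × CuspForm (Gamma0 N) 2) :=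
    Module.Finite.of_injective Φ hΦ
  have : Module.Finite ℂ (CuspForm (Gamma0 N) 2) :=
    Module.Finite.of_surjective (LinearMap.fst ℂ (CuspForm (Gamma0 N) 2) (CuspForm (Gamma0 N) 2))
      LinearMap.fst_surjective
  have hr : Module.finrank ℂ ↥(LinearMap.range (periodHomPair N))
      = 2 * Module.finrank ℂ (CuspForm (Gamma0 N) 2) := by
    rw [LinearMap.finrank_range_of_inj hinj, Module.finrank_prod, two_mul]
  exact Submodule.eq_of_le_of_finrank_le hle (by rw [hr]; exact hrank)

end Fermat.Agent.S21.helper921
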