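import Mathlib
import Fermat.Agent.S21.helper921_Wiring
import Fermat.Agent.S22.helper1222_EichlerSeries
import Fermat.Prelude.Thm_Subgroup_IsArithmetic_exists_nat_mem_strictPeriods_conj
import Fermat.Prelude.Thm_CongruenceSubgroup_one_mem_strictPeriods_Gamma0

/-!
# S21-A: every weight-2 cusp form on `Γ₀(N)` has an equivariant primitive

Main result: `Fermat.Agent.S21.helper216.stmtA : helper921.StmtA N`.
-/

set_option autoImplicit false

namespace Fermat.Agent.S21.helper216

open Complex Filter Topology UpperHalfPlane ModularForm CongruenceSubgroup ModularCurve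
open scoped MatrixGroups Manifold Pointwise

/-- A cusp form with a strict period `h > 0` has a primitive on the upper half plane which
tends to zero at `i∞`. -/
theorem exists_primitive_of_cuspForm {F : Type*} [FunLike F ℍ ℂ] {Γ : Subgroup (GL (Fin 2) ℝ)}
    {k : ℤ} [CuspFormClass F Γ k] (f : F) {h : ℝ} (hh : 0 < h) (hΓ : h ∈ Γ.strictPeriods) :
    ∃ G : ℍ → ℂ, (∀ τ : ℍ, HasDerivAt (G ∘ ofComplex) (f τ) ↑τ) ∧
      Tendsto G atImInfty (𝓝 0) := by
  refine ⟨fun τ => S22.helper1222.eichlerOf h f 1 τ, fun τ => ?_, ?_⟩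
  · have h1 := S22.helper1222.hasDerivAt_eichlerOf f hh hΓ 0 τ.im_pos
    rw [S22.helper1222.eichlerOf_zero f hh hΓ τ.im_pos] at h1
    refine h1.congr_of_eventuallyEq ?_
    filter_upwards [isOpen_upperHalfPlaneSet.mem_nhds τ.im_pos] with z hz
    simp [Function.comp_apply, ofComplex_apply_of_im_pos hz]
  · have h1 := S22.helper1222.tendsto_eichlerOf_zero f hh hΓ 1
    exact h1.comp (tendsto_comap_iff.mpr tendsto_comap)

/-- A function on the upper half plane whose extension has zero derivative everywhere is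
constant. -/
theorem const_of_hasDerivAt_zero {H : ℍ → ℂ}
    (hH : ∀ τ : ℍ, HasDerivAt (H ∘ ofComplex) 0 ↑τ) (z w : ℍ) : H z = H w := by
  have hconv : Convex ℝ upperHalfPlaneSet := by
    have : upperHalfPlaneSet = Complex.imCLM ⁻¹' (Set.Ioi (0:ℝ)) := by
      ext z; simp [upperHalfPlaneSet]
    rw [this]
    exact (convex_Ioi (0:ℝ)).linear_preimage Complex.imCLM.toLinearMap
  have := isOpen_upperHalfPlaneSet.is_const_of_deriv_eq_zero hconv.isPreconnected
    (f := H ∘ ofComplex)
    (fun x hx => (hH ⟨x, hx⟩).differentiableAt.differentiableWithinAt)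
    (fun x hx => (hH ⟨x, hx⟩).deriv) z.im_pos w.im_pos
  simpa only [Function.comp_apply, ofComplex_apply] using this

/-- Chain rule for the Möbius action. -/
theorem hasDerivAt_comp_smul {F f : ℍ → ℂ}
    (hF : ∀ τ : ℍ, HasDerivAt (F ∘ ofComplex) (f τ) ↑τ) (γ : SL(2, ℤ)) (w : ℍ) :
    HasDerivAt ((fun z : ℍ => F (γ • z)) ∘ ofComplex) ((f ∣[(2:ℤ)] γ) w) ↑w := by
  have hdet1 : (γ : GL (Fin 2) ℝ).val.det = 1 := by
    rw [← Matrix.GeneralLinearGroup.val_det_apply]; simp
  have hdet : (0:ℝ) < ((γ : GL (Fin 2) ℝ)).val.det := by rw [hdet1]; exact one_pos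
  have h1 := (hasStrictDerivAt_smul hdet w).hasDerivAt
  have h2 : HasDerivAt (F ∘ ofComplex) (f (γ • w))
      (↑((γ : GL (Fin 2) ℝ) • ofComplex (w : ℂ)) : ℂ) := by
    rw [ofComplex_apply]
    exact hF (γ • w)
  have h3 := h2.comp (w : ℂ) h1
  have hfun : ((fun z : ℍ => F (γ • z)) ∘ ofComplex) =
      (F ∘ ofComplex) ∘ (fun z : ℂ => (↑((γ : GL (Fin 2) ℝ) • ofComplex z) : ℂ)) := by
    funext z
    simp only [Function.comp_apply, ofComplex_apply]
    rfl
  rw [hfun]
  refine h3.congr_deriv ?_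
  rw [ModularForm.SL_slash_apply, hdet1]
  simp only [Complex.ofReal_one]
  rw [zpow_neg, one_div]
  norm_cast

/-- **S21-A**: every weight-2 cusp form on `Γ₀(N)` has an equivariant primitive. -/
theorem exists_hasEquivariantPrimitive (N : ℕ) [NeZero N] (f : CuspForm (Gamma0 N) 2) :
    ∃ F : ℍ → ℂ, HasEquivariantPrimitive N f F := by
  obtain ⟨F, hF, hF0⟩ :=
    exists_primitive_of_cuspForm f one_pos (one_mem_strictPeriods_Gamma0 N)
  refine ⟨F, hF, hF0, fun γ => ?_, fun δ => ?_⟩
  · -- equivariance under `Γ₀(N)`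
    refine ⟨F ((γ : SL(2, ℤ)) • UpperHalfPlane.I) - F UpperHalfPlane.I, fun z => ?_⟩
    have hH : ∀ τ : ℍ,
        HasDerivAt ((fun z : ℍ => F ((γ : SL(2, ℤ)) • z) - F z) ∘ ofComplex) 0 ↑τ := by
      intro τ
      have h1 := hasDerivAt_comp_smul hF (γ : SL(2, ℤ)) τ
      have h2 := hF τ
      have hinv : (⇑f ∣[(2:ℤ)] (γ : SL(2, ℤ))) = ⇑f :=
        SlashInvariantForm.slash_action_eqn f _ (Subgroup.mem_map_of_mem _ γ.2)
      rw [hinv] at h1
      have h3 := h1.sub h2
      rw [sub_self] at h3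
      exact h3
    exact const_of_hasDerivAt_zero hH z UpperHalfPlane.I
  · -- limits at all cusps
    obtain ⟨M, hM, hper⟩ := Subgroup.IsArithmetic.exists_nat_mem_strictPeriods_conj
      (Subgroup.map (Matrix.SpecialLinearGroup.mapGL ℝ) (Gamma0 N))
    have hper' := hper δ⁻¹
    rw [map_inv] at hper'
    obtain ⟨G, hG, hG0⟩ := exists_primitive_of_cuspForm
      (CuspForm.translate f (Matrix.SpecialLinearGroup.mapGL ℝ δ)) (Nat.cast_pos.mpr hM) hper'
    have hH : ∀ τ : ℍ,
        HasDerivAt ((fun z : ℍ => F (δ • z) - G z) ∘ ofComplex) 0 ↑τ := by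
      intro τ
      have h1 := hasDerivAt_comp_smul hF δ τ
      have h2 := hG τ
      have h3 := h1.sub h2
      have h4 : (⇑f ∣[(2:ℤ)] δ) τ
          - (CuspForm.translate f (Matrix.SpecialLinearGroup.mapGL ℝ δ)) τ = 0 := sub_self _
      rw [h4] at h3
      exact h3
    refine ⟨F (δ • UpperHalfPlane.I) - G UpperHalfPlane.I, ?_⟩
    have hfun : (fun w : ℍ => F (δ • w))
        = fun w => G w + (F (δ • UpperHalfPlane.I) - G UpperHalfPlane.I) := by
      funext w
      have := const_of_hasDerivAt_zero hH w UpperHalfPlane.I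
      linear_combination this
    rw [hfun]
    simpa using hG0.add_const (F (δ • UpperHalfPlane.I) - G UpperHalfPlane.I)

/-- **S21-A** in the form used by the wiring file `helper921_Wiring`. -/
theorem stmtA (N : ℕ) [NeZero N] : helper921.StmtA N :=
  fun f => exists_hasEquivariantPrimitive N f

end Fermat.Agent.S21.helper216
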