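/-
helper2301: the group-theoretic LOWER bound for parabolic homs (mirror of helper681's D2a):
for a finite-index subgroup `Γ ∋ -1` of `SL(2, ℤ)`,

  `index + 2 ≤ finrank parabolicHoms(Γ) + #orb⟨S⟩ + #orb⟨T⟩ + #orb⟨S*T⟩`   on `SL(2, ℤ) ⧸ Γ`.

Route: `PSL(2, ℤ) = C₂ * C₃` (Lib/helper2301_PSL2Z) gives, for every pair `(a, b)` of functions
on `X = SL(2, ℤ) ⧸ Γ` with `a + a∘S = 0`, `b + b∘U + b∘U² = 0` (`U = S * T`), a cocycle
`κ : SL(2, ℤ) → X → ℂ` with `κ S = a`, `κ U = b`; `γ ↦ κ γ x₀` is a hom `Γ → ℂ`; its kernel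
consists of coboundaries; it is parabolic as soon as `κ (T ^ n₀) = 0`.
-/
import Fermat.Agent.Lib.helper2301_PSL2Z
import Fermat.Agent.S21.helper681_ParabolicDim
import Fermat.Agent.S21.helper376_Parabolic

set_option autoImplicit false

namespace Fermat.Agent.S21.helper2301

open scoped MatrixGroups
open ModularCurve.Period

local notation "S" => ModularGroup.S
local notation "T" => ModularGroup.T

/-! ## Cocycles of `SL(2, ℤ)` with values in functions on an `SL(2, ℤ)`-set -/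

section Coc

variable {X : Type*} [MulAction SL(2, ℤ) X]

/-- (right) cocycles `κ (g * h) x = κ g (h • x) + κ h x`. -/
def IsCoc (κ : SL(2, ℤ) → X → ℂ) : Prop :=
  ∀ (g h : SL(2, ℤ)) (x : X), κ (g * h) x = κ g (h • x) + κ h x

theorem IsCoc.one {κ : SL(2, ℤ) → X → ℂ} (hκ : IsCoc κ) (x : X) : κ 1 x = 0 := by
  have := hκ 1 1 x
  simp only [mul_one, one_smul] at this
  simpa using this

theorem IsCoc.inv {κ : SL(2, ℤ) → X → ℂ} (hκ : IsCoc κ) (g : SL(2, ℤ)) (x : X) :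
    κ g⁻¹ x = -κ g (g⁻¹ • x) := by
  have := hκ g g⁻¹ x
  rw [mul_inv_cancel, hκ.one] at this
  linear_combination -this

theorem IsCoc.pow {κ : SL(2, ℤ) → X → ℂ} (hκ : IsCoc κ) (g : SL(2, ℤ)) (n : ℕ) (x : X) :
    κ (g ^ n) x = ∑ j ∈ Finset.range n, κ g (g ^ j • x) := by
  induction n with
  | zero => simp [hκ.one]
  | succ n ih => rw [pow_succ', hκ, ih, Finset.sum_range_succ, add_comm]

/-- an element acting trivially with trivial square has trivial cocycle value. -/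
theorem IsCoc.eq_zero_of_sq {κ : SL(2, ℤ) → X → ℂ} (hκ : IsCoc κ) (z : SL(2, ℤ))
    (hz : ∀ x : X, z • x = x) (hz2 : z * z = 1) (x : X) : κ z x = 0 := by
  have := hκ z z x
  rw [hz2, hκ.one, hz] at this
  linear_combination -this / 2

/-- `{S, S * T}` generates `SL(2, ℤ)`. -/
theorem closure_S_ST : Subgroup.closure {S, S * T} = (⊤ : Subgroup SL(2, ℤ)) := by
  rw [eq_top_iff, ← SpecialLinearGroup.SL2Z_generators, Subgroup.closure_le]
  rintro x (rfl | rfl)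
  · exact Subgroup.subset_closure (Set.mem_insert _ _)
  · have h : S⁻¹ * (S * T) ∈ Subgroup.closure {S, S * T} :=
      mul_mem (inv_mem (Subgroup.subset_closure (Set.mem_insert _ _)))
        (Subgroup.subset_closure (Set.mem_insert_of_mem _ rfl))
    rwa [inv_mul_cancel_left] at h

/-- a cocycle is determined by its values at `S` and `S * T`. -/
theorem IsCoc.ext_gen {κ κ' : SL(2, ℤ) → X → ℂ} (hκ : IsCoc κ) (hκ' : IsCoc κ')
    (hS : κ S = κ' S) (hU : κ (S * T) = κ' (S * T)) : κ = κ' := by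
  funext g
  have hg : g ∈ Subgroup.closure {S, S * T} := by rw [closure_S_ST]; trivial
  induction hg using Subgroup.closure_induction with
  | mem y hy =>
    rcases hy with rfl | rfl
    · exact hS
    · exact hU
  | one => funext x; rw [hκ.one, hκ'.one]
  | mul a b _ _ iha ihb => funext x; rw [hκ, hκ', iha, ihb]
  | inv a _ iha => funext x; rw [hκ.inv, hκ'.inv, iha]

/-- the total sum of a cocycle value vanishes (it is a hom `SL(2, ℤ) → ℂ`). -/
theorem IsCoc.sum_eq_zero [Fintype X] (hneg : ∀ x : X, (-1 : SL(2, ℤ)) • x = x)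
    {κ : SL(2, ℤ) → X → ℂ} (hκ : IsCoc κ) (g : SL(2, ℤ)) : ∑ x, κ g x = 0 := by
  have hperm : ∀ (h : SL(2, ℤ)) (c : X → ℂ), ∑ x, c (h • x) = ∑ x, c x :=
    fun h c => Equiv.sum_comp (MulAction.toPerm h) c
  have hnegκ : ∀ x, κ (-1) x = 0 := fun x => hκ.eq_zero_of_sq (-1) hneg (by simp) x
  have hg : g ∈ Subgroup.closure {S, S * T} := by rw [closure_S_ST]; trivial
  induction hg using Subgroup.closure_induction with
  | mem y hy =>
    rcases hy with rfl | rfl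
    · have h1 : ∑ x, κ (S * S) x = ∑ x, κ S (S • x) + ∑ x, κ S x := by
        rw [← Finset.sum_add_distrib]
        exact Finset.sum_congr rfl (fun x _ => hκ S S x)
      rw [Fermat.Agent.Lib.helper2301.S_mul_S, hperm] at h1
      simp only [hnegκ, Finset.sum_const_zero] at h1
      linear_combination -h1 / 2
    · have h1 : ∑ x, κ ((S * T) * ((S * T) * (S * T))) x
          = ∑ x, κ (S * T) (((S * T) * (S * T)) • x)
            + (∑ x, κ (S * T) ((S * T) • x) + ∑ x, κ (S * T) x) := by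
        rw [← Finset.sum_add_distrib, ← Finset.sum_add_distrib]
        exact Finset.sum_congr rfl (fun x _ => by rw [hκ, hκ (S * T) (S * T)])
      rw [Fermat.Agent.Lib.helper2301.ST_cube, hperm, hperm] at h1
      simp only [hnegκ, Finset.sum_const_zero] at h1
      linear_combination -h1 / 3
  | one => simp [hκ.one]
  | mul a b _ _ iha ihb =>
    have : ∑ x, κ (a * b) x = ∑ x, κ a (b • x) + ∑ x, κ b x := by
      rw [← Finset.sum_add_distrib]
      exact Finset.sum_congr rfl (fun x _ => hκ a b x)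
    rw [this, hperm, iha, ihb, add_zero]
  | inv a _ iha =>
    have : ∑ x, κ a⁻¹ x = -∑ x, κ a (a⁻¹ • x) := by
      rw [← Finset.sum_neg_distrib]
      exact Finset.sum_congr rfl (fun x _ => hκ.inv a x)
    rw [this, hperm, iha, neg_zero]

/-- the shear permutation `(x, t) ↦ (g • x, t + c x)` of `X × ℂ`. -/
def shear (g : SL(2, ℤ)) (c : X → ℂ) : Equiv.Perm (X × ℂ) where
  toFun p := (g • p.1, p.2 + c p.1)
  invFun p := (g⁻¹ • p.1, p.2 - c (g⁻¹ • p.1))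
  left_inv p := by simp
  right_inv p := by simp

@[simp] theorem shear_apply (g : SL(2, ℤ)) (c : X → ℂ) (x : X) (t : ℂ) :
    shear g c (x, t) = (g • x, t + c x) := rfl

/-- **existence of cocycles with prescribed values on the generators** (this is where the
presentation of `PSL(2, ℤ)` enters). -/
theorem exists_isCoc (hneg : ∀ x : X, (-1 : SL(2, ℤ)) • x = x) (a b : X → ℂ)
    (ha : ∀ x, a (S • x) + a x = 0)
    (hb : ∀ x, b ((S * T) • (S * T) • x) + b ((S * T) • x) + b x = 0) :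
    ∃ κ : SL(2, ℤ) → X → ℂ, IsCoc κ ∧ κ S = a ∧ κ (S * T) = b := by
  have hSS : ∀ x : X, S • S • x = x := by
    intro x
    rw [← mul_smul, Fermat.Agent.Lib.helper2301.S_mul_S, hneg]
  have hUUU : ∀ x : X, (S * T) • (S * T) • (S * T) • x = x := by
    intro x
    rw [← mul_smul, ← mul_smul, mul_assoc, Fermat.Agent.Lib.helper2301.ST_cube, hneg]
  have h1 : shear S a * shear S a = 1 := by
    ext ⟨x, t⟩
    · simp [hSS]
    · simp only [Equiv.Perm.mul_apply, shear_apply, Equiv.Perm.one_apply]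
      linear_combination ha x
  have h2 : shear (S * T) b * shear (S * T) b * shear (S * T) b = 1 := by
    ext ⟨x, t⟩
    · simp only [Equiv.Perm.mul_apply, shear_apply, Equiv.Perm.one_apply]
      exact hUUU x
    · simp only [Equiv.Perm.mul_apply, shear_apply, Equiv.Perm.one_apply]
      linear_combination hb x
  obtain ⟨f, hfS, hfU⟩ := Fermat.Agent.Lib.helper2301.exists_hom_of_sq_cube _ _ h1 h2
  -- every `f g` is a shear over `g`
  have key : ∀ (g : SL(2, ℤ)) (x : X) (t : ℂ), f g (x, t) = (g • x, t + (f g (x, 0)).2) := by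
    intro g
    have hg : g ∈ Subgroup.closure {S, S * T} := by rw [closure_S_ST]; trivial
    induction hg using Subgroup.closure_induction with
    | mem y hy =>
      rcases hy with rfl | rfl
      · intro x t; rw [hfS]; simp
      · intro x t; rw [hfU]; simp
    | one => intro x t; simp
    | mul g h _ _ ihg ihh =>
      intro x t
      rw [map_mul, Equiv.Perm.mul_apply, ihh x t, ihg, Equiv.Perm.mul_apply, ihh x 0, ihg (h • x)
        (0 + _), mul_smul]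
      simp only [zero_add, add_assoc]
    | inv g _ ihg =>
      intro x t
      have hinv : ∀ (y : X) (r : ℂ), (f g)⁻¹ (y, r) = (g⁻¹ • y, r - (f g (g⁻¹ • y, 0)).2) := by
        intro y r
        rw [Equiv.Perm.inv_def, Equiv.symm_apply_eq, ihg]
        simp
      rw [map_inv, hinv, hinv]
      simp [sub_eq_add_neg]
  refine ⟨fun g x => (f g (x, 0)).2, ?_, ?_, ?_⟩
  · intro g h x
    show (f (g * h) (x, 0)).2 = (f g (h • x, 0)).2 + (f h (x, 0)).2
    rw [map_mul, Equiv.Perm.mul_apply, key h x 0, key g (h • x) (0 + _)]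
    simp [add_comm]
  · funext x
    show (f S (x, 0)).2 = a x
    rw [hfS]; simp
  · funext x
    show (f (S * T) (x, 0)).2 = b x
    rw [hfU]; simp

end Coc

/-! ## Cocycles on the coset space and homs of `Γ` -/

section Quot

variable (Γ : Subgroup SL(2, ℤ))

/-- the submodule of cocycles on `SL(2, ℤ) ⧸ Γ`. -/
def cocSub : Submodule ℂ (SL(2, ℤ) → (SL(2, ℤ) ⧸ Γ) → ℂ) where
  carrier := {κ | IsCoc κ}
  zero_mem' := fun g h x => by simp
  add_mem' := fun {κ κ'} hκ hκ' g h x => by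
    simp only [Pi.add_apply]; rw [hκ, hκ']; ring
  smul_mem' := fun c κ hκ g h x => by
    simp only [Pi.smul_apply, smul_eq_mul]; rw [hκ]; ring

variable {Γ} in
theorem cocSub_isCoc (κ : cocSub Γ) : IsCoc (κ : SL(2, ℤ) → (SL(2, ℤ) ⧸ Γ) → ℂ) := κ.2

/-- elements of `Γ` fix the base coset. -/
theorem smul_base (γ : Γ) :
    (γ : SL(2, ℤ)) • ((1 : SL(2, ℤ)) : SL(2, ℤ) ⧸ Γ) = ((1 : SL(2, ℤ)) : SL(2, ℤ) ⧸ Γ) := by
  rw [MulAction.Quotient.smul_mk, smul_eq_mul, mul_one]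
  exact QuotientGroup.eq.mpr (by simp)

/-- the hom `γ ↦ κ γ x₀` attached to a cocycle. -/
def homOf (κ : cocSub Γ) : Additive Γ →+ ℂ where
  toFun γ := (κ : SL(2, ℤ) → (SL(2, ℤ) ⧸ Γ) → ℂ) ((Additive.toMul γ : Γ) : SL(2, ℤ))
    ((1 : SL(2, ℤ)) : SL(2, ℤ) ⧸ Γ)
  map_zero' := (cocSub_isCoc κ).one _
  map_add' γ δ := by
    show (κ : SL(2, ℤ) → (SL(2, ℤ) ⧸ Γ) → ℂ)
        (((Additive.toMul γ * Additive.toMul δ : Γ) : Γ) : SL(2, ℤ)) _ = _
    rw [Subgroup.coe_mul, cocSub_isCoc κ, smul_base]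

theorem homOf_apply (κ : cocSub Γ) (γ : Γ) :
    homOf Γ κ (Additive.ofMul γ)
      = (κ : SL(2, ℤ) → (SL(2, ℤ) ⧸ Γ) → ℂ) (γ : SL(2, ℤ)) ((1 : SL(2, ℤ)) : SL(2, ℤ) ⧸ Γ) := rfl

/-- `homOf` as a linear map. -/
def homOfL : cocSub Γ →ₗ[ℂ] (Additive Γ →+ ℂ) where
  toFun := homOf Γ
  map_add' κ κ' := by
    refine AddMonoidHom.ext fun γ => ?_
    rfl
  map_smul' c κ := by
    refine AddMonoidHom.ext fun γ => ?_
    rfl

theorem homOfL_apply (κ : cocSub Γ) : homOfL Γ κ = homOf Γ κ := rfl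

/-- coboundaries. -/
def cob : ((SL(2, ℤ) ⧸ Γ) → ℂ) →ₗ[ℂ] cocSub Γ where
  toFun m := ⟨fun g x => m (g • x) - m x, fun g h x => by
    show m ((g * h) • x) - m x = m (g • h • x) - m (h • x) + (m (h • x) - m x)
    rw [mul_smul]; ring⟩
  map_add' m m' := by
    apply Subtype.ext
    funext g x
    simp only [Pi.add_apply, Submodule.coe_add]
    ring
  map_smul' c m := by
    apply Subtype.ext
    funext g x
    simp only [Pi.smul_apply, smul_eq_mul, RingHom.id_apply, Submodule.coe_smul]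
    ring

theorem cob_apply (m : (SL(2, ℤ) ⧸ Γ) → ℂ) (g : SL(2, ℤ)) (x : SL(2, ℤ) ⧸ Γ) :
    (cob Γ m : SL(2, ℤ) → (SL(2, ℤ) ⧸ Γ) → ℂ) g x = m (g • x) - m x := rfl

/-- a cocycle whose hom vanishes is a coboundary. -/
theorem ker_homOfL_le : LinearMap.ker (homOfL Γ) ≤ LinearMap.range (cob Γ) := by
  intro κ hκ
  rw [LinearMap.mem_ker, homOfL_apply] at hκ
  have hc := cocSub_isCoc κ
  set x₀ : SL(2, ℤ) ⧸ Γ := ((1 : SL(2, ℤ)) : SL(2, ℤ) ⧸ Γ) with hx₀
  have hout : ∀ x : SL(2, ℤ) ⧸ Γ, (Quotient.out x : SL(2, ℤ)) • x₀ = x := by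
    intro x
    rw [hx₀, MulAction.Quotient.smul_mk, smul_eq_mul, mul_one]
    exact QuotientGroup.out_eq' x
  refine ⟨fun x => (κ : SL(2, ℤ) → (SL(2, ℤ) ⧸ Γ) → ℂ) (Quotient.out x) x₀, ?_⟩
  apply Subtype.ext
  funext g x
  rw [cob_apply]
  -- `g * out x = out (g • x) * γ` with `γ ∈ Γ`
  set γ : Γ := helper681.cocElt Γ g x with hγ
  have hmul : g * Quotient.out x = Quotient.out (g • x) * (γ : SL(2, ℤ)) := by
    rw [hγ]
    simp only [helper681.cocElt]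
    group
  have h1 := hc g (Quotient.out x) x₀
  have h2 := hc (Quotient.out (g • x)) (γ : SL(2, ℤ)) x₀
  rw [hout] at h1
  rw [smul_base] at h2
  have h3 : (κ : SL(2, ℤ) → (SL(2, ℤ) ⧸ Γ) → ℂ) (γ : SL(2, ℤ)) x₀ = 0 := by
    have := congrArg (fun φ : Additive Γ →+ ℂ => φ (Additive.ofMul γ)) hκ
    simpa [homOf_apply] using this
  rw [hmul, h2, h3] at h1
  linear_combination h1

/-- upper triangular elements of `SL(2, ℤ)` are `± T ^ n`. -/
theorem eq_T_zpow_or_neg (p : SL(2, ℤ)) (hp : p 1 0 = 0) :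
    ∃ n : ℤ, p = T ^ n ∨ p = -T ^ n := by
  have hdet : p 0 0 * p 1 1 - p 0 1 * p 1 0 = 1 := by
    have := p.det_coe
    rwa [Matrix.det_fin_two] at this
  rw [hp, mul_zero, sub_zero] at hdet
  rcases Int.eq_one_or_neg_one_of_mul_eq_one' hdet with ⟨h0, h1⟩ | ⟨h0, h1⟩
  · refine ⟨p 0 1, Or.inl ?_⟩
    ext i j
    rw [ModularGroup.coe_T_zpow]
    fin_cases i <;> fin_cases j <;> simp [h0, h1, hp]
  · refine ⟨-p 0 1, Or.inr ?_⟩
    ext i j
    rw [Matrix.SpecialLinearGroup.coe_neg, ModularGroup.coe_T_zpow]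
    fin_cases i <;> fin_cases j <;> simp [h0, h1, hp]

/-- `-1 ∈ Γ` acts trivially on the coset space. -/
theorem neg_one_smul_quot (hneg : (-1 : SL(2, ℤ)) ∈ Γ) (x : SL(2, ℤ) ⧸ Γ) :
    (-1 : SL(2, ℤ)) • x = x := by
  induction x using QuotientGroup.induction_on with
  | H g =>
    rw [MulAction.Quotient.smul_mk, smul_eq_mul]
    refine QuotientGroup.eq.mpr ?_
    have : ((-1 : SL(2, ℤ)) * g)⁻¹ * g = -1 := by
      have h1 : (-1 : SL(2, ℤ)) * g = g * (-1) := by simp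
      rw [h1, mul_inv_rev, inv_mul_cancel_right]
      simp
    rw [this]
    exact hneg

/-- the hom of a cocycle `κ` with `κ (T ^ n₀) = 0` (`T ^ n₀` acting trivially, `n₀ > 0`) is
parabolic. -/
theorem homOf_mem_parabolicHoms (hneg : (-1 : SL(2, ℤ)) ∈ Γ) (κ : cocSub Γ) (n₀ : ℕ)
    (hn₀ : 0 < n₀) (htriv : ∀ x : SL(2, ℤ) ⧸ Γ, T ^ n₀ • x = x)
    (hκT : ∀ x : SL(2, ℤ) ⧸ Γ, (κ : SL(2, ℤ) → (SL(2, ℤ) ⧸ Γ) → ℂ) (T ^ n₀) x = 0) :
    homOf Γ κ ∈ parabolicHoms ℂ Γ ℂ := by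
  have hc := cocSub_isCoc κ
  set k : SL(2, ℤ) → (SL(2, ℤ) ⧸ Γ) → ℂ := (κ : SL(2, ℤ) → (SL(2, ℤ) ⧸ Γ) → ℂ) with hk
  have hnegx := neg_one_smul_quot Γ hneg
  have hkneg : ∀ x, k (-1) x = 0 := fun x => hc.eq_zero_of_sq (-1) hnegx (by simp) x
  -- powers of `A = T ^ n₀`
  have hA : ∀ m : ℕ, (∀ x : SL(2, ℤ) ⧸ Γ, (T ^ n₀) ^ m • x = x) ∧ ∀ x, k ((T ^ n₀) ^ m) x = 0 := by
    intro m
    induction m with
    | zero => exact ⟨fun x => by simp, fun x => by simpa using hc.one x⟩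
    | succ m ih =>
      refine ⟨fun x => ?_, fun x => ?_⟩
      · rw [pow_succ, mul_smul, htriv, ih.1]
      · rw [pow_succ, hc, htriv, ih.2, hκT, add_zero]
  have hAz : ∀ m : ℤ, ∀ x, k ((T ^ n₀) ^ m) x = 0 := by
    intro m x
    cases m with
    | ofNat m => simpa using (hA m).2 x
    | negSucc m =>
      rw [zpow_negSucc, hc.inv, (hA (m + 1)).2, neg_zero]
  -- an element `h = T ^ n` fixing `y` has `k h y = 0`
  have hfix : ∀ (n : ℤ) (y : SL(2, ℤ) ⧸ Γ), T ^ n • y = y → k (T ^ n) y = 0 := by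
    intro n y hy
    have hpow : ∀ j : ℕ, (T ^ n) ^ j • y = y := by
      intro j
      induction j with
      | zero => simp
      | succ j ih => rw [pow_succ, mul_smul, hy, ih]
    have h1 : k ((T ^ n) ^ n₀) y = (n₀ : ℂ) * k (T ^ n) y := by
      rw [hc.pow]
      simp [hpow]
    have h2 : (T ^ n) ^ n₀ = (T ^ n₀) ^ n := by
      rw [← zpow_natCast, ← zpow_mul, ← zpow_natCast T n₀, ← zpow_mul, mul_comm]
    rw [h2, hAz] at h1
    have hn₀' : (n₀ : ℂ) ≠ 0 := by exact_mod_cast hn₀.ne'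
    exact (mul_eq_zero.mp h1.symm).resolve_left hn₀'
  rw [mem_parabolicHoms_iff]
  intro γ hγ
  obtain ⟨δ, hδ⟩ := helper376.exists_conj_lowerLeft_eq_zero (γ : SL(2, ℤ)) hγ
  obtain ⟨p, hp⟩ : ∃ p : SL(2, ℤ), p = δ⁻¹ * (γ : SL(2, ℤ)) * δ := ⟨_, rfl⟩
  rw [← hp] at hδ
  obtain ⟨n, hn⟩ := eq_T_zpow_or_neg p hδ
  set x₀ : SL(2, ℤ) ⧸ Γ := ((1 : SL(2, ℤ)) : SL(2, ℤ) ⧸ Γ) with hx₀
  set y : SL(2, ℤ) ⧸ Γ := δ⁻¹ • x₀ with hy
  have hpy : p • y = y := by
    rw [hp, hy, ← mul_smul, mul_inv_cancel_right, mul_smul, smul_base]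
  have hγeq : (γ : SL(2, ℤ)) = δ * p * δ⁻¹ := by rw [hp]; group
  have hval : homOf Γ κ (Additive.ofMul γ) = k p y := by
    rw [homOf_apply]
    show k (γ : SL(2, ℤ)) x₀ = _
    rw [hγeq, hc, hc, ← hy, hpy, hc.inv δ x₀, ← hy]
    ring
  rw [hval]
  rcases hn with hn | hn
  · rw [hn] at hpy ⊢
    exact hfix n y hpy
  · have hneg_eq : -T ^ n = (-1 : SL(2, ℤ)) * T ^ n := by simp
    rw [hn, hneg_eq] at hpy ⊢
    rw [mul_smul, hnegx] at hpy
    rw [hc, hkneg, hfix n y hpy, add_zero]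

end Quot

/-! ## Dimension counts -/

section Dim

variable (Γ : Subgroup SL(2, ℤ))

/-- functions on the coset space invariant under `g`. -/
def invSub (g : SL(2, ℤ)) : Submodule ℂ ((SL(2, ℤ) ⧸ Γ) → ℂ) where
  carrier := {m | ∀ x, m (g • x) = m x}
  zero_mem' := fun _ => rfl
  add_mem' := fun {m m'} hm hm' x => by
    simp only [Pi.add_apply]; rw [hm, hm']
  smul_mem' := fun c m hm x => by
    simp only [Pi.smul_apply]; rw [hm]

theorem mem_invSub (g : SL(2, ℤ)) (m : (SL(2, ℤ) ⧸ Γ) → ℂ) :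
    m ∈ invSub Γ g ↔ ∀ x, m (g • x) = m x := Iff.rfl

theorem invSub_le_range (g : SL(2, ℤ)) :
    invSub Γ g ≤ LinearMap.range (LinearMap.funLeft ℂ ℂ (helper681.orbProj Γ g)) := by
  intro m hm
  rw [mem_invSub] at hm
  have hz : ∀ n : ℤ, ∀ x, m (g ^ n • x) = m x := by
    intro n
    induction n using Int.induction_on with
    | zero => intro x; simp
    | succ n ih => intro x; rw [zpow_add_one, mul_smul, ih, hm]
    | pred n ih =>
      intro x
      rw [zpow_sub_one, mul_smul, ih]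
      have := hm (g⁻¹ • x)
      rw [smul_inv_smul] at this
      exact this.symm
  refine ⟨fun q => Quotient.liftOn' q m ?_, ?_⟩
  · intro a b hab
    have hab' : a ∈ MulAction.orbit (Subgroup.zpowers g) b := hab
    obtain ⟨⟨k, hk⟩, rfl⟩ := hab'
    obtain ⟨n, rfl⟩ := Subgroup.mem_zpowers_iff.mp hk
    exact hz n b
  · funext x
    rfl

theorem finrank_fun_eq_card (Y : Type*) [Finite Y] : Module.finrank ℂ (Y → ℂ) = Nat.card Y := by
  let _ := Fintype.ofFinite Y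
  rw [Module.finrank_fintype_fun_eq_card, Nat.card_eq_fintype_card]

theorem finrank_invSub_le [Finite (SL(2, ℤ) ⧸ Γ)] (g : SL(2, ℤ)) :
    Module.finrank ℂ (invSub Γ g)
      ≤ Nat.card (MulAction.orbitRel.Quotient (Subgroup.zpowers g) (SL(2, ℤ) ⧸ Γ)) := by
  calc Module.finrank ℂ (invSub Γ g)
      ≤ Module.finrank ℂ (LinearMap.range (LinearMap.funLeft ℂ ℂ (helper681.orbProj Γ g))) :=
        Submodule.finrank_mono (invSub_le_range Γ g)
    _ ≤ Module.finrank ℂ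
          (MulAction.orbitRel.Quotient (Subgroup.zpowers g) (SL(2, ℤ) ⧸ Γ) → ℂ) :=
        LinearMap.finrank_range_le _
    _ = _ := finrank_fun_eq_card _

/-- `a ↦ a + a ∘ S`. -/
noncomputable def LS : ((SL(2, ℤ) ⧸ Γ) → ℂ) →ₗ[ℂ] ((SL(2, ℤ) ⧸ Γ) → ℂ) :=
  LinearMap.id + helper681.rho Γ S

/-- `b ↦ b + b ∘ U + b ∘ U²`, `U = S * T`. -/
noncomputable def LU : ((SL(2, ℤ) ⧸ Γ) → ℂ) →ₗ[ℂ] ((SL(2, ℤ) ⧸ Γ) → ℂ) :=
  LinearMap.id + helper681.rho Γ (S * T) + helper681.rho Γ (S * T) ∘ₗ helper681.rho Γ (S * T)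

theorem LS_apply (a : (SL(2, ℤ) ⧸ Γ) → ℂ) (x : SL(2, ℤ) ⧸ Γ) :
    LS Γ a x = a x + a (S • x) := rfl

theorem LU_apply (b : (SL(2, ℤ) ⧸ Γ) → ℂ) (x : SL(2, ℤ) ⧸ Γ) :
    LU Γ b x = b x + b ((S * T) • x) + b ((S * T) • (S * T) • x) := rfl

theorem SS_smul (hneg : (-1 : SL(2, ℤ)) ∈ Γ) (x : SL(2, ℤ) ⧸ Γ) : S • S • x = x := by
  rw [← mul_smul, Fermat.Agent.Lib.helper2301.S_mul_S, neg_one_smul_quot Γ hneg]

theorem UUU_smul (hneg : (-1 : SL(2, ℤ)) ∈ Γ) (x : SL(2, ℤ) ⧸ Γ) :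
    (S * T) • (S * T) • (S * T) • x = x := by
  rw [← mul_smul, ← mul_smul, mul_assoc, Fermat.Agent.Lib.helper2301.ST_cube,
    neg_one_smul_quot Γ hneg]

theorem range_LS_le (hneg : (-1 : SL(2, ℤ)) ∈ Γ) : LinearMap.range (LS Γ) ≤ invSub Γ S := by
  rintro _ ⟨a, rfl⟩
  rw [mem_invSub]
  intro x
  rw [LS_apply, LS_apply, SS_smul Γ hneg]
  ring

theorem range_LU_le (hneg : (-1 : SL(2, ℤ)) ∈ Γ) :
    LinearMap.range (LU Γ) ≤ invSub Γ (S * T) := by
  rintro _ ⟨b, rfl⟩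
  rw [mem_invSub]
  intro x
  rw [LU_apply, LU_apply, UUU_smul Γ hneg]
  ring

theorem card_le_finrank_ker_LS [Finite (SL(2, ℤ) ⧸ Γ)] (hneg : (-1 : SL(2, ℤ)) ∈ Γ) :
    Nat.card (SL(2, ℤ) ⧸ Γ) ≤ Module.finrank ℂ (LinearMap.ker (LS Γ))
      + Nat.card (MulAction.orbitRel.Quotient (Subgroup.zpowers S) (SL(2, ℤ) ⧸ Γ)) := by
  have h1 := LinearMap.finrank_range_add_finrank_ker (LS Γ)
  rw [finrank_fun_eq_card] at h1
  have h2 : Module.finrank ℂ (LinearMap.range (LS Γ)) ≤ Module.finrank ℂ (invSub Γ S) :=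
    Submodule.finrank_mono (range_LS_le Γ hneg)
  have h3 := finrank_invSub_le Γ S
  omega

theorem card_le_finrank_ker_LU [Finite (SL(2, ℤ) ⧸ Γ)] (hneg : (-1 : SL(2, ℤ)) ∈ Γ) :
    Nat.card (SL(2, ℤ) ⧸ Γ) ≤ Module.finrank ℂ (LinearMap.ker (LU Γ))
      + Nat.card (MulAction.orbitRel.Quotient (Subgroup.zpowers (S * T)) (SL(2, ℤ) ⧸ Γ)) := by
  have h1 := LinearMap.finrank_range_add_finrank_ker (LU Γ)
  rw [finrank_fun_eq_card] at h1
  have h2 : Module.finrank ℂ (LinearMap.range (LU Γ)) ≤ Module.finrank ℂ (invSub Γ (S * T)) :=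
    Submodule.finrank_mono (range_LU_le Γ hneg)
  have h3 := finrank_invSub_le Γ (S * T)
  omega

/-- evaluation of a cocycle at a group element. -/
def evAt (g : SL(2, ℤ)) : cocSub Γ →ₗ[ℂ] ((SL(2, ℤ) ⧸ Γ) → ℂ) where
  toFun κ := (κ : SL(2, ℤ) → (SL(2, ℤ) ⧸ Γ) → ℂ) g
  map_add' _ _ := rfl
  map_smul' _ _ := rfl

theorem evAt_apply (g : SL(2, ℤ)) (κ : cocSub Γ) :
    evAt Γ g κ = (κ : SL(2, ℤ) → (SL(2, ℤ) ⧸ Γ) → ℂ) g := rfl

theorem evAt_S_mem (hneg : (-1 : SL(2, ℤ)) ∈ Γ) (κ : cocSub Γ) :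
    evAt Γ S κ ∈ LinearMap.ker (LS Γ) := by
  rw [LinearMap.mem_ker]
  funext x
  have hc := cocSub_isCoc κ
  have h1 := hc S S x
  rw [Fermat.Agent.Lib.helper2301.S_mul_S,
    hc.eq_zero_of_sq (-1) (neg_one_smul_quot Γ hneg) (by simp)] at h1
  rw [LS_apply, evAt_apply, Pi.zero_apply]
  linear_combination -h1

theorem evAt_U_mem (hneg : (-1 : SL(2, ℤ)) ∈ Γ) (κ : cocSub Γ) :
    evAt Γ (S * T) κ ∈ LinearMap.ker (LU Γ) := by
  rw [LinearMap.mem_ker]
  funext x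
  have hc := cocSub_isCoc κ
  have h1 := hc (S * T) ((S * T) * (S * T)) x
  have h2 := hc (S * T) (S * T) x
  rw [Fermat.Agent.Lib.helper2301.ST_cube,
    hc.eq_zero_of_sq (-1) (neg_one_smul_quot Γ hneg) (by simp), mul_smul, h2] at h1
  rw [LU_apply, evAt_apply, Pi.zero_apply]
  linear_combination -h1

/-- cocycles are the same as pairs in `ker (1 + S) × ker (1 + U + U²)`. -/
noncomputable def evSU (hneg : (-1 : SL(2, ℤ)) ∈ Γ) :
    cocSub Γ →ₗ[ℂ] (LinearMap.ker (LS Γ)) × (LinearMap.ker (LU Γ)) :=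
  ((evAt Γ S).codRestrict _ (evAt_S_mem Γ hneg)).prod
    ((evAt Γ (S * T)).codRestrict _ (evAt_U_mem Γ hneg))

theorem evSU_bijective (hneg : (-1 : SL(2, ℤ)) ∈ Γ) : Function.Bijective (evSU Γ hneg) := by
  constructor
  · intro κ κ' h
    apply Subtype.ext
    have h1 : evAt Γ S κ = evAt Γ S κ' := congrArg (fun p => (p.1 : (SL(2, ℤ) ⧸ Γ) → ℂ)) h
    have h2 : evAt Γ (S * T) κ = evAt Γ (S * T) κ' :=
      congrArg (fun p => (p.2 : (SL(2, ℤ) ⧸ Γ) → ℂ)) h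
    exact (cocSub_isCoc κ).ext_gen (cocSub_isCoc κ') h1 h2
  · rintro ⟨⟨a, ha⟩, ⟨b, hb⟩⟩
    rw [LinearMap.mem_ker] at ha hb
    obtain ⟨κ, hκ, hS, hU⟩ := exists_isCoc (neg_one_smul_quot Γ hneg) a b
      (fun x => by
        have := congrFun ha x
        rw [LS_apply, Pi.zero_apply] at this
        linear_combination this)
      (fun x => by
        have := congrFun hb x
        rw [LU_apply, Pi.zero_apply] at this
        linear_combination this)
    refine ⟨⟨κ, hκ⟩, ?_⟩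
    refine Prod.ext (Subtype.ext ?_) (Subtype.ext ?_)
    · exact hS
    · exact hU

theorem finrank_cocSub [Finite (SL(2, ℤ) ⧸ Γ)] (hneg : (-1 : SL(2, ℤ)) ∈ Γ) :
    Module.Finite ℂ (cocSub Γ) ∧
    Module.finrank ℂ (cocSub Γ)
      = Module.finrank ℂ (LinearMap.ker (LS Γ)) + Module.finrank ℂ (LinearMap.ker (LU Γ)) := by
  let e := LinearEquiv.ofBijective (evSU Γ hneg) (evSU_bijective Γ hneg)
  refine ⟨Module.Finite.equiv e.symm, ?_⟩
  rw [e.finrank_eq, Module.finrank_prod]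

theorem evAt_pow_mem_invSub (κ : cocSub Γ) (n₀ : ℕ)
    (htriv : ∀ x : SL(2, ℤ) ⧸ Γ, T ^ n₀ • x = x) : evAt Γ (T ^ n₀) κ ∈ invSub Γ T := by
  rw [mem_invSub]
  intro x
  have hc := cocSub_isCoc κ
  have h1 := hc (T ^ n₀) T x
  have h2 := hc T (T ^ n₀) x
  rw [htriv] at h2
  have h3 : T ^ n₀ * T = T * T ^ n₀ := (pow_succ T n₀).symm.trans (pow_succ' T n₀)
  rw [h3, h2] at h1
  rw [evAt_apply]
  linear_combination -h1

/-- `T`-invariant functions of total sum zero. -/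
def invT0 [Fintype (SL(2, ℤ) ⧸ Γ)] : Submodule ℂ ((SL(2, ℤ) ⧸ Γ) → ℂ) where
  carrier := {m | m ∈ invSub Γ T ∧ ∑ x, m x = 0}
  zero_mem' := ⟨Submodule.zero_mem _, by simp⟩
  add_mem' := fun {m m'} hm hm' =>
    ⟨Submodule.add_mem _ hm.1 hm'.1, by simp [Finset.sum_add_distrib, hm.2, hm'.2]⟩
  smul_mem' := fun c m hm =>
    ⟨Submodule.smul_mem _ c hm.1, by simp [← Finset.mul_sum, hm.2]⟩

theorem finrank_invT0_lt [Fintype (SL(2, ℤ) ⧸ Γ)] :
    Module.finrank ℂ (invT0 Γ) < Module.finrank ℂ (invSub Γ T) := by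
  apply Submodule.finrank_lt_finrank_of_lt
  refine lt_of_le_of_ne (fun m hm => hm.1) ?_
  intro heq
  have h1 : (fun _ => (1 : ℂ)) ∈ invSub Γ T := fun _ => rfl
  rw [← heq] at h1
  have h2 : ∑ _x : SL(2, ℤ) ⧸ Γ, (1 : ℂ) = 0 := h1.2
  rw [Finset.sum_const, Finset.card_univ, nsmul_eq_mul, mul_one] at h2
  have h3 : (Fintype.card (SL(2, ℤ) ⧸ Γ) : ℂ) ≠ 0 := by
    exact_mod_cast (Fintype.card_pos_iff.mpr ⟨((1 : SL(2, ℤ)) : SL(2, ℤ) ⧸ Γ)⟩).ne'
  exact h3 h2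

theorem range_evAt_le [Fintype (SL(2, ℤ) ⧸ Γ)] (hneg : (-1 : SL(2, ℤ)) ∈ Γ) (n₀ : ℕ)
    (htriv : ∀ x : SL(2, ℤ) ⧸ Γ, T ^ n₀ • x = x) :
    LinearMap.range (evAt Γ (T ^ n₀)) ≤ invT0 Γ := by
  rintro _ ⟨κ, rfl⟩
  exact ⟨evAt_pow_mem_invSub Γ κ n₀ htriv,
    (cocSub_isCoc κ).sum_eq_zero (neg_one_smul_quot Γ hneg) (T ^ n₀)⟩

/-- rank–nullity for the parabolicity constraint. -/
theorem finrank_cocSub_le_ker_evAt [Finite (SL(2, ℤ) ⧸ Γ)] (hneg : (-1 : SL(2, ℤ)) ∈ Γ) (n₀ : ℕ)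
    (htriv : ∀ x : SL(2, ℤ) ⧸ Γ, T ^ n₀ • x = x) :
    Module.finrank ℂ (cocSub Γ) + 1 ≤ Module.finrank ℂ (LinearMap.ker (evAt Γ (T ^ n₀)))
      + Nat.card (MulAction.orbitRel.Quotient (Subgroup.zpowers T) (SL(2, ℤ) ⧸ Γ)) := by
  let _ := Fintype.ofFinite (SL(2, ℤ) ⧸ Γ)
  have := (finrank_cocSub Γ hneg).1
  have h1 := LinearMap.finrank_range_add_finrank_ker (evAt Γ (T ^ n₀))
  have h2 : Module.finrank ℂ (LinearMap.range (evAt Γ (T ^ n₀))) ≤ Module.finrank ℂ (invT0 Γ) :=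
    Submodule.finrank_mono (range_evAt_le Γ hneg n₀ htriv)
  have h3 := finrank_invT0_lt Γ
  have h4 := finrank_invSub_le Γ T
  omega

/-- the coboundary space has dimension at most `index - 1`. -/
theorem finrank_range_cob_lt [Finite (SL(2, ℤ) ⧸ Γ)] :
    Module.finrank ℂ (LinearMap.range (cob Γ)) + 1 ≤ Nat.card (SL(2, ℤ) ⧸ Γ) := by
  have h1 := LinearMap.finrank_range_add_finrank_ker (cob Γ)
  rw [finrank_fun_eq_card] at h1
  have h2 : 0 < Module.finrank ℂ (LinearMap.ker (cob Γ)) := by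
    rw [Module.finrank_pos_iff_exists_ne_zero]
    refine ⟨⟨fun _ => 1, ?_⟩, ?_⟩
    · rw [LinearMap.mem_ker]
      apply Subtype.ext
      funext g x
      rw [cob_apply]
      simp
    · intro h
      have := congrArg (fun v : LinearMap.ker (cob Γ) =>
        (v : (SL(2, ℤ) ⧸ Γ) → ℂ) ((1 : SL(2, ℤ)) : SL(2, ℤ) ⧸ Γ)) h
      simp at this
  omega

end Dim

/-! ## The lower bound -/

section Main

/-- **D3, the group-theoretic lower bound** (mirror of
`helper681.finrank_parabolicHoms_add_orbits_le`): for a finite-index subgroup `Γ ∋ -1` of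
`SL(2, ℤ)`, the index plus two is at most the dimension of the space of parabolic homs plus the
numbers of orbits of `S`, `T`, `S * T` on `SL(2, ℤ) ⧸ Γ`. -/
theorem card_add_two_le_finrank_parabolicHoms_add_orbits (Γ : Subgroup SL(2, ℤ)) [Γ.FiniteIndex]
    (hneg : (-1 : SL(2, ℤ)) ∈ Γ) :
    Nat.card (SL(2, ℤ) ⧸ Γ) + 2 ≤
    Module.finrank ℂ (parabolicHoms ℂ Γ ℂ)
      + (Nat.card (MulAction.orbitRel.Quotient (Subgroup.zpowers S) (SL(2, ℤ) ⧸ Γ))
      + Nat.card (MulAction.orbitRel.Quotient (Subgroup.zpowers T) (SL(2, ℤ) ⧸ Γ))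
      + Nat.card (MulAction.orbitRel.Quotient
          (Subgroup.zpowers (S * T)) (SL(2, ℤ) ⧸ Γ))) := by
  have hfinP : Module.Finite ℂ (parabolicHoms ℂ Γ ℂ) :=
    (helper681.finrank_parabolicHoms_add_orbits_le Γ hneg).1
  obtain ⟨hfinZ, hZ⟩ := finrank_cocSub Γ hneg
  -- a positive power of `T` acting trivially
  obtain ⟨n₀, hn₀, hpow⟩ :=
    (isOfFinOrder_of_finite (MulAction.toPermHom SL(2, ℤ) (SL(2, ℤ) ⧸ Γ) T)).exists_pow_eq_one
  have htriv : ∀ x : SL(2, ℤ) ⧸ Γ, T ^ n₀ • x = x := by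
    intro x
    rw [← map_pow] at hpow
    have := congrArg (fun σ : Equiv.Perm (SL(2, ℤ) ⧸ Γ) => σ x) hpow
    simpa using this
  have hS := card_le_finrank_ker_LS Γ hneg
  have hU := card_le_finrank_ker_LU Γ hneg
  have hK := finrank_cocSub_le_ker_evAt Γ hneg n₀ htriv
  have hB := finrank_range_cob_lt Γ
  -- the restriction of `homOfL` to the constrained cocycles
  set Kp : Submodule ℂ (cocSub Γ) := LinearMap.ker (evAt Γ (T ^ n₀)) with hKdef
  set Φ : Kp →ₗ[ℂ] (Additive Γ →+ ℂ) := (homOfL Γ).domRestrict Kp with hΦ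
  have h1 := LinearMap.finrank_range_add_finrank_ker (K := ℂ) (V := Kp)
    (V₂ := Additive Γ →+ ℂ) Φ
  have h2 : Module.finrank ℂ (LinearMap.range Φ) ≤ Module.finrank ℂ (parabolicHoms ℂ Γ ℂ) := by
    apply Submodule.finrank_mono
    rintro _ ⟨⟨κ, hκ⟩, rfl⟩
    rw [hKdef, LinearMap.mem_ker] at hκ
    exact homOf_mem_parabolicHoms Γ hneg κ n₀ hn₀ htriv (fun x => congrFun hκ x)
  have h3 : Module.finrank ℂ (LinearMap.ker Φ) ≤ Module.finrank ℂ (LinearMap.range (cob Γ)) := by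
    let j : LinearMap.ker Φ →ₗ[ℂ] LinearMap.range (cob Γ) :=
      (Kp.subtype ∘ₗ (LinearMap.ker Φ).subtype).codRestrict _ (by
        rintro ⟨⟨κ, hκ⟩, hv⟩
        apply ker_homOfL_le Γ
        rw [LinearMap.mem_ker] at hv ⊢
        exact hv)
    have hj : Function.Injective j := by
      intro v w hvw
      have h := congrArg (fun u : LinearMap.range (cob Γ) => (u : cocSub Γ)) hvw
      exact Subtype.ext (Subtype.ext h)
    exact LinearMap.finrank_le_finrank_of_injective hj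
  omega

/-- **exact dimension** of the space of parabolic homs in orbit-count form
(`helper681` D2a + D3). -/
theorem finrank_parabolicHoms_add_orbits_eq (Γ : Subgroup SL(2, ℤ)) [Γ.FiniteIndex]
    (hneg : (-1 : SL(2, ℤ)) ∈ Γ) :
    Module.finrank ℂ (parabolicHoms ℂ Γ ℂ)
      + (Nat.card (MulAction.orbitRel.Quotient (Subgroup.zpowers S) (SL(2, ℤ) ⧸ Γ))
      + Nat.card (MulAction.orbitRel.Quotient (Subgroup.zpowers T) (SL(2, ℤ) ⧸ Γ))
      + Nat.card (MulAction.orbitRel.Quotient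
          (Subgroup.zpowers (S * T)) (SL(2, ℤ) ⧸ Γ)))
      = Nat.card (SL(2, ℤ) ⧸ Γ) + 2 :=
  le_antisymm (helper681.finrank_parabolicHoms_add_orbits_le Γ hneg).2
    (card_add_two_le_finrank_parabolicHoms_add_orbits Γ hneg)

open CongruenceSubgroup ModularCurve in
/-- **D3 for `Γ₀(N)`**, with the four coset-counting facts as hypotheses (same shapes as
`helper681.finrank_parabolicHoms_Gamma0_le`). -/
theorem two_mul_genusFormula_le_finrank_parabolicHoms (N : ℕ) [NeZero N]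
    (h1 : (Gamma0 N).index = dedekindPsi N)
    (hT : Nat.card (MulAction.orbitRel.Quotient (Subgroup.zpowers T)
      (SL(2, ℤ) ⧸ Gamma0 N)) = cuspCount N)
    (hS : 2 * Nat.card (MulAction.orbitRel.Quotient (Subgroup.zpowers S)
      (SL(2, ℤ) ⧸ Gamma0 N)) = dedekindPsi N + nuTwo N)
    (hST : 3 * Nat.card (MulAction.orbitRel.Quotient (Subgroup.zpowers (S * T))
      (SL(2, ℤ) ⧸ Gamma0 N)) = dedekindPsi N + 2 * nuThree N) :
    2 * genusFormula N ≤ (Module.finrank ℂ (parabolicHoms ℂ (Gamma0 N) ℂ) : ℚ) := by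
  have hle := card_add_two_le_finrank_parabolicHoms_add_orbits (Gamma0 N)
    (helper681.neg_one_mem_Gamma0 N)
  rw [← Subgroup.index_eq_card, h1, hT] at hle
  have hle' : (dedekindPsi N : ℚ) + 2 ≤
      (Module.finrank ℂ (parabolicHoms ℂ (Gamma0 N) ℂ) : ℚ)
      + ((Nat.card (MulAction.orbitRel.Quotient (Subgroup.zpowers S)
          (SL(2, ℤ) ⧸ Gamma0 N)) : ℚ) + (cuspCount N : ℚ)
        + (Nat.card (MulAction.orbitRel.Quotient
          (Subgroup.zpowers (S * T)) (SL(2, ℤ) ⧸ Gamma0 N)) : ℚ)) := by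
    exact_mod_cast hle
  have hS' : (2 : ℚ) * (Nat.card (MulAction.orbitRel.Quotient (Subgroup.zpowers S)
      (SL(2, ℤ) ⧸ Gamma0 N)) : ℚ) = (dedekindPsi N : ℚ) + (nuTwo N : ℚ) := by
    exact_mod_cast hS
  have hST' : (3 : ℚ) * (Nat.card (MulAction.orbitRel.Quotient
      (Subgroup.zpowers (S * T)) (SL(2, ℤ) ⧸ Gamma0 N)) : ℚ)
      = (dedekindPsi N : ℚ) + 2 * (nuThree N : ℚ) := by
    exact_mod_cast hST
  unfold genusFormula
  linarith

open CongruenceSubgroup ModularCurve in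
/-- the exact dimension of the parabolic homs of `Γ₀(N)`, given the four counts. -/
theorem finrank_parabolicHoms_Gamma0_eq (N : ℕ) [NeZero N]
    (h1 : (Gamma0 N).index = dedekindPsi N)
    (hT : Nat.card (MulAction.orbitRel.Quotient (Subgroup.zpowers T)
      (SL(2, ℤ) ⧸ Gamma0 N)) = cuspCount N)
    (hS : 2 * Nat.card (MulAction.orbitRel.Quotient (Subgroup.zpowers S)
      (SL(2, ℤ) ⧸ Gamma0 N)) = dedekindPsi N + nuTwo N)
    (hST : 3 * Nat.card (MulAction.orbitRel.Quotient (Subgroup.zpowers (S * T))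
      (SL(2, ℤ) ⧸ Gamma0 N)) = dedekindPsi N + 2 * nuThree N) :
    (Module.finrank ℂ (parabolicHoms ℂ (Gamma0 N) ℂ) : ℚ) = 2 * genusFormula N :=
  le_antisymm (helper681.finrank_parabolicHoms_Gamma0_le N h1 hT hS hST).2
    (two_mul_genusFormula_le_finrank_parabolicHoms N h1 hT hS hST)

end Main

end Fermat.Agent.S21.helper2301
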