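/-
helper801: S21 Route 2 (Hodge/Weyl), algebra package.
`StmtH N` : every REAL parabolic hom of `Γ₀(N)` is the real part of the period hom of a
weight-2 cusp form.  This file proves, by pure linear algebra,
  `StmtA N → StmtCplus N → StmtH N → StmtD N`
and hence `StmtA → StmtB → StmtCplus → StmtCminus → StmtH → S21`.
No dimension formula, no group theory.
-/
import Fermat.Agent.S21.helper921_Wiring
import Fermat.Agent.S21.helper2438_ParabolicFinite

set_option autoImplicit false

namespace Fermat.Agent.S21.helper801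

open ModularCurve ModularCurve.Period CongruenceSubgroup UpperHalfPlane
open Fermat.Agent.S21.helper921

/-- (H) Hodge existence statement: every real-valued parabolic homomorphism of `Γ₀(N)` is the
real part of the period homomorphism of some weight-2 cusp form. -/
def StmtH (N : ℕ) : Prop :=
  ∀ φ : Additive (Gamma0 N) →+ ℝ, φ ∈ parabolicHoms ℝ (Gamma0 N) ℝ →
    ∃ h : CuspForm (Gamma0 N) 2, ∀ γ : Additive (Gamma0 N), (periodMap N h γ).re = φ γ

variable {N : ℕ}

/-- The real part of a complex-valued hom, viewed again as a complex-valued hom. -/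
def reHom (p : Additive (Gamma0 N) →+ ℂ) : Additive (Gamma0 N) →+ ℂ where
  toFun γ := ((p γ).re : ℂ)
  map_zero' := by simp
  map_add' a b := by simp

@[simp] theorem reHom_apply (p : Additive (Gamma0 N) →+ ℂ) (γ : Additive (Gamma0 N)) :
    reHom p γ = ((p γ).re : ℂ) := rfl

theorem reHom_add (p q : Additive (Gamma0 N) →+ ℂ) : reHom (p + q) = reHom p + reHom q := by
  refine AddMonoidHom.ext fun γ => ?_
  simp

theorem reHom_smul (c : ℂ) (p : Additive (Gamma0 N) →+ ℂ) :
    reHom (c • p) = (c.re : ℂ) • reHom p + (c.im : ℂ) • reHom (Complex.I • p) := by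
  refine AddMonoidHom.ext fun γ => ?_
  simp only [reHom_apply, AddMonoidHom.smul_apply, AddMonoidHom.add_apply, smul_eq_mul,
    Complex.mul_re, Complex.I_re, Complex.I_im]
  push_cast
  ring

theorem reHom_mem_parabolicHoms {p : Additive (Gamma0 N) →+ ℂ}
    (hp : p ∈ parabolicHoms ℂ (Gamma0 N) ℂ) : reHom p ∈ parabolicHoms ℂ (Gamma0 N) ℂ := by
  rw [mem_parabolicHoms_iff] at hp ⊢
  intro γ hγ
  simp [hp γ hγ]

/-- Real and imaginary parts of a parabolic hom are real parabolic homs. -/
theorem re_comp_mem {ψ : Additive (Gamma0 N) →+ ℂ} (hψ : ψ ∈ parabolicHoms ℂ (Gamma0 N) ℂ) :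
    (Complex.reLm.toAddMonoidHom.comp ψ) ∈ parabolicHoms ℝ (Gamma0 N) ℝ := by
  rw [mem_parabolicHoms_iff] at hψ ⊢
  intro γ hγ
  simp [hψ γ hγ]

theorem im_comp_mem {ψ : Additive (Gamma0 N) →+ ℂ} (hψ : ψ ∈ parabolicHoms ℂ (Gamma0 N) ℂ) :
    (Complex.imLm.toAddMonoidHom.comp ψ) ∈ parabolicHoms ℝ (Gamma0 N) ℝ := by
  rw [mem_parabolicHoms_iff] at hψ ⊢
  intro γ hγ
  simp [hψ γ hγ]

/-- Under (A) and (C+), the space of weight-2 cusp forms is finite-dimensional. -/
theorem cuspForm_finite_of_A_Cplus (N : ℕ) [NeZero N] (hA : StmtA N) (hCp : StmtCplus N) :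
    Module.Finite ℂ (CuspForm (Gamma0 N) 2) := by
  obtain ⟨pml, hpml⟩ := existsPeriodMapLinear_of_A hA
  have := helper2438.addHom_Gamma0_finite N
  let L : CuspForm (Gamma0 N) 2 →ₗ[ℂ] (Additive (Gamma0 N) →+ ℂ) :=
    (LinearMap.id + charInvolution N ℂ ℂ) ∘ₗ pml
  have hL : Function.Injective L := by
    rw [injective_iff_map_eq_zero]
    intro f hf
    apply hCp f
    have : L f = periodMap N f + charInvolution N ℂ ℂ (periodMap N f) := by
      simp [L, hpml]
    rw [← this]; exact hf
  exact Module.Finite.of_injective L hL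

/-- Core of the algebra: (A), (H) and finite-dimensionality give the dimension bound. -/
theorem finrank_parabolicHoms_le (N : ℕ) [NeZero N] (hA : StmtA N)
    (hH : StmtH N) [Module.Finite ℂ (CuspForm (Gamma0 N) 2)] :
    Module.finrank ℂ ↥(parabolicHoms ℂ (Gamma0 N) ℂ)
      ≤ 2 * Module.finrank ℂ (CuspForm (Gamma0 N) 2) := by
  classical
  obtain ⟨pml, hpml⟩ := existsPeriodMapLinear_of_A hA
  have hfinHom := helper2438.addHom_Gamma0_finite N
  set d := Module.finrank ℂ (CuspForm (Gamma0 N) 2) with hd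
  let b : Module.Basis (Fin d) ℂ (CuspForm (Gamma0 N) 2) := Module.finBasis ℂ _
  -- the additive map `f ↦ Re ∘ P(f)`
  let R : CuspForm (Gamma0 N) 2 →+ (Additive (Gamma0 N) →+ ℂ) :=
    { toFun := fun f => reHom (pml f)
      map_zero' := by
        refine AddMonoidHom.ext fun γ => ?_
        simp
      map_add' := fun f g => by rw [map_add, reHom_add] }
  have hR : ∀ f, R f = reHom (periodMap N f) := fun f => by
    show reHom (pml f) = _
    rw [hpml]
  have hRsmul : ∀ (c : ℂ) (f : CuspForm (Gamma0 N) 2),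
      R (c • f) = (c.re : ℂ) • R f + (c.im : ℂ) • R (Complex.I • f) := by
    intro c f
    show reHom (pml (c • f)) = (c.re : ℂ) • reHom (pml f) + (c.im : ℂ) • reHom (pml (Complex.I • f))
    rw [map_smul, map_smul, reHom_smul]
  -- the spanning family
  let B : Fin d ⊕ Fin d → (Additive (Gamma0 N) →+ ℂ) :=
    Sum.elim (fun j => R (b j)) (fun j => R (Complex.I • b j))
  have hRspan : ∀ f, R f ∈ Submodule.span ℂ (Set.range B) := by
    intro f
    have hf : f = ∑ j, b.repr f j • b j := (b.sum_repr f).symm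
    rw [hf, map_sum]
    refine Submodule.sum_mem _ fun j _ => ?_
    rw [hRsmul]
    refine Submodule.add_mem _ (Submodule.smul_mem _ _ ?_) (Submodule.smul_mem _ _ ?_)
    · exact Submodule.subset_span ⟨Sum.inl j, rfl⟩
    · exact Submodule.subset_span ⟨Sum.inr j, rfl⟩
  have hle : parabolicHoms ℂ (Gamma0 N) ℂ ≤ Submodule.span ℂ (Set.range B) := by
    intro ψ hψ
    obtain ⟨f, hf⟩ := hH _ (re_comp_mem hψ)
    obtain ⟨g, hg⟩ := hH _ (im_comp_mem hψ)
    have hψeq : ψ = R f + Complex.I • R g := by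
      refine AddMonoidHom.ext fun γ => ?_
      rw [AddMonoidHom.add_apply, AddMonoidHom.smul_apply, hR, hR, reHom_apply, reHom_apply,
        hf γ, hg γ]
      simp only [AddMonoidHom.coe_comp, Function.comp_apply, smul_eq_mul]
      have : ψ γ = ((ψ γ).re : ℂ) + Complex.I * ((ψ γ).im : ℂ) := by
        rw [mul_comm]; exact (Complex.re_add_im (ψ γ)).symm
      exact this
    rw [hψeq]
    exact Submodule.add_mem _ (hRspan f) (Submodule.smul_mem _ _ (hRspan g))
  calc Module.finrank ℂ ↥(parabolicHoms ℂ (Gamma0 N) ℂ)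
      ≤ Module.finrank ℂ ↥(Submodule.span ℂ (Set.range B)) := Submodule.finrank_mono hle
    _ ≤ Fintype.card (Fin d ⊕ Fin d) := finrank_range_le_card B
    _ = 2 * d := by simp [two_mul]

/-- (A), (C+), (H) imply (D). -/
theorem stmtD_of_ACH (N : ℕ) [NeZero N] (hA : StmtA N) (hCp : StmtCplus N)
    (hH : StmtH N) : StmtD N := by
  have := cuspForm_finite_of_A_Cplus N hA hCp
  exact ⟨helper2438.parabolicHoms_finite N, finrank_parabolicHoms_le N hA hH⟩

/-- S21 from (A), (B), (C±) and the Hodge existence statement (H). -/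
theorem result_of_ABCH (N : ℕ) [NeZero N] (hA : StmtA N) (hB : StmtB N) (hCp : StmtCplus N)
    (hCm : StmtCminus N) (hH : StmtH N) :
    Function.Injective (ModularCurve.periodHomPair N)
      ∧ LinearMap.range (ModularCurve.periodHomPair N)
          = ModularCurve.Period.parabolicHoms ℂ (CongruenceSubgroup.Gamma0 N) ℂ :=
  result_of_ABCD N hA hB hCp hCm (stmtD_of_ACH N hA hCp hH)

end Fermat.Agent.S21.helper801
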