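import Fermat.Agent.S21.helper21_Assembly
import Fermat.Agent.S21.helper681_ParabolicDim
import Fermat.Agent.Lib.helper804_Gamma0Cosets
import Fermat.Agent.S20.helper980_CuspCount

/-!
# S20/S21: the unconditional upper bounds, and what is left

Everything here is unconditional except the theorems ending in `_of_ge`:

* `finrank_parabolicHoms_le_two_genus` : `finrank parabolicHoms (Γ₀(N)) ≤ 2 * genusFormula N`
  (helper681's orbit bound + the four coset counts of helper804 / helper980);
* `finrank_cuspForm_le_genus` : `finrank S₂(Γ₀(N)) ≤ genusFormula N`  (the upper half of S20),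
  using the captain's `two_mul_finrank_cuspForm_le`;
* `s20_of_ge`, `s21_of_ge` : both S20 and S21 follow from the single lower bound
  `genusFormula N ≤ finrank S₂(Γ₀(N))`;
* `s21_of_s20` : S21 follows from the S20 statement.
-/

set_option autoImplicit false

open ModularCurve ModularCurve.Period CongruenceSubgroup

namespace Fermat.Agent.S21.helper921

/-- Unconditional: `finrank parabolicHoms (Γ₀(N)) ≤ 2 * genusFormula N`. -/
theorem finrank_parabolicHoms_le_two_genus (N : ℕ) [NeZero N] :
    (Module.finrank ℂ (parabolicHoms ℂ (Gamma0 N) ℂ) : ℚ) ≤ 2 * genusFormula N :=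
  (helper681.finrank_parabolicHoms_Gamma0_le N
    (Fermat.Agent.Lib.helper804.index_Gamma0 N)
    (Fermat.Agent.S20.helper980.card_orbits_T N)
    (Fermat.Agent.Lib.helper804.card_orbits_S N)
    (Fermat.Agent.Lib.helper804.card_orbits_ST N)).2

/-- Unconditional upper half of S20: `finrank S₂(Γ₀(N)) ≤ genusFormula N`. -/
theorem finrank_cuspForm_le_genus (N : ℕ) [NeZero N] :
    (Module.finrank ℂ (CuspForm (Gamma0 N) 2) : ℚ) ≤ genusFormula N := by
  have h1 := finrank_parabolicHoms_le_two_genus N
  have h2 : (2 * Module.finrank ℂ (CuspForm (Gamma0 N) 2) : ℚ)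
      ≤ (Module.finrank ℂ (parabolicHoms ℂ (Gamma0 N) ℂ) : ℚ) := by
    exact_mod_cast helper21.two_mul_finrank_cuspForm_le N
  linarith

/-- S20 from the lower bound alone. -/
theorem s20_of_ge (N : ℕ) [NeZero N]
    (h : genusFormula N ≤ (Module.finrank ℂ (CuspForm (Gamma0 N) 2) : ℚ)) :
    (Module.finrank ℂ (CuspForm (CongruenceSubgroup.Gamma0 N) 2) : ℚ)
      = ModularCurve.genusFormula N :=
  le_antisymm (finrank_cuspForm_le_genus N) h

/-- The rank inequality needed by the captain's `result_of_rank`, from the lower bound. -/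
theorem hrank_of_ge (N : ℕ) [NeZero N]
    (h : genusFormula N ≤ (Module.finrank ℂ (CuspForm (Gamma0 N) 2) : ℚ)) :
    Module.finrank ℂ ↥(parabolicHoms ℂ (Gamma0 N) ℂ)
      ≤ 2 * Module.finrank ℂ (CuspForm (Gamma0 N) 2) := by
  have h1 := finrank_parabolicHoms_le_two_genus N
  have h2 : (Module.finrank ℂ ↥(parabolicHoms ℂ (Gamma0 N) ℂ) : ℚ)
      ≤ ((2 * Module.finrank ℂ (CuspForm (Gamma0 N) 2) : ℕ) : ℚ) := by
    push_cast
    linarith
  exact_mod_cast h2

/-- S21 from the lower bound alone. -/
theorem s21_of_ge (N : ℕ) [NeZero N]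
    (h : genusFormula N ≤ (Module.finrank ℂ (CuspForm (Gamma0 N) 2) : ℚ)) :
    Function.Injective (ModularCurve.periodHomPair N)
      ∧ LinearMap.range (ModularCurve.periodHomPair N)
          = ModularCurve.Period.parabolicHoms ℂ (CongruenceSubgroup.Gamma0 N) ℂ :=
  helper21.result_of_rank N (hrank_of_ge N h)

/-- S21 from the S20 statement. -/
theorem s21_of_s20 (N : ℕ) [NeZero N]
    (h : (Module.finrank ℂ (CuspForm (CongruenceSubgroup.Gamma0 N) 2) : ℚ)
      = ModularCurve.genusFormula N) :
    Function.Injective (ModularCurve.periodHomPair N)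
      ∧ LinearMap.range (ModularCurve.periodHomPair N)
          = ModularCurve.Period.parabolicHoms ℂ (CongruenceSubgroup.Gamma0 N) ℂ :=
  s21_of_ge N h.ge

end Fermat.Agent.S21.helper921
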