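import Fermat.Agent.S20.helper260_Sandwich
import Fermat.Agent.S21.helper921_UpperBound
import Fermat.Agent.S20.helper2805_Basic
import Fermat.Agent.S20.helper2805_Hilbert
import Fermat.Agent.S20.helper2805_RRdim
import Fermat.Agent.S20.helper387_GoalODE
import Fermat.Agent.S20.helper1774_Ell
import Fermat.Agent.S20.helper1982_GoodLevel
import Fermat.Agent.S20.helper2253_Seed
import Fermat.Agent.S20.helper2600_Goals

/-!
# S20 and S21 from three leaves (no duality, no trace-pairing upper bound)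

In the conventions of `helper560_Spec` / `helper260_Sandwich`, S20 **and** S21 follow from

* `Goal_BasisM`        (free basis of `M_*(Γ)` indexed by the cosets, `det Φ ≢ 0`),
* `Goal_SumWeightsLe`  (`∑ κ j + 6 * cusps ≤ 6 * mu`; the equality `Goal_SumWeights` also works),
* `Goal_Lower`         (`finrank M₂ + 1 ≤ finrank S₂ + cusps`, the constant-term bound).

The upper bound `finrank S₂ ≤ genusFormula` is unconditional (`helper921_UpperBound`:
Eichler–Shimura injectivity + the cohomological bound on parabolic homs), so neither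
`Goal_Upper` nor `Goal_Dual` / `Goal_Cusp` / `Goal_BasisS` is needed.  All other goals of the
spec are on main and are plugged in here.
-/

set_option autoImplicit false

open UpperHalfPlane ModularForm
open scoped MatrixGroups Manifold Pointwise

namespace Fermat.Agent.S21.helper921

open Fermat.Agent.S20.helper560 Fermat.Agent.S20.helper260

noncomputable section

/-- Weak form of `helper260.Stmt_SumWeights`: only the inequality is needed. -/
def Stmt_SumWeightsLe (𝒢 : Subgroup (GL (Fin 2) ℝ)) [𝒢.IsArithmetic] [𝒢.HasDetOne] : Prop :=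
  ∀ (κ : Q 𝒢 → ℤ) (F : Q 𝒢 → ℍ → ℂ), IsFreeBasis (MFG 𝒢) κ F →
    (∀ z, fundDet 𝒢 κ F z ≠ 0) → ∑ j, κ j + 6 * (cusps 𝒢 : ℤ) ≤ 6 * (mu 𝒢 : ℤ)

/-- Weak form of `helper260.Goal_SumWeights`. -/
def Goal_SumWeightsLe : Prop :=
  ∀ (𝒢 : Subgroup (GL (Fin 2) ℝ)) [𝒢.IsArithmetic] [𝒢.HasDetOne] (N : ℕ),
    GoodLevel 𝒢 N → Stmt_SumWeightsLe 𝒢

theorem goal_SumWeightsLe_of_eq (h : Goal_SumWeights) : Goal_SumWeightsLe :=
  fun 𝒢 _ _ N hg κ F hF hΦ => (h 𝒢 N hg κ F hF hΦ).le

/-- Pure arithmetic of the lower bound (no upper bound on the weights, inequality in `(c)`). -/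
theorem lower_arith {J : Type*} [Fintype J] (κ : J → ℤ) (h0 : ∀ j, 0 ≤ κ j)
    (he : ∀ j, κ j % 2 = 0) (μ e2 e3 c : ℤ)
    (hμ : (Fintype.card J : ℤ) = μ)
    (ha : ∑ j, (if κ j % 4 = 0 then (1 : ℤ) else -1) = e2)
    (hb1 : ∑ j, (if κ j % 6 = 2 then (1 : ℤ) else 0) = ∑ j, (if κ j % 6 = 4 then (1 : ℤ) else 0))
    (hb2 : ∑ j, (if κ j % 6 = 0 then (1 : ℤ) else 0)
      - ∑ j, (if κ j % 6 = 2 then (1 : ℤ) else 0) = e3)
    (hc : ∑ j, κ j + 6 * c ≤ 6 * μ) :
    μ + 6 * c - 3 * e2 - 4 * e3 ≤ 12 * (∑ j, (if κ j = 2 then (1 : ℤ) else 0)) := by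
  classical
  set S4 := ∑ j, (if κ j % 4 = 0 then (1 : ℤ) else 0) with hS4
  set S60 := ∑ j, (if κ j % 6 = 0 then (1 : ℤ) else 0) with hS60
  set S62 := ∑ j, (if κ j % 6 = 2 then (1 : ℤ) else 0) with hS62
  set S64 := ∑ j, (if κ j % 6 = 4 then (1 : ℤ) else 0) with hS64
  set N2 := ∑ j, (if κ j = 2 then (1 : ℤ) else 0) with hN2
  set SK := ∑ j, κ j with hSK
  have hcard : ∑ _j : J, (1 : ℤ) = μ := by simpa using hμ
  have ha' : 2 * S4 - μ = e2 := by
    rw [← ha, ← hcard, hS4, Finset.mul_sum, ← Finset.sum_sub_distrib]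
    refine Finset.sum_congr rfl fun j _ => ?_
    split_ifs <;> ring
  have h6 : S60 + S62 + S64 = μ := by
    rw [← hcard, hS60, hS62, hS64, ← Finset.sum_add_distrib, ← Finset.sum_add_distrib]
    refine Finset.sum_congr rfl fun j _ => ?_
    have := he j
    split_ifs <;> omega
  have h2 : 0 ≤ 12 * N2 - 12 * μ + SK + 6 * S4 + 6 * S60 - 2 * (S62 - S64) := by
    rw [← hcard, hN2, hSK, hS4, hS60, hS62, hS64]
    simp only [Finset.mul_sum, ← Finset.sum_sub_distrib, ← Finset.sum_add_distrib]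
    refine Finset.sum_nonneg fun j _ => ?_
    have := lower_slack_nonneg (κ j) (h0 j) (he j)
    linarith
  have hb1' : S62 = S64 := hb1
  have hb2' : S60 - S62 = e3 := hb2
  linarith

/-- **The lower bound** `genusFormula N ≤ finrank S₂(Γ₀(N))` from the three leaves. -/
theorem genus_le_of_leaves (hBM : Goal_BasisM) (hSW : Goal_SumWeightsLe) (hL : Goal_Lower)
    (N : ℕ) [NeZero N] :
    ModularCurve.genusFormula N
      ≤ (Module.finrank ℂ (CuspForm (CongruenceSubgroup.Gamma0 N) 2) : ℚ) := by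
  have hBasic : Goal_Basic := Fermat.Agent.S20.helper2805.goal_Basic
  have hHilb : Goal_Hilbert := Fermat.Agent.S20.helper2805.goal_Hilbert
  have hRR : Goal_RRdim := Fermat.Agent.S20.helper2805.goal_RRdim
  have hOM : Goal_ODEM := Fermat.Agent.S20.helper387.goal_ODEM
  have hES : Goal_EllS := Fermat.Agent.S20.helper1774.goal_EllS
  have hEST : Goal_EllST := Fermat.Agent.S20.helper1774.goal_EllST
  have hGL : Goal_GoodLevel := Fermat.Agent.S20.helper1982.goal_GoodLevel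
  have hSeed : Goal_Seed := Fermat.Agent.S20.helper2253.goal_Seed
  have hI : Goal_Index := Fermat.Agent.S20.helper2600.goal_Index
  have hE2 : Goal_E2 := Fermat.Agent.S20.helper2600.goal_E2
  have hE3 : Goal_E3 := Fermat.Agent.S20.helper2600.goal_E3
  have hCu : Goal_Cusps := Fermat.Agent.S20.helper2600.goal_Cusps
  have hg := hGL N
  obtain ⟨hneg, hodd, hM0, hS0, hSM, hmulM, hmulS, hfin, hS2⟩ := hBasic (G0 N) N hg
  obtain ⟨κ, F, hF, hz⟩ := hBM (G0 N) N hg (hSeed N)
  have hΦ := hOM (G0 N) N hg κ F hF hz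
  have hellS := hES (G0 N) N hg κ F hF.1 (hΦ _)
  have hellST := hEST (G0 N) N hg κ F hF.1 (hΦ _)
  have hHM := fun k => hHilb (MFG (G0 N)) (Q (G0 N)) κ F hF hmulM k
  have hFne : ∀ j, F j ≠ 0 := fun j hj =>
    hΦ UpperHalfPlane.I (fundDet_eq_zero_of_eq_zero (G0 N) κ F _ j hj)
  have h0 : ∀ j, 0 ≤ κ j := by
    intro j
    have hmem := hF.1 j
    by_contra hlt
    rw [hneg _ (not_le.mp hlt)] at hmem
    exact hFne j ((Submodule.mem_bot ℂ).mp hmem)
  have he : ∀ j, κ j % 2 = 0 := by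
    intro j
    have hmem := hF.1 j
    by_contra ho
    have ho' : Odd (κ j) := Int.odd_iff.mpr (by omega)
    rw [hodd _ ho'] at hmem
    exact hFne j ((Submodule.mem_bot ℂ).mp hmem)
  have hcard : (Fintype.card (Q (G0 N)) : ℤ) = (mu (G0 N) : ℤ) := by
    have : Fintype.card (Q (G0 N)) = mu (G0 N) := Nat.card_eq_fintype_card.symm
    exact_mod_cast this
  have ha := count_of_ellS κ h0 he (e2 (G0 N)) hellS
  obtain ⟨hb1, hb2⟩ := count_of_ellST κ h0 he (e3 (G0 N)) hellST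
  have hc := hSW (G0 N) N hg κ F hF hΦ
  have hn2 := lower_arith κ h0 he (mu (G0 N)) (e2 (G0 N)) (e3 (G0 N)) (cusps (G0 N))
    hcard ha hb1 hb2 hc
  have hlo : ∑ j, (if κ j = 2 then (1 : ℤ) else 0) + 1 ≤
      (Module.finrank ℂ (CFG (G0 N) 2) : ℤ) + (cusps (G0 N) : ℤ) := by
    have h1 := hL (G0 N) N hg
    unfold Stmt_Lower at h1
    rw [hHM 2] at h1
    have h2 : ((∑ j, Module.finrank ℂ (RR (2 - κ j)) + 1 : ℕ) : ℤ) ≤
        ((Module.finrank ℂ (CFG (G0 N) 2) + cusps (G0 N) : ℕ) : ℤ) := by exact_mod_cast h1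
    push_cast at h2
    rw [Finset.sum_congr rfl fun j _ => finrank_RR_eq_dA hRR (2 - κ j)] at h2
    rw [Finset.sum_congr rfl fun j _ => dA_two_sub_of_even (κ j) (h0 j) (he j)] at h2
    exact h2
  have hfin' : 12 + (mu (G0 N) : ℤ) - 3 * (e2 (G0 N) : ℤ) - 4 * (e3 (G0 N) : ℤ)
        - 6 * (cusps (G0 N) : ℤ) ≤ 12 * (Module.finrank ℂ (CFG (G0 N) 2) : ℤ) := by
    linarith
  rw [hS2, hI N, hE2 N, hE3 N, hCu N] at hfin'
  have hQ : 12 + (ModularCurve.dedekindPsi N : ℚ) - 3 * (ModularCurve.nuTwo N : ℚ)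
        - 4 * (ModularCurve.nuThree N : ℚ) - 6 * (ModularCurve.cuspCount N : ℚ)
      ≤ 12 * (Module.finrank ℂ (CuspForm (G0 N) 2) : ℚ) := by
    exact_mod_cast hfin'
  show ModularCurve.genusFormula N ≤ (Module.finrank ℂ (CuspForm (G0 N) 2) : ℚ)
  unfold ModularCurve.genusFormula
  linarith

/-- **S20 from the three leaves.** -/
theorem s20_of_leaves (hBM : Goal_BasisM) (hSW : Goal_SumWeightsLe) (hL : Goal_Lower) :
    Goal_S20 :=
  fun N _ => s20_of_ge N (genus_le_of_leaves hBM hSW hL N)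

/-- **S21 from the three leaves.** -/
theorem s21_of_leaves (hBM : Goal_BasisM) (hSW : Goal_SumWeightsLe) (hL : Goal_Lower)
    (N : ℕ) [NeZero N] :
    Function.Injective (ModularCurve.periodHomPair N)
      ∧ LinearMap.range (ModularCurve.periodHomPair N)
          = ModularCurve.Period.parabolicHoms ℂ (CongruenceSubgroup.Gamma0 N) ℂ :=
  s21_of_ge N (genus_le_of_leaves hBM hSW hL N)

end

end Fermat.Agent.S21.helper921
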