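import Fermat.Agent.S21.helper21_Assembly
import Fermat.Agent.S21.helper681_ParabolicDim
import Fermat.Agent.Lib.helper804_Gamma0Cosets
import Fermat.Agent.S24.helper227_CuspCount

/-!
# S20 / S21: the unconditional upper bounds, and reduction of both statements to ONE inequality

Everything here is glue between results that are already on main:

* `helper681.finrank_parabolicHoms_Gamma0_le` (group-theoretic bound, counts as hypotheses),
* `Lib.helper804.index_Gamma0`, `card_orbits_S`, `card_orbits_ST` and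
  `S24.helper227.card_orbits_T` (the four coset counts for `Γ₀(N)`),
* `helper21.two_mul_finrank_cuspForm_le` (injectivity of the period map) and
  `helper21.result_of_rank`.

Results (all for `(N : ℕ) [NeZero N]`, no hypotheses unless shown):

* `finrank_parabolicHoms_le_genus : (finrank parabolicHoms : ℚ) ≤ 2 * genusFormula N`
* `finrank_cuspForm_le_genus : (finrank S₂(Γ₀(N)) : ℚ) ≤ genusFormula N`   (upper half of S20)
* `s20_of_genus_le (h : genusFormula N ≤ finrank S₂) : (finrank S₂ : ℚ) = genusFormula N`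
* `rank_of_genus_le (h : genusFormula N ≤ finrank S₂) : finrank parabolicHoms ≤ 2 * finrank S₂`
* `s21_of_genus_le (h : genusFormula N ≤ finrank S₂) : ` the Eichler–Shimura statement S21
* orbit-count variants `rank_of_orbit_count`, `genus_le_of_orbit_count`, `s20_of_orbit_count`,
  `s21_of_orbit_count`: the same conclusions from
  `index + 2 ≤ 2 * finrank S₂ + #orb⟨S⟩ + #orb⟨T⟩ + #orb⟨S*T⟩` on `SL(2,ℤ) ⧸ Γ₀(N)`.

So both S20 and S21 follow from the single lower bound `genusFormula N ≤ finrank S₂(Γ₀(N))`.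
-/

set_option autoImplicit false

open ModularCurve ModularCurve.Period CongruenceSubgroup UpperHalfPlane
open scoped MatrixGroups

namespace Fermat.Agent.S21.helper1041

/-- **Unconditional D2**: `dim H¹_par(Γ₀(N), ℂ) ≤ 2 * genusFormula N`. -/
theorem finrank_parabolicHoms_le_genus (N : ℕ) [NeZero N] :
    (Module.finrank ℂ ↥(parabolicHoms ℂ (Gamma0 N) ℂ) : ℚ) ≤ 2 * genusFormula N :=
  (helper681.finrank_parabolicHoms_Gamma0_le N (Fermat.Agent.Lib.helper804.index_Gamma0 N)
    (Fermat.Agent.S24.helper227.card_orbits_T (N := N))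
    (Fermat.Agent.Lib.helper804.card_orbits_S N)
    (Fermat.Agent.Lib.helper804.card_orbits_ST N)).2

/-- **Upper half of S20, unconditional**: `dim S₂(Γ₀(N)) ≤ genusFormula N`. -/
theorem finrank_cuspForm_le_genus (N : ℕ) [NeZero N] :
    (Module.finrank ℂ (CuspForm (Gamma0 N) 2) : ℚ) ≤ genusFormula N := by
  have h1 := finrank_parabolicHoms_le_genus N
  have h2 : (2 * Module.finrank ℂ (CuspForm (Gamma0 N) 2) : ℚ)
      ≤ (Module.finrank ℂ ↥(parabolicHoms ℂ (Gamma0 N) ℂ) : ℚ) := by
    exact_mod_cast helper21.two_mul_finrank_cuspForm_le N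
  linarith

/-- S20 from the lower bound alone. -/
theorem s20_of_genus_le (N : ℕ) [NeZero N]
    (h : genusFormula N ≤ (Module.finrank ℂ (CuspForm (Gamma0 N) 2) : ℚ)) :
    (Module.finrank ℂ (CuspForm (CongruenceSubgroup.Gamma0 N) 2) : ℚ)
      = ModularCurve.genusFormula N :=
  le_antisymm (finrank_cuspForm_le_genus N) h

/-- The rank inequality needed by `helper21.result_of_rank`, from the lower bound of S20. -/
theorem rank_of_genus_le (N : ℕ) [NeZero N]
    (h : genusFormula N ≤ (Module.finrank ℂ (CuspForm (Gamma0 N) 2) : ℚ)) :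
    Module.finrank ℂ ↥(parabolicHoms ℂ (Gamma0 N) ℂ)
      ≤ 2 * Module.finrank ℂ (CuspForm (Gamma0 N) 2) := by
  have h1 := finrank_parabolicHoms_le_genus N
  have h2 : (Module.finrank ℂ ↥(parabolicHoms ℂ (Gamma0 N) ℂ) : ℚ)
      ≤ ((2 * Module.finrank ℂ (CuspForm (Gamma0 N) 2) : ℕ) : ℚ) := by
    push_cast
    linarith
  exact_mod_cast h2

/-- S21 from the lower bound of S20. -/
theorem s21_of_genus_le (N : ℕ) [NeZero N]
    (h : genusFormula N ≤ (Module.finrank ℂ (CuspForm (Gamma0 N) 2) : ℚ)) :
    Function.Injective (ModularCurve.periodHomPair N)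
      ∧ LinearMap.range (ModularCurve.periodHomPair N)
          = ModularCurve.Period.parabolicHoms ℂ (CongruenceSubgroup.Gamma0 N) ℂ :=
  helper21.result_of_rank N (rank_of_genus_le N h)

/-- S21 from S20. -/
theorem s21_of_s20 (N : ℕ) [NeZero N]
    (h : (Module.finrank ℂ (CuspForm (CongruenceSubgroup.Gamma0 N) 2) : ℚ)
      = ModularCurve.genusFormula N) :
    Function.Injective (ModularCurve.periodHomPair N)
      ∧ LinearMap.range (ModularCurve.periodHomPair N)
          = ModularCurve.Period.parabolicHoms ℂ (CongruenceSubgroup.Gamma0 N) ℂ :=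
  s21_of_genus_le N h.ge

/-! ## Orbit-count form of the lower bound -/

section OrbitCount

variable (N : ℕ) [NeZero N]

/-- The rank inequality from the orbit-count form of the lower bound (no number theory). -/
theorem rank_of_orbit_count
    (h : (Gamma0 N).index + 2 ≤ 2 * Module.finrank ℂ (CuspForm (Gamma0 N) 2)
      + (Nat.card (MulAction.orbitRel.Quotient (Subgroup.zpowers ModularGroup.S)
          (SL(2, ℤ) ⧸ Gamma0 N))
        + Nat.card (MulAction.orbitRel.Quotient (Subgroup.zpowers ModularGroup.T)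
          (SL(2, ℤ) ⧸ Gamma0 N))
        + Nat.card (MulAction.orbitRel.Quotient
          (Subgroup.zpowers (ModularGroup.S * ModularGroup.T)) (SL(2, ℤ) ⧸ Gamma0 N)))) :
    Module.finrank ℂ ↥(parabolicHoms ℂ (Gamma0 N) ℂ)
      ≤ 2 * Module.finrank ℂ (CuspForm (Gamma0 N) 2) := by
  obtain ⟨-, hle⟩ := helper681.finrank_parabolicHoms_add_orbits_le (Gamma0 N)
    (helper681.neg_one_mem_Gamma0 N)
  rw [← Subgroup.index_eq_card] at hle
  omega

/-- The lower bound of S20 from its orbit-count form. -/
theorem genus_le_of_orbit_count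
    (h : (Gamma0 N).index + 2 ≤ 2 * Module.finrank ℂ (CuspForm (Gamma0 N) 2)
      + (Nat.card (MulAction.orbitRel.Quotient (Subgroup.zpowers ModularGroup.S)
          (SL(2, ℤ) ⧸ Gamma0 N))
        + Nat.card (MulAction.orbitRel.Quotient (Subgroup.zpowers ModularGroup.T)
          (SL(2, ℤ) ⧸ Gamma0 N))
        + Nat.card (MulAction.orbitRel.Quotient
          (Subgroup.zpowers (ModularGroup.S * ModularGroup.T)) (SL(2, ℤ) ⧸ Gamma0 N)))) :
    genusFormula N ≤ (Module.finrank ℂ (CuspForm (Gamma0 N) 2) : ℚ) := by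
  have h1 := Fermat.Agent.Lib.helper804.index_Gamma0 N
  have hT := Fermat.Agent.S24.helper227.card_orbits_T (N := N)
  have hS := Fermat.Agent.Lib.helper804.card_orbits_S N
  have hST := Fermat.Agent.Lib.helper804.card_orbits_ST N
  rw [h1, hT] at h
  have h' : ((dedekindPsi N : ℚ) + 2) ≤ 2 * (Module.finrank ℂ (CuspForm (Gamma0 N) 2) : ℚ)
      + ((Nat.card (MulAction.orbitRel.Quotient (Subgroup.zpowers ModularGroup.S)
          (SL(2, ℤ) ⧸ Gamma0 N)) : ℚ)
        + (cuspCount N : ℚ)
        + (Nat.card (MulAction.orbitRel.Quotient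
          (Subgroup.zpowers (ModularGroup.S * ModularGroup.T)) (SL(2, ℤ) ⧸ Gamma0 N)) : ℚ)) := by
    exact_mod_cast h
  have hS' : (2 : ℚ) * (Nat.card (MulAction.orbitRel.Quotient (Subgroup.zpowers ModularGroup.S)
      (SL(2, ℤ) ⧸ Gamma0 N)) : ℚ) = (dedekindPsi N : ℚ) + (nuTwo N : ℚ) := by
    exact_mod_cast hS
  have hST' : (3 : ℚ) * (Nat.card (MulAction.orbitRel.Quotient
      (Subgroup.zpowers (ModularGroup.S * ModularGroup.T)) (SL(2, ℤ) ⧸ Gamma0 N)) : ℚ)
      = (dedekindPsi N : ℚ) + 2 * (nuThree N : ℚ) := by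
    exact_mod_cast hST
  unfold genusFormula
  linarith

/-- S20 from the orbit-count form of the lower bound. -/
theorem s20_of_orbit_count
    (h : (Gamma0 N).index + 2 ≤ 2 * Module.finrank ℂ (CuspForm (Gamma0 N) 2)
      + (Nat.card (MulAction.orbitRel.Quotient (Subgroup.zpowers ModularGroup.S)
          (SL(2, ℤ) ⧸ Gamma0 N))
        + Nat.card (MulAction.orbitRel.Quotient (Subgroup.zpowers ModularGroup.T)
          (SL(2, ℤ) ⧸ Gamma0 N))
        + Nat.card (MulAction.orbitRel.Quotient
          (Subgroup.zpowers (ModularGroup.S * ModularGroup.T)) (SL(2, ℤ) ⧸ Gamma0 N)))) :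
    (Module.finrank ℂ (CuspForm (CongruenceSubgroup.Gamma0 N) 2) : ℚ)
      = ModularCurve.genusFormula N :=
  s20_of_genus_le N (genus_le_of_orbit_count N h)

/-- S21 from the orbit-count form of the lower bound. -/
theorem s21_of_orbit_count
    (h : (Gamma0 N).index + 2 ≤ 2 * Module.finrank ℂ (CuspForm (Gamma0 N) 2)
      + (Nat.card (MulAction.orbitRel.Quotient (Subgroup.zpowers ModularGroup.S)
          (SL(2, ℤ) ⧸ Gamma0 N))
        + Nat.card (MulAction.orbitRel.Quotient (Subgroup.zpowers ModularGroup.T)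
          (SL(2, ℤ) ⧸ Gamma0 N))
        + Nat.card (MulAction.orbitRel.Quotient
          (Subgroup.zpowers (ModularGroup.S * ModularGroup.T)) (SL(2, ℤ) ⧸ Gamma0 N)))) :
    Function.Injective (ModularCurve.periodHomPair N)
      ∧ LinearMap.range (ModularCurve.periodHomPair N)
          = ModularCurve.Period.parabolicHoms ℂ (CongruenceSubgroup.Gamma0 N) ℂ :=
  helper21.result_of_rank N (rank_of_orbit_count N h)

end OrbitCount

end Fermat.Agent.S21.helper1041
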