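/-
helper1072: S21 Route 2 (Hodge / Weyl projection), interface file.

DEFINITIONS only (no proofs): the leaf statements of Route 2 as `Prop`-valued defs, in the
shapes posted by the leaf owners in `team_s21_chat`:

* `LeafPOT N`   (chat #14, helper3081): smooth potential with prescribed periods, constant on
                every horoball `σ • {Im > 2}`.
* `LeafVAR N`   (chat #15, helper2377): Dirichlet principle, minimising sequence of potentials with
                outputs (i) `L²_loc`-Cauchy, (ii) weak `∂̄`-closedness in the limit,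
                (iii) uniform `L²` bounds on cusp strips.
* `LeafLIM`     (chat #19, helper261): Weyl lemma in sequence form.
* `LeafCUSP N`  (chat #28, helper1901 and others): the limit is a cusp form.
* `LeafPER N`   (chat #20, helper1545): period continuity.

The assembly `LeafPOT → LeafVAR → LeafLIM → LeafCUSP → LeafPER → StmtA → StmtH` is proved in
`helper1072_R2Assembly.lean`.
-/
import Mathlib
import Fermat.Prelude.Def_ModularCurve_PeriodHomPair

set_option autoImplicit false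

namespace Fermat.Agent.S21.helper1072

open ModularCurve ModularCurve.Period CongruenceSubgroup UpperHalfPlane MeasureTheory Filter
open scoped MatrixGroups ENNReal ContDiff Topology

/-- The open upper half plane as a subset of `ℂ`. -/
def UH : Set ℂ := {z : ℂ | 0 < z.im}

/-- The complex gradient `u_x - i u_y` (`= 2 ∂u/∂z`) of a real function on `ℂ`. -/
noncomputable def Dc (u : ℂ → ℝ) (z : ℂ) : ℂ :=
  (fderiv ℝ u z 1 : ℂ) - (fderiv ℝ u z Complex.I : ℂ) * Complex.I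

/-- The Cauchy–Riemann operator `ψ_x + i ψ_y` (`= 2 ∂ψ/∂z̄`) of a function on `ℂ`. -/
noncomputable def Dbar (ψ : ℂ → ℂ) (z : ℂ) : ℂ :=
  fderiv ℝ ψ z 1 + Complex.I * fderiv ℝ ψ z Complex.I

/-- `u : ℂ → ℝ` is a `C¹` potential on the upper half plane with period homomorphism `φ`:
`u (γ z) = u z + φ γ` for `γ ∈ Γ₀(N)`. -/
def IsPot (N : ℕ) (φ : Additive (Gamma0 N) →+ ℝ) (u : ℂ → ℝ) : Prop :=
  ContDiffOn ℝ 1 u UH ∧
    ∀ (γ : Gamma0 N) (z : ℍ), u ↑((γ : SL(2, ℤ)) • z) = u ↑z + φ (Additive.ofMul γ)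

/-- The standard cusp strip `{2 ≤ Im z, |Re z| ≤ N}` in `ℍ`. -/
def strip (N : ℕ) : Set ℍ := {z : ℍ | 2 ≤ z.im ∧ |z.re| ≤ N}

/-- Invariant energy density `(Im z)² |Dc u z|²` of a potential. -/
noncomputable def energyDensity (u : ℂ → ℝ) (z : ℍ) : ℝ := z.im ^ 2 * ‖Dc u ↑z‖ ^ 2

/-- Leaf (1) POT: a smooth potential for every real parabolic hom, constant on each horoball
`σ • {Im > 2}`, `σ ∈ SL(2, ℤ)`. -/
def LeafPOT (N : ℕ) : Prop :=
  ∀ φ : Additive (Gamma0 N) →+ ℝ, φ ∈ parabolicHoms ℝ (Gamma0 N) ℝ →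
    ∃ u : ℍ → ℝ,
      (∀ (γ : Gamma0 N) (z : ℍ), u ((γ : SL(2, ℤ)) • z) = u z + φ (Additive.ofMul γ)) ∧
      ContDiffOn ℝ ∞ (u ∘ ofComplex) UH ∧
      ∀ σ : SL(2, ℤ), ∃ c : ℝ, ∀ z : ℍ, 2 < z.im → u (σ • z) = c

/-- The input of VAR: a `C¹` potential with finite energy on a measurable set meeting every
`Γ₀(N)`-orbit. -/
def HasFiniteEnergy (N : ℕ) (u : ℂ → ℝ) : Prop :=
  ∃ B : Set ℍ, MeasurableSet B ∧ (∀ z : ℍ, ∃ γ : Gamma0 N, (γ : SL(2, ℤ)) • z ∈ B) ∧
    ∫⁻ z in B, ENNReal.ofReal (energyDensity u z) < ⊤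

/-- Output (i) of VAR: the gradients are `L²`-Cauchy on compacts of the upper half plane. -/
def L2locCauchy (a : ℕ → ℂ → ℂ) : Prop :=
  ∀ K : Set ℂ, IsCompact K → K ⊆ UH → ∀ η > 0, ∃ n₀ : ℕ, ∀ n ≥ n₀, ∀ m ≥ n₀,
    ∫ z in K, ‖a n z - a m z‖ ^ 2 ≤ η

/-- Output (ii) of VAR: the gradients are asymptotically weakly `∂̄`-closed. -/
def WeakDbarNull (a : ℕ → ℂ → ℂ) : Prop :=
  ∀ ψ : ℂ → ℂ, ContDiff ℝ ∞ ψ → HasCompactSupport ψ → tsupport ψ ⊆ UH →
    Tendsto (fun n => ∫ z, a n z * Dbar ψ z) atTop (𝓝 0)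

/-- Output (iii) of VAR: uniform `L²` bound of the gradients on all cusp strips (the integrand
is the invariant density, the measure is the hyperbolic volume of `ℍ`). -/
def StripBound (N : ℕ) (a : ℕ → ℂ → ℂ) : Prop :=
  ∃ C : ℝ≥0∞, C < ⊤ ∧ ∀ (n : ℕ) (σ : SL(2, ℤ)),
    ∫⁻ z in strip N, ENNReal.ofReal ((σ • z).im ^ 2 * ‖a n ↑(σ • z)‖ ^ 2) ≤ C

/-- Leaf (2) VAR (Dirichlet principle): from one finite-energy potential, a sequence of
potentials whose gradients satisfy (i), (ii), (iii). -/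
def LeafVAR (N : ℕ) : Prop :=
  ∀ (φ : Additive (Gamma0 N) →+ ℝ) (u₀ : ℂ → ℝ), IsPot N φ u₀ → HasFiniteEnergy N u₀ →
    ∃ u : ℕ → ℂ → ℝ, (∀ n, IsPot N φ (u n)) ∧
      L2locCauchy (fun n => Dc (u n)) ∧ WeakDbarNull (fun n => Dc (u n)) ∧
      StripBound N (fun n => Dc (u n))

/-- `h` is the `L²_loc` limit of the sequence `a` on the upper half plane. -/
def L2locLimit (a : ℕ → ℂ → ℂ) (h : ℂ → ℂ) : Prop :=
  ∀ K : Set ℂ, IsCompact K → K ⊆ UH →
    Tendsto (fun n => ∫ z in K, ‖a n z - h z‖ ^ 2) atTop (𝓝 0)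

/-- Leaf (3) LIM (Weyl lemma, sequence form, on the upper half plane). -/
def LeafLIM : Prop :=
  ∀ a : ℕ → ℂ → ℂ, (∀ n, ContinuousOn (a n) UH) → L2locCauchy a → WeakDbarNull a →
    ∃ h : ℂ → ℂ, DifferentiableOn ℂ h UH ∧ L2locLimit a h

/-- Weight-2 invariance of a function on `ℂ` (restricted to the upper half plane). -/
def IsWeightTwoInvariant (N : ℕ) (a : ℂ → ℂ) : Prop :=
  ∀ γ ∈ Gamma0 N, ∀ z : ℍ, a ↑(γ • z) = (denom γ z) ^ 2 * a ↑z

/-- Leaf (4) CUSP: a holomorphic `L²_loc` limit of weight-2 invariant functions with uniform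
`L²` bounds on the cusp strips is a cusp form. -/
def LeafCUSP (N : ℕ) : Prop :=
  ∀ (a : ℕ → ℂ → ℂ) (h : ℂ → ℂ), DifferentiableOn ℂ h UH → L2locLimit a h →
    (∀ n, ContinuousOn (a n) UH) → (∀ n, IsWeightTwoInvariant N (a n)) → StripBound N a →
    ∃ f : CuspForm (Gamma0 N) 2, ∀ z : ℍ, f z = h ↑z

/-- Leaf (5) PER (period continuity): if the gradients of potentials with periods `φ` converge in
`L¹_loc` to a cusp form `f`, then `Re (periodMap f) = φ`. -/
def LeafPER (N : ℕ) : Prop :=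
  ∀ (f : CuspForm (Gamma0 N) 2) (F : ℍ → ℂ), HasEquivariantPrimitive N f F →
    ∀ (φ : Additive (Gamma0 N) →+ ℝ) (u : ℕ → ℂ → ℝ), (∀ n, IsPot N φ (u n)) →
      (∀ K : Set ℂ, IsCompact K → K ⊆ UH →
        Tendsto (fun n => ∫ z in K, ‖Dc (u n) z - f (ofComplex z)‖) atTop (𝓝 0)) →
      ∀ γ : Additive (Gamma0 N), (periodMap N f γ).re = φ γ

end Fermat.Agent.S21.helper1072
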