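/-
helper1072: S21 Route 2 (Hodge / Weyl projection), ASSEMBLY.

`stmtH_of_leaves : LeafPOT N → LeafVAR N → LeafLIM → LeafCUSP N → LeafPER N → StmtA N → StmtH N`
for the leaf statements of `helper1072_R2Spec.lean`, together with the bridges between the leaves:

* (B1) `hasFiniteEnergy_of_const_on_horoballs`: a `C¹` function on the upper half plane that is
  constant on every horoball `σ • {Im > 2}` has finite energy on a measurable set meeting every
  `Γ₀(N)`-orbit (finite union of translates of the standard fundamental domain);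
* (B3) `continuousOn_Dc`: the complex gradient of a `C¹` function is continuous;
* (B4) `tendsto_setIntegral_norm_of_sq`: `L²` convergence on a compact set implies `L¹` convergence;
* (B5) `IsPot.isWeightTwoInvariant`: the complex gradient of a potential is weight-2 invariant.

With `helper801.result_of_ABCH` this gives S21 from the five leaves (`result_of_leaves`).
-/
import Fermat.Agent.S21.helper1072_R2Spec
import Fermat.Agent.S21.helper801_HodgeAlg

set_option autoImplicit false

namespace Fermat.Agent.S21.helper1072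

open ModularCurve ModularCurve.Period CongruenceSubgroup UpperHalfPlane MeasureTheory Filter
open scoped MatrixGroups ENNReal ContDiff Topology

theorem isOpen_UH : IsOpen UH := by
  have : UH = Complex.im ⁻¹' Set.Ioi 0 := rfl
  rw [this]
  exact isOpen_Ioi.preimage Complex.continuous_im

theorem coe_mem_UH (z : ℍ) : (z : ℂ) ∈ UH := z.im_pos

/-- A real-linear functional on `ℂ` is `v ↦ Re (a v)` with `a = L 1 - i L i`. -/
theorem clm_apply_eq_re (L : ℂ →L[ℝ] ℝ) (v : ℂ) :
    L v = (((L 1 : ℝ) - (L Complex.I : ℝ) * Complex.I : ℂ) * v).re := by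
  have hv : v = (v.re : ℝ) • (1 : ℂ) + (v.im : ℝ) • Complex.I := by
    apply Complex.ext <;> simp
  conv_lhs => rw [hv]
  rw [map_add, map_smul, map_smul]
  simp [Complex.mul_re]
  ring

theorem fderiv_apply_eq_re_Dc (u : ℂ → ℝ) (z v : ℂ) :
    fderiv ℝ u z v = (Dc u z * v).re := clm_apply_eq_re _ v

theorem eq_of_forall_mul_re_eq {a b : ℂ} (h : ∀ v : ℂ, (a * v).re = (b * v).re) : a = b := by
  apply Complex.ext
  · simpa using h 1
  · have := h Complex.I
    simp at this
    linarith

theorem continuousOn_Dc {u : ℂ → ℝ} (hu : ContDiffOn ℝ 1 u UH) : ContinuousOn (Dc u) UH := by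
  have h1 : ContinuousOn (fderiv ℝ u) UH :=
    hu.continuousOn_fderiv_of_isOpen isOpen_UH le_rfl
  unfold Dc
  refine ContinuousOn.sub ?_ (ContinuousOn.mul ?_ continuousOn_const)
  · exact Complex.continuous_ofReal.comp_continuousOn (h1.clm_apply continuousOn_const)
  · exact Complex.continuous_ofReal.comp_continuousOn (h1.clm_apply continuousOn_const)

theorem continuous_energyDensity {u : ℂ → ℝ} (hu : ContDiffOn ℝ 1 u UH) :
    Continuous (energyDensity u) := by
  unfold energyDensity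
  have h1 : Continuous fun z : ℍ => Dc u ↑z :=
    (continuousOn_Dc hu).comp_continuous UpperHalfPlane.continuous_coe coe_mem_UH
  exact (UpperHalfPlane.continuous_im.pow 2).mul (h1.norm.pow 2)

/-- If `u ∘ (σ • ·)` is constant on `{Im > 2}` then `Dc u` vanishes on `σ • {Im > 2}`. -/
theorem Dc_eq_zero_of_const {u : ℂ → ℝ} (hu : ContDiffOn ℝ 1 u UH) (σ : SL(2, ℤ)) (c : ℝ)
    (hc : ∀ z : ℍ, 2 < z.im → u ↑(σ • z) = c) (w : ℍ) (hw : 2 < w.im) :
    Dc u ↑(σ • w) = 0 := by
  set g : GL (Fin 2) ℝ := (σ : GL (Fin 2) ℝ) with hg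
  have hdet1 : (g.val.det : ℝ) = 1 := by
    rw [hg]
    exact (Matrix.SpecialLinearGroup.map (Int.castRingHom ℝ) σ).det_coe
  have hdet : 0 < g.val.det := by rw [hdet1]; exact one_pos
  set m : ℂ → ℂ := fun x => ((g • ofComplex x : ℍ) : ℂ) with hm_def
  have hm : HasStrictDerivAt m ((g.val.det : ℂ) / denom g w ^ 2) w :=
    UpperHalfPlane.hasStrictDerivAt_smul hdet w
  have hmw : m w = ((σ • w : ℍ) : ℂ) := by
    simp only [hm_def, ofComplex_apply]
    rfl
  have hopen : IsOpen {x : ℂ | 2 < x.im} := isOpen_lt continuous_const Complex.continuous_im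
  have heq : (u ∘ m) =ᶠ[𝓝 (w : ℂ)] fun _ => c := by
    filter_upwards [hopen.mem_nhds (show (w : ℂ) ∈ {x : ℂ | 2 < x.im} from hw)] with x hx
    have hx0 : 0 < x.im := lt_trans two_pos hx
    have h2 : m x = (((σ • (⟨x, hx0⟩ : ℍ)) : ℍ) : ℂ) := by
      simp only [hm_def, ofComplex_apply_of_im_pos hx0]
      rfl
    simp only [Function.comp_apply, h2]
    exact hc ⟨x, hx0⟩ hx
  have hd1 : DifferentiableAt ℝ u (m w) := by
    rw [hmw]
    exact (hu.differentiableOn one_ne_zero).differentiableAt (isOpen_UH.mem_nhds (coe_mem_UH _))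
  have hcomp := hd1.hasFDerivAt.comp (w : ℂ) (hm.hasDerivAt.hasFDerivAt.restrictScalars ℝ)
  have hrhs : HasFDerivAt (fun _ : ℂ => c) (0 : ℂ →L[ℝ] ℝ) w := hasFDerivAt_const c _
  have huniq := (hcomp.congr_of_eventuallyEq heq.symm).unique hrhs
  have hden : denom g w ≠ 0 := denom_ne_zero g w
  have key : Dc u (m w) * (1 / denom g w ^ 2) = 0 := by
    apply eq_of_forall_mul_re_eq
    intro v
    have h3 := congrArg (fun L : ℂ →L[ℝ] ℝ => L v) huniq
    simp only [ContinuousLinearMap.comp_apply, ContinuousLinearMap.coe_restrictScalars',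
      ContinuousLinearMap.toSpanSingleton_apply, hdet1, Complex.ofReal_one,
      _root_.zero_apply] at h3
    rw [fderiv_apply_eq_re_Dc] at h3
    rw [zero_mul, Complex.zero_re, ← h3]
    congr 1
    simp only [smul_eq_mul]
    ring
  rw [← hmw]
  have h4 : (1 / denom g w ^ 2) ≠ 0 := one_div_ne_zero (pow_ne_zero _ hden)
  exact (mul_eq_zero.mp key).resolve_right h4

/-- Each translate of the fundamental domain carries finite energy. -/
theorem lintegral_energy_translate_lt_top {u : ℂ → ℝ} (hu : ContDiffOn ℝ 1 u UH)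
    (hcusp : ∀ σ : SL(2, ℤ), ∃ c : ℝ, ∀ z : ℍ, 2 < z.im → u ↑(σ • z) = c) (s : SL(2, ℤ)) :
    ∫⁻ z in (fun z : ℍ => s • z) ⁻¹' ModularGroup.fd, ENNReal.ofReal (energyDensity u z) < ⊤ := by
  have hmp : MeasurePreserving (fun z : ℍ => s • z) volume volume :=
    measurePreserving_smul (Matrix.SpecialLinearGroup.mapGL ℝ s) volume
  have hcont : Continuous (fun z : ℍ => s⁻¹ • z) :=
    continuous_const_smul (Matrix.SpecialLinearGroup.mapGL ℝ s⁻¹)
  have hE : Continuous (energyDensity u) := continuous_energyDensity hu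
  set f : ℍ → ℝ≥0∞ := fun w => ENNReal.ofReal (energyDensity u (s⁻¹ • w)) with hf
  have hfm : Measurable f :=
    (ENNReal.continuous_ofReal.comp (hE.comp hcont)).measurable
  have hfd_closed : IsClosed ModularGroup.fd := by
    have : ModularGroup.fd = {z : ℍ | 1 ≤ Complex.normSq (z : ℂ)} ∩ {z : ℍ | |z.re| ≤ (1 : ℝ) / 2} := rfl
    rw [this]
    refine IsClosed.inter (isClosed_le continuous_const ?_) (isClosed_le ?_ continuous_const)
    · exact Complex.continuous_normSq.comp UpperHalfPlane.continuous_coe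
    · exact continuous_abs.comp UpperHalfPlane.continuous_re
  have h1 : ∫⁻ z in (fun z : ℍ => s • z) ⁻¹' ModularGroup.fd, ENNReal.ofReal (energyDensity u z)
      = ∫⁻ w in ModularGroup.fd, f w := by
    rw [← hmp.setLIntegral_comp_preimage hfd_closed.measurableSet hfm]
    refine lintegral_congr fun z => ?_
    simp only [hf, inv_smul_smul]
  rw [h1]
  -- the integrand vanishes above height 2
  obtain ⟨c, hc⟩ := hcusp s⁻¹
  have hvan : ∀ w : ℍ, 2 < w.im → f w = 0 := by
    intro w hw
    have := Dc_eq_zero_of_const hu s⁻¹ c hc w hw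
    simp only [hf, energyDensity, this, norm_zero]
    simp
  have hK : IsCompact (ModularGroup.truncatedFundamentalDomain 2) :=
    ModularGroup.isCompact_truncatedFundamentalDomain 2
  obtain ⟨C, hC⟩ := hK.exists_bound_of_continuousOn (hE.comp hcont).continuousOn
  have hle : ∀ w ∈ ModularGroup.fd,
      f w ≤ (ModularGroup.truncatedFundamentalDomain 2).indicator (fun _ => ENNReal.ofReal C) w := by
    intro w hw
    by_cases h2 : w.im ≤ 2
    · have hwK : w ∈ ModularGroup.truncatedFundamentalDomain 2 := ⟨hw, h2⟩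
      rw [Set.indicator_of_mem hwK]
      refine ENNReal.ofReal_le_ofReal ?_
      exact (Real.le_norm_self _).trans (hC w hwK)
    · rw [hvan w (not_le.mp h2)]
      exact bot_le
  calc ∫⁻ w in ModularGroup.fd, f w
      ≤ ∫⁻ w in ModularGroup.fd,
          (ModularGroup.truncatedFundamentalDomain 2).indicator (fun _ => ENNReal.ofReal C) w :=
        setLIntegral_mono' hfd_closed.measurableSet hle
    _ ≤ ∫⁻ w, (ModularGroup.truncatedFundamentalDomain 2).indicator (fun _ => ENNReal.ofReal C) w :=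
        setLIntegral_le_lintegral _ _
    _ = ENNReal.ofReal C * volume (ModularGroup.truncatedFundamentalDomain 2) := by
        rw [lintegral_indicator hK.measurableSet, setLIntegral_const]
    _ < ⊤ := ENNReal.mul_lt_top ENNReal.ofReal_lt_top hK.measure_lt_top

/-- (B1) A `C¹` function on the upper half plane which is constant on every horoball
`σ • {Im > 2}` has finite energy on a measurable set meeting every `Γ₀(N)`-orbit. -/
theorem hasFiniteEnergy_of_const_on_horoballs (N : ℕ) [NeZero N] {u : ℂ → ℝ}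
    (hu : ContDiffOn ℝ 1 u UH)
    (hcusp : ∀ σ : SL(2, ℤ), ∃ c : ℝ, ∀ z : ℍ, 2 < z.im → u ↑(σ • z) = c) :
    HasFiniteEnergy N u := by
  classical
  have hfd_closed : IsClosed ModularGroup.fd := by
    have : ModularGroup.fd = {z : ℍ | 1 ≤ Complex.normSq (z : ℂ)} ∩ {z : ℍ | |z.re| ≤ (1 : ℝ) / 2} := rfl
    rw [this]
    refine IsClosed.inter (isClosed_le continuous_const ?_) (isClosed_le ?_ continuous_const)
    · exact Complex.continuous_normSq.comp UpperHalfPlane.continuous_coe
    · exact continuous_abs.comp UpperHalfPlane.continuous_re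
  let B : (SL(2, ℤ) ⧸ Gamma0 N) → Set ℍ := fun q => (fun z : ℍ => (q.out : SL(2, ℤ)) • z) ⁻¹' ModularGroup.fd
  have hBm : ∀ q, MeasurableSet (B q) := fun q =>
    (hfd_closed.preimage (continuous_const_smul (Matrix.SpecialLinearGroup.mapGL ℝ q.out))).measurableSet
  refine ⟨⋃ q, B q, MeasurableSet.iUnion hBm, fun z => ?_, ?_⟩
  · obtain ⟨g, hg⟩ := ModularGroup.exists_smul_mem_fd z
    obtain ⟨h, hh⟩ := QuotientGroup.mk_out_eq_mul (Gamma0 N) g
    refine ⟨h⁻¹, Set.mem_iUnion.mpr ⟨(g : SL(2, ℤ) ⧸ Gamma0 N), ?_⟩⟩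
    show ((g : SL(2, ℤ) ⧸ Gamma0 N).out : SL(2, ℤ)) • (((h⁻¹ : Gamma0 N) : SL(2, ℤ)) • z) ∈ ModularGroup.fd
    rw [hh, ← mul_smul]
    simpa using hg
  · have : Fintype (SL(2, ℤ) ⧸ Gamma0 N) := Fintype.ofFinite _
    calc ∫⁻ z in ⋃ q, B q, ENNReal.ofReal (energyDensity u z)
        ≤ ∑' q, ∫⁻ z in B q, ENNReal.ofReal (energyDensity u z) := lintegral_iUnion_le _ _
      _ = ∑ q, ∫⁻ z in B q, ENNReal.ofReal (energyDensity u z) := tsum_fintype _
      _ < ⊤ := ENNReal.sum_lt_top.mpr fun q _ =>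
          lintegral_energy_translate_lt_top hu hcusp q.out

theorem IsPot.differentiableAt {N : ℕ} {φ : Additive (Gamma0 N) →+ ℝ} {u : ℂ → ℝ}
    (hu : IsPot N φ u) {z : ℂ} (hz : z ∈ UH) : DifferentiableAt ℝ u z :=
  (hu.1.differentiableOn one_ne_zero).differentiableAt (isOpen_UH.mem_nhds hz)

/-- (B5) The complex gradient of a potential is weight-2 invariant. -/
theorem IsPot.isWeightTwoInvariant {N : ℕ} {φ : Additive (Gamma0 N) →+ ℝ} {u : ℂ → ℝ}
    (hu : IsPot N φ u) : IsWeightTwoInvariant N (Dc u) := by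
  intro γ hγ z
  set g : GL (Fin 2) ℝ := (γ : GL (Fin 2) ℝ) with hg
  have hdet1 : (g.val.det : ℝ) = 1 := by
    rw [hg]
    exact (Matrix.SpecialLinearGroup.map (Int.castRingHom ℝ) γ).det_coe
  have hdet : 0 < g.val.det := by rw [hdet1]; exact one_pos
  set m : ℂ → ℂ := fun w => ((g • ofComplex w : ℍ) : ℂ) with hm_def
  have hm : HasStrictDerivAt m ((g.val.det : ℂ) / denom g z ^ 2) z :=
    UpperHalfPlane.hasStrictDerivAt_smul hdet z
  have hmz : m z = ((γ • z : ℍ) : ℂ) := by
    simp only [hm_def, ofComplex_apply]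
    rfl
  set c : ℝ := φ (Additive.ofMul (⟨γ, hγ⟩ : Gamma0 N)) with hc
  have heq : (u ∘ m) =ᶠ[𝓝 (z : ℂ)] fun w => u w + c := by
    filter_upwards [isOpen_UH.mem_nhds z.im_pos] with w hw
    have h1 := hu.2 ⟨γ, hγ⟩ ⟨w, hw⟩
    have h2 : m w = (((γ • (⟨w, hw⟩ : ℍ)) : ℍ) : ℂ) := by
      simp only [hm_def, ofComplex_apply_of_im_pos hw]
      rfl
    simp only [Function.comp_apply, h2]
    exact h1
  have hd1 : DifferentiableAt ℝ u (m z) := by
    rw [hmz]; exact hu.differentiableAt (coe_mem_UH _)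
  have hd2 : DifferentiableAt ℝ u z := hu.differentiableAt (coe_mem_UH _)
  have hcomp := hd1.hasFDerivAt.comp (z : ℂ) (hm.hasDerivAt.hasFDerivAt.restrictScalars ℝ)
  have hrhs : HasFDerivAt (fun w => u w + c) (fderiv ℝ u z) z := hd2.hasFDerivAt.add_const c
  have huniq := (hcomp.congr_of_eventuallyEq heq.symm).unique hrhs
  have hden : denom g z ≠ 0 := denom_ne_zero g z
  have key : Dc u (m z) * (1 / denom g z ^ 2) = Dc u z := by
    apply eq_of_forall_mul_re_eq
    intro v
    have h3 := congrArg (fun L : ℂ →L[ℝ] ℝ => L v) huniq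
    simp only [ContinuousLinearMap.comp_apply, ContinuousLinearMap.coe_restrictScalars',
      ContinuousLinearMap.toSpanSingleton_apply, hdet1, Complex.ofReal_one] at h3
    rw [fderiv_apply_eq_re_Dc, fderiv_apply_eq_re_Dc] at h3
    rw [← h3]
    congr 1
    simp only [smul_eq_mul]
    ring
  rw [← hmz, ← key]
  field_simp

theorem IsPot.continuousOn_Dc {N : ℕ} {φ : Additive (Gamma0 N) →+ ℝ} {u : ℂ → ℝ}
    (hu : IsPot N φ u) : ContinuousOn (Dc u) UH :=
  Fermat.Agent.S21.helper1072.continuousOn_Dc hu.1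

/-- (B4) `L²` convergence to zero on a compact set implies `L¹` convergence to zero. -/
theorem tendsto_setIntegral_norm_of_sq {K : Set ℂ} (hK : IsCompact K) (g : ℕ → ℂ → ℂ)
    (hg : ∀ n, ContinuousOn (g n) K)
    (h2 : Tendsto (fun n => ∫ z in K, ‖g n z‖ ^ 2) atTop (𝓝 0)) :
    Tendsto (fun n => ∫ z in K, ‖g n z‖) atTop (𝓝 0) := by
  set V : ℝ := (volume K).toReal with hV
  have hV0 : 0 ≤ V := ENNReal.toReal_nonneg
  have hbound : ∀ (n : ℕ) (t : ℝ), 0 < t →
      ∫ z in K, ‖g n z‖ ≤ t / 2 * V + (1 / (2 * t)) * ∫ z in K, ‖g n z‖ ^ 2 := by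
    intro n t ht
    have hi1 : IntegrableOn (fun z => ‖g n z‖) K := (hg n).norm.integrableOn_compact hK
    have hi2 : IntegrableOn (fun z => ‖g n z‖ ^ 2) K := ((hg n).norm.pow 2).integrableOn_compact hK
    have hi3 : IntegrableOn (fun _ : ℂ => t / 2) K :=
      (continuousOn_const).integrableOn_compact hK
    have hle : ∫ z in K, ‖g n z‖ ≤ ∫ z in K, (t / 2 + (1 / (2 * t)) * ‖g n z‖ ^ 2) := by
      refine setIntegral_mono_on hi1 (hi3.add (hi2.const_mul _)) hK.measurableSet fun z _ => ?_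
      have h0 : 0 ≤ (‖g n z‖ - t) ^ 2 := sq_nonneg _
      have : ‖g n z‖ = (2 * t * ‖g n z‖) / (2 * t) := by field_simp
      rw [this, show t / 2 + 1 / (2 * t) * ((2 * t * ‖g n z‖) / (2 * t)) ^ 2
          = (t ^ 2 + ‖g n z‖ ^ 2) / (2 * t) by field_simp]
      exact div_le_div_of_nonneg_right (by nlinarith) (by positivity)
    refine hle.trans (le_of_eq ?_)
    rw [integral_add hi3 (hi2.const_mul _), integral_const_mul, setIntegral_const]
    simp [hV, Measure.real, mul_comm]
  have hnn : ∀ n, 0 ≤ ∫ z in K, ‖g n z‖ := fun n => integral_nonneg fun z => norm_nonneg _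
  rw [Metric.tendsto_atTop] at h2 ⊢
  intro ε hε
  set t : ℝ := ε / (V + 1) with ht
  have ht0 : 0 < t := div_pos hε (by linarith)
  obtain ⟨n₀, hn₀⟩ := h2 (ε * t) (mul_pos hε ht0)
  refine ⟨n₀, fun n hn => ?_⟩
  have h3 := hn₀ n hn
  rw [Real.dist_eq, sub_zero] at h3 ⊢
  rw [abs_of_nonneg (hnn n)]
  have h4 : ∫ z in K, ‖g n z‖ ^ 2 < ε * t := lt_of_le_of_lt (le_abs_self _) h3
  have h5 : t / 2 * V < ε / 2 := by
    rw [ht]
    have : ε / (V + 1) / 2 * V = ε / 2 * (V / (V + 1)) := by field_simp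
    rw [this]
    have h6 : V / (V + 1) < 1 := by rw [div_lt_one (by linarith)]; linarith
    nlinarith
  have h7 : (1 / (2 * t)) * ∫ z in K, ‖g n z‖ ^ 2 < ε / 2 := by
    have : ε / 2 = (1 / (2 * t)) * (ε * t) := by field_simp
    rw [this]
    exact mul_lt_mul_of_pos_left h4 (by positivity)
  linarith [hbound n t ht0]

/-- **Route 2 assembly**: the five leaves and (A) give the Hodge existence statement (H). -/
theorem stmtH_of_leaves (N : ℕ) [NeZero N] (hPOT : LeafPOT N) (hVAR : LeafVAR N)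
    (hLIM : LeafLIM) (hCUSP : LeafCUSP N) (hPER : LeafPER N) (hA : helper921.StmtA N) :
    helper801.StmtH N := by
  intro φ hφ
  obtain ⟨u₀, hu1, hu2, hu3⟩ := hPOT φ hφ
  have hpot0 : IsPot N φ (u₀ ∘ ofComplex) := by
    refine ⟨hu2.of_le (by norm_num), fun γ z => ?_⟩
    simp only [Function.comp_apply, ofComplex_apply]
    exact hu1 γ z
  have hfin : HasFiniteEnergy N (u₀ ∘ ofComplex) := by
    refine hasFiniteEnergy_of_const_on_horoballs N hpot0.1 fun σ => ?_
    obtain ⟨c, hc⟩ := hu3 σ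
    refine ⟨c, fun z hz => ?_⟩
    simp only [Function.comp_apply, ofComplex_apply]
    exact hc z hz
  obtain ⟨u, hu, hi, hii, hiii⟩ := hVAR φ _ hpot0 hfin
  have hcont : ∀ n, ContinuousOn (Dc (u n)) UH := fun n => (hu n).continuousOn_Dc
  obtain ⟨h, hh, hlim⟩ := hLIM (fun n => Dc (u n)) hcont hi hii
  obtain ⟨f, hf⟩ := hCUSP _ h hh hlim hcont (fun n => (hu n).isWeightTwoInvariant) hiii
  obtain ⟨F, hF⟩ := hA f
  refine ⟨f, hPER f F hF φ u hu fun K hK hKU => ?_⟩
  have hfh : ∀ z ∈ K, (f (ofComplex z) : ℂ) = h z := by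
    intro z hz
    have := hf ⟨z, hKU hz⟩
    rw [ofComplex_apply_of_im_pos (hKU hz)]
    exact this
  have h1 : Tendsto (fun n => ∫ z in K, ‖Dc (u n) z - h z‖) atTop (𝓝 0) := by
    refine tendsto_setIntegral_norm_of_sq hK (fun n z => Dc (u n) z - h z) (fun n => ?_)
      (hlim K hK hKU)
    exact ((hcont n).mono hKU).sub (hh.continuousOn.mono hKU)
  refine h1.congr fun n => ?_
  refine setIntegral_congr_fun hK.measurableSet fun z hz => ?_
  simp only [hfh z hz]

/-- S21 from the five Route-2 leaves (with (A), (B), (C±), all of which are on main). -/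
theorem result_of_leaves (N : ℕ) [NeZero N] (hPOT : LeafPOT N) (hVAR : LeafVAR N)
    (hLIM : LeafLIM) (hCUSP : LeafCUSP N) (hPER : LeafPER N)
    (hA : helper921.StmtA N) (hB : helper921.StmtB N) (hCp : helper921.StmtCplus N)
    (hCm : helper921.StmtCminus N) :
    Function.Injective (ModularCurve.periodHomPair N)
      ∧ LinearMap.range (ModularCurve.periodHomPair N)
          = ModularCurve.Period.parabolicHoms ℂ (CongruenceSubgroup.Gamma0 N) ℂ :=
  helper801.result_of_ABCH N hA hB hCp hCm (stmtH_of_leaves N hPOT hVAR hLIM hCUSP hPER hA)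

end Fermat.Agent.S21.helper1072
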