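/-
helper801: S21 Route 2 (Hodge / Weyl projection) — SPEC + ASSEMBLY (complete proofs).

Goal: `StmtH N` (see `helper801_HodgeAlg`): every real parabolic hom `φ` of `Γ₀(N)` is the real
part of the period hom of a weight-2 cusp form.  Dirichlet principle on `Γ₀(N)\ℍ`:

* POT  : a `C¹` potential `u₀` (`u₀(γz) = u₀(z) + φ(γ)`) of finite energy;
* VAR  : a minimizing sequence `u_n` of potentials: `a_n := gradC (u n) = u_x - i u_y` is
         `L²_loc`-Cauchy, asymptotically weakly holomorphic, and `L²`-bounded on cusp strips;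
* LIM  : (pure analysis) such a sequence converges in `L²_loc` to a holomorphic function `h`;
* CUSP : `h` is (the function of) a weight-2 cusp form `f` on `Γ₀(N)`;
* PER  : the real parts of the periods of `f` are `φ`.

This file fixes the definitions and the five `Prop`s and proves
  `stmtH_of : StmtA N → StmtPOT N → StmtVAR N → StmtLIM → StmtCUSP N → StmtPER N → StmtH N`.
Prove the five `Prop`s in hypothesis-passing style against these exact definitions.
-/
import Fermat.Agent.S21.helper801_HodgeAlg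

set_option autoImplicit false

namespace Fermat.Agent.S21.helper801

open ModularCurve ModularCurve.Period CongruenceSubgroup UpperHalfPlane MeasureTheory Filter
  Topology
open Fermat.Agent.S21.helper921
open scoped MatrixGroups ENNReal

noncomputable section

/-! ### Definitions -/

/-- The complex gradient `u_x - i u_y` of a real function on the upper half-plane, as a function
on `ℂ` (only meaningful on `upperHalfPlaneSet`). -/
def gradC (u : ℍ → ℝ) (z : ℂ) : ℂ :=
  ((fderiv ℝ (u ∘ ofComplex) z 1 : ℝ) : ℂ)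
    - Complex.I * ((fderiv ℝ (u ∘ ofComplex) z Complex.I : ℝ) : ℂ)

/-- `ψ_x + i ψ_y` (twice the Wirtinger derivative `∂ψ/∂z̄`). -/
def dbar (ψ : ℂ → ℂ) (z : ℂ) : ℂ :=
  fderiv ℝ ψ z 1 + Complex.I * fderiv ℝ ψ z Complex.I

/-- A `C¹` potential for the real hom `φ`: `u (γ • z) = u z + φ γ`. -/
structure IsPot (N : ℕ) (φ : Additive (Gamma0 N) →+ ℝ) (u : ℍ → ℝ) : Prop where
  contDiffOn : ContDiffOn ℝ 1 (u ∘ ofComplex) upperHalfPlaneSet
  map_smul : ∀ (γ : Gamma0 N) (z : ℍ), u ((γ : SL(2, ℤ)) • z) = u z + φ (Additive.ofMul γ)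

/-- Finite-energy certificate: the hyperbolic-invariant energy density `|∇u|² y² dμ` has finite
integral over a measurable set `B` meeting every `Γ₀(N)`-orbit (`volume` on `ℍ` is Mathlib's
invariant measure `dx dy / y²`). -/
def FiniteEnergyCert (N : ℕ) (u : ℍ → ℝ) : Prop :=
  ∃ B : Set ℍ, MeasurableSet B ∧ (∀ z : ℍ, ∃ γ : Gamma0 N, (γ : SL(2, ℤ)) • z ∈ B) ∧
    ∫⁻ z in B, ‖gradC u z‖ₑ ^ 2 * ENNReal.ofReal (z.im ^ 2) < ⊤

/-- Cauchy in `L²` (Lebesgue measure on `ℂ`) on every compact subset of the upper half-plane. -/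
def L2LocCauchy (a : ℕ → ℂ → ℂ) : Prop :=
  ∀ K : Set ℂ, IsCompact K → K ⊆ upperHalfPlaneSet →
    Tendsto (fun p : ℕ × ℕ => ∫⁻ z in K, ‖a p.1 z - a p.2 z‖ₑ ^ 2) atTop (𝓝 0)

/-- Convergence in `L²` (Lebesgue measure on `ℂ`) on every compact subset of the upper
half-plane. -/
def L2LocTendsto (a : ℕ → ℂ → ℂ) (h : ℂ → ℂ) : Prop :=
  ∀ K : Set ℂ, IsCompact K → K ⊆ upperHalfPlaneSet →
    Tendsto (fun n : ℕ => ∫⁻ z in K, ‖a n z - h z‖ₑ ^ 2) atTop (𝓝 0)

/-- Asymptotic weak holomorphy: `∫ a_n · ∂ψ/∂z̄ → 0` for every smooth test function compactly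
supported in the upper half-plane. -/
def AsympWeakHol (a : ℕ → ℂ → ℂ) : Prop :=
  ∀ ψ : ℂ → ℂ, ContDiff ℝ ((⊤ : ℕ∞) : WithTop ℕ∞) ψ → HasCompactSupport ψ →
    tsupport ψ ⊆ upperHalfPlaneSet →
    Tendsto (fun n : ℕ => ∫ z, a n z * dbar ψ z) atTop (𝓝 0)

/-- The standard cusp strip `|Re z| ≤ N`, `Im z ≥ 2`. -/
def cuspStrip (N : ℕ) : Set ℍ := {z : ℍ | |z.re| ≤ N ∧ 2 ≤ z.im}

/-- Uniform `L²` bound on all `SL(2,ℤ)`-translates of the cusp strip, in invariant form:
`∫_{σ • strip} |a_n|² y² dμ ≤ C`. -/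
def StripBounded (N : ℕ) (a : ℕ → ℂ → ℂ) : Prop :=
  ∃ C : ℝ≥0∞, C < ⊤ ∧ ∀ (n : ℕ) (σ : SL(2, ℤ)),
    ∫⁻ z in cuspStrip N, ‖a n ↑(σ • z)‖ₑ ^ 2 * ENNReal.ofReal ((σ • z).im ^ 2) ≤ C

/-! ### The five statements -/

/-- (POT) every real parabolic hom has a `C¹` potential of finite energy. -/
def StmtPOT (N : ℕ) : Prop :=
  ∀ φ : Additive (Gamma0 N) →+ ℝ, φ ∈ parabolicHoms ℝ (Gamma0 N) ℝ →
    ∃ u₀ : ℍ → ℝ, IsPot N φ u₀ ∧ FiniteEnergyCert N u₀

/-- (VAR) Dirichlet principle: from one finite-energy potential, a sequence of potentials whose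
complex gradients are `L²_loc`-Cauchy, asymptotically weakly holomorphic and strip-bounded. -/
def StmtVAR (N : ℕ) : Prop :=
  ∀ (φ : Additive (Gamma0 N) →+ ℝ) (u₀ : ℍ → ℝ), IsPot N φ u₀ → FiniteEnergyCert N u₀ →
    ∃ u : ℕ → ℍ → ℝ, (∀ n, IsPot N φ (u n)) ∧ L2LocCauchy (fun n => gradC (u n)) ∧
      AsympWeakHol (fun n => gradC (u n)) ∧ StripBounded N (fun n => gradC (u n))

/-- (LIM) pure analysis (completeness of `L²` + Weyl's lemma): an `L²_loc`-Cauchy,
asymptotically weakly holomorphic sequence of continuous functions on the upper half-plane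
converges in `L²_loc` to a holomorphic function. -/
def StmtLIM : Prop :=
  ∀ a : ℕ → ℂ → ℂ, (∀ n, ContinuousOn (a n) upperHalfPlaneSet) → L2LocCauchy a →
    AsympWeakHol a →
    ∃ h : ℂ → ℂ, DifferentiableOn ℂ h upperHalfPlaneSet ∧ L2LocTendsto a h

/-- (CUSP) an `L²_loc`-limit `h` (holomorphic) of continuous weight-2 `Γ₀(N)`-equivariant
functions with uniformly bounded `L²`-norms on cusp strips is a weight-2 cusp form. -/
def StmtCUSP (N : ℕ) : Prop :=
  ∀ (a : ℕ → ℂ → ℂ) (h : ℂ → ℂ),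
    (∀ n, ContinuousOn (a n) upperHalfPlaneSet) →
    (∀ (n : ℕ) (γ : Gamma0 N) (z : ℍ),
      a n ↑((γ : SL(2, ℤ)) • z)
        = (((γ : SL(2, ℤ)) 1 0 : ℂ) * (z : ℂ) + ((γ : SL(2, ℤ)) 1 1 : ℂ)) ^ 2 * a n ↑z) →
    DifferentiableOn ℂ h upperHalfPlaneSet → L2LocTendsto a h → StripBounded N a →
    ∃ f : CuspForm (Gamma0 N) 2, ∀ z : ℍ, f z = h ↑z

/-- (PER) period continuity: if the complex gradients of potentials for `φ` converge in
`L²_loc` to a cusp form `f` with primitive `F`, then the real parts of the periods of `F`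
are given by `φ`. -/
def StmtPER (N : ℕ) : Prop :=
  ∀ (φ : Additive (Gamma0 N) →+ ℝ) (u : ℕ → ℍ → ℝ) (f : CuspForm (Gamma0 N) 2) (F : ℍ → ℂ),
    (∀ n, IsPot N φ (u n)) → HasEquivariantPrimitive N f F →
    L2LocTendsto (fun n => gradC (u n)) (fun z => f (ofComplex z)) →
    ∀ γ : Gamma0 N,
      (F ((γ : SL(2, ℤ)) • UpperHalfPlane.I) - F UpperHalfPlane.I).re = φ (Additive.ofMul γ)

/-! ### Bridging lemmas -/

variable {N : ℕ} {φ : Additive (Gamma0 N) →+ ℝ} {u : ℍ → ℝ}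

theorem IsPot.continuousOn_gradC (hu : IsPot N φ u) : ContinuousOn (gradC u) upperHalfPlaneSet := by
  have h1 : ContinuousOn (fderiv ℝ (u ∘ ofComplex)) upperHalfPlaneSet :=
    hu.contDiffOn.continuousOn_fderiv_of_isOpen isOpen_upperHalfPlaneSet le_rfl
  have h2 : ∀ v : ℂ, ContinuousOn (fun z => (fderiv ℝ (u ∘ ofComplex) z) v) upperHalfPlaneSet :=
    fun v => h1.clm_apply continuousOn_const
  unfold gradC
  exact (Complex.continuous_ofReal.comp_continuousOn (h2 1)).sub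
    (continuousOn_const.mul (Complex.continuous_ofReal.comp_continuousOn (h2 Complex.I)))

/-- Wirtinger bookkeeping for a real-linear functional on `ℂ`. -/
theorem clm_wirtinger (L : ℂ →L[ℝ] ℝ) (m : ℂ) :
    ((L m : ℝ) : ℂ) - Complex.I * ((L (Complex.I * m) : ℝ) : ℂ)
      = m * (((L 1 : ℝ) : ℂ) - Complex.I * ((L Complex.I : ℝ) : ℂ)) := by
  have hL : ∀ w : ℂ, L w = w.re * L 1 + w.im * L Complex.I := by
    intro w
    have hw : w = (w.re : ℝ) • (1 : ℂ) + (w.im : ℝ) • Complex.I := by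
      apply Complex.ext <;> simp
    have h1 := congrArg L hw
    rw [map_add, map_smul, map_smul] at h1
    simpa [smul_eq_mul] using h1
  rw [hL m, hL (Complex.I * m)]
  apply Complex.ext <;> simp

/-- Weight-2 equivariance of the complex gradient of a potential (chain rule). -/
theorem IsPot.gradC_smul (hu : IsPot N φ u) (γ : Gamma0 N) (z : ℍ) :
    gradC u ↑((γ : SL(2, ℤ)) • z)
      = (((γ : SL(2, ℤ)) 1 0 : ℂ) * (z : ℂ) + ((γ : SL(2, ℤ)) 1 1 : ℂ)) ^ 2 * gradC u ↑z := by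
  set g : SL(2, ℤ) := (γ : SL(2, ℤ)) with hg
  set G : GL (Fin 2) ℝ :=
    Matrix.SpecialLinearGroup.toGL ((Matrix.SpecialLinearGroup.map (Int.castRingHom ℝ)) g) with hG
  have hdet1 : (G : Matrix (Fin 2) (Fin 2) ℝ).det = 1 :=
    (Matrix.SpecialLinearGroup.map (Int.castRingHom ℝ) g).det_coe
  have hdet : 0 < (G : Matrix (Fin 2) (Fin 2) ℝ).det := by rw [hdet1]; exact one_pos
  set d : ℂ := (g 1 0 : ℂ) * (z : ℂ) + (g 1 1 : ℂ) with hd
  have hden : denom G z = d := ModularGroup.denom_apply g z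
  have hd0 : d ≠ 0 := by rw [← hden]; exact denom_ne_zero G z
  let U : ℂ → ℝ := u ∘ ofComplex
  let mob : ℂ → ℂ := fun w => ↑(G • ofComplex w)
  have hmob : HasDerivAt mob (1 / d ^ 2) ↑z := by
    have := (hasStrictDerivAt_smul hdet z).hasDerivAt
    rw [hdet1, hden] at this
    simpa using this
  have hmobz : mob ↑z = ↑(g • z) := by
    simp only [mob, ofComplex_apply]
    rfl
  have hUdiff : DifferentiableAt ℝ U (mob ↑z) := by
    rw [hmobz]
    exact (hu.contDiffOn.differentiableOn one_ne_zero).differentiableAt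
      (isOpen_upperHalfPlaneSet.mem_nhds (g • z).im_pos)
  have hmobF := hmob.hasFDerivAt.restrictScalars ℝ
  have hcomp := hUdiff.hasFDerivAt.comp (↑z : ℂ) hmobF
  have hEq : U ∘ mob =ᶠ[𝓝 (↑z : ℂ)] fun w => U w + φ (Additive.ofMul γ) := by
    filter_upwards [isOpen_upperHalfPlaneSet.mem_nhds z.im_pos] with w hw
    simp only [U, mob, Function.comp_apply, ofComplex_apply]
    exact hu.map_smul γ (ofComplex w)
  have hfd : fderiv ℝ U ↑z = (fderiv ℝ U (mob ↑z)).comp
      (ContinuousLinearMap.restrictScalars ℝ (ContinuousLinearMap.toSpanSingleton ℂ (1 / d ^ 2))) := by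
    have h1 : fderiv ℝ (U ∘ mob) ↑z = fderiv ℝ (fun w => U w + φ (Additive.ofMul γ)) ↑z :=
      hEq.fderiv_eq
    rw [fderiv_add_const] at h1
    rw [← h1]; exact hcomp.fderiv
  have key := clm_wirtinger (fderiv ℝ U (mob ↑z)) (1 / d ^ 2)
  unfold gradC
  rw [show (u ∘ ofComplex) = U from rfl, hfd, ← hmobz]
  simp only [ContinuousLinearMap.comp_apply, ContinuousLinearMap.coe_restrictScalars',
    ContinuousLinearMap.toSpanSingleton_apply, smul_eq_mul, one_mul]
  rw [key]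
  field_simp

theorem L2LocTendsto.congr_on {a : ℕ → ℂ → ℂ} {h h' : ℂ → ℂ} (H : L2LocTendsto a h)
    (hh : ∀ z ∈ upperHalfPlaneSet, h z = h' z) : L2LocTendsto a h' := by
  intro K hK hKU
  refine (H K hK hKU).congr fun n => ?_
  refine setLIntegral_congr_fun hK.measurableSet fun z hz => ?_
  rw [hh z (hKU hz)]

/-! ### Assembly -/

/-- Route 2: the Hodge existence statement from the five leaf statements (and (A)). -/
theorem stmtH_of (hA : StmtA N) (hPOT : StmtPOT N) (hVAR : StmtVAR N) (hLIM : StmtLIM)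
    (hCUSP : StmtCUSP N) (hPER : StmtPER N) : StmtH N := by
  intro φ hφ
  obtain ⟨u₀, hu₀, hB⟩ := hPOT φ hφ
  obtain ⟨u, hu, hcauchy, hweak, hstrip⟩ := hVAR φ u₀ hu₀ hB
  obtain ⟨h, hhol, htend⟩ := hLIM _ (fun n => (hu n).continuousOn_gradC) hcauchy hweak
  obtain ⟨f, hf⟩ := hCUSP _ h (fun n => (hu n).continuousOn_gradC)
    (fun n γ z => (hu n).gradC_smul γ z) hhol htend hstrip
  obtain ⟨F, hF⟩ := hA f
  refine ⟨f, fun γ => ?_⟩
  obtain ⟨γ, rfl⟩ := Additive.ofMul.surjective γ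
  have htend' : L2LocTendsto (fun n => gradC (u n)) (fun z => f (ofComplex z)) := by
    refine htend.congr_on fun z hz => ?_
    have := hf ⟨z, hz⟩
    rw [ofComplex_apply_of_im_pos hz]
    exact this.symm
  rw [periodMap_apply_of_primitive hF]
  exact hPER φ u f F hu hF htend' γ

/-- S21 from Route 2: (A), (B), (C±) [all on main] and the five leaf statements. -/
theorem result_of_route2 (N : ℕ) [NeZero N] (hA : StmtA N) (hB : StmtB N) (hCp : StmtCplus N)
    (hCm : StmtCminus N) (hPOT : StmtPOT N) (hVAR : StmtVAR N) (hLIM : StmtLIM)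
    (hCUSP : StmtCUSP N) (hPER : StmtPER N) :
    Function.Injective (ModularCurve.periodHomPair N)
      ∧ LinearMap.range (ModularCurve.periodHomPair N)
          = ModularCurve.Period.parabolicHoms ℂ (CongruenceSubgroup.Gamma0 N) ℂ :=
  result_of_ABCH N hA hB hCp hCm (stmtH_of hA hPOT hVAR hLIM hCUSP hPER)

end

end Fermat.Agent.S21.helper801
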