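/-
helper1268: S21 Route 2 (Hodge / Weyl), leaf PER = period continuity, in the exact shape
`helper801.StmtPER N` of `helper801_HodgeSpec`.

Idea.  `e_n := u_n - Re F` is `C¹` on the upper half-plane, its complex gradient is
`gradC (u n) - f` and `e_n (γ z) - e_n z = c` is a constant independent of `n` and `z`.
A rectangle `L¹`-Poincaré inequality (fundamental theorem of calculus along an `L`-shaped
path + Tonelli) and the Jacobian formula for `z ↦ γ z` bound `|c|` by a constant times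
`∫_R ‖gradC (u n) - f‖`, which tends to `0`.
-/
import Fermat.Agent.S21.helper801_HodgeSpec

set_option autoImplicit false

namespace Fermat.Agent.S21.helper1268

open ModularCurve ModularCurve.Period CongruenceSubgroup UpperHalfPlane MeasureTheory Filter
  Topology Set
open Fermat.Agent.S21.helper921 Fermat.Agent.S21.helper801
open scoped MatrixGroups ENNReal

noncomputable section

/-! ### One-dimensional fundamental theorem of calculus, `lintegral` form -/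

theorem enorm_sub_le_lintegral_deriv {g g' : ℝ → ℝ} {a b t₀ t₁ : ℝ}
    (ht₀ : t₀ ∈ Icc a b) (ht₁ : t₁ ∈ Icc a b)
    (hg : ∀ t ∈ Icc a b, HasDerivAt g (g' t) t) (hg' : ContinuousOn g' (Icc a b)) :
    ‖g t₁ - g t₀‖ₑ ≤ ∫⁻ t in Icc a b, ‖g' t‖ₑ := by
  have hsub : uIcc t₀ t₁ ⊆ Icc a b := uIcc_subset_Icc ht₀ ht₁
  have hFTC : ∫ t in t₀..t₁, g' t = g t₁ - g t₀ :=
    intervalIntegral.integral_eq_sub_of_hasDerivAt (fun x hx => hg x (hsub hx))
      ((hg'.mono hsub).intervalIntegrable)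
  have h1 : ‖g t₁ - g t₀‖ₑ = ‖∫ t in uIoc t₀ t₁, g' t‖ₑ := by
    rw [← hFTC]
    have := intervalIntegral.norm_integral_eq_norm_integral_uIoc (μ := volume) (a := t₀) (b := t₁) g'
    rw [← ofReal_norm, ← ofReal_norm, this]
  rw [h1]
  refine (enorm_integral_le_lintegral_enorm _).trans ?_
  exact lintegral_mono_set (uIoc_subset_uIcc.trans hsub)

/-! ### The `L`-shaped path bound on a rectangle -/

theorem hasDerivAt_mk_left (y t : ℝ) : HasDerivAt (fun t : ℝ => (⟨t, y⟩ : ℂ)) 1 t := by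
  have h : (fun t : ℝ => (⟨t, y⟩ : ℂ)) = fun t : ℝ => (t : ℂ) + (y : ℂ) * Complex.I := by
    funext t; exact Complex.mk_eq_add_mul_I t y
  rw [h]
  exact (Complex.ofRealCLM.hasDerivAt (x := t)).add_const _

theorem hasDerivAt_mk_right (x s : ℝ) : HasDerivAt (fun s : ℝ => (⟨x, s⟩ : ℂ)) Complex.I s := by
  have h : (fun s : ℝ => (⟨x, s⟩ : ℂ)) = fun s : ℝ => (x : ℂ) + (s : ℂ) * Complex.I := by
    funext s; exact Complex.mk_eq_add_mul_I x s
  rw [h]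
  have := ((Complex.ofRealCLM.hasDerivAt (x := s)).mul_const Complex.I).const_add (x : ℂ)
  simpa using this

theorem enorm_sub_le_of_rect {e A B : ℂ → ℝ} {a b c d : ℝ}
    (hx : ∀ z ∈ Icc a b ×ℂ Icc c d, HasDerivAt (fun t : ℝ => e ⟨t, z.im⟩) (A z) z.re)
    (hy : ∀ z ∈ Icc a b ×ℂ Icc c d, HasDerivAt (fun s : ℝ => e ⟨z.re, s⟩) (B z) z.im)
    (hA : ContinuousOn A (Icc a b ×ℂ Icc c d)) (hB : ContinuousOn B (Icc a b ×ℂ Icc c d))
    {p p' : ℂ} (hp : p ∈ Icc a b ×ℂ Icc c d) (hp' : p' ∈ Icc a b ×ℂ Icc c d) :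
    ‖e p' - e p‖ₑ ≤ (∫⁻ t in Icc a b, ‖A ⟨t, p.im⟩‖ₑ) + ∫⁻ s in Icc c d, ‖B ⟨p'.re, s⟩‖ₑ := by
  have hp1 := hp.1
  have hp2 := hp.2
  have hp1' := hp'.1
  have hp2' := hp'.2
  simp only [mem_preimage] at hp1 hp2 hp1' hp2'
  -- horizontal leg, at height `p.im`, from `p.re` to `p'.re`
  have hH : ‖e ⟨p'.re, p.im⟩ - e ⟨p.re, p.im⟩‖ₑ ≤ ∫⁻ t in Icc a b, ‖A ⟨t, p.im⟩‖ₑ := by
    refine enorm_sub_le_lintegral_deriv (g := fun t : ℝ => e ⟨t, p.im⟩)
      (g' := fun t : ℝ => A ⟨t, p.im⟩) hp1 hp1' (fun t ht => ?_) ?_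
    · exact hx ⟨t, p.im⟩ ⟨ht, hp2⟩
    · refine hA.comp ?_ (fun t ht => ⟨ht, hp2⟩)
      exact fun t _ => (hasDerivAt_mk_left p.im t).continuousAt.continuousWithinAt
  -- vertical leg, at abscissa `p'.re`, from `p.im` to `p'.im`
  have hV : ‖e ⟨p'.re, p'.im⟩ - e ⟨p'.re, p.im⟩‖ₑ ≤ ∫⁻ s in Icc c d, ‖B ⟨p'.re, s⟩‖ₑ := by
    refine enorm_sub_le_lintegral_deriv (g := fun s : ℝ => e ⟨p'.re, s⟩)
      (g' := fun s : ℝ => B ⟨p'.re, s⟩) hp2 hp2' (fun s hs => ?_) ?_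
    · exact hy ⟨p'.re, s⟩ ⟨hp1', hs⟩
    · refine hB.comp ?_ (fun s hs => ⟨hp1', hs⟩)
      exact fun s _ => (hasDerivAt_mk_right p'.re s).continuousAt.continuousWithinAt
  have hsplit : e p' - e p
      = (e ⟨p'.re, p'.im⟩ - e ⟨p'.re, p.im⟩) + (e ⟨p'.re, p.im⟩ - e ⟨p.re, p.im⟩) := by
    simp [Complex.eta]
  rw [hsplit]
  calc ‖(e ⟨p'.re, p'.im⟩ - e ⟨p'.re, p.im⟩) + (e ⟨p'.re, p.im⟩ - e ⟨p.re, p.im⟩)‖ₑ
      ≤ ‖e ⟨p'.re, p'.im⟩ - e ⟨p'.re, p.im⟩‖ₑ + ‖e ⟨p'.re, p.im⟩ - e ⟨p.re, p.im⟩‖ₑ :=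
        enorm_add_le _ _
    _ ≤ (∫⁻ s in Icc c d, ‖B ⟨p'.re, s⟩‖ₑ) + ∫⁻ t in Icc a b, ‖A ⟨t, p.im⟩‖ₑ := add_le_add hV hH
    _ = _ := add_comm _ _

/-! ### Tonelli on complex rectangles -/

theorem setLIntegral_reProdIm (g : ℂ → ℝ≥0∞) (hg : Measurable g) (s t : Set ℝ) :
    ∫⁻ z in s ×ℂ t, g z = ∫⁻ x in s, ∫⁻ y in t, g ⟨x, y⟩ := by
  have hmp := Complex.volume_preserving_equiv_real_prod.symm
  have h1 : ∫⁻ z in s ×ℂ t, g z
      = ∫⁻ p in Complex.measurableEquivRealProd.symm ⁻¹' (s ×ℂ t),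
          g (Complex.measurableEquivRealProd.symm p) :=
    (hmp.setLIntegral_comp_preimage_emb
      Complex.measurableEquivRealProd.symm.measurableEmbedding g _).symm
  have h2 : Complex.measurableEquivRealProd.symm ⁻¹' (s ×ℂ t) = s ×ˢ t := by
    ext p
    simp [Complex.mem_reProdIm, Complex.measurableEquivRealProd_symm_apply]
  rw [h1, h2, Measure.volume_eq_prod, setLIntegral_prod]
  · simp [Complex.measurableEquivRealProd_symm_apply]
  · exact (hg.comp Complex.measurableEquivRealProd.symm.measurable).aemeasurable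

theorem setLIntegral_reProdIm_symm (g : ℂ → ℝ≥0∞) (hg : Measurable g) (s t : Set ℝ) :
    ∫⁻ z in s ×ℂ t, g z = ∫⁻ y in t, ∫⁻ x in s, g ⟨x, y⟩ := by
  have hmp := Complex.volume_preserving_equiv_real_prod.symm
  have h1 : ∫⁻ z in s ×ℂ t, g z
      = ∫⁻ p in Complex.measurableEquivRealProd.symm ⁻¹' (s ×ℂ t),
          g (Complex.measurableEquivRealProd.symm p) :=
    (hmp.setLIntegral_comp_preimage_emb
      Complex.measurableEquivRealProd.symm.measurableEmbedding g _).symm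
  have h2 : Complex.measurableEquivRealProd.symm ⁻¹' (s ×ℂ t) = s ×ˢ t := by
    ext p
    simp [Complex.mem_reProdIm, Complex.measurableEquivRealProd_symm_apply]
  rw [h1, h2, Measure.volume_eq_prod, setLIntegral_prod_symm]
  · simp [Complex.measurableEquivRealProd_symm_apply]
  · exact (hg.comp Complex.measurableEquivRealProd.symm.measurable).aemeasurable

theorem measurable_mk_comp {g : ℂ → ℝ≥0∞} (hg : Measurable g) :
    Measurable (fun p : ℝ × ℝ => g ⟨p.1, p.2⟩) := by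
  have : (fun p : ℝ × ℝ => g ⟨p.1, p.2⟩) = g ∘ Complex.measurableEquivRealProd.symm := by
    funext p; simp [Complex.measurableEquivRealProd_symm_apply]
  rw [this]
  exact hg.comp Complex.measurableEquivRealProd.symm.measurable

/-- Slab integral in the `x`-direction: `∫_R (∫_a^b g(t, Im q) dt) dq = (b - a) ∫_R g`. -/
theorem setLIntegral_slab_re (g : ℂ → ℝ≥0∞) (hg : Measurable g) (a b c d : ℝ) :
    ∫⁻ q in Icc a b ×ℂ Icc c d, (∫⁻ t in Icc a b, g ⟨t, q.im⟩)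
      = ENNReal.ofReal (b - a) * ∫⁻ z in Icc a b ×ℂ Icc c d, g z := by
  have hH : Measurable (fun y : ℝ => ∫⁻ t in Icc a b, g ⟨t, y⟩) :=
    (measurable_mk_comp hg).lintegral_prod_left'
  rw [setLIntegral_reProdIm (fun q : ℂ => ∫⁻ t in Icc a b, g ⟨t, q.im⟩)
    (hH.comp Complex.measurable_im), setLIntegral_reProdIm_symm g hg]
  simp only [setLIntegral_const, Real.volume_Icc]
  rw [mul_comm]

/-- Slab integral in the `y`-direction: `∫_R (∫_c^d g(Re w, s) ds) dw = (d - c) ∫_R g`. -/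
theorem setLIntegral_slab_im (g : ℂ → ℝ≥0∞) (hg : Measurable g) (a b c d : ℝ) :
    ∫⁻ w in Icc a b ×ℂ Icc c d, (∫⁻ s in Icc c d, g ⟨w.re, s⟩)
      = ENNReal.ofReal (d - c) * ∫⁻ z in Icc a b ×ℂ Icc c d, g z := by
  have hV : Measurable (fun x : ℝ => ∫⁻ s in Icc c d, g ⟨x, s⟩) :=
    (measurable_mk_comp hg).lintegral_prod_right'
  rw [setLIntegral_reProdIm_symm (fun w : ℂ => ∫⁻ s in Icc c d, g ⟨w.re, s⟩)
    (hV.comp Complex.measurable_re), setLIntegral_reProdIm g hg]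
  simp only [setLIntegral_const, Real.volume_Icc]
  rw [mul_comm]

/-! ### The Möbius map and its Jacobian -/

/-- The real matrix of an integral unimodular matrix. -/
abbrev toGLR (g : SL(2, ℤ)) : GL (Fin 2) ℝ :=
  Matrix.SpecialLinearGroup.toGL ((Matrix.SpecialLinearGroup.map (Int.castRingHom ℝ)) g)

/-- The Möbius map of `g : SL(2,ℤ)` as a map `ℂ → ℂ` (junk outside the upper half-plane). -/
def mob (g : SL(2, ℤ)) (w : ℂ) : ℂ := ↑(toGLR g • ofComplex w)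

theorem mob_coe (g : SL(2, ℤ)) (z : ℍ) : mob g ↑z = ↑(g • z) := by
  simp only [mob, ofComplex_apply]
  rfl

theorem mob_mem (g : SL(2, ℤ)) (w : ℂ) : mob g w ∈ upperHalfPlaneSet :=
  (toGLR g • ofComplex w).im_pos

theorem mob_of_mem (g : SL(2, ℤ)) {w : ℂ} (hw : w ∈ upperHalfPlaneSet) :
    mob g w = ↑(g • (⟨w, hw⟩ : ℍ)) := by
  have := mob_coe g ⟨w, hw⟩
  exact this

theorem det_toGLR (g : SL(2, ℤ)) : (toGLR g : Matrix (Fin 2) (Fin 2) ℝ).det = 1 :=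
  (Matrix.SpecialLinearGroup.map (Int.castRingHom ℝ) g).det_coe

theorem hasFDerivAt_mob (g : SL(2, ℤ)) {w : ℂ} (hw : w ∈ upperHalfPlaneSet) :
    HasFDerivAt (mob g) (smulFDeriv (toGLR g) w) w :=
  (hasStrictFDerivAt_smul (toGLR g) ⟨w, hw⟩).hasFDerivAt

theorem continuousOn_mob (g : SL(2, ℤ)) : ContinuousOn (mob g) upperHalfPlaneSet :=
  fun _ hw => (hasFDerivAt_mob g hw).continuousAt.continuousWithinAt

theorem injOn_mob (g : SL(2, ℤ)) : InjOn (mob g) upperHalfPlaneSet := by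
  intro w hw w' hw' h
  rw [mob_of_mem g hw, mob_of_mem g hw'] at h
  have h1 : g • (⟨w, hw⟩ : ℍ) = g • (⟨w', hw'⟩ : ℍ) := UpperHalfPlane.ext h
  have h2 : (⟨w, hw⟩ : ℍ) = ⟨w', hw'⟩ := by
    have := congrArg (fun τ => g⁻¹ • τ) h1
    simpa using this
  exact congrArg UpperHalfPlane.coe h2

theorem det_smulFDeriv_toGLR (g : SL(2, ℤ)) (w : ℂ) :
    (smulFDeriv (toGLR g) w).det = 1 / ‖denom (toGLR g) w‖ ^ 4 := by
  rw [det_smulFDeriv]
  have h1 : ((toGLR g).det : ℝ) = 1 := by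
    rw [Matrix.GeneralLinearGroup.val_det_apply]
    exact det_toGLR g
  have h2 : (toGLR g).det.val = 1 := h1
  rw [h2]
  simp

/-- Change of variables `w = γ q` with a uniform lower bound on the Jacobian over a compact
subset of the upper half-plane. -/
theorem exists_mul_lintegral_comp_mob_le (g : SL(2, ℤ)) {S : Set ℂ} (hS : IsCompact S)
    (hSU : S ⊆ upperHalfPlaneSet) :
    ∃ κ : ℝ≥0∞, κ ≠ 0 ∧ κ ≠ ⊤ ∧ ∀ k : ℂ → ℝ≥0∞,
      κ * ∫⁻ q in S, k (mob g q) ≤ ∫⁻ w in mob g '' S, k w := by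
  have hcont : ContinuousOn (fun w : ℂ => denom (toGLR g) w) S := by
    unfold denom
    fun_prop
  obtain ⟨C, hC⟩ := hS.exists_bound_of_continuousOn hcont
  set M : ℝ := max C 1 with hM
  have hM1 : (1 : ℝ) ≤ M := le_max_right _ _
  have hM0 : 0 < M := lt_of_lt_of_le one_pos hM1
  refine ⟨ENNReal.ofReal (1 / M ^ 4), ?_, ENNReal.ofReal_ne_top, fun k => ?_⟩
  · rw [Ne, ENNReal.ofReal_eq_zero, not_le]
    positivity
  have hf' : ∀ x ∈ S, HasFDerivWithinAt (mob g) (smulFDeriv (toGLR g) x) S x :=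
    fun x hx => (hasFDerivAt_mob g (hSU hx)).hasFDerivWithinAt
  have main := lintegral_image_eq_lintegral_abs_det_fderiv_mul volume hS.measurableSet hf'
    ((injOn_mob g).mono hSU) k
  rw [main, ← lintegral_const_mul' _ _ ENNReal.ofReal_ne_top]
  refine setLIntegral_mono' hS.measurableSet fun x hx => ?_
  gcongr
  rw [det_smulFDeriv_toGLR]
  have hd0 : 0 < ‖denom (toGLR g) x‖ := by
    rw [norm_pos_iff]
    exact denom_ne_zero (toGLR g) ⟨x, hSU hx⟩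
  have hdM : ‖denom (toGLR g) x‖ ≤ M := (hC x hx).trans (le_max_left _ _)
  rw [abs_of_pos (by positivity)]
  apply one_div_le_one_div_of_le (by positivity)
  gcongr

/-! ### The abstract core: a rectangle `L¹`-Poincaré estimate for the period -/

theorem enorm_mul_volume_le_of_rect (g : SL(2, ℤ)) {e A B : ℂ → ℝ} {a b c d cst : ℝ}
    {S : Set ℂ} (hSm : MeasurableSet S)
    (hSR : S ⊆ Icc a b ×ℂ Icc c d) (hgSR : mob g '' S ⊆ Icc a b ×ℂ Icc c d)
    (hx : ∀ z ∈ Icc a b ×ℂ Icc c d, HasDerivAt (fun t : ℝ => e ⟨t, z.im⟩) (A z) z.re)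
    (hy : ∀ z ∈ Icc a b ×ℂ Icc c d, HasDerivAt (fun s : ℝ => e ⟨z.re, s⟩) (B z) z.im)
    (hA : ContinuousOn A (Icc a b ×ℂ Icc c d)) (hB : ContinuousOn B (Icc a b ×ℂ Icc c d))
    (he : ∀ q ∈ S, e (mob g q) - e q = cst)
    {κ : ℝ≥0∞} (hκ0 : κ ≠ 0) (hκt : κ ≠ ⊤)
    (hκ : ∀ k : ℂ → ℝ≥0∞, κ * ∫⁻ q in S, k (mob g q) ≤ ∫⁻ w in mob g '' S, k w) :
    ‖cst‖ₑ * volume S ≤ ENNReal.ofReal (b - a) * (∫⁻ z in Icc a b ×ℂ Icc c d, ‖A z‖ₑ)
      + κ⁻¹ * (ENNReal.ofReal (d - c) * ∫⁻ z in Icc a b ×ℂ Icc c d, ‖B z‖ₑ) := by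
  classical
  set R : Set ℂ := Icc a b ×ℂ Icc c d with hR
  have hRm : MeasurableSet R := (isClosed_Icc.reProdIm isClosed_Icc).measurableSet
  let At : ℂ → ℝ := R.piecewise A 0
  let Bt : ℂ → ℝ := R.piecewise B 0
  have hAt : Measurable At := hA.measurable_piecewise continuous_zero.continuousOn hRm
  have hBt : Measurable Bt := hB.measurable_piecewise continuous_zero.continuousOn hRm
  let gA : ℂ → ℝ≥0∞ := fun z => ‖At z‖ₑ
  let gB : ℂ → ℝ≥0∞ := fun z => ‖Bt z‖ₑ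
  have hgA : Measurable gA := hAt.enorm
  have hgB : Measurable gB := hBt.enorm
  have hgAeq : ∀ z ∈ R, gA z = ‖A z‖ₑ := fun z hz => by
    simp only [gA, At, Set.piecewise_eq_of_mem _ _ _ hz]
  have hgBeq : ∀ z ∈ R, gB z = ‖B z‖ₑ := fun z hz => by
    simp only [gB, Bt, Set.piecewise_eq_of_mem _ _ _ hz]
  let H : ℝ → ℝ≥0∞ := fun y => ∫⁻ t in Icc a b, gA ⟨t, y⟩
  let V : ℝ → ℝ≥0∞ := fun x => ∫⁻ s in Icc c d, gB ⟨x, s⟩
  have hH : Measurable H := (measurable_mk_comp hgA).lintegral_prod_left'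
  -- pointwise bound along the `L`-shaped path from `q` to `γ q`
  have hpt : ∀ q ∈ S, ‖cst‖ₑ ≤ H q.im + V (mob g q).re := by
    intro q hq
    have hqR : q ∈ R := hSR hq
    have hgqR : mob g q ∈ R := hgSR (mem_image_of_mem _ hq)
    have hb := enorm_sub_le_of_rect hx hy hA hB hqR hgqR
    rw [he q hq] at hb
    refine hb.trans (le_of_eq ?_)
    congr 1
    · refine setLIntegral_congr_fun measurableSet_Icc fun t ht => ?_
      exact (hgAeq ⟨t, q.im⟩ ⟨ht, hqR.2⟩).symm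
    · refine setLIntegral_congr_fun measurableSet_Icc fun s hs => ?_
      exact (hgBeq ⟨(mob g q).re, s⟩ ⟨hgqR.1, hs⟩).symm
  have h1 : ‖cst‖ₑ * volume S = ∫⁻ _ in S, ‖cst‖ₑ := by rw [setLIntegral_const]
  have h2 : ∫⁻ _ in S, ‖cst‖ₑ ≤ ∫⁻ q in S, (H q.im + V (mob g q).re) :=
    setLIntegral_mono' hSm hpt
  have h3 : ∫⁻ q in S, (H q.im + V (mob g q).re)
      = (∫⁻ q in S, H q.im) + ∫⁻ q in S, V (mob g q).re :=
    lintegral_add_left (hH.comp Complex.measurable_im) _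
  have h4 : ∫⁻ q in S, H q.im ≤ ∫⁻ q in R, H q.im := lintegral_mono_set hSR
  have h5 : ∫⁻ q in R, H q.im = ENNReal.ofReal (b - a) * ∫⁻ z in R, gA z :=
    setLIntegral_slab_re gA hgA a b c d
  have h6 : ∫⁻ q in S, V (mob g q).re ≤ κ⁻¹ * ∫⁻ w in R, V w.re := by
    have h' : κ * ∫⁻ q in S, V (mob g q).re ≤ ∫⁻ w in R, V w.re :=
      (hκ (fun w => V w.re)).trans (lintegral_mono_set hgSR)
    calc ∫⁻ q in S, V (mob g q).re = κ⁻¹ * (κ * ∫⁻ q in S, V (mob g q).re) := by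
          rw [← mul_assoc, ENNReal.inv_mul_cancel hκ0 hκt, one_mul]
      _ ≤ κ⁻¹ * ∫⁻ w in R, V w.re := by gcongr
  have h7 : ∫⁻ w in R, V w.re = ENNReal.ofReal (d - c) * ∫⁻ z in R, gB z :=
    setLIntegral_slab_im gB hgB a b c d
  have h8 : ∫⁻ z in R, gA z = ∫⁻ z in R, ‖A z‖ₑ := setLIntegral_congr_fun hRm hgAeq
  have h9 : ∫⁻ z in R, gB z = ∫⁻ z in R, ‖B z‖ₑ := setLIntegral_congr_fun hRm hgBeq
  calc ‖cst‖ₑ * volume S = ∫⁻ _ in S, ‖cst‖ₑ := h1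
    _ ≤ (∫⁻ q in S, H q.im) + ∫⁻ q in S, V (mob g q).re := h2.trans (le_of_eq h3)
    _ ≤ (∫⁻ q in R, H q.im) + κ⁻¹ * ∫⁻ w in R, V w.re := add_le_add h4 h6
    _ = ENNReal.ofReal (b - a) * (∫⁻ z in R, ‖A z‖ₑ)
          + κ⁻¹ * (ENNReal.ofReal (d - c) * ∫⁻ z in R, ‖B z‖ₑ) := by
        rw [h5, h7, h8, h9]

/-! ### Calculus of `e = u - Re F` -/

/-- The function `u - Re F`, transported to `ℂ`. -/
def eFun (u : ℍ → ℝ) (F : ℍ → ℂ) (z : ℂ) : ℝ := u (ofComplex z) - (F (ofComplex z)).re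

/-- The `x`-derivative of `eFun`. -/
def AFun (u : ℍ → ℝ) (f : ℍ → ℂ) (z : ℂ) : ℝ :=
  fderiv ℝ (u ∘ ofComplex) z 1 - (f (ofComplex z)).re

/-- The `y`-derivative of `eFun`. -/
def BFun (u : ℍ → ℝ) (f : ℍ → ℂ) (z : ℂ) : ℝ :=
  fderiv ℝ (u ∘ ofComplex) z Complex.I + (f (ofComplex z)).im

theorem hasDerivAt_eFun_re {u : ℍ → ℝ} {F f : ℍ → ℂ}
    (hu : ContDiffOn ℝ 1 (u ∘ ofComplex) upperHalfPlaneSet)
    (hF : ∀ τ : ℍ, HasDerivAt (F ∘ ofComplex) (f τ) ↑τ) {z : ℂ} (hz : z ∈ upperHalfPlaneSet) :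
    HasDerivAt (fun t : ℝ => eFun u F ⟨t, z.im⟩) (AFun u f z) z.re := by
  have hzeq : (⟨z.re, z.im⟩ : ℂ) = z := Complex.eta z
  have hU : HasFDerivAt (u ∘ ofComplex) (fderiv ℝ (u ∘ ofComplex) z) (⟨z.re, z.im⟩ : ℂ) := by
    rw [hzeq]
    exact ((hu.differentiableOn one_ne_zero).differentiableAt
      (isOpen_upperHalfPlaneSet.mem_nhds hz)).hasFDerivAt
  have hFc : HasDerivAt (F ∘ ofComplex) (f (ofComplex z)) (⟨z.re, z.im⟩ : ℂ) := by
    rw [hzeq]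
    have := hF ⟨z, hz⟩
    rw [ofComplex_apply_of_im_pos hz]
    exact this
  have hpath : HasDerivAt (fun t : ℝ => (⟨t, z.im⟩ : ℂ)) 1 z.re := hasDerivAt_mk_left z.im z.re
  have h1 := hU.comp_hasDerivAt z.re hpath
  have h2 := (hFc.hasFDerivAt.restrictScalars ℝ).comp_hasDerivAt z.re hpath
  have h3 := Complex.reCLM.hasFDerivAt.comp_hasDerivAt z.re h2
  have h4 := h1.sub h3
  refine h4.congr_deriv ?_
  simp [AFun]

theorem hasDerivAt_eFun_im {u : ℍ → ℝ} {F f : ℍ → ℂ}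
    (hu : ContDiffOn ℝ 1 (u ∘ ofComplex) upperHalfPlaneSet)
    (hF : ∀ τ : ℍ, HasDerivAt (F ∘ ofComplex) (f τ) ↑τ) {z : ℂ} (hz : z ∈ upperHalfPlaneSet) :
    HasDerivAt (fun s : ℝ => eFun u F ⟨z.re, s⟩) (BFun u f z) z.im := by
  have hzeq : (⟨z.re, z.im⟩ : ℂ) = z := Complex.eta z
  have hU : HasFDerivAt (u ∘ ofComplex) (fderiv ℝ (u ∘ ofComplex) z) (⟨z.re, z.im⟩ : ℂ) := by
    rw [hzeq]
    exact ((hu.differentiableOn one_ne_zero).differentiableAt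
      (isOpen_upperHalfPlaneSet.mem_nhds hz)).hasFDerivAt
  have hFc : HasDerivAt (F ∘ ofComplex) (f (ofComplex z)) (⟨z.re, z.im⟩ : ℂ) := by
    rw [hzeq]
    have := hF ⟨z, hz⟩
    rw [ofComplex_apply_of_im_pos hz]
    exact this
  have hpath : HasDerivAt (fun s : ℝ => (⟨z.re, s⟩ : ℂ)) Complex.I z.im :=
    hasDerivAt_mk_right z.re z.im
  have h1 := hU.comp_hasDerivAt z.im hpath
  have h2 := (hFc.hasFDerivAt.restrictScalars ℝ).comp_hasDerivAt z.im hpath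
  have h3 := Complex.reCLM.hasFDerivAt.comp_hasDerivAt z.im h2
  have h4 := h1.sub h3
  refine h4.congr_deriv ?_
  simp [BFun]

theorem enorm_AFun_le (u : ℍ → ℝ) (f : ℍ → ℂ) (z : ℂ) :
    ‖AFun u f z‖ₑ ≤ ‖gradC u z - f (ofComplex z)‖ₑ := by
  have hre : (gradC u z - f (ofComplex z)).re = AFun u f z := by simp [gradC, AFun]
  rw [enorm_le_iff_norm_le, ← hre, Real.norm_eq_abs]
  exact Complex.abs_re_le_norm _

theorem enorm_BFun_le (u : ℍ → ℝ) (f : ℍ → ℂ) (z : ℂ) :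
    ‖BFun u f z‖ₑ ≤ ‖gradC u z - f (ofComplex z)‖ₑ := by
  have him : (gradC u z - f (ofComplex z)).im = -BFun u f z := by
    simp [gradC, BFun]
    ring
  rw [enorm_le_iff_norm_le, ← norm_neg (BFun u f z), ← him, Real.norm_eq_abs]
  exact Complex.abs_im_le_norm _

theorem continuousOn_AFun {u : ℍ → ℝ} {f : ℍ → ℂ}
    (hu : ContDiffOn ℝ 1 (u ∘ ofComplex) upperHalfPlaneSet)
    (hf : ContinuousOn (f ∘ ofComplex) upperHalfPlaneSet) :
    ContinuousOn (AFun u f) upperHalfPlaneSet := by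
  have h1 : ContinuousOn (fderiv ℝ (u ∘ ofComplex)) upperHalfPlaneSet :=
    hu.continuousOn_fderiv_of_isOpen isOpen_upperHalfPlaneSet le_rfl
  exact (h1.clm_apply continuousOn_const).sub (Complex.continuous_re.comp_continuousOn hf)

theorem continuousOn_BFun {u : ℍ → ℝ} {f : ℍ → ℂ}
    (hu : ContDiffOn ℝ 1 (u ∘ ofComplex) upperHalfPlaneSet)
    (hf : ContinuousOn (f ∘ ofComplex) upperHalfPlaneSet) :
    ContinuousOn (BFun u f) upperHalfPlaneSet := by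
  have h1 : ContinuousOn (fderiv ℝ (u ∘ ofComplex)) upperHalfPlaneSet :=
    hu.continuousOn_fderiv_of_isOpen isOpen_upperHalfPlaneSet le_rfl
  exact (h1.clm_apply continuousOn_const).add (Complex.continuous_im.comp_continuousOn hf)

/-! ### Equivariance of `e` -/

theorem eFun_mob_sub {N : ℕ} {φ : Additive (Gamma0 N) →+ ℝ} {u : ℍ → ℝ} {F : ℍ → ℂ}
    (hu : IsPot N φ u) (hF : IsEquivariantPrimitive (Gamma0 N) F) (γ : Gamma0 N) {q : ℂ}
    (hq : q ∈ upperHalfPlaneSet) :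
    eFun u F (mob (γ : SL(2, ℤ)) q) - eFun u F q
      = φ (Additive.ofMul γ)
        - (F ((γ : SL(2, ℤ)) • UpperHalfPlane.I) - F UpperHalfPlane.I).re := by
  have h1 : eFun u F (mob (γ : SL(2, ℤ)) q)
      = u ((γ : SL(2, ℤ)) • (⟨q, hq⟩ : ℍ)) - (F ((γ : SL(2, ℤ)) • (⟨q, hq⟩ : ℍ))).re := by
    rw [mob_of_mem _ hq]
    simp only [eFun, ofComplex_apply]
  have h2 : eFun u F q = u (⟨q, hq⟩ : ℍ) - (F (⟨q, hq⟩ : ℍ)).re := by
    simp only [eFun, ofComplex_apply_of_im_pos hq]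
  have h3 := hu.map_smul γ ⟨q, hq⟩
  have h4 := hF.sub_eq_period γ ⟨q, hq⟩
  have h5 : F ((γ : SL(2, ℤ)) • (⟨q, hq⟩ : ℍ))
      = F ⟨q, hq⟩ + (F ((γ : SL(2, ℤ)) • UpperHalfPlane.I) - F UpperHalfPlane.I) := by
    rw [IsEquivariantPrimitive.period] at h4
    rw [← h4]; ring
  rw [h1, h2, h3, h5, Complex.add_re]
  ring

/-! ### Geometry: a rectangle containing a square and its translate -/

theorem exists_rect (g : SL(2, ℤ)) {S : Set ℂ} (hS : IsCompact S) (hne : S.Nonempty)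
    (hSU : S ⊆ upperHalfPlaneSet) :
    ∃ a b c d : ℝ, 0 < c ∧ S ⊆ Icc a b ×ℂ Icc c d ∧ mob g '' S ⊆ Icc a b ×ℂ Icc c d := by
  have hK : IsCompact (S ∪ mob g '' S) :=
    hS.union (hS.image_of_continuousOn ((continuousOn_mob g).mono hSU))
  have hKU : S ∪ mob g '' S ⊆ upperHalfPlaneSet := by
    rintro z (hz | ⟨q, -, rfl⟩)
    · exact hSU hz
    · exact mob_mem g q
  have hKne : (S ∪ mob g '' S).Nonempty := hne.mono subset_union_left
  obtain ⟨M, hM⟩ := hK.exists_bound_of_continuousOn (f := fun z : ℂ => z) continuousOn_id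
  obtain ⟨z₀, hz₀, hmin⟩ := hK.exists_isMinOn hKne Complex.continuous_im.continuousOn
  refine ⟨-M, M, z₀.im, M, hKU hz₀, ?_, ?_⟩
  · intro z hz
    have hzK : z ∈ S ∪ mob g '' S := Or.inl hz
    have hn := hM z hzK
    refine ⟨⟨?_, ?_⟩, ⟨hmin hzK, ?_⟩⟩
    · exact (abs_le.mp ((Complex.abs_re_le_norm z).trans hn)).1
    · exact (abs_le.mp ((Complex.abs_re_le_norm z).trans hn)).2
    · exact (le_abs_self _).trans ((Complex.abs_im_le_norm z).trans hn)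
  · intro z hz
    have hzK : z ∈ S ∪ mob g '' S := Or.inr hz
    have hn := hM z hzK
    refine ⟨⟨?_, ?_⟩, ⟨hmin hzK, ?_⟩⟩
    · exact (abs_le.mp ((Complex.abs_re_le_norm z).trans hn)).1
    · exact (abs_le.mp ((Complex.abs_re_le_norm z).trans hn)).2
    · exact (le_abs_self _).trans ((Complex.abs_im_le_norm z).trans hn)

/-! ### `L²` convergence implies `L¹` convergence on a set of finite measure -/

theorem tendsto_lintegral_of_sq {R : Set ℂ} (hRfin : volume R ≠ ⊤)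
    (D : ℕ → ℂ → ℂ) (hD : ∀ n, AEMeasurable (D n) (volume.restrict R))
    (h2 : Tendsto (fun n : ℕ => ∫⁻ z in R, ‖D n z‖ₑ ^ 2) atTop (𝓝 0)) :
    Tendsto (fun n : ℕ => ∫⁻ z in R, ‖D n z‖ₑ) atTop (𝓝 0) := by
  have hle : ∀ n, ∫⁻ z in R, ‖D n z‖ₑ
      ≤ (∫⁻ z in R, ‖D n z‖ₑ ^ 2) ^ (1 / (2 : ℝ)) * (volume R) ^ (1 / (2 : ℝ)) := by
    intro n
    have hH := ENNReal.lintegral_mul_le_Lp_mul_Lq (volume.restrict R) Real.HolderConjugate.two_two
      (f := fun z => ‖D n z‖ₑ) (g := fun _ => 1) (hD n).enorm aemeasurable_const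
    simp only [Pi.mul_apply, mul_one, lintegral_const, Measure.restrict_apply,
      MeasurableSet.univ, univ_inter, ENNReal.rpow_two, one_pow, one_mul] at hH
    exact hH
  have hlim : Tendsto (fun n : ℕ =>
      (∫⁻ z in R, ‖D n z‖ₑ ^ 2) ^ (1 / (2 : ℝ)) * (volume R) ^ (1 / (2 : ℝ))) atTop (𝓝 0) := by
    have h3 : Tendsto (fun n : ℕ => (∫⁻ z in R, ‖D n z‖ₑ ^ 2) ^ (1 / (2 : ℝ))) atTop (𝓝 0) := by
      have := ((ENNReal.continuous_rpow_const (y := 1 / (2 : ℝ))).tendsto 0).comp h2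
      simpa [Function.comp_def] using this
    have h4 := ENNReal.Tendsto.mul_const h3
      (Or.inr (ENNReal.rpow_ne_top_of_nonneg (by norm_num) hRfin) :
        (0 : ℝ≥0∞) ≠ 0 ∨ (volume R) ^ (1 / (2 : ℝ)) ≠ ⊤)
    simpa using h4
  exact tendsto_of_tendsto_of_tendsto_of_le_of_le tendsto_const_nhds hlim (fun _ => zero_le) hle

/-! ### The leaf statement PER -/

/-- Route 2, leaf PER (period continuity), in the exact shape of `helper801_HodgeSpec`. -/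
theorem stmtPER (N : ℕ) : StmtPER N := by
  intro φ u f F hu hF hL γ
  set g : SL(2, ℤ) := (γ : SL(2, ℤ)) with hg
  set cst : ℝ := φ (Additive.ofMul γ)
    - (F (g • UpperHalfPlane.I) - F UpperHalfPlane.I).re with hcst
  suffices h : cst = 0 from (sub_eq_zero.mp h).symm
  -- geometry
  let S : Set ℂ := Icc 0 1 ×ℂ Icc 1 2
  have hS : IsCompact S := isCompact_Icc.reProdIm isCompact_Icc
  have hSU : S ⊆ upperHalfPlaneSet := fun z hz => lt_of_lt_of_le one_pos hz.2.1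
  have hSne : S.Nonempty := ⟨⟨0, 1⟩, ⟨by simp, by simp⟩⟩
  obtain ⟨a, b, c, d, hc, hSR, hgSR⟩ := exists_rect g hS hSne hSU
  set R : Set ℂ := Icc a b ×ℂ Icc c d with hR
  have hRc : IsCompact R := isCompact_Icc.reProdIm isCompact_Icc
  have hRU : R ⊆ upperHalfPlaneSet := fun z hz => lt_of_lt_of_le hc hz.2.1
  obtain ⟨κ, hκ0, hκt, hκ⟩ := exists_mul_lintegral_comp_mob_le g hS hSU
  -- derivative data
  have hFd : ∀ τ : ℍ, HasDerivAt (F ∘ ofComplex) (f τ) ↑τ := hF.1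
  have hfc : ContinuousOn ((f : ℍ → ℂ) ∘ ofComplex) upperHalfPlaneSet :=
    (UpperHalfPlane.mdifferentiable_iff.mp (CuspFormClass.holo f)).continuousOn
  set C₁ : ℝ≥0∞ := ENNReal.ofReal (b - a) + κ⁻¹ * ENNReal.ofReal (d - c) with hC₁
  have hC₁top : C₁ ≠ ⊤ :=
    ENNReal.add_ne_top.mpr ⟨ENNReal.ofReal_ne_top,
      ENNReal.mul_ne_top (ENNReal.inv_ne_top.mpr hκ0) ENNReal.ofReal_ne_top⟩
  let J : ℕ → ℝ≥0∞ := fun n => ∫⁻ z in R, ‖gradC (u n) z - f (ofComplex z)‖ₑ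
  -- the main inequality, for each `n`
  have hmain : ∀ n, ‖cst‖ₑ * volume S ≤ C₁ * J n := by
    intro n
    have h := enorm_mul_volume_le_of_rect g (e := eFun (u n) F) (A := AFun (u n) f)
      (B := BFun (u n) f) (cst := cst) hS.measurableSet hSR hgSR
      (fun z hz => hasDerivAt_eFun_re (hu n).contDiffOn hFd (hRU hz))
      (fun z hz => hasDerivAt_eFun_im (hu n).contDiffOn hFd (hRU hz))
      ((continuousOn_AFun (hu n).contDiffOn hfc).mono hRU)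
      ((continuousOn_BFun (hu n).contDiffOn hfc).mono hRU)
      (fun q hq => eFun_mob_sub (hu n) hF.2.2.1 γ (hSU hq)) hκ0 hκt hκ
    have hA : ∫⁻ z in R, ‖AFun (u n) f z‖ₑ ≤ J n :=
      lintegral_mono fun z => enorm_AFun_le _ _ z
    have hB : ∫⁻ z in R, ‖BFun (u n) f z‖ₑ ≤ J n :=
      lintegral_mono fun z => enorm_BFun_le _ _ z
    calc ‖cst‖ₑ * volume S
        ≤ ENNReal.ofReal (b - a) * (∫⁻ z in R, ‖AFun (u n) f z‖ₑ)
          + κ⁻¹ * (ENNReal.ofReal (d - c) * ∫⁻ z in R, ‖BFun (u n) f z‖ₑ) := h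
      _ ≤ ENNReal.ofReal (b - a) * J n + κ⁻¹ * (ENNReal.ofReal (d - c) * J n) := by gcongr
      _ = C₁ * J n := by rw [hC₁]; ring
  -- `J n → 0`
  have hJ : Tendsto J atTop (𝓝 0) := by
    refine tendsto_lintegral_of_sq hRc.measure_lt_top.ne
      (fun n z => gradC (u n) z - f (ofComplex z)) (fun n => ?_) (hL R hRc hRU)
    exact ((((hu n).continuousOn_gradC).sub hfc).mono hRU).aemeasurable hRc.measurableSet
  have hlim : Tendsto (fun n => C₁ * J n) atTop (𝓝 0) := by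
    have := ENNReal.Tendsto.const_mul hJ (Or.inr hC₁top)
    simpa using this
  have hzero : ‖cst‖ₑ * volume S ≤ 0 := ge_of_tendsto' hlim hmain
  have hvol : volume S ≠ 0 := by
    refine (Measure.measure_pos_of_nonempty_interior volume ?_).ne'
    refine ⟨⟨1 / 2, 3 / 2⟩, ?_⟩
    simp only [S, Complex.interior_reProdIm, interior_Icc]
    refine ⟨⟨?_, ?_⟩, ⟨?_, ?_⟩⟩ <;> norm_num
  have hmul : ‖cst‖ₑ * volume S = 0 := le_antisymm hzero zero_le
  rcases mul_eq_zero.mp hmul with h0 | h0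
  · exact enorm_eq_zero.mp h0
  · exact absurd h0 hvol

end

end Fermat.Agent.S21.helper1268
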