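/-
S21 / S20 lower bound, arithmetic core (seat helper147).

Purpose: in the free-module route (generators `F_j` of weights `k_j` of `M_*(Γ)` over
`ℂ[E₄,E₆]`), the LOWER bound `#{j | k_j = 2} ≥ g + c - 1` follows from

* `#J = μ`,
* `∑ k_j ≤ 6 (μ - c)`                      (cusp step, only `≤` is needed),
* `#{k_j ≡ 0 mod 4} - #{k_j ≡ 2 mod 4} ≤ e₂` (elliptic point `i`),
* `#{k_j ≡ 0 mod 6} - #{k_j ≡ 2 mod 6} ≤ e₃` (elliptic point `ρ`),

WITHOUT knowing `k_j ≤ 10`, i.e. without the duality step.  The reason is the pointwise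
inequality `7 - k - 3 s₄(k) - 4 s₆(k) ≤ 12 [k = 2]` for even `k ≥ 0` (`certificate` below).

Together with `dim S₂ ≥ #{k_j = 2} - (c - 1)` (constant terms at the cusps, trace to level one)
this gives `dim S₂ ≥ g = 1 + μ/12 - e₂/4 - e₃/3 - c/2`, and with the abstract bound
`dim Hom_par + #orb(S) + #orb(T) + #orb(ST) ≤ μ + 2` it gives `dim Hom_par ≤ 2 dim S₂`
(`parabolic_le_two_mul` below), which is `StmtD` of the S21 wiring.
-/
import Mathlib

set_option autoImplicit false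

namespace Fermat.Agent.S21.helper147

open Finset

/-- The pointwise certificate: for an even natural number `k`,
`7 - k - 3 ([4 ∣ k] - [k ≡ 2 mod 4]) - 4 ([6 ∣ k] - [k ≡ 2 mod 6]) ≤ 12 [k = 2]`. -/
theorem certificate (k : ℕ) (hk : Even k) :
    (7 : ℤ) - k - 3 * ((if k % 4 = 0 then 1 else 0) - (if k % 4 = 2 then 1 else 0))
        - 4 * ((if k % 6 = 0 then 1 else 0) - (if k % 6 = 2 then 1 else 0))
      ≤ 12 * (if k = 2 then 1 else 0) := by
  obtain ⟨m, rfl⟩ := hk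
  have h12 : (m + m) % 12 = 0 ∨ (m + m) % 12 = 2 ∨ (m + m) % 12 = 4 ∨ (m + m) % 12 = 6 ∨
      (m + m) % 12 = 8 ∨ (m + m) % 12 = 10 := by omega
  rcases h12 with h | h | h | h | h | h <;> split_ifs <;> push_cast <;> omega

/-- **Lower bound for the number of weight-2 generators**, without any upper bound on the
weights: if a finite family of even weights `k j` has `#J = μ`, `∑ k j ≤ 6 (μ - c)`,
`#{4 ∣ k j} - #{k j ≡ 2 mod 4} ≤ e₂` and `#{6 ∣ k j} - #{k j ≡ 2 mod 6} ≤ e₃`, then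
`μ + 6 c - 3 e₂ - 4 e₃ ≤ 12 #{j | k j = 2}`. -/
theorem twelve_mul_card_weight_two_ge {J : Type*} [Fintype J] (k : J → ℕ)
    (hk : ∀ j, Even (k j)) (μ c e₂ e₃ : ℤ)
    (hμ : (Fintype.card J : ℤ) = μ)
    (hK : (∑ j, (k j : ℤ)) ≤ 6 * (μ - c))
    (h4 : ((univ.filter fun j => k j % 4 = 0).card : ℤ) - (univ.filter fun j => k j % 4 = 2).card
        ≤ e₂)
    (h6 : ((univ.filter fun j => k j % 6 = 0).card : ℤ) - (univ.filter fun j => k j % 6 = 2).card
        ≤ e₃) :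
    μ + 6 * c - 3 * e₂ - 4 * e₃ ≤ 12 * ((univ.filter fun j => k j = 2).card : ℤ) := by
  have hsum : ∑ j : J, ((7 : ℤ) - k j
        - 3 * ((if k j % 4 = 0 then 1 else 0) - (if k j % 4 = 2 then 1 else 0))
        - 4 * ((if k j % 6 = 0 then 1 else 0) - (if k j % 6 = 2 then 1 else 0)))
      ≤ ∑ j : J, (12 : ℤ) * (if k j = 2 then 1 else 0) :=
    Finset.sum_le_sum fun j _ => certificate (k j) (hk j)
  have e1 : ∀ p : J → Prop, ∀ [DecidablePred p],
      (∑ j : J, (if p j then (1 : ℤ) else 0)) = ((univ.filter p).card : ℤ) := by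
    intro p _
    rw [Finset.sum_ite, Finset.sum_const_zero, add_zero, Finset.sum_const, nsmul_eq_mul, mul_one]
  simp only [Finset.sum_sub_distrib, ← Finset.mul_sum, e1, Finset.sum_const, Finset.card_univ,
    nsmul_eq_mul] at hsum
  rw [hμ] at hsum
  nlinarith [hsum, hK, h4, h6]

/-- Variant with the elliptic data given as exact counts of residue classes (the shape produced
by an eigenbasis count at `i` and `ρ`): `2 #{4 ∣ k j} = μ + e₂`, `3 #{6 ∣ k j} = μ + 2 e₃`,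
`3 #{k j ≡ 2 mod 6} = μ - e₃`. -/
theorem twelve_mul_card_weight_two_ge' {J : Type*} [Fintype J] (k : J → ℕ)
    (hk : ∀ j, Even (k j)) (μ c e₂ e₃ : ℤ)
    (hμ : (Fintype.card J : ℤ) = μ)
    (hK : (∑ j, (k j : ℤ)) ≤ 6 * (μ - c))
    (h4 : 2 * ((univ.filter fun j => k j % 4 = 0).card : ℤ) = μ + e₂)
    (h60 : 3 * ((univ.filter fun j => k j % 6 = 0).card : ℤ) = μ + 2 * e₃)
    (h62 : 3 * ((univ.filter fun j => k j % 6 = 2).card : ℤ) = μ - e₃) :
    μ + 6 * c - 3 * e₂ - 4 * e₃ ≤ 12 * ((univ.filter fun j => k j = 2).card : ℤ) := by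
  classical
  have hsplit : ((univ.filter fun j => k j % 4 = 0).card : ℤ)
      + (univ.filter fun j => k j % 4 = 2).card = μ := by
    rw [← hμ, ← Finset.card_univ, ← Nat.cast_add, ← Finset.card_union_of_disjoint]
    · congr 2
      ext j
      simp only [mem_union, mem_filter, mem_univ, true_and, iff_true]
      obtain ⟨m, hm⟩ := hk j
      omega
    · rw [Finset.disjoint_filter]
      intro j _ h1 h2
      omega
  refine twelve_mul_card_weight_two_ge k hk μ c e₂ e₃ hμ hK ?_ ?_ <;> omega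

/-- Final arithmetic for the lower bound `g ≤ dim S₂` (multiplied by 12):
from `μ + 6 c - 3 e₂ - 4 e₃ ≤ 12 n₂` and `n₂ + 1 ≤ dim S₂ + c`. -/
theorem twelve_genus_le (μ c e₂ e₃ n₂ d : ℤ) (h1 : μ + 6 * c - 3 * e₂ - 4 * e₃ ≤ 12 * n₂)
    (h2 : n₂ + 1 ≤ d + c) : 12 + μ - 3 * e₂ - 4 * e₃ - 6 * c ≤ 12 * d := by
  linarith

/-- The same in the rational form `1 + μ/12 - e₂/4 - e₃/3 - c/2 ≤ d`. -/
theorem genus_le (μ c e₂ e₃ n₂ d : ℤ) (h1 : μ + 6 * c - 3 * e₂ - 4 * e₃ ≤ 12 * n₂)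
    (h2 : n₂ + 1 ≤ d + c) :
    (1 : ℚ) + (μ : ℚ) / 12 - (e₂ : ℚ) / 4 - (e₃ : ℚ) / 3 - (c : ℚ) / 2 ≤ (d : ℚ) := by
  have h := twelve_genus_le μ c e₂ e₃ n₂ d h1 h2
  have h' : ((12 + μ - 3 * e₂ - 4 * e₃ - 6 * c : ℤ) : ℚ) ≤ ((12 * d : ℤ) : ℚ) := by
    exact_mod_cast h
  push_cast at h'
  linarith

/-- **Arithmetic core of `StmtD` of S21** (all quantities natural numbers):
`par` = `finrank parabolicHoms`, `dS` = `finrank S₂`, `n₂` = number of weight-2 generators,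
`oS, oT, oST` = numbers of orbits of `S, T, ST` on the cosets, `μ` = index, `e₂, e₃` = numbers of
fixed cosets of `S`, `ST`.
* `hD2`: abstract cocycle count `par + (oS + oT + oST) ≤ μ + 2`;
* `hS`, `hST`: orbit counting for an involution / an element of order 3;
* `hn2`: the lower bound `twelve_mul_card_weight_two_ge` (with `c = oT`);
* `hT`: constant-term map, `n₂ + 1 ≤ dS + oT`.
Conclusion: `par ≤ 2 * dS`. -/
theorem parabolic_le_two_mul (par dS n₂ oS oT oST μ e₂ e₃ : ℕ)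
    (hD2 : par + (oS + oT + oST) ≤ μ + 2)
    (hS : 2 * oS = μ + e₂) (hST : 3 * oST = μ + 2 * e₃)
    (hn2 : μ + 6 * oT ≤ 12 * n₂ + 3 * e₂ + 4 * e₃)
    (hT : n₂ + 1 ≤ dS + oT) : par ≤ 2 * dS := by
  omega

end Fermat.Agent.S21.helper147
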