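/-
helper1527: S21 Route 2, leaf "IBP" (pure Mathlib).

For `u : ℂ → ℝ` of class `C¹` on the open upper half plane and a smooth compactly supported
`B : ℂ → ℝ` with support in the upper half plane,
  `∫ (u_x B_y - u_y B_x) = 0`.
(Integrate by parts twice and use the symmetry of the second derivative of `B`.)
-/
import Mathlib

set_option autoImplicit false

namespace Fermat.Agent.S21.helper1527

open MeasureTheory UpperHalfPlane Topology Filter

/-- A function which is continuous on an open set `U` and vanishes outside a closed set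
`K ⊆ U` is continuous. -/
theorem continuous_of_continuousOn_of_eq_zero {E F : Type*} [TopologicalSpace E]
    [TopologicalSpace F] [Zero F] {f : E → F} {U K : Set E} (hU : IsOpen U) (hK : IsClosed K)
    (hKU : K ⊆ U) (hf : ContinuousOn f U) (h0 : ∀ x, x ∉ K → f x = 0) : Continuous f := by
  rw [continuous_iff_continuousAt]
  intro x
  by_cases hx : x ∈ U
  · exact hf.continuousAt (hU.mem_nhds hx)
  · have hxK : x ∈ Kᶜ := fun h => hx (hKU h)
    have h1 : (fun _ => (0 : F)) =ᶠ[𝓝 x] f := by
      filter_upwards [hK.isOpen_compl.mem_nhds hxK] with y hy using (h0 y hy).symm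
    exact continuousAt_const.congr h1

/-- A function on `ℂ` which is continuous on an open set `U` and vanishes outside a
compact set `K ⊆ U` is integrable. -/
theorem integrable_of_continuousOn_of_eq_zero {F : Type*} [NormedAddCommGroup F] {f : ℂ → F}
    {U K : Set ℂ} (hU : IsOpen U)
    (hK : IsCompact K) (hKU : K ⊆ U) (hf : ContinuousOn f U) (h0 : ∀ x, x ∉ K → f x = 0) :
    Integrable f :=
  (continuous_of_continuousOn_of_eq_zero hU hK.isClosed hKU hf h0).integrable_of_hasCompactSupport
    (HasCompactSupport.intro hK h0)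

/-- One integration by parts: for `u` of class `C¹` on the upper half plane and `g` of class
`C¹` with compact support inside the upper half plane, `∫ u ∂_v g = - ∫ (∂_v u) g`. -/
theorem integral_mul_fderiv_eq_neg_of_C1 (u g : ℂ → ℝ) (v : ℂ)
    (hu : ContDiffOn ℝ 1 u upperHalfPlaneSet) (hg : ContDiff ℝ 1 g) (hgc : HasCompactSupport g)
    (hgs : tsupport g ⊆ upperHalfPlaneSet) :
    ∫ z : ℂ, u z * fderiv ℝ g z v = - ∫ z : ℂ, fderiv ℝ u z v * g z := by
  have hK : IsCompact (tsupport g) := hgc
  have hUo : IsOpen upperHalfPlaneSet := isOpen_upperHalfPlaneSet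
  have hdu : ContinuousOn (fun z => fderiv ℝ u z v) upperHalfPlaneSet :=
    (hu.continuousOn_fderiv_of_isOpen hUo le_rfl).clm_apply continuousOn_const
  have hdg : Continuous (fun z => fderiv ℝ g z v) :=
    (hg.continuous_fderiv one_ne_zero).clm_apply continuous_const
  have hg0 : ∀ x, x ∉ tsupport g → g x = 0 := fun x hx => image_eq_zero_of_notMem_tsupport hx
  have hdg0 : ∀ x, x ∉ tsupport g → fderiv ℝ g x v = 0 := fun x hx => by
    rw [fderiv_of_notMem_tsupport ℝ hx]; rfl
  refine integral_mul_fderiv_eq_neg_fderiv_mul_of_integrable ?_ ?_ ?_ ?_ ?_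
  · exact integrable_of_continuousOn_of_eq_zero hUo hK hgs (hdu.mul hg.continuous.continuousOn)
      fun x hx => by simp [hg0 x hx]
  · exact integrable_of_continuousOn_of_eq_zero hUo hK hgs (hu.continuousOn.mul hdg.continuousOn)
      fun x hx => by simp [hdg0 x hx]
  · exact integrable_of_continuousOn_of_eq_zero hUo hK hgs
      (hu.continuousOn.mul hg.continuous.continuousOn) fun x hx => by simp [hg0 x hx]
  · intro x hx
    exact (hu.differentiableOn one_ne_zero).differentiableAt (hUo.mem_nhds (hgs hx))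
  · intro x _
    exact (hg.differentiable one_ne_zero).differentiableAt

/-- **Integration by parts on the upper half plane**: `∫ (u_x B_y - u_y B_x) = 0` for `u` of
class `C¹` on the upper half plane and `B` smooth with compact support in the upper half
plane. -/
theorem integral_cross_fderiv_eq_zero (u B : ℂ → ℝ) (hu : ContDiffOn ℝ 1 u upperHalfPlaneSet)
    (hB : ContDiff ℝ ((⊤ : ℕ∞) : WithTop ℕ∞) B) (hBc : HasCompactSupport B)
    (hBs : tsupport B ⊆ upperHalfPlaneSet) :
    ∫ z : ℂ, (fderiv ℝ u z 1 * fderiv ℝ B z Complex.I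
      - fderiv ℝ u z Complex.I * fderiv ℝ B z 1) = 0 := by
  have hUo : IsOpen upperHalfPlaneSet := isOpen_upperHalfPlaneSet
  have hK : IsCompact (tsupport B) := hBc
  have hB1 : ContDiff ℝ 1 (fderiv ℝ B) := hB.fderiv_right (by norm_cast)
  have hg : ∀ v : ℂ, ContDiff ℝ 1 (fun z => fderiv ℝ B z v) := fun v =>
    hB1.clm_apply contDiff_const
  have hgc : ∀ v : ℂ, HasCompactSupport (fun z => fderiv ℝ B z v) := fun v =>
    hBc.fderiv_apply ℝ v
  have hgs : ∀ v : ℂ, tsupport (fun z => fderiv ℝ B z v) ⊆ upperHalfPlaneSet := fun v =>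
    (tsupport_fderiv_apply_subset ℝ v).trans hBs
  have h1 := integral_mul_fderiv_eq_neg_of_C1 u (fun z => fderiv ℝ B z Complex.I) 1 hu
    (hg _) (hgc _) (hgs _)
  have h2 := integral_mul_fderiv_eq_neg_of_C1 u (fun z => fderiv ℝ B z 1) Complex.I hu
    (hg _) (hgc _) (hgs _)
  -- symmetry of the second derivative
  have hsymm : ∀ z : ℂ, fderiv ℝ (fun w => fderiv ℝ B w Complex.I) z 1
      = fderiv ℝ (fun w => fderiv ℝ B w 1) z Complex.I := by
    intro z
    have hd : DifferentiableAt ℝ (fderiv ℝ B) z := (hB1.differentiable one_ne_zero).differentiableAt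
    have e1 : fderiv ℝ (fun w => fderiv ℝ B w Complex.I) z
        = (fderiv ℝ (fderiv ℝ B) z).flip Complex.I := by
      rw [fderiv_clm_apply hd (differentiableAt_const _)]
      simp
    have e2 : fderiv ℝ (fun w => fderiv ℝ B w 1) z = (fderiv ℝ (fderiv ℝ B) z).flip 1 := by
      rw [fderiv_clm_apply hd (differentiableAt_const _)]
      simp
    have hs : IsSymmSndFDerivAt ℝ B z :=
      (hB.contDiffAt (x := z)).isSymmSndFDerivAt (by
        rw [minSmoothness_of_isRCLikeNormedField]
        norm_cast)
    rw [e1, e2]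
    simp only [ContinuousLinearMap.flip_apply]
    exact hs 1 Complex.I
  -- integrability of the two pieces
  have hdu : ∀ v : ℂ, ContinuousOn (fun z => fderiv ℝ u z v) upperHalfPlaneSet := fun v =>
    (hu.continuousOn_fderiv_of_isOpen hUo le_rfl).clm_apply continuousOn_const
  have hz : ∀ (v : ℂ) (x : ℂ), x ∉ tsupport B → fderiv ℝ B x v = 0 := fun v x hx => by
    rw [fderiv_of_notMem_tsupport ℝ hx]; rfl
  have hi1 : Integrable (fun z : ℂ => fderiv ℝ u z 1 * fderiv ℝ B z Complex.I) :=
    integrable_of_continuousOn_of_eq_zero hUo hK hBs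
      ((hdu 1).mul (hg Complex.I).continuous.continuousOn) fun x hx => by simp [hz _ x hx]
  have hi2 : Integrable (fun z : ℂ => fderiv ℝ u z Complex.I * fderiv ℝ B z 1) :=
    integrable_of_continuousOn_of_eq_zero hUo hK hBs
      ((hdu Complex.I).mul (hg 1).continuous.continuousOn) fun x hx => by simp [hz _ x hx]
  rw [integral_sub hi1 hi2]
  have h1' : ∫ z : ℂ, fderiv ℝ u z 1 * fderiv ℝ B z Complex.I
      = - ∫ z : ℂ, u z * fderiv ℝ (fun w => fderiv ℝ B w Complex.I) z 1 := by
    rw [h1, neg_neg]
  have h2' : ∫ z : ℂ, fderiv ℝ u z Complex.I * fderiv ℝ B z 1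
      = - ∫ z : ℂ, u z * fderiv ℝ (fun w => fderiv ℝ B w 1) z Complex.I := by
    rw [h2, neg_neg]
  rw [h1', h2']
  simp only [hsymm]
  ring

end Fermat.Agent.S21.helper1527
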