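/-
helper1527: S21 Route 2.  Reduction of `helper801.AsympWeakHol` to the real Dirichlet pairing.

For a `C¹` function `u : ℍ → ℝ` and a smooth test function `ψ : ℂ → ℂ` compactly supported in
the upper half plane,
  `∫ gradC u * dbar ψ = D(u, Re ψ) + i D(u, Im ψ)`,   `D(u, B) := ∫ (u_x B_x + u_y B_y)`,
because the "cross terms" `∫ (u_x B_y - u_y B_x)` vanish by integration by parts
(`helper1527_IBP`).  Hence `AsympWeakHol (gradC (u n))` follows from `D(u n, B) → 0` for all
REAL test functions `B` (the first variation of the Dirichlet energy).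
-/
import Fermat.Agent.S21.helper801_HodgeSpec
import Fermat.Agent.S21.helper1527_IBP

set_option autoImplicit false

namespace Fermat.Agent.S21.helper1527

open MeasureTheory UpperHalfPlane Topology Filter
open Fermat.Agent.S21.helper801

noncomputable section

/-- The Dirichlet pairing `∫ (u_x B_x + u_y B_y)` (Lebesgue measure on `ℂ`) of a real function
`u` on the upper half plane with a real test function `B`. -/
def dirichletPairing (u : ℍ → ℝ) (B : ℂ → ℝ) : ℝ :=
  ∫ z : ℂ, (fderiv ℝ (u ∘ ofComplex) z 1 * fderiv ℝ B z 1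
    + fderiv ℝ (u ∘ ofComplex) z Complex.I * fderiv ℝ B z Complex.I)

theorem fderiv_ofReal_comp (B : ℂ → ℝ) (z v : ℂ) (hB : DifferentiableAt ℝ B z) :
    fderiv ℝ (fun w => ((B w : ℝ) : ℂ)) z v = ((fderiv ℝ B z v : ℝ) : ℂ) := by
  have h := (Complex.ofRealCLM.hasFDerivAt (x := B z)).comp z hB.hasFDerivAt
  have h' : HasFDerivAt (fun w => ((B w : ℝ) : ℂ)) (Complex.ofRealCLM.comp (fderiv ℝ B z)) z := h
  rw [h'.fderiv]
  rfl

/-- Integrability (and continuity) of products `∂_v u * ∂_w B`. -/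
theorem integrable_fderiv_mul_fderiv (u : ℍ → ℝ)
    (hu : ContDiffOn ℝ 1 (u ∘ ofComplex) upperHalfPlaneSet) (B : ℂ → ℝ)
    (hB : ContDiff ℝ ((⊤ : ℕ∞) : WithTop ℕ∞) B) (hBc : HasCompactSupport B)
    (hBs : tsupport B ⊆ upperHalfPlaneSet) (v w : ℂ) :
    Integrable (fun z : ℂ => fderiv ℝ (u ∘ ofComplex) z v * fderiv ℝ B z w) := by
  have hUo : IsOpen upperHalfPlaneSet := isOpen_upperHalfPlaneSet
  have hK : IsCompact (tsupport B) := hBc
  have hdu : ContinuousOn (fun z => fderiv ℝ (u ∘ ofComplex) z v) upperHalfPlaneSet :=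
    (hu.continuousOn_fderiv_of_isOpen hUo le_rfl).clm_apply continuousOn_const
  have hdB : Continuous (fun z => fderiv ℝ B z w) :=
    ((hB.continuous_fderiv (by simp)).clm_apply continuous_const)
  refine integrable_of_continuousOn_of_eq_zero hUo hK hBs (hdu.mul hdB.continuousOn) ?_
  intro x hx
  have : fderiv ℝ B x w = 0 := by rw [fderiv_of_notMem_tsupport ℝ hx]; rfl
  simp [this]

/-- For a REAL test function `B`: `∫ gradC u * dbar B = D(u, B)` (a real number). -/
theorem integral_gradC_mul_dbar_ofReal (u : ℍ → ℝ)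
    (hu : ContDiffOn ℝ 1 (u ∘ ofComplex) upperHalfPlaneSet) (B : ℂ → ℝ)
    (hB : ContDiff ℝ ((⊤ : ℕ∞) : WithTop ℕ∞) B) (hBc : HasCompactSupport B)
    (hBs : tsupport B ⊆ upperHalfPlaneSet) :
    ∫ z : ℂ, gradC u z * dbar (fun w => ((B w : ℝ) : ℂ)) z = ((dirichletPairing u B : ℝ) : ℂ) := by
  have hBd : ∀ z, DifferentiableAt ℝ B z := fun z =>
    (hB.differentiable (by simp)).differentiableAt
  have hI := integrable_fderiv_mul_fderiv u hu B hB hBc hBs
  -- pointwise identity
  have hpt : ∀ z : ℂ, gradC u z * dbar (fun w => ((B w : ℝ) : ℂ)) z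
      = (((fderiv ℝ (u ∘ ofComplex) z 1 * fderiv ℝ B z 1
          + fderiv ℝ (u ∘ ofComplex) z Complex.I * fderiv ℝ B z Complex.I : ℝ)) : ℂ)
        + Complex.I * (((fderiv ℝ (u ∘ ofComplex) z 1 * fderiv ℝ B z Complex.I
          - fderiv ℝ (u ∘ ofComplex) z Complex.I * fderiv ℝ B z 1 : ℝ)) : ℂ) := by
    intro z
    unfold gradC dbar
    rw [fderiv_ofReal_comp B z 1 (hBd z), fderiv_ofReal_comp B z Complex.I (hBd z)]
    apply Complex.ext <;> simp <;> ring
  have hD : Integrable (fun z : ℂ => fderiv ℝ (u ∘ ofComplex) z 1 * fderiv ℝ B z 1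
      + fderiv ℝ (u ∘ ofComplex) z Complex.I * fderiv ℝ B z Complex.I) :=
    (hI 1 1).add (hI Complex.I Complex.I)
  have hC : Integrable (fun z : ℂ => fderiv ℝ (u ∘ ofComplex) z 1 * fderiv ℝ B z Complex.I
      - fderiv ℝ (u ∘ ofComplex) z Complex.I * fderiv ℝ B z 1) :=
    (hI 1 Complex.I).sub (hI Complex.I 1)
  have hDc : Integrable (fun z : ℂ => (((fderiv ℝ (u ∘ ofComplex) z 1 * fderiv ℝ B z 1
      + fderiv ℝ (u ∘ ofComplex) z Complex.I * fderiv ℝ B z Complex.I : ℝ)) : ℂ)) := hD.ofReal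
  have hCc : Integrable (fun z : ℂ => Complex.I
      * (((fderiv ℝ (u ∘ ofComplex) z 1 * fderiv ℝ B z Complex.I
        - fderiv ℝ (u ∘ ofComplex) z Complex.I * fderiv ℝ B z 1 : ℝ)) : ℂ)) :=
    hC.ofReal.const_mul Complex.I
  simp_rw [hpt]
  rw [integral_add hDc hCc, integral_const_mul, integral_complex_ofReal,
    integral_complex_ofReal, integral_cross_fderiv_eq_zero (u ∘ ofComplex) B hu hB hBc hBs]
  simp [dirichletPairing]

/-- For a complex test function `ψ`: `∫ gradC u * dbar ψ = D(u, Re ψ) + i D(u, Im ψ)`. -/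
theorem integral_gradC_mul_dbar (u : ℍ → ℝ)
    (hu : ContDiffOn ℝ 1 (u ∘ ofComplex) upperHalfPlaneSet) (ψ : ℂ → ℂ)
    (hψ : ContDiff ℝ ((⊤ : ℕ∞) : WithTop ℕ∞) ψ) (hψc : HasCompactSupport ψ)
    (hψs : tsupport ψ ⊆ upperHalfPlaneSet) :
    ∫ z : ℂ, gradC u z * dbar ψ z
      = ((dirichletPairing u (fun w => (ψ w).re) : ℝ) : ℂ)
        + Complex.I * ((dirichletPairing u (fun w => (ψ w).im) : ℝ) : ℂ) := by
  have hUo : IsOpen upperHalfPlaneSet := isOpen_upperHalfPlaneSet
  have hK : IsCompact (tsupport ψ) := hψc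
  -- real and imaginary parts are real test functions
  have h1 : ContDiff ℝ ((⊤ : ℕ∞) : WithTop ℕ∞) (fun w => (ψ w).re) :=
    Complex.reCLM.contDiff.comp hψ
  have h2 : ContDiff ℝ ((⊤ : ℕ∞) : WithTop ℕ∞) (fun w => (ψ w).im) :=
    Complex.imCLM.contDiff.comp hψ
  have hs1 : tsupport (fun w => (ψ w).re) ⊆ tsupport ψ :=
    tsupport_comp_subset (g := Complex.re) Complex.zero_re ψ
  have hs2 : tsupport (fun w => (ψ w).im) ⊆ tsupport ψ :=
    tsupport_comp_subset (g := Complex.im) Complex.zero_im ψ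
  have hc1 : HasCompactSupport (fun w => (ψ w).re) :=
    hψc.of_isClosed_subset (isClosed_tsupport _) hs1
  have hc2 : HasCompactSupport (fun w => (ψ w).im) :=
    hψc.of_isClosed_subset (isClosed_tsupport _) hs2
  have hd1 : ∀ z, DifferentiableAt ℝ (fun w => (ψ w).re) z := fun z =>
    (h1.differentiable (by simp)).differentiableAt
  have hd2 : ∀ z, DifferentiableAt ℝ (fun w => (ψ w).im) z := fun z =>
    (h2.differentiable (by simp)).differentiableAt
  have hdψ : ∀ z, DifferentiableAt ℝ ψ z := fun z =>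
    (hψ.differentiable (by simp)).differentiableAt
  -- decomposition of `dbar ψ`
  have hre : ∀ z v : ℂ, fderiv ℝ (fun w => (ψ w).re) z v = (fderiv ℝ ψ z v).re := by
    intro z v
    have h := (Complex.reCLM.hasFDerivAt (x := ψ z)).comp z (hdψ z).hasFDerivAt
    have h' : HasFDerivAt (fun w => (ψ w).re) (Complex.reCLM.comp (fderiv ℝ ψ z)) z := h
    rw [h'.fderiv]; rfl
  have him : ∀ z v : ℂ, fderiv ℝ (fun w => (ψ w).im) z v = (fderiv ℝ ψ z v).im := by
    intro z v
    have h := (Complex.imCLM.hasFDerivAt (x := ψ z)).comp z (hdψ z).hasFDerivAt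
    have h' : HasFDerivAt (fun w => (ψ w).im) (Complex.imCLM.comp (fderiv ℝ ψ z)) z := h
    rw [h'.fderiv]; rfl
  have hdec : ∀ z : ℂ, dbar ψ z = dbar (fun w => (((ψ w).re : ℝ) : ℂ)) z
      + Complex.I * dbar (fun w => (((ψ w).im : ℝ) : ℂ)) z := by
    intro z
    unfold dbar
    rw [fderiv_ofReal_comp _ z 1 (hd1 z), fderiv_ofReal_comp _ z Complex.I (hd1 z),
      fderiv_ofReal_comp _ z 1 (hd2 z), fderiv_ofReal_comp _ z Complex.I (hd2 z),
      hre, hre, him, him]
    apply Complex.ext <;> simp <;> ring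
  -- integrability of the two pieces
  have hgc : ContinuousOn (gradC u) upperHalfPlaneSet := by
    have h1 : ContinuousOn (fderiv ℝ (u ∘ ofComplex)) upperHalfPlaneSet :=
      hu.continuousOn_fderiv_of_isOpen hUo le_rfl
    have h2 : ∀ v : ℂ, ContinuousOn (fun z => (fderiv ℝ (u ∘ ofComplex) z) v) upperHalfPlaneSet :=
      fun v => h1.clm_apply continuousOn_const
    unfold gradC
    exact (Complex.continuous_ofReal.comp_continuousOn (h2 1)).sub
      (continuousOn_const.mul (Complex.continuous_ofReal.comp_continuousOn (h2 Complex.I)))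
  have hint : ∀ B : ℂ → ℝ, ContDiff ℝ ((⊤ : ℕ∞) : WithTop ℕ∞) B → tsupport B ⊆ tsupport ψ →
      Integrable (fun z : ℂ => gradC u z * dbar (fun w => ((B w : ℝ) : ℂ)) z) := by
    intro B hB hBs
    have hBd : ∀ z, DifferentiableAt ℝ B z := fun z =>
      (hB.differentiable (by simp)).differentiableAt
    have hdB : ∀ w : ℂ, Continuous (fun z => ((fderiv ℝ B z w : ℝ) : ℂ)) := fun w =>
      Complex.continuous_ofReal.comp ((hB.continuous_fderiv (by simp)).clm_apply continuous_const)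
    have hcont : Continuous (dbar (fun w => ((B w : ℝ) : ℂ))) := by
      have : dbar (fun w => ((B w : ℝ) : ℂ)) = fun z => ((fderiv ℝ B z 1 : ℝ) : ℂ)
          + Complex.I * ((fderiv ℝ B z Complex.I : ℝ) : ℂ) := by
        funext z
        unfold dbar
        rw [fderiv_ofReal_comp B z 1 (hBd z), fderiv_ofReal_comp B z Complex.I (hBd z)]
      rw [this]
      exact (hdB 1).add (continuous_const.mul (hdB Complex.I))
    refine integrable_of_continuousOn_of_eq_zero hUo hK hψs (hgc.mul hcont.continuousOn) ?_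
    intro x hx
    have hx' : x ∉ tsupport B := fun h => hx (hBs h)
    have h0 : ∀ w : ℂ, fderiv ℝ B x w = 0 := fun w => by
      rw [fderiv_of_notMem_tsupport ℝ hx']; rfl
    unfold dbar
    rw [fderiv_ofReal_comp B x 1 (hBd x), fderiv_ofReal_comp B x Complex.I (hBd x), h0, h0]
    simp
  have e : ∀ z : ℂ, gradC u z * dbar ψ z
      = gradC u z * dbar (fun w => (((ψ w).re : ℝ) : ℂ)) z
        + Complex.I * (gradC u z * dbar (fun w => (((ψ w).im : ℝ) : ℂ)) z) := by
    intro z; rw [hdec z]; ring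
  simp_rw [e]
  rw [integral_add (hint _ h1 hs1) ((hint _ h2 hs2).const_mul Complex.I), integral_const_mul,
    integral_gradC_mul_dbar_ofReal u hu _ h1 hc1 (hs1.trans hψs),
    integral_gradC_mul_dbar_ofReal u hu _ h2 hc2 (hs2.trans hψs)]

/-- **Reduction of asymptotic weak holomorphy to the first variation.**  If the Dirichlet
pairings `D(u n, B) = ∫ ((u n)_x B_x + (u n)_y B_y)` tend to `0` for every real test function `B`
compactly supported in the upper half plane, then `gradC (u n)` is asymptotically weakly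
holomorphic. -/
theorem asympWeakHol_of_dirichletPairing (u : ℕ → ℍ → ℝ)
    (hu : ∀ n, ContDiffOn ℝ 1 (u n ∘ ofComplex) upperHalfPlaneSet)
    (h : ∀ B : ℂ → ℝ, ContDiff ℝ ((⊤ : ℕ∞) : WithTop ℕ∞) B → HasCompactSupport B →
      tsupport B ⊆ upperHalfPlaneSet →
      Tendsto (fun n => dirichletPairing (u n) B) atTop (𝓝 0)) :
    AsympWeakHol (fun n => gradC (u n)) := by
  intro ψ hψ hψc hψs
  have h1 : ContDiff ℝ ((⊤ : ℕ∞) : WithTop ℕ∞) (fun w => (ψ w).re) :=
    Complex.reCLM.contDiff.comp hψ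
  have h2 : ContDiff ℝ ((⊤ : ℕ∞) : WithTop ℕ∞) (fun w => (ψ w).im) :=
    Complex.imCLM.contDiff.comp hψ
  have hs1 : tsupport (fun w => (ψ w).re) ⊆ tsupport ψ :=
    tsupport_comp_subset (g := Complex.re) Complex.zero_re ψ
  have hs2 : tsupport (fun w => (ψ w).im) ⊆ tsupport ψ :=
    tsupport_comp_subset (g := Complex.im) Complex.zero_im ψ
  have hc1 : HasCompactSupport (fun w => (ψ w).re) :=
    hψc.of_isClosed_subset (isClosed_tsupport _) hs1
  have hc2 : HasCompactSupport (fun w => (ψ w).im) :=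
    hψc.of_isClosed_subset (isClosed_tsupport _) hs2
  have t1 := h _ h1 hc1 (hs1.trans hψs)
  have t2 := h _ h2 hc2 (hs2.trans hψs)
  have t : Tendsto (fun n => ((dirichletPairing (u n) (fun w => (ψ w).re) : ℝ) : ℂ)
      + Complex.I * ((dirichletPairing (u n) (fun w => (ψ w).im) : ℝ) : ℂ)) atTop (𝓝 0) := by
    have c1 := (Complex.continuous_ofReal.tendsto 0).comp t1
    have c2 := (Complex.continuous_ofReal.tendsto 0).comp t2
    have := c1.add (c2.const_mul Complex.I)
    simpa using this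
  refine t.congr fun n => ?_
  exact (integral_gradC_mul_dbar (u n) (hu n) ψ hψ hψc hψs).symm

end

end Fermat.Agent.S21.helper1527
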