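import Mathlib

/-!
# Unfolding for a countable group acting by measure preserving maps (helper1765)

Abstract layer (any countable group `Γ` acting measurably on `X`, preserving `μ`), given a
measurable weight `w : X → ℝ≥0∞` with `∑' γ, w (γ • x) = 1`:

* `lintegral_unfold`   : `∫⁻ g = ∫⁻ w * ∑' γ, g ∘ γ`
* `setLIntegral_eq_lintegral_weight_mul_encard` : for `Γ`-invariant `G`,
  `∫⁻ x in S, G x = ∫⁻ x, w x * G x * #{γ | γ • x ∈ S}`
* `lintegral_weight_le_setLIntegral`, `setLIntegral_le_mul_lintegral_weight`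
* `integral_unfold`, `integral_eq_tsum_integral_weight_smul` (Bochner versions).
* `exists_weight_of_properlyDiscontinuous`, `exists_encard_le_of_isCompact`.

Modular layer (`Γ : Subgroup SL(2, ℤ)` acting on `ℍ` with the hyperbolic `volume`; every statement
is instance-free for the consumer):

* `exists_weight` (W1), `lintegral_unfold_modular` (W2), `integral_unfold_modular` (W3),
  `setLIntegral_eq_modular`, `lintegral_weight_le_modular` (W4a), `setLIntegral_le_modular` (W4b),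
  `exists_encard_le_modular` (M1), `exists_encard_strip_le` (M2), `finite_smul_mem` (A1),
  `exists_setLIntegral_compact_le`, `exists_setLIntegral_strip_le`, `setLIntegral_comp_smul_le`
  (composites).

Bridge between the hyperbolic measure on `ℍ` and Lebesgue measure on `ℂ`:

* `lintegral_hyp_eq`, `setLIntegral_hyp_eq`, `integral_hyp_eq`, `setIntegral_hyp_eq`.
-/

set_option autoImplicit false

namespace Fermat.Agent.S21.helper1765

open MeasureTheory Set Function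
open scoped ENNReal

section Abstract

variable {Γ : Type*} [Group Γ] [Countable Γ] {X : Type*} [MeasurableSpace X] [MulAction Γ X]
  [MeasurableConstSMul Γ X] {μ : Measure X} [SMulInvariantMeasure Γ X μ]

/-- Unfolding (Tonelli): if `∑' γ, w (γ • x) = 1` then `∫⁻ g = ∫⁻ w * ∑' γ, g ∘ γ`. -/
theorem lintegral_unfold {w : X → ℝ≥0∞} (hw : Measurable w)
    (hsum : ∀ x, ∑' γ : Γ, w (γ • x) = 1) {g : X → ℝ≥0∞} (hg : AEMeasurable g μ) :
    ∫⁻ x, g x ∂μ = ∫⁻ x, w x * ∑' γ : Γ, g (γ • x) ∂μ := by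
  calc ∫⁻ x, g x ∂μ = ∫⁻ x, ∑' γ : Γ, w (γ • x) * g x ∂μ := by
        congr 1; ext x; rw [ENNReal.tsum_mul_right, hsum, one_mul]
    _ = ∑' γ : Γ, ∫⁻ x, w (γ • x) * g x ∂μ := by
        rw [lintegral_tsum]
        intro γ
        exact ((hw.comp (measurable_const_smul γ)).aemeasurable.mul hg)
    _ = ∑' γ : Γ, ∫⁻ x, w x * g (γ⁻¹ • x) ∂μ := by
        congr 1; ext γ
        have h := (measurePreserving_smul γ⁻¹ μ).lintegral_comp_emb
          (measurableEmbedding_const_smul γ⁻¹) (fun x => w (γ • x) * g x)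
        simp only [smul_inv_smul] at h
        exact h.symm
    _ = ∑' γ : Γ, ∫⁻ x, w x * g (γ • x) ∂μ :=
        (Equiv.inv Γ).tsum_eq (fun γ => ∫⁻ x, w x * g (γ • x) ∂μ)
    _ = ∫⁻ x, w x * ∑' γ : Γ, g (γ • x) ∂μ := by
        rw [← lintegral_tsum]
        · congr 1; ext x; rw [ENNReal.tsum_mul_left]
        · intro γ
          exact hw.aemeasurable.mul (hg.comp_quasiMeasurePreserving
            (measurePreserving_smul γ μ).quasiMeasurePreserving)

omit [Countable Γ] [MeasurableSpace X] [MeasurableConstSMul Γ X] in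
/-- Each value of a weight is finite. -/
theorem weight_ne_top {w : X → ℝ≥0∞} (hsum : ∀ x, ∑' γ : Γ, w (γ • x) = 1) (x : X) :
    w x ≠ ⊤ := by
  have h1 : w ((1 : Γ) • x) ≤ ∑' γ : Γ, w (γ • x) := ENNReal.le_tsum 1
  rw [hsum, one_smul] at h1
  exact ne_top_of_le_ne_top ENNReal.one_ne_top h1

omit [Countable Γ] [MeasurableSpace X] [MeasurableConstSMul Γ X] in
/-- Each value of a weight is at most one. -/
theorem weight_le_one {w : X → ℝ≥0∞} (hsum : ∀ x, ∑' γ : Γ, w (γ • x) = 1) (x : X) :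
    w x ≤ 1 := by
  have h1 : w ((1 : Γ) • x) ≤ ∑' γ : Γ, w (γ • x) := ENNReal.le_tsum 1
  rwa [hsum, one_smul] at h1

/-- Unfolding for Bochner integrals, series form: for integrable `f`,
`∫ f = ∑' γ, ∫ w • (f ∘ γ)`. -/
theorem integral_eq_tsum_integral_weight_smul {E : Type*} [NormedAddCommGroup E]
    [NormedSpace ℝ E] {w : X → ℝ≥0∞} (hw : Measurable w)
    (hsum : ∀ x, ∑' γ : Γ, w (γ • x) = 1) {f : X → E} (hf : Integrable f μ) :
    ∫ x, f x ∂μ = ∑' γ : Γ, ∫ x, (w x).toReal • f (γ • x) ∂μ := by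
  have hwtop := weight_ne_top (Γ := Γ) hsum
  have hen : ∀ (a b : X), ‖(w a).toReal • f b‖ₑ = w a * ‖f b‖ₑ := by
    intro a b
    rw [enorm_smul, Real.enorm_eq_ofReal ENNReal.toReal_nonneg, ENNReal.ofReal_toReal (hwtop a)]
  have hfin : ∑' γ : Γ, ∫⁻ x, ‖(w (γ • x)).toReal • f x‖ₑ ∂μ ≠ ⊤ := by
    simp only [hen]
    rw [← lintegral_tsum]
    · have : ∀ x, ∑' γ : Γ, w (γ • x) * ‖f x‖ₑ = ‖f x‖ₑ := by
        intro x; rw [ENNReal.tsum_mul_right, hsum, one_mul]
      simp only [this]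
      exact hf.2.ne
    · intro γ
      exact (hw.comp (measurable_const_smul γ)).aemeasurable.mul hf.1.enorm
  calc ∫ x, f x ∂μ = ∫ x, ∑' γ : Γ, (w (γ • x)).toReal • f x ∂μ := by
        congr 1; ext x
        have hs : Summable fun γ : Γ => (w (γ • x)).toReal :=
          ENNReal.summable_toReal (by rw [hsum]; exact ENNReal.one_ne_top)
        rw [hs.tsum_smul_const, ← ENNReal.tsum_toReal_eq (fun γ => hwtop (γ • x)), hsum]
        simp
    _ = ∑' γ : Γ, ∫ x, (w (γ • x)).toReal • f x ∂μ := by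
        rw [integral_tsum _ hfin]
        intro γ
        exact ((hw.comp (measurable_const_smul γ)).ennreal_toReal.aestronglyMeasurable).smul hf.1
    _ = ∑' γ : Γ, ∫ x, (w x).toReal • f (γ⁻¹ • x) ∂μ := by
        congr 1; ext γ
        have h := (measurePreserving_smul γ⁻¹ μ).integral_comp
          (measurableEmbedding_const_smul γ⁻¹) (fun x => (w (γ • x)).toReal • f x)
        simp only [smul_inv_smul] at h
        exact h.symm
    _ = ∑' γ : Γ, ∫ x, (w x).toReal • f (γ • x) ∂μ :=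
        (Equiv.inv Γ).tsum_eq (fun γ => ∫ x, (w x).toReal • f (γ • x) ∂μ)

/-- Unfolding for Bochner integrals: for integrable `f`,
`∫ f = ∫ w • ∑' γ, f ∘ γ`. -/
theorem integral_unfold {E : Type*} [NormedAddCommGroup E]
    [NormedSpace ℝ E] {w : X → ℝ≥0∞} (hw : Measurable w)
    (hsum : ∀ x, ∑' γ : Γ, w (γ • x) = 1) {f : X → E} (hf : Integrable f μ) :
    ∫ x, f x ∂μ = ∫ x, (w x).toReal • ∑' γ : Γ, f (γ • x) ∂μ := by
  have hwtop := weight_ne_top (Γ := Γ) hsum
  have hen : ∀ (a b : X), ‖(w a).toReal • f b‖ₑ = w a * ‖f b‖ₑ := by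
    intro a b
    rw [enorm_smul, Real.enorm_eq_ofReal ENNReal.toReal_nonneg, ENNReal.ofReal_toReal (hwtop a)]
  have hfin : ∑' γ : Γ, ∫⁻ x, ‖(w x).toReal • f (γ • x)‖ₑ ∂μ ≠ ⊤ := by
    simp only [hen]
    rw [← lintegral_tsum]
    · simp only [ENNReal.tsum_mul_left]
      rw [← lintegral_unfold (Γ := Γ) hw hsum hf.1.enorm]
      exact hf.2.ne
    · intro γ
      exact hw.aemeasurable.mul ((hf.1.enorm).comp_quasiMeasurePreserving
        (measurePreserving_smul γ μ).quasiMeasurePreserving)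
  rw [integral_eq_tsum_integral_weight_smul (Γ := Γ) hw hsum hf, ← integral_tsum _ hfin]
  · congr 1; ext x
    rw [tsum_const_smul'']
  · intro γ
    exact (hw.ennreal_toReal.aestronglyMeasurable).smul
      (hf.1.comp_measurePreserving (measurePreserving_smul γ μ))

omit [Countable Γ] [MeasurableSpace X] [MeasurableConstSMul Γ X] in
/-- The number of group elements moving `x` into `S`, as a sum of indicators. -/
theorem tsum_indicator_smul_eq_encard (S : Set X) (x : X) :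
    ∑' γ : Γ, S.indicator (fun _ => (1 : ℝ≥0∞)) (γ • x)
      = (({γ : Γ | γ • x ∈ S}.encard : ℕ∞) : ℝ≥0∞) := by
  rw [← ENNReal.tsum_set_one, tsum_subtype {γ : Γ | γ • x ∈ S} (fun _ => (1 : ℝ≥0∞))]
  rfl

/-- For `Γ`-invariant `G`: `∫⁻ x in S, G x = ∫⁻ x, w x * G x * #{γ | γ • x ∈ S}`. -/
theorem setLIntegral_eq_lintegral_weight_mul_encard {w : X → ℝ≥0∞} (hw : Measurable w)
    (hsum : ∀ x, ∑' γ : Γ, w (γ • x) = 1) {G : X → ℝ≥0∞} (hG : AEMeasurable G μ)
    (hinv : ∀ (γ : Γ) (x : X), G (γ • x) = G x) {S : Set X} (hS : MeasurableSet S) :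
    ∫⁻ x in S, G x ∂μ
      = ∫⁻ x, w x * G x * (({γ : Γ | γ • x ∈ S}.encard : ℕ∞) : ℝ≥0∞) ∂μ := by
  rw [← lintegral_indicator hS, lintegral_unfold (Γ := Γ) hw hsum (hG.indicator hS)]
  congr 1; ext x
  rw [mul_assoc, ← tsum_indicator_smul_eq_encard]
  have hpt : ∀ γ : Γ, S.indicator G (γ • x)
      = G x * S.indicator (fun _ => (1 : ℝ≥0∞)) (γ • x) := by
    intro γ
    by_cases h : γ • x ∈ S <;> simp [h, hinv]
  simp only [hpt]
  rw [ENNReal.tsum_mul_left]

/-- If `B` meets the orbit of every point where `G ≠ 0`, the weighted integral of an invariant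
`G` is at most its integral over `B`. -/
theorem lintegral_weight_le_setLIntegral {w : X → ℝ≥0∞} (hw : Measurable w)
    (hsum : ∀ x, ∑' γ : Γ, w (γ • x) = 1) {G : X → ℝ≥0∞} (hG : AEMeasurable G μ)
    (hinv : ∀ (γ : Γ) (x : X), G (γ • x) = G x) {B : Set X} (hB : MeasurableSet B)
    (hmeet : ∀ x, G x ≠ 0 → ∃ γ : Γ, γ • x ∈ B) :
    ∫⁻ x, w x * G x ∂μ ≤ ∫⁻ x in B, G x ∂μ := by
  rw [setLIntegral_eq_lintegral_weight_mul_encard (Γ := Γ) hw hsum hG hinv hB]
  apply lintegral_mono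
  intro x
  by_cases hx : G x = 0
  · simp [hx]
  · obtain ⟨γ, hγ⟩ := hmeet x hx
    have h1 : (1 : ℝ≥0∞) ≤ (({γ : Γ | γ • x ∈ B}.encard : ℕ∞) : ℝ≥0∞) := by
      have : (1 : ℕ∞) ≤ {γ : Γ | γ • x ∈ B}.encard :=
        Set.one_le_encard_iff_nonempty.mpr ⟨γ, hγ⟩
      exact_mod_cast this
    calc w x * G x = w x * G x * 1 := (mul_one _).symm
      _ ≤ w x * G x * (({γ : Γ | γ • x ∈ B}.encard : ℕ∞) : ℝ≥0∞) := by gcongr

/-- If every orbit meets `S` at most `M` times (counted in the group), the integral over `S`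
of an invariant `G` is at most `M` times its weighted integral. -/
theorem setLIntegral_le_mul_lintegral_weight {w : X → ℝ≥0∞} (hw : Measurable w)
    (hsum : ∀ x, ∑' γ : Γ, w (γ • x) = 1) {G : X → ℝ≥0∞} (hG : AEMeasurable G μ)
    (hinv : ∀ (γ : Γ) (x : X), G (γ • x) = G x) {S : Set X} (hS : MeasurableSet S) (M : ℕ)
    (hM : ∀ x, {γ : Γ | γ • x ∈ S}.encard ≤ M) :
    ∫⁻ x in S, G x ∂μ ≤ M * ∫⁻ x, w x * G x ∂μ := by
  rw [setLIntegral_eq_lintegral_weight_mul_encard (Γ := Γ) hw hsum hG hinv hS,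
    ← lintegral_const_mul'' (M : ℝ≥0∞) (f := fun x => w x * G x) (hw.aemeasurable.mul hG)]
  apply lintegral_mono
  intro x
  have h1 : (({γ : Γ | γ • x ∈ S}.encard : ℕ∞) : ℝ≥0∞) ≤ (M : ℝ≥0∞) := by
    exact_mod_cast hM x
  calc w x * G x * (({γ : Γ | γ • x ∈ S}.encard : ℕ∞) : ℝ≥0∞) ≤ w x * G x * (M : ℝ≥0∞) := by
        gcongr
    _ = (M : ℝ≥0∞) * (w x * G x) := mul_comm _ _

/-- A measurable set meeting every orbit in a finite nonempty set of group elements gives a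
measurable weight with `∑' γ, w (γ • x) = 1`. -/
theorem exists_weight_of_set {S : Set X} (hS : MeasurableSet S)
    (hfin : ∀ x, {γ : Γ | γ • x ∈ S}.Finite) (hne : ∀ x, ∃ γ : Γ, γ • x ∈ S) :
    ∃ w : X → ℝ≥0∞, Measurable w ∧ ∀ x, ∑' γ : Γ, w (γ • x) = 1 := by
  let n : X → ℝ≥0∞ := fun x => ∑' γ : Γ, S.indicator (fun _ => (1 : ℝ≥0∞)) (γ • x)
  have hn_meas : Measurable n :=
    Measurable.tsum fun γ =>
      (measurable_const.indicator hS).comp (measurable_const_smul γ)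
  have hn_inv : ∀ (δ : Γ) (x : X), n (δ • x) = n x := by
    intro δ x
    simp only [n, smul_smul]
    exact (Equiv.mulRight δ).tsum_eq (fun γ => S.indicator (fun _ => (1 : ℝ≥0∞)) (γ • x))
  have hn_ne_zero : ∀ x, n x ≠ 0 := by
    intro x
    obtain ⟨γ, hγ⟩ := hne x
    simp only [n, tsum_indicator_smul_eq_encard]
    have : {γ : Γ | γ • x ∈ S}.encard ≠ 0 := Set.encard_ne_zero.mpr ⟨γ, hγ⟩
    exact_mod_cast this
  have hn_ne_top : ∀ x, n x ≠ ⊤ := by
    intro x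
    simp only [n, tsum_indicator_smul_eq_encard]
    have : {γ : Γ | γ • x ∈ S}.encard ≠ ⊤ := Set.encard_ne_top_iff.mpr (hfin x)
    exact_mod_cast this
  refine ⟨fun x => S.indicator (fun _ => (1 : ℝ≥0∞)) x * (n x)⁻¹, ?_, ?_⟩
  · exact (measurable_const.indicator hS).mul hn_meas.inv
  · intro x
    simp only [hn_inv]
    rw [ENNReal.tsum_mul_right]
    exact ENNReal.mul_inv_cancel (hn_ne_zero x) (hn_ne_top x)

end Abstract

section Topological

variable {Γ : Type*} [Group Γ] [Countable Γ] {X : Type*} [TopologicalSpace X] [T2Space X]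
  [SigmaCompactSpace X] [MeasurableSpace X] [BorelSpace X] [MulAction Γ X]
  [ContinuousConstSMul Γ X] [ProperlyDiscontinuousSMul Γ X]

/-- A countable group acting properly discontinuously on a σ-compact Hausdorff space admits a
measurable weight `w ≥ 0` with `∑' γ, w (γ • x) = 1` everywhere. -/
theorem exists_weight_of_properlyDiscontinuous :
    ∃ w : X → ℝ≥0∞, Measurable w ∧ ∀ x, ∑' γ : Γ, w (γ • x) = 1 := by
  classical
  let K : ℕ → Set X := compactCovering X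
  have hKc : ∀ j, IsCompact (K j) := isCompact_compactCovering X
  let A : ℕ → Set X := fun i => ⋃ γ : Γ, (fun x => γ • x) ⁻¹' K i
  have hA_meas : ∀ i, MeasurableSet (A i) := fun i =>
    MeasurableSet.iUnion fun γ => (measurable_const_smul γ) (hKc i).measurableSet
  have hA_inv : ∀ (i : ℕ) (δ : Γ) (x : X), δ • x ∈ A i ↔ x ∈ A i := by
    intro i δ x
    simp only [A, mem_iUnion, mem_preimage, smul_smul]
    constructor
    · rintro ⟨γ, h⟩; exact ⟨γ * δ, h⟩
    · rintro ⟨γ, h⟩; exact ⟨γ * δ⁻¹, by simpa [mul_assoc] using h⟩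
  let S : Set X := ⋃ j, (K j ∩ ⋂ i ∈ Finset.range j, (A i)ᶜ)
  have hS_meas : MeasurableSet S :=
    MeasurableSet.iUnion fun j => (hKc j).measurableSet.inter
      (MeasurableSet.biInter (Finset.range j).countable_toSet fun i _ => (hA_meas i).compl)
  have hex : ∀ x, ∃ j, x ∈ A j := by
    intro x
    have : x ∈ ⋃ n, compactCovering X n := by rw [iUnion_compactCovering]; trivial
    obtain ⟨j, hj⟩ := mem_iUnion.mp this
    exact ⟨j, mem_iUnion.mpr ⟨1, by simpa using hj⟩⟩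
  have key : ∀ (x : X) (γ : Γ), γ • x ∈ S ↔ γ • x ∈ K (Nat.find (hex x)) := by
    intro x γ
    constructor
    · intro h
      obtain ⟨j, hj, hj'⟩ := mem_iUnion.mp h
      have hxj : x ∈ A j := mem_iUnion.mpr ⟨γ, hj⟩
      have h1 : Nat.find (hex x) ≤ j := Nat.find_min' (hex x) hxj
      have h2 : ¬ Nat.find (hex x) < j := by
        intro hlt
        have hspec := Nat.find_spec (hex x)
        have hnot : γ • x ∉ A (Nat.find (hex x)) := by
          simpa using (mem_iInter₂.mp hj' _ (Finset.mem_range.mpr hlt))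
        exact hnot ((hA_inv _ γ x).mpr hspec)
      have h3 : Nat.find (hex x) = j := le_antisymm h1 (not_lt.mp h2)
      rw [h3]; exact hj
    · intro h
      refine mem_iUnion.mpr ⟨Nat.find (hex x), h, ?_⟩
      refine mem_iInter₂.mpr fun i hi => ?_
      have hmin := Nat.find_min (hex x) (Finset.mem_range.mp hi)
      simpa [hA_inv] using hmin
  refine exists_weight_of_set hS_meas ?_ ?_
  · intro x
    have hfin := ProperlyDiscontinuousSMul.finite_disjoint_inter_image (Γ := Γ)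
      (isCompact_singleton (x := x)) (hKc (Nat.find (hex x)))
    refine hfin.subset ?_
    intro γ hγ
    exact ⟨γ • x, ⟨x, rfl, rfl⟩, (key x γ).mp hγ⟩
  · intro x
    obtain ⟨γ, hγ⟩ := mem_iUnion.mp (Nat.find_spec (hex x))
    exact ⟨γ, (key x γ).mpr hγ⟩

omit [Countable Γ] [T2Space X] [SigmaCompactSpace X] [MeasurableSpace X] [BorelSpace X]
  [ContinuousConstSMul Γ X] in
/-- Proper discontinuity: for compact `K`, the number of group elements moving a point into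
`K` is bounded uniformly in the point. -/
theorem exists_encard_le_of_isCompact {K : Set X} (hK : IsCompact K) :
    ∃ M : ℕ, ∀ x : X, {γ : Γ | γ • x ∈ K}.encard ≤ M := by
  have hfin := ProperlyDiscontinuousSMul.finite_disjoint_inter_image (Γ := Γ) hK hK
  refine ⟨hfin.toFinset.card, fun x => ?_⟩
  by_cases hne : {γ : Γ | γ • x ∈ K}.Nonempty
  · obtain ⟨γ₀, hγ₀⟩ := hne
    have hmaps : MapsTo (fun γ : Γ => γ * γ₀⁻¹) {γ : Γ | γ • x ∈ K}
        {γ : Γ | ((fun y => γ • y) '' K ∩ K).Nonempty} := by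
      intro γ hγ
      refine ⟨γ • x, ⟨γ₀ • x, hγ₀, ?_⟩, hγ⟩
      simp [smul_smul]
    have hinj : InjOn (fun γ : Γ => γ * γ₀⁻¹) {γ : Γ | γ • x ∈ K} :=
      fun a _ b _ hab => mul_right_cancel hab
    calc {γ : Γ | γ • x ∈ K}.encard
        ≤ {γ : Γ | ((fun y => γ • y) '' K ∩ K).Nonempty}.encard :=
          Set.encard_le_encard_of_injOn hmaps hinj
      _ = (hfin.toFinset.card : ℕ∞) := by
          rw [← Set.encard_coe_eq_coe_finsetCard, Set.Finite.coe_toFinset]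
  · rw [Set.not_nonempty_iff_eq_empty] at hne
    simp [hne]

end Topological

section Modular

open UpperHalfPlane ModularGroup Matrix
open scoped UpperHalfPlane MatrixGroups

theorem countable_SL2Z : Countable SL(2, ℤ) := by
  have hinj : Function.Injective (fun (g : SL(2, ℤ)) (i j : Fin 2) => (g i j : ℤ)) := by
    intro a b hab
    ext i j
    exact congrFun (congrFun hab i) j
  exact hinj.countable

theorem continuousConstSMul_SL2Z : ContinuousConstSMul SL(2, ℤ) ℍ :=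
  ⟨fun g => continuous_const_smul (Matrix.SpecialLinearGroup.mapGL ℝ g)⟩

theorem smulInvariantMeasure_SL2Z : SMulInvariantMeasure SL(2, ℤ) ℍ (volume : Measure ℍ) :=
  ⟨fun g s _ =>
    measure_preimage_smul (μ := (volume : Measure ℍ)) (Matrix.SpecialLinearGroup.mapGL ℝ g) s⟩

theorem continuousConstSMul_subgroup (Γ : Subgroup SL(2, ℤ)) : ContinuousConstSMul Γ ℍ :=
  ⟨fun γ => continuous_const_smul (Matrix.SpecialLinearGroup.mapGL ℝ (γ : SL(2, ℤ)))⟩

theorem properlyDiscontinuousSMul_SL2Z : ProperlyDiscontinuousSMul SL(2, ℤ) ℍ := by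
  refine ⟨fun {K L} hK hL => ?_⟩
  have h := ProperlyDiscontinuousSMul.finite_disjoint_inter_image (Γ := 𝒮ℒ) hK hL
  let f : SL(2, ℤ) → 𝒮ℒ := fun g => ⟨Matrix.SpecialLinearGroup.mapGL ℝ g, ⟨g, rfl⟩⟩
  have hf : Function.Injective f := fun a b hab =>
    Matrix.SpecialLinearGroup.mapGL_injective (congrArg Subtype.val hab)
  exact (h.preimage hf.injOn).subset fun g hg => hg

theorem properlyDiscontinuousSMul_subgroup (Γ : Subgroup SL(2, ℤ)) :
    ProperlyDiscontinuousSMul Γ ℍ := by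
  have := properlyDiscontinuousSMul_SL2Z
  refine ⟨fun {K L} hK hL => ?_⟩
  have h := ProperlyDiscontinuousSMul.finite_disjoint_inter_image (Γ := SL(2, ℤ)) hK hL
  exact (h.preimage Subtype.coe_injective.injOn).subset fun g hg => hg

/-- (W1) Existence of a measurable weight for any subgroup of `SL(2, ℤ)`. -/
theorem exists_weight (Γ : Subgroup SL(2, ℤ)) :
    ∃ w : ℍ → ℝ≥0∞, Measurable w ∧ ∀ z : ℍ, ∑' γ : Γ, w (γ • z) = 1 := by
  have := countable_SL2Z
  have := continuousConstSMul_subgroup Γ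
  have := properlyDiscontinuousSMul_subgroup Γ
  exact exists_weight_of_properlyDiscontinuous

/-- (W2) Unfolding on `ℍ` (hyperbolic measure). -/
theorem lintegral_unfold_modular (Γ : Subgroup SL(2, ℤ)) {w : ℍ → ℝ≥0∞} (hw : Measurable w)
    (hsum : ∀ z : ℍ, ∑' γ : Γ, w (γ • z) = 1) {g : ℍ → ℝ≥0∞} (hg : AEMeasurable g) :
    ∫⁻ z, g z = ∫⁻ z, w z * ∑' γ : Γ, g (γ • z) := by
  have := countable_SL2Z
  have := continuousConstSMul_SL2Z
  have := smulInvariantMeasure_SL2Z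
  exact lintegral_unfold (Γ := Γ) hw hsum hg

/-- (W3) Bochner unfolding on `ℍ`. -/
theorem integral_unfold_modular (Γ : Subgroup SL(2, ℤ)) {E : Type*} [NormedAddCommGroup E]
    [NormedSpace ℝ E] {w : ℍ → ℝ≥0∞} (hw : Measurable w)
    (hsum : ∀ z : ℍ, ∑' γ : Γ, w (γ • z) = 1) {f : ℍ → E} (hf : Integrable f) :
    ∫ z, f z = ∫ z, (w z).toReal • ∑' γ : Γ, f (γ • z) := by
  have := countable_SL2Z
  have := continuousConstSMul_SL2Z
  have := smulInvariantMeasure_SL2Z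
  exact integral_unfold (Γ := Γ) hw hsum hf

/-- (W3') Bochner unfolding on `ℍ`, series form. -/
theorem integral_eq_tsum_modular (Γ : Subgroup SL(2, ℤ)) {E : Type*} [NormedAddCommGroup E]
    [NormedSpace ℝ E] {w : ℍ → ℝ≥0∞} (hw : Measurable w)
    (hsum : ∀ z : ℍ, ∑' γ : Γ, w (γ • z) = 1) {f : ℍ → E} (hf : Integrable f) :
    ∫ z, f z = ∑' γ : Γ, ∫ z, (w z).toReal • f (γ • z) := by
  have := countable_SL2Z
  have := continuousConstSMul_SL2Z
  have := smulInvariantMeasure_SL2Z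
  exact integral_eq_tsum_integral_weight_smul (Γ := Γ) hw hsum hf

/-- (W4) For `Γ`-invariant `G`: `∫⁻ z in S, G z = ∫⁻ z, w z * G z * #{γ | γ • z ∈ S}`. -/
theorem setLIntegral_eq_modular (Γ : Subgroup SL(2, ℤ)) {w : ℍ → ℝ≥0∞} (hw : Measurable w)
    (hsum : ∀ z : ℍ, ∑' γ : Γ, w (γ • z) = 1) {G : ℍ → ℝ≥0∞} (hG : AEMeasurable G)
    (hinv : ∀ (γ : Γ) (z : ℍ), G (γ • z) = G z) {S : Set ℍ} (hS : MeasurableSet S) :
    ∫⁻ z in S, G z = ∫⁻ z, w z * G z * (({γ : Γ | γ • z ∈ S}.encard : ℕ∞) : ℝ≥0∞) := by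
  have := countable_SL2Z
  have := continuousConstSMul_SL2Z
  have := smulInvariantMeasure_SL2Z
  exact setLIntegral_eq_lintegral_weight_mul_encard (Γ := Γ) hw hsum hG hinv hS

/-- (W4a) If `B` meets the `Γ`-orbit of every point where `G ≠ 0`, then
`∫⁻ w * G ≤ ∫⁻ z in B, G z`. -/
theorem lintegral_weight_le_modular (Γ : Subgroup SL(2, ℤ)) {w : ℍ → ℝ≥0∞} (hw : Measurable w)
    (hsum : ∀ z : ℍ, ∑' γ : Γ, w (γ • z) = 1) {G : ℍ → ℝ≥0∞} (hG : AEMeasurable G)
    (hinv : ∀ (γ : Γ) (z : ℍ), G (γ • z) = G z) {B : Set ℍ} (hB : MeasurableSet B)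
    (hmeet : ∀ z : ℍ, G z ≠ 0 → ∃ γ : Γ, γ • z ∈ B) :
    ∫⁻ z, w z * G z ≤ ∫⁻ z in B, G z := by
  have := countable_SL2Z
  have := continuousConstSMul_SL2Z
  have := smulInvariantMeasure_SL2Z
  exact lintegral_weight_le_setLIntegral (Γ := Γ) hw hsum hG hinv hB hmeet

/-- (W4b) If every orbit meets `S` at most `M` times, then `∫⁻ z in S, G z ≤ M * ∫⁻ w * G`. -/
theorem setLIntegral_le_modular (Γ : Subgroup SL(2, ℤ)) {w : ℍ → ℝ≥0∞} (hw : Measurable w)
    (hsum : ∀ z : ℍ, ∑' γ : Γ, w (γ • z) = 1) {G : ℍ → ℝ≥0∞} (hG : AEMeasurable G)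
    (hinv : ∀ (γ : Γ) (z : ℍ), G (γ • z) = G z) {S : Set ℍ} (hS : MeasurableSet S) (M : ℕ)
    (hM : ∀ z : ℍ, {γ : Γ | γ • z ∈ S}.encard ≤ M) :
    ∫⁻ z in S, G z ≤ M * ∫⁻ z, w z * G z := by
  have := countable_SL2Z
  have := continuousConstSMul_SL2Z
  have := smulInvariantMeasure_SL2Z
  exact setLIntegral_le_mul_lintegral_weight (Γ := Γ) hw hsum hG hinv hS M hM

/-- (M1) Uniform multiplicity bound for compact sets. -/
theorem exists_encard_le_modular (Γ : Subgroup SL(2, ℤ)) {K : Set ℍ} (hK : IsCompact K) :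
    ∃ M : ℕ, ∀ z : ℍ, {γ : Γ | γ • z ∈ K}.encard ≤ M := by
  have := properlyDiscontinuousSMul_subgroup Γ
  exact exists_encard_le_of_isCompact hK

/-- If `1 < im τ` and `1 ≤ im (h • τ)` then the lower-left entry of `h` vanishes. -/
theorem c_eq_zero_of_im (h : SL(2, ℤ)) (τ : ℍ) (h1 : 1 < τ.im) (h2 : 1 ≤ (h • τ).im) :
    h 1 0 = 0 := by
  by_contra hc
  have hc1 : (1 : ℝ) ≤ ((h 1 0 : ℤ) : ℝ) ^ 2 := by
    have h0 : (1 : ℤ) ≤ (h 1 0) ^ 2 := by
      have := Int.one_le_abs hc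
      nlinarith [sq_abs (h 1 0), abs_nonneg (h 1 0)]
    exact_mod_cast h0
  have hden := τ.c_mul_im_sq_le_normSq_denom h
  rw [ModularGroup.im_smul_eq_div_normSq] at h2
  have hpos : 0 < Complex.normSq (denom (h : GL (Fin 2) ℝ) τ) :=
    normSq_denom_pos _ τ.im_ne_zero
  rw [le_div_iff₀ hpos, one_mul] at h2
  have hden' : ((h 1 0 : ℤ) : ℝ) ^ 2 * τ.im ^ 2
      ≤ Complex.normSq (denom (h : GL (Fin 2) ℝ) τ) := by
    have : ((h : GL (Fin 2) ℝ) 1 0 : ℝ) = ((h 1 0 : ℤ) : ℝ) := by simp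
    rw [← this, ← mul_pow]; exact hden
  nlinarith [τ.im_pos]

/-- (M2) Uniform multiplicity bound for the translated cusp strips
`σ • {τ | 2 ≤ im τ ∧ |re τ| ≤ N}`, uniform in `σ : SL(2, ℤ)`. -/
theorem exists_encard_strip_le (Γ : Subgroup SL(2, ℤ)) (N : ℕ) :
    ∃ M : ℕ, ∀ (σ : SL(2, ℤ)) (z : ℍ),
      {γ : Γ | σ⁻¹ • ((γ : SL(2, ℤ)) • z) ∈ {τ : ℍ | 2 ≤ τ.im ∧ |τ.re| ≤ N}}.encard ≤ M := by
  have := properlyDiscontinuousSMul_SL2Z
  let z₀ : ℍ := UpperHalfPlane.I
  let F₀ : Set ℍ := (fun n : ℤ => T ^ n • z₀) '' (Set.Icc (-(2 * N : ℤ)) (2 * N))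
  have hF₀ : F₀.Finite := (Set.finite_Icc _ _).image _
  have hH := ProperlyDiscontinuousSMul.finite_disjoint_inter_image (Γ := SL(2, ℤ))
    (isCompact_singleton (x := z₀)) hF₀.isCompact
  refine ⟨hH.toFinset.card, fun σ z => ?_⟩
  by_cases hne :
      {γ : Γ | σ⁻¹ • ((γ : SL(2, ℤ)) • z) ∈ {τ : ℍ | 2 ≤ τ.im ∧ |τ.re| ≤ N}}.Nonempty
  · obtain ⟨γ₀, hγ₀⟩ := hne
    let f : Γ → SL(2, ℤ) := fun γ => σ⁻¹ * (γ : SL(2, ℤ)) * (γ₀ : SL(2, ℤ))⁻¹ * σ
    have hinj : Function.Injective f := by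
      intro a b hab
      simp only [f] at hab
      have h1 := mul_right_cancel (mul_right_cancel hab)
      exact Subtype.ext (mul_left_cancel h1)
    have hmaps : MapsTo f
        {γ : Γ | σ⁻¹ • ((γ : SL(2, ℤ)) • z) ∈ {τ : ℍ | 2 ≤ τ.im ∧ |τ.re| ≤ N}}
        {h : SL(2, ℤ) | ((fun y => h • y) '' {z₀} ∩ F₀).Nonempty} := by
      intro γ hγ
      set τ₀ : ℍ := σ⁻¹ • ((γ₀ : SL(2, ℤ)) • z) with hτ₀
      have hfτ : f γ • τ₀ = σ⁻¹ • ((γ : SL(2, ℤ)) • z) := by
        simp only [f, hτ₀, smul_smul]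
        congr 1
        group
      have hγ1 : 2 ≤ (σ⁻¹ • ((γ : SL(2, ℤ)) • z)).im := hγ.1
      have hγ2 : |(σ⁻¹ • ((γ : SL(2, ℤ)) • z)).re| ≤ N := hγ.2
      have hτ1 : 2 ≤ τ₀.im := hγ₀.1
      have hτ2 : |τ₀.re| ≤ N := hγ₀.2
      have hc : (f γ) 1 0 = 0 :=
        c_eq_zero_of_im (f γ) τ₀ (by linarith) (by rw [hfτ]; linarith)
      obtain ⟨n, hn⟩ := exists_eq_T_zpow_of_c_eq_zero hc
      have hre : (f γ • τ₀).re = τ₀.re + n := by rw [hn, re_T_zpow_smul]
      have hnabs : |(n : ℝ)| ≤ 2 * N := by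
        have h1 : |(f γ • τ₀).re| ≤ N := by rw [hfτ]; exact hγ2
        have h3 : (n : ℝ) = (f γ • τ₀).re - τ₀.re := by rw [hre]; ring
        rw [h3]
        calc |(f γ • τ₀).re - τ₀.re| ≤ |(f γ • τ₀).re| + |τ₀.re| := abs_sub _ _
          _ ≤ 2 * N := by linarith
      have hnI : n ∈ Set.Icc (-(2 * N : ℤ)) (2 * N) := by
        rw [abs_le] at hnabs
        constructor
        · exact_mod_cast hnabs.1
        · exact_mod_cast hnabs.2
      exact ⟨f γ • z₀, ⟨z₀, rfl, rfl⟩, ⟨n, hnI, (hn z₀).symm⟩⟩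
    calc {γ : Γ | σ⁻¹ • ((γ : SL(2, ℤ)) • z) ∈ {τ : ℍ | 2 ≤ τ.im ∧ |τ.re| ≤ N}}.encard
        ≤ {h : SL(2, ℤ) | ((fun y => h • y) '' {z₀} ∩ F₀).Nonempty}.encard :=
          Set.encard_le_encard_of_injOn hmaps hinj.injOn
      _ = (hH.toFinset.card : ℕ∞) := by
          rw [← Set.encard_coe_eq_coe_finsetCard, Set.Finite.coe_toFinset]
  · rw [Set.not_nonempty_iff_eq_empty] at hne
    rw [hne, Set.encard_empty]
    exact zero_le

/-- The cusp strip is measurable. -/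
theorem measurableSet_strip (N : ℕ) : MeasurableSet {τ : ℍ | 2 ≤ τ.im ∧ |τ.re| ≤ N} :=
  ((isClosed_le continuous_const UpperHalfPlane.continuous_im).inter
    (isClosed_le (continuous_abs.comp UpperHalfPlane.continuous_re) continuous_const)).measurableSet

/-- Composite (M1)+(W4b): on a compact set, the integral of an invariant density is bounded
by a constant (depending only on the compact set) times its weighted integral. -/
theorem exists_setLIntegral_compact_le (Γ : Subgroup SL(2, ℤ)) {K : Set ℍ} (hK : IsCompact K) :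
    ∃ M : ℕ, ∀ (w : ℍ → ℝ≥0∞), Measurable w → (∀ z : ℍ, ∑' γ : Γ, w (γ • z) = 1) →
      ∀ (G : ℍ → ℝ≥0∞), AEMeasurable G → (∀ (γ : Γ) (z : ℍ), G (γ • z) = G z) →
        ∫⁻ z in K, G z ≤ M * ∫⁻ z, w z * G z := by
  obtain ⟨M, hM⟩ := exists_encard_le_modular Γ hK
  exact ⟨M, fun w hw hsum G hG hinv =>
    setLIntegral_le_modular Γ hw hsum hG hinv hK.measurableSet M hM⟩

/-- Change of variables + (W4b): if every orbit meets `σ • P` at most `M` times, then
`∫⁻ z in P, G (σ • z) ≤ M * ∫⁻ w * G` for an invariant density `G`. -/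
theorem setLIntegral_comp_smul_le (Γ : Subgroup SL(2, ℤ)) {w : ℍ → ℝ≥0∞} (hw : Measurable w)
    (hsum : ∀ z : ℍ, ∑' γ : Γ, w (γ • z) = 1) {G : ℍ → ℝ≥0∞} (hG : Measurable G)
    (hinv : ∀ (γ : Γ) (z : ℍ), G (γ • z) = G z) {P : Set ℍ} (hP : MeasurableSet P)
    (σ : SL(2, ℤ)) (M : ℕ)
    (hM : ∀ z : ℍ, {γ : Γ | σ⁻¹ • ((γ : SL(2, ℤ)) • z) ∈ P}.encard ≤ M) :
    ∫⁻ z in P, G (σ • z) ≤ M * ∫⁻ z, w z * G z := by
  have := continuousConstSMul_SL2Z
  have := smulInvariantMeasure_SL2Z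
  have hmeas : MeasurableSet ((fun z : ℍ => σ⁻¹ • z) ⁻¹' P) :=
    (measurable_const_smul σ⁻¹) hP
  have h1 := (measurePreserving_smul σ (volume : Measure ℍ)).setLIntegral_comp_preimage
    hmeas hG
  have hpre : (fun z : ℍ => σ • z) ⁻¹' ((fun z : ℍ => σ⁻¹ • z) ⁻¹' P) = P := by
    ext z
    simp only [mem_preimage, inv_smul_smul]
  rw [hpre] at h1
  rw [h1]
  exact setLIntegral_le_modular Γ hw hsum hG.aemeasurable hinv hmeas M (fun z => hM z)

/-- Composite (M2)+(W4b): uniformly in `σ : SL(2, ℤ)`, the integral over the cusp strip of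
`G ∘ σ` (for an invariant density `G`) is bounded by a constant times the weighted integral. -/
theorem exists_setLIntegral_strip_le (Γ : Subgroup SL(2, ℤ)) (N : ℕ) :
    ∃ M : ℕ, ∀ (w : ℍ → ℝ≥0∞), Measurable w → (∀ z : ℍ, ∑' γ : Γ, w (γ • z) = 1) →
      ∀ (G : ℍ → ℝ≥0∞), Measurable G → (∀ (γ : Γ) (z : ℍ), G (γ • z) = G z) →
        ∀ σ : SL(2, ℤ), ∫⁻ z in {τ : ℍ | 2 ≤ τ.im ∧ |τ.re| ≤ N}, G (σ • z)
          ≤ M * ∫⁻ z, w z * G z := by
  obtain ⟨M, hM⟩ := exists_encard_strip_le Γ N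
  exact ⟨M, fun w hw hsum G hG hinv σ =>
    setLIntegral_comp_smul_le Γ hw hsum hG hinv (measurableSet_strip N) σ M (hM σ)⟩

/-- The cusp strip with the two conditions in the other order. -/
theorem strip_comm (N : ℕ) :
    {τ : ℍ | |τ.re| ≤ N ∧ 2 ≤ τ.im} = {τ : ℍ | 2 ≤ τ.im ∧ |τ.re| ≤ N} := by
  ext τ
  exact and_comm

/-- (M2'), with the strip written as `{τ | |re τ| ≤ N ∧ 2 ≤ im τ}`. -/
theorem exists_encard_strip_le' (Γ : Subgroup SL(2, ℤ)) (N : ℕ) :
    ∃ M : ℕ, ∀ (σ : SL(2, ℤ)) (z : ℍ),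
      {γ : Γ | σ⁻¹ • ((γ : SL(2, ℤ)) • z) ∈ {τ : ℍ | |τ.re| ≤ N ∧ 2 ≤ τ.im}}.encard ≤ M := by
  rw [strip_comm]
  exact exists_encard_strip_le Γ N

/-- Composite (M2)+(W4b), with the strip written as `{τ | |re τ| ≤ N ∧ 2 ≤ im τ}`. -/
theorem exists_setLIntegral_strip_le' (Γ : Subgroup SL(2, ℤ)) (N : ℕ) :
    ∃ M : ℕ, ∀ (w : ℍ → ℝ≥0∞), Measurable w → (∀ z : ℍ, ∑' γ : Γ, w (γ • z) = 1) →
      ∀ (G : ℍ → ℝ≥0∞), Measurable G → (∀ (γ : Γ) (z : ℍ), G (γ • z) = G z) →
        ∀ σ : SL(2, ℤ), ∫⁻ z in {τ : ℍ | |τ.re| ≤ N ∧ 2 ≤ τ.im}, G (σ • z)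
          ≤ M * ∫⁻ z, w z * G z := by
  rw [strip_comm]
  exact exists_setLIntegral_strip_le Γ N

/-- (A1) Local finiteness: for compact `K`, `L`, only finitely many elements of `Γ` move a
point of `K` into `L`. -/
theorem finite_smul_mem (Γ : Subgroup SL(2, ℤ)) {K L : Set ℍ} (hK : IsCompact K)
    (hL : IsCompact L) : {γ : Γ | ∃ z ∈ K, (γ : SL(2, ℤ)) • z ∈ L}.Finite := by
  have := properlyDiscontinuousSMul_subgroup Γ
  have h := ProperlyDiscontinuousSMul.finite_disjoint_inter_image (Γ := Γ) hK hL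
  refine h.subset ?_
  rintro γ ⟨z, hz, hγz⟩
  exact ⟨(γ : SL(2, ℤ)) • z, ⟨z, hz, rfl⟩, hγz⟩

end Modular

section Bridge

open UpperHalfPlane
open scoped UpperHalfPlane NNReal

theorem hypDensity_eq (z : ℍ) :
    (((1 / NNReal.mk z.im z.im_pos.le : ℝ≥0) ^ 2 : ℝ≥0) : ℝ≥0∞) = ENNReal.ofReal (1 / z.im ^ 2) := by
  rw [ENNReal.ofReal_eq_coe_nnreal (by positivity)]
  congr 1
  ext
  simp

theorem measurable_hypDensity :
    Measurable fun z : ℍ => (1 / NNReal.mk z.im z.im_pos.le : ℝ≥0) ^ 2 := by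
  have hc : Continuous fun z : ℍ => (1 / NNReal.mk z.im z.im_pos.le : ℝ≥0) ^ 2 := by
    refine .pow (.div₀ continuous_const ?_ ?_) _
    · exact continuous_im.subtype_mk _
    · exact fun x ↦ NNReal.ne_iff.mp x.im_ne_zero
  exact hc.measurable

theorem range_coe_eq : Set.range UpperHalfPlane.coe = {z : ℂ | 0 < z.im} := by
  ext z
  constructor
  · rintro ⟨w, rfl⟩; exact w.im_pos
  · intro hz; exact ⟨⟨z, hz⟩, rfl⟩

/-- (BR1) hyperbolic `lintegral` on `ℍ` as a Lebesgue `lintegral` on `ℂ`. -/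
theorem lintegral_hyp_eq (f : ℂ → ℝ≥0∞) :
    ∫⁻ z : ℍ, f z = ∫⁻ z : ℂ in {z : ℂ | 0 < z.im}, ENNReal.ofReal (1 / z.im ^ 2) * f z := by
  have hd : Measurable fun z : ℍ => (((1 / NNReal.mk z.im z.im_pos.le : ℝ≥0) ^ 2 : ℝ≥0) : ℝ≥0∞) :=
    measurable_coe_nnreal_ennreal.comp measurable_hypDensity
  rw [volume_def, lintegral_withDensity_eq_lintegral_mul_non_measurable _ hd
    (Filter.Eventually.of_forall fun z => ENNReal.coe_lt_top)]
  have h2 := measurableEmbedding_coe.lintegral_map (μ := volume.comap UpperHalfPlane.coe)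
    (fun w : ℂ => ENNReal.ofReal (1 / w.im ^ 2) * f w)
  rw [measurableEmbedding_coe.map_comap, range_coe_eq] at h2
  rw [h2]
  refine lintegral_congr fun z => ?_
  simp only [Pi.mul_apply, hypDensity_eq, coe_im]

/-- (BR2) hyperbolic Bochner integral on `ℍ` as a Lebesgue integral on `ℂ`. -/
theorem integral_hyp_eq {E : Type*} [NormedAddCommGroup E] [NormedSpace ℝ E] (f : ℂ → E) :
    ∫ z : ℍ, f z = ∫ z : ℂ in {z : ℂ | 0 < z.im}, (1 / z.im ^ 2) • f z := by
  rw [volume_def, integral_withDensity_eq_integral_smul measurable_hypDensity]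
  have h2 := measurableEmbedding_coe.integral_map (μ := volume.comap UpperHalfPlane.coe)
    (fun w : ℂ => (1 / w.im ^ 2) • f w)
  rw [measurableEmbedding_coe.map_comap, range_coe_eq] at h2
  rw [h2]
  refine integral_congr_ae (Filter.Eventually.of_forall fun z => ?_)
  simp only [NNReal.smul_def]
  congr 1
  simp

theorem indicator_coe_image (s : Set ℍ) {M : Type*} [Zero M] (f : ℂ → M) (z : ℍ) :
    (UpperHalfPlane.coe '' s).indicator f (z : ℂ) = s.indicator (fun z : ℍ => f z) z := by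
  by_cases hz : z ∈ s
  · rw [indicator_of_mem hz, indicator_of_mem (mem_image_of_mem _ hz)]
  · have : (z : ℂ) ∉ UpperHalfPlane.coe '' s := by
      rintro ⟨w, hw, hwz⟩
      exact hz (by rwa [← UpperHalfPlane.ext hwz])
    rw [indicator_of_notMem hz, indicator_of_notMem this]

/-- (BR1, set version). -/
theorem setLIntegral_hyp_eq (f : ℂ → ℝ≥0∞) {s : Set ℍ} (hs : MeasurableSet s) :
    ∫⁻ z in s, f z
      = ∫⁻ z : ℂ in (UpperHalfPlane.coe '' s), ENNReal.ofReal (1 / z.im ^ 2) * f z := by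
  have hs' : MeasurableSet (UpperHalfPlane.coe '' s) :=
    measurableEmbedding_coe.measurableSet_image.mpr hs
  have hU : MeasurableSet {z : ℂ | 0 < z.im} :=
    measurableSet_lt measurable_const Complex.measurable_im
  rw [← lintegral_indicator hs]
  simp only [← indicator_coe_image s f]
  rw [lintegral_hyp_eq, ← lintegral_indicator hs', ← lintegral_indicator hU]
  refine lintegral_congr fun z => ?_
  by_cases hz : z ∈ UpperHalfPlane.coe '' s
  · have hz' : z ∈ {z : ℂ | 0 < z.im} := by obtain ⟨w, -, rfl⟩ := hz; exact w.im_pos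
    rw [indicator_of_mem hz', indicator_of_mem hz, indicator_of_mem hz]
  · rw [indicator_of_notMem hz]
    by_cases hz' : z ∈ {z : ℂ | 0 < z.im}
    · rw [indicator_of_mem hz', indicator_of_notMem hz, mul_zero]
    · rw [indicator_of_notMem hz']

/-- (BR2, set version). -/
theorem setIntegral_hyp_eq {E : Type*} [NormedAddCommGroup E] [NormedSpace ℝ E] (f : ℂ → E)
    {s : Set ℍ} (hs : MeasurableSet s) :
    ∫ z in s, f z = ∫ z : ℂ in (UpperHalfPlane.coe '' s), (1 / z.im ^ 2) • f z := by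
  have hs' : MeasurableSet (UpperHalfPlane.coe '' s) :=
    measurableEmbedding_coe.measurableSet_image.mpr hs
  have hU : MeasurableSet {z : ℂ | 0 < z.im} :=
    measurableSet_lt measurable_const Complex.measurable_im
  rw [← integral_indicator hs]
  simp only [← indicator_coe_image s f]
  rw [integral_hyp_eq, ← integral_indicator hs', ← integral_indicator hU]
  refine integral_congr_ae (Filter.Eventually.of_forall fun z => ?_)
  by_cases hz : z ∈ UpperHalfPlane.coe '' s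
  · have hz' : z ∈ {z : ℂ | 0 < z.im} := by obtain ⟨w, -, rfl⟩ := hz; exact w.im_pos
    simp only [indicator_of_mem hz', indicator_of_mem hz]
  · rw [indicator_of_notMem hz]
    by_cases hz' : z ∈ {z : ℂ | 0 < z.im}
    · rw [indicator_of_mem hz', indicator_of_notMem hz, smul_zero]
    · rw [indicator_of_notMem hz']

end Bridge

end Fermat.Agent.S21.helper1765
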