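/-
helper1527: S21 Route 2, VAR layer "Avg".

For a real test function `B : ℂ → ℝ` (smooth, compactly supported in the upper half plane) the
`Γ₀(N)`-average `avg N B z = ∑ᶠ γ, B (γ • z)` is a smooth `Γ₀(N)`-invariant function on `ℍ`, its
complex gradient is the (locally finite) sum of the gradients of the translates, and pairing the
gradient of a potential `u` against it with a `Γ₀(N)`-partition weight `w` unfolds to the
Dirichlet pairing on `ℂ`:
  `∫_ℍ w * Re (gradC u * conj (gradC (avg N B))) * y² dμ = ∫_ℂ (u_x B_x + u_y B_y)`.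
-/
import Fermat.Agent.S21.helper801_HodgeSpec
import Fermat.Agent.S21.helper1765_Unfold
import Fermat.Agent.S21.helper1527_WeakHol

set_option autoImplicit false

namespace Fermat.Agent.S21.helper1527

open ModularCurve ModularCurve.Period CongruenceSubgroup UpperHalfPlane MeasureTheory Filter
  Topology
open Fermat.Agent.S21.helper801
open scoped MatrixGroups ENNReal ComplexConjugate

noncomputable section

/-! ### Möbius maps as functions on `ℂ` and the chain rule for `gradC` -/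

/-- The Möbius map of `g : SL(2, ℤ)` as a function `ℂ → ℂ` (junk outside the upper half
plane). -/
def mob (g : SL(2, ℤ)) (w : ℂ) : ℂ := ↑(g • ofComplex w)

/-- The automorphy factor `c z + d` of `g : SL(2, ℤ)`. -/
def cd (g : SL(2, ℤ)) (z : ℍ) : ℂ := ((g 1 0 : ℤ) : ℂ) * (z : ℂ) + ((g 1 1 : ℤ) : ℂ)

theorem mob_coe (g : SL(2, ℤ)) (z : ℍ) : mob g ↑z = ↑(g • z) := by
  simp only [mob, ofComplex_apply]

theorem cd_ne_zero (g : SL(2, ℤ)) (z : ℍ) : cd g z ≠ 0 := by
  have h : denom (Matrix.SpecialLinearGroup.toGL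
      ((Matrix.SpecialLinearGroup.map (Int.castRingHom ℝ)) g)) z = cd g z :=
    ModularGroup.denom_apply g z
  rw [← h]
  exact denom_ne_zero _ z

theorem hasDerivAt_mob (g : SL(2, ℤ)) (z : ℍ) : HasDerivAt (mob g) (1 / cd g z ^ 2) ↑z := by
  set G : GL (Fin 2) ℝ :=
    Matrix.SpecialLinearGroup.toGL ((Matrix.SpecialLinearGroup.map (Int.castRingHom ℝ)) g) with hG
  have hdet1 : (G : Matrix (Fin 2) (Fin 2) ℝ).det = 1 :=
    (Matrix.SpecialLinearGroup.map (Int.castRingHom ℝ) g).det_coe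
  have hdet : 0 < (G : Matrix (Fin 2) (Fin 2) ℝ).det := by rw [hdet1]; exact one_pos
  have hden : denom G z = cd g z := ModularGroup.denom_apply g z
  have hmob : HasDerivAt (fun w : ℂ => (↑(G • ofComplex w) : ℂ)) (1 / cd g z ^ 2) ↑z := by
    have := (hasStrictDerivAt_smul hdet z).hasDerivAt
    rw [hdet1, hden] at this
    simpa using this
  exact hmob

theorem im_smul_eq (g : SL(2, ℤ)) (z : ℍ) : (g • z).im = z.im / Complex.normSq (cd g z) :=
  ModularGroup.im_smul_eq_div_normSq g z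

theorem comp_smul_ofComplex (V : ℍ → ℝ) (g : SL(2, ℤ)) :
    (fun τ : ℍ => V (g • τ)) ∘ ofComplex = (V ∘ ofComplex) ∘ mob g := by
  funext w
  simp only [Function.comp_apply, mob, ofComplex_apply]

/-- Chain rule: the derivative of `V ∘ g` for a Möbius map `g`. -/
theorem hasFDerivAt_comp_smul (V : ℍ → ℝ) (g : SL(2, ℤ)) (z : ℍ)
    (hV : DifferentiableAt ℝ (V ∘ ofComplex) ↑(g • z)) :
    HasFDerivAt ((fun τ : ℍ => V (g • τ)) ∘ ofComplex)
      ((fderiv ℝ (V ∘ ofComplex) ↑(g • z)).comp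
        (ContinuousLinearMap.restrictScalars ℝ
          (ContinuousLinearMap.toSpanSingleton ℂ (1 / cd g z ^ 2)))) ↑z := by
  rw [comp_smul_ofComplex]
  have hmobF := (hasDerivAt_mob g z).hasFDerivAt.restrictScalars ℝ
  rw [← mob_coe] at hV ⊢
  exact hV.hasFDerivAt.comp (↑z : ℂ) hmobF

/-- Chain rule for the complex gradient: `gradC (V ∘ g) z = gradC V (g z) / (c z + d)²`. -/
theorem gradC_comp_smul (V : ℍ → ℝ) (g : SL(2, ℤ)) (z : ℍ)
    (hV : DifferentiableAt ℝ (V ∘ ofComplex) ↑(g • z)) :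
    gradC (fun τ : ℍ => V (g • τ)) ↑z = gradC V ↑(g • z) / cd g z ^ 2 := by
  have h := (hasFDerivAt_comp_smul V g z hV).fderiv
  have key := clm_wirtinger (fderiv ℝ (V ∘ ofComplex) ↑(g • z)) (1 / cd g z ^ 2)
  unfold gradC
  rw [h]
  simp only [ContinuousLinearMap.comp_apply, ContinuousLinearMap.coe_restrictScalars',
    ContinuousLinearMap.toSpanSingleton_apply, smul_eq_mul, one_mul]
  rw [key]
  field_simp

theorem differentiableAt_comp_smul (V : ℍ → ℝ) (g : SL(2, ℤ)) (z : ℍ)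
    (hV : DifferentiableAt ℝ (V ∘ ofComplex) ↑(g • z)) :
    DifferentiableAt ℝ ((fun τ : ℍ => V (g • τ)) ∘ ofComplex) ↑z :=
  (hasFDerivAt_comp_smul V g z hV).differentiableAt

/-! ### The polarised energy density -/

/-- The polarised (hyperbolic-invariant) energy density `Re (∂U · conj ∂V) · y²`. -/
def pairDens (U V : ℍ → ℝ) (z : ℍ) : ℝ :=
  (gradC U ↑z * conj (gradC V ↑z)).re * z.im ^ 2

/-- Conformal invariance of the polarised energy density. -/
theorem pairDens_comp_smul (U V : ℍ → ℝ) (g : SL(2, ℤ)) (z : ℍ)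
    (hU : DifferentiableAt ℝ (U ∘ ofComplex) ↑(g • z))
    (hV : DifferentiableAt ℝ (V ∘ ofComplex) ↑(g • z)) :
    pairDens (fun τ : ℍ => U (g • τ)) (fun τ : ℍ => V (g • τ)) z = pairDens U V (g • z) := by
  unfold pairDens
  rw [gradC_comp_smul U g z hU, gradC_comp_smul V g z hV, im_smul_eq]
  have hd : cd g z ≠ 0 := cd_ne_zero g z
  have hn : Complex.normSq (cd g z) ≠ 0 := by
    rw [Ne, Complex.normSq_eq_zero]; exact hd
  set a := gradC U ↑(g • z)
  set b := gradC V ↑(g • z)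
  set d := cd g z
  have h1 : a / d ^ 2 * conj (b / d ^ 2) = (a * conj b) / ((Complex.normSq d : ℝ) : ℂ) ^ 2 := by
    rw [map_div₀, map_pow, Complex.normSq_eq_conj_mul_self]
    have hcd : conj d ≠ 0 := by
      rw [Ne, map_eq_zero]; exact hd
    field_simp
  rw [h1]
  have h2 : ((a * conj b) / ((Complex.normSq d : ℝ) : ℂ) ^ 2).re
      = (a * conj b).re / (Complex.normSq d) ^ 2 := by
    rw [← Complex.ofReal_pow, Complex.div_ofReal_re]
  rw [h2]
  field_simp

/-! ### Real test functions and their restrictions to `ℍ` -/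

/-- A real test function: smooth with compact support inside the open upper half plane. -/
structure IsTestFn (B : ℂ → ℝ) : Prop where
  smooth : ContDiff ℝ ((⊤ : ℕ∞) : WithTop ℕ∞) B
  compact : HasCompactSupport B
  supp : tsupport B ⊆ upperHalfPlaneSet

theorem IsTestFn.add {B₁ B₂ : ℂ → ℝ} (h₁ : IsTestFn B₁) (h₂ : IsTestFn B₂) :
    IsTestFn (fun z => B₁ z + B₂ z) :=
  ⟨h₁.smooth.add h₂.smooth, h₁.compact.add h₂.compact,
    (tsupport_add (f := B₁) (g := B₂)).trans (Set.union_subset h₁.supp h₂.supp)⟩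

theorem IsTestFn.const_mul {B : ℂ → ℝ} (h : IsTestFn B) (c : ℝ) :
    IsTestFn (fun z => c * B z) :=
  ⟨contDiff_const.mul h.smooth, h.compact.mul_left,
    (tsupport_mul_subset_right (f := fun _ => c) (g := B)).trans h.supp⟩

theorem IsTestFn.differentiableAt {B : ℂ → ℝ} (h : IsTestFn B) (w : ℂ) :
    DifferentiableAt ℝ B w :=
  (h.smooth.differentiable (by simp)).differentiableAt

/-- Restriction of a function on `ℂ` to the upper half plane. -/
def res (B : ℂ → ℝ) (z : ℍ) : ℝ := B ↑z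

theorem res_comp_ofComplex_eventuallyEq (B : ℂ → ℝ) {w : ℂ} (hw : 0 < w.im) :
    (res B ∘ ofComplex) =ᶠ[𝓝 w] B := by
  filter_upwards [eventuallyEq_coe_comp_ofComplex hw] with x hx
  simp only [Function.comp_apply, id_eq] at hx
  simp only [Function.comp_apply, res, hx]

theorem fderiv_res (B : ℂ → ℝ) {w : ℂ} (hw : 0 < w.im) :
    fderiv ℝ (res B ∘ ofComplex) w = fderiv ℝ B w :=
  (res_comp_ofComplex_eventuallyEq B hw).fderiv_eq

theorem gradC_res (B : ℂ → ℝ) {w : ℂ} (hw : 0 < w.im) :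
    gradC (res B) w = ((fderiv ℝ B w 1 : ℝ) : ℂ) - Complex.I * ((fderiv ℝ B w Complex.I : ℝ) : ℂ) := by
  unfold gradC
  rw [fderiv_res B hw]

theorem differentiableAt_res {B : ℂ → ℝ} {w : ℂ} (hB : DifferentiableAt ℝ B w) (hw : 0 < w.im) :
    DifferentiableAt ℝ (res B ∘ ofComplex) w :=
  hB.congr_of_eventuallyEq (res_comp_ofComplex_eventuallyEq B hw)

theorem gradC_res_eq_zero {B : ℂ → ℝ} {w : ℂ} (hw : 0 < w.im) (h : w ∉ tsupport B) :
    gradC (res B) w = 0 := by
  rw [gradC_res B hw, fderiv_of_notMem_tsupport ℝ h]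
  simp

/-- The preimage in `ℍ` of the support of a test function is compact. -/
theorem IsTestFn.isCompact_preimage {B : ℂ → ℝ} (h : IsTestFn B) :
    IsCompact (UpperHalfPlane.coe ⁻¹' tsupport B) :=
  isOpenEmbedding_coe.isInducing.isCompact_preimage' h.compact
    (h.supp.trans_eq range_coe.symm)

/-! ### The `Γ₀(N)`-average of a test function -/

/-- Local finiteness: only finitely many `γ ∈ Γ₀(N)` move a compact set of `ℍ` into the support
of a test function. -/
theorem finite_hits (N : ℕ) {B : ℂ → ℝ} (hB : IsTestFn B) {K : Set ℍ} (hK : IsCompact K) :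
    {γ : Gamma0 N | ∃ z ∈ K, (↑((γ : SL(2, ℤ)) • z) : ℂ) ∈ tsupport B}.Finite := by
  have := helper1765.properlyDiscontinuousSMul_subgroup (Gamma0 N)
  refine (finite_disjoint_inter_image (Γ := Gamma0 N) hK hB.isCompact_preimage).subset ?_
  rintro γ ⟨z, hz, hγ⟩
  exact ⟨γ • z, ⟨z, hz, rfl⟩, hγ⟩

/-- The `Γ₀(N)`-average `∑ᶠ γ, B (γ • z)` of a function `B` on `ℂ`. -/
def avg (N : ℕ) (B : ℂ → ℝ) (z : ℍ) : ℝ := ∑ᶠ γ : Gamma0 N, B ↑((γ : SL(2, ℤ)) • z)

/-- On a compact set, the average is a fixed finite sum. -/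
theorem avg_eq_sum (N : ℕ) {B : ℂ → ℝ} (hB : IsTestFn B) {K : Set ℍ} (hK : IsCompact K)
    {z : ℍ} (hz : z ∈ K) :
    avg N B z = ∑ γ ∈ (finite_hits N hB hK).toFinset, B ↑((γ : SL(2, ℤ)) • z) := by
  unfold avg
  refine finsum_eq_sum_of_support_subset _ ?_
  intro γ hγ
  rw [Set.Finite.coe_toFinset]
  exact ⟨z, hz, subset_tsupport _ hγ⟩

theorem avg_smul (N : ℕ) (B : ℂ → ℝ) (γ₀ : Gamma0 N) (z : ℍ) :
    avg N B ((γ₀ : SL(2, ℤ)) • z) = avg N B z := by
  unfold avg
  have h := finsum_comp_equiv (Equiv.mulRight γ₀)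
    (f := fun γ : Gamma0 N => B ↑((γ : SL(2, ℤ)) • z))
  rw [← h]
  refine finsum_congr fun γ => ?_
  simp only [Equiv.coe_mulRight, Subgroup.coe_mul, mul_smul]

theorem contDiffAt_mob (g : SL(2, ℤ)) (z : ℍ) :
    ContDiffAt ℝ ((⊤ : ℕ∞) : WithTop ℕ∞) (mob g) ↑z := by
  set G : GL (Fin 2) ℝ :=
    Matrix.SpecialLinearGroup.toGL ((Matrix.SpecialLinearGroup.map (Int.castRingHom ℝ)) g) with hG
  have hdet1 : (G : Matrix (Fin 2) (Fin 2) ℝ).det = 1 :=
    (Matrix.SpecialLinearGroup.map (Int.castRingHom ℝ) g).det_coe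
  have hdet : 0 < (G : Matrix (Fin 2) (Fin 2) ℝ).det := by rw [hdet1]; exact one_pos
  have h : AnalyticAt ℂ (fun w : ℂ => (↑(G • ofComplex w) : ℂ)) ↑z := analyticAt_smul hdet z
  have h2 : ContDiffAt ℂ ((⊤ : ℕ∞) : WithTop ℕ∞) (fun w : ℂ => (↑(G • ofComplex w) : ℂ)) ↑z :=
    h.contDiffAt
  exact h2.restrict_scalars ℝ

/-- Near a point of the upper half plane, `avg N B ∘ ofComplex` is a fixed finite sum of
translates `B ∘ mob γ`. -/
theorem exists_avg_eventuallyEq (N : ℕ) {B : ℂ → ℝ} (hB : IsTestFn B) (z₀ : ℍ) :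
    ∃ F : Finset (Gamma0 N),
      (∀ γ : Gamma0 N, γ ∉ F → (↑((γ : SL(2, ℤ)) • z₀) : ℂ) ∉ tsupport B) ∧
      (avg N B ∘ ofComplex) =ᶠ[𝓝 (z₀ : ℂ)] fun w => ∑ γ ∈ F, B (mob (γ : SL(2, ℤ)) w) := by
  obtain ⟨K, hK, hKn⟩ := exists_compact_mem_nhds z₀
  refine ⟨(finite_hits N hB hK).toFinset, ?_, ?_⟩
  · intro γ hγ hmem
    apply hγ
    rw [Set.Finite.mem_toFinset]
    exact ⟨z₀, mem_of_mem_nhds hKn, hmem⟩
  · have hnhds : UpperHalfPlane.coe '' K ∈ 𝓝 (z₀ : ℂ) :=
      isOpenEmbedding_coe.image_mem_nhds.mpr hKn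
    filter_upwards [hnhds] with w hw
    obtain ⟨z, hzK, rfl⟩ := hw
    simp only [Function.comp_apply, ofComplex_apply, mob]
    exact avg_eq_sum N hB hK hzK

theorem contDiffAt_avg (N : ℕ) {B : ℂ → ℝ} (hB : IsTestFn B) (z₀ : ℍ) :
    ContDiffAt ℝ ((⊤ : ℕ∞) : WithTop ℕ∞) (avg N B ∘ ofComplex) ↑z₀ := by
  obtain ⟨F, -, hF⟩ := exists_avg_eventuallyEq N hB z₀
  refine ContDiffAt.congr_of_eventuallyEq ?_ hF
  refine ContDiffAt.sum fun γ _ => ?_
  exact hB.smooth.contDiffAt.comp (z₀ : ℂ) (contDiffAt_mob (γ : SL(2, ℤ)) z₀)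

theorem contDiffOn_avg (N : ℕ) {B : ℂ → ℝ} (hB : IsTestFn B) :
    ContDiffOn ℝ ((⊤ : ℕ∞) : WithTop ℕ∞) (avg N B ∘ ofComplex) upperHalfPlaneSet := by
  intro w hw
  exact (contDiffAt_avg N hB ⟨w, hw⟩).contDiffWithinAt

/-- The average of a test function is a (smooth) potential for the zero homomorphism. -/
theorem isPot_avg (N : ℕ) {B : ℂ → ℝ} (hB : IsTestFn B) : IsPot N 0 (avg N B) where
  contDiffOn := (contDiffOn_avg N hB).of_le (by norm_cast)
  map_smul γ z := by rw [avg_smul]; simp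

/-! ### The gradient of the average -/

theorem gradC_eq_of_hasFDerivAt {U : ℍ → ℝ} {L : ℂ →L[ℝ] ℝ} {w : ℂ}
    (h : HasFDerivAt (U ∘ ofComplex) L w) :
    gradC U w = ((L 1 : ℝ) : ℂ) - Complex.I * ((L Complex.I : ℝ) : ℂ) := by
  unfold gradC
  rw [h.fderiv]

/-- The complex gradient of the average is the (finite) sum of the gradients of the
translates. -/
theorem exists_finset_gradC_avg (N : ℕ) {B : ℂ → ℝ} (hB : IsTestFn B) (z₀ : ℍ) :
    ∃ F : Finset (Gamma0 N),
      (∀ γ : Gamma0 N, γ ∉ F → (↑((γ : SL(2, ℤ)) • z₀) : ℂ) ∉ tsupport B) ∧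
      gradC (avg N B) ↑z₀
        = ∑ γ ∈ F, gradC (res B) ↑((γ : SL(2, ℤ)) • z₀) / cd (γ : SL(2, ℤ)) z₀ ^ 2 := by
  obtain ⟨F, hF0, hF⟩ := exists_avg_eventuallyEq N hB z₀
  refine ⟨F, hF0, ?_⟩
  -- derivative of each translate
  have hV : ∀ γ : Gamma0 N,
      DifferentiableAt ℝ (res B ∘ ofComplex) ↑((γ : SL(2, ℤ)) • z₀) := fun γ =>
    differentiableAt_res (hB.differentiableAt _) ((γ : SL(2, ℤ)) • z₀).im_pos
  let L : Gamma0 N → ℂ →L[ℝ] ℝ := fun γ =>
    (fderiv ℝ (res B ∘ ofComplex) ↑((γ : SL(2, ℤ)) • z₀)).comp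
      (ContinuousLinearMap.restrictScalars ℝ
        (ContinuousLinearMap.toSpanSingleton ℂ (1 / cd (γ : SL(2, ℤ)) z₀ ^ 2)))
  have hd : ∀ γ : Gamma0 N,
      HasFDerivAt ((fun τ : ℍ => res B ((γ : SL(2, ℤ)) • τ)) ∘ ofComplex) (L γ) ↑z₀ := fun γ =>
    hasFDerivAt_comp_smul (res B) (γ : SL(2, ℤ)) z₀ (hV γ)
  have hsum : HasFDerivAt (fun w : ℂ => ∑ γ ∈ F, B (mob (γ : SL(2, ℤ)) w)) (∑ γ ∈ F, L γ) ↑z₀ :=
    HasFDerivAt.fun_sum fun γ _ => hd γ
  have havg : HasFDerivAt (avg N B ∘ ofComplex) (∑ γ ∈ F, L γ) ↑z₀ :=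
    hsum.congr_of_eventuallyEq hF
  rw [gradC_eq_of_hasFDerivAt havg]
  have hterm : ∀ γ : Gamma0 N,
      gradC (res B) ↑((γ : SL(2, ℤ)) • z₀) / cd (γ : SL(2, ℤ)) z₀ ^ 2
        = ((L γ 1 : ℝ) : ℂ) - Complex.I * ((L γ Complex.I : ℝ) : ℂ) := fun γ => by
    rw [← gradC_comp_smul (res B) (γ : SL(2, ℤ)) z₀ (hV γ), gradC_eq_of_hasFDerivAt (hd γ)]
  simp only [hterm, FunLike.coe_sum, Finset.sum_apply, Complex.ofReal_sum,
    Finset.mul_sum,
    Finset.sum_sub_distrib]

/-- Algebra behind the unfolding of the polarised density. -/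
theorem pair_algebra (a b d : ℂ) (hd : d ≠ 0) (y : ℝ) :
    (a * conj (b / d ^ 2)).re * y ^ 2
      = (d ^ 2 * a * conj b).re * (y / Complex.normSq d) ^ 2 := by
  have hn : Complex.normSq d ≠ 0 := by
    rw [Ne, Complex.normSq_eq_zero]; exact hd
  have hcd : conj d ≠ 0 := by
    rw [Ne, map_eq_zero]; exact hd
  have h1 : d ^ 2 * a * conj b
      = (a * conj (b / d ^ 2)) * ((Complex.normSq d : ℝ) : ℂ) ^ 2 := by
    rw [map_div₀, map_pow, Complex.normSq_eq_conj_mul_self]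
    field_simp
  have h2 : ((a * conj (b / d ^ 2)) * ((Complex.normSq d : ℝ) : ℂ) ^ 2).re
      = (a * conj (b / d ^ 2)).re * (Complex.normSq d) ^ 2 := by
    rw [← Complex.ofReal_pow, Complex.re_mul_ofReal]
  rw [h1, h2]
  field_simp

variable {N : ℕ} {φ : Additive (Gamma0 N) →+ ℝ} {u : ℍ → ℝ}

/-- **Pointwise unfolding**: the polarised density of a potential `u` against the average of a
test function `B` is the sum over `Γ₀(N)` of the translates of the density of `u` against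
`B`. -/
theorem pairDens_avg (hu : IsPot N φ u) {B : ℂ → ℝ} (hB : IsTestFn B) (z : ℍ) :
    pairDens u (avg N B) z = ∑' γ : Gamma0 N, pairDens u (res B) ((γ : SL(2, ℤ)) • z) := by
  obtain ⟨F, hF0, hF⟩ := exists_finset_gradC_avg N hB z
  have hzero : ∀ γ : Gamma0 N, γ ∉ F → pairDens u (res B) ((γ : SL(2, ℤ)) • z) = 0 := by
    intro γ hγ
    unfold pairDens
    rw [gradC_res_eq_zero ((γ : SL(2, ℤ)) • z).im_pos (hF0 γ hγ)]
    simp
  rw [tsum_eq_sum hzero]
  unfold pairDens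
  rw [hF, map_sum, Finset.mul_sum, Complex.re_sum, Finset.sum_mul]
  refine Finset.sum_congr rfl fun γ _ => ?_
  have hg := hu.gradC_smul γ z
  have hg' : gradC u ↑((γ : SL(2, ℤ)) • z) = cd (γ : SL(2, ℤ)) z ^ 2 * gradC u ↑z := hg
  rw [hg', im_smul_eq]
  exact pair_algebra _ _ _ (cd_ne_zero _ z) _

/-! ### Continuity / integrability on `ℍ` -/

theorem continuous_gradC_coe (hu : IsPot N φ u) : Continuous fun z : ℍ => gradC u ↑z :=
  hu.continuousOn_gradC.comp_continuous continuous_coe fun z => z.im_pos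

theorem continuous_gradC_res {B : ℂ → ℝ} (hB : IsTestFn B) :
    Continuous fun z : ℍ => gradC (res B) ↑z := by
  have h : (fun z : ℍ => gradC (res B) ↑z) = fun z : ℍ =>
      ((fderiv ℝ B ↑z 1 : ℝ) : ℂ) - Complex.I * ((fderiv ℝ B ↑z Complex.I : ℝ) : ℂ) := by
    funext z
    exact gradC_res B z.im_pos
  rw [h]
  have hd : ∀ v : ℂ, Continuous fun z : ℍ => ((fderiv ℝ B ↑z v : ℝ) : ℂ) := fun v =>
    Complex.continuous_ofReal.comp
      (((hB.smooth.continuous_fderiv (by simp)).clm_apply continuous_const).comp continuous_coe)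
  exact (hd 1).sub (continuous_const.mul (hd Complex.I))

theorem continuous_pairDens_res (hu : IsPot N φ u) {B : ℂ → ℝ} (hB : IsTestFn B) :
    Continuous (pairDens u (res B)) := by
  unfold pairDens
  exact (Complex.continuous_re.comp ((continuous_gradC_coe hu).mul
    (Complex.continuous_conj.comp (continuous_gradC_res hB)))).mul (continuous_im.pow 2)

theorem integrable_pairDens_res (hu : IsPot N φ u) {B : ℂ → ℝ} (hB : IsTestFn B) :
    Integrable (pairDens u (res B)) := by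
  refine (continuous_pairDens_res hu hB).integrable_of_hasCompactSupport ?_
  refine HasCompactSupport.intro hB.isCompact_preimage fun z hz => ?_
  unfold pairDens
  rw [gradC_res_eq_zero z.im_pos hz]
  simp

/-- The hyperbolic integral of the density of `u` against a test function is the Dirichlet
pairing on `ℂ`. -/
theorem integral_pairDens_res (u : ℍ → ℝ) {B : ℂ → ℝ} (hB : IsTestFn B) :
    ∫ z : ℍ, pairDens u (res B) z = dirichletPairing u B := by
  have h1 : ∫ z : ℍ, pairDens u (res B) z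
      = ∫ z : ℂ in {z : ℂ | 0 < z.im},
          (1 / z.im ^ 2) • ((gradC u z * conj (gradC (res B) z)).re * z.im ^ 2) :=
    helper1765.integral_hyp_eq
      (fun w : ℂ => (gradC u w * conj (gradC (res B) w)).re * w.im ^ 2)
  rw [h1]
  have hD0 : ∀ w : ℂ, w ∉ {z : ℂ | 0 < z.im} →
      fderiv ℝ (u ∘ ofComplex) w 1 * fderiv ℝ B w 1
        + fderiv ℝ (u ∘ ofComplex) w Complex.I * fderiv ℝ B w Complex.I = 0 := by
    intro w hw
    have hw' : w ∉ tsupport B := fun h => hw (hB.supp h)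
    have h0 : ∀ v : ℂ, fderiv ℝ B w v = 0 := fun v => by
      rw [fderiv_of_notMem_tsupport ℝ hw']; rfl
    rw [h0, h0]
    simp
  have h2 := setIntegral_eq_integral_of_forall_compl_eq_zero (μ := (volume : Measure ℂ)) hD0
  unfold dirichletPairing
  rw [← h2]
  refine setIntegral_congr_fun
    (measurableSet_lt measurable_const Complex.measurable_im) fun w hw => ?_
  have hw' : (0 : ℝ) < w.im := hw
  have hy : w.im ≠ 0 := hw'.ne'
  have e : (gradC u w * conj (gradC (res B) w)).re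
      = fderiv ℝ (u ∘ ofComplex) w 1 * fderiv ℝ B w 1
        + fderiv ℝ (u ∘ ofComplex) w Complex.I * fderiv ℝ B w Complex.I := by
    rw [gradC_res B hw']
    unfold gradC
    simp
  show (1 / w.im ^ 2) • ((gradC u w * conj (gradC (res B) w)).re * w.im ^ 2) = _
  rw [e, smul_eq_mul]
  field_simp

/-- **Unfolding**: for a potential `u`, a test function `B` and a `Γ₀(N)`-partition weight `w`,
`∫_ℍ w · Re (∂u · conj ∂(avg B)) y² dμ = ∫_ℂ (u_x B_x + u_y B_y)`. -/
theorem integral_weight_pairDens_avg (hu : IsPot N φ u) {B : ℂ → ℝ} (hB : IsTestFn B)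
    {w : ℍ → ℝ≥0∞} (hw : Measurable w)
    (hsum : ∀ z : ℍ, ∑' γ : Gamma0 N, w ((γ : SL(2, ℤ)) • z) = 1) :
    ∫ z : ℍ, (w z).toReal * pairDens u (avg N B) z = dirichletPairing u B := by
  have h := helper1765.integral_unfold_modular (Gamma0 N) hw hsum (integrable_pairDens_res hu hB)
  rw [← integral_pairDens_res u hB, h]
  refine integral_congr_ae (Filter.Eventually.of_forall fun z => ?_)
  simp only [smul_eq_mul]
  rw [pairDens_avg hu hB z]
  rfl

end

end Fermat.Agent.S21.helper1527
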