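/-
helper1545: S21 Route 2 (Hodge/Weyl), leaf (5) PER = period continuity.

If `f` is a weight-2 cusp form on `Γ₀(N)` with equivariant primitive `F`, and `U n : ℂ → ℝ` are
real potentials on the upper half-plane with `U n (γ z) = U n z + φ γ` whose complex gradients
`A n = (U n)_x - i (U n)_y` converge to `f` in `L¹_loc`, then `Re (periodMap N f γ) = φ γ`.

Ingredients: an `L¹` Poincaré inequality on convex sets of `ℂ` (proved here) and the
`GL(2,ℝ)`-invariance of the hyperbolic measure on `ℍ` (Mathlib).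
-/
import Fermat.Agent.S21.helper921_Wiring
import Mathlib.Analysis.Complex.UpperHalfPlane.Measure
import Mathlib.MeasureTheory.Integral.IntervalIntegral.FundThmCalculus
import Mathlib.MeasureTheory.Measure.Lebesgue.EqHaar
import Mathlib.MeasureTheory.Measure.Prod
import Mathlib.MeasureTheory.Group.Integral

set_option autoImplicit false

namespace Fermat.Agent.S21.helper1545

open ModularCurve ModularCurve.Period CongruenceSubgroup UpperHalfPlane Filter Topology
open MeasureTheory Set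
open scoped MatrixGroups ENNReal NNReal

/-! ### The real-linear functional `v ↦ Re (b * v)` -/

/-- The real-linear functional `v ↦ Re (b * v)` on `ℂ`.  A real function `u` on `ℂ` has
Fréchet derivative `reMul a` at `z` iff `a = u_x - i u_y` at `z`. -/
noncomputable def reMul (b : ℂ) : ℂ →L[ℝ] ℝ :=
  Complex.reCLM.comp (ContinuousLinearMap.mul ℝ ℂ b)

@[simp] theorem reMul_apply (b v : ℂ) : reMul b v = (b * v).re := rfl

theorem enorm_reMul_apply_le (b v : ℂ) : ‖reMul b v‖ₑ ≤ ‖b‖ₑ * ‖v‖ₑ := by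
  rw [reMul_apply, ← enorm_mul]
  rw [enorm_le_iff_norm_le]
  rw [Real.norm_eq_abs]
  exact Complex.abs_re_le_norm _

/-! ### An `L¹` Poincaré inequality on convex sets of `ℂ` -/

/-- Fundamental theorem of calculus along a segment, as an `ℝ≥0∞` estimate. -/
theorem enorm_sub_le_segment {Ω : Set ℂ} (hc : Convex ℝ Ω) {e : ℂ → ℝ} {b : ℂ → ℂ}
    (he : ∀ x ∈ Ω, HasFDerivAt e (reMul (b x)) x) (hb : ContinuousOn b Ω)
    {x y : ℂ} (hx : x ∈ Ω) (hy : y ∈ Ω) :
    ‖e y - e x‖ₑ ≤ ‖y - x‖ₑ * ∫⁻ t in Icc (0 : ℝ) 1, ‖b (x + t • (y - x))‖ₑ := by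
  have hp : ∀ t ∈ Icc (0 : ℝ) 1, x + t • (y - x) ∈ Ω := fun t ht => hc.add_smul_sub_mem hx hy ht
  have hderiv : ∀ t ∈ uIcc (0 : ℝ) 1,
      HasDerivAt (fun t : ℝ => e (x + t • (y - x))) (reMul (b (x + t • (y - x))) (y - x)) t := by
    intro t ht
    rw [uIcc_of_le zero_le_one] at ht
    have h1 : HasDerivAt (fun t : ℝ => x + t • (y - x)) (y - x) t := by
      simpa using ((hasDerivAt_id t).smul_const (y - x)).const_add x
    exact (he _ (hp t ht)).comp_hasDerivAt t h1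
  have hpc : ContinuousOn (fun t : ℝ => x + t • (y - x)) (Icc (0 : ℝ) 1) :=
    (continuous_const.add (continuous_id.smul continuous_const)).continuousOn
  have hbc : ContinuousOn (fun t : ℝ => b (x + t • (y - x))) (Icc (0 : ℝ) 1) :=
    hb.comp hpc (fun t ht => hp t ht)
  have hcont : ContinuousOn (fun t : ℝ => reMul (b (x + t • (y - x))) (y - x)) (uIcc (0 : ℝ) 1) := by
    rw [uIcc_of_le zero_le_one]
    simp only [reMul_apply]
    exact Complex.continuous_re.comp_continuousOn (hbc.mul continuousOn_const)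
  have hint := intervalIntegral.integral_eq_sub_of_hasDerivAt hderiv hcont.intervalIntegrable
  simp only [one_smul, zero_smul, add_zero, add_sub_cancel] at hint
  rw [← hint, intervalIntegral.integral_of_le zero_le_one]
  calc ‖∫ t in Ioc (0 : ℝ) 1, reMul (b (x + t • (y - x))) (y - x)‖ₑ
      ≤ ∫⁻ t in Ioc (0 : ℝ) 1, ‖reMul (b (x + t • (y - x))) (y - x)‖ₑ :=
        enorm_integral_le_lintegral_enorm _
    _ ≤ ∫⁻ t in Icc (0 : ℝ) 1, ‖reMul (b (x + t • (y - x))) (y - x)‖ₑ :=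
        lintegral_mono_set Ioc_subset_Icc_self
    _ ≤ ∫⁻ t in Icc (0 : ℝ) 1, ‖y - x‖ₑ * ‖b (x + t • (y - x))‖ₑ := by
        refine lintegral_mono fun t => ?_
        rw [mul_comm]
        exact enorm_reMul_apply_le _ _
    _ = ‖y - x‖ₑ * ∫⁻ t in Icc (0 : ℝ) 1, ‖b (x + t • (y - x))‖ₑ :=
        lintegral_const_mul' _ _ enorm_ne_top

/-- Scaling and translating the variable in a Lebesgue integral over `ℂ`. -/
theorem lintegral_comp_smul_add {g : ℂ → ℝ≥0∞} (hg : Measurable g) {s : ℝ} (hs : s ≠ 0) (v : ℂ) :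
    ∫⁻ y : ℂ, g (s • y + v) = ENNReal.ofReal |(s ^ 2)⁻¹| * ∫⁻ y : ℂ, g y := by
  have h1 : Measurable (fun z : ℂ => g (z + v)) := hg.comp (measurable_id.add_const v)
  have h2 : ∫⁻ y : ℂ, g (s • y + v) = ∫⁻ z, g (z + v) ∂(Measure.map (fun x : ℂ => s • x) volume) := by
    rw [lintegral_map h1 (measurable_const_smul s)]
  rw [h2, Measure.map_addHaar_smul volume hs, Complex.finrank_real_complex, lintegral_smul_measure,
    lintegral_add_right_eq_self (fun z => g z) v, smul_eq_mul]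

/-- Auxiliary bound for the Poincaré inequality: integrating over the base point. -/
theorem lintegral_segment_le {Ω : Set ℂ} {g : ℂ → ℝ≥0∞} (hg : Measurable g) (x : ℂ) :
    ∫⁻ y in Ω, ∫⁻ t in Icc (0 : ℝ) 1, g ((1 - t / 2) • y + (t / 2) • x) ≤ 4 * ∫⁻ w, g w := by
  have hmeas : Measurable (Function.uncurry fun (y : ℂ) (t : ℝ) => g ((1 - t / 2) • y + (t / 2) • x)) := by
    refine hg.comp ?_
    have : Continuous fun p : ℂ × ℝ => (1 - p.2 / 2) • p.1 + (p.2 / 2) • x := by fun_prop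
    exact this.measurable
  rw [lintegral_lintegral_swap hmeas.aemeasurable]
  calc ∫⁻ t in Icc (0 : ℝ) 1, ∫⁻ y in Ω, g ((1 - t / 2) • y + (t / 2) • x)
      ≤ ∫⁻ t in Icc (0 : ℝ) 1, 4 * ∫⁻ w, g w := by
        refine setLIntegral_mono' measurableSet_Icc fun t ht => ?_
        have hs : (1 - t / 2) ≠ 0 := by
          have := ht.2
          intro h
          linarith
        calc ∫⁻ y in Ω, g ((1 - t / 2) • y + (t / 2) • x)
            ≤ ∫⁻ y, g ((1 - t / 2) • y + (t / 2) • x) := setLIntegral_le_lintegral _ _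
          _ = ENNReal.ofReal |((1 - t / 2) ^ 2)⁻¹| * ∫⁻ w, g w :=
              lintegral_comp_smul_add hg hs _
          _ ≤ 4 * ∫⁻ w, g w := by
              gcongr
              rw [show (4 : ℝ≥0∞) = ENNReal.ofReal 4 by norm_num]
              refine ENNReal.ofReal_le_ofReal ?_
              have h1 : (1 / 2 : ℝ) ≤ 1 - t / 2 := by linarith [ht.2]
              have h2 : (1 / 4 : ℝ) ≤ (1 - t / 2) ^ 2 := by nlinarith
              rw [abs_of_nonneg (by positivity)]
              rw [inv_le_comm₀ (by positivity) (by norm_num)]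
              linarith
    _ = 4 * ∫⁻ w, g w := by
        rw [lintegral_const, Measure.restrict_apply MeasurableSet.univ, univ_inter, Real.volume_Icc]
        simp

/-- `L¹` Poincaré inequality (in `ℝ≥0∞` form) on an open convex set `Ω ⊆ ℂ` of diameter at
most `D`, for a real function whose Fréchet derivative on `Ω` is `v ↦ Re (b x * v)` with `b`
continuous on `Ω`. -/
theorem poincare_L1 {Ω : Set ℂ} (hΩ : IsOpen Ω) (hc : Convex ℝ Ω) {D : ℝ≥0∞}
    (hD : ∀ x ∈ Ω, ∀ y ∈ Ω, ‖y - x‖ₑ ≤ D)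
    {e : ℂ → ℝ} {b : ℂ → ℂ} (he : ∀ x ∈ Ω, HasFDerivAt e (reMul (b x)) x)
    (hb : ContinuousOn b Ω) :
    ∫⁻ x in Ω, ∫⁻ y in Ω, ‖e x - e y‖ₑ ≤ 8 * D * volume Ω * ∫⁻ x in Ω, ‖b x‖ₑ := by
  classical
  set g : ℂ → ℝ≥0∞ := Ω.indicator (fun w => ‖b w‖ₑ) with hg_def
  have hgm : Measurable g := by
    rw [hg_def, ← Set.piecewise_eq_indicator]
    exact ContinuousOn.measurable_piecewise (continuous_enorm.comp_continuousOn hb)
      continuousOn_const hΩ.measurableSet
  have hgint : ∫⁻ w, g w = ∫⁻ w in Ω, ‖b w‖ₑ := lintegral_indicator hΩ.measurableSet _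
  -- the segment functional
  set Φ : ℂ → ℂ → ℝ≥0∞ := fun p q => ∫⁻ t in Icc (0 : ℝ) 1, g ((1 - t / 2) • p + (t / 2) • q)
    with hΦ_def
  have hΦm : Measurable (Function.uncurry Φ) := by
    have : Measurable (fun a : (ℂ × ℂ) × ℝ => g ((1 - a.2 / 2) • a.1.1 + (a.2 / 2) • a.1.2)) := by
      refine hgm.comp ?_
      have : Continuous fun a : (ℂ × ℂ) × ℝ => (1 - a.2 / 2) • a.1.1 + (a.2 / 2) • a.1.2 := by
        fun_prop
      exact this.measurable
    exact this.lintegral_prod_right'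
  have hΦm' : Measurable (fun a : ℂ × ℂ => Φ a.2 a.1) := hΦm.comp measurable_swap
  -- pointwise estimate
  have hpt : ∀ x ∈ Ω, ∀ y ∈ Ω, ‖e x - e y‖ₑ ≤ D * Φ x y + D * Φ y x := by
    intro x hx y hy
    set m : ℂ := x + (1 / 2 : ℝ) • (y - x) with hm_def
    have hm : m ∈ Ω := hc.add_smul_sub_mem hx hy ⟨by norm_num, by norm_num⟩
    have h1 := enorm_sub_le_segment hc he hb hx hm
    have h2 := enorm_sub_le_segment hc he hb hy hm
    have e1 : ∀ t : ℝ, x + t • (m - x) = (1 - t / 2) • x + (t / 2) • y := by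
      intro t
      simp only [hm_def, Complex.real_smul]
      push_cast
      ring
    have e2 : ∀ t : ℝ, y + t • (m - y) = (1 - t / 2) • y + (t / 2) • x := by
      intro t
      simp only [hm_def, Complex.real_smul]
      push_cast
      ring
    have i1 : ∫⁻ t in Icc (0 : ℝ) 1, ‖b (x + t • (m - x))‖ₑ = Φ x y := by
      refine setLIntegral_congr_fun measurableSet_Icc fun t ht => ?_
      have hmem : x + t • (m - x) ∈ Ω := hc.add_smul_sub_mem hx hm ht
      simp only [hg_def]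
      rw [← e1 t, indicator_of_mem hmem]
    have i2 : ∫⁻ t in Icc (0 : ℝ) 1, ‖b (y + t • (m - y))‖ₑ = Φ y x := by
      refine setLIntegral_congr_fun measurableSet_Icc fun t ht => ?_
      have hmem : y + t • (m - y) ∈ Ω := hc.add_smul_sub_mem hy hm ht
      simp only [hg_def]
      rw [← e2 t, indicator_of_mem hmem]
    rw [i1] at h1
    rw [i2] at h2
    calc ‖e x - e y‖ₑ = ‖(e m - e y) - (e m - e x)‖ₑ := by congr 1; ring
      _ ≤ ‖e m - e y‖ₑ + ‖e m - e x‖ₑ := enorm_sub_le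
      _ ≤ D * Φ y x + D * Φ x y :=
          add_le_add (h2.trans (mul_le_mul_left (hD y hy m hm) _))
            (h1.trans (mul_le_mul_left (hD x hx m hm) _))
      _ = D * Φ x y + D * Φ y x := add_comm _ _
  -- integrate
  have hJ : ∀ x : ℂ, ∫⁻ y in Ω, Φ y x ≤ 4 * ∫⁻ w, g w := fun x => lintegral_segment_le hgm x
  have hJtot : ∫⁻ x in Ω, ∫⁻ y in Ω, Φ y x ≤ 4 * volume Ω * ∫⁻ w, g w := by
    calc ∫⁻ x in Ω, ∫⁻ y in Ω, Φ y x ≤ ∫⁻ x in Ω, 4 * ∫⁻ w, g w := lintegral_mono fun x => hJ x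
      _ = 4 * volume Ω * ∫⁻ w, g w := by
          rw [lintegral_const, Measure.restrict_apply MeasurableSet.univ, univ_inter]
          ring
  have hswap : ∫⁻ x in Ω, ∫⁻ y in Ω, Φ x y = ∫⁻ y in Ω, ∫⁻ x in Ω, Φ x y :=
    lintegral_lintegral_swap hΦm.aemeasurable
  calc ∫⁻ x in Ω, ∫⁻ y in Ω, ‖e x - e y‖ₑ
      ≤ ∫⁻ x in Ω, ∫⁻ y in Ω, (D * Φ x y + D * Φ y x) := by
        refine setLIntegral_mono' hΩ.measurableSet fun x hx => ?_
        exact setLIntegral_mono' hΩ.measurableSet fun y hy => hpt x hx y hy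
    _ = ∫⁻ x in Ω, (D * ∫⁻ y in Ω, Φ x y) + (D * ∫⁻ y in Ω, Φ y x) := by
        refine lintegral_congr fun x => ?_
        rw [lintegral_add_left, lintegral_const_mul, lintegral_const_mul]
        · exact hΦm'.comp measurable_prodMk_left
        · exact hΦm.comp measurable_prodMk_left
        · exact (hΦm.comp measurable_prodMk_left).const_mul _
    _ = D * (∫⁻ x in Ω, ∫⁻ y in Ω, Φ x y) + D * ∫⁻ x in Ω, ∫⁻ y in Ω, Φ y x := by
        rw [lintegral_add_left, lintegral_const_mul, lintegral_const_mul]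
        · exact hΦm'.lintegral_prod_right'
        · exact hΦm.lintegral_prod_right'
        · exact hΦm.lintegral_prod_right'.const_mul _
    _ = D * (∫⁻ x in Ω, ∫⁻ y in Ω, Φ y x) + D * ∫⁻ x in Ω, ∫⁻ y in Ω, Φ y x := by
        rw [hswap]
    _ ≤ D * (4 * volume Ω * ∫⁻ w, g w) + D * (4 * volume Ω * ∫⁻ w, g w) := by gcongr
    _ = 8 * D * volume Ω * ∫⁻ x in Ω, ‖b x‖ₑ := by
        rw [hgint]
        ring

/-! ### Lebesgue measure on `ℍ` versus the hyperbolic measure -/

/-- Lebesgue measure on `ℍ`, pulled back from `ℂ`. -/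
noncomputable def lebH : Measure ℍ := (volume : Measure ℂ).comap UpperHalfPlane.coe

theorem lintegral_lebH (G : ℂ → ℝ≥0∞) :
    ∫⁻ z, G (z : ℂ) ∂lebH = ∫⁻ w in {w : ℂ | 0 < w.im}, G w := by
  rw [lebH, ← measurableEmbedding_coe.lintegral_map, measurableEmbedding_coe.map_comap, range_coe]

theorem setLIntegral_lebH (G : ℂ → ℝ≥0∞) {T : Set ℂ} (hT : MeasurableSet T)
    (hTU : T ⊆ {w : ℂ | 0 < w.im}) :
    ∫⁻ z in UpperHalfPlane.coe ⁻¹' T, G (z : ℂ) ∂lebH = ∫⁻ w in T, G w := by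
  rw [← lintegral_indicator (measurable_coe hT)]
  have h1 : (UpperHalfPlane.coe ⁻¹' T).indicator (fun z : ℍ => G (z : ℂ))
      = fun z : ℍ => (T.indicator G) (z : ℂ) := by
    funext z
    by_cases hz : (z : ℂ) ∈ T
    · rw [indicator_of_mem (show z ∈ UpperHalfPlane.coe ⁻¹' T from hz), indicator_of_mem hz]
    · rw [indicator_of_notMem (show z ∉ UpperHalfPlane.coe ⁻¹' T from hz), indicator_of_notMem hz]
  rw [h1, lintegral_lebH, lintegral_indicator hT, Measure.restrict_restrict hT,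
    inter_eq_left.mpr hTU]

theorem lebH_preimage {T : Set ℂ} (hT : MeasurableSet T) (hTU : T ⊆ {w : ℂ | 0 < w.im}) :
    lebH (UpperHalfPlane.coe ⁻¹' T) = volume T := by
  have := setLIntegral_lebH (fun _ => 1) hT hTU
  simpa using this

/-- The hyperbolic measure has density `(im z)⁻²` with respect to Lebesgue measure. -/
theorem volume_eq_lebH_withDensity :
    (volume : Measure ℍ) = lebH.withDensity fun z : ℍ => ENNReal.ofReal ((z.im ^ 2)⁻¹) := by
  rw [volume_def, lebH]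
  congr 1
  funext z
  rw [ENNReal.ofReal_eq_coe_nnreal (by positivity)]
  congr 1
  ext
  simp

theorem lintegral_volume_eq_lebH {H : ℍ → ℝ≥0∞} (hH : Measurable H) :
    ∫⁻ z, H z = ∫⁻ z, ENNReal.ofReal ((z.im ^ 2)⁻¹) * H z ∂lebH := by
  have hρ : Measurable fun z : ℍ => ENNReal.ofReal ((z.im ^ 2)⁻¹) :=
    ENNReal.measurable_ofReal.comp
      (((UpperHalfPlane.continuous_im.pow 2).inv₀ fun z => pow_ne_zero 2 z.im_ne_zero).measurable)
  rw [volume_eq_lebH_withDensity, lintegral_withDensity_eq_lintegral_mul _ hρ hH]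
  rfl

theorem measurable_sl_smul (γ : SL(2, ℤ)) : Measurable fun z : ℍ => γ • z := by
  have h : (fun z : ℍ => γ • z) = fun z : ℍ =>
      Matrix.SpecialLinearGroup.toGL ((Matrix.SpecialLinearGroup.map (Int.castRingHom ℝ)) γ) • z :=
    funext fun z => ModularGroup.sl_moeb γ z
  rw [h]
  exact (continuous_const_smul _).measurable

/-- Invariance of the hyperbolic measure under `SL(2,ℤ)`, for lower integrals. -/
theorem lintegral_smul_volume (γ : SL(2, ℤ)) {H : ℍ → ℝ≥0∞} (hH : Measurable H) :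
    ∫⁻ z, H (γ • z) = ∫⁻ z, H z := by
  simp_rw [ModularGroup.sl_moeb]
  exact (measurePreserving_smul _ (volume : Measure ℍ)).lintegral_comp hH

/-- Change of variables by a Möbius transformation for Lebesgue lower integrals, as an inequality
(no Jacobian: it is absorbed by the invariance of the hyperbolic measure). -/
theorem setLIntegral_smul_lebH_le (γ : SL(2, ℤ)) {H : ℍ → ℝ≥0∞} (hH : Measurable H)
    {S S' : Set ℍ} (hS : MeasurableSet S) (hS' : MeasurableSet S')
    (hmap : ∀ z ∈ S, γ • z ∈ S') {R δ : ℝ} (hδ : 0 < δ)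
    (hR : ∀ z ∈ S, z.im ≤ R) (hδ' : ∀ z ∈ S', δ ≤ z.im) :
    ∫⁻ z in S, H (γ • z) ∂lebH ≤ ENNReal.ofReal (R ^ 2 / δ ^ 2) * ∫⁻ z in S', H z ∂lebH := by
  have hHi : Measurable (S'.indicator H) := hH.indicator hS'
  have hHγ : Measurable (fun z : ℍ => (S'.indicator H) (γ • z)) :=
    hHi.comp (measurable_sl_smul γ)
  calc ∫⁻ z in S, H (γ • z) ∂lebH
      ≤ ∫⁻ z in S, ENNReal.ofReal (R ^ 2) *
          (ENNReal.ofReal ((z.im ^ 2)⁻¹) * (S'.indicator H) (γ • z)) ∂lebH := by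
        refine setLIntegral_mono' hS fun z hz => ?_
        rw [indicator_of_mem (hmap z hz), ← mul_assoc, ← ENNReal.ofReal_mul (by positivity)]
        have h1 : (1 : ℝ) ≤ R ^ 2 * (z.im ^ 2)⁻¹ := by
          have hz0 := z.im_pos
          have hzR := hR z hz
          rw [← div_eq_mul_inv, le_div_iff₀ (by positivity)]
          nlinarith
        calc H (γ • z) = 1 * H (γ • z) := (one_mul _).symm
          _ ≤ ENNReal.ofReal (R ^ 2 * (z.im ^ 2)⁻¹) * H (γ • z) := by
              gcongr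
              rw [← ENNReal.ofReal_one]
              exact ENNReal.ofReal_le_ofReal h1
    _ ≤ ∫⁻ z, ENNReal.ofReal (R ^ 2) *
          (ENNReal.ofReal ((z.im ^ 2)⁻¹) * (S'.indicator H) (γ • z)) ∂lebH :=
        setLIntegral_le_lintegral _ _
    _ = ENNReal.ofReal (R ^ 2) *
          ∫⁻ z, ENNReal.ofReal ((z.im ^ 2)⁻¹) * (S'.indicator H) (γ • z) ∂lebH :=
        lintegral_const_mul' _ _ ENNReal.ofReal_ne_top
    _ = ENNReal.ofReal (R ^ 2) * ∫⁻ z, (S'.indicator H) (γ • z) := by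
        rw [lintegral_volume_eq_lebH hHγ]
    _ = ENNReal.ofReal (R ^ 2) * ∫⁻ z, (S'.indicator H) z := by
        rw [lintegral_smul_volume γ hHi]
    _ = ENNReal.ofReal (R ^ 2) *
          ∫⁻ z, ENNReal.ofReal ((z.im ^ 2)⁻¹) * (S'.indicator H) z ∂lebH := by
        rw [lintegral_volume_eq_lebH hHi]
    _ ≤ ENNReal.ofReal (R ^ 2) *
          ∫⁻ z, ENNReal.ofReal ((δ ^ 2)⁻¹) * (S'.indicator H) z ∂lebH := by
        refine mul_le_mul_right (lintegral_mono fun z => ?_) _
        by_cases hz : z ∈ S'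
        · have h1 : (z.im ^ 2)⁻¹ ≤ (δ ^ 2)⁻¹ := by
            have := hδ' z hz
            gcongr
          exact mul_le_mul_left (ENNReal.ofReal_le_ofReal h1) _
        · simp [indicator_of_notMem hz]
    _ = ENNReal.ofReal (R ^ 2) * (ENNReal.ofReal ((δ ^ 2)⁻¹) * ∫⁻ z in S', H z ∂lebH) := by
        rw [lintegral_const_mul' _ _ ENNReal.ofReal_ne_top, lintegral_indicator hS']
    _ = ENNReal.ofReal (R ^ 2 / δ ^ 2) * ∫⁻ z in S', H z ∂lebH := by
        rw [← mul_assoc, ← ENNReal.ofReal_mul (by positivity), div_eq_mul_inv]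

/-! ### Period continuity -/

theorem reMul_sub (a b : ℂ) : reMul a - reMul b = reMul (a - b) := by
  ext v
  simp [sub_mul]

/-- The real part of a holomorphic primitive of `f` has complex gradient `f`. -/
theorem hasFDerivAt_re_primitive {G : ℂ → ℂ} {c w : ℂ} (h : HasDerivAt G c w) :
    HasFDerivAt (fun x => (G x).re) (reMul c) w := by
  have h1 : HasFDerivAt G ((ContinuousLinearMap.toSpanSingleton ℂ c).restrictScalars ℝ) w :=
    h.hasFDerivAt.restrictScalars ℝ
  have h2 := Complex.reCLM.hasFDerivAt.comp w h1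
  have h3 : Complex.reCLM.comp ((ContinuousLinearMap.toSpanSingleton ℂ c).restrictScalars ℝ)
      = reMul c := by
    ext v
    simp [mul_comm]
  rw [h3] at h2
  exact h2

/-- **Period continuity** (Route 2, leaf PER), `L¹_loc` form.

Let `f` be a weight-2 cusp form on `Γ₀(N)` with equivariant primitive `F`, `φ` a real-valued
function on `Γ₀(N)`, and `U n : ℂ → ℝ` a sequence of potentials on the upper half-plane:
`U n (γ z) = U n z + φ γ`, with real Fréchet derivative `v ↦ Re (A n w * v)` at every `w` in the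
upper half-plane (i.e. `A n = (U n)_x - i (U n)_y`), `A n` continuous there.  If `A n → f` in
`L¹` on every compact subset of the upper half-plane, then `Re (periodMap N f γ) = φ γ`. -/
theorem re_periodMap_eq_of_potentials {N : ℕ} (f : CuspForm (Gamma0 N) 2) {F : ℍ → ℂ}
    (hF : HasEquivariantPrimitive N f F) (φ : Additive (Gamma0 N) →+ ℝ)
    (U : ℕ → ℂ → ℝ) (A : ℕ → ℂ → ℂ)
    (hU : ∀ (n : ℕ) (γ : Gamma0 N) (z : ℍ),
      U n (((γ : SL(2, ℤ)) • z : ℍ) : ℂ) = U n (z : ℂ) + φ (Additive.ofMul γ))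
    (hd : ∀ (n : ℕ) (w : ℂ), 0 < w.im → HasFDerivAt (U n) (reMul (A n w)) w)
    (hA : ∀ n : ℕ, ContinuousOn (A n) {w : ℂ | 0 < w.im})
    (hL : ∀ K : Set ℂ, IsCompact K → K ⊆ {w : ℂ | 0 < w.im} →
      Tendsto (fun n => ∫⁻ w in K, ‖A n w - f (ofComplex w)‖ₑ) atTop (𝓝 0))
    (γ : Gamma0 N) :
    (periodMap N f (Additive.ofMul γ)).re = φ (Additive.ofMul γ) := by
  classical
  set UH : Set ℂ := {w : ℂ | 0 < w.im} with hUH
  -- the constant to be shown zero
  set c : ℝ := φ (Additive.ofMul γ) - (periodMap N f (Additive.ofMul γ)).re with hc_def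
  suffices hc0 : c = 0 by
    have := hc0
    rw [hc_def] at this
    linarith
  -- the error potentials
  set E : ℕ → ℂ → ℝ := fun n w => U n w - (F (ofComplex w)).re with hE_def
  set bfun : ℕ → ℂ → ℂ := fun n w => A n w - f (ofComplex w) with hb_def
  have hEγ : ∀ (n : ℕ) (z : ℍ), E n (((γ : SL(2, ℤ)) • z : ℍ) : ℂ) - E n (z : ℂ) = c := by
    intro n z
    have h1 := hU n γ z
    have h2 := hF.2.2.1.sub_eq_period γ z
    have h3 := helper921.periodMap_apply_of_primitive hF γ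
    have h4 : hF.2.2.1.period γ
        = F ((γ : SL(2, ℤ)) • UpperHalfPlane.I) - F UpperHalfPlane.I := rfl
    have h5 : (F ((γ : SL(2, ℤ)) • z)).re - (F z).re = (periodMap N f (Additive.ofMul γ)).re := by
      rw [h3, ← h4, ← h2, Complex.sub_re]
    simp only [hE_def, ofComplex_apply, hc_def]
    rw [h1]
    linarith
  have hEd : ∀ (n : ℕ) (w : ℂ), w ∈ UH → HasFDerivAt (E n) (reMul (bfun n w)) w := by
    intro n w hw
    have hw' : 0 < w.im := hw
    have h1 := hF.1 ⟨w, hw'⟩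
    have h2 : HasDerivAt (F ∘ ofComplex) (f (ofComplex w)) w := by
      rw [ofComplex_apply_of_im_pos hw']
      exact h1
    have h3 := hasFDerivAt_re_primitive h2
    have h4 := (hd n w hw').sub h3
    rw [reMul_sub] at h4
    exact h4
  have hfc : ContinuousOn (fun w : ℂ => f (ofComplex w)) UH :=
    (UpperHalfPlane.mdifferentiable_iff.mp (CuspFormClass.holo f)).continuousOn
  have hbc : ∀ n : ℕ, ContinuousOn (bfun n) UH := fun n => (hA n).sub hfc
  -- the small ball and its translate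
  set B0 : Set ℂ := Metric.ball Complex.I (1 / 2) with hB0
  set K0 : Set ℂ := Metric.closedBall Complex.I (1 / 2) with hK0
  have hK0UH : K0 ⊆ UH := by
    intro w hw
    have h1 : ‖w - Complex.I‖ ≤ 1 / 2 := by simpa [hK0, dist_eq_norm] using hw
    have h2 : |(w - Complex.I).im| ≤ ‖w - Complex.I‖ := Complex.abs_im_le_norm _
    have h3 : (w - Complex.I).im = w.im - 1 := by simp
    rw [h3] at h2
    have h4 := (abs_le.mp (h2.trans h1)).1
    show 0 < w.im
    linarith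
  have hB0K0 : B0 ⊆ K0 := Metric.ball_subset_closedBall
  have hK0c : IsCompact (UpperHalfPlane.coe ⁻¹' K0) := by
    rw [isEmbedding_coe.isInducing.isCompact_preimage_iff (by rw [range_coe]; exact hK0UH)]
    exact isCompact_closedBall _ _
  have hmc : Continuous fun z : ℍ => (((γ : SL(2, ℤ)) • z : ℍ) : ℂ) := by
    have h : (fun z : ℍ => (((γ : SL(2, ℤ)) • z : ℍ) : ℂ)) = fun z : ℍ =>
        ((Matrix.SpecialLinearGroup.toGL ((Matrix.SpecialLinearGroup.map (Int.castRingHom ℝ))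
          (γ : SL(2, ℤ))) • z : ℍ) : ℂ) :=
      funext fun z => by rw [ModularGroup.sl_moeb]
    rw [h]
    exact continuous_coe.comp (continuous_const_smul _)
  set K1 : Set ℂ := K0 ∪ (fun z : ℍ => (((γ : SL(2, ℤ)) • z : ℍ) : ℂ)) '' (UpperHalfPlane.coe ⁻¹' K0)
    with hK1
  have hK1c : IsCompact K1 := (isCompact_closedBall _ _).union (hK0c.image hmc)
  have hK1UH : K1 ⊆ UH := by
    rintro w (hw | ⟨z, -, rfl⟩)
    · exact hK0UH hw
    · exact ((γ : SL(2, ℤ)) • z).im_pos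
  have hIK1 : Complex.I ∈ K1 := Or.inl (by simp [hK0])
  obtain ⟨x0, hx0, hx0min⟩ := hK1c.exists_isMinOn ⟨_, hIK1⟩ Complex.continuous_im.continuousOn
  obtain ⟨R, hR⟩ := (Metric.isBounded_iff_subset_ball (0 : ℂ)).1 hK1c.isBounded
  set δ : ℝ := x0.im / 2 with hδ_def
  have hδ : 0 < δ := by
    have : 0 < x0.im := hK1UH hx0
    positivity
  have hK1δ : ∀ w ∈ K1, δ < w.im := by
    intro w hw
    have h1 : x0.im ≤ w.im := hx0min hw
    have h2 : 0 < x0.im := hK1UH hx0
    rw [hδ_def]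
    linarith
  have hRpos : 0 < R := by
    have := hR hIK1
    simp only [Metric.mem_ball, dist_zero_right, Complex.norm_I] at this
    linarith
  set Ω : Set ℂ := {w : ℂ | δ < w.im} ∩ Metric.ball 0 R with hΩ_def
  have hΩo : IsOpen Ω := (isOpen_lt continuous_const Complex.continuous_im).inter Metric.isOpen_ball
  have hΩm : MeasurableSet Ω := hΩo.measurableSet
  have hΩc : Convex ℝ Ω := (convex_halfSpace_im_gt δ).inter (convex_ball 0 R)
  have hK1Ω : K1 ⊆ Ω := fun w hw => ⟨hK1δ w hw, hR hw⟩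
  have hΩUH : Ω ⊆ UH := fun w hw => hδ.trans hw.1
  have hΩim : ∀ w ∈ Ω, w.im ≤ R := by
    intro w hw
    have h1 : ‖w‖ < R := by simpa using hw.2
    have h2 : |w.im| ≤ ‖w‖ := Complex.abs_im_le_norm w
    exact (le_abs_self _).trans (h2.trans h1.le)
  have hΩD : ∀ x ∈ Ω, ∀ y ∈ Ω, ‖y - x‖ₑ ≤ ENNReal.ofReal (2 * R) := by
    intro x hx y hy
    have h1 : ‖x‖ < R := by simpa using hx.2
    have h2 : ‖y‖ < R := by simpa using hy.2
    rw [← ofReal_norm]
    refine ENNReal.ofReal_le_ofReal ?_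
    have := norm_sub_le y x
    linarith
  have hΩfin : volume Ω ≠ ∞ :=
    ((measure_mono inter_subset_right).trans_lt measure_ball_lt_top).ne
  have hB0Ω : B0 ⊆ Ω := fun w hw => hK1Ω (Or.inl (hB0K0 hw))
  have hΩne : volume Ω ≠ 0 := (hΩo.measure_pos volume ⟨_, hK1Ω hIK1⟩).ne'
  have hB0ne : volume B0 ≠ 0 := (Metric.measure_ball_pos volume _ (by norm_num)).ne'
  -- the compact set on which we use the convergence hypothesis
  set Kc : Set ℂ := {w : ℂ | δ ≤ w.im} ∩ Metric.closedBall 0 R with hKc_def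
  have hKcc : IsCompact Kc :=
    (isCompact_closedBall (0 : ℂ) R).inter_left (isClosed_le continuous_const Complex.continuous_im)
  have hKcUH : Kc ⊆ UH := fun w hw => hδ.trans_le hw.1
  have hΩKc : Ω ⊆ Kc := fun w hw =>
    ⟨(show δ < w.im from hw.1).le, Metric.ball_subset_closedBall hw.2⟩
  have hlim := hL Kc hKcc hKcUH
  -- sets in `ℍ`
  set S : Set ℍ := UpperHalfPlane.coe ⁻¹' B0 with hS_def
  set S' : Set ℍ := UpperHalfPlane.coe ⁻¹' Ω with hS'_def
  have hSm : MeasurableSet S := measurable_coe Metric.isOpen_ball.measurableSet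
  have hS'm : MeasurableSet S' := measurable_coe hΩm
  have hSS' : S ⊆ S' := fun z hz => hB0Ω hz
  have hSγ : ∀ z ∈ S, (γ : SL(2, ℤ)) • z ∈ S' := fun z hz =>
    hK1Ω (Or.inr ⟨z, hB0K0 hz, rfl⟩)
  -- the main estimate for each `n`
  set C : ℝ≥0∞ := (ENNReal.ofReal (R ^ 2 / δ ^ 2) + 1) * (8 * ENNReal.ofReal (2 * R) * volume Ω)
    with hC_def
  have hCfin : C ≠ ∞ := by
    rw [hC_def]
    exact ENNReal.mul_ne_top (by simp)
      (ENNReal.mul_ne_top (ENNReal.mul_ne_top (by simp) ENNReal.ofReal_ne_top) hΩfin)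
  have hmain : ∀ n : ℕ, ‖c‖ₑ * volume Ω * volume B0
      ≤ C * ∫⁻ w in Kc, ‖A n w - f (ofComplex w)‖ₑ := by
    intro n
    -- measurable version of `E n`
    set E1 : ℂ → ℝ := Ω.piecewise (E n) 0 with hE1_def
    have hEcont : ContinuousOn (E n) Ω := fun w hw =>
      (hEd n w (hΩUH hw)).continuousAt.continuousWithinAt
    have hE1m : Measurable E1 :=
      ContinuousOn.measurable_piecewise hEcont continuousOn_const hΩm
    have hE1eq : ∀ w ∈ Ω, E1 w = E n w := fun w hw => piecewise_eq_of_mem _ _ _ hw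
    set G : ℂ → ℝ≥0∞ := fun x => ∫⁻ y in Ω, ‖E1 x - E1 y‖ₑ with hG_def
    have hGm : Measurable G := by
      have : Measurable fun p : ℂ × ℂ => ‖E1 p.1 - E1 p.2‖ₑ :=
        ((hE1m.comp measurable_fst).sub (hE1m.comp measurable_snd)).enorm
      exact this.lintegral_prod_right'
    have hGH : Measurable fun z : ℍ => G (z : ℂ) := hGm.comp measurable_coe
    -- Poincaré
    have hP : ∫⁻ x in Ω, G x ≤ 8 * ENNReal.ofReal (2 * R) * volume Ω *
        ∫⁻ w in Kc, ‖A n w - f (ofComplex w)‖ₑ := by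
      have h1 := poincare_L1 hΩo hΩc hΩD (fun x hx => hEd n x (hΩUH hx)) ((hbc n).mono hΩUH)
      have h2 : ∫⁻ x in Ω, G x = ∫⁻ x in Ω, ∫⁻ y in Ω, ‖E n x - E n y‖ₑ := by
        refine setLIntegral_congr_fun hΩm fun x hx => ?_
        refine setLIntegral_congr_fun hΩm fun y hy => ?_
        rw [hE1eq x hx, hE1eq y hy]
      rw [h2]
      refine h1.trans ?_
      gcongr
    -- pointwise bound on the small ball
    have hpt : ∀ z ∈ S, ‖c‖ₑ * volume Ω ≤ G (((γ : SL(2, ℤ)) • z : ℍ) : ℂ) + G (z : ℂ) := by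
      intro z hz
      have hz1 : (z : ℂ) ∈ Ω := hSS' hz
      have hz2 : (((γ : SL(2, ℤ)) • z : ℍ) : ℂ) ∈ Ω := hSγ z hz
      have hm1 : Measurable fun y : ℂ => ‖E1 (((γ : SL(2, ℤ)) • z : ℍ) : ℂ) - E1 y‖ₑ :=
        (measurable_const.sub hE1m).enorm
      calc ‖c‖ₑ * volume Ω = ∫⁻ _y in Ω, ‖c‖ₑ := by
            rw [lintegral_const, Measure.restrict_apply MeasurableSet.univ, univ_inter]
        _ ≤ ∫⁻ y in Ω, (‖E1 (((γ : SL(2, ℤ)) • z : ℍ) : ℂ) - E1 y‖ₑ + ‖E1 (z : ℂ) - E1 y‖ₑ) := by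
            refine setLIntegral_mono' hΩm fun y hy => ?_
            rw [hE1eq _ hz1, hE1eq _ hz2, hE1eq y hy]
            have : c = (E n (((γ : SL(2, ℤ)) • z : ℍ) : ℂ) - E n y) - (E n (z : ℂ) - E n y) := by
              rw [← hEγ n z]
              ring
            rw [this]
            exact enorm_sub_le
        _ = G (((γ : SL(2, ℤ)) • z : ℍ) : ℂ) + G (z : ℂ) := lintegral_add_left hm1 _
    -- integrate over the small ball
    have hI1 : ∫⁻ z in S, G (((γ : SL(2, ℤ)) • z : ℍ) : ℂ) ∂lebH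
        ≤ ENNReal.ofReal (R ^ 2 / δ ^ 2) * ∫⁻ z in S', G (z : ℂ) ∂lebH :=
      setLIntegral_smul_lebH_le (γ : SL(2, ℤ)) hGH hSm hS'm hSγ hδ
        (fun z hz => hΩim _ (hSS' hz)) (fun z hz => (show δ < (z : ℂ).im from hz.1).le)
    have hI2 : ∫⁻ z in S, G (z : ℂ) ∂lebH ≤ ∫⁻ z in S', G (z : ℂ) ∂lebH :=
      lintegral_mono_set hSS'
    have hI3 : ∫⁻ z in S', G (z : ℂ) ∂lebH = ∫⁻ x in Ω, G x := setLIntegral_lebH G hΩm hΩUH
    have hSvol : lebH S = volume B0 :=
      lebH_preimage Metric.isOpen_ball.measurableSet (hB0K0.trans hK0UH)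
    calc ‖c‖ₑ * volume Ω * volume B0 = ∫⁻ _z in S, ‖c‖ₑ * volume Ω ∂lebH := by
          rw [lintegral_const, Measure.restrict_apply MeasurableSet.univ, univ_inter, hSvol]
      _ ≤ ∫⁻ z in S, (G (((γ : SL(2, ℤ)) • z : ℍ) : ℂ) + G (z : ℂ)) ∂lebH :=
          setLIntegral_mono' hSm hpt
      _ = ∫⁻ z in S, G (((γ : SL(2, ℤ)) • z : ℍ) : ℂ) ∂lebH + ∫⁻ z in S, G (z : ℂ) ∂lebH :=
          lintegral_add_right _ hGH
      _ ≤ ENNReal.ofReal (R ^ 2 / δ ^ 2) * ∫⁻ z in S', G (z : ℂ) ∂lebH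
            + ∫⁻ z in S', G (z : ℂ) ∂lebH := add_le_add hI1 hI2
      _ = (ENNReal.ofReal (R ^ 2 / δ ^ 2) + 1) * ∫⁻ x in Ω, G x := by
          rw [hI3]
          ring
      _ ≤ (ENNReal.ofReal (R ^ 2 / δ ^ 2) + 1) * (8 * ENNReal.ofReal (2 * R) * volume Ω *
            ∫⁻ w in Kc, ‖A n w - f (ofComplex w)‖ₑ) := by gcongr
      _ = C * ∫⁻ w in Kc, ‖A n w - f (ofComplex w)‖ₑ := by
          rw [hC_def]
          ring
  -- pass to the limit
  have hlim2 : Tendsto (fun n => C * ∫⁻ w in Kc, ‖A n w - f (ofComplex w)‖ₑ) atTop (𝓝 (C * 0)) :=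
    ENNReal.Tendsto.const_mul hlim (Or.inr hCfin)
  rw [mul_zero] at hlim2
  have hzero : ‖c‖ₑ * volume Ω * volume B0 ≤ 0 := ge_of_tendsto' hlim2 hmain
  have hzero' : ‖c‖ₑ * volume Ω * volume B0 = 0 := nonpos_iff_eq_zero.mp hzero
  rcases mul_eq_zero.mp hzero' with h | h
  · rcases mul_eq_zero.mp h with h | h
    · simpa using h
    · exact absurd h hΩne
  · exact absurd h hB0ne

end Fermat.Agent.S21.helper1545
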