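/-
helper1545: S21 Route 2 (Hodge/Weyl), leaf (5) PER = period continuity, `L²` and `fderiv` forms.

Bridges from `Fermat.Agent.S21.helper1545.re_periodMap_eq_of_potentials` (the `L¹_loc` form with
`HasFDerivAt` hypotheses) to the shapes produced by the other Route-2 leaves:
* `L²_loc` convergence stated with Bochner integrals `∫ w in K, ‖A n w - h w‖ ^ 2`;
* potentials given as `ContDiffOn ℝ 1 (u n) {w | 0 < w.im}` with the complex gradient
  `fderiv ℝ u w 1 - fderiv ℝ u w I * I`.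
-/
import Fermat.Agent.S21.helper1545_PeriodCont
import Mathlib.Analysis.Calculus.ContDiff.Basic
import Mathlib.MeasureTheory.Integral.Bochner.Set

set_option autoImplicit false

namespace Fermat.Agent.S21.helper1545

open ModularCurve ModularCurve.Period CongruenceSubgroup UpperHalfPlane Filter Topology
open MeasureTheory Set
open scoped MatrixGroups ENNReal NNReal

/-- On a compact set, `L²` convergence to zero of continuous functions implies `L¹` convergence
to zero (stated with a Bochner integral on the `L²` side and a lower integral on the `L¹` side). -/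
theorem tendsto_lintegral_enorm_of_sq {K : Set ℂ} (hK : IsCompact K) {g : ℕ → ℂ → ℂ}
    (hg : ∀ n, ContinuousOn (g n) K)
    (h2 : Tendsto (fun n => ∫ w in K, ‖g n w‖ ^ 2) atTop (𝓝 0)) :
    Tendsto (fun n => ∫⁻ w in K, ‖g n w‖ₑ) atTop (𝓝 0) := by
  have hKfin : volume K ≠ ∞ := hK.measure_lt_top.ne
  set v : ℝ := (volume K).toReal with hv_def
  have hv0 : 0 ≤ v := ENNReal.toReal_nonneg
  have hv : volume K = ENNReal.ofReal v := (ENNReal.ofReal_toReal hKfin).symm
  have key : ∀ (n : ℕ) (ε : ℝ), 0 < ε →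
      ∫⁻ w in K, ‖g n w‖ₑ ≤ ENNReal.ofReal (ε * v + ε⁻¹ * ∫ w in K, ‖g n w‖ ^ 2) := by
    intro n ε hε
    have hint : IntegrableOn (fun w => ‖g n w‖ ^ 2) K :=
      ((hg n).norm.pow 2).integrableOn_compact hK
    have hQ : ∫⁻ w in K, ENNReal.ofReal (‖g n w‖ ^ 2) = ENNReal.ofReal (∫ w in K, ‖g n w‖ ^ 2) :=
      (ofReal_integral_eq_lintegral_ofReal hint (ae_of_all _ fun w => by positivity)).symm
    have hpt : ∀ w : ℂ, ‖g n w‖ₑ ≤ ENNReal.ofReal ε + ENNReal.ofReal ε⁻¹ * ENNReal.ofReal (‖g n w‖ ^ 2) := by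
      intro w
      rw [← ofReal_norm, ← ENNReal.ofReal_mul (inv_nonneg.2 hε.le),
        ← ENNReal.ofReal_add hε.le (by positivity)]
      refine ENNReal.ofReal_le_ofReal ?_
      rw [← sub_nonneg]
      have : ε + ε⁻¹ * ‖g n w‖ ^ 2 - ‖g n w‖ = ((ε - ‖g n w‖ / 2) ^ 2 + 3 / 4 * ‖g n w‖ ^ 2) / ε := by
        field_simp
        ring
      rw [this]
      positivity
    calc ∫⁻ w in K, ‖g n w‖ₑ
        ≤ ∫⁻ w in K, (ENNReal.ofReal ε + ENNReal.ofReal ε⁻¹ * ENNReal.ofReal (‖g n w‖ ^ 2)) :=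
          lintegral_mono hpt
      _ = ENNReal.ofReal ε * volume K
            + ENNReal.ofReal ε⁻¹ * ENNReal.ofReal (∫ w in K, ‖g n w‖ ^ 2) := by
          rw [lintegral_add_left measurable_const, lintegral_const,
            Measure.restrict_apply MeasurableSet.univ, univ_inter,
            lintegral_const_mul' _ _ ENNReal.ofReal_ne_top, hQ]
      _ = ENNReal.ofReal (ε * v + ε⁻¹ * ∫ w in K, ‖g n w‖ ^ 2) := by
          have hQ0 : 0 ≤ ∫ w in K, ‖g n w‖ ^ 2 := integral_nonneg fun w => by positivity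
          rw [hv, ← ENNReal.ofReal_mul hε.le, ← ENNReal.ofReal_mul (inv_nonneg.2 hε.le),
            ← ENNReal.ofReal_add (by positivity) (by positivity)]
  rw [ENNReal.tendsto_nhds_zero]
  intro η hη
  by_cases hηt : η = ⊤
  · simp [hηt]
  set η' : ℝ := η.toReal with hη'_def
  have hη' : 0 < η' := ENNReal.toReal_pos hη.ne' hηt
  set ε : ℝ := η' / (2 * (v + 1)) with hε_def
  have hε : 0 < ε := by positivity
  have hev : ∀ᶠ n in atTop, ∫ w in K, ‖g n w‖ ^ 2 < ε * (η' / 2) :=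
    (tendsto_order.1 h2).2 _ (by positivity)
  filter_upwards [hev] with n hn
  calc ∫⁻ w in K, ‖g n w‖ₑ ≤ ENNReal.ofReal (ε * v + ε⁻¹ * ∫ w in K, ‖g n w‖ ^ 2) := key n ε hε
    _ ≤ ENNReal.ofReal η' := by
        refine ENNReal.ofReal_le_ofReal ?_
        have h1 : ε * v ≤ η' / 2 := by
          rw [hε_def, div_mul_eq_mul_div, div_le_div_iff₀ (by positivity) (by norm_num)]
          nlinarith
        have h2' : ε⁻¹ * ∫ w in K, ‖g n w‖ ^ 2 ≤ η' / 2 := by
          rw [inv_mul_le_iff₀ hε]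
          exact hn.le
        linarith
    _ = η := ENNReal.ofReal_toReal hηt

/-- **Period continuity**, `L²_loc` form: as `re_periodMap_eq_of_potentials`, but the convergence
`A n → f` is assumed in `L²` on compact subsets of the upper half-plane, in the shape produced by
the Weyl-lemma leaf (`h` is the holomorphic limit, `f` the cusp form with `f z = h z`). -/
theorem re_periodMap_eq_of_potentials_L2 {N : ℕ} (f : CuspForm (Gamma0 N) 2) {F : ℍ → ℂ}
    (hF : HasEquivariantPrimitive N f F) (φ : Additive (Gamma0 N) →+ ℝ)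
    (U : ℕ → ℂ → ℝ) (A : ℕ → ℂ → ℂ) (h : ℂ → ℂ)
    (hU : ∀ (n : ℕ) (γ : Gamma0 N) (z : ℍ),
      U n (((γ : SL(2, ℤ)) • z : ℍ) : ℂ) = U n (z : ℂ) + φ (Additive.ofMul γ))
    (hd : ∀ (n : ℕ) (w : ℂ), 0 < w.im → HasFDerivAt (U n) (reMul (A n w)) w)
    (hA : ∀ n : ℕ, ContinuousOn (A n) {w : ℂ | 0 < w.im})
    (hh : ∀ z : ℍ, f z = h (z : ℂ))
    (hL2 : ∀ K : Set ℂ, IsCompact K → K ⊆ {w : ℂ | 0 < w.im} →
      Tendsto (fun n => ∫ w in K, ‖A n w - h w‖ ^ 2) atTop (𝓝 0))
    (γ : Gamma0 N) :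
    (periodMap N f (Additive.ofMul γ)).re = φ (Additive.ofMul γ) := by
  refine re_periodMap_eq_of_potentials f hF φ U A hU hd hA (fun K hK hKU => ?_) γ
  have hfc : ContinuousOn (fun w : ℂ => f (ofComplex w)) {w : ℂ | 0 < w.im} :=
    (UpperHalfPlane.mdifferentiable_iff.mp (CuspFormClass.holo f)).continuousOn
  have hfh : ∀ w ∈ K, f (ofComplex w) = h w := by
    intro w hw
    have hw' : 0 < w.im := hKU hw
    rw [ofComplex_apply_of_im_pos hw']
    exact hh ⟨w, hw'⟩
  refine tendsto_lintegral_enorm_of_sq hK (fun n => ((hA n).sub hfc).mono hKU) ?_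
  have heq : ∀ n : ℕ, ∫ w in K, ‖A n w - f (ofComplex w)‖ ^ 2 = ∫ w in K, ‖A n w - h w‖ ^ 2 := by
    intro n
    refine setIntegral_congr_fun hK.measurableSet fun w hw => ?_
    simp only [hfh w hw]
  simp only [heq]
  exact hL2 K hK hKU

/-! ### Potentials given through `fderiv` -/

/-- A real-linear functional on `ℂ` is `v ↦ Re (a * v)` with `a = L 1 - (L I) * I`. -/
theorem clm_eq_reMul (L : ℂ →L[ℝ] ℝ) :
    L = reMul ((L 1 : ℂ) - (L Complex.I : ℂ) * Complex.I) := by
  ext v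
  have hv : v = v.re • (1 : ℂ) + v.im • Complex.I := by
    apply Complex.ext <;> simp
  conv_lhs => rw [hv]
  rw [map_add, map_smul, map_smul, reMul_apply]
  simp only [smul_eq_mul, Complex.mul_re, Complex.sub_re, Complex.sub_im, Complex.ofReal_re,
    Complex.ofReal_im, Complex.mul_im, Complex.I_re, Complex.I_im]
  ring

/-- **Period continuity**, `fderiv`/`L²_loc` form.  Potentials are `C¹` functions
`u n : ℂ → ℝ` on the upper half-plane with `u n (γ z) = u n z + φ γ`; their complex gradients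
`fderiv ℝ (u n) w 1 - fderiv ℝ (u n) w I * I` converge in `L²_loc` to `h`, and `f z = h z`. -/
theorem re_periodMap_eq_of_contDiffOn {N : ℕ} (f : CuspForm (Gamma0 N) 2) {F : ℍ → ℂ}
    (hF : HasEquivariantPrimitive N f F) (φ : Additive (Gamma0 N) →+ ℝ)
    (u : ℕ → ℂ → ℝ) (h : ℂ → ℂ)
    (hu : ∀ n : ℕ, ContDiffOn ℝ 1 (u n) {w : ℂ | 0 < w.im})
    (hU : ∀ (n : ℕ) (γ : Gamma0 N) (z : ℍ),
      u n (((γ : SL(2, ℤ)) • z : ℍ) : ℂ) = u n (z : ℂ) + φ (Additive.ofMul γ))
    (hh : ∀ z : ℍ, f z = h (z : ℂ))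
    (hL2 : ∀ K : Set ℂ, IsCompact K → K ⊆ {w : ℂ | 0 < w.im} →
      Tendsto (fun n => ∫ w in K,
        ‖((fderiv ℝ (u n) w 1 : ℝ) : ℂ) - ((fderiv ℝ (u n) w Complex.I : ℝ) : ℂ) * Complex.I - h w‖ ^ 2)
        atTop (𝓝 0))
    (γ : Gamma0 N) :
    (periodMap N f (Additive.ofMul γ)).re = φ (Additive.ofMul γ) := by
  have hopen : IsOpen {w : ℂ | 0 < w.im} := isOpen_lt continuous_const Complex.continuous_im
  refine re_periodMap_eq_of_potentials_L2 f hF φ u
    (fun n w => ((fderiv ℝ (u n) w 1 : ℝ) : ℂ) - ((fderiv ℝ (u n) w Complex.I : ℝ) : ℂ) * Complex.I)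
    h hU (fun n w hw => ?_) (fun n => ?_) hh hL2 γ
  · have hdiff : DifferentiableAt ℝ (u n) w :=
      ((hu n).differentiableOn one_ne_zero).differentiableAt (hopen.mem_nhds hw)
    have := hdiff.hasFDerivAt
    rwa [clm_eq_reMul (fderiv ℝ (u n) w)] at this
  · have hc : ContinuousOn (fderiv ℝ (u n)) {w : ℂ | 0 < w.im} :=
      (hu n).continuousOn_fderiv_of_isOpen hopen le_rfl
    have h1 : ContinuousOn (fun w => fderiv ℝ (u n) w 1) {w : ℂ | 0 < w.im} :=
      hc.clm_apply continuousOn_const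
    have h2 : ContinuousOn (fun w => fderiv ℝ (u n) w Complex.I) {w : ℂ | 0 < w.im} :=
      hc.clm_apply continuousOn_const
    exact (Complex.continuous_ofReal.comp_continuousOn h1).sub
      ((Complex.continuous_ofReal.comp_continuousOn h2).mul continuousOn_const)

end Fermat.Agent.S21.helper1545
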