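/-
helper1545: S21 Route 2 (Hodge/Weyl), leaf (5) PER in the exact shape of the on-main Spec:
`stmtPER (N) : helper801.StmtPER N`, deduced from `re_periodMap_eq_of_potentials`.
-/
import Fermat.Agent.S21.helper1545_PeriodContL2
import Fermat.Agent.S21.helper801_HodgeSpec

set_option autoImplicit false

namespace Fermat.Agent.S21.helper1545

open ModularCurve ModularCurve.Period CongruenceSubgroup UpperHalfPlane Filter Topology
open MeasureTheory Set
open scoped MatrixGroups ENNReal NNReal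

/-- `L²`-to-`L¹` on a set of finite measure, lower-integral form (no measurability needed). -/
theorem lintegral_enorm_le_add_sq (K : Set ℂ) (g : ℂ → ℂ) {ε : ℝ} (hε : 0 < ε) :
    ∫⁻ w in K, ‖g w‖ₑ
      ≤ ENNReal.ofReal ε * volume K + ENNReal.ofReal ε⁻¹ * ∫⁻ w in K, ‖g w‖ₑ ^ 2 := by
  have hpt : ∀ w : ℂ, ‖g w‖ₑ ≤ ENNReal.ofReal ε + ENNReal.ofReal ε⁻¹ * ‖g w‖ₑ ^ 2 := by
    intro w
    rw [← ofReal_norm, ← ENNReal.ofReal_pow (norm_nonneg _),
      ← ENNReal.ofReal_mul (inv_nonneg.2 hε.le), ← ENNReal.ofReal_add hε.le (by positivity)]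
    refine ENNReal.ofReal_le_ofReal ?_
    rw [← sub_nonneg]
    have : ε + ε⁻¹ * ‖g w‖ ^ 2 - ‖g w‖ = ((ε - ‖g w‖ / 2) ^ 2 + 3 / 4 * ‖g w‖ ^ 2) / ε := by
      field_simp
      ring
    rw [this]
    positivity
  calc ∫⁻ w in K, ‖g w‖ₑ
      ≤ ∫⁻ w in K, (ENNReal.ofReal ε + ENNReal.ofReal ε⁻¹ * ‖g w‖ₑ ^ 2) := lintegral_mono hpt
    _ = ENNReal.ofReal ε * volume K + ENNReal.ofReal ε⁻¹ * ∫⁻ w in K, ‖g w‖ₑ ^ 2 := by
        rw [lintegral_add_left measurable_const, lintegral_const,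
          Measure.restrict_apply MeasurableSet.univ, univ_inter,
          lintegral_const_mul' _ _ ENNReal.ofReal_ne_top]

/-- On a set of finite measure, `L²` convergence to zero implies `L¹` convergence to zero
(both in lower-integral form). -/
theorem tendsto_lintegral_enorm_of_lintegral_sq {K : Set ℂ} (hKfin : volume K ≠ ∞)
    {g : ℕ → ℂ → ℂ} (h2 : Tendsto (fun n => ∫⁻ w in K, ‖g n w‖ₑ ^ 2) atTop (𝓝 0)) :
    Tendsto (fun n => ∫⁻ w in K, ‖g n w‖ₑ) atTop (𝓝 0) := by
  set v : ℝ := (volume K).toReal with hv_def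
  have hv0 : 0 ≤ v := ENNReal.toReal_nonneg
  have hv : volume K = ENNReal.ofReal v := (ENNReal.ofReal_toReal hKfin).symm
  rw [ENNReal.tendsto_nhds_zero]
  intro η hη
  by_cases hηt : η = ⊤
  · simp [hηt]
  set η' : ℝ := η.toReal with hη'_def
  have hη' : 0 < η' := ENNReal.toReal_pos hη.ne' hηt
  set ε : ℝ := η' / (2 * (v + 1)) with hε_def
  have hε : 0 < ε := by positivity
  have hev : ∀ᶠ n in atTop, ∫⁻ w in K, ‖g n w‖ₑ ^ 2 ≤ ENNReal.ofReal (ε * (η' / 2)) :=
    (ENNReal.tendsto_nhds_zero.1 h2) _ (ENNReal.ofReal_pos.2 (by positivity))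
  filter_upwards [hev] with n hn
  calc ∫⁻ w in K, ‖g n w‖ₑ
      ≤ ENNReal.ofReal ε * volume K + ENNReal.ofReal ε⁻¹ * ∫⁻ w in K, ‖g n w‖ₑ ^ 2 :=
        lintegral_enorm_le_add_sq K (g n) hε
    _ ≤ ENNReal.ofReal ε * ENNReal.ofReal v + ENNReal.ofReal ε⁻¹ * ENNReal.ofReal (ε * (η' / 2)) := by
        rw [hv]
        gcongr
    _ = ENNReal.ofReal (ε * v + ε⁻¹ * (ε * (η' / 2))) := by
        rw [← ENNReal.ofReal_mul hε.le, ← ENNReal.ofReal_mul (inv_nonneg.2 hε.le),
          ← ENNReal.ofReal_add (by positivity) (by positivity)]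
    _ ≤ ENNReal.ofReal η' := by
        refine ENNReal.ofReal_le_ofReal ?_
        have h1 : ε * v ≤ η' / 2 := by
          rw [hε_def, div_mul_eq_mul_div, div_le_div_iff₀ (by positivity) (by norm_num)]
          nlinarith
        have h2' : ε⁻¹ * (ε * (η' / 2)) = η' / 2 := by
          field_simp
        linarith
    _ = η := ENNReal.ofReal_toReal hηt

/-- **(PER)** in the shape of the Route-2 Spec `helper801.StmtPER`. -/
theorem stmtPER (N : ℕ) : helper801.StmtPER N := by
  intro φ u f F hu hF hL γ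
  rw [← helper921.periodMap_apply_of_primitive hF γ]
  refine re_periodMap_eq_of_potentials f hF φ (fun n => u n ∘ ofComplex)
    (fun n => helper801.gradC (u n)) (fun n γ z => ?_) (fun n w hw => ?_)
    (fun n => (hu n).continuousOn_gradC) (fun K hK hKU => ?_) γ
  · simp only [Function.comp_apply, ofComplex_apply]
    exact (hu n).map_smul γ z
  · have hdiff : DifferentiableAt ℝ (u n ∘ ofComplex) w :=
      ((hu n).contDiffOn.differentiableOn one_ne_zero).differentiableAt
        (isOpen_upperHalfPlaneSet.mem_nhds hw)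
    have h1 := hdiff.hasFDerivAt
    rw [clm_eq_reMul (fderiv ℝ (u n ∘ ofComplex) w)] at h1
    have h2 : helper801.gradC (u n) w
        = ((fderiv ℝ (u n ∘ ofComplex) w 1 : ℝ) : ℂ)
          - ((fderiv ℝ (u n ∘ ofComplex) w Complex.I : ℝ) : ℂ) * Complex.I := by
      unfold helper801.gradC
      ring
    rw [h2]
    exact h1
  · exact tendsto_lintegral_enorm_of_lintegral_sq hK.measure_lt_top.ne (hL K hK hKU)

end Fermat.Agent.S21.helper1545
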