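/-
helper1561: S21 Route 2 (Hodge / Weyl / Dirichlet principle) -- INTERFACE FILE.

Exact Lean shapes of the five analytic leaves (POT, VAR, LIM, CUSP, PER) of Route 2 and of
the contracts passed between them.  Only definitions here (no proofs are needed); the
assembly `POT ∧ VAR ∧ LIM ∧ CUSP ∧ PER ⟹ helper801.StmtH N ⟹ S21` is in
`helper1561_Route2Asm.lean`.

Conventions (those of team_s21_chat #15 / #19 / #28):
* `UH = {z : ℂ | 0 < z.im}`; potentials are functions `u : ℂ → ℝ` (only their values on `UH`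
  matter), `C¹` on `UH`, with `u ↑(γ • z) = u ↑z + φ γ` for `γ ∈ Γ₀(N)`, `z : ℍ`;
* `Dc u z = u_x - i u_y = fderiv ℝ u z 1 - I * fderiv ℝ u z I` (so `Dc (Re F) = F'` for
  holomorphic `F`);
* `dbar ψ z = ψ_x + i ψ_y = fderiv ℝ ψ z 1 + I * fderiv ℝ ψ z I`;
* integrals over subsets of `ℂ` are with respect to Lebesgue measure `volume`; integrals over
  subsets of `ℍ` are with respect to Mathlib's hyperbolic measure `volume` (`dx dy / y²`);
* invariant energy density `dens u z = (im z)² * ‖Dc u z‖²` (a `Γ₀(N)`-invariant function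
  on `ℍ` when `u` is a potential).
-/
import Fermat.Agent.S21.helper801_HodgeAlg
import Mathlib.Analysis.Complex.UpperHalfPlane.Measure
import Mathlib.Analysis.Calculus.ContDiff.Basic
import Mathlib.MeasureTheory.Integral.Bochner.Set

set_option autoImplicit false

namespace Fermat.Agent.S21.helper1561

open ModularCurve ModularCurve.Period CongruenceSubgroup UpperHalfPlane Filter Topology
  MeasureTheory

open scoped MatrixGroups ENNReal ContDiff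

/-- The upper half-plane as a subset of `ℂ`. -/
def UH : Set ℂ := {z : ℂ | 0 < z.im}

/-- `Dc u = u_x - i u_y` (twice the Wirtinger derivative `∂u/∂z`). -/
noncomputable def Dc (u : ℂ → ℝ) (z : ℂ) : ℂ :=
  ((fderiv ℝ u z 1 : ℝ) : ℂ) - ((fderiv ℝ u z Complex.I : ℝ) : ℂ) * Complex.I

/-- `dbar ψ = ψ_x + i ψ_y` (twice the Wirtinger derivative `∂ψ/∂z̄`). -/
noncomputable def dbar (ψ : ℂ → ℂ) (z : ℂ) : ℂ :=
  fderiv ℝ ψ z 1 + Complex.I * fderiv ℝ ψ z Complex.I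

/-- `u` is a `C¹` potential on the upper half-plane with period homomorphism `φ`. -/
def IsPot (N : ℕ) (φ : Additive (Gamma0 N) →+ ℝ) (u : ℂ → ℝ) : Prop :=
  ContDiffOn ℝ 1 u UH ∧
    ∀ (γ : Gamma0 N) (z : ℍ),
      u (((γ : SL(2, ℤ)) • z : ℍ) : ℂ) = u (z : ℂ) + φ (Additive.ofMul γ)

/-- The invariant energy density `(im z)² ‖Dc u z‖²`. -/
noncomputable def dens (u : ℂ → ℝ) (z : ℍ) : ℝ := z.im ^ 2 * ‖Dc u (z : ℂ)‖ ^ 2

/-- The cusp strip `{2 ≤ im z, |re z| ≤ N}`. -/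
def strip (N : ℕ) : Set ℍ := {z : ℍ | 2 ≤ z.im ∧ |z.re| ≤ (N : ℝ)}

/-- Contract POT → VAR: finite energy on a measurable set meeting every `Γ₀(N)`-orbit. -/
def FiniteEnergy (N : ℕ) (u : ℂ → ℝ) : Prop :=
  ∃ B : Set ℍ, MeasurableSet B ∧ (∀ z : ℍ, ∃ γ : Gamma0 N, (γ : SL(2, ℤ)) • z ∈ B) ∧
    ∫⁻ z in B, ENNReal.ofReal (dens u z) < ⊤

/-- Contract VAR → LIM, (i): the sequence is `L²`-Cauchy on every compact subset of `Ω`. -/
def L2CauchyOn (Ω : Set ℂ) (a : ℕ → ℂ → ℂ) : Prop :=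
  ∀ K : Set ℂ, IsCompact K → K ⊆ Ω → ∀ η : ℝ, 0 < η →
    ∃ n₀ : ℕ, ∀ n, n₀ ≤ n → ∀ m, n₀ ≤ m → ∫ z in K, ‖a n z - a m z‖ ^ 2 ≤ η

/-- Contract VAR → LIM, (ii): the sequence is asymptotically weakly holomorphic on `Ω`. -/
def WeaklyHolOn (Ω : Set ℂ) (a : ℕ → ℂ → ℂ) : Prop :=
  ∀ ψ : ℂ → ℂ, ContDiff ℝ ∞ ψ → HasCompactSupport ψ → tsupport ψ ⊆ Ω →
    Tendsto (fun n => ∫ z, a n z * dbar ψ z) atTop (𝓝 0)

/-- Contract VAR → CUSP, (iii): uniform energy bound on all cusp strips. -/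
def StripBound (N : ℕ) (u : ℕ → ℂ → ℝ) : Prop :=
  ∃ C : ℝ≥0∞, C < ⊤ ∧ ∀ (n : ℕ) (σ : SL(2, ℤ)),
    ∫⁻ z in strip N, ENNReal.ofReal (dens (u n) (σ • z)) ≤ C

/-- Contract LIM → CUSP/PER: `h` is the `L²`-limit of `a n` on every compact subset of `Ω`. -/
def L2LimitOn (Ω : Set ℂ) (a : ℕ → ℂ → ℂ) (h : ℂ → ℂ) : Prop :=
  ∀ K : Set ℂ, IsCompact K → K ⊆ Ω →
    Tendsto (fun n => ∫ z in K, ‖a n z - h z‖ ^ 2) atTop (𝓝 0)

/-- Leaf (1) POT: every real parabolic hom has a `C¹` potential of finite energy. -/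
def Stmt_POT (N : ℕ) : Prop :=
  ∀ φ : Additive (Gamma0 N) →+ ℝ, φ ∈ parabolicHoms ℝ (Gamma0 N) ℝ →
    ∃ u0 : ℂ → ℝ, IsPot N φ u0 ∧ FiniteEnergy N u0

/-- Leaf (2) VAR (Dirichlet principle): a finite-energy potential can be replaced by a
sequence of potentials (same periods) whose `Dc` is `L²_loc`-Cauchy, asymptotically weakly
holomorphic, and uniformly `L²`-bounded on all cusp strips. -/
def Stmt_VAR (N : ℕ) : Prop :=
  ∀ (φ : Additive (Gamma0 N) →+ ℝ) (u0 : ℂ → ℝ), IsPot N φ u0 → FiniteEnergy N u0 →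
    ∃ u : ℕ → ℂ → ℝ, (∀ n, IsPot N φ (u n)) ∧ L2CauchyOn UH (fun n => Dc (u n)) ∧
      WeaklyHolOn UH (fun n => Dc (u n)) ∧ StripBound N u

/-- Leaf (3) LIM (Weyl lemma, sequence form; shape of team_s21_chat #19). -/
def Stmt_LIM : Prop :=
  ∀ (Ω : Set ℂ), IsOpen Ω → ∀ a : ℕ → ℂ → ℂ, (∀ n, ContinuousOn (a n) Ω) →
    L2CauchyOn Ω a → WeaklyHolOn Ω a →
      ∃ h : ℂ → ℂ, DifferentiableOn ℂ h Ω ∧ L2LimitOn Ω a h

/-- Leaf (4) CUSP: the holomorphic `L²_loc`-limit of `Dc (u n)` is a weight-2 cusp form. -/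
def Stmt_CUSP (N : ℕ) : Prop :=
  ∀ (φ : Additive (Gamma0 N) →+ ℝ) (u : ℕ → ℂ → ℝ) (h : ℂ → ℂ), (∀ n, IsPot N φ (u n)) →
    DifferentiableOn ℂ h UH → L2LimitOn UH (fun n => Dc (u n)) h → StripBound N u →
      ∃ f : CuspForm (Gamma0 N) 2, ∀ z : ℍ, f z = h (z : ℂ)

/-- Leaf (5) PER (period continuity): if `Dc (u n) → f` in `L²_loc` for potentials `u n` with
periods `φ` and a cusp form `f`, then the real part of the period hom of `f` is `φ`. -/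
def Stmt_PER (N : ℕ) : Prop :=
  ∀ (φ : Additive (Gamma0 N) →+ ℝ) (u : ℕ → ℂ → ℝ) (f : CuspForm (Gamma0 N) 2),
    (∀ n, IsPot N φ (u n)) → L2LimitOn UH (fun n => Dc (u n)) (fun z => f (ofComplex z)) →
      ∀ γ : Additive (Gamma0 N), (periodMap N f γ).re = φ γ

end Fermat.Agent.S21.helper1561
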