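/-
helper1561: S21 Route 2 -- BRIDGES for the leaves LIM and CUSP.

The Route-2 Spec is `helper801_HodgeSpec` (`helper801.StmtLIM`, `helper801.StmtCUSP N`), stated
with `∫⁻ ‖·‖ₑ ^ 2`.  The leaf owners prove the Bochner-integral shapes of team_s21_chat #19
(LIM) and #28/#36 (CUSP).  This file proves

* `stmtLIM_of_seq  : Stmt_LIM → helper801.StmtLIM`          (`Stmt_LIM` of `helper1561_Route2Spec`
                                                           = shape #19, for every `Ω`),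
* `stmtLIM_of_seqUH`: the same from the shape #19 for `Ω = UH` only,
* `stmtCUSP_of_src : CuspSrc N → helper801.StmtCUSP N`     (`CuspSrc N` = shape #28 + `ha`),

and the conversion lemmas between `∫⁻ ‖·‖ₑ ^ 2` and `∫ ‖·‖ ^ 2` they need.
-/
import Fermat.Agent.S21.helper801_HodgeSpec
import Fermat.Agent.S21.helper1561_Route2Spec

set_option autoImplicit false

namespace Fermat.Agent.S21.helper1561

open ModularCurve ModularCurve.Period CongruenceSubgroup UpperHalfPlane Filter Topology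
  MeasureTheory

open scoped MatrixGroups ENNReal ContDiff

/-! ### Conversion between `∫⁻ ‖·‖ₑ ^ 2` and `∫ ‖·‖ ^ 2` -/

/-- For `g` continuous on a compact set `K`, `∫⁻ z in K, ‖g z‖ₑ ^ 2 = ofReal (∫ z in K, ‖g z‖ ^ 2)`. -/
theorem lintegral_enorm_sq_eq_ofReal {K : Set ℂ} (hK : IsCompact K) {g : ℂ → ℂ}
    (hg : ContinuousOn g K) :
    ∫⁻ z in K, ‖g z‖ₑ ^ 2 = ENNReal.ofReal (∫ z in K, ‖g z‖ ^ 2) := by
  have hint : IntegrableOn (fun z => ‖g z‖ ^ 2) K :=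
    (hg.norm.pow 2).integrableOn_compact hK
  rw [ofReal_integral_eq_lintegral_ofReal hint
    (Filter.Eventually.of_forall fun z => by positivity)]
  refine lintegral_congr fun z => ?_
  rw [ENNReal.ofReal_pow (norm_nonneg _), ofReal_norm]

/-- The Bochner integral `∫ z in K, ‖g z‖ ^ 2` is nonnegative. -/
theorem integral_norm_sq_nonneg (K : Set ℂ) (g : ℂ → ℂ) : 0 ≤ ∫ z in K, ‖g z‖ ^ 2 :=
  integral_nonneg fun z => by positivity

/-- Spec form (`∫⁻`, `Tendsto` on `ℕ × ℕ`) of the Cauchy property gives the Bochner/`n₀` form. -/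
theorem l2CauchyOn_of_L2LocCauchy {a : ℕ → ℂ → ℂ}
    (ha : ∀ n, ContinuousOn (a n) upperHalfPlaneSet) (hC : helper801.L2LocCauchy a) :
    L2CauchyOn UH a := by
  intro K hK hKU η hη
  have h1 := hC K hK hKU
  have h2 : ∀ᶠ p : ℕ × ℕ in atTop, ∫⁻ z in K, ‖a p.1 z - a p.2 z‖ₑ ^ 2 ≤ ENNReal.ofReal η :=
    (ENNReal.tendsto_nhds_zero.mp h1) _ (ENNReal.ofReal_pos.mpr hη)
  obtain ⟨p₀, hp₀⟩ := Filter.eventually_atTop.mp h2
  refine ⟨max p₀.1 p₀.2, fun n hn m hm => ?_⟩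
  have h3 := hp₀ (n, m) ⟨le_trans (le_max_left _ _) hn, le_trans (le_max_right _ _) hm⟩
  have hcont : ContinuousOn (fun z => a n z - a m z) K :=
    ((ha n).mono hKU).sub ((ha m).mono hKU)
  rw [lintegral_enorm_sq_eq_ofReal hK hcont] at h3
  exact (ENNReal.ofReal_le_ofReal_iff hη.le).mp h3

/-- Bochner form of `L²_loc` convergence gives the Spec form (`∫⁻`). -/
theorem L2LocTendsto_of_l2LimitOn {a : ℕ → ℂ → ℂ} {h : ℂ → ℂ}
    (ha : ∀ n, ContinuousOn (a n) upperHalfPlaneSet) (hh : ContinuousOn h upperHalfPlaneSet)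
    (hlim : L2LimitOn UH a h) : helper801.L2LocTendsto a h := by
  intro K hK hKU
  have h1 := hlim K hK hKU
  have h2 : Tendsto (fun n => ENNReal.ofReal (∫ z in K, ‖a n z - h z‖ ^ 2)) atTop (𝓝 0) := by
    have h3 : Tendsto (fun n => ENNReal.ofReal (∫ z in K, ‖a n z - h z‖ ^ 2)) atTop
        (𝓝 (ENNReal.ofReal 0)) := (ENNReal.continuous_ofReal.tendsto 0).comp h1
    rwa [ENNReal.ofReal_zero] at h3
  refine h2.congr fun n => ?_
  have hcont : ContinuousOn (fun z => a n z - h z) K := ((ha n).mono hKU).sub (hh.mono hKU)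
  exact (lintegral_enorm_sq_eq_ofReal hK hcont).symm

/-- Spec form (`∫⁻`) of `L²_loc` convergence gives the Bochner form. -/
theorem l2LimitOn_of_L2LocTendsto {a : ℕ → ℂ → ℂ} {h : ℂ → ℂ}
    (ha : ∀ n, ContinuousOn (a n) upperHalfPlaneSet) (hh : ContinuousOn h upperHalfPlaneSet)
    (hlim : helper801.L2LocTendsto a h) : L2LimitOn UH a h := by
  intro K hK hKU
  have h1 := hlim K hK hKU
  have h2 : Tendsto (fun n => (∫⁻ z in K, ‖a n z - h z‖ₑ ^ 2).toReal) atTop (𝓝 0) := by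
    have h3 : Tendsto (fun n => (∫⁻ z in K, ‖a n z - h z‖ₑ ^ 2).toReal) atTop
        (𝓝 (0 : ℝ≥0∞).toReal) := (ENNReal.tendsto_toReal ENNReal.zero_ne_top).comp h1
    rwa [ENNReal.toReal_zero] at h3
  refine h2.congr fun n => ?_
  have hcont : ContinuousOn (fun z => a n z - h z) K := ((ha n).mono hKU).sub (hh.mono hKU)
  rw [lintegral_enorm_sq_eq_ofReal hK hcont,
    ENNReal.toReal_ofReal (integral_norm_sq_nonneg K _)]

/-- Spec form of asymptotic weak holomorphy is the form used by the leaf owners. -/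
theorem weaklyHolOn_of_asympWeakHol {a : ℕ → ℂ → ℂ} (hW : helper801.AsympWeakHol a) :
    WeaklyHolOn UH a :=
  fun ψ hψ hc hs => hW ψ hψ hc hs

/-! ### LIM -/

/-- Shape #19 of the Weyl lemma, only on the upper half-plane. -/
def Stmt_LIM_UH : Prop :=
  ∀ a : ℕ → ℂ → ℂ, (∀ n, ContinuousOn (a n) UH) → L2CauchyOn UH a → WeaklyHolOn UH a →
    ∃ h : ℂ → ℂ, DifferentiableOn ℂ h UH ∧ L2LimitOn UH a h

theorem stmt_LIM_UH_of_stmt_LIM (H : Stmt_LIM) : Stmt_LIM_UH := fun a ha hC hW =>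
  H UH (isOpen_lt continuous_const Complex.continuous_im) a ha hC hW

/-- LIM bridge: the sequence-form Weyl lemma in the Bochner shape on `UH` implies the Spec
statement `helper801.StmtLIM`. -/
theorem stmtLIM_of_seqUH (H : Stmt_LIM_UH) : helper801.StmtLIM := by
  intro a ha hC hW
  obtain ⟨h, hh, hlim⟩ := H a ha (l2CauchyOn_of_L2LocCauchy ha hC)
    (weaklyHolOn_of_asympWeakHol hW)
  exact ⟨h, hh, L2LocTendsto_of_l2LimitOn ha hh.continuousOn hlim⟩

/-- LIM bridge: the sequence-form Weyl lemma in the Bochner shape (all `Ω`) implies the Spec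
statement `helper801.StmtLIM`. -/
theorem stmtLIM_of_seq (H : Stmt_LIM) : helper801.StmtLIM :=
  stmtLIM_of_seqUH (stmt_LIM_UH_of_stmt_LIM H)

/-! ### CUSP -/

/-- The CUSP leaf in the shape of team_s21_chat #28 (+ continuity of the `a n`, #36). -/
def CuspSrc (N : ℕ) : Prop :=
  ∀ (a : ℕ → ℂ → ℂ) (h : ℂ → ℂ), DifferentiableOn ℂ h UH →
    (∀ n, ContinuousOn (a n) UH) →
    (∀ K : Set ℂ, IsCompact K → K ⊆ UH →
      Tendsto (fun n => ∫ z in K, ‖a n z - h z‖ ^ 2) atTop (𝓝 0)) →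
    (∀ (n : ℕ), ∀ γ ∈ Gamma0 N, ∀ z : ℍ,
      a n ((γ • z : ℍ) : ℂ) = (denom γ z) ^ 2 * a n (z : ℂ)) →
    (∃ C : ℝ≥0∞, C < ⊤ ∧ ∀ (n : ℕ) (σ : SL(2, ℤ)),
      ∫⁻ z in {z : ℍ | 2 ≤ z.im ∧ |z.re| ≤ (N : ℝ)},
        ENNReal.ofReal ((σ • z).im ^ 2 * ‖a n ((σ • z : ℍ) : ℂ)‖ ^ 2) ≤ C) →
    ∃ f : CuspForm (Gamma0 N) 2, ∀ z : ℍ, f z = h (z : ℂ)

theorem cuspStrip_eq (N : ℕ) :
    helper801.cuspStrip N = {z : ℍ | 2 ≤ z.im ∧ |z.re| ≤ (N : ℝ)} := by
  ext z
  show (|z.re| ≤ (N : ℝ) ∧ 2 ≤ z.im) ↔ (2 ≤ z.im ∧ |z.re| ≤ (N : ℝ))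
  exact and_comm

theorem enorm_sq_mul_ofReal (w : ℂ) (y : ℝ) :
    ‖w‖ₑ ^ 2 * ENNReal.ofReal (y ^ 2) = ENNReal.ofReal (y ^ 2 * ‖w‖ ^ 2) := by
  rw [ENNReal.ofReal_mul (sq_nonneg y), ENNReal.ofReal_pow (norm_nonneg w), ofReal_norm,
    mul_comm]

/-- CUSP bridge: the CUSP leaf in the shape #28 (+ `ha`) implies `helper801.StmtCUSP N`. -/
theorem stmtCUSP_of_src (N : ℕ) (H : CuspSrc N) : helper801.StmtCUSP N := by
  intro a h ha hinv hh hlim hbd
  refine H a h hh ha (l2LimitOn_of_L2LocTendsto ha hh.continuousOn hlim) ?_ ?_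
  · intro n γ hγ z
    have := hinv n ⟨γ, hγ⟩ z
    rw [ModularGroup.denom_apply]
    exact this
  · obtain ⟨C, hC, hb⟩ := hbd
    refine ⟨C, hC, fun n σ => ?_⟩
    have := hb n σ
    rw [cuspStrip_eq] at this
    simp only [enorm_sq_mul_ofReal] at this
    exact this

end Fermat.Agent.S21.helper1561
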