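/-
helper1561: S21 Route 2 (Hodge / Weyl / Dirichlet principle) -- ASSEMBLY.

`Stmt_POT N → Stmt_VAR N → Stmt_LIM → Stmt_CUSP N → Stmt_PER N → helper801.StmtH N`
and hence the Eichler–Shimura statement S21 (`result_of_leaves`), using the parts of S21
already on main (A, B, C± of helper21/helper376/helper81 and the algebra of helper801).
-/
import Fermat.Agent.S21.helper1561_Route2Spec
import Fermat.Agent.S21.helper21_Assembly

set_option autoImplicit false

namespace Fermat.Agent.S21.helper1561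

open ModularCurve ModularCurve.Period CongruenceSubgroup UpperHalfPlane Filter Topology
  MeasureTheory

open scoped MatrixGroups ENNReal ContDiff

theorem isOpen_UH : IsOpen UH := by
  have : UH = Complex.im ⁻¹' Set.Ioi (0 : ℝ) := rfl
  rw [this]
  exact isOpen_Ioi.preimage Complex.continuous_im

theorem coe_mem_UH (z : ℍ) : (z : ℂ) ∈ UH := z.im_pos

/-- `Dc u` is continuous on `UH` for a `C¹` function `u`. -/
theorem continuousOn_Dc {u : ℂ → ℝ} (hu : ContDiffOn ℝ 1 u UH) : ContinuousOn (Dc u) UH := by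
  have h1 : ContinuousOn (fderiv ℝ u) UH :=
    hu.continuousOn_fderiv_of_isOpen isOpen_UH le_rfl
  have h2 : ∀ v : ℂ, ContinuousOn (fun z => ((fderiv ℝ u z v : ℝ) : ℂ)) UH := fun v =>
    Complex.continuous_ofReal.comp_continuousOn (h1.clm_apply continuousOn_const)
  exact (h2 1).sub ((h2 Complex.I).mul continuousOn_const)

/-- Route 2 assembly: the five leaves give the Hodge existence statement `StmtH`. -/
theorem stmtH_of_leaves (N : ℕ) (hPOT : Stmt_POT N) (hVAR : Stmt_VAR N) (hLIM : Stmt_LIM)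
    (hCUSP : Stmt_CUSP N) (hPER : Stmt_PER N) : helper801.StmtH N := by
  intro φ hφ
  obtain ⟨u0, hu0, hE⟩ := hPOT φ hφ
  obtain ⟨u, hu, hC, hW, hS⟩ := hVAR φ u0 hu0 hE
  obtain ⟨h, hh, hlim⟩ := hLIM UH isOpen_UH (fun n => Dc (u n))
    (fun n => continuousOn_Dc (hu n).1) hC hW
  obtain ⟨f, hf⟩ := hCUSP φ u h hu hh hlim hS
  refine ⟨f, hPER φ u f hu ?_⟩
  intro K hK hKU
  have hEq : ∀ n, ∫ z in K, ‖Dc (u n) z - (fun z => f (ofComplex z)) z‖ ^ 2
      = ∫ z in K, ‖Dc (u n) z - h z‖ ^ 2 := by
    intro n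
    refine setIntegral_congr_fun hK.measurableSet fun z hz => ?_
    have hz' : 0 < z.im := hKU hz
    have : f (ofComplex z) = h z := by
      rw [hf (ofComplex z), ofComplex_apply_of_im_pos hz']
    simp only [this]
  simp only [hEq]
  exact hlim K hK hKU

/-- S21 (Eichler–Shimura) from the five Route-2 leaves. -/
theorem result_of_leaves (N : ℕ) [NeZero N] (hPOT : Stmt_POT N) (hVAR : Stmt_VAR N)
    (hLIM : Stmt_LIM) (hCUSP : Stmt_CUSP N) (hPER : Stmt_PER N) :
    Function.Injective (ModularCurve.periodHomPair N)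
      ∧ LinearMap.range (ModularCurve.periodHomPair N)
          = ModularCurve.Period.parabolicHoms ℂ (CongruenceSubgroup.Gamma0 N) ℂ :=
  helper801.result_of_ABCH N (helper21.stmtA N) (helper21.stmtB N) (helper21.stmtCplus N)
    (helper21.stmtCminus N) (stmtH_of_leaves N hPOT hVAR hLIM hCUSP hPER)

end Fermat.Agent.S21.helper1561
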