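import Fermat.Agent.S21.helper1765_Unfold
import Fermat.Agent.S21.helper801_HodgeSpec

/-!
# The group-action layer of Route 2 in the exact hypothesis shapes of the VAR core (helper1765)

`groupLayer_hW`, `groupLayer_hA1`, `groupLayer_hM2` are verbatim the three hypotheses
`hW`, `hA1`, `hM2` of the announced `stmtVAR_of` (chat #54), for `Gamma0 N`.
`stripBounded_of_energy` turns a uniform bound on the weighted energies into
`helper801.StripBounded`.
-/

set_option autoImplicit false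

namespace Fermat.Agent.S21.helper1765

open MeasureTheory Set Function UpperHalfPlane CongruenceSubgroup
open scoped ENNReal UpperHalfPlane MatrixGroups

/-- (W1) in the shape of `hW`. -/
theorem groupLayer_hW (N : ℕ) :
    ∃ w : ℍ → ℝ≥0∞, Measurable w ∧ ∀ z : ℍ, ∑' γ : Gamma0 N, w ((γ : SL(2, ℤ)) • z) = 1 :=
  exists_weight (Gamma0 N)

/-- (A1) in the shape of `hA1`. -/
theorem groupLayer_hA1 (N : ℕ) :
    ∀ K L : Set ℍ, IsCompact K → IsCompact L →
      {γ : Gamma0 N | ∃ z ∈ K, (γ : SL(2, ℤ)) • z ∈ L}.Finite :=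
  fun _ _ hK hL => finite_smul_mem (Gamma0 N) hK hL

/-- (M2) in the shape of `hM2`. -/
theorem groupLayer_hM2 (N : ℕ) :
    ∃ M : ℕ, ∀ (σ : SL(2, ℤ)) (z : ℍ),
      {γ : Gamma0 N | σ⁻¹ • ((γ : SL(2, ℤ)) • z) ∈ helper801.cuspStrip N}.encard ≤ M :=
  exists_encard_strip_le' (Gamma0 N) N

/-- The uniform strip bound in the integrand shape of `helper801.StripBounded`: for an
invariant measurable density `G`, `∫⁻ z in cuspStrip N, G (σ • z) ≤ M * ∫⁻ w * G`. -/
theorem groupLayer_strip (N : ℕ) :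
    ∃ M : ℕ, ∀ (w : ℍ → ℝ≥0∞), Measurable w →
      (∀ z : ℍ, ∑' γ : Gamma0 N, w ((γ : SL(2, ℤ)) • z) = 1) →
      ∀ (G : ℍ → ℝ≥0∞), Measurable G →
        (∀ (γ : Gamma0 N) (z : ℍ), G ((γ : SL(2, ℤ)) • z) = G z) →
        ∀ σ : SL(2, ℤ), ∫⁻ z in helper801.cuspStrip N, G (σ • z) ≤ M * ∫⁻ z, w z * G z :=
  exists_setLIntegral_strip_le' (Gamma0 N) N

/-- The local bound on compact sets: `∫⁻ z in K, G z ≤ M * ∫⁻ w * G` for invariant `G`. -/
theorem groupLayer_compact (N : ℕ) {K : Set ℍ} (hK : IsCompact K) :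
    ∃ M : ℕ, ∀ (w : ℍ → ℝ≥0∞), Measurable w →
      (∀ z : ℍ, ∑' γ : Gamma0 N, w ((γ : SL(2, ℤ)) • z) = 1) →
      ∀ (G : ℍ → ℝ≥0∞), AEMeasurable G →
        (∀ (γ : Gamma0 N) (z : ℍ), G ((γ : SL(2, ℤ)) • z) = G z) →
        ∫⁻ z in K, G z ≤ M * ∫⁻ z, w z * G z :=
  exists_setLIntegral_compact_le (Gamma0 N) hK

end Fermat.Agent.S21.helper1765
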