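/-
helper1826: S21 Route 2, leaf VAR -- unfolding layer.

For a measurable `Γ₀(N)`-partition weight `w` (`∑_γ w(γ z) = 1`) on the upper half-plane with
its invariant measure:

* `lintegral_unfold` : `∫ g = ∫ w(z) ∑_γ g(γ z)`;
* `setLIntegral_eq_lintegral_weight` : `∫_S G = ∫ w G #{γ | γ z ∈ S}` for invariant `G`;
* `pFin_of`   : `PFin N w`;
* `pLoc_of`   : `PLoc N w` from local finiteness (A1);
* `pStrip_of` : `PStrip N w` from the uniform strip count (M2).
-/
import Fermat.Agent.S21.helper1826_VarCore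

set_option autoImplicit false

namespace Fermat.Agent.S21.helper1826

open ModularCurve ModularCurve.Period CongruenceSubgroup UpperHalfPlane MeasureTheory Filter
  Topology
open Fermat.Agent.S21.helper801
open scoped MatrixGroups ENNReal ContDiff

noncomputable section

variable {N : ℕ} {w : ℍ → ℝ≥0∞}

/-! ### Unfolding -/

instance countable_SL2Z : Countable SL(2, ℤ) := by
  have : Countable (Matrix (Fin 2) (Fin 2) ℤ) := by
    unfold Matrix
    infer_instance
  exact Subtype.countable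

instance countable_Gamma0 (N : ℕ) : Countable (Gamma0 N) := Subtype.countable

/-- `SL(2,ℤ)` acts on `ℍ` by measure-preserving maps. -/
theorem measurePreserving_smul_SL (g : SL(2, ℤ)) :
    MeasurePreserving (fun z : ℍ => g • z) volume volume :=
  measurePreserving_smul (Matrix.SpecialLinearGroup.mapGL ℝ g) (volume : Measure ℍ)

theorem measurable_smul_SL (g : SL(2, ℤ)) : Measurable (fun z : ℍ => g • z) :=
  (measurePreserving_smul_SL g).measurable

/-- Unfolding: `∫ g = ∫ w(z) ∑_γ g(γ z)`. -/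
theorem lintegral_unfold (hw : IsWeight N w) (g : ℍ → ℝ≥0∞) (hg : Measurable g) :
    ∫⁻ z, g z = ∫⁻ z, w z * ∑' γ : Gamma0 N, g ((γ : SL(2, ℤ)) • z) := by
  have hcv : ∀ γ : Gamma0 N, ∫⁻ z, g z * w ((γ : SL(2, ℤ)) • z)
      = ∫⁻ z, g (((γ⁻¹ : Gamma0 N) : SL(2, ℤ)) • z) * w z := by
    intro γ
    have hF : Measurable fun z : ℍ => g (((γ⁻¹ : Gamma0 N) : SL(2, ℤ)) • z) * w z :=
      (hg.comp (measurable_smul_SL _)).mul hw.1
    have h := (measurePreserving_smul_SL (γ : SL(2, ℤ))).lintegral_comp hF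
    rw [← h]
    refine lintegral_congr fun z => ?_
    simp only [Subgroup.coe_inv, inv_smul_smul]
  calc ∫⁻ z, g z = ∫⁻ z, g z * ∑' γ : Gamma0 N, w ((γ : SL(2, ℤ)) • z) := by
        simp only [hw.2, mul_one]
    _ = ∫⁻ z, ∑' γ : Gamma0 N, g z * w ((γ : SL(2, ℤ)) • z) := by
        simp only [ENNReal.tsum_mul_left]
    _ = ∑' γ : Gamma0 N, ∫⁻ z, g z * w ((γ : SL(2, ℤ)) • z) :=
        lintegral_tsum fun γ => (hg.mul (hw.1.comp (measurable_smul_SL _))).aemeasurable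
    _ = ∑' γ : Gamma0 N, ∫⁻ z, g (((γ⁻¹ : Gamma0 N) : SL(2, ℤ)) • z) * w z :=
        tsum_congr hcv
    _ = ∑' γ : Gamma0 N, ∫⁻ z, g ((γ : SL(2, ℤ)) • z) * w z :=
        (Equiv.inv (Gamma0 N)).tsum_eq fun γ => ∫⁻ z, g ((γ : SL(2, ℤ)) • z) * w z
    _ = ∫⁻ z, ∑' γ : Gamma0 N, g ((γ : SL(2, ℤ)) • z) * w z :=
        (lintegral_tsum fun γ =>
          ((hg.comp (measurable_smul_SL _)).mul hw.1).aemeasurable).symm
    _ = ∫⁻ z, w z * ∑' γ : Gamma0 N, g ((γ : SL(2, ℤ)) • z) := by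
        refine lintegral_congr fun z => ?_
        rw [ENNReal.tsum_mul_right, mul_comm]

/-- For an invariant density `G`: `∫_S G = ∫ w G · #{γ | γ z ∈ S}`. -/
theorem setLIntegral_eq_lintegral_weight (hw : IsWeight N w) {G : ℍ → ℝ≥0∞} (hG : Measurable G)
    (hinv : ∀ (γ : Gamma0 N) (z : ℍ), G ((γ : SL(2, ℤ)) • z) = G z) {S : Set ℍ}
    (hS : MeasurableSet S) :
    ∫⁻ z in S, G z = ∫⁻ z, w z * (G z *
      ∑' γ : Gamma0 N, S.indicator (fun _ => (1 : ℝ≥0∞)) ((γ : SL(2, ℤ)) • z)) := by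
  rw [← lintegral_indicator hS, lintegral_unfold hw _ (hG.indicator hS)]
  refine lintegral_congr fun z => ?_
  congr 1
  rw [← ENNReal.tsum_mul_left]
  refine tsum_congr fun γ => ?_
  by_cases h : (γ : SL(2, ℤ)) • z ∈ S
  · rw [Set.indicator_of_mem h, Set.indicator_of_mem h, hinv, mul_one]
  · rw [Set.indicator_of_notMem h, Set.indicator_of_notMem h, mul_zero]

/-- The counting function as an `encard`. -/
theorem tsum_indicator_eq_encard (S : Set ℍ) (z : ℍ) :
    ∑' γ : Gamma0 N, S.indicator (fun _ => (1 : ℝ≥0∞)) ((γ : SL(2, ℤ)) • z)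
      = (({γ : Gamma0 N | (γ : SL(2, ℤ)) • z ∈ S}.encard : ℕ∞) : ℝ≥0∞) := by
  rw [← ENNReal.tsum_set_one, tsum_subtype {γ : Gamma0 N | (γ : SL(2, ℤ)) • z ∈ S}
    (fun _ => (1 : ℝ≥0∞))]
  refine tsum_congr fun γ => ?_
  by_cases h : (γ : SL(2, ℤ)) • z ∈ S
  · rw [Set.indicator_of_mem h, Set.indicator_of_mem (show γ ∈ {γ : Gamma0 N |
      (γ : SL(2, ℤ)) • z ∈ S} from h)]
  · rw [Set.indicator_of_notMem h, Set.indicator_of_notMem (show γ ∉ {γ : Gamma0 N |
      (γ : SL(2, ℤ)) • z ∈ S} from h)]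

/-- (W4b) if every point has at most `M` translates in `S`, then `∫_S G ≤ M ∫ w G`. -/
theorem setLIntegral_le_of_encard_le (hw : IsWeight N w) {G : ℍ → ℝ≥0∞} (hG : Measurable G)
    (hinv : ∀ (γ : Gamma0 N) (z : ℍ), G ((γ : SL(2, ℤ)) • z) = G z) {S : Set ℍ}
    (hS : MeasurableSet S) {M : ℕ∞}
    (hM : ∀ z : ℍ, {γ : Gamma0 N | (γ : SL(2, ℤ)) • z ∈ S}.encard ≤ M) :
    ∫⁻ z in S, G z ≤ (M : ℝ≥0∞) * ∫⁻ z, w z * G z := by
  have hm : Measurable fun z => w z * G z := hw.1.mul hG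
  rw [setLIntegral_eq_lintegral_weight hw hG hinv hS, ← lintegral_const_mul _ hm]
  refine lintegral_mono fun z => ?_
  rw [tsum_indicator_eq_encard]
  have h1 : (({γ : Gamma0 N | (γ : SL(2, ℤ)) • z ∈ S}.encard : ℕ∞) : ℝ≥0∞) ≤ (M : ℝ≥0∞) :=
    ENat.toENNReal_le.2 (hM z)
  calc w z * (G z * (({γ : Gamma0 N | (γ : SL(2, ℤ)) • z ∈ S}.encard : ℕ∞) : ℝ≥0∞))
      ≤ w z * (G z * (M : ℝ≥0∞)) := by gcongr
    _ = (M : ℝ≥0∞) * (w z * G z) := by ring

/-! ### The invariant density -/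

theorem measurable_dens {a : ℂ → ℂ} (ha : ContinuousOn a upperHalfPlaneSet) :
    Measurable (dens a) := by
  have h1 : Continuous fun z : ℍ => a ↑z :=
    ha.comp_continuous continuous_coe (fun z => z.im_pos)
  have h2 : Measurable fun z : ℍ => ENNReal.ofReal (z.im ^ 2) :=
    ENNReal.measurable_ofReal.comp (UpperHalfPlane.continuous_im.pow 2).measurable
  exact (h1.measurable.enorm.pow_const 2).mul h2

theorem dens_smul {a : ℂ → ℂ} (ha : Equivariant N a) (γ : Gamma0 N) (z : ℍ) :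
    dens a ((γ : SL(2, ℤ)) • z) = dens a z := by
  set g : SL(2, ℤ) := (γ : SL(2, ℤ)) with hg
  set d : ℂ := (g 1 0 : ℂ) * (z : ℂ) + (g 1 1 : ℂ) with hd
  have hden : denom (Matrix.SpecialLinearGroup.toGL
      ((Matrix.SpecialLinearGroup.map (Int.castRingHom ℝ)) g)) ↑z = d :=
    ModularGroup.denom_apply g z
  have hd0 : d ≠ 0 := by
    rw [← hden]
    exact denom_ne_zero _ z
  have him : (g • z).im = z.im / Complex.normSq d := by
    rw [ModularGroup.im_smul_eq_div_normSq, hden]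
  have hnd : 0 < ‖d‖ := norm_pos_iff.2 hd0
  have ha' : a ↑(g • z) = d ^ 2 * a ↑z := ha γ z
  unfold dens
  rw [ha', him, ← ofReal_norm, ← ofReal_norm, ← ENNReal.ofReal_pow (norm_nonneg _),
    ← ENNReal.ofReal_pow (norm_nonneg _), ← ENNReal.ofReal_mul (by positivity),
    ← ENNReal.ofReal_mul (by positivity)]
  congr 1
  rw [norm_mul, norm_pow, Complex.normSq_eq_norm_sq]
  field_simp

/-- (FIN). -/
theorem pFin_of (hw : IsWeight N w) : PFin N w := by
  intro a ha hEq B hB hBorb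
  rw [setLIntegral_eq_lintegral_weight hw (measurable_dens ha) (dens_smul hEq) hB]
  unfold energy
  refine lintegral_mono fun z => ?_
  obtain ⟨γ, hγ⟩ := hBorb z
  have h1 : (1 : ℝ≥0∞)
      ≤ ∑' γ : Gamma0 N, B.indicator (fun _ => (1 : ℝ≥0∞)) ((γ : SL(2, ℤ)) • z) := by
    refine le_trans ?_ (ENNReal.le_tsum γ)
    rw [Set.indicator_of_mem hγ]
  calc w z * dens a z = w z * (dens a z * 1) := by rw [mul_one]
    _ ≤ _ := by gcongr

/-! ### Strip bound -/

theorem measurableSet_cuspStrip (N : ℕ) : MeasurableSet (cuspStrip N) := by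
  have h1 : IsClosed {z : ℍ | |z.re| ≤ N} :=
    isClosed_le (continuous_abs.comp UpperHalfPlane.continuous_re) continuous_const
  have h2 : IsClosed {z : ℍ | 2 ≤ z.im} :=
    isClosed_le continuous_const UpperHalfPlane.continuous_im
  exact (h1.inter h2).measurableSet

/-- (STRIP) from the uniform strip count (M2). -/
theorem pStrip_of (hw : IsWeight N w)
    (hM2 : ∃ M : ℕ, ∀ (σ : SL(2, ℤ)) (z : ℍ),
      {γ : Gamma0 N | σ⁻¹ • ((γ : SL(2, ℤ)) • z) ∈ cuspStrip N}.encard ≤ M) :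
    PStrip N w := by
  obtain ⟨M, hM⟩ := hM2
  refine ⟨(M : ℝ≥0∞), ENNReal.natCast_lt_top M, fun a ha hEq σ => ?_⟩
  have hG := measurable_dens ha
  set S' : Set ℍ := (fun z : ℍ => σ⁻¹ • z) ⁻¹' cuspStrip N with hS'
  have hS'm : MeasurableSet S' := (measurable_smul_SL σ⁻¹) (measurableSet_cuspStrip N)
  have hpre : (fun z : ℍ => σ • z) ⁻¹' S' = cuspStrip N := by
    ext z
    rw [hS', Set.mem_preimage, Set.mem_preimage, inv_smul_smul]
  have h1 : ∫⁻ z in cuspStrip N, ‖a ↑(σ • z)‖ₑ ^ 2 * ENNReal.ofReal ((σ • z).im ^ 2)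
      = ∫⁻ z in S', dens a z := by
    have h := (measurePreserving_smul_SL σ).setLIntegral_comp_preimage hS'm hG
    rw [hpre] at h
    exact h
  rw [h1]
  have h2 := setLIntegral_le_of_encard_le hw hG (dens_smul hEq) hS'm (M := (M : ℕ∞))
    (fun z => hM σ z)
  rw [ENat.toENNReal_coe] at h2
  exact h2

/-! ### Lebesgue measure on `ℂ` versus the invariant measure on `ℍ` -/

theorem setLIntegral_coe_preimage {f : ℂ → ℝ≥0∞} (hf : Measurable fun z : ℍ => f ↑z)
    {K : Set ℂ} (hK : MeasurableSet K) (hKU : K ⊆ upperHalfPlaneSet) :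
    ∫⁻ z in (UpperHalfPlane.coe ⁻¹' K), f ↑z * ENNReal.ofReal (z.im ^ 2) = ∫⁻ z in K, f z := by
  have hK' : MeasurableSet (UpperHalfPlane.coe ⁻¹' K) := measurable_coe hK
  have hrange : K ⊆ Set.range UpperHalfPlane.coe := by
    rw [range_coe]
    exact hKU
  have hρ : Measurable fun z : ℍ =>
      (((1 / NNReal.mk z.im z.im_pos.le : NNReal) ^ 2 : NNReal) : ℝ≥0∞) := by
    have hc : Continuous fun z : ℍ => (1 / NNReal.mk z.im z.im_pos.le : NNReal) ^ 2 := by
      refine Continuous.pow (Continuous.div₀ continuous_const ?_ ?_) _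
      · exact UpperHalfPlane.continuous_im.subtype_mk _
      · exact fun x => NNReal.ne_iff.mp x.im_ne_zero
    exact measurable_coe_nnreal_ennreal.comp hc.measurable
  have hg : Measurable fun z : ℍ => f ↑z * ENNReal.ofReal (z.im ^ 2) :=
    hf.mul (ENNReal.measurable_ofReal.comp (UpperHalfPlane.continuous_im.pow 2).measurable)
  rw [volume_def, setLIntegral_withDensity_eq_setLIntegral_mul _ hρ hg hK']
  have hpt : ∀ z : ℍ, ((fun z : ℍ =>
      (((1 / NNReal.mk z.im z.im_pos.le : NNReal) ^ 2 : NNReal) : ℝ≥0∞))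
        * fun z : ℍ => f ↑z * ENNReal.ofReal (z.im ^ 2)) z = f ↑z := by
    intro z
    simp only [Pi.mul_apply]
    have h1 : ENNReal.ofReal (z.im ^ 2)
        = (((NNReal.mk z.im z.im_pos.le) ^ 2 : NNReal) : ℝ≥0∞) := by
      rw [ENNReal.ofReal_eq_coe_nnreal (by positivity)]
      rfl
    have hne : NNReal.mk z.im z.im_pos.le ≠ 0 := NNReal.ne_iff.mp z.im_ne_zero
    have h2 : (1 / NNReal.mk z.im z.im_pos.le : NNReal) ^ 2 * NNReal.mk z.im z.im_pos.le ^ 2
        = 1 := by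
      field_simp
    rw [h1, mul_comm (f ↑z), ← mul_assoc, ← ENNReal.coe_mul, h2, ENNReal.coe_one, one_mul]
  rw [setLIntegral_congr_fun hK' (fun z _ => hpt z)]
  have hmp : MeasurePreserving UpperHalfPlane.coe (volume.comap UpperHalfPlane.coe)
      (volume.restrict (Set.range UpperHalfPlane.coe)) :=
    ⟨measurable_coe, by rw [measurableEmbedding_coe.map_comap]⟩
  rw [hmp.setLIntegral_comp_emb measurableEmbedding_coe f,
    Set.image_preimage_eq_of_subset hrange, Measure.restrict_restrict hK,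
    Set.inter_eq_self_of_subset_left hrange]

/-! ### Local bound -/

/-- (LOC) from local finiteness (A1). -/
theorem pLoc_of (hw : IsWeight N w)
    (hA1 : ∀ K L : Set ℍ, IsCompact K → IsCompact L →
      {γ : Gamma0 N | ∃ z ∈ K, (γ : SL(2, ℤ)) • z ∈ L}.Finite) :
    PLoc N w := by
  intro K hK hKU
  have hrange : K ⊆ Set.range UpperHalfPlane.coe := by
    rw [range_coe]
    exact hKU
  set K' : Set ℍ := UpperHalfPlane.coe ⁻¹' K with hK'
  have hK'c : IsCompact K' :=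
    (isOpenEmbedding_coe.isInducing.isCompact_preimage_iff hrange).2 hK
  have hK'm : MeasurableSet K' := measurable_coe hK.measurableSet
  have hF := hA1 K' K' hK'c hK'c
  set F : Set (Gamma0 N) := {γ : Gamma0 N | ∃ z ∈ K', (γ : SL(2, ℤ)) • z ∈ K'} with hFdef
  refine ⟨((F.encard : ℕ∞) : ℝ≥0∞), ?_, fun a ha hEq => ?_⟩
  · exact ENat.toENNReal_lt_top.2 hF.encard_lt_top
  · have hcount : ∀ z : ℍ, {γ : Gamma0 N | (γ : SL(2, ℤ)) • z ∈ K'}.encard ≤ F.encard := by
      intro z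
      by_cases hne : ({γ : Gamma0 N | (γ : SL(2, ℤ)) • z ∈ K'}).Nonempty
      · obtain ⟨γ0, hγ0⟩ := hne
        refine Set.encard_le_encard_of_injOn (f := fun γ => γ * γ0⁻¹) ?_
          (mul_left_injective _).injOn
        intro γ hγ
        refine ⟨(γ0 : SL(2, ℤ)) • z, hγ0, ?_⟩
        show ((γ * γ0⁻¹ : Gamma0 N) : SL(2, ℤ)) • ((γ0 : SL(2, ℤ)) • z) ∈ K'
        rw [Subgroup.coe_mul, Subgroup.coe_inv, mul_smul, inv_smul_smul]
        exact hγ
      · rw [Set.not_nonempty_iff_eq_empty.1 hne]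
        simp
    have h1 := setLIntegral_le_of_encard_le hw (measurable_dens ha) (dens_smul hEq) hK'm hcount
    have hf : Measurable fun z : ℍ => ‖a ↑z‖ₑ ^ 2 :=
      ((ha.comp_continuous continuous_coe (fun z => z.im_pos)).measurable.enorm).pow_const 2
    have h2 := setLIntegral_coe_preimage (f := fun z => ‖a z‖ₑ ^ 2) hf hK.measurableSet hKU
    rw [← h2]
    exact h1

/-- The three unfolding statements at once. -/
theorem unfold_layer (hw : IsWeight N w)
    (hA1 : ∀ K L : Set ℍ, IsCompact K → IsCompact L →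
      {γ : Gamma0 N | ∃ z ∈ K, (γ : SL(2, ℤ)) • z ∈ L}.Finite)
    (hM2 : ∃ M : ℕ, ∀ (σ : SL(2, ℤ)) (z : ℍ),
      {γ : Gamma0 N | σ⁻¹ • ((γ : SL(2, ℤ)) • z) ∈ cuspStrip N}.encard ≤ M) :
    PFin N w ∧ PLoc N w ∧ PStrip N w :=
  ⟨pFin_of hw, pLoc_of hw hA1, pStrip_of hw hM2⟩

end

end Fermat.Agent.S21.helper1826
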