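/-
helper1826: S21 Route 2, leaf VAR (Dirichlet principle) -- abstract core.

`helper801.StmtVAR N` is reduced to five small statements about a measurable
`Γ₀(N)`-partition weight `w` (`∑_γ w(γ z) = 1`) and the energy
`energy w a = ∫ w |a|² y² dμ` (`μ` the hyperbolic measure on `ℍ`):

* `PFin`   : `energy w a ≤ ∫_B |a|² y² dμ` if `B` meets every orbit;
* `PLoc`   : `∫_K |a|² dx dy ≤ M_K * energy w a` for `K ⊆ ℍ` compact;
* `PStrip` : `∫_{strip} |a(σ z)|² Im(σ z)² dμ ≤ M * energy w a` uniformly in `σ`;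
* `PPair`  : for a real test function `ψ` there is an invariant `C¹` function `v`
             (the average of `ψ` over the group) of finite energy such that the energy
             pairing of `gradC u` with `gradC v` is `∫ Re (gradC u * dbar ψ) dx dy`;
* `PIbp`   : `Im ∫ gradC u * dbar ψ = 0` for real `ψ` (integration by parts).

The theorem `stmtVAR_core` (minimizing sequence, parallelogram law, first variation)
is proved here in full.
-/
import Fermat.Agent.S21.helper801_HodgeSpec

set_option autoImplicit false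

namespace Fermat.Agent.S21.helper1826

open ModularCurve ModularCurve.Period CongruenceSubgroup UpperHalfPlane MeasureTheory Filter
  Topology
open Fermat.Agent.S21.helper801
open scoped MatrixGroups ENNReal ContDiff

noncomputable section

/-! ### Definitions -/

/-- Invariant energy density `|a|² y²` (with respect to the hyperbolic measure on `ℍ`). -/
def dens (a : ℂ → ℂ) (z : ℍ) : ℝ≥0∞ := ‖a ↑z‖ₑ ^ 2 * ENNReal.ofReal (z.im ^ 2)

/-- Energy on the quotient `Γ₀(N)\ℍ`, computed with a partition weight `w`. -/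
def energy (w : ℍ → ℝ≥0∞) (a : ℂ → ℂ) : ℝ≥0∞ := ∫⁻ z, w z * dens a z

/-- A measurable `Γ₀(N)`-partition weight: `∑_γ w(γ z) = 1`. -/
def IsWeight (N : ℕ) (w : ℍ → ℝ≥0∞) : Prop :=
  Measurable w ∧ ∀ z : ℍ, ∑' γ : Gamma0 N, w ((γ : SL(2, ℤ)) • z) = 1

/-- Weight-2 equivariance, in the shape of `helper801.IsPot.gradC_smul`. -/
def Equivariant (N : ℕ) (a : ℂ → ℂ) : Prop :=
  ∀ (γ : Gamma0 N) (z : ℍ), a ↑((γ : SL(2, ℤ)) • z)
    = (((γ : SL(2, ℤ)) 1 0 : ℂ) * (z : ℂ) + ((γ : SL(2, ℤ)) 1 1 : ℂ)) ^ 2 * a ↑z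

/-- The real energy pairing `∫ w Re(a conj b) y² dμ`. -/
def pairing (w : ℍ → ℝ≥0∞) (a b : ℂ → ℂ) : ℝ :=
  ∫ z : ℍ, (w z).toReal * ((a ↑z * (starRingEnd ℂ) (b ↑z)).re * z.im ^ 2)

/-! ### The five sub-statements -/

/-- (FIN) the energy is bounded by the integral of the density over any measurable set
meeting every orbit. -/
def PFin (N : ℕ) (w : ℍ → ℝ≥0∞) : Prop :=
  ∀ a : ℂ → ℂ, ContinuousOn a upperHalfPlaneSet → Equivariant N a →
    ∀ B : Set ℍ, MeasurableSet B → (∀ z : ℍ, ∃ γ : Gamma0 N, (γ : SL(2, ℤ)) • z ∈ B) →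
      energy w a ≤ ∫⁻ z in B, dens a z

/-- (LOC) the energy controls the `L²` norm (Lebesgue measure on `ℂ`) on compact subsets of
the upper half-plane. -/
def PLoc (N : ℕ) (w : ℍ → ℝ≥0∞) : Prop :=
  ∀ K : Set ℂ, IsCompact K → K ⊆ upperHalfPlaneSet → ∃ M : ℝ≥0∞, M < ⊤ ∧
    ∀ a : ℂ → ℂ, ContinuousOn a upperHalfPlaneSet → Equivariant N a →
      ∫⁻ z in K, ‖a z‖ₑ ^ 2 ≤ M * energy w a

/-- (STRIP) the energy controls the invariant `L²` norm on every `SL(2,ℤ)`-translate of the
cusp strip, uniformly. -/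
def PStrip (N : ℕ) (w : ℍ → ℝ≥0∞) : Prop :=
  ∃ M : ℝ≥0∞, M < ⊤ ∧ ∀ a : ℂ → ℂ, ContinuousOn a upperHalfPlaneSet → Equivariant N a →
    ∀ σ : SL(2, ℤ),
      ∫⁻ z in cuspStrip N, ‖a ↑(σ • z)‖ₑ ^ 2 * ENNReal.ofReal ((σ • z).im ^ 2) ≤ M * energy w a

/-- (PAIR) averaging a real test function `ψ` over the group gives an invariant `C¹` function
`v` of finite energy whose energy pairing with any finite-energy potential unfolds to
`∫ Re (gradC u * dbar ψ) dx dy`. -/
def PPair (N : ℕ) (w : ℍ → ℝ≥0∞) : Prop :=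
  ∀ ψ : ℂ → ℝ, ContDiff ℝ ∞ ψ → HasCompactSupport ψ → tsupport ψ ⊆ upperHalfPlaneSet →
    ∃ v : ℍ → ℝ, IsPot N 0 v ∧ energy w (gradC v) < ⊤ ∧
      ∀ (φ : Additive (Gamma0 N) →+ ℝ) (u : ℍ → ℝ), IsPot N φ u → energy w (gradC u) < ⊤ →
        pairing w (gradC u) (gradC v) = ∫ z : ℂ, (gradC u z * dbar (fun x => (ψ x : ℂ)) z).re

/-- (IBP) for a real test function the imaginary part of `∫ gradC u * dbar ψ` vanishes. -/
def PIbp (N : ℕ) : Prop :=
  ∀ (φ : Additive (Gamma0 N) →+ ℝ) (u : ℍ → ℝ), IsPot N φ u →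
    ∀ ψ : ℂ → ℝ, ContDiff ℝ ∞ ψ → HasCompactSupport ψ → tsupport ψ ⊆ upperHalfPlaneSet →
      (∫ z : ℂ, gradC u z * dbar (fun x => (ψ x : ℂ)) z).im = 0

/-! ### Basic facts on weights and energies -/

variable {N : ℕ} {w : ℍ → ℝ≥0∞}

theorem IsWeight.le_one (hw : IsWeight N w) (z : ℍ) : w z ≤ 1 := by
  have h := ENNReal.le_tsum (f := fun γ : Gamma0 N => w ((γ : SL(2, ℤ)) • z)) 1
  rw [hw.2 z] at h
  simpa using h

theorem IsWeight.ne_top (hw : IsWeight N w) (z : ℍ) : w z ≠ ⊤ :=
  ne_top_of_le_ne_top ENNReal.one_ne_top (hw.le_one z)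

/-- Real-valued weighted density. -/
def rdens (w : ℍ → ℝ≥0∞) (a : ℂ → ℂ) (z : ℍ) : ℝ := (w z).toReal * (‖a ↑z‖ ^ 2 * z.im ^ 2)

theorem rdens_nonneg (w : ℍ → ℝ≥0∞) (a : ℂ → ℂ) (z : ℍ) : 0 ≤ rdens w a z := by
  unfold rdens
  exact mul_nonneg ENNReal.toReal_nonneg (by positivity)

theorem energy_eq (hw : IsWeight N w) (a : ℂ → ℂ) :
    energy w a = ∫⁻ z, ENNReal.ofReal (rdens w a z) := by
  unfold energy
  refine lintegral_congr fun z => ?_
  unfold dens rdens
  rw [ENNReal.ofReal_mul ENNReal.toReal_nonneg, ENNReal.ofReal_toReal (hw.ne_top z),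
    ENNReal.ofReal_mul (by positivity), ENNReal.ofReal_pow (norm_nonneg _), ofReal_norm]

theorem aesm_rdens (hw : IsWeight N w) {a : ℂ → ℂ} (ha : Continuous fun z : ℍ => a ↑z) :
    AEStronglyMeasurable (rdens w a) volume := by
  have h1 : Measurable fun z : ℍ => (w z).toReal := hw.1.ennreal_toReal
  have h2 : Continuous fun z : ℍ => ‖a ↑z‖ ^ 2 * z.im ^ 2 :=
    (ha.norm.pow 2).mul (UpperHalfPlane.continuous_im.pow 2)
  exact (h1.mul h2.measurable).aestronglyMeasurable

theorem integrable_rdens (hw : IsWeight N w) {a : ℂ → ℂ} (ha : Continuous fun z : ℍ => a ↑z)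
    (hE : energy w a < ⊤) : Integrable (rdens w a) := by
  rw [energy_eq hw] at hE
  exact (lintegral_ofReal_ne_top_iff_integrable (aesm_rdens hw ha)
    (ae_of_all _ (rdens_nonneg w a))).1 hE.ne

theorem energy_lt_top_of_integrable (hw : IsWeight N w) {a : ℂ → ℂ}
    (hi : Integrable (rdens w a)) : energy w a < ⊤ := by
  rw [energy_eq hw]
  exact ((lintegral_ofReal_ne_top_iff_integrable hi.aestronglyMeasurable
    (ae_of_all _ (rdens_nonneg w a))).2 hi).lt_top

theorem energy_toReal (hw : IsWeight N w) {a : ℂ → ℂ}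
    (hm : AEStronglyMeasurable (rdens w a) volume) :
    (energy w a).toReal = ∫ z, rdens w a z := by
  rw [energy_eq hw, integral_eq_lintegral_of_nonneg_ae (ae_of_all _ (rdens_nonneg w a)) hm]

/-- Expansion of the energy of `a + t b`. -/
theorem energy_add_smul (hw : IsWeight N w) {a b c : ℂ → ℂ}
    (ha : Continuous fun z : ℍ => a ↑z) (hb : Continuous fun z : ℍ => b ↑z)
    (hEa : energy w a < ⊤) (hEb : energy w b < ⊤) (t : ℝ)
    (hc : ∀ z : ℍ, c ↑z = a ↑z + t * b ↑z) :
    energy w c < ⊤ ∧ (energy w c).toReal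
      = (energy w a).toReal + 2 * t * pairing w a b + t ^ 2 * (energy w b).toReal := by
  have hia := integrable_rdens hw ha hEa
  have hib := integrable_rdens hw hb hEb
  set p : ℍ → ℝ := fun z => (w z).toReal * ((a ↑z * (starRingEnd ℂ) (b ↑z)).re * z.im ^ 2)
    with hp
  have hp_meas : AEStronglyMeasurable p volume := by
    have h1 : Measurable fun z : ℍ => (w z).toReal := hw.1.ennreal_toReal
    have h2 : Continuous fun z : ℍ => (a ↑z * (starRingEnd ℂ) (b ↑z)).re * z.im ^ 2 :=
      (Complex.continuous_re.comp (ha.mul (Complex.continuous_conj.comp hb))).mul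
        (UpperHalfPlane.continuous_im.pow 2)
    exact (h1.mul h2.measurable).aestronglyMeasurable
  have hp_bound : ∀ z, ‖p z‖ ≤ rdens w a z + rdens w b z := by
    intro z
    have h1 : |(a ↑z * (starRingEnd ℂ) (b ↑z)).re| ≤ ‖a ↑z‖ * ‖b ↑z‖ := by
      refine (Complex.abs_re_le_norm _).trans ?_
      rw [norm_mul, RCLike.norm_conj]
    have h2 : ‖a ↑z‖ * ‖b ↑z‖ ≤ ‖a ↑z‖ ^ 2 + ‖b ↑z‖ ^ 2 := by
      nlinarith [sq_nonneg (‖a ↑z‖ - ‖b ↑z‖), norm_nonneg (a ↑z), norm_nonneg (b ↑z)]
    have hw0 : 0 ≤ (w z).toReal := ENNReal.toReal_nonneg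
    have hy : 0 ≤ z.im ^ 2 := by positivity
    simp only [hp, rdens, Real.norm_eq_abs, abs_mul, abs_of_nonneg hw0, abs_of_nonneg hy]
    have h3 : |(a ↑z * (starRingEnd ℂ) (b ↑z)).re| * z.im ^ 2
        ≤ (‖a ↑z‖ ^ 2 + ‖b ↑z‖ ^ 2) * z.im ^ 2 :=
      mul_le_mul_of_nonneg_right (h1.trans h2) hy
    nlinarith [mul_le_mul_of_nonneg_left h3 hw0]
  have hip : Integrable p := (hia.add hib).mono' hp_meas (ae_of_all _ hp_bound)
  have hpt : ∀ z, rdens w c z = rdens w a z + 2 * t * p z + t ^ 2 * rdens w b z := by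
    intro z
    have hn : ‖a ↑z + (t : ℂ) * b ↑z‖ ^ 2
        = ‖a ↑z‖ ^ 2 + 2 * t * (a ↑z * (starRingEnd ℂ) (b ↑z)).re + t ^ 2 * ‖b ↑z‖ ^ 2 := by
      rw [Complex.sq_norm, Complex.sq_norm, Complex.sq_norm, Complex.normSq_add,
        Complex.normSq_mul, Complex.normSq_ofReal, map_mul, Complex.conj_ofReal,
        show a ↑z * ((t : ℂ) * (starRingEnd ℂ) (b ↑z))
          = (t : ℂ) * (a ↑z * (starRingEnd ℂ) (b ↑z)) by ring,
        Complex.re_ofReal_mul]
      ring
    simp only [rdens, hp]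
    rw [hc z, hn]
    ring
  have hic : Integrable (rdens w c) := by
    have : rdens w c = fun z => rdens w a z + 2 * t * p z + t ^ 2 * rdens w b z := funext hpt
    rw [this]
    exact (hia.add (hip.const_mul (2 * t))).add (hib.const_mul (t ^ 2))
  refine ⟨energy_lt_top_of_integrable hw hic, ?_⟩
  rw [energy_toReal hw hic.aestronglyMeasurable, energy_toReal hw (aesm_rdens hw ha),
    energy_toReal hw (aesm_rdens hw hb)]
  have hi3 : Integrable (fun z => 2 * t * p z) := hip.const_mul (2 * t)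
  have hi1 : Integrable (fun z => rdens w a z + 2 * t * p z) := hia.add hi3
  have hi2 : Integrable (fun z => t ^ 2 * rdens w b z) := hib.const_mul (t ^ 2)
  have hsum : ∫ z, rdens w c z
      = (∫ z, rdens w a z) + 2 * t * (∫ z, p z) + t ^ 2 * ∫ z, rdens w b z := by
    have h1 : ∫ z, rdens w c z
        = ∫ z, ((rdens w a z + 2 * t * p z) + t ^ 2 * rdens w b z) :=
      integral_congr_ae (ae_of_all _ hpt)
    rw [h1, integral_add hi1 hi2, integral_add hia hi3, integral_const_mul,
      integral_const_mul]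
  rw [hsum]
  rfl

/-! ### Potentials -/

variable {φ φ' : Additive (Gamma0 N) →+ ℝ} {u v : ℍ → ℝ}

theorem continuous_gradC_coe (hu : IsPot N φ u) : Continuous fun z : ℍ => gradC u ↑z :=
  hu.continuousOn_gradC.comp_continuous continuous_coe (fun z => z.im_pos)

theorem gradC_add_smul (hu : IsPot N φ u) (hv : IsPot N φ' v) (t : ℝ) (z : ℍ) :
    gradC (u + t • v) ↑z = gradC u ↑z + t * gradC v ↑z := by
  have hdu : DifferentiableAt ℝ (u ∘ ofComplex) ↑z :=
    (hu.contDiffOn.differentiableOn one_ne_zero).differentiableAt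
      (isOpen_upperHalfPlaneSet.mem_nhds z.im_pos)
  have hdv : DifferentiableAt ℝ (v ∘ ofComplex) ↑z :=
    (hv.contDiffOn.differentiableOn one_ne_zero).differentiableAt
      (isOpen_upperHalfPlaneSet.mem_nhds z.im_pos)
  have hfun : (u + t • v) ∘ ofComplex = (u ∘ ofComplex) + t • (v ∘ ofComplex) := rfl
  unfold gradC
  rw [hfun, fderiv_add hdu (hdv.const_smul t), fderiv_const_smul hdv]
  simp only [add_apply, smul_apply, smul_eq_mul]
  push_cast
  ring

theorem contDiffOn_add_smul (hu : IsPot N φ u) (hv : IsPot N φ' v) (t : ℝ) :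
    ContDiffOn ℝ 1 ((u + t • v) ∘ ofComplex) upperHalfPlaneSet := by
  have hfun : (u + t • v) ∘ ofComplex = (u ∘ ofComplex) + t • (v ∘ ofComplex) := rfl
  rw [hfun]
  exact hu.contDiffOn.add (hv.contDiffOn.const_smul t)

theorem isPot_add_smul (hu : IsPot N φ u) (hv : IsPot N 0 v) (t : ℝ) :
    IsPot N φ (u + t • v) where
  contDiffOn := contDiffOn_add_smul hu hv t
  map_smul γ z := by
    simp only [Pi.add_apply, Pi.smul_apply, smul_eq_mul, hu.map_smul, hv.map_smul,
      AddMonoidHom.zero_apply, add_zero]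
    ring

theorem isPot_sub (hu : IsPot N φ u) (hv : IsPot N φ v) : IsPot N 0 (u + (-1 : ℝ) • v) where
  contDiffOn := contDiffOn_add_smul hu hv (-1)
  map_smul γ z := by
    simp only [Pi.add_apply, Pi.smul_apply, smul_eq_mul, hu.map_smul, hv.map_smul,
      AddMonoidHom.zero_apply, add_zero]
    ring

theorem energy_gradC_add_smul (hw : IsWeight N w) (hu : IsPot N φ u) (hv : IsPot N φ' v)
    (hEu : energy w (gradC u) < ⊤) (hEv : energy w (gradC v) < ⊤) (t : ℝ) :
    energy w (gradC (u + t • v)) < ⊤ ∧ (energy w (gradC (u + t • v))).toReal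
      = (energy w (gradC u)).toReal + 2 * t * pairing w (gradC u) (gradC v)
        + t ^ 2 * (energy w (gradC v)).toReal :=
  energy_add_smul hw (continuous_gradC_coe hu) (continuous_gradC_coe hv) hEu hEv t
    (fun z => gradC_add_smul hu hv t z)

/-- `gradC u * dbar χ` is integrable on `ℂ` for a test function `χ`. -/
theorem integrable_gradC_mul_dbar (hu : IsPot N φ u) {χ : ℂ → ℂ} (hχ : ContDiff ℝ ∞ χ)
    (hχc : HasCompactSupport χ) (hχs : tsupport χ ⊆ upperHalfPlaneSet) :
    Integrable (fun z => gradC u z * dbar χ z) := by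
  have hdb : Continuous (dbar χ) := by
    have h1 : Continuous (fderiv ℝ χ) := hχ.continuous_fderiv (by simp)
    unfold dbar
    exact (h1.clm_apply continuous_const).add
      (continuous_const.mul (h1.clm_apply continuous_const))
  have hsupp : Function.support (fun z => gradC u z * dbar χ z) ⊆ tsupport χ := by
    intro z hz
    by_contra hzn
    have h0 : fderiv ℝ χ z = 0 := by
      by_contra h
      exact hzn (tsupport_fderiv_subset ℝ (subset_tsupport _ h))
    apply hz
    simp [dbar, h0]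
  have hcs : HasCompactSupport (fun z => gradC u z * dbar χ z) := hχc.mono' hsupp
  have hcont : Continuous (fun z => gradC u z * dbar χ z) := by
    refine continuous_of_tsupport fun z hz => ?_
    have hzU : z ∈ upperHalfPlaneSet :=
      hχs (closure_minimal hsupp (isClosed_tsupport _) hz)
    exact (hu.continuousOn_gradC.continuousAt (isOpen_upperHalfPlaneSet.mem_nhds hzU)).mul
      hdb.continuousAt
  exact hcont.integrable_of_hasCompactSupport hcs

theorem contDiff_ofReal_comp {χ : ℂ → ℝ} (hχ : ContDiff ℝ ∞ χ) :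
    ContDiff ℝ ∞ (fun x => (χ x : ℂ)) :=
  Complex.ofRealCLM.contDiff.comp hχ

theorem hasCompactSupport_ofReal_comp {χ : ℂ → ℝ} (hχ : HasCompactSupport χ) :
    HasCompactSupport (fun x => (χ x : ℂ)) :=
  hχ.comp_left (g := fun r : ℝ => (r : ℂ)) Complex.ofReal_zero

theorem tsupport_ofReal_comp_subset (χ : ℂ → ℝ) :
    tsupport (fun x => (χ x : ℂ)) ⊆ tsupport χ :=
  tsupport_comp_subset (g := fun r : ℝ => (r : ℂ)) Complex.ofReal_zero χ

/-! ### The core theorem -/

/-- Dirichlet principle, abstract core: the five sub-statements imply `helper801.StmtVAR`. -/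
theorem stmtVAR_core (N : ℕ) (w : ℍ → ℝ≥0∞) (hw : IsWeight N w) (hFin : PFin N w)
    (hLoc : PLoc N w) (hStrip : PStrip N w) (hPair : PPair N w) (hIbp : PIbp N) :
    StmtVAR N := by
  intro φ u₀ hu₀ hcert
  obtain ⟨B, hBm, hBorb, hBfin⟩ := hcert
  have hE₀ : energy w (gradC u₀) < ⊤ :=
    lt_of_le_of_lt
      (hFin _ hu₀.continuousOn_gradC (fun γ z => hu₀.gradC_smul γ z) B hBm hBorb) hBfin
  -- the infimum of the energy
  set d : ℝ≥0∞ := sInf {e | ∃ u, IsPot N φ u ∧ energy w (gradC u) = e ∧ e < ⊤} with hd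
  have hd_le : ∀ u, IsPot N φ u → energy w (gradC u) < ⊤ → d ≤ energy w (gradC u) :=
    fun u hu hE => sInf_le ⟨u, hu, rfl, hE⟩
  have hd_top : d ≠ ⊤ := (lt_of_le_of_lt (hd_le u₀ hu₀ hE₀) hE₀).ne
  have hex : ∀ n : ℕ, ∃ u, IsPot N φ u ∧ energy w (gradC u) < ⊤ ∧
      energy w (gradC u) < d + ENNReal.ofReal (1 / ((n : ℝ) + 1)) := by
    intro n
    have hpos : ENNReal.ofReal (1 / ((n : ℝ) + 1)) ≠ 0 := by
      rw [Ne, ENNReal.ofReal_eq_zero, not_le]
      positivity
    obtain ⟨e, ⟨u, hu, rfl, hlt⟩, he⟩ := sInf_lt_iff.1 (ENNReal.lt_add_right hd_top hpos)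
    exact ⟨u, hu, hlt, he⟩
  choose u hu hEu hEu' using hex
  set dR : ℝ := d.toReal with hdR
  have hE_le : ∀ n, (energy w (gradC (u n))).toReal ≤ dR + 1 / ((n : ℝ) + 1) := by
    intro n
    have h1 := ENNReal.toReal_mono (b := d + ENNReal.ofReal (1 / ((n : ℝ) + 1)))
      (ENNReal.add_ne_top.2 ⟨hd_top, ENNReal.ofReal_ne_top⟩) (hEu' n).le
    rw [ENNReal.toReal_add hd_top ENNReal.ofReal_ne_top,
      ENNReal.toReal_ofReal (by positivity)] at h1
    exact h1
  have hdR_le : ∀ v, IsPot N φ v → energy w (gradC v) < ⊤ →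
      dR ≤ (energy w (gradC v)).toReal :=
    fun v hv hE => ENNReal.toReal_mono hE.ne (hd_le v hv hE)
  refine ⟨u, hu, ?_, ?_, ?_⟩
  · -- L²_loc-Cauchy
    intro K hK hKU
    obtain ⟨M, hM, hMb⟩ := hLoc K hK hKU
    have key : ∀ n m : ℕ, energy w (fun z => gradC (u n) z - gradC (u m) z)
        ≤ ENNReal.ofReal (2 / ((n : ℝ) + 1) + 2 / ((m : ℝ) + 1)) := by
      intro n m
      have hv : IsPot N 0 (u n + (-1 : ℝ) • u m) := isPot_sub (hu n) (hu m)
      obtain ⟨hEv, -⟩ := energy_gradC_add_smul hw (hu n) (hu m) (hEu n) (hEu m) (-1)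
      have hcongr : energy w (fun z => gradC (u n) z - gradC (u m) z)
          = energy w (gradC (u n + (-1 : ℝ) • u m)) := by
        unfold energy dens
        refine lintegral_congr fun z => ?_
        have hz : gradC (u n) ↑z - gradC (u m) ↑z
            = gradC (u n) ↑z + ((-1 : ℝ) : ℂ) * gradC (u m) ↑z := by
          push_cast
          ring
        rw [gradC_add_smul (hu n) (hu m) (-1) z]
        beta_reduce
        rw [hz]
      rw [hcongr]
      set v := u n + (-1 : ℝ) • u m with hvdef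
      have hexp := fun t : ℝ => energy_gradC_add_smul hw (hu n) hv (hEu n) hEv t
      have h1 := (hexp (-1)).2
      have hum : u n + (-1 : ℝ) • v = u m := by
        rw [hvdef]
        ext x
        simp
      rw [hum] at h1
      have h2 := hexp (-1 / 2)
      have hmid : IsPot N φ (u n + (-1 / 2 : ℝ) • v) := isPot_add_smul (hu n) hv _
      have h3 := hdR_le _ hmid h2.1
      rw [h2.2] at h3
      have hreal : (energy w (gradC v)).toReal ≤ 2 / ((n : ℝ) + 1) + 2 / ((m : ℝ) + 1) := by
        have h4 := hE_le n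
        have h5 := hE_le m
        have e1 : (2 : ℝ) / ((n : ℝ) + 1) = 2 * (1 / ((n : ℝ) + 1)) := by ring
        have e2 : (2 : ℝ) / ((m : ℝ) + 1) = 2 * (1 / ((m : ℝ) + 1)) := by ring
        rw [e1, e2]
        norm_num at h1 h3
        linarith
      calc energy w (gradC v) = ENNReal.ofReal (energy w (gradC v)).toReal :=
            (ENNReal.ofReal_toReal hEv.ne).symm
        _ ≤ _ := ENNReal.ofReal_le_ofReal hreal
    have hbound : ∀ p : ℕ × ℕ, ∫⁻ z in K, ‖gradC (u p.1) z - gradC (u p.2) z‖ₑ ^ 2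
        ≤ M * ENNReal.ofReal (2 / ((p.1 : ℝ) + 1) + 2 / ((p.2 : ℝ) + 1)) := by
      intro p
      have hcont : ContinuousOn (fun z => gradC (u p.1) z - gradC (u p.2) z)
          upperHalfPlaneSet :=
        (hu p.1).continuousOn_gradC.sub (hu p.2).continuousOn_gradC
      have hequiv : Equivariant N (fun z => gradC (u p.1) z - gradC (u p.2) z) := by
        intro γ z
        simp only
        rw [(hu p.1).gradC_smul γ z, (hu p.2).gradC_smul γ z, mul_sub]
      exact (hMb _ hcont hequiv).trans (mul_le_mul' le_rfl (key p.1 p.2))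
    have hlim : Tendsto (fun p : ℕ × ℕ =>
        M * ENNReal.ofReal (2 / ((p.1 : ℝ) + 1) + 2 / ((p.2 : ℝ) + 1))) atTop (𝓝 0) := by
      have ha : Tendsto (fun n : ℕ => 2 / ((n : ℝ) + 1)) atTop (𝓝 0) := by
        have h := (tendsto_one_div_add_atTop_nhds_zero_nat (𝕜 := ℝ)).const_mul 2
        rw [mul_zero] at h
        refine h.congr fun n => ?_
        ring
      have h0 : Tendsto (fun p : ℕ × ℕ => 2 / ((p.1 : ℝ) + 1) + 2 / ((p.2 : ℝ) + 1))
          atTop (𝓝 0) := by
        rw [← prod_atTop_atTop_eq]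
        have := (ha.comp tendsto_fst).add (ha.comp (tendsto_snd (f := (atTop : Filter ℕ))))
        simpa using this
      have h1 := ENNReal.Tendsto.const_mul (a := M)
        ((ENNReal.continuous_ofReal.tendsto 0).comp h0) (Or.inr hM.ne)
      simpa using h1
    exact tendsto_of_tendsto_of_tendsto_of_le_of_le tendsto_const_nhds hlim
      (fun _ => zero_le) hbound
  · -- asymptotic weak holomorphy
    intro ψ hψ hψc hψs
    -- real test functions
    have hreal : ∀ χ : ℂ → ℝ, ContDiff ℝ ∞ χ → HasCompactSupport χ →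
        tsupport χ ⊆ upperHalfPlaneSet →
        Tendsto (fun n => ∫ z, gradC (u n) z * dbar (fun x => (χ x : ℂ)) z) atTop (𝓝 0) := by
      intro χ hχ hχc hχs
      obtain ⟨v, hv, hEv, hpair⟩ := hPair χ hχ hχc hχs
      have hβ : ∀ n, ∫ z, gradC (u n) z * dbar (fun x => (χ x : ℂ)) z
          = ((pairing w (gradC (u n)) (gradC v) : ℝ) : ℂ) := by
        intro n
        have hi := integrable_gradC_mul_dbar (hu n) (contDiff_ofReal_comp hχ)
          (hasCompactSupport_ofReal_comp hχc) ((tsupport_ofReal_comp_subset χ).trans hχs)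
        apply Complex.ext
        · rw [Complex.ofReal_re, hpair φ (u n) (hu n) (hEu n)]
          have := integral_re hi
          simpa using this.symm
        · rw [Complex.ofReal_im]
          exact hIbp φ (u n) (hu n) χ hχ hχc hχs
      have hb : ∀ n : ℕ, (pairing w (gradC (u n)) (gradC v)) ^ 2
          ≤ (energy w (gradC v)).toReal * (1 / ((n : ℝ) + 1)) := by
        intro n
        have hq : ∀ t : ℝ, 0 ≤ (energy w (gradC v)).toReal * (t * t)
            + (2 * pairing w (gradC (u n)) (gradC v)) * t + 1 / ((n : ℝ) + 1) := by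
          intro t
          obtain ⟨hfin, hexp⟩ := energy_gradC_add_smul hw (hu n) hv (hEu n) hEv t
          have h1 := hdR_le _ (isPot_add_smul (hu n) hv t) hfin
          rw [hexp] at h1
          have h2 := hE_le n
          have h3 : t ^ 2 = t * t := sq t
          rw [h3] at h1
          linarith
        have h4 := discrim_le_zero hq
        unfold discrim at h4
        linarith
      simp_rw [hβ]
      have hlim : Tendsto (fun n : ℕ => pairing w (gradC (u n)) (gradC v)) atTop (𝓝 0) := by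
        have hs : Tendsto (fun n : ℕ =>
            Real.sqrt ((energy w (gradC v)).toReal * (1 / ((n : ℝ) + 1)))) atTop (𝓝 0) := by
          have h := (tendsto_one_div_add_atTop_nhds_zero_nat (𝕜 := ℝ)).const_mul
            (energy w (gradC v)).toReal
          rw [mul_zero] at h
          have h' := (Real.continuous_sqrt.tendsto 0).comp h
          rw [Real.sqrt_zero] at h'
          exact h'
        refine squeeze_zero_norm (fun n => ?_) hs
        rw [Real.norm_eq_abs]
        exact Real.abs_le_sqrt (hb n)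
      have hc := (Complex.continuous_ofReal.tendsto 0).comp hlim
      rw [Complex.ofReal_zero] at hc
      exact hc
    -- split a complex test function into real and imaginary parts
    set ψ1 : ℂ → ℝ := fun z => (ψ z).re with hψ1
    set ψ2 : ℂ → ℝ := fun z => (ψ z).im with hψ2
    have c1 : ContDiff ℝ ∞ ψ1 := Complex.reCLM.contDiff.comp hψ
    have c2 : ContDiff ℝ ∞ ψ2 := Complex.imCLM.contDiff.comp hψ
    have k1 : HasCompactSupport ψ1 := hψc.comp_left (g := Complex.re) Complex.zero_re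
    have k2 : HasCompactSupport ψ2 := hψc.comp_left (g := Complex.im) Complex.zero_im
    have s1 : tsupport ψ1 ⊆ upperHalfPlaneSet :=
      (tsupport_comp_subset (g := Complex.re) Complex.zero_re ψ).trans hψs
    have s2 : tsupport ψ2 ⊆ upperHalfPlaneSet :=
      (tsupport_comp_subset (g := Complex.im) Complex.zero_im ψ).trans hψs
    have hdec : ∀ z, dbar ψ z = dbar (fun x => (ψ1 x : ℂ)) z
        + Complex.I * dbar (fun x => (ψ2 x : ℂ)) z := by
      intro z
      have hfun : ψ = fun x => (ψ1 x : ℂ) + Complex.I * (ψ2 x : ℂ) := by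
        funext x
        simp only [hψ1, hψ2]
        rw [mul_comm]
        exact (Complex.re_add_im (ψ x)).symm
      have d1 : DifferentiableAt ℝ (fun x => (ψ1 x : ℂ)) z :=
        ((contDiff_ofReal_comp c1).differentiable (by simp)).differentiableAt
      have d2 : DifferentiableAt ℝ (fun x => (ψ2 x : ℂ)) z :=
        ((contDiff_ofReal_comp c2).differentiable (by simp)).differentiableAt
      have hfd : fderiv ℝ ψ z = fderiv ℝ (fun x => (ψ1 x : ℂ)) z
          + Complex.I • fderiv ℝ (fun x => (ψ2 x : ℂ)) z := by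
        conv_lhs => rw [hfun]
        rw [fderiv_fun_add d1 (d2.const_mul _), fderiv_const_mul d2]
      unfold dbar
      rw [hfd]
      simp only [add_apply, smul_apply, smul_eq_mul]
      ring
    have hi1 : ∀ n, Integrable (fun z => gradC (u n) z * dbar (fun x => (ψ1 x : ℂ)) z) :=
      fun n => integrable_gradC_mul_dbar (hu n) (contDiff_ofReal_comp c1)
        (hasCompactSupport_ofReal_comp k1) ((tsupport_ofReal_comp_subset ψ1).trans s1)
    have hi2 : ∀ n, Integrable (fun z => gradC (u n) z * dbar (fun x => (ψ2 x : ℂ)) z) :=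
      fun n => integrable_gradC_mul_dbar (hu n) (contDiff_ofReal_comp c2)
        (hasCompactSupport_ofReal_comp k2) ((tsupport_ofReal_comp_subset ψ2).trans s2)
    have hsplit : ∀ n, ∫ z, gradC (u n) z * dbar ψ z
        = (∫ z, gradC (u n) z * dbar (fun x => (ψ1 x : ℂ)) z)
          + Complex.I * ∫ z, gradC (u n) z * dbar (fun x => (ψ2 x : ℂ)) z := by
      intro n
      have hfun : (fun z => gradC (u n) z * dbar ψ z)
          = fun z => gradC (u n) z * dbar (fun x => (ψ1 x : ℂ)) z
            + Complex.I * (gradC (u n) z * dbar (fun x => (ψ2 x : ℂ)) z) := by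
        funext z
        rw [hdec z]
        ring
      rw [hfun, integral_add (hi1 n) ((hi2 n).const_mul _), integral_const_mul]
    have hfinal := (hreal ψ1 c1 k1 s1).add ((hreal ψ2 c2 k2 s2).const_mul Complex.I)
    rw [mul_zero, add_zero] at hfinal
    refine hfinal.congr fun n => ?_
    exact (hsplit n).symm
  · -- strip bounds
    obtain ⟨M, hM, hMb⟩ := hStrip
    refine ⟨M * (energy w (gradC u₀) + 1),
      ENNReal.mul_lt_top hM (ENNReal.add_lt_top.2 ⟨hE₀, ENNReal.one_lt_top⟩), fun n σ => ?_⟩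
    refine (hMb _ (hu n).continuousOn_gradC (fun γ z => (hu n).gradC_smul γ z) σ).trans
      (mul_le_mul' le_rfl ?_)
    calc energy w (gradC (u n)) ≤ d + ENNReal.ofReal (1 / ((n : ℝ) + 1)) := (hEu' n).le
      _ ≤ energy w (gradC u₀) + 1 := by
          refine add_le_add (hd_le u₀ hu₀ hE₀) ?_
          rw [← ENNReal.ofReal_one]
          refine ENNReal.ofReal_le_ofReal ?_
          rw [div_le_one (by positivity)]
          linarith [(Nat.cast_nonneg n : (0 : ℝ) ≤ n)]

end

end Fermat.Agent.S21.helper1826
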