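/-
helper1901: S21 Route 2, leaf (4d) BOUND.

If `a n → h` in `L²` on every compact subset of the upper half plane (`a n`, `h` continuous
there) and the weighted strip integrals
  `∫⁻ z in S, ofReal ((σ • z).im ^ 2 * ‖a n ↑(σ • z)‖ ^ 2)`   (hyperbolic measure on `ℍ`)
are bounded by `C` for all `n`, then the same bound holds for `h`.  Here `S` is any closed
subset of `ℍ` (e.g. the cusp strip `{2 ≤ im z, |re z| ≤ N}`) and `σ ∈ SL(2,ℤ)`.

Ingredients (all proved here, Mathlib only):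
* `setLIntegral_im_sq_mul`: hyperbolic measure on `ℍ` versus Lebesgue measure on `ℂ`;
* `setLIntegral_smul_im_sq`: the change of variables `z ↦ σ • z`;
* `setLIntegral_sq_le_of_tendsto`: lower semicontinuity of `∫_K ‖·‖²` under `L²(K)` limits.
-/
import Mathlib

set_option autoImplicit false

namespace Fermat.Agent.S21.helper1901

open MeasureTheory UpperHalfPlane Filter Topology
open scoped ENNReal NNReal MatrixGroups

/-- Conversion between the hyperbolic measure on `ℍ` and Lebesgue measure on `ℂ`. -/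
theorem setLIntegral_im_sq_mul (s : Set ℍ) (hs : MeasurableSet s) (F : ℂ → ℝ≥0∞) :
    ∫⁻ z in s, ENNReal.ofReal (z.im ^ 2) * F ↑z = ∫⁻ w in (UpperHalfPlane.coe '' s), F w := by
  have hmp : MeasurePreserving UpperHalfPlane.coe (volume.comap UpperHalfPlane.coe)
      (volume.restrict (.range UpperHalfPlane.coe)) :=
    ⟨measurable_coe, by rw [measurableEmbedding_coe.map_comap]⟩
  have hρc : Continuous fun z : ℍ ↦ ((1 / NNReal.mk z.im z.im_pos.le : ℝ≥0) ^ 2) := by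
    refine .pow (.div₀ continuous_const ?_ ?_) _
    · exact continuous_im.subtype_mk _
    · exact fun x ↦ NNReal.ne_iff.mp x.im_ne_zero
  have hρ : Measurable fun z : ℍ ↦ ((↑((1 / NNReal.mk z.im z.im_pos.le : ℝ≥0) ^ 2) : ℝ≥0∞)) :=
    (ENNReal.continuous_coe.comp hρc).measurable
  rw [volume_def, setLIntegral_withDensity_eq_setLIntegral_mul_non_measurable _ hρ _ hs
    (by simp)]
  have key : ∀ z : ℍ, ((↑((1 / NNReal.mk z.im z.im_pos.le : ℝ≥0) ^ 2) : ℝ≥0∞)) *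
      (ENNReal.ofReal (z.im ^ 2) * F ↑z) = F ↑z := by
    intro z
    rw [← mul_assoc]
    have : ((↑((1 / NNReal.mk z.im z.im_pos.le : ℝ≥0) ^ 2) : ℝ≥0∞)) * ENNReal.ofReal (z.im ^ 2)
        = 1 := by
      have h1 : ENNReal.ofReal (z.im ^ 2) = ((NNReal.mk z.im z.im_pos.le ^ 2 : ℝ≥0) : ℝ≥0∞) := by
        rw [ENNReal.ofReal]
        congr 1
        ext
        simp [Real.coe_toNNReal _ (sq_nonneg _)]
      rw [h1, ← ENNReal.coe_mul]
      have h2 : NNReal.mk z.im z.im_pos.le ≠ 0 := NNReal.ne_iff.mp z.im_ne_zero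
      norm_cast
      field_simp
    rw [this, one_mul]
  simp only [Pi.mul_apply, key]
  rw [hmp.setLIntegral_comp_emb measurableEmbedding_coe, Measure.restrict_restrict_of_subset
    (Set.image_subset_range _ _)]

/-- Change of variables: the weighted integrand of `b` over `K`, transported by `σ`,
is the plain Lebesgue integral of `‖b‖²` over the image of `σ • K` in `ℂ`. -/
theorem setLIntegral_smul_im_sq (σ : SL(2, ℤ)) (K : Set ℍ) (hK : MeasurableSet K) (b : ℂ → ℂ) :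
    ∫⁻ z in K, ENNReal.ofReal ((σ • z).im ^ 2 * ‖b ↑(σ • z)‖ ^ 2) =
      ∫⁻ w in UpperHalfPlane.coe '' ((fun z : ℍ => σ • z) '' K), ENNReal.ofReal (‖b w‖ ^ 2) := by
  have hemb : MeasurableEmbedding (fun z : ℍ => (σ : GL (Fin 2) ℝ) • z) :=
    measurableEmbedding_const_smul _
  have h1 := (measurePreserving_smul (σ : GL (Fin 2) ℝ) (volume : Measure ℍ)).setLIntegral_comp_emb
    hemb (fun w : ℍ => ENNReal.ofReal (w.im ^ 2 * ‖b ↑w‖ ^ 2)) K
  have h2 : (fun z : ℍ => σ • z) = (fun z : ℍ => (σ : GL (Fin 2) ℝ) • z) := rfl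
  rw [h2]
  refine h1.trans ?_
  rw [← setLIntegral_im_sq_mul _ (hemb.measurableSet_image.mpr hK)]
  refine lintegral_congr fun w => ?_
  rw [ENNReal.ofReal_mul (sq_nonneg _)]

/-- Pointwise inequality `‖y‖² ≤ (1+δ)‖x‖² + (1+1/δ)‖x - y‖²`. -/
theorem norm_sq_le_add_mul (x y : ℂ) (δ : ℝ) (hδ : 0 < δ) :
    ‖y‖ ^ 2 ≤ (1 + δ) * ‖x‖ ^ 2 + (1 + 1 / δ) * ‖x - y‖ ^ 2 := by
  have h1 : ‖y‖ ≤ ‖x‖ + ‖x - y‖ := by
    have := norm_sub_le x (x - y)
    simpa using this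
  have h2 : ‖y‖ ^ 2 ≤ (‖x‖ + ‖x - y‖) ^ 2 := pow_le_pow_left₀ (norm_nonneg _) h1 2
  have h3 : 2 * ‖x‖ * ‖x - y‖ ≤ δ * ‖x‖ ^ 2 + 1 / δ * ‖x - y‖ ^ 2 := by
    have h4 : 0 ≤ (δ * ‖x‖ - ‖x - y‖) ^ 2 / δ := div_nonneg (sq_nonneg _) hδ.le
    have h5 : (δ * ‖x‖ - ‖x - y‖) ^ 2 / δ =
        δ * ‖x‖ ^ 2 + 1 / δ * ‖x - y‖ ^ 2 - 2 * ‖x‖ * ‖x - y‖ := by
      field_simp
      ring
    linarith
  nlinarith [h2, h3]

/-- Lower semicontinuity of `∫_K ‖·‖²` on a compact set under `L²(K)` convergence. -/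
theorem setLIntegral_sq_le_of_tendsto (U : Set ℂ) (K : Set ℂ) (hK : IsCompact K) (hKU : K ⊆ U)
    (a : ℕ → ℂ → ℂ) (h : ℂ → ℂ)
    (hh : ContinuousOn h U) (ha : ∀ n, ContinuousOn (a n) U)
    (hlim : Tendsto (fun n => ∫ z in K, ‖a n z - h z‖ ^ 2) atTop (𝓝 0))
    (C : ℝ≥0∞) (hC : ∀ n, ∫⁻ w in K, ENNReal.ofReal (‖a n w‖ ^ 2) ≤ C) :
    ∫⁻ w in K, ENNReal.ofReal (‖h w‖ ^ 2) ≤ C := by
  have hKm : MeasurableSet K := hK.measurableSet
  -- step 1: the estimate for fixed `n` and `δ`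
  have step1 : ∀ (δ : ℝ), 0 < δ → ∀ n, ∫⁻ w in K, ENNReal.ofReal (‖h w‖ ^ 2) ≤
      ENNReal.ofReal (1 + δ) * C +
        ENNReal.ofReal (1 + 1 / δ) * ENNReal.ofReal (∫ z in K, ‖a n z - h z‖ ^ 2) := by
    intro δ hδ n
    have hcont : ContinuousOn (fun z => ‖a n z - h z‖ ^ 2) K :=
      ((((ha n).sub hh).norm).pow 2).mono hKU
    have hint : IntegrableOn (fun z => ‖a n z - h z‖ ^ 2) K := hcont.integrableOn_compact hK
    have e1 : ENNReal.ofReal (∫ z in K, ‖a n z - h z‖ ^ 2) =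
        ∫⁻ z in K, ENNReal.ofReal (‖a n z - h z‖ ^ 2) :=
      ofReal_integral_eq_lintegral_ofReal hint (Eventually.of_forall fun z => sq_nonneg _)
    have hmeas : AEMeasurable (fun w => ENNReal.ofReal (1 + δ) * ENNReal.ofReal (‖a n w‖ ^ 2))
        (volume.restrict K) := by
      have : ContinuousOn (fun w => ‖a n w‖ ^ 2) K := (((ha n).norm).pow 2).mono hKU
      exact ((this.aemeasurable hKm).ennreal_ofReal).const_mul _
    calc ∫⁻ w in K, ENNReal.ofReal (‖h w‖ ^ 2)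
        ≤ ∫⁻ w in K, (ENNReal.ofReal (1 + δ) * ENNReal.ofReal (‖a n w‖ ^ 2) +
            ENNReal.ofReal (1 + 1 / δ) * ENNReal.ofReal (‖a n w - h w‖ ^ 2)) := by
          refine lintegral_mono fun w => ?_
          rw [← ENNReal.ofReal_mul (by positivity), ← ENNReal.ofReal_mul (by positivity),
            ← ENNReal.ofReal_add (by positivity) (by positivity)]
          exact ENNReal.ofReal_le_ofReal (norm_sq_le_add_mul _ _ δ hδ)
      _ = ENNReal.ofReal (1 + δ) * (∫⁻ w in K, ENNReal.ofReal (‖a n w‖ ^ 2)) +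
            ENNReal.ofReal (1 + 1 / δ) * (∫⁻ w in K, ENNReal.ofReal (‖a n w - h w‖ ^ 2)) := by
          rw [lintegral_add_left' hmeas, lintegral_const_mul' _ _ ENNReal.ofReal_ne_top,
            lintegral_const_mul' _ _ ENNReal.ofReal_ne_top]
      _ ≤ ENNReal.ofReal (1 + δ) * C +
            ENNReal.ofReal (1 + 1 / δ) * ENNReal.ofReal (∫ z in K, ‖a n z - h z‖ ^ 2) := by
          rw [e1]
          gcongr
          exact hC n
  -- step 2: let `n → ∞`
  have step2 : ∀ (δ : ℝ), 0 < δ → ∫⁻ w in K, ENNReal.ofReal (‖h w‖ ^ 2) ≤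
      ENNReal.ofReal (1 + δ) * C := by
    intro δ hδ
    have ht : Tendsto (fun n => ENNReal.ofReal (1 + δ) * C +
        ENNReal.ofReal (1 + 1 / δ) * ENNReal.ofReal (∫ z in K, ‖a n z - h z‖ ^ 2)) atTop
        (𝓝 (ENNReal.ofReal (1 + δ) * C + ENNReal.ofReal (1 + 1 / δ) * ENNReal.ofReal 0)) := by
      refine tendsto_const_nhds.add (ENNReal.Tendsto.const_mul ?_ (Or.inr ENNReal.ofReal_ne_top))
      exact (ENNReal.continuous_ofReal.tendsto 0).comp hlim
    have := ge_of_tendsto' ht (step1 δ hδ)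
    simpa using this
  -- step 3: let `δ → 0`
  have ht : Tendsto (fun k : ℕ => ENNReal.ofReal (1 + 1 / ((k : ℝ) + 1)) * C) atTop
      (𝓝 (ENNReal.ofReal (1 + 0) * C)) := by
    refine ENNReal.Tendsto.mul_const ?_ (Or.inl (by simp))
    exact (ENNReal.continuous_ofReal.tendsto _).comp
      (tendsto_const_nhds.add tendsto_one_div_add_atTop_nhds_zero_nat)
  have := ge_of_tendsto' ht (fun k => step2 (1 / ((k : ℝ) + 1)) (by positivity))
  simpa using this

/-- **(4d) BOUND, general closed set.** A uniform bound for the weighted `L²` integrals of the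
`a n` over a closed set `S ⊆ ℍ` (transported by `σ`) passes to an `L²_loc` limit `h`. -/
theorem setLIntegral_smul_le_of_L2loc_limit (S : Set ℍ) (hS : IsClosed S)
    (a : ℕ → ℂ → ℂ) (h : ℂ → ℂ)
    (hh : ContinuousOn h {z : ℂ | 0 < z.im}) (ha : ∀ n, ContinuousOn (a n) {z : ℂ | 0 < z.im})
    (hlim : ∀ K : Set ℂ, IsCompact K → K ⊆ {z : ℂ | 0 < z.im} →
      Tendsto (fun n => ∫ z in K, ‖a n z - h z‖ ^ 2) atTop (𝓝 0))
    (σ : SL(2, ℤ)) (C : ℝ≥0∞)
    (hbd : ∀ n, ∫⁻ z in S, ENNReal.ofReal ((σ • z).im ^ 2 * ‖a n ↑(σ • z)‖ ^ 2) ≤ C) :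
    ∫⁻ z in S, ENNReal.ofReal ((σ • z).im ^ 2 * ‖h ↑(σ • z)‖ ^ 2) ≤ C := by
  have hcov : S = ⋃ m, (S ∩ compactCovering ℍ m) := by
    rw [← Set.inter_iUnion, iUnion_compactCovering, Set.inter_univ]
  have hmono : Monotone fun m => S ∩ compactCovering ℍ m :=
    fun m n hmn => Set.inter_subset_inter_right _ (compactCovering_subset ℍ hmn)
  rw [hcov, setLIntegral_iUnion_of_directed _ hmono.directed_le]
  refine iSup_le fun m => ?_
  have hKc : IsCompact (S ∩ compactCovering ℍ m) :=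
    (isCompact_compactCovering ℍ m).inter_left hS
  have hKS : S ∩ compactCovering ℍ m ⊆ S := Set.inter_subset_left
  generalize S ∩ compactCovering ℍ m = K at hKc hKS
  have hK'c : IsCompact (UpperHalfPlane.coe '' ((fun z : ℍ => σ • z) '' K)) :=
    (hKc.image (continuous_const_smul (σ : GL (Fin 2) ℝ))).image UpperHalfPlane.continuous_coe
  have hK'U : UpperHalfPlane.coe '' ((fun z : ℍ => σ • z) '' K) ⊆ {z : ℂ | 0 < z.im} := by
    rintro _ ⟨w, -, rfl⟩
    exact w.im_pos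
  rw [setLIntegral_smul_im_sq σ K hKc.measurableSet h]
  refine setLIntegral_sq_le_of_tendsto _ _ hK'c hK'U a h hh ha (hlim _ hK'c hK'U) C fun n => ?_
  rw [← setLIntegral_smul_im_sq σ K hKc.measurableSet (a n)]
  exact (lintegral_mono_set hKS).trans (hbd n)

/-- **(4d) BOUND for the cusp strip `{z : ℍ | 2 ≤ z.im ∧ |z.re| ≤ N}`.** -/
theorem strip_bound_of_L2loc_limit (N : ℕ) (a : ℕ → ℂ → ℂ) (h : ℂ → ℂ)
    (hh : ContinuousOn h {z : ℂ | 0 < z.im}) (ha : ∀ n, ContinuousOn (a n) {z : ℂ | 0 < z.im})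
    (hlim : ∀ K : Set ℂ, IsCompact K → K ⊆ {z : ℂ | 0 < z.im} →
      Tendsto (fun n => ∫ z in K, ‖a n z - h z‖ ^ 2) atTop (𝓝 0))
    (σ : SL(2, ℤ)) (C : ℝ≥0∞)
    (hbd : ∀ n, ∫⁻ z in {z : ℍ | 2 ≤ z.im ∧ |z.re| ≤ N},
        ENNReal.ofReal ((σ • z).im ^ 2 * ‖a n ↑(σ • z)‖ ^ 2) ≤ C) :
    ∫⁻ z in {z : ℍ | 2 ≤ z.im ∧ |z.re| ≤ N},
        ENNReal.ofReal ((σ • z).im ^ 2 * ‖h ↑(σ • z)‖ ^ 2) ≤ C := by
  refine setLIntegral_smul_le_of_L2loc_limit _ ?_ a h hh ha hlim σ C hbd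
  exact (isClosed_le continuous_const UpperHalfPlane.continuous_im).inter
    (isClosed_le (continuous_abs.comp UpperHalfPlane.continuous_re) continuous_const)

end Fermat.Agent.S21.helper1901
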