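import Mathlib

/-!
# S21, Route 2, leaf (4c): weight-2 invariance passes to `L²_loc` limits

`invariant_of_L2loc_limit`: if continuous functions `a n` on the upper half plane satisfy the
weight-2 transformation rule under a subgroup `Γ` of `SL(2,ℤ)` and converge in `L²` on every
compact subset of the upper half plane to a continuous function `h`, then `h` satisfies the same
transformation rule.

Also exported: `eqOn_of_L2loc_limits` (uniqueness of continuous `L²_loc` limits) and the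
change-of-variables bridges between Lebesgue integrals on `ℂ` and integrals for the invariant
measure on `ℍ`.
-/

set_option autoImplicit false

namespace Fermat.Agent.S21.helper2307

open UpperHalfPlane MeasureTheory Filter Topology
open scoped MatrixGroups ENNReal

/-! ## Uniqueness of continuous `L²_loc` limits -/

/-- Two continuous functions which are both `L²`-limits on every compact subset of an open set
`Ω ⊆ ℂ` of the same sequence of continuous functions agree on `Ω`. -/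
theorem eqOn_of_L2loc_limits {Ω : Set ℂ} (hΩ : IsOpen Ω) (a : ℕ → ℂ → ℂ) (h₁ h₂ : ℂ → ℂ)
    (ha : ∀ n, ContinuousOn (a n) Ω) (h₁c : ContinuousOn h₁ Ω) (h₂c : ContinuousOn h₂ Ω)
    (hlim₁ : ∀ K, IsCompact K → K ⊆ Ω →
      Tendsto (fun n => ∫ z in K, ‖a n z - h₁ z‖ ^ 2) atTop (𝓝 0))
    (hlim₂ : ∀ K, IsCompact K → K ⊆ Ω →
      Tendsto (fun n => ∫ z in K, ‖a n z - h₂ z‖ ^ 2) atTop (𝓝 0)) :
    Set.EqOn h₁ h₂ Ω := by
  intro z₀ hz₀
  obtain ⟨r, hr, hrΩ⟩ := Metric.nhds_basis_closedBall.mem_iff.mp (hΩ.mem_nhds hz₀)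
  set K := Metric.closedBall z₀ r with hK
  have hKc : IsCompact K := isCompact_closedBall z₀ r
  have hKm : MeasurableSet K := measurableSet_closedBall
  have hint : ∀ (f g : ℂ → ℂ), ContinuousOn f Ω → ContinuousOn g Ω →
      IntegrableOn (fun z => ‖f z - g z‖ ^ 2) K := by
    intro f g hf hg
    exact ContinuousOn.integrableOn_compact hKc (((hf.sub hg).mono hrΩ).norm.pow 2)
  have hbound : ∀ n, ∫ z in K, ‖h₁ z - h₂ z‖ ^ 2 ≤
      2 * (∫ z in K, ‖a n z - h₁ z‖ ^ 2) + 2 * (∫ z in K, ‖a n z - h₂ z‖ ^ 2) := by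
    intro n
    have h1 := hint (a n) h₁ (ha n) h₁c
    have h2 := hint (a n) h₂ (ha n) h₂c
    calc ∫ z in K, ‖h₁ z - h₂ z‖ ^ 2
        ≤ ∫ z in K, (2 * ‖a n z - h₁ z‖ ^ 2 + 2 * ‖a n z - h₂ z‖ ^ 2) := by
          apply setIntegral_mono_on (hint h₁ h₂ h₁c h₂c)
            ((h1.const_mul 2).add (h2.const_mul 2)) hKm
          intro z _
          show ‖h₁ z - h₂ z‖ ^ 2 ≤ 2 * ‖a n z - h₁ z‖ ^ 2 + 2 * ‖a n z - h₂ z‖ ^ 2
          have h3 : ‖h₁ z - h₂ z‖ ≤ ‖a n z - h₁ z‖ + ‖a n z - h₂ z‖ := by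
            have : h₁ z - h₂ z = (a n z - h₂ z) - (a n z - h₁ z) := by ring
            rw [this]
            linarith [norm_sub_le (a n z - h₂ z) (a n z - h₁ z)]
          nlinarith [norm_nonneg (h₁ z - h₂ z), norm_nonneg (a n z - h₁ z),
            norm_nonneg (a n z - h₂ z), sq_nonneg (‖a n z - h₁ z‖ - ‖a n z - h₂ z‖)]
      _ = 2 * (∫ z in K, ‖a n z - h₁ z‖ ^ 2) + 2 * (∫ z in K, ‖a n z - h₂ z‖ ^ 2) := by
          rw [integral_add (h1.const_mul 2) (h2.const_mul 2), integral_const_mul,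
            integral_const_mul]
  have hzero : ∫ z in K, ‖h₁ z - h₂ z‖ ^ 2 = 0 := by
    apply le_antisymm
    · have ht : Tendsto (fun n => 2 * (∫ z in K, ‖a n z - h₁ z‖ ^ 2)
          + 2 * (∫ z in K, ‖a n z - h₂ z‖ ^ 2)) atTop (𝓝 0) := by
        simpa using ((hlim₁ K hKc hrΩ).const_mul 2).add ((hlim₂ K hKc hrΩ).const_mul 2)
      exact ge_of_tendsto' ht hbound
    · exact integral_nonneg (fun z => by positivity)
  have hae : (fun z => ‖h₁ z - h₂ z‖ ^ 2) =ᵐ[volume.restrict K] 0 :=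
    (setIntegral_eq_zero_iff_of_nonneg_ae (Eventually.of_forall fun z => by positivity)
      (hint h₁ h₂ h₁c h₂c)).mp hzero
  have hae' : h₁ =ᵐ[volume.restrict (Metric.ball z₀ r)] h₂ := by
    have := ae_restrict_of_ae_restrict_of_subset
      (Metric.ball_subset_closedBall (x := z₀) (ε := r)) hae
    filter_upwards [this] with z hz
    simpa [sub_eq_zero] using hz
  exact Measure.eqOn_open_of_ae_eq hae' Metric.isOpen_ball
    (h₁c.mono (Metric.ball_subset_closedBall.trans hrΩ))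
    (h₂c.mono (Metric.ball_subset_closedBall.trans hrΩ)) (Metric.mem_ball_self hr)

/-! ## Lebesgue measure on `ℂ` versus the invariant measure on `ℍ` -/

/-- Lebesgue integral over the image in `ℂ` of a measurable subset of `ℍ`, as an integral for
the invariant measure `dx dy / y²` of `ℍ`. -/
theorem setLIntegral_coe_image (S : Set ℍ) (hS : MeasurableSet S) (F : ℂ → ℝ≥0∞)
    (hF : Measurable fun τ : ℍ => F ↑τ) :
    ∫⁻ z in UpperHalfPlane.coe '' S, F z = ∫⁻ τ in S, F ↑τ * ENNReal.ofReal (τ.im ^ 2) := by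
  have hmp : MeasurePreserving UpperHalfPlane.coe (volume.comap UpperHalfPlane.coe)
      (volume.restrict (Set.range UpperHalfPlane.coe)) :=
    ⟨measurable_coe, by rw [measurableEmbedding_coe.map_comap]⟩
  have hρc : Continuous fun z : ℍ => ((1 / NNReal.mk z.im z.im_pos.le : NNReal) ^ 2) := by
    refine .pow (.div₀ continuous_const ?_ ?_) _
    · exact continuous_im.subtype_mk _
    · exact fun x ↦ NNReal.ne_iff.mp x.im_ne_zero
  have hρ : Measurable fun z : ℍ =>
      ((↑((1 / NNReal.mk z.im z.im_pos.le : NNReal) ^ 2) : ℝ≥0∞)) :=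
    hρc.measurable.coe_nnreal_ennreal
  have him : Measurable fun τ : ℍ => ENNReal.ofReal (τ.im ^ 2) :=
    ENNReal.measurable_ofReal.comp (continuous_im.pow 2).measurable
  have hpt : ∀ τ : ℍ,
      ((fun z : ℍ => ((↑((1 / NNReal.mk z.im z.im_pos.le : NNReal) ^ 2) : ℝ≥0∞))) *
        fun τ : ℍ => F ↑τ * ENNReal.ofReal (τ.im ^ 2)) τ = F ↑τ := by
    intro τ
    have h1 : ENNReal.ofReal (τ.im ^ 2)
        = ((NNReal.mk τ.im τ.im_pos.le ^ 2 : NNReal) : ℝ≥0∞) := by
      rw [ENNReal.ofReal_eq_coe_nnreal (by positivity)]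
      rfl
    have h2 : NNReal.mk τ.im τ.im_pos.le ≠ 0 := NNReal.ne_iff.mp τ.im_ne_zero
    simp only [Pi.mul_apply, h1]
    rw [mul_comm (F ↑τ), ← mul_assoc, ← ENNReal.coe_mul]
    have h3 : (1 / NNReal.mk τ.im τ.im_pos.le) ^ 2 * NNReal.mk τ.im τ.im_pos.le ^ 2 = 1 := by
      field_simp
    rw [h3]; simp
  symm
  calc ∫⁻ τ in S, F ↑τ * ENNReal.ofReal (τ.im ^ 2)
      = ∫⁻ τ in S,
          ((fun z : ℍ => ((↑((1 / NNReal.mk z.im z.im_pos.le : NNReal) ^ 2) : ℝ≥0∞))) *
            fun τ : ℍ => F ↑τ * ENNReal.ofReal (τ.im ^ 2)) τ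
          ∂(volume.comap UpperHalfPlane.coe) := by
        rw [volume_def]
        exact setLIntegral_withDensity_eq_setLIntegral_mul _ hρ (hF.mul him) hS
    _ = ∫⁻ τ in S, F ↑τ ∂(volume.comap UpperHalfPlane.coe) := by simp_rw [hpt]
    _ = ∫⁻ z in UpperHalfPlane.coe '' S, F z := by
        rw [hmp.setLIntegral_comp_emb measurableEmbedding_coe F S,
          Measure.restrict_restrict (measurableEmbedding_coe.measurableSet_image.mpr hS),
          Set.inter_eq_self_of_subset_left (Set.image_subset_range _ _)]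

/-- Invariance of the measure of `ℍ` under the action of `GL (Fin 2) ℝ`, for set integrals. -/
theorem setLIntegral_smul_image (g : GL (Fin 2) ℝ) (S : Set ℍ) (Φ : ℍ → ℝ≥0∞) :
    ∫⁻ τ in S, Φ (g • τ) = ∫⁻ τ in (fun τ : ℍ => g • τ) '' S, Φ τ :=
  (measurePreserving_smul g volume).setLIntegral_comp_emb
    (MeasurableEquiv.smul g).measurableEmbedding Φ S

/-- The pointwise identity behind weight-2 invariance of `(im z)² |a - h|²`. -/
theorem sq_norm_sub_mul_im_sq_smul (γ : SL(2,ℤ)) (τ : ℍ) (x y : ℂ) :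
    ‖(denom γ τ) ^ 2 * x - y‖ ^ 2 * (γ • τ).im ^ 2
      = ‖x - ((denom γ τ) ^ 2)⁻¹ * y‖ ^ 2 * τ.im ^ 2 := by
  have hj : denom γ τ ≠ 0 := denom_ne_zero _ τ
  have hn : Complex.normSq (denom γ τ) ≠ 0 := by simp [hj]
  have e1 : (denom γ τ) ^ 2 * x - y = (denom γ τ) ^ 2 * (x - ((denom γ τ) ^ 2)⁻¹ * y) := by
    field_simp
  rw [e1, norm_mul, norm_pow, ← Complex.normSq_eq_norm_sq, ModularGroup.im_smul_eq_div_normSq]
  field_simp

/-- The action of an element of `SL(2,ℤ)` on `ℍ` is continuous. -/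
theorem continuous_SL_smul (γ : SL(2,ℤ)) : Continuous (fun τ : ℍ => γ • τ) :=
  continuous_const_smul (γ : GL (Fin 2) ℝ)

/-- The weight-2 translate `z ↦ j(γ,z)⁻² g(γ z)` of a function continuous on the upper half
plane is continuous on the upper half plane. -/
theorem continuousOn_slashed (γ : SL(2,ℤ)) (g : ℂ → ℂ)
    (hg : ContinuousOn g {z : ℂ | 0 < z.im}) :
    ContinuousOn (fun z : ℂ => ((denom γ z) ^ 2)⁻¹ * g ↑(γ • ofComplex z))
      {z : ℂ | 0 < z.im} := by
  have h1 : ContinuousOn (fun z : ℂ => ((denom γ z) ^ 2)⁻¹) {z : ℂ | 0 < z.im} := by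
    have hd : Continuous (fun z : ℂ => (denom γ z) ^ 2) := by
      unfold denom; fun_prop
    refine hd.continuousOn.inv₀ fun z hz => ?_
    exact pow_ne_zero 2 (denom_ne_zero_of_im _ (ne_of_gt hz))
  have h2 : ContinuousOn (fun z : ℂ => ((γ • ofComplex z : ℍ) : ℂ)) {z : ℂ | 0 < z.im} := by
    have h3 : ContinuousOn (fun z : ℂ => ofComplex z) {z : ℂ | 0 < z.im} := by
      have := (ofComplex : OpenPartialHomeomorph ℂ ℍ).continuousOn
      simpa [ofComplex] using this
    exact continuous_coe.comp_continuousOn ((continuous_SL_smul γ).comp_continuousOn h3)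
  exact h1.mul (hg.comp h2 fun z _ => (γ • ofComplex z).im_pos)

/-- The `γ`-translate of a compact subset of the upper half plane is again a compact subset of
the upper half plane. -/
theorem isCompact_translate (γ : SL(2,ℤ)) {K : Set ℂ} (hK : IsCompact K)
    (hKU : K ⊆ {z : ℂ | 0 < z.im}) :
    IsCompact (UpperHalfPlane.coe '' ((fun τ : ℍ => γ • τ) '' (UpperHalfPlane.coe ⁻¹' K))) ∧
      UpperHalfPlane.coe '' ((fun τ : ℍ => γ • τ) '' (UpperHalfPlane.coe ⁻¹' K))
        ⊆ {z : ℂ | 0 < z.im} := by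
  have hrange : K ⊆ Set.range UpperHalfPlane.coe := by rw [range_coe]; exact hKU
  have hSc : IsCompact (UpperHalfPlane.coe ⁻¹' K) :=
    (isOpenEmbedding_coe.isInducing.isCompact_preimage_iff hrange).mpr hK
  refine ⟨(hSc.image (continuous_SL_smul γ)).image continuous_coe, ?_⟩
  rintro _ ⟨τ, -, rfl⟩
  exact τ.im_pos

/-- Change of variables `z ↦ γ z` in the `L²` distance on a compact subset of the upper half
plane: if `f` has weight 2 for `γ`, the `L²(K)` distance from `f` to the weight-2 translate of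
`g` is the `L²(γ K)` distance from `f` to `g`. -/
theorem setIntegral_sq_norm_sub_smul (γ : SL(2,ℤ)) (f g : ℂ → ℂ)
    (hf : ContinuousOn f {z : ℂ | 0 < z.im}) (hg : ContinuousOn g {z : ℂ | 0 < z.im})
    (hfγ : ∀ z : ℍ, f ↑(γ • z) = (denom γ z) ^ 2 * f ↑z)
    (K : Set ℂ) (hK : IsCompact K) (hKU : K ⊆ {z : ℂ | 0 < z.im}) :
    ∫ z in K, ‖f z - ((denom γ z) ^ 2)⁻¹ * g ↑(γ • ofComplex z)‖ ^ 2
      = ∫ z in UpperHalfPlane.coe '' ((fun τ : ℍ => γ • τ) '' (UpperHalfPlane.coe ⁻¹' K)),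
          ‖f z - g z‖ ^ 2 := by
  set S : Set ℍ := UpperHalfPlane.coe ⁻¹' K with hS
  have hrange : K ⊆ Set.range UpperHalfPlane.coe := by rw [range_coe]; exact hKU
  have hSc : IsCompact S :=
    (isOpenEmbedding_coe.isInducing.isCompact_preimage_iff hrange).mpr hK
  have hSK : UpperHalfPlane.coe '' S = K := Set.image_preimage_eq_of_subset hrange
  have hSm : MeasurableSet S := hSc.measurableSet
  set S' : Set ℍ := (fun τ : ℍ => γ • τ) '' S with hS'
  have hS'c : IsCompact S' := hSc.image (continuous_SL_smul γ)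
  have hS'm : MeasurableSet S' := hS'c.measurableSet
  set L : Set ℂ := UpperHalfPlane.coe '' S' with hL
  have hLc : IsCompact L := hS'c.image continuous_coe
  have hLU : L ⊆ {z : ℂ | 0 < z.im} := by rintro _ ⟨τ, -, rfl⟩; exact τ.im_pos
  set g₂ : ℂ → ℂ := fun z => ((denom γ z) ^ 2)⁻¹ * g ↑(γ • ofComplex z) with hg₂
  have hg₂c : ContinuousOn g₂ {z : ℂ | 0 < z.im} := continuousOn_slashed γ g hg
  have hfH : Continuous fun τ : ℍ => f ↑τ :=
    hf.comp_continuous continuous_coe (fun τ => τ.im_pos)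
  have hgH : Continuous fun τ : ℍ => g ↑τ :=
    hg.comp_continuous continuous_coe (fun τ => τ.im_pos)
  have hg₂H : Continuous fun τ : ℍ => g₂ ↑τ :=
    hg₂c.comp_continuous continuous_coe (fun τ => τ.im_pos)
  have key : ∫⁻ z in K, ENNReal.ofReal (‖f z - g₂ z‖ ^ 2)
      = ∫⁻ z in L, ENNReal.ofReal (‖f z - g z‖ ^ 2) := by
    rw [← hSK, setLIntegral_coe_image S hSm _
        (ENNReal.measurable_ofReal.comp ((hfH.sub hg₂H).norm.pow 2).measurable),
      hL, setLIntegral_coe_image S' hS'm _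
        (ENNReal.measurable_ofReal.comp ((hfH.sub hgH).norm.pow 2).measurable),
      hS']
    refine Eq.trans ?_ (setLIntegral_smul_image (γ : GL (Fin 2) ℝ) S _)
    refine lintegral_congr fun τ => ?_
    rw [← ENNReal.ofReal_mul (by positivity), ← ENNReal.ofReal_mul (by positivity)]
    congr 1
    have := sq_norm_sub_mul_im_sq_smul γ τ (f ↑τ) (g ↑(γ • τ))
    rw [← hfγ τ] at this
    simp only [hg₂, ofComplex_apply]
    exact this.symm
  have hi₁ : IntegrableOn (fun z => ‖f z - g₂ z‖ ^ 2) K :=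
    ContinuousOn.integrableOn_compact hK (((hf.sub hg₂c).mono hKU).norm.pow 2)
  have hi₂ : IntegrableOn (fun z => ‖f z - g z‖ ^ 2) L :=
    ContinuousOn.integrableOn_compact hLc (((hf.sub hg).mono hLU).norm.pow 2)
  have e₁ := ofReal_integral_eq_lintegral_ofReal hi₁
    (Eventually.of_forall fun z => by positivity)
  have e₂ := ofReal_integral_eq_lintegral_ofReal hi₂
    (Eventually.of_forall fun z => by positivity)
  have h3 : ENNReal.ofReal (∫ z in K, ‖f z - g₂ z‖ ^ 2)
      = ENNReal.ofReal (∫ z in L, ‖f z - g z‖ ^ 2) := by rw [e₁, e₂, key]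
  exact (ENNReal.ofReal_eq_ofReal_iff (integral_nonneg fun z => by positivity)
    (integral_nonneg fun z => by positivity)).mp h3

/-! ## Weight-2 invariance of the limit -/

/-- **Leaf (4c), one element.** If the continuous functions `a n` have weight 2 for
`γ ∈ SL(2,ℤ)` and converge in `L²` on compact subsets of the upper half plane to the
continuous function `h`, then `h` has weight 2 for `γ`. -/
theorem smul_eq_of_L2loc_limit (γ : SL(2,ℤ)) (a : ℕ → ℂ → ℂ) (h : ℂ → ℂ)
    (hh : ContinuousOn h {z : ℂ | 0 < z.im})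
    (ha : ∀ n, ContinuousOn (a n) {z : ℂ | 0 < z.im})
    (hlim : ∀ K, IsCompact K → K ⊆ {z : ℂ | 0 < z.im} →
      Tendsto (fun n => ∫ z in K, ‖a n z - h z‖ ^ 2) atTop (𝓝 0))
    (hinv : ∀ n, ∀ z : ℍ, a n ↑(γ • z) = (denom γ z) ^ 2 * a n ↑z) :
    ∀ z : ℍ, h ↑(γ • z) = (denom γ z) ^ 2 * h ↑z := by
  have hEq := eqOn_of_L2loc_limits isOpen_upperHalfPlaneSet a h
    (fun z => ((denom γ z) ^ 2)⁻¹ * h ↑(γ • ofComplex z)) ha hh (continuousOn_slashed γ h hh)
    hlim ?_
  · intro z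
    have h1 : h ↑z = ((denom γ z) ^ 2)⁻¹ * h ↑(γ • z) := by
      have := hEq z.im_pos
      simpa only [ofComplex_apply] using this
    have hj : denom γ z ≠ 0 := denom_ne_zero _ z
    rw [h1]
    field_simp
  · intro K hK hKU
    obtain ⟨hLc, hLU⟩ := isCompact_translate γ hK hKU
    exact (hlim _ hLc hLU).congr fun n =>
      (setIntegral_sq_norm_sub_smul γ (a n) h (ha n) hh (hinv n) K hK hKU).symm

/-- **Leaf (4c) of Route 2.** Weight-2 invariance under a subgroup `Γ` of `SL(2,ℤ)` passes from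
continuous functions `a n` to a continuous `L²_loc` limit `h` on the upper half plane. -/
theorem invariant_of_L2loc_limit (Γ : Subgroup SL(2,ℤ)) (a : ℕ → ℂ → ℂ) (h : ℂ → ℂ)
    (hh : ContinuousOn h {z : ℂ | 0 < z.im})
    (ha : ∀ n, ContinuousOn (a n) {z : ℂ | 0 < z.im})
    (hlim : ∀ K, IsCompact K → K ⊆ {z : ℂ | 0 < z.im} →
      Tendsto (fun n => ∫ z in K, ‖a n z - h z‖ ^ 2) atTop (𝓝 0))
    (hinv : ∀ n, ∀ γ ∈ Γ, ∀ z : ℍ, a n ↑(γ • z) = (denom γ z) ^ 2 * a n ↑z) :
    ∀ γ ∈ Γ, ∀ z : ℍ, h ↑(γ • z) = (denom γ z) ^ 2 * h ↑z :=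
  fun γ hγ => smul_eq_of_L2loc_limit γ a h hh ha hlim fun n => hinv n γ hγ

end Fermat.Agent.S21.helper2307
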