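import Fermat.Agent.S21.helper2415_MeanValue

/-!
# helper2415: the strip lemma (Route 2 of S21, leaf CUSP, step 4a)

A holomorphic function on the upper half-plane which is `N`-periodic and square-integrable on the
half-strip `{2 ≤ im z, |re z| ≤ N}` tends to zero at `i∞`.

* `exists_bound_of_periodic_of_lintegral_lt_top`: the statement on `ℂ` (Lebesgue measure).
* `setLIntegral_ofReal_im_sq_mul`: hyperbolic measure on `ℍ` versus Lebesgue measure on `ℂ`.
* `isZeroAtImInfty_of_periodic_of_L2`: the statement on `ℍ` (hyperbolic measure, weight `(im z)^2`).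
-/

set_option autoImplicit false

namespace Fermat.Agent.S21.helper2415

open Complex MeasureTheory Metric Set Real Filter Topology UpperHalfPlane
open scoped Manifold

/-- Tails of a convergent lintegral along `im z → ∞` tend to zero. -/
lemma tendsto_setLIntegral_im_tail {f : ℂ → ENNReal} {S : Set ℂ} (hf : ∫⁻ z in S, f z ≠ ⊤) :
    Tendsto (fun n : ℕ => ∫⁻ z in S ∩ {z : ℂ | (n : ℝ) ≤ z.im}, f z) atTop (𝓝 0) := by
  set ν : Measure ℂ := (volume.restrict S).withDensity f with hν
  set T : ℕ → Set ℂ := fun n => {z : ℂ | (n : ℝ) ≤ z.im} with hT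
  have hTmeas : ∀ n, MeasurableSet (T n) := fun n =>
    (isClosed_le continuous_const Complex.continuous_im).measurableSet
  have hanti : Antitone T := by
    intro m n hmn z hz
    have : (m : ℝ) ≤ n := by exact_mod_cast hmn
    exact le_trans this hz
  have hνT : ∀ n, ν (T n) = ∫⁻ z in S ∩ T n, f z := by
    intro n
    rw [hν, withDensity_apply _ (hTmeas n), Measure.restrict_restrict (hTmeas n), inter_comm]
  have hfin : ∃ n, ν (T n) ≠ ⊤ := by
    refine ⟨0, ?_⟩
    rw [hνT]
    exact ne_top_of_le_ne_top hf (lintegral_mono_set inter_subset_left)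
  have hinter : ⋂ n, T n = ∅ := by
    ext z
    simp only [mem_iInter, mem_empty_iff_false, iff_false, not_forall]
    obtain ⟨n, hn⟩ := exists_nat_gt z.im
    exact ⟨n, fun h => absurd (lt_of_lt_of_le hn h) (lt_irrefl _)⟩
  have := tendsto_measure_iInter_atTop (μ := ν) (fun n => (hTmeas n).nullMeasurableSet) hanti hfin
  rw [hinter, measure_empty] at this
  refine this.congr fun n => ?_
  simp only [Function.comp]
  exact hνT n

/-- **Strip lemma, Lebesgue form on `ℂ`.** A function holomorphic on the upper half-plane,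
`N`-periodic (`1 ≤ N`) and square-integrable on the half-strip `{2 ≤ im z, |re z| ≤ N}` is
uniformly small for `im z` large. -/
theorem exists_bound_of_periodic_of_lintegral_lt_top {G : ℂ → ℂ} {N : ℝ} (hN : 1 ≤ N)
    (hG : DifferentiableOn ℂ G {z : ℂ | 0 < z.im})
    (hper : ∀ z : ℂ, 0 < z.im → G (z + N) = G z)
    (hL2 : ∫⁻ z in {z : ℂ | 2 ≤ z.im ∧ |z.re| ≤ N}, ENNReal.ofReal (‖G z‖ ^ 2) < ⊤) :
    ∀ ε : ℝ, 0 < ε → ∃ A : ℝ, ∀ z : ℂ, A ≤ z.im → ‖G z‖ ≤ ε := by
  intro ε hε
  have hN0 : 0 < N := lt_of_lt_of_le one_pos hN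
  -- periodicity under integer multiples of `N`
  have hperN : ∀ (k : ℕ) (z : ℂ), 0 < z.im → G (z + k * N) = G z := by
    intro k
    induction k with
    | zero => intro z _; simp
    | succ k ih =>
      intro z hz
      have e : z + ((k + 1 : ℕ) : ℂ) * N = (z + k * N) + N := by push_cast; ring
      have him : 0 < (z + (k : ℂ) * N).im := by simpa using hz
      rw [e, hper _ him, ih z hz]
  have hperZ : ∀ (k : ℤ) (z : ℂ), 0 < z.im → G (z - k * N) = G z := by
    intro k z hz
    obtain ⟨m, rfl | rfl⟩ := Int.eq_nat_or_neg k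
    · have him : 0 < (z - (m : ℂ) * N).im := by simpa using hz
      have := hperN m (z - m * N) him
      rw [Int.cast_natCast, ← this]
      congr 1
      ring
    · have := hperN m z hz
      rw [← this]
      congr 1
      push_cast
      ring
  set S : Set ℂ := {z : ℂ | 2 ≤ z.im ∧ |z.re| ≤ N} with hS
  set f : ℂ → ENNReal := fun z => ENNReal.ofReal (‖G z‖ ^ 2) with hf
  have htail := tendsto_setLIntegral_im_tail (f := f) (S := S) hL2.ne
  set δ : ℝ := π * (1 / 2) ^ 2 * ε ^ 2 with hδ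
  have hδpos : 0 < δ := by positivity
  have hev := (tendsto_order.1 htail).2 _ (ENNReal.ofReal_pos.2 hδpos)
  obtain ⟨n₀, hn₀⟩ := eventually_atTop.1 hev
  set n : ℕ := max n₀ 2 with hn
  have hn2 : (2 : ℝ) ≤ n := by
    have : (2 : ℕ) ≤ n := le_max_right _ _
    exact_mod_cast this
  have hnlt : ∫⁻ z in S ∩ {z : ℂ | (n : ℝ) ≤ z.im}, f z < ENNReal.ofReal δ :=
    hn₀ n (le_max_left _ _)
  refine ⟨n + 1, fun z hz => ?_⟩
  -- translate `z` into the strip
  set k : ℤ := round (z.re / N) with hk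
  set z' : ℂ := z - k * N with hz'
  have hzpos : 0 < z.im := by linarith
  have hGz' : G z' = G z := hperZ k z hzpos
  have hz'im : z'.im = z.im := by simp [hz']
  have hz're : |z'.re| ≤ N / 2 := by
    have h1 : z'.re = N * (z.re / N - round (z.re / N)) := by
      simp only [hz', hk, Complex.sub_re, Complex.mul_re, Complex.intCast_re, Complex.ofReal_re,
        Complex.intCast_im, Complex.ofReal_im, mul_zero, sub_zero]
      field_simp
    rw [h1, abs_mul, abs_of_pos hN0]
    have := abs_sub_round (z.re / N)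
    nlinarith
  have hsub : ball z' (1 / 2) ⊆ S ∩ {w : ℂ | (n : ℝ) ≤ w.im} := by
    intro w hw
    rw [mem_ball, dist_eq_norm] at hw
    have hre : |w.re - z'.re| < 1 / 2 := by
      have := abs_re_le_norm (w - z')
      rw [Complex.sub_re] at this
      linarith
    have him : |w.im - z'.im| < 1 / 2 := by
      have := abs_im_le_norm (w - z')
      rw [Complex.sub_im] at this
      linarith
    rw [abs_lt] at hre him
    rw [abs_le] at hz're
    have hwim : (n : ℝ) ≤ w.im := by rw [hz'im] at him; linarith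
    refine ⟨⟨by linarith, ?_⟩, hwim⟩
    rw [abs_le]
    constructor <;> linarith
  have hsubUH : ball z' (1 / 2) ⊆ {w : ℂ | 0 < w.im} := by
    intro w hw
    have := (hsub hw).1.1
    show 0 < w.im
    linarith
  have hmv := ofReal_pi_mul_sq_mul_norm_sq_le (f := G) (c := z') (R := 1 / 2) (by norm_num)
    (hG.mono hsubUH)
  have hle : ENNReal.ofReal (π * (1 / 2) ^ 2 * ‖G z'‖ ^ 2) < ENNReal.ofReal δ :=
    lt_of_le_of_lt (hmv.trans (lintegral_mono_set hsub)) hnlt
  rw [ENNReal.ofReal_lt_ofReal_iff hδpos, hδ] at hle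
  rw [← hGz']
  by_contra hcon
  have hcon := not_le.mp hcon
  have hsq : ε ^ 2 ≤ ‖G z'‖ ^ 2 := pow_le_pow_left₀ hε.le hcon.le 2
  have hpi : 0 < π * (1 / 2) ^ 2 := by positivity
  nlinarith

/-- Hyperbolic measure on `ℍ` versus Lebesgue measure on `ℂ`: integrating `(im z)^2 * F z` against
the hyperbolic measure over `S` is integrating `F` against Lebesgue measure over the image of
`S` in `ℂ`. No measurability assumption on `F`. -/
lemma setLIntegral_ofReal_im_sq_mul {S : Set ℍ} (hS : MeasurableSet S) (F : ℂ → ENNReal) :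
    ∫⁻ z in S, ENNReal.ofReal (z.im ^ 2) * F ↑z = ∫⁻ w in ((↑) : ℍ → ℂ) '' S, F w := by
  have hmp : MeasurePreserving UpperHalfPlane.coe (volume.comap UpperHalfPlane.coe)
      (volume.restrict (Set.range UpperHalfPlane.coe)) :=
    ⟨measurable_coe, by rw [measurableEmbedding_coe.map_comap]⟩
  have hdens : Measurable (fun z : ℍ => (((1 / NNReal.mk z.im z.im_pos.le : NNReal) ^ 2 : NNReal)
      : ENNReal)) := by
    refine measurable_coe_nnreal_ennreal.comp ?_
    refine Measurable.pow_const ?_ 2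
    refine Measurable.const_div ?_ 1
    exact (UpperHalfPlane.continuous_im.subtype_mk _).measurable
  rw [volume_def, setLIntegral_withDensity_eq_setLIntegral_mul_non_measurable _ hdens _ hS
    (ae_of_all _ fun z => ENNReal.coe_lt_top)]
  have hpt : ∀ z : ℍ, ((fun z : ℍ => (((1 / NNReal.mk z.im z.im_pos.le : NNReal) ^ 2 : NNReal)
      : ENNReal)) * fun z : ℍ => ENNReal.ofReal (z.im ^ 2) * F ↑z) z = F ↑z := by
    intro z
    simp only [Pi.mul_apply]
    rw [← mul_assoc]
    have : (((1 / NNReal.mk z.im z.im_pos.le : NNReal) ^ 2 : NNReal) : ENNReal)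
        * ENNReal.ofReal (z.im ^ 2) = 1 := by
      have hpos : 0 < z.im := z.im_pos
      rw [ENNReal.ofReal, ← ENNReal.coe_mul, ← ENNReal.coe_one]
      congr 1
      ext
      simp only [NNReal.coe_mul, NNReal.coe_pow, NNReal.coe_div, NNReal.coe_one, NNReal.coe_mk,
        Real.coe_toNNReal', max_eq_left (sq_nonneg z.im)]
      field_simp
    rw [this, one_mul]
  simp_rw [hpt]
  rw [hmp.setLIntegral_comp_emb measurableEmbedding_coe,
    Measure.restrict_restrict_of_subset (Set.image_subset_range _ _)]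

/-- **Strip lemma on `ℍ`** (step 4a of the CUSP leaf). A holomorphic function on `ℍ` which is
`N`-periodic and has finite weighted `L²` norm `∫ (im z)^2 ‖g z‖^2 dμ_hyp` on the half-strip
`{2 ≤ im z, |re z| ≤ N}` is zero at `i∞`. -/
theorem isZeroAtImInfty_of_periodic_of_L2 {N : ℕ} (hN : N ≠ 0) {g : ℍ → ℂ}
    (hg : MDifferentiable 𝓘(ℂ) 𝓘(ℂ) g)
    (hper : ∀ z : ℍ, g ((N : ℝ) +ᵥ z) = g z)
    (hL2 : ∫⁻ z in {z : ℍ | 2 ≤ z.im ∧ |z.re| ≤ N},
      ENNReal.ofReal (z.im ^ 2 * ‖g z‖ ^ 2) < ⊤) :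
    IsZeroAtImInfty g := by
  rw [isZeroAtImInfty_iff]
  have hN1 : (1 : ℝ) ≤ N := by exact_mod_cast Nat.one_le_iff_ne_zero.mpr hN
  have hG : DifferentiableOn ℂ (g ∘ ofComplex) {z : ℂ | 0 < z.im} :=
    UpperHalfPlane.mdifferentiable_iff.mp hg
  have hperG : ∀ z : ℂ, 0 < z.im → (g ∘ ofComplex) (z + (N : ℝ)) = (g ∘ ofComplex) z := by
    intro z hz
    have hz' : 0 < (z + (N : ℝ)).im := by simpa using hz
    simp only [Function.comp]
    rw [← hper (ofComplex z)]
    congr 1
    apply UpperHalfPlane.ext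
    rw [ofComplex_apply_of_im_pos hz', UpperHalfPlane.coe_vadd, ofComplex_apply_of_im_pos hz]
    simp [add_comm]
  have hSmeas : MeasurableSet {z : ℍ | 2 ≤ z.im ∧ |z.re| ≤ N} := by
    refine MeasurableSet.inter ?_ ?_
    · exact (isClosed_le continuous_const UpperHalfPlane.continuous_im).measurableSet
    · exact (isClosed_le (continuous_abs.comp UpperHalfPlane.continuous_re)
        continuous_const).measurableSet
  have himage : ((↑) : ℍ → ℂ) '' {z : ℍ | 2 ≤ z.im ∧ |z.re| ≤ N}
      = {z : ℂ | 2 ≤ z.im ∧ |z.re| ≤ (N : ℝ)} := by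
    ext w
    constructor
    · rintro ⟨z, hz, rfl⟩
      exact hz
    · intro hw
      have hwpos : 0 < w.im := lt_of_lt_of_le (by norm_num) hw.1
      exact ⟨⟨w, hwpos⟩, hw, rfl⟩
  have hL2' : ∫⁻ z in {z : ℂ | 2 ≤ z.im ∧ |z.re| ≤ (N : ℝ)},
      ENNReal.ofReal (‖(g ∘ ofComplex) z‖ ^ 2) < ⊤ := by
    rw [← himage, ← setLIntegral_ofReal_im_sq_mul hSmeas]
    refine lt_of_eq_of_lt ?_ hL2
    refine lintegral_congr fun z => ?_
    rw [← ENNReal.ofReal_mul (sq_nonneg _)]
    simp [Function.comp]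
  intro ε hε
  obtain ⟨A, hA⟩ := exists_bound_of_periodic_of_lintegral_lt_top hN1 hG hperG hL2' ε hε
  refine ⟨A, fun z hz => ?_⟩
  have := hA (z : ℂ) hz
  simpa [Function.comp] using this

/-- The strip lemma on `ℍ`, with the strip and the integrand written as in
`helper801.cuspStrip` / `helper801.StripBounded`. -/
theorem isZeroAtImInfty_of_periodic_of_L2' {N : ℕ} (hN : N ≠ 0) {g : ℍ → ℂ}
    (hg : MDifferentiable 𝓘(ℂ) 𝓘(ℂ) g)
    (hper : ∀ z : ℍ, g ((N : ℝ) +ᵥ z) = g z)
    (hL2 : ∫⁻ z in {z : ℍ | |z.re| ≤ N ∧ 2 ≤ z.im},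
      ‖g z‖ₑ ^ 2 * ENNReal.ofReal (z.im ^ 2) < ⊤) :
    IsZeroAtImInfty g := by
  refine isZeroAtImInfty_of_periodic_of_L2 hN hg hper ?_
  have hset : {z : ℍ | 2 ≤ z.im ∧ |z.re| ≤ N} = {z : ℍ | |z.re| ≤ N ∧ 2 ≤ z.im} := by
    ext z
    exact and_comm
  rw [hset]
  refine lt_of_eq_of_lt ?_ hL2
  refine lintegral_congr fun z => ?_
  rw [ENNReal.ofReal_mul (sq_nonneg _), ENNReal.ofReal_pow (norm_nonneg _), ofReal_norm, mul_comm]

end Fermat.Agent.S21.helper2415
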