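/-
helper843: S21 Route 2, leaf (4e) CHAIN.

Chain rule for potentials: if `U : ℂ → ℝ` is real-differentiable and satisfies
`U (γ z) = U z + c` on the upper half plane (`γ ∈ SL(2,ℤ)`), then the complex number
`a z = U_x - i U_y` (characterised by `fderiv ℝ U z v = Re (a z * v)`) is weight-2 equivariant:
`a (γ z) = (c z + d)^2 * a z`.  Consequently `(im z)^2 * ‖a z‖^2` is `γ`-invariant and
`z ↦ a z` is slash-invariant of weight 2.  Also: continuity of `a` for `C^1` potentials.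

Everything is stated shape-agnostically (any `L` with `L v = Re (a * v)`), and specialised to
* the `fderiv` shape `dcx u z = fderiv ℝ u z 1 - fderiv ℝ u z I * I` for `u : ℂ → ℝ`;
* the `HasFDerivAt (u ∘ ofComplex)` shape for `u : ℍ → ℝ`.
Mathlib only.
-/
import Mathlib

set_option autoImplicit false

namespace Fermat.Agent.S21.helper843

open UpperHalfPlane Filter Topology
open scoped MatrixGroups ModularForm

/-- `u_x - i u_y` for `u : ℂ → ℝ`: the complex number `a` with `fderiv ℝ u z v = Re (a * v)`. -/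
noncomputable def dcx (u : ℂ → ℝ) (z : ℂ) : ℂ :=
  ((fderiv ℝ u z 1 : ℝ) : ℂ) - ((fderiv ℝ u z Complex.I : ℝ) : ℂ) * Complex.I

/-- Every real-linear functional on `ℂ` is `v ↦ Re (a * v)` with `a = L 1 - i L i`. -/
theorem clm_apply_eq_re (L : ℂ →L[ℝ] ℝ) (v : ℂ) :
    L v = ((((L 1 : ℝ) : ℂ) - ((L Complex.I : ℝ) : ℂ) * Complex.I) * v).re := by
  have hv : v = (v.re : ℝ) • (1 : ℂ) + (v.im : ℝ) • Complex.I := by
    apply Complex.ext <;> simp
  conv_lhs => rw [hv]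
  rw [map_add, map_smul, map_smul]
  simp [Complex.mul_re]
  ring

theorem fderiv_apply_eq_re_dcx (u : ℂ → ℝ) (z v : ℂ) :
    fderiv ℝ u z v = (dcx u z * v).re :=
  clm_apply_eq_re (fderiv ℝ u z) v

theorem eq_of_re_mul_eq {x y : ℂ} (h : ∀ v : ℂ, (x * v).re = (y * v).re) : x = y := by
  apply Complex.ext
  · simpa using h 1
  · have := h (-Complex.I)
    simpa using this

/-- The representing number is unique. -/
theorem eq_dcx_of_hasFDerivAt {u : ℂ → ℝ} {z : ℂ} {L : ℂ →L[ℝ] ℝ} (hL : HasFDerivAt u L z)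
    {a : ℂ} (ha : ∀ v, L v = (a * v).re) : a = dcx u z := by
  apply eq_of_re_mul_eq
  intro v
  rw [← ha, ← fderiv_apply_eq_re_dcx, hL.fderiv]

/-- **Chain rule, shape-agnostic form.** -/
theorem weight_two_of_hasFDerivAt {U : ℂ → ℝ} (γ : SL(2, ℤ)) (z : ℍ) {c : ℝ}
    (hγ : ∀ w : ℍ, U ↑(γ • w) = U ↑w + c)
    {L L' : ℂ →L[ℝ] ℝ} (hL : HasFDerivAt U L ↑z) (hL' : HasFDerivAt U L' ↑(γ • z))
    {a a' : ℂ} (ha : ∀ v, L v = (a * v).re) (ha' : ∀ v, L' v = (a' * v).re) :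
    a' = denom γ z ^ 2 * a := by
  have hden : denom γ z ≠ 0 := denom_ne_zero _ z
  have hm : HasDerivAt (fun w : ℂ => ((γ • ofComplex w : ℍ) : ℂ)) (1 / denom γ z ^ 2) ↑z := by
    have h2 : ((γ : GL (Fin 2) ℝ)).val.det = 1 := by
      have : ((γ : GL (Fin 2) ℝ)).det = 1 := Matrix.SpecialLinearGroup.det_mapGL γ
      rw [← Matrix.GeneralLinearGroup.val_det_apply, this]; rfl
    have h := (hasStrictDerivAt_smul (g := (γ : GL (Fin 2) ℝ))
      (by rw [h2]; exact one_pos) z).hasDerivAt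
    rw [h2] at h
    simpa using h
  have hm' := hm.hasFDerivAt.restrictScalars ℝ
  have h1 : HasFDerivAt U L' ((fun w : ℂ => ((γ • ofComplex w : ℍ) : ℂ)) (z : ℂ)) := by
    simpa [ofComplex_apply] using hL'
  have hcomp := h1.comp (z : ℂ) hm'
  have hev : (fun w : ℂ => U w + c) =ᶠ[𝓝 (z : ℂ)]
      (U ∘ fun w : ℂ => ((γ • ofComplex w : ℍ) : ℂ)) := by
    filter_upwards [isOpen_upperHalfPlaneSet.mem_nhds z.im_pos] with w hw
    have := hγ ⟨w, hw⟩
    simp only [Function.comp_apply]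
    rw [ofComplex_apply_of_im_pos hw]
    exact this.symm
  have h2 : HasFDerivAt (fun w : ℂ => U w + c) L ↑z := hL.add_const c
  have huniq := (hcomp.congr_of_eventuallyEq hev).unique h2
  have key : ∀ v : ℂ, (a * v).re = (a' / denom γ z ^ 2 * v).re := by
    intro v
    rw [← ha, ← huniq]
    simp only [ContinuousLinearMap.coe_comp, Function.comp_apply,
      ContinuousLinearMap.coe_restrictScalars']
    rw [ha']
    congr 1
    simp [ContinuousLinearMap.toSpanSingleton_apply]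
    ring
  have := eq_of_re_mul_eq key
  rw [this]
  field_simp

/-- **Chain rule, `fderiv` shape** (`u : ℂ → ℝ`, `dcx u = u_x - i u_y`). -/
theorem dcx_smul {u : ℂ → ℝ} (γ : SL(2, ℤ)) (z : ℍ) {c : ℝ}
    (hγ : ∀ w : ℍ, u ↑(γ • w) = u ↑w + c)
    (hd : DifferentiableAt ℝ u ↑z) (hd' : DifferentiableAt ℝ u ↑(γ • z)) :
    dcx u ↑(γ • z) = denom γ z ^ 2 * dcx u ↑z :=
  weight_two_of_hasFDerivAt γ z hγ hd.hasFDerivAt hd'.hasFDerivAt
    (fderiv_apply_eq_re_dcx u ↑z) (fderiv_apply_eq_re_dcx u ↑(γ • z))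

/-- **Chain rule, `HasFDerivAt (u ∘ ofComplex)` shape** (`u : ℍ → ℝ`). -/
theorem weight_two_of_hasFDerivAt_comp_ofComplex {u : ℍ → ℝ} {a : ℍ → ℂ} (γ : SL(2, ℤ)) {c : ℝ}
    (hγ : ∀ w : ℍ, u (γ • w) = u w + c)
    (hu : ∀ z : ℍ, ∃ L : ℂ →L[ℝ] ℝ, HasFDerivAt (u ∘ ofComplex) L ↑z ∧ ∀ v, L v = (a z * v).re)
    (z : ℍ) : a (γ • z) = denom γ z ^ 2 * a z := by
  obtain ⟨L, hL, ha⟩ := hu z
  obtain ⟨L', hL', ha'⟩ := hu (γ • z)
  refine weight_two_of_hasFDerivAt (U := u ∘ ofComplex) (c := c) γ z (fun w => ?_) hL hL' ha ha'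
  simp only [Function.comp_apply, ofComplex_apply]
  exact hγ w

/-- Weight-2 equivariance is the same as slash-invariance of weight 2. -/
theorem slash_two_eq_of_equivariant {a : ℍ → ℂ} (γ : SL(2, ℤ))
    (h : ∀ z : ℍ, a (γ • z) = denom γ z ^ 2 * a z) : a ∣[(2 : ℤ)] γ = a := by
  funext z
  rw [ModularForm.SL_slash_apply, h z]
  have hden : denom γ z ≠ 0 := denom_ne_zero _ z
  rw [zpow_neg]
  field_simp

/-- The density `(im z)^2 * ‖a z‖^2` of a weight-2 equivariant function is invariant. -/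
theorem im_sq_mul_norm_sq_smul {a : ℍ → ℂ} (γ : SL(2, ℤ)) (z : ℍ)
    (h : a (γ • z) = denom γ z ^ 2 * a z) :
    (γ • z).im ^ 2 * ‖a (γ • z)‖ ^ 2 = z.im ^ 2 * ‖a z‖ ^ 2 := by
  have hden : denom γ z ≠ 0 := denom_ne_zero _ z
  have hn : 0 < ‖denom γ z‖ := norm_pos_iff.mpr hden
  rw [h, ModularGroup.im_smul_eq_div_normSq, Complex.normSq_eq_norm_sq, norm_mul, norm_pow]
  field_simp

/-- For a general function: the density of the weight-2 slash at `z` is the density at `γ z`. -/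
theorem im_sq_mul_norm_sq_slash (b : ℍ → ℂ) (γ : SL(2, ℤ)) (z : ℍ) :
    z.im ^ 2 * ‖(b ∣[(2 : ℤ)] γ) z‖ ^ 2 = (γ • z).im ^ 2 * ‖b (γ • z)‖ ^ 2 := by
  have hden : denom γ z ≠ 0 := denom_ne_zero _ z
  have hn : 0 < ‖denom γ z‖ := norm_pos_iff.mpr hden
  rw [ModularForm.SL_slash_apply, ModularGroup.im_smul_eq_div_normSq, Complex.normSq_eq_norm_sq,
    norm_mul, zpow_neg, norm_inv]
  have : ‖denom γ z ^ (2 : ℤ)‖ = ‖denom γ z‖ ^ 2 := by
    rw [norm_zpow]; norm_cast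
  rw [this]
  field_simp

/-- Continuity of `dcx u` on the upper half plane for a `C^1` function. -/
theorem continuousOn_dcx {u : ℂ → ℝ} (hu : ContDiffOn ℝ 1 u {z : ℂ | 0 < z.im}) :
    ContinuousOn (dcx u) {z : ℂ | 0 < z.im} := by
  have hf : ContinuousOn (fderiv ℝ u) {z : ℂ | 0 < z.im} :=
    hu.continuousOn_fderiv_of_isOpen isOpen_upperHalfPlaneSet le_rfl
  have h1 : ContinuousOn (fun z => fderiv ℝ u z 1) {z : ℂ | 0 < z.im} :=
    (ContinuousLinearMap.apply ℝ ℝ (1 : ℂ)).continuous.comp_continuousOn hf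
  have hI : ContinuousOn (fun z => fderiv ℝ u z Complex.I) {z : ℂ | 0 < z.im} :=
    (ContinuousLinearMap.apply ℝ ℝ Complex.I).continuous.comp_continuousOn hf
  unfold dcx
  exact (Complex.continuous_ofReal.comp_continuousOn h1).sub
    ((Complex.continuous_ofReal.comp_continuousOn hI).mul continuousOn_const)

/-- Continuity of `z ↦ dcx u z` as a function on `ℍ`. -/
theorem continuous_dcx_coe {u : ℂ → ℝ} (hu : ContDiffOn ℝ 1 u {z : ℂ | 0 < z.im}) :
    Continuous (fun z : ℍ => dcx u (z : ℂ)) :=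
  (continuousOn_dcx hu).comp_continuous continuous_coe (fun z => z.im_pos)

/-- Slash-invariance of `z ↦ dcx u z` for a differentiable potential. -/
theorem dcx_slash {u : ℂ → ℝ} (γ : SL(2, ℤ)) {c : ℝ}
    (hγ : ∀ w : ℍ, u ↑(γ • w) = u ↑w + c)
    (hd : ∀ z : ℍ, DifferentiableAt ℝ u ↑z) :
    (fun z : ℍ => dcx u (z : ℂ)) ∣[(2 : ℤ)] γ = fun z : ℍ => dcx u (z : ℂ) :=
  slash_two_eq_of_equivariant γ (fun z => dcx_smul γ z hγ (hd z) (hd (γ • z)))

/-- Invariance of the energy density `(im z)^2 * ‖dcx u z‖^2` of a differentiable potential. -/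
theorem im_sq_mul_norm_sq_dcx_smul {u : ℂ → ℝ} (γ : SL(2, ℤ)) {c : ℝ}
    (hγ : ∀ w : ℍ, u ↑(γ • w) = u ↑w + c)
    (hd : ∀ z : ℍ, DifferentiableAt ℝ u ↑z) (z : ℍ) :
    (γ • z).im ^ 2 * ‖dcx u ↑(γ • z)‖ ^ 2 = z.im ^ 2 * ‖dcx u ↑z‖ ^ 2 :=
  im_sq_mul_norm_sq_smul (a := fun z : ℍ => dcx u (z : ℂ)) γ z
    (dcx_smul γ z hγ (hd z) (hd (γ • z)))

/-- A `C^1` function on the upper half plane is differentiable at each of its points. -/
theorem differentiableAt_of_contDiffOn {u : ℂ → ℝ} (hu : ContDiffOn ℝ 1 u {z : ℂ | 0 < z.im})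
    (z : ℍ) : DifferentiableAt ℝ u ↑z :=
  ((hu.differentiableOn one_ne_zero) ↑z z.im_pos).differentiableAt
    (isOpen_upperHalfPlaneSet.mem_nhds z.im_pos)

end Fermat.Agent.S21.helper843
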