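/-
helper1901: S21 Route 2, leaf (4) CUSP -- FINAL GLUE.

`exists_cuspForm_of_L2loc_limit` (shape of team_s21_chat #28 + continuity of the `a n`):
a holomorphic `L²_loc`-limit `h` of continuous weight-2 `Γ₀(N)`-equivariant functions `a n`
with uniformly bounded weighted `L²`-norms on all `SL(2,ℤ)`-translates of the cusp strip is
(the function of) a weight-2 cusp form on `Γ₀(N)`.

Assembled from the four sub-leaves, all sorry-free:
* (4a) STRIP  `helper2415.exists_bound_of_periodic_of_lintegral_lt_top`,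
* (4b) CORE   `helper2982.cuspForm_of_L2_of_strip`,
* (4c) INV    `helper2307.invariant_of_L2loc_limit`,
* (4d) BOUND  `helper1901.strip_bound_of_L2loc_limit`.

Consequences: `cuspSrc : helper1561.CuspSrc N` and `stmtCUSP : helper801.StmtCUSP N`
(the CUSP leaf of the Route-2 Spec `helper801_HodgeSpec`), unconditionally.
-/
import Fermat.Agent.S21.helper1901_Bound
import Fermat.Agent.S21.helper2307_CuspInv
import Fermat.Agent.S21.helper2415_Strip
import Fermat.Agent.S21.helper2982_CuspL2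
import Fermat.Agent.S21.helper843_Chain
import Fermat.Agent.S21.helper1561_BridgeLimCusp

set_option autoImplicit false

namespace Fermat.Agent.S21.helper1901

open MeasureTheory UpperHalfPlane Filter Topology CongruenceSubgroup ModularForm
open scoped ENNReal NNReal MatrixGroups Manifold

/-- (4a) in the `Prop` shape consumed by (4b). -/
theorem stripLemma : helper2982.StripLemma := by
  intro p G hp hG hper hL2 ε hε
  obtain ⟨A, hA⟩ := helper2415.exists_bound_of_periodic_of_lintegral_lt_top hp hG hper hL2 ε hε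
  exact ⟨A, fun z hz _ => hA z hz⟩

/-- **Leaf (4) CUSP of Route 2** (shape of team_s21_chat #28, plus continuity of the `a n`). -/
theorem exists_cuspForm_of_L2loc_limit (N : ℕ) [NeZero N] (a : ℕ → ℂ → ℂ) (h : ℂ → ℂ)
    (hh : DifferentiableOn ℂ h {z : ℂ | 0 < z.im})
    (ha : ∀ n, ContinuousOn (a n) {z : ℂ | 0 < z.im})
    (hlim : ∀ K : Set ℂ, IsCompact K → K ⊆ {z : ℂ | 0 < z.im} →
      Tendsto (fun n => ∫ z in K, ‖a n z - h z‖ ^ 2) atTop (𝓝 0))
    (hinv : ∀ n, ∀ γ ∈ Gamma0 N, ∀ z : ℍ, a n ↑(γ • z) = (denom γ z) ^ 2 * a n ↑z)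
    (hbd : ∃ C : ℝ≥0∞, C < ⊤ ∧ ∀ (n : ℕ) (σ : SL(2, ℤ)),
      ∫⁻ z in {z : ℍ | 2 ≤ z.im ∧ |z.re| ≤ N},
        ENNReal.ofReal ((σ • z).im ^ 2 * ‖a n ↑(σ • z)‖ ^ 2) ≤ C) :
    ∃ f : CuspForm (Gamma0 N) 2, ∀ z : ℍ, f z = h ↑z := by
  obtain ⟨C, hC, hb⟩ := hbd
  have hinvh := helper2307.invariant_of_L2loc_limit (Gamma0 N) a h hh.continuousOn ha hlim hinv
  refine helper2982.cuspForm_of_L2_of_strip stripLemma N (fun z : ℍ => h ↑z) ?_ ?_ ?_
  · rw [UpperHalfPlane.mdifferentiable_iff]
    refine hh.congr fun z hz => ?_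
    simp [Function.comp, ofComplex_apply_of_im_pos hz]
  · intro γ hγ
    exact helper843.slash_two_eq_of_equivariant (a := fun z : ℍ => h ↑z) γ (hinvh γ hγ)
  · intro σ
    exact lt_of_le_of_lt
      (strip_bound_of_L2loc_limit N a h hh.continuousOn ha hlim σ C (fun n => hb n σ)) hC

/-- The CUSP leaf in the source shape of `helper1561_BridgeLimCusp`. -/
theorem cuspSrc (N : ℕ) [NeZero N] : helper1561.CuspSrc N :=
  fun a h hh ha hlim hinv hbd => exists_cuspForm_of_L2loc_limit N a h hh ha hlim hinv hbd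

/-- **The CUSP leaf of the Route-2 Spec (`helper801_HodgeSpec`), unconditionally.** -/
theorem stmtCUSP (N : ℕ) [NeZero N] : helper801.StmtCUSP N :=
  helper1561.stmtCUSP_of_src N (cuspSrc N)

end Fermat.Agent.S21.helper1901
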