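/-
helper2385: S21 Route 2 (Hodge/Weyl) — INTEGRATION SPEC (definitions only).

Common vocabulary (`UH`, `Dc`, `IsPot`, `Gd`, `strip`) and the five leaf statements
`SpecPOT`, `SpecVAR`, `SpecLIM`, `SpecCUSP`, `SpecPER` of Route 2, as `Prop`s.
The assembly `SpecPOT ∧ SpecVAR ∧ SpecLIM ∧ SpecCUSP ∧ SpecPER ∧ StmtA ⟹ helper801.StmtH`
lives in `helper2385_R2Asm.lean`.
-/
import Mathlib
import Fermat.Prelude.Def_ModularCurve_PeriodHomPair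

set_option autoImplicit false

namespace Fermat.Agent.S21.helper2385

open UpperHalfPlane CongruenceSubgroup ModularCurve ModularCurve.Period MeasureTheory Filter Topology
open scoped MatrixGroups ENNReal ContDiff

/-- The upper half-plane as an (open) subset of `ℂ`. -/
def UH : Set ℂ := {z | 0 < z.im}

/-- `Dc u = u_x - i u_y` (`= 2 ∂u/∂z`) for a real-valued function on `ℂ`.
If `u = Re F` with `F` holomorphic then `Dc u = F'`. -/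
noncomputable def Dc (u : ℂ → ℝ) (z : ℂ) : ℂ :=
  ((fderiv ℝ u z 1 : ℝ) : ℂ) - ((fderiv ℝ u z Complex.I : ℝ) : ℂ) * Complex.I

/-- `u` is a `C¹` potential for the real character `φ` of `Γ₀(N)`:
`u (γ z) = u z + φ γ`. Potentials are functions on `ℂ`, only their values on `UH` matter. -/
def IsPot (N : ℕ) (φ : Additive (Gamma0 N) →+ ℝ) (u : ℂ → ℝ) : Prop :=
  ContDiffOn ℝ 1 u UH ∧
    ∀ γ : Gamma0 N, ∀ z : ℍ, u (((γ : SL(2, ℤ)) • z : ℍ) : ℂ) = u (z : ℂ) + φ (Additive.ofMul γ)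

/-- The `SL(2,ℝ)`-invariant energy density `y² |Dc u|²` of a function `u`
(w.r.t. the hyperbolic measure `volume` on `ℍ`, this is Lebesgue density `|Dc u|²`). -/
noncomputable def Gd (u : ℂ → ℝ) (z : ℍ) : ℝ := z.im ^ 2 * ‖Dc u (z : ℂ)‖ ^ 2

/-- The cusp strip `{2 ≤ Im z, |Re z| ≤ N}` (contains a full period of every `N`-periodic
function). -/
def strip (N : ℕ) : Set ℍ := {z | 2 ≤ z.im ∧ |z.re| ≤ (N : ℝ)}

/-- **Leaf POT.** Every real parabolic character has a smooth potential on `ℍ` which is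
constant on `σ • {Im > 2}` for every `σ ∈ SL(2,ℤ)`. -/
def SpecPOT (N : ℕ) : Prop :=
  ∀ φ : Additive (Gamma0 N) →+ ℝ, φ ∈ parabolicHoms ℝ (Gamma0 N) ℝ →
    ∃ u : ℍ → ℝ,
      (∀ γ : Gamma0 N, ∀ z : ℍ, u ((γ : SL(2, ℤ)) • z) = u z + φ (Additive.ofMul γ)) ∧
      ContDiffOn ℝ ∞ (u ∘ ofComplex) UH ∧
      ∀ σ : SL(2, ℤ), ∃ c : ℝ, ∀ z : ℍ, 2 < z.im → u (σ • z) = c

/-- Output of the variational leaf: a sequence of potentials whose `Dc` is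
(i) `L²`-Cauchy on compacts of `UH`, (ii) asymptotically weakly holomorphic,
(iii) uniformly `L²` on all cusp strips (in the invariant form). -/
def VarOut (N : ℕ) (φ : Additive (Gamma0 N) →+ ℝ) (u : ℕ → ℂ → ℝ) : Prop :=
  (∀ n, IsPot N φ (u n)) ∧
  (∀ K : Set ℂ, IsCompact K → K ⊆ UH → ∀ η : ℝ, 0 < η → ∃ n₀ : ℕ, ∀ n, n₀ ≤ n → ∀ m, n₀ ≤ m →
      ∫ z in K, ‖Dc (u n) z - Dc (u m) z‖ ^ 2 ≤ η) ∧
  (∀ ψ : ℂ → ℂ, ContDiff ℝ ∞ ψ → HasCompactSupport ψ → tsupport ψ ⊆ UH →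
      Tendsto (fun n => ∫ z, Dc (u n) z * (fderiv ℝ ψ z 1 + Complex.I * fderiv ℝ ψ z Complex.I))
        atTop (𝓝 0)) ∧
  (∃ C : ℝ≥0∞, C < ⊤ ∧ ∀ n, ∀ σ : SL(2, ℤ),
      ∫⁻ z in strip N, ENNReal.ofReal (Gd (u n) (σ • z)) ≤ C)

/-- **Leaf VAR.** From one smooth potential of finite energy on a measurable set meeting every
`Γ₀(N)`-orbit, a minimising sequence with the three properties of `VarOut`. -/
def SpecVAR (N : ℕ) : Prop :=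
  ∀ φ : Additive (Gamma0 N) →+ ℝ, ∀ u₀ : ℂ → ℝ, IsPot N φ u₀ → ContDiffOn ℝ ∞ u₀ UH →
    ∀ B : Set ℍ, MeasurableSet B → (∀ z : ℍ, ∃ γ : Gamma0 N, (γ : SL(2, ℤ)) • z ∈ B) →
      ∫⁻ z in B, ENNReal.ofReal (Gd u₀ z) < ⊤ →
      ∃ u : ℕ → ℂ → ℝ, VarOut N φ u

/-- **Leaf LIM** (Weyl lemma, sequence form; pure complex analysis). -/
def SpecLIM : Prop :=
  ∀ Ω : Set ℂ, IsOpen Ω → ∀ a : ℕ → ℂ → ℂ, (∀ n, ContinuousOn (a n) Ω) →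
    (∀ K : Set ℂ, IsCompact K → K ⊆ Ω → ∀ η : ℝ, 0 < η → ∃ n₀ : ℕ, ∀ n, n₀ ≤ n → ∀ m, n₀ ≤ m →
      ∫ z in K, ‖a n z - a m z‖ ^ 2 ≤ η) →
    (∀ ψ : ℂ → ℂ, ContDiff ℝ ∞ ψ → HasCompactSupport ψ → tsupport ψ ⊆ Ω →
      Tendsto (fun n => ∫ z, a n z * (fderiv ℝ ψ z 1 + Complex.I * fderiv ℝ ψ z Complex.I))
        atTop (𝓝 0)) →
    ∃ h : ℂ → ℂ, DifferentiableOn ℂ h Ω ∧ ∀ K : Set ℂ, IsCompact K → K ⊆ Ω →
      Tendsto (fun n => ∫ z in K, ‖a n z - h z‖ ^ 2) atTop (𝓝 0)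

/-- **Leaf CUSP.** A holomorphic `L²_loc`-limit of continuous weight-2 `Γ₀(N)`-equivariant
functions with uniformly bounded invariant `L²`-norms on all cusp strips is a cusp form. -/
def SpecCUSP (N : ℕ) : Prop :=
  ∀ (a : ℕ → ℂ → ℂ) (h : ℂ → ℂ), DifferentiableOn ℂ h UH → (∀ n, ContinuousOn (a n) UH) →
    (∀ K : Set ℂ, IsCompact K → K ⊆ UH →
      Tendsto (fun n => ∫ z in K, ‖a n z - h z‖ ^ 2) atTop (𝓝 0)) →
    (∀ n, ∀ γ : SL(2, ℤ), γ ∈ Gamma0 N → ∀ z : ℍ,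
      a n ((γ • z : ℍ) : ℂ) = (denom γ z) ^ 2 * a n (z : ℂ)) →
    (∃ C : ℝ≥0∞, C < ⊤ ∧ ∀ n, ∀ σ : SL(2, ℤ),
      ∫⁻ z in strip N, ENNReal.ofReal ((σ • z).im ^ 2 * ‖a n ((σ • z : ℍ) : ℂ)‖ ^ 2) ≤ C) →
    ∃ f : CuspForm (Gamma0 N) 2, ∀ z : ℍ, f z = h (z : ℂ)

/-- **Leaf PER** (period continuity). If `Dc` of potentials for `φ` converges in `L²_loc` to a
cusp form `f` having an equivariant primitive, then `Re (periodMap f) = φ`. -/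
def SpecPER (N : ℕ) : Prop :=
  ∀ (φ : Additive (Gamma0 N) →+ ℝ) (u : ℕ → ℂ → ℝ) (f : CuspForm (Gamma0 N) 2) (F : ℍ → ℂ),
    HasEquivariantPrimitive N f F → (∀ n, IsPot N φ (u n)) →
    (∀ K : Set ℂ, IsCompact K → K ⊆ UH →
      Tendsto (fun n => ∫ z in K, ‖Dc (u n) z - f (ofComplex z)‖ ^ 2) atTop (𝓝 0)) →
    ∀ γ : Additive (Gamma0 N), (periodMap N f γ).re = φ γ

end Fermat.Agent.S21.helper2385
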