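/-
helper4076: S21 Route 2 (Hodge/Weyl/Dirichlet principle) — SPEC of the five leaves.

Route 2 proves `helper801.StmtH N` (every REAL parabolic hom of `Γ₀(N)` is the real part of the
period hom of a weight-2 cusp form); `helper801.result_of_ABCH` then gives S21.

Leaves (hypothesis-passing; every leaf is a `Prop`-valued def below):
* `Stmt_POT N`  : smooth potential `u₀` with periods `φ`, constant near every cusp.
* `Stmt_VAR N`  : Dirichlet principle: a sequence of potentials whose complex gradients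
                  `Dc (u n) = u_x - i u_y` are L²-Cauchy on compacts, asymptotically weakly
                  holomorphic, with a uniform L² bound on all cusp strips.
* `Stmt_LIM`    : Weyl lemma (sequence form) on the upper half plane.
* `Stmt_CUSP N` : the L²_loc limit is a weight-2 cusp form on `Γ₀(N)`.
* `Stmt_PER N`  : period continuity: `Re (periodMap N f) = φ`.

The assembly `Stmt_POT → Stmt_VAR → Stmt_LIM → Stmt_CUSP → Stmt_PER → StmtA → StmtH` is in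
`helper4076_R2Assembly.lean`.
-/
import Fermat.Agent.S21.helper801_HodgeAlg

set_option autoImplicit false

namespace Fermat.Agent.S21.helper4076

open ModularCurve ModularCurve.Period CongruenceSubgroup UpperHalfPlane Filter Topology
  MeasureTheory
open scoped MatrixGroups ENNReal ContDiff

/-- The open upper half plane as a subset of `ℂ`. -/
def UH : Set ℂ := {z : ℂ | 0 < z.im}

/-- Complex gradient `u_x - i u_y` of a real-valued function on `ℂ` (so that the real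
derivative of `u` at `z` is `v ↦ Re (Dc u z * v)`). -/
noncomputable def Dc (u : ℂ → ℝ) (z : ℂ) : ℂ :=
  ((fderiv ℝ u z 1 : ℝ) : ℂ) - ((fderiv ℝ u z Complex.I : ℝ) : ℂ) * Complex.I

/-- `u : ℂ → ℝ` is a `C¹` potential on the upper half plane with period homomorphism `φ`. -/
def IsPotC (N : ℕ) (φ : Additive (Gamma0 N) →+ ℝ) (u : ℂ → ℝ) : Prop :=
  ContDiffOn ℝ 1 u UH ∧
    ∀ (γ : Gamma0 N) (z : ℍ), u ↑((γ : SL(2, ℤ)) • z) = u ↑z + φ (Additive.ofMul γ)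

/-- The cusp strip `{2 ≤ Im z, |Re z| ≤ N}`. -/
def strip (N : ℕ) : Set ℍ := {z : ℍ | 2 ≤ z.im ∧ |z.re| ≤ N}

/-- The invariant energy density `(Im z)² ‖Dc u z‖²` (to be integrated against the hyperbolic
volume of `ℍ`; `Gdens u (γ • z) = Gdens u z` for potentials). -/
noncomputable def Gdens (u : ℂ → ℝ) (z : ℍ) : ℝ := z.im ^ 2 * ‖Dc u ↑z‖ ^ 2

/-- (POT) every real parabolic hom has a smooth potential which is constant near every cusp. -/
def Stmt_POT (N : ℕ) : Prop :=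
  ∀ φ : Additive (Gamma0 N) →+ ℝ, φ ∈ parabolicHoms ℝ (Gamma0 N) ℝ →
    ∃ u : ℍ → ℝ,
      (∀ (γ : Gamma0 N) (z : ℍ), u ((γ : SL(2, ℤ)) • z) = u z + φ (Additive.ofMul γ)) ∧
      ContDiffOn ℝ ∞ (u ∘ ofComplex) {z : ℂ | 0 < z.im} ∧
      ∀ σ : SL(2, ℤ), ∃ c : ℝ, ∀ z : ℍ, 2 < z.im → u (σ • z) = c

/-- (VAR) Dirichlet principle.  From a potential `u0` of finite energy on a set `B` meeting
every `Γ₀(N)`-orbit, produce potentials `u n` (same periods) such that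
(i) `Dc (u n)` is L²-Cauchy on every compact subset of the upper half plane,
(ii) `∫ Dc (u n) · ∂̄ψ → 0` for every test function `ψ`,
(iii) the energies on all cusp strips are uniformly bounded. -/
def Stmt_VAR (N : ℕ) : Prop :=
  ∀ (φ : Additive (Gamma0 N) →+ ℝ), φ ∈ parabolicHoms ℝ (Gamma0 N) ℝ →
    ∀ u0 : ℂ → ℝ, IsPotC N φ u0 →
    (∃ B : Set ℍ, MeasurableSet B ∧ (∀ z : ℍ, ∃ γ : Gamma0 N, (γ : SL(2, ℤ)) • z ∈ B) ∧
        ∫⁻ z in B, ENNReal.ofReal (Gdens u0 z) < ⊤) →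
    ∃ u : ℕ → ℂ → ℝ, (∀ n, IsPotC N φ (u n)) ∧
      (∀ K : Set ℂ, IsCompact K → K ⊆ UH → ∀ η > 0, ∃ n₀ : ℕ, ∀ n ≥ n₀, ∀ m ≥ n₀,
          ∫ z in K, ‖Dc (u n) z - Dc (u m) z‖ ^ 2 ≤ η) ∧
      (∀ ψ : ℂ → ℂ, ContDiff ℝ ∞ ψ → HasCompactSupport ψ → tsupport ψ ⊆ UH →
          Tendsto (fun n => ∫ z, Dc (u n) z *
            (((fderiv ℝ ψ z) 1) + Complex.I * ((fderiv ℝ ψ z) Complex.I))) atTop (𝓝 0)) ∧
      ∃ C : ℝ≥0∞, C < ⊤ ∧ ∀ n, ∀ σ : SL(2, ℤ),
          ∫⁻ z in strip N, ENNReal.ofReal (Gdens (u n) (σ • z)) ≤ C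

/-- (LIM) Weyl lemma, sequence form, on the upper half plane: continuous `a n`, L²-Cauchy on
compacts and asymptotically weakly holomorphic, converge in L²_loc to a holomorphic function. -/
def Stmt_LIM : Prop :=
  ∀ a : ℕ → ℂ → ℂ, (∀ n, ContinuousOn (a n) UH) →
    (∀ K : Set ℂ, IsCompact K → K ⊆ UH → ∀ η > 0, ∃ n₀ : ℕ, ∀ n ≥ n₀, ∀ m ≥ n₀,
        ∫ z in K, ‖a n z - a m z‖ ^ 2 ≤ η) →
    (∀ ψ : ℂ → ℂ, ContDiff ℝ ∞ ψ → HasCompactSupport ψ → tsupport ψ ⊆ UH →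
        Tendsto (fun n => ∫ z, a n z *
          (((fderiv ℝ ψ z) 1) + Complex.I * ((fderiv ℝ ψ z) Complex.I))) atTop (𝓝 0)) →
    ∃ h : ℂ → ℂ, DifferentiableOn ℂ h UH ∧
      ∀ K : Set ℂ, IsCompact K → K ⊆ UH →
        Tendsto (fun n => ∫ z in K, ‖a n z - h z‖ ^ 2) atTop (𝓝 0)

/-- (CUSP) the L²_loc limit `h` of continuous weight-2 `Γ₀(N)`-equivariant functions `a n` with
uniformly bounded energy on all cusp strips is a weight-2 cusp form on `Γ₀(N)`. -/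
def Stmt_CUSP (N : ℕ) : Prop :=
  ∀ (a : ℕ → ℂ → ℂ) (h : ℂ → ℂ), (∀ n, ContinuousOn (a n) UH) → DifferentiableOn ℂ h UH →
    (∀ K : Set ℂ, IsCompact K → K ⊆ UH →
        Tendsto (fun n => ∫ z in K, ‖a n z - h z‖ ^ 2) atTop (𝓝 0)) →
    (∀ n, ∀ γ ∈ Gamma0 N, ∀ z : ℍ, a n ↑(γ • z) = (denom γ z) ^ 2 * a n ↑z) →
    (∃ C : ℝ≥0∞, C < ⊤ ∧ ∀ n, ∀ σ : SL(2, ℤ),
        ∫⁻ z in strip N, ENNReal.ofReal ((σ • z).im ^ 2 * ‖a n ↑(σ • z)‖ ^ 2) ≤ C) →
    ∃ f : CuspForm (Gamma0 N) 2, ∀ z : ℍ, f z = h ↑z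

/-- (PER) period continuity: if potentials `u n` with periods `φ` have complex gradients `a n`
converging in L¹ on compacts to a cusp form `f` with equivariant primitive `F`, then
`Re (periodMap N f) = φ`. -/
def Stmt_PER (N : ℕ) : Prop :=
  ∀ (f : CuspForm (Gamma0 N) 2) (F : ℍ → ℂ), HasEquivariantPrimitive N f F →
    ∀ (φ : Additive (Gamma0 N) →+ ℝ) (u : ℕ → ℍ → ℝ) (a : ℕ → ℂ → ℂ),
    (∀ n (γ : Gamma0 N) (z : ℍ), u n ((γ : SL(2, ℤ)) • z) = u n z + φ (Additive.ofMul γ)) →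
    (∀ n (z : ℍ), ∃ L : ℂ →L[ℝ] ℝ, HasFDerivAt (u n ∘ ofComplex) L (z : ℂ) ∧
        ∀ v : ℂ, L v = (a n ↑z * v).re) →
    (∀ n, ContinuousOn (a n) UH) →
    (∀ K : Set ℂ, IsCompact K → K ⊆ UH →
        Tendsto (fun n => ∫ z in K, ‖a n z - f (ofComplex z)‖) atTop (𝓝 0)) →
    ∀ γ : Additive (Gamma0 N), (periodMap N f γ).re = φ γ

end Fermat.Agent.S21.helper4076
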