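import Fermat.Agent.S21.helper2070_WeylSeq
import Fermat.Agent.S21.helper1561_BridgeLimCusp
import Fermat.Agent.S21.helper2385_R2Spec
import Fermat.Agent.S21.helper4076_R2Spec

/-!
# The LIM leaf of S21 Route 2 in all Spec shapes -- helper2070

`Fermat.Agent.S21.helper2070.exists_holomorphic_limit` (sequence form of Weyl's lemma,
file `helper2070_WeylSeq`) restated as
* `stmtLIM : helper801.StmtLIM` (the authoritative Route-2 Spec `helper801_HodgeSpec`),
* `stmt_LIM_1561 : helper1561.Stmt_LIM`,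
* `specLIM : helper2385.SpecLIM`,
* `stmt_LIM_4076 : helper4076.Stmt_LIM`.
-/

set_option autoImplicit false

open MeasureTheory Filter Topology Set
open scoped ContDiff

namespace Fermat.Agent.S21.helper2070

/-- The sequence form of Weyl's lemma in the shape of team chat #19. -/
theorem exists_holomorphic_L2loc_limit {Ω : Set ℂ} (hΩ : IsOpen Ω) (a : ℕ → ℂ → ℂ)
    (ha : ∀ n, ContinuousOn (a n) Ω)
    (hC : ∀ K : Set ℂ, IsCompact K → K ⊆ Ω → ∀ η : ℝ, 0 < η → ∃ n₀ : ℕ, ∀ n, n₀ ≤ n →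
      ∀ m, n₀ ≤ m → ∫ z in K, ‖a n z - a m z‖ ^ 2 ≤ η)
    (hW : ∀ ψ : ℂ → ℂ, ContDiff ℝ ∞ ψ → HasCompactSupport ψ → tsupport ψ ⊆ Ω →
      Tendsto (fun n => ∫ z, a n z * (fderiv ℝ ψ z 1 + Complex.I * fderiv ℝ ψ z Complex.I))
        atTop (𝓝 0)) :
    ∃ h : ℂ → ℂ, DifferentiableOn ℂ h Ω ∧ ∀ K : Set ℂ, IsCompact K → K ⊆ Ω →
      Tendsto (fun n => ∫ z in K, ‖a n z - h z‖ ^ 2) atTop (𝓝 0) := by
  obtain ⟨h, hd, hl, -⟩ := exists_holomorphic_limit hΩ a ha
    (fun K hKΩ hK ε hε => by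
      obtain ⟨n₀, hn₀⟩ := hC K hK hKΩ (ε / 2) (half_pos hε)
      exact ⟨n₀, fun n hn m hm => (hn₀ n hn m hm).trans_lt (half_lt_self hε)⟩) hW
  exact ⟨h, hd, fun K hK hKΩ => hl K hKΩ hK⟩

/-- LIM leaf, Spec of helper2385. -/
theorem specLIM : helper2385.SpecLIM :=
  fun _ hΩ a ha hC hW => exists_holomorphic_L2loc_limit hΩ a ha hC hW

/-- LIM leaf, Spec of helper1561. -/
theorem stmt_LIM_1561 : helper1561.Stmt_LIM :=
  fun _ hΩ a ha hC hW => exists_holomorphic_L2loc_limit hΩ a ha hC hW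

/-- LIM leaf, Spec of helper4076. -/
theorem stmt_LIM_4076 : helper4076.Stmt_LIM :=
  fun a ha hC hW => exists_holomorphic_L2loc_limit
    (isOpen_lt continuous_const Complex.continuous_im) a ha hC hW

/-- **LIM leaf of Route 2** in the authoritative Spec shape `helper801.StmtLIM`. -/
theorem stmtLIM : helper801.StmtLIM :=
  helper1561.stmtLIM_of_seq stmt_LIM_1561

end Fermat.Agent.S21.helper2070
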