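import Mathlib

/-!
# Sequence form of Weyl's lemma for `∂̄` (S21, Route 2, leaf LIM) -- helper2070

Main result: `Fermat.Agent.S21.helper2070.exists_holomorphic_limit`.
Let `Ω ⊆ ℂ` be an open set and `a n : ℂ → ℂ` continuous on `Ω`, such that
* `a n` is Cauchy in `L²(K)` for every compact `K ⊆ Ω`, and
* `∫ a n * (∂ψ/∂x + i ∂ψ/∂y) → 0` for every smooth compactly supported `ψ` with support in `Ω`.
Then there is `h` holomorphic on `Ω` with `∫_K ‖a n - h‖² → 0` (and `∫_K ‖a n - h‖ → 0`)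
for every compact `K ⊆ Ω`.

The proof mollifies the sequence (no `Lp` spaces, no a.e. representatives).
-/

set_option autoImplicit false

open MeasureTheory Filter Topology Metric Set Complex Real
open scoped Convolution ContDiff

namespace Fermat.Agent.S21.helper2070

section Core

/-- the mollified function -/
noncomputable def mol (φ : ContDiffBump (0 : ℂ)) (f : ℂ → ℂ) : ℂ → ℂ :=
  (φ.normed volume) ⋆[ContinuousLinearMap.lsmul ℝ ℝ, volume] f

/-- the (real) derivative of the mollified function -/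
noncomputable def dmol (φ : ContDiffBump (0 : ℂ)) (f : ℂ → ℂ) : ℂ → (ℂ →L[ℝ] ℂ) :=
  (fderiv ℝ (φ.normed volume)) ⋆[(ContinuousLinearMap.lsmul ℝ ℝ).precompL ℂ, volume] f

lemma conv_integrable {E F : Type*} [NormedAddCommGroup E] [NormedSpace ℝ E]
    [NormedAddCommGroup F] [NormedSpace ℝ F]
    (L : E →L[ℝ] ℂ →L[ℝ] F) (κ : ℂ → E) (hκ : Continuous κ) (C : ℝ) (hC : ∀ t, ‖κ t‖ ≤ C)
    (g : ℂ → ℂ) (hg : Integrable g) (z : ℂ) :
    Integrable (fun t => L (κ t) (g (z - t))) := by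
  have hg' : Integrable (fun t => g (z - t)) := hg.comp_sub_left z
  refine Integrable.mono' (hg'.norm.const_mul (‖L‖ * C))
    (L.aestronglyMeasurable_comp₂ hκ.aestronglyMeasurable hg'.aestronglyMeasurable) ?_
  filter_upwards with t
  calc ‖L (κ t) (g (z - t))‖ ≤ ‖L‖ * ‖κ t‖ * ‖g (z - t)‖ := L.le_opNorm₂ _ _
    _ ≤ ‖L‖ * C * ‖g (z - t)‖ := by
      gcongr
      exact hC t

lemma conv_sub_norm_le {E F : Type*} [NormedAddCommGroup E] [NormedSpace ℝ E]
    [NormedAddCommGroup F] [NormedSpace ℝ F]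
    (L : E →L[ℝ] ℂ →L[ℝ] F) (κ : ℂ → E) (hκ : Continuous κ) (C : ℝ) (hC : ∀ t, ‖κ t‖ ≤ C)
    (g₁ g₂ : ℂ → ℂ) (h₁ : Integrable g₁) (h₂ : Integrable g₂) (z : ℂ) :
    ‖(κ ⋆[L, volume] g₁) z - (κ ⋆[L, volume] g₂) z‖ ≤ ‖L‖ * C * ∫ w, ‖g₁ w - g₂ w‖ := by
  have hC0 : 0 ≤ C := (norm_nonneg _).trans (hC 0)
  have i₁ := conv_integrable L κ hκ C hC g₁ h₁ z
  have i₂ := conv_integrable L κ hκ C hC g₂ h₂ z
  have h12 : Integrable (fun w => g₁ w - g₂ w) := h₁.sub h₂
  have h12' : Integrable (fun t => g₁ (z - t) - g₂ (z - t)) := h12.comp_sub_left z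
  rw [convolution_def, convolution_def, ← integral_sub i₁ i₂]
  have hb : ∀ t, ‖L (κ t) (g₁ (z - t)) - L (κ t) (g₂ (z - t))‖
      ≤ ‖L‖ * C * ‖g₁ (z - t) - g₂ (z - t)‖ := by
    intro t
    rw [← map_sub]
    calc ‖L (κ t) (g₁ (z - t) - g₂ (z - t))‖
        ≤ ‖L‖ * ‖κ t‖ * ‖g₁ (z - t) - g₂ (z - t)‖ := L.le_opNorm₂ _ _
      _ ≤ ‖L‖ * C * ‖g₁ (z - t) - g₂ (z - t)‖ := by
        gcongr
        exact hC t
  refine (norm_integral_le_of_norm_le (h12'.norm.const_mul (‖L‖ * C))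
    (Eventually.of_forall hb)).trans (le_of_eq ?_)
  rw [integral_const_mul]
  congr 1
  exact integral_sub_left_eq_self (fun w => ‖g₁ w - g₂ w‖) volume z

/-- a uniformly Cauchy sequence of functions into a complete space has a uniform limit -/
lemma exists_tendstoUniformly {X E : Type*} [NormedAddCommGroup E] [CompleteSpace E]
    (F : ℕ → X → E)
    (hF : ∀ ε > 0, ∃ N, ∀ n ≥ N, ∀ m ≥ N, ∀ x, ‖F n x - F m x‖ ≤ ε) :
    ∃ H : X → E, TendstoUniformly F H atTop := by
  have hc : ∀ x, CauchySeq (fun n => F n x) := by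
    intro x
    rw [Metric.cauchySeq_iff']
    intro ε hε
    obtain ⟨N, hN⟩ := hF (ε / 2) (half_pos hε)
    exact ⟨N, fun n hn => by
      rw [dist_eq_norm]; exact (hN n hn N le_rfl x).trans_lt (half_lt_self hε)⟩
  choose H hH using fun x => cauchySeq_tendsto_of_complete (hc x)
  refine ⟨H, ?_⟩
  rw [Metric.tendstoUniformly_iff]
  intro ε hε
  obtain ⟨N, hN⟩ := hF (ε / 2) (half_pos hε)
  filter_upwards [eventually_ge_atTop N] with n hn x
  have : ‖F n x - H x‖ ≤ ε / 2 := by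
    refine le_of_tendsto (f := fun m => ‖F n x - F m x‖)
      ((tendsto_const_nhds.sub (hH x)).norm) ?_
    filter_upwards [eventually_ge_atTop N] with m hm using hN n hn m hm x
  rw [dist_comm, dist_eq_norm]
  linarith

/-- `mol φ f` is differentiable with derivative `dmol φ f`. -/
lemma hasFDerivAt_mol (φ : ContDiffBump (0 : ℂ)) (f : ℂ → ℂ) (hf : Integrable f) (z : ℂ) :
    HasFDerivAt (mol φ f) (dmol φ f z) z :=
  HasCompactSupport.hasFDerivAt_convolution_left (ContinuousLinearMap.lsmul ℝ ℝ)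
    φ.hasCompactSupport_normed φ.contDiff_normed hf.locallyIntegrable z

/-- The mollifications of an `L¹`-Cauchy sequence converge uniformly, together with their
derivatives. -/
lemma exists_mol_limit (φ : ContDiffBump (0 : ℂ)) (f : ℕ → ℂ → ℂ)
    (hfi : ∀ n, Integrable (f n))
    (hL1 : ∀ ε > 0, ∃ N, ∀ n ≥ N, ∀ m ≥ N, ∫ z, ‖f n z - f m z‖ < ε) :
    ∃ (H : ℂ → ℂ) (G : ℂ → ℂ →L[ℝ] ℂ),
      TendstoUniformly (fun n => mol φ (f n)) H atTop ∧
      TendstoUniformly (fun n => dmol φ (f n)) G atTop ∧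
      ∀ z, HasFDerivAt H (G z) z := by
  -- a general uniform Cauchy statement
  have key : ∀ {E F : Type} [NormedAddCommGroup E] [NormedSpace ℝ E]
      [NormedAddCommGroup F] [NormedSpace ℝ F]
      (L : E →L[ℝ] ℂ →L[ℝ] F) (κ : ℂ → E) (_ : Continuous κ) (_ : HasCompactSupport κ),
      ∀ ε > 0, ∃ N, ∀ n ≥ N, ∀ m ≥ N, ∀ x,
        ‖(κ ⋆[L, volume] (f n)) x - (κ ⋆[L, volume] (f m)) x‖ ≤ ε := by
    intro E F _ _ _ _ L κ hκ hκs ε hε
    obtain ⟨C, hC⟩ := hκ.bounded_above_of_compact_support hκs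
    have hC0 : 0 ≤ C := (norm_nonneg _).trans (hC 0)
    obtain ⟨N, hN⟩ := hL1 (ε / (‖L‖ * C + 1)) (by positivity)
    refine ⟨N, fun n hn m hm x => ?_⟩
    refine (conv_sub_norm_le L κ hκ C hC (f n) (f m) (hfi n) (hfi m) x).trans ?_
    have h1 := (hN n hn m hm).le
    have h2 : 0 ≤ ∫ z, ‖f n z - f m z‖ := integral_nonneg fun _ => norm_nonneg _
    calc ‖L‖ * C * ∫ z, ‖f n z - f m z‖
        ≤ (‖L‖ * C + 1) * (ε / (‖L‖ * C + 1)) := by
          apply mul_le_mul _ h1 h2 (by positivity)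
          linarith
      _ = ε := by field_simp
  obtain ⟨H, hH⟩ := exists_tendstoUniformly (fun n => mol φ (f n))
    (key (ContinuousLinearMap.lsmul ℝ ℝ) (φ.normed volume) φ.continuous_normed
      φ.hasCompactSupport_normed)
  obtain ⟨G, hG⟩ := exists_tendstoUniformly (fun n => dmol φ (f n))
    (key ((ContinuousLinearMap.lsmul ℝ ℝ).precompL ℂ) (fderiv ℝ (φ.normed volume))
      (φ.contDiff_normed.continuous_fderiv (n := ∞) (by simp))
      (φ.hasCompactSupport_normed.fderiv ℝ))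
  refine ⟨H, G, hH, hG, ?_⟩
  exact hasFDerivAt_of_tendstoUniformly hG (fun n z => hasFDerivAt_mol φ (f n) (hfi n) z)
    (fun z => hH.tendsto_at z)

/-- the test function `ζ ↦ φ (z - ζ)` -/
noncomputable def testFun (φ : ContDiffBump (0 : ℂ)) (z : ℂ) : ℂ → ℂ :=
  fun ζ => ((φ.normed volume (z - ζ) : ℝ) : ℂ)

lemma hasFDerivAt_testFun (φ : ContDiffBump (0 : ℂ)) (z ζ : ℂ) :
    HasFDerivAt (testFun φ z)
      (Complex.ofRealCLM.comp ((fderiv ℝ (φ.normed volume) (z - ζ)).comp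
        (-ContinuousLinearMap.id ℝ ℂ))) ζ := by
  have h1 : HasFDerivAt (φ.normed volume) (fderiv ℝ (φ.normed volume) (z - ζ)) (z - ζ) :=
    ((φ.contDiff_normed (n := (⊤ : ℕ∞))).differentiable (by simp)).differentiableAt.hasFDerivAt
  have h2 : HasFDerivAt (fun ζ : ℂ => z - ζ) (-ContinuousLinearMap.id ℝ ℂ) ζ :=
    (hasFDerivAt_id ζ).const_sub z
  exact Complex.ofRealCLM.hasFDerivAt.comp ζ (h1.comp ζ h2)

lemma fderiv_testFun (φ : ContDiffBump (0 : ℂ)) (z ζ v : ℂ) :
    fderiv ℝ (testFun φ z) ζ v = -((fderiv ℝ (φ.normed volume) (z - ζ) v : ℝ) : ℂ) := by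
  rw [(hasFDerivAt_testFun φ z ζ).fderiv]
  simp

lemma contDiff_testFun (φ : ContDiffBump (0 : ℂ)) (z : ℂ) : ContDiff ℝ ∞ (testFun φ z) := by
  unfold testFun
  exact Complex.ofRealCLM.contDiff.comp
    ((φ.contDiff_normed (n := (⊤ : ℕ∞))).comp (contDiff_const.sub contDiff_id))

lemma tsupport_testFun (φ : ContDiffBump (0 : ℂ)) (z : ℂ) :
    tsupport (testFun φ z) ⊆ closedBall z φ.rOut := by
  refine closure_minimal ?_ isClosed_closedBall
  intro ζ hζ
  have h : φ.normed volume (z - ζ) ≠ 0 := by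
    intro h0
    exact hζ (by simp [testFun, h0])
  have h' : z - ζ ∈ Function.support (φ.normed volume) := h
  rw [φ.support_normed_eq, mem_ball_zero_iff] at h'
  rw [mem_closedBall, dist_comm, dist_eq_norm]
  exact h'.le

lemma hasCompactSupport_testFun (φ : ContDiffBump (0 : ℂ)) (z : ℂ) :
    HasCompactSupport (testFun φ z) :=
  (isCompact_closedBall z φ.rOut).of_isClosed_subset (isClosed_tsupport _) (tsupport_testFun φ z)

lemma dmol_apply (φ : ContDiffBump (0 : ℂ)) (f : ℂ → ℂ) (hf : Integrable f) (z v : ℂ) :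
    dmol φ f z v = ∫ t, (fderiv ℝ (φ.normed volume) t v) • f (z - t) := by
  have hκ : Continuous (fderiv ℝ (φ.normed volume)) :=
    φ.contDiff_normed.continuous_fderiv (n := ∞) (by simp)
  obtain ⟨C, hC⟩ := hκ.bounded_above_of_compact_support (φ.hasCompactSupport_normed.fderiv ℝ)
  have hi := conv_integrable ((ContinuousLinearMap.lsmul ℝ ℝ).precompL ℂ)
    (fderiv ℝ (φ.normed volume)) hκ C hC f hf z
  unfold dmol
  rw [convolution_def, ContinuousLinearMap.integral_apply hi]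
  rfl

/-- The `∂̄`-part of the derivative of the mollification is the weak `∂̄`-pairing against the
test function `testFun φ z`. -/
lemma dmol_dbar (φ : ContDiffBump (0 : ℂ)) (f : ℂ → ℂ) (hf : Integrable f) (z : ℂ) :
    dmol φ f z I - I • dmol φ f z 1 =
      I * ∫ ζ, f ζ * (fderiv ℝ (testFun φ z) ζ 1 + I * fderiv ℝ (testFun φ z) ζ I) := by
  have hκ : Continuous (fderiv ℝ (φ.normed volume)) :=
    φ.contDiff_normed.continuous_fderiv (n := ∞) (by simp)
  obtain ⟨C, hC⟩ := hκ.bounded_above_of_compact_support (φ.hasCompactSupport_normed.fderiv ℝ)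
  have hi : ∀ v : ℂ, Integrable (fun t => (fderiv ℝ (φ.normed volume) t v) • f (z - t)) := by
    intro v
    have hκv : Continuous (fun t => fderiv ℝ (φ.normed volume) t v) :=
      hκ.clm_apply continuous_const
    have hCv : ∀ t, ‖fderiv ℝ (φ.normed volume) t v‖ ≤ C * ‖v‖ := fun t =>
      ((fderiv ℝ (φ.normed volume) t).le_opNorm v).trans
        (mul_le_mul_of_nonneg_right (hC t) (norm_nonneg _))
    exact conv_integrable (ContinuousLinearMap.lsmul ℝ ℝ) _ hκv _ hCv f hf z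
  have hi2 : Integrable (fun t => I • ((fderiv ℝ (φ.normed volume) t 1) • f (z - t))) :=
    (hi 1).smul I
  have e1 : I • ∫ t, (fderiv ℝ (φ.normed volume) t 1) • f (z - t)
      = ∫ t, I • ((fderiv ℝ (φ.normed volume) t 1) • f (z - t)) := (integral_smul I _).symm
  rw [dmol_apply φ f hf, dmol_apply φ f hf, e1, ← integral_sub (hi I) hi2, ← integral_const_mul]
  rw [← integral_sub_left_eq_self _ volume z]
  refine integral_congr_ae (Eventually.of_forall fun t => ?_)
  simp only [fderiv_testFun, sub_sub_cancel, Complex.real_smul, smul_eq_mul]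
  ring_nf
  rw [Complex.I_sq]
  ring

/-- The weak (asymptotic) `∂̄`-equation on `U` for a sequence of functions: the pairings of
`f n` with `∂ψ/∂x + i ∂ψ/∂y` tend to zero for every smooth test function `ψ` supported in `U`. -/
def WeakDbar (U : Set ℂ) (f : ℕ → ℂ → ℂ) : Prop :=
  ∀ ψ : ℂ → ℂ, ContDiff ℝ ∞ ψ → HasCompactSupport ψ → tsupport ψ ⊆ U →
    Tendsto (fun n => ∫ z, f n z * (fderiv ℝ ψ z 1 + I * fderiv ℝ ψ z I)) atTop (𝓝 0)

/-- The uniform limit of the mollifications is complex differentiable at every point whose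
`φ.rOut`-neighbourhood is inside the set where the weak equation holds. -/
lemma differentiableAt_mol_limit (φ : ContDiffBump (0 : ℂ)) (f : ℕ → ℂ → ℂ)
    (hfi : ∀ n, Integrable (f n)) {U : Set ℂ} (hW : WeakDbar U f)
    {H : ℂ → ℂ} {G : ℂ → ℂ →L[ℝ] ℂ}
    (hG : TendstoUniformly (fun n => dmol φ (f n)) G atTop)
    (hHG : ∀ z, HasFDerivAt H (G z) z) {z : ℂ} (hz : closedBall z φ.rOut ⊆ U) :
    DifferentiableAt ℂ H z := by
  have h0 : Tendsto (fun n => dmol φ (f n) z I - I • dmol φ (f n) z 1) atTop (𝓝 0) := by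
    have := (hW (testFun φ z) (contDiff_testFun φ z) (hasCompactSupport_testFun φ z)
      ((tsupport_testFun φ z).trans hz)).const_mul I
    rw [mul_zero] at this
    refine this.congr fun n => ?_
    rw [dmol_dbar φ (f n) (hfi n) z]
  have hGz : Tendsto (fun n => dmol φ (f n) z) atTop (𝓝 (G z)) := hG.tendsto_at z
  have h1 : Tendsto (fun n => dmol φ (f n) z I - I • dmol φ (f n) z 1) atTop
      (𝓝 (G z I - I • G z 1)) := by
    have hI : Tendsto (fun n => dmol φ (f n) z I) atTop (𝓝 (G z I)) :=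
      ((ContinuousLinearMap.apply ℝ ℂ I).continuous.tendsto (G z)).comp hGz
    have h1' : Tendsto (fun n => dmol φ (f n) z 1) atTop (𝓝 (G z 1)) :=
      ((ContinuousLinearMap.apply ℝ ℂ (1 : ℂ)).continuous.tendsto (G z)).comp hGz
    exact hI.sub (h1'.const_smul I)
  have h2 : G z I = I • G z 1 := sub_eq_zero.mp (tendsto_nhds_unique h1 h0)
  exact ((hHG z).complexOfReal_hasFDerivAt h2).differentiableAt

lemma continuous_mol (φ : ContDiffBump (0 : ℂ)) (f : ℂ → ℂ) (hf : Integrable f) :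
    Continuous (mol φ f) :=
  continuous_iff_continuousAt.2 fun z => (hasFDerivAt_mol φ f hf z).continuousAt

lemma integrable_mol (φ : ContDiffBump (0 : ℂ)) (f : ℂ → ℂ) (hf : Integrable f) :
    Integrable (mol φ f) :=
  Integrable.integrable_convolution _ φ.integrable_normed hf

lemma mol_sub (φ : ContDiffBump (0 : ℂ)) (g₁ g₂ : ℂ → ℂ) (h₁ : Integrable g₁)
    (h₂ : Integrable g₂) (z : ℂ) :
    mol φ (fun w => g₁ w - g₂ w) z = mol φ g₁ z - mol φ g₂ z := by
  obtain ⟨C, hC⟩ := φ.continuous_normed.bounded_above_of_compact_support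
    (φ.hasCompactSupport_normed (μ := volume))
  have i₁ := conv_integrable (ContinuousLinearMap.lsmul ℝ ℝ) (φ.normed volume)
    φ.continuous_normed C hC g₁ h₁ z
  have i₂ := conv_integrable (ContinuousLinearMap.lsmul ℝ ℝ) (φ.normed volume)
    φ.continuous_normed C hC g₂ h₂ z
  unfold mol
  rw [convolution_def, convolution_def, convolution_def, ← integral_sub i₁ i₂]
  refine integral_congr_ae (Eventually.of_forall fun t => ?_)
  simp [smul_sub]

/-- `L¹` contraction property of mollification. -/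
lemma integral_norm_mol_le (φ : ContDiffBump (0 : ℂ)) (g : ℂ → ℂ) (hg : Integrable g) :
    ∫ z, ‖mol φ g z‖ ≤ ∫ z, ‖g z‖ := by
  have hgn : Integrable (fun w => ‖g w‖) := hg.norm
  have hconv : Integrable ((φ.normed volume) ⋆[ContinuousLinearMap.lsmul ℝ ℝ, volume]
      (fun w => ‖g w‖)) :=
    Integrable.integrable_convolution _ φ.integrable_normed hgn
  have hpt : ∀ z, ‖mol φ g z‖ ≤ ((φ.normed volume) ⋆[ContinuousLinearMap.lsmul ℝ ℝ, volume]
      (fun w => ‖g w‖)) z := by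
    intro z
    unfold mol
    rw [convolution_def, convolution_def]
    refine (norm_integral_le_integral_norm _).trans (le_of_eq ?_)
    refine integral_congr_ae (Eventually.of_forall fun t => ?_)
    simp [abs_of_nonneg (φ.nonneg_normed t)]
  calc ∫ z, ‖mol φ g z‖
      ≤ ∫ z, ((φ.normed volume) ⋆[ContinuousLinearMap.lsmul ℝ ℝ, volume]
          (fun w => ‖g w‖)) z :=
        integral_mono_of_nonneg (Eventually.of_forall fun _ => norm_nonneg _) hconv
          (Eventually.of_forall hpt)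
    _ = ∫ z, ‖g z‖ := by
        rw [integral_convolution _ φ.integrable_normed hgn, φ.integral_normed]
        simp

/-- sup-norm closeness of the mollification of a uniformly continuous function. -/
lemma norm_mol_sub_le (φ : ContDiffBump (0 : ℂ)) (g : ℂ → ℂ) (hg : Continuous g) {ε : ℝ}
    (h : ∀ x y, dist x y < φ.rOut → dist (g x) (g y) ≤ ε) (z : ℂ) :
    ‖mol φ g z - g z‖ ≤ ε := by
  rw [← dist_eq_norm]
  exact ContDiffBump.dist_normed_convolution_le hg.aestronglyMeasurable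
    (fun x hx => h x z hx)

/-- Uniformly in `n` (large), mollification with a small bump changes `f n` little in
`L¹(K)`. -/
lemma core_approx (f : ℕ → ℂ → ℂ) (hfc : ∀ n, Continuous (f n))
    (hfs : ∀ n, HasCompactSupport (f n))
    (hL1 : ∀ ε > 0, ∃ N, ∀ n ≥ N, ∀ m ≥ N, ∫ z, ‖f n z - f m z‖ < ε)
    {K : Set ℂ} (hK : IsCompact K) {δ : ℝ} (hδ : 0 < δ) :
    ∃ r₀ > 0, ∃ N, ∀ φ : ContDiffBump (0 : ℂ), φ.rOut < r₀ → ∀ n ≥ N,
      ∫ z in K, ‖f n z - mol φ (f n) z‖ ≤ δ := by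
  have hfi : ∀ n, Integrable (f n) := fun n => (hfc n).integrable_of_hasCompactSupport (hfs n)
  obtain ⟨N, hN⟩ := hL1 (δ / 4) (by positivity)
  set V : ℝ := volume.real K with hV
  have hV0 : 0 ≤ V := measureReal_nonneg
  set ε : ℝ := δ / (2 * (V + 1)) with hε
  have hε0 : 0 < ε := by positivity
  have huc : UniformContinuous (f N) := (hfs N).uniformContinuous_of_continuous (hfc N)
  obtain ⟨r₀, hr₀, hr⟩ := Metric.uniformContinuous_iff.1 huc ε hε0
  refine ⟨r₀, hr₀, N, fun φ hφ n hn => ?_⟩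
  have hmc : ∀ n, Continuous (mol φ (f n)) := fun n => continuous_mol φ (f n) (hfi n)
  have hclose : ∀ z, ‖mol φ (f N) z - f N z‖ ≤ ε := fun z =>
    norm_mol_sub_le φ (f N) (hfc N)
      (fun x y hxy => (hr (hxy.trans hφ)).le) z
  have hpt : ∀ z, ‖f n z - mol φ (f n) z‖
      ≤ ‖f n z - f N z‖ + ε + ‖mol φ (fun w => f N w - f n w) z‖ := by
    intro z
    rw [mol_sub φ (f N) (f n) (hfi N) (hfi n) z]
    have e : f n z - mol φ (f n) z
        = (f n z - f N z) - (mol φ (f N) z - f N z) + (mol φ (f N) z - mol φ (f n) z) := by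
      ring
    rw [e]
    refine (norm_add_le _ _).trans ?_
    refine add_le_add ((norm_sub_le _ _).trans ?_) le_rfl
    exact add_le_add le_rfl (hclose z)
  have i1 : Integrable (fun z => ‖f n z - f N z‖) := ((hfi n).sub (hfi N)).norm
  have i3 : Integrable (fun z => ‖mol φ (fun w => f N w - f n w) z‖) :=
    (integrable_mol φ _ ((hfi N).sub (hfi n))).norm
  have iK0 : IntegrableOn (fun z => ‖f n z - mol φ (f n) z‖) K :=
    ((hfc n).sub (hmc n)).norm.continuousOn.integrableOn_compact hK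
  have iKc : IntegrableOn (fun _ : ℂ => ε) K := by
    rw [integrableOn_const_iff]
    right
    exact hK.measure_lt_top
  have iK : IntegrableOn (fun z => ‖f n z - f N z‖ + ε
      + ‖mol φ (fun w => f N w - f n w) z‖) K :=
    (i1.integrableOn.add iKc).add i3.integrableOn
  have b1 : ∫ z in K, ‖f n z - f N z‖ ≤ δ / 4 :=
    (setIntegral_le_integral i1 (Eventually.of_forall fun _ => norm_nonneg _)).trans
      (hN n hn N le_rfl).le
  have b3 : ∫ z in K, ‖mol φ (fun w => f N w - f n w) z‖ ≤ δ / 4 := by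
    refine (setIntegral_le_integral i3 (Eventually.of_forall fun _ => norm_nonneg _)).trans ?_
    exact (integral_norm_mol_le φ _ ((hfi N).sub (hfi n))).trans (hN N le_rfl n hn).le
  have b2 : ∫ _ in K, ε = ε * V := by
    rw [setIntegral_const, smul_eq_mul, mul_comm]
  have b2' : ε * V ≤ δ / 2 := by
    rw [hε]
    have : δ / (2 * (V + 1)) * V = (δ / 2) * (V / (V + 1)) := by field_simp
    rw [this]
    have h1 : V / (V + 1) ≤ 1 := by
      rw [div_le_one (by positivity)]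
      linarith
    nlinarith
  calc ∫ z in K, ‖f n z - mol φ (f n) z‖
      ≤ ∫ z in K, (‖f n z - f N z‖ + ε + ‖mol φ (fun w => f N w - f n w) z‖) :=
        setIntegral_mono iK0 iK hpt
    _ = (∫ z in K, ‖f n z - f N z‖) + ε * V
          + ∫ z in K, ‖mol φ (fun w => f N w - f n w) z‖ := by
        have e1 : ∫ z in K, (‖f n z - f N z‖ + ε + ‖mol φ (fun w => f N w - f n w) z‖)
            = (∫ z in K, (‖f n z - f N z‖ + ε))
              + ∫ z in K, ‖mol φ (fun w => f N w - f n w) z‖ :=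
          integral_add (f := fun z => ‖f n z - f N z‖ + ε)
            (g := fun z => ‖mol φ (fun w => f N w - f n w) z‖)
            (i1.integrableOn.add iKc) i3.integrableOn
        have e2 : ∫ z in K, (‖f n z - f N z‖ + ε)
            = (∫ z in K, ‖f n z - f N z‖) + ∫ _ in K, ε :=
          integral_add (f := fun z => ‖f n z - f N z‖) (g := fun _ => ε)
            i1.integrableOn iKc
        rw [e1, e2, b2]
    _ ≤ δ / 4 + δ / 2 + δ / 4 := by
        gcongr
    _ = δ := by ring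

/-- uniform convergence gives `L¹` convergence on compact sets -/
lemma tendsto_setIntegral_norm_sub_of_tendstoUniformly {F : ℕ → ℂ → ℂ} {H : ℂ → ℂ}
    (hF : ∀ n, Continuous (F n)) (hFH : TendstoUniformly F H atTop)
    {K : Set ℂ} (hK : IsCompact K) :
    Tendsto (fun n => ∫ z in K, ‖F n z - H z‖) atTop (𝓝 0) := by
  have hHc : Continuous H := hFH.continuous (Eventually.of_forall hF).frequently
  set V : ℝ := volume.real K with hV
  have hV0 : 0 ≤ V := measureReal_nonneg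
  rw [Metric.tendsto_atTop]
  intro ε hε
  have hε' : 0 < ε / (2 * (V + 1)) := by positivity
  obtain ⟨N, hN⟩ := eventually_atTop.1 (Metric.tendstoUniformly_iff.1 hFH _ hε')
  refine ⟨N, fun n hn => ?_⟩
  have hnn : 0 ≤ ∫ z in K, ‖F n z - H z‖ := integral_nonneg fun _ => norm_nonneg _
  rw [Real.dist_eq, sub_zero, abs_of_nonneg hnn]
  have iK0 : IntegrableOn (fun z => ‖F n z - H z‖) K :=
    ((hF n).sub hHc).norm.continuousOn.integrableOn_compact hK
  have iKc : IntegrableOn (fun _ : ℂ => ε / (2 * (V + 1))) K := by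
    rw [integrableOn_const_iff]
    right
    exact hK.measure_lt_top
  have hpt : ∀ z, ‖F n z - H z‖ ≤ ε / (2 * (V + 1)) := fun z => by
    have := (hN n hn z).le
    rwa [dist_comm, dist_eq_norm] at this
  calc ∫ z in K, ‖F n z - H z‖ ≤ ∫ _ in K, ε / (2 * (V + 1)) := setIntegral_mono iK0 iKc hpt
    _ = ε / (2 * (V + 1)) * V := by rw [setIntegral_const, smul_eq_mul, mul_comm]
    _ < ε := by
        have : ε / (2 * (V + 1)) * V = (ε / 2) * (V / (V + 1)) := by field_simp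
        rw [this]
        have h1 : V / (V + 1) ≤ 1 := by
          rw [div_le_one (by positivity)]
          linarith
        nlinarith

/-- Area mean value property of holomorphic functions. -/
lemma setIntegral_ball_eq_of_differentiableAt {F : ℂ → ℂ} {c : ℂ} {R : ℝ} (hR : 0 < R)
    (hF : ∀ w ∈ closedBall c R, DifferentiableAt ℂ F w) :
    ∫ z in ball c R, F z = (π * R ^ 2) • F c := by
  have hFc : ContinuousOn F (closedBall c R) :=
    fun w hw => (hF w hw).continuousAt.continuousWithinAt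
  -- the polar integrand
  set q' : ℝ × ℝ → ℂ := fun p => p.1 • F (circleMap c p.1 p.2) with hq'
  have hpolar : ∀ p : ℝ × ℝ, c + Complex.polarCoord.symm p = circleMap c p.1 p.2 := by
    intro p
    rw [Complex.polarCoord_symm_apply, circleMap, Complex.exp_mul_I]
    simp
  have hnorm : ∀ p : ℝ × ℝ, dist (circleMap c p.1 p.2) c = |p.1| := by
    intro p
    simp [circleMap, dist_eq_norm]
  rw [← integral_indicator measurableSet_ball, ← integral_add_left_eq_self _ c,
    ← Complex.integral_comp_polarCoord_symm]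
  have hsub : Ioo (0 : ℝ) R ×ˢ Ioo (-π) π ⊆ polarCoord.target := by
    rw [polarCoord_target]
    exact prod_mono Ioo_subset_Ioi_self le_rfl
  rw [setIntegral_eq_of_subset_of_forall_sdiff_eq_zero polarCoord.open_target.measurableSet hsub]
  swap
  · rintro p ⟨hp, hp'⟩
    rw [polarCoord_target] at hp
    have h1 : R ≤ p.1 := by
      by_contra h
      exact hp' ⟨⟨hp.1, not_le.mp h⟩, hp.2⟩
    have h2 : c + Complex.polarCoord.symm p ∉ ball c R := by
      rw [hpolar, mem_ball, hnorm, abs_of_pos hp.1]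
      exact not_lt.mpr h1
    rw [indicator_of_notMem h2, smul_zero]
  have hD : ∫ p in Ioo (0 : ℝ) R ×ˢ Ioo (-π) π,
      p.1 • (ball c R).indicator F (c + Complex.polarCoord.symm p)
      = ∫ p in Ioo (0 : ℝ) R ×ˢ Ioo (-π) π, q' p := by
    refine setIntegral_congr_fun (measurableSet_Ioo.prod measurableSet_Ioo) fun p hp => ?_
    have h2 : c + Complex.polarCoord.symm p ∈ ball c R := by
      rw [hpolar, mem_ball, hnorm, abs_of_pos hp.1.1]
      exact hp.1.2
    rw [hpolar] at h2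
    simp only [hpolar, hq', indicator_of_mem h2]
  rw [hD]
  have hcm : Continuous fun p : ℝ × ℝ => circleMap c p.1 p.2 := by
    unfold circleMap
    fun_prop
  have hqc : ContinuousOn q' (Icc (0 : ℝ) R ×ˢ Icc (-π) π) := by
    refine ContinuousOn.smul continuous_fst.continuousOn ?_
    refine hFc.comp hcm.continuousOn ?_
    rintro p ⟨hp1, -⟩
    rw [mem_closedBall, hnorm, abs_of_nonneg hp1.1]
    exact hp1.2
  have hqi : IntegrableOn q' (Ioo (0 : ℝ) R ×ˢ Ioo (-π) π) (volume.prod volume) :=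
    (hqc.integrableOn_compact (isCompact_Icc.prod isCompact_Icc)).mono_set
      (prod_mono Ioo_subset_Icc_self Ioo_subset_Icc_self)
  have hF' : ∫ p in Ioo (0 : ℝ) R ×ˢ Ioo (-π) π, q' p
      = ∫ r in Ioo (0 : ℝ) R, ∫ θ in Ioo (-π) π, q' (r, θ) :=
    setIntegral_prod q' hqi
  rw [hF']
  have hG : ∀ r ∈ Ioo (0 : ℝ) R, ∫ θ in Ioo (-π) π, q' (r, θ) = r • ((2 * π) • F c) := by
    intro r hr
    simp only [hq']
    rw [integral_smul]
    congr 1
    rw [← integral_Ioc_eq_integral_Ioo,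
      ← intervalIntegral.integral_of_le (by linarith [Real.pi_pos])]
    have hper : Function.Periodic (fun θ => F (circleMap c r θ)) (2 * π) :=
      (periodic_circleMap c r).comp F
    have h1 := hper.intervalIntegral_add_eq (-π) 0
    have e1 : -π + 2 * π = π := by ring
    rw [e1, zero_add] at h1
    rw [h1]
    have hdc : DiffContOnCl ℂ F (ball c |r|) := by
      rw [abs_of_pos hr.1]
      constructor
      · intro w hw
        exact (hF w (ball_subset_closedBall
          ((ball_subset_ball hr.2.le) hw))).differentiableWithinAt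
      · refine hFc.mono ?_
        exact (closure_ball_subset_closedBall).trans (closedBall_subset_closedBall hr.2.le)
    have h2 := hdc.circleAverage
    rw [Real.circleAverage_def] at h2
    rw [← h2, smul_smul, mul_inv_cancel₀ (by positivity), one_smul]
  rw [setIntegral_congr_fun measurableSet_Ioo hG]
  rw [integral_smul_const, ← integral_Ioc_eq_integral_Ioo,
    ← intervalIntegral.integral_of_le hR.le, integral_id]
  rw [smul_smul]
  congr 1
  ring

lemma norm_le_setIntegral_ball {F : ℂ → ℂ} {c : ℂ} {R : ℝ} (hR : 0 < R)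
    (hF : ∀ w ∈ closedBall c R, DifferentiableAt ℂ F w) :
    π * R ^ 2 * ‖F c‖ ≤ ∫ z in ball c R, ‖F z‖ := by
  have h := setIntegral_ball_eq_of_differentiableAt hR hF
  calc π * R ^ 2 * ‖F c‖ = ‖(π * R ^ 2) • F c‖ := by
        rw [norm_smul, Real.norm_of_nonneg (by positivity)]
    _ = ‖∫ z in ball c R, F z‖ := by rw [h]
    _ ≤ ∫ z in ball c R, ‖F z‖ := norm_integral_le_integral_norm _

lemma setIntegral_norm_sub_le_add {K : Set ℂ} (hK : IsCompact K) {a b c : ℂ → ℂ}
    (ha : ContinuousOn a K) (hb : ContinuousOn b K) (hc : ContinuousOn c K) :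
    ∫ z in K, ‖a z - c z‖ ≤ (∫ z in K, ‖a z - b z‖) + ∫ z in K, ‖b z - c z‖ := by
  have i1 : IntegrableOn (fun z => ‖a z - b z‖) K := (ha.sub hb).norm.integrableOn_compact hK
  have i2 : IntegrableOn (fun z => ‖b z - c z‖) K := (hb.sub hc).norm.integrableOn_compact hK
  have i3 : IntegrableOn (fun z => ‖a z - c z‖) K := (ha.sub hc).norm.integrableOn_compact hK
  rw [← integral_add i1 i2]
  exact setIntegral_mono i3 (i1.add i2) fun z => norm_sub_le_norm_sub_add_norm_sub _ _ _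

lemma setIntegral_norm_sub_le_add' {K : Set ℂ} (hK : IsCompact K) {a b c : ℂ → ℂ}
    (ha : ContinuousOn a K) (hb : ContinuousOn b K) (hc : ContinuousOn c K) :
    ∫ z in K, ‖a z - c z‖ ≤ (∫ z in K, ‖b z - a z‖) + ∫ z in K, ‖b z - c z‖ := by
  have := setIntegral_norm_sub_le_add hK ha hb hc
  simp_rw [norm_sub_rev (a _) (b _)] at this
  exact this

/-- A sequence of continuous functions which is eventually holomorphic near every point of `U`
and Cauchy in `L¹` on compact sets converges locally uniformly to a holomorphic function. -/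
lemma exists_holo_limit_of_L1_cauchy {U : Set ℂ} (hU : IsOpen U) (H : ℕ → ℂ → ℂ)
    (hHc : ∀ k, Continuous (H k))
    (hHd : ∀ r > 0, ∃ k₀, ∀ k ≥ k₀, ∀ z, closedBall z r ⊆ U → DifferentiableAt ℂ (H k) z)
    (hC : ∀ K : Set ℂ, IsCompact K → ∀ δ > 0, ∃ k₀, ∀ k ≥ k₀, ∀ l ≥ k₀,
      ∫ z in K, ‖H k z - H l z‖ ≤ δ) :
    ∃ h : ℂ → ℂ, DifferentiableOn ℂ h U ∧
      ∀ K ⊆ U, IsCompact K → TendstoUniformlyOn H h atTop K := by
  -- local uniform Cauchy estimate
  have loc : ∀ z₀ ∈ U, ∃ ρ > 0, ball z₀ ρ ⊆ U ∧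
      (∃ k₁, ∀ k ≥ k₁, DifferentiableOn ℂ (H k) (ball z₀ ρ)) ∧
      ∀ ε > 0, ∃ k₀, ∀ k ≥ k₀, ∀ l ≥ k₀, ∀ z ∈ ball z₀ ρ, ‖H k z - H l z‖ ≤ ε := by
    intro z₀ hz₀
    obtain ⟨r, hr, hrU⟩ := Metric.nhds_basis_closedBall.mem_iff.1 (hU.mem_nhds hz₀)
    set ρ : ℝ := r / 3 with hρ
    have hρ0 : 0 < ρ := by positivity
    obtain ⟨k₁, hk₁⟩ := hHd ρ hρ0
    have hdiff : ∀ k ≥ k₁, ∀ w ∈ closedBall z₀ (2 * ρ), DifferentiableAt ℂ (H k) w := by
      intro k hk w hw
      refine hk₁ k hk w ((closedBall_subset_closedBall' ?_).trans hrU)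
      rw [mem_closedBall] at hw
      rw [hρ] at hw ⊢
      linarith
    refine ⟨ρ, hρ0, ?_, ⟨k₁, fun k hk w hw => ?_⟩, ?_⟩
    · refine (ball_subset_closedBall.trans (closedBall_subset_closedBall ?_)).trans hrU
      rw [hρ]; linarith
    · refine (hdiff k hk w ?_).differentiableWithinAt
      rw [mem_ball] at hw
      rw [mem_closedBall]
      linarith
    · intro ε hε
      obtain ⟨k₀, hk₀⟩ := hC (closedBall z₀ (2 * ρ)) (isCompact_closedBall _ _)
        (ε * (π * ρ ^ 2)) (by positivity)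
      refine ⟨max k₀ k₁, fun k hk l hl z hz => ?_⟩
      have hk0 : k ≥ k₀ := (le_max_left _ _).trans hk
      have hk1 : k ≥ k₁ := (le_max_right _ _).trans hk
      have hl0 : l ≥ k₀ := (le_max_left _ _).trans hl
      have hl1 : l ≥ k₁ := (le_max_right _ _).trans hl
      have hsub : closedBall z ρ ⊆ closedBall z₀ (2 * ρ) := by
        refine closedBall_subset_closedBall' ?_
        rw [mem_ball] at hz
        linarith
      have hD : ∀ w ∈ closedBall z ρ, DifferentiableAt ℂ (fun w => H k w - H l w) w :=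
        fun w hw => (hdiff k hk1 w (hsub hw)).sub (hdiff l hl1 w (hsub hw))
      have h1 := norm_le_setIntegral_ball hρ0 hD
      have iK : IntegrableOn (fun w => ‖H k w - H l w‖) (closedBall z₀ (2 * ρ)) :=
        ((hHc k).sub (hHc l)).norm.continuousOn.integrableOn_compact (isCompact_closedBall _ _)
      have h2 : ∫ w in ball z ρ, ‖H k w - H l w‖ ≤ ∫ w in closedBall z₀ (2 * ρ), ‖H k w - H l w‖ :=
        setIntegral_mono_set iK (Eventually.of_forall fun _ => norm_nonneg _)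
          (Eventually.of_forall (ball_subset_closedBall.trans hsub))
      have h3 := hk₀ k hk0 l hl0
      have h4 : π * ρ ^ 2 * ‖H k z - H l z‖ ≤ ε * (π * ρ ^ 2) := h1.trans (h2.trans h3)
      have hpos : 0 < π * ρ ^ 2 := by positivity
      nlinarith
  -- the pointwise limit
  have hcau : ∀ z ∈ U, CauchySeq (fun k => H k z) := by
    intro z hz
    obtain ⟨ρ, hρ, -, -, hc⟩ := loc z hz
    rw [Metric.cauchySeq_iff']
    intro ε hε
    obtain ⟨k₀, hk₀⟩ := hc (ε / 2) (half_pos hε)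
    refine ⟨k₀, fun k hk => ?_⟩
    rw [dist_eq_norm]
    exact (hk₀ k hk k₀ le_rfl z (mem_ball_self hρ)).trans_lt (half_lt_self hε)
  set h : ℂ → ℂ := fun z => limUnder atTop (fun k => H k z) with hh
  have hlim : ∀ z ∈ U, Tendsto (fun k => H k z) atTop (𝓝 (h z)) :=
    fun z hz => (hcau z hz).tendsto_limUnder
  have hlu : TendstoLocallyUniformlyOn H h atTop U := by
    rw [Metric.tendstoLocallyUniformlyOn_iff]
    intro ε hε z₀ hz₀
    obtain ⟨ρ, hρ, hρU, -, hc⟩ := loc z₀ hz₀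
    refine ⟨ball z₀ ρ, mem_nhdsWithin_of_mem_nhds (ball_mem_nhds _ hρ), ?_⟩
    obtain ⟨k₀, hk₀⟩ := hc (ε / 2) (half_pos hε)
    filter_upwards [eventually_ge_atTop k₀] with k hk z hz
    have : ‖H k z - h z‖ ≤ ε / 2 := by
      refine le_of_tendsto (f := fun l => ‖H k z - H l z‖)
        ((tendsto_const_nhds.sub (hlim z (hρU hz))).norm) ?_
      filter_upwards [eventually_ge_atTop k₀] with l hl using hk₀ k hk l hl z hz
    rw [dist_comm, dist_eq_norm]
    linarith
  have hd : DifferentiableOn ℂ h U := by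
    intro z₀ hz₀
    obtain ⟨ρ, hρ, hρU, ⟨k₁, hk₁⟩, -⟩ := loc z₀ hz₀
    have h1 : DifferentiableOn ℂ h (ball z₀ ρ) :=
      (hlu.mono hρU).differentiableOn (eventually_atTop.2 ⟨k₁, hk₁⟩) isOpen_ball
    exact (h1.differentiableAt (ball_mem_nhds _ hρ)).differentiableWithinAt
  refine ⟨h, hd, fun K hKU hK => ?_⟩
  exact (tendstoLocallyUniformlyOn_iff_forall_isCompact hU).1 hlu K hKU hK


/-- the bump of outer radius `1/(k+1)` -/
noncomputable def bumpSeq (k : ℕ) : ContDiffBump (0 : ℂ) where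
  rIn := 1 / (2 * ((k : ℝ) + 1))
  rOut := 1 / ((k : ℝ) + 1)
  rIn_pos := by positivity
  rIn_lt_rOut := by
    apply one_div_lt_one_div_of_lt (by positivity)
    linarith [show (0 : ℝ) ≤ k from Nat.cast_nonneg k]

lemma bumpSeq_small {r : ℝ} (hr : 0 < r) : ∃ k₀, ∀ k ≥ k₀, (bumpSeq k).rOut < r := by
  obtain ⟨n, hn⟩ := exists_nat_one_div_lt hr
  refine ⟨n, fun k hk => lt_of_le_of_lt ?_ hn⟩
  show 1 / ((k : ℝ) + 1) ≤ 1 / ((n : ℝ) + 1)
  apply one_div_le_one_div_of_le (by positivity)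
  have : (n : ℝ) ≤ k := Nat.cast_le.2 hk
  linarith

/-- **Core statement** (global version): an `L¹`-Cauchy sequence of continuous compactly
supported functions which asymptotically satisfies the weak `∂̄`-equation on an open set `U`
converges in `L¹` on compact subsets of `U` to a holomorphic function. -/
theorem core (f : ℕ → ℂ → ℂ) (hfc : ∀ n, Continuous (f n))
    (hfs : ∀ n, HasCompactSupport (f n))
    (hL1 : ∀ ε > 0, ∃ N, ∀ n ≥ N, ∀ m ≥ N, ∫ z, ‖f n z - f m z‖ < ε)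
    {U : Set ℂ} (hU : IsOpen U) (hW : WeakDbar U f) :
    ∃ h : ℂ → ℂ, DifferentiableOn ℂ h U ∧
      ∀ K ⊆ U, IsCompact K → Tendsto (fun n => ∫ z in K, ‖f n z - h z‖) atTop (𝓝 0) := by
  have hfi : ∀ n, Integrable (f n) := fun n => (hfc n).integrable_of_hasCompactSupport (hfs n)
  choose H G hH hG hHG using fun k => exists_mol_limit (bumpSeq k) f hfi hL1
  have hHc : ∀ k, Continuous (H k) := fun k =>
    continuous_iff_continuousAt.2 fun z => (hHG k z).continuousAt
  have hmc : ∀ k n, Continuous (mol (bumpSeq k) (f n)) := fun k n => continuous_mol _ _ (hfi n)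
  have C2 : ∀ K : Set ℂ, IsCompact K → ∀ δ > 0, ∃ k₀, ∀ k ≥ k₀, ∀ᶠ n in atTop,
      ∫ z in K, ‖f n z - H k z‖ ≤ δ := by
    intro K hK δ hδ
    obtain ⟨r₀, hr₀, N, hN⟩ := core_approx f hfc hfs hL1 hK (half_pos hδ)
    obtain ⟨k₀, hk₀⟩ := bumpSeq_small hr₀
    refine ⟨k₀, fun k hk => ?_⟩
    have ht := tendsto_setIntegral_norm_sub_of_tendstoUniformly (hmc k) (hH k) hK
    have hev : ∀ᶠ n in atTop, ∫ z in K, ‖mol (bumpSeq k) (f n) z - H k z‖ < δ / 2 :=
      (tendsto_order.1 ht).2 _ (half_pos hδ)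
    filter_upwards [hev, eventually_ge_atTop N] with n hn1 hn2
    have h1 := hN (bumpSeq k) (hk₀ k hk) n hn2
    have h2 := setIntegral_norm_sub_le_add hK (hfc n).continuousOn (hmc k n).continuousOn
      (hHc k).continuousOn
    linarith
  have C3 : ∀ K : Set ℂ, IsCompact K → ∀ δ > 0, ∃ k₀, ∀ k ≥ k₀, ∀ l ≥ k₀,
      ∫ z in K, ‖H k z - H l z‖ ≤ δ := by
    intro K hK δ hδ
    obtain ⟨k₀, hk₀⟩ := C2 K hK (δ / 2) (half_pos hδ)
    refine ⟨k₀, fun k hk l hl => ?_⟩
    obtain ⟨n, hn1, hn2⟩ := ((hk₀ k hk).and (hk₀ l hl)).exists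
    have h2 := setIntegral_norm_sub_le_add' hK (hHc k).continuousOn (hfc n).continuousOn
      (hHc l).continuousOn
    linarith
  have hHd : ∀ r > 0, ∃ k₀, ∀ k ≥ k₀, ∀ z, closedBall z r ⊆ U →
      DifferentiableAt ℂ (H k) z := by
    intro r hr
    obtain ⟨k₀, hk₀⟩ := bumpSeq_small hr
    refine ⟨k₀, fun k hk z hz => ?_⟩
    exact differentiableAt_mol_limit (bumpSeq k) f hfi hW (hG k) (hHG k)
      ((closedBall_subset_closedBall (hk₀ k hk).le).trans hz)
  obtain ⟨h, hd, hu⟩ := exists_holo_limit_of_L1_cauchy hU H hHc hHd C3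
  refine ⟨h, hd, fun K hKU hK => ?_⟩
  have hhc : ContinuousOn h K := hd.continuousOn.mono hKU
  set V : ℝ := volume.real K with hV
  have hV0 : 0 ≤ V := measureReal_nonneg
  rw [Metric.tendsto_atTop]
  intro ε hε
  obtain ⟨k₀, hk₀⟩ := C2 K hK (ε / 2) (half_pos hε)
  have hε' : 0 < ε / (4 * (V + 1)) := by positivity
  obtain ⟨k₂, hk₂⟩ := eventually_atTop.1
    (Metric.tendstoUniformlyOn_iff.1 (hu K hKU hK) _ hε')
  set k := max k₀ k₂ with hk
  obtain ⟨N, hN⟩ := eventually_atTop.1 (hk₀ k (le_max_left _ _))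
  refine ⟨N, fun n hn => ?_⟩
  have hnn : 0 ≤ ∫ z in K, ‖f n z - h z‖ := integral_nonneg fun _ => norm_nonneg _
  rw [Real.dist_eq, sub_zero, abs_of_nonneg hnn]
  have h1 := hN n hn
  have h2 := setIntegral_norm_sub_le_add hK (hfc n).continuousOn (hHc k).continuousOn hhc
  have h3 : ∫ z in K, ‖H k z - h z‖ ≤ ε / 4 := by
    have iK0 : IntegrableOn (fun z => ‖H k z - h z‖) K :=
      ((hHc k).continuousOn.sub hhc).norm.integrableOn_compact hK
    have iKc : IntegrableOn (fun _ : ℂ => ε / (4 * (V + 1))) K := by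
      rw [integrableOn_const_iff]
      right
      exact hK.measure_lt_top
    have hpt : ∀ z ∈ K, ‖H k z - h z‖ ≤ ε / (4 * (V + 1)) := fun z hz => by
      have := (hk₂ k (le_max_right _ _) z hz).le
      rwa [dist_comm, dist_eq_norm] at this
    calc ∫ z in K, ‖H k z - h z‖ ≤ ∫ _ in K, ε / (4 * (V + 1)) :=
          setIntegral_mono_on iK0 iKc hK.measurableSet hpt
      _ = ε / (4 * (V + 1)) * V := by rw [setIntegral_const, smul_eq_mul, mul_comm]
      _ ≤ ε / 4 := by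
          have : ε / (4 * (V + 1)) * V = (ε / 4) * (V / (V + 1)) := by field_simp
          rw [this]
          have h1 : V / (V + 1) ≤ 1 := by
            rw [div_le_one (by positivity)]
            linarith
          nlinarith
  linarith

end Core

section Local

/-- `L²`-Cauchy on a compact set implies `L¹`-Cauchy. -/
lemma l1_cauchy_of_l2_cauchy {K : Set ℂ} (hK : IsCompact K) (a : ℕ → ℂ → ℂ)
    (ha : ∀ n, ContinuousOn (a n) K)
    (hC : ∀ ε > 0, ∃ M, ∀ n ≥ M, ∀ m ≥ M, ∫ z in K, ‖a n z - a m z‖ ^ 2 < ε) :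
    ∀ ε > 0, ∃ M, ∀ n ≥ M, ∀ m ≥ M, ∫ z in K, ‖a n z - a m z‖ < ε := by
  intro ε hε
  set V : ℝ := volume.real K with hV
  have hV0 : 0 ≤ V := measureReal_nonneg
  set t : ℝ := ε / (V + 1) with ht
  have ht0 : 0 < t := by positivity
  obtain ⟨M, hM⟩ := hC (t * ε) (by positivity)
  refine ⟨M, fun n hn m hm => ?_⟩
  have i1 : IntegrableOn (fun z => ‖a n z - a m z‖) K :=
    ((ha n).sub (ha m)).norm.integrableOn_compact hK
  have i2 : IntegrableOn (fun z => ‖a n z - a m z‖ ^ 2) K :=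
    (((ha n).sub (ha m)).norm.pow 2).integrableOn_compact hK
  have iKc : IntegrableOn (fun _ : ℂ => t / 2) K := by
    rw [integrableOn_const_iff]
    right
    exact hK.measure_lt_top
  have hpt : ∀ z, ‖a n z - a m z‖ ≤ t / 2 + (2 * t)⁻¹ * ‖a n z - a m z‖ ^ 2 := by
    intro z
    set g := ‖a n z - a m z‖
    have h1 : 0 ≤ (g - t) ^ 2 := sq_nonneg _
    have h2 : t / 2 + (2 * t)⁻¹ * g ^ 2 - g = (2 * t)⁻¹ * (g - t) ^ 2 := by
      field_simp
      ring
    have h3 : 0 ≤ (2 * t)⁻¹ * (g - t) ^ 2 := by positivity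
    linarith
  have e1 : ∫ z in K, (t / 2 + (2 * t)⁻¹ * ‖a n z - a m z‖ ^ 2)
      = (∫ _ in K, t / 2) + ∫ z in K, (2 * t)⁻¹ * ‖a n z - a m z‖ ^ 2 :=
    integral_add (f := fun _ => t / 2) (g := fun z => (2 * t)⁻¹ * ‖a n z - a m z‖ ^ 2)
      iKc (i2.const_mul _)
  have e2 : ∫ _ in K, t / 2 = t / 2 * V := by
    rw [setIntegral_const, smul_eq_mul, mul_comm]
  have e3 : ∫ z in K, (2 * t)⁻¹ * ‖a n z - a m z‖ ^ 2
      = (2 * t)⁻¹ * ∫ z in K, ‖a n z - a m z‖ ^ 2 := integral_const_mul _ _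
  have b1 : t / 2 * V ≤ ε / 2 := by
    rw [ht]
    have : ε / (V + 1) / 2 * V = (ε / 2) * (V / (V + 1)) := by field_simp
    rw [this]
    have h1 : V / (V + 1) ≤ 1 := by
      rw [div_le_one (by positivity)]
      linarith
    nlinarith
  have b2 : (2 * t)⁻¹ * ∫ z in K, ‖a n z - a m z‖ ^ 2 < ε / 2 := by
    have h1 := hM n hn m hm
    have h2 : (2 * t)⁻¹ * (t * ε) = ε / 2 := by field_simp
    rw [← h2]
    exact mul_lt_mul_of_pos_left h1 (by positivity)
  calc ∫ z in K, ‖a n z - a m z‖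
      ≤ ∫ z in K, (t / 2 + (2 * t)⁻¹ * ‖a n z - a m z‖ ^ 2) :=
        setIntegral_mono i1 (iKc.add (i2.const_mul _)) hpt
    _ = t / 2 * V + (2 * t)⁻¹ * ∫ z in K, ‖a n z - a m z‖ ^ 2 := by rw [e1, e2, e3]
    _ < ε := by linarith

/-- Local existence of the holomorphic `L¹_loc`-limit. -/
lemma exists_local_limit {Ω : Set ℂ} (hΩ : IsOpen Ω) (a : ℕ → ℂ → ℂ)
    (ha : ∀ n, ContinuousOn (a n) Ω)
    (hC1 : ∀ K ⊆ Ω, IsCompact K → ∀ ε > 0, ∃ M, ∀ n ≥ M, ∀ m ≥ M,
      ∫ z in K, ‖a n z - a m z‖ < ε)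
    (hW : WeakDbar Ω a) {z₀ : ℂ} (hz₀ : z₀ ∈ Ω) :
    ∃ ρ > 0, ball z₀ ρ ⊆ Ω ∧ ∃ h : ℂ → ℂ, DifferentiableOn ℂ h (ball z₀ ρ) ∧
      ∀ K ⊆ ball z₀ ρ, IsCompact K →
        Tendsto (fun n => ∫ z in K, ‖a n z - h z‖) atTop (𝓝 0) := by
  obtain ⟨R, hR, hRΩ⟩ := Metric.nhds_basis_closedBall.mem_iff.1 (hΩ.mem_nhds hz₀)
  let χ : ContDiffBump z₀ := ⟨R / 2, R, by positivity, by linarith⟩
  have hχR : χ.rOut = R := rfl
  have hχr : χ.rIn = R / 2 := rfl
  set f : ℕ → ℂ → ℂ := fun n z => χ z • a n z with hf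
  have hsubΩ : ball z₀ (R / 2) ⊆ Ω :=
    (ball_subset_closedBall.trans (closedBall_subset_closedBall (by linarith))).trans hRΩ
  have hfc : ∀ n, Continuous (f n) := by
    intro n
    refine ContinuousOn.continuous_of_tsupport_subset (s := Ω)
      (χ.continuous.continuousOn.smul (ha n)) hΩ ?_
    refine (tsupport_smul_subset_left _ _).trans ?_
    rw [χ.tsupport_eq, hχR]
    exact hRΩ
  have hfs : ∀ n, HasCompactSupport (f n) := fun n => χ.hasCompactSupport.smul_right
  have hL1 : ∀ ε > 0, ∃ N, ∀ n ≥ N, ∀ m ≥ N, ∫ z, ‖f n z - f m z‖ < ε := by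
    intro ε hε
    obtain ⟨M, hM⟩ := hC1 (closedBall z₀ R) hRΩ (isCompact_closedBall _ _) ε hε
    refine ⟨M, fun n hn m hm => lt_of_le_of_lt ?_ (hM n hn m hm)⟩
    have i1 : IntegrableOn (fun z => ‖a n z - a m z‖) (closedBall z₀ R) :=
      (((ha n).sub (ha m)).norm.mono hRΩ).integrableOn_compact (isCompact_closedBall _ _)
    rw [← integral_indicator measurableSet_closedBall]
    refine integral_mono_of_nonneg (Eventually.of_forall fun _ => norm_nonneg _)
      (i1.integrable_indicator measurableSet_closedBall) (Eventually.of_forall fun z => ?_)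
    simp only [hf]
    rw [← smul_sub, norm_smul, Real.norm_of_nonneg χ.nonneg]
    by_cases hz : z ∈ closedBall z₀ R
    · rw [indicator_of_mem hz]
      calc χ z * ‖a n z - a m z‖ ≤ 1 * ‖a n z - a m z‖ :=
            mul_le_mul_of_nonneg_right χ.le_one (norm_nonneg _)
        _ = ‖a n z - a m z‖ := one_mul _
    · rw [indicator_of_notMem hz]
      have : χ z = 0 := by
        apply χ.zero_of_le_dist
        rw [mem_closedBall, not_le] at hz
        rw [hχR]
        exact hz.le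
      rw [this, zero_mul]
  have hWf : WeakDbar (ball z₀ (R / 2)) f := by
    intro ψ hψ hψs hψU
    refine (hW ψ hψ hψs (hψU.trans hsubΩ)).congr' (Eventually.of_forall fun n => ?_)
    refine integral_congr_ae (Eventually.of_forall fun z => ?_)
    by_cases hz : z ∈ tsupport ψ
    · have : χ z = 1 := by
        apply χ.one_of_mem_closedBall
        rw [hχr]
        exact ball_subset_closedBall (hψU hz)
      simp only [hf, this, one_smul]
    · simp [fderiv_of_notMem_tsupport ℝ hz]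
  obtain ⟨h, hd, hl⟩ := core f hfc hfs hL1 isOpen_ball hWf
  refine ⟨R / 2, by positivity, hsubΩ, h, hd, fun K hKU hK => ?_⟩
  refine (hl K hKU hK).congr' (Eventually.of_forall fun n => ?_)
  refine setIntegral_congr_fun hK.measurableSet fun z hz => ?_
  have : χ z = 1 := by
    apply χ.one_of_mem_closedBall
    rw [hχr]
    exact ball_subset_closedBall (hKU hz)
  simp only [hf, this, one_smul]

/-- Uniqueness of continuous `L¹_loc`-limits. -/
lemma eqOn_of_L1_limits {V : Set ℂ} (hV : IsOpen V) (a : ℕ → ℂ → ℂ)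
    (ha : ∀ n, ContinuousOn (a n) V) {h₁ h₂ : ℂ → ℂ} (hc₁ : ContinuousOn h₁ V)
    (hc₂ : ContinuousOn h₂ V)
    (l₁ : ∀ K ⊆ V, IsCompact K → Tendsto (fun n => ∫ z in K, ‖a n z - h₁ z‖) atTop (𝓝 0))
    (l₂ : ∀ K ⊆ V, IsCompact K → Tendsto (fun n => ∫ z in K, ‖a n z - h₂ z‖) atTop (𝓝 0)) :
    EqOn h₁ h₂ V := by
  intro z hz
  obtain ⟨r, hr, hrV⟩ := Metric.nhds_basis_closedBall.mem_iff.1 (hV.mem_nhds hz)
  set K := closedBall z r with hKdef
  have hK : IsCompact K := isCompact_closedBall _ _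
  have hcK₁ : ContinuousOn h₁ K := hc₁.mono hrV
  have hcK₂ : ContinuousOn h₂ K := hc₂.mono hrV
  have h0 : ∫ w in K, ‖h₁ w - h₂ w‖ = 0 := by
    refine le_antisymm ?_ (integral_nonneg fun _ => norm_nonneg _)
    have hlim := (l₁ K hrV hK).add (l₂ K hrV hK)
    rw [add_zero] at hlim
    refine ge_of_tendsto' hlim fun n => ?_
    exact setIntegral_norm_sub_le_add' hK hcK₁ ((ha n).mono hrV) hcK₂
  have hi : IntegrableOn (fun w => ‖h₁ w - h₂ w‖) K := (hcK₁.sub hcK₂).norm.integrableOn_compact hK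
  have hae := (setIntegral_eq_zero_iff_of_nonneg_ae
    (Eventually.of_forall fun _ => norm_nonneg _) hi).1 h0
  have hsub : K ⊆ closure (interior K) := by
    rw [hKdef, interior_closedBall z hr.ne', closure_ball z hr.ne']
  have := Measure.eqOn_of_ae_eq hae (hcK₁.sub hcK₂).norm continuousOn_const hsub
    (mem_closedBall_self hr.le)
  simpa [sub_eq_zero] using this

/-- **Sequence form of Weyl's lemma, `L¹_loc` version.** -/
theorem exists_holomorphic_L1_limit {Ω : Set ℂ} (hΩ : IsOpen Ω) (a : ℕ → ℂ → ℂ)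
    (ha : ∀ n, ContinuousOn (a n) Ω)
    (hC1 : ∀ K ⊆ Ω, IsCompact K → ∀ ε > 0, ∃ M, ∀ n ≥ M, ∀ m ≥ M,
      ∫ z in K, ‖a n z - a m z‖ < ε)
    (hW : WeakDbar Ω a) :
    ∃ h : ℂ → ℂ, DifferentiableOn ℂ h Ω ∧
      ∀ K ⊆ Ω, IsCompact K → Tendsto (fun n => ∫ z in K, ‖a n z - h z‖) atTop (𝓝 0) := by
  choose! ρ hρ hρΩ hloc hd hl using
    fun z₀ (hz₀ : z₀ ∈ Ω) => exists_local_limit hΩ a ha hC1 hW hz₀
  set h : ℂ → ℂ := fun z => hloc z z with hh
  have key : ∀ z₀ ∈ Ω, EqOn h (hloc z₀) (ball z₀ (ρ z₀)) := by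
    intro z₀ hz₀ z hz
    have hzΩ : z ∈ Ω := hρΩ z₀ hz₀ hz
    have := eqOn_of_L1_limits (V := ball z₀ (ρ z₀) ∩ ball z (ρ z))
      (isOpen_ball.inter isOpen_ball) a
      (fun n => (ha n).mono (inter_subset_left.trans (hρΩ z₀ hz₀)))
      ((hd z hzΩ).continuousOn.mono inter_subset_right)
      ((hd z₀ hz₀).continuousOn.mono inter_subset_left)
      (fun K hK hKc => hl z hzΩ K (hK.trans inter_subset_right) hKc)
      (fun K hK hKc => hl z₀ hz₀ K (hK.trans inter_subset_left) hKc)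
    exact this ⟨hz, mem_ball_self (hρ z hzΩ)⟩
  have hdiff : DifferentiableOn ℂ h Ω := by
    intro z₀ hz₀
    have h1 : DifferentiableAt ℂ (hloc z₀) z₀ :=
      (hd z₀ hz₀).differentiableAt (ball_mem_nhds _ (hρ z₀ hz₀))
    have h2 : h =ᶠ[𝓝 z₀] hloc z₀ :=
      eventually_of_mem (ball_mem_nhds _ (hρ z₀ hz₀)) (key z₀ hz₀)
    exact (h1.congr_of_eventuallyEq h2).differentiableWithinAt
  refine ⟨h, hdiff, fun K hKΩ hK => ?_⟩
  -- pass through lintegrals to use compactness
  have hP : Tendsto (fun n => ∫⁻ z in K, ‖a n z - h z‖ₑ) atTop (𝓝 0) := by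
    refine hK.induction_on (p := fun s => Tendsto (fun n => ∫⁻ z in s, ‖a n z - h z‖ₑ)
      atTop (𝓝 0)) ?_ ?_ ?_ ?_
    · simp
    · intro s t hst ht
      exact tendsto_of_tendsto_of_tendsto_of_le_of_le tendsto_const_nhds ht
        (fun n => zero_le) (fun n => lintegral_mono_set hst)
    · intro s t hs ht
      have hsum := hs.add ht
      rw [add_zero] at hsum
      exact tendsto_of_tendsto_of_tendsto_of_le_of_le tendsto_const_nhds hsum
        (fun n => zero_le) (fun n => lintegral_union_le _ _ _)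
    · intro x hx
      have hxΩ : x ∈ Ω := hKΩ hx
      have hρx := hρ x hxΩ
      refine ⟨closedBall x (ρ x / 2), mem_nhdsWithin_of_mem_nhds
        (closedBall_mem_nhds _ (by positivity)), ?_⟩
      have hsub : closedBall x (ρ x / 2) ⊆ ball x (ρ x) :=
        closedBall_subset_ball (by linarith)
      have ht := hl x hxΩ (closedBall x (ρ x / 2)) hsub (isCompact_closedBall _ _)
      have ht' := (ENNReal.continuous_ofReal.tendsto 0).comp ht
      rw [ENNReal.ofReal_zero] at ht'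
      refine ht'.congr' (Eventually.of_forall fun n => ?_)
      have hi : IntegrableOn (fun z => a n z - hloc x z) (closedBall x (ρ x / 2)) :=
        (((ha n).mono (hsub.trans (hρΩ x hxΩ))).sub
          ((hd x hxΩ).continuousOn.mono hsub)).integrableOn_compact (isCompact_closedBall _ _)
      simp only [Function.comp_apply]
      rw [ofReal_integral_norm_eq_lintegral_enorm hi]
      refine setLIntegral_congr_fun measurableSet_closedBall fun z hz => ?_
      rw [key x hxΩ (hsub hz)]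
  have hi : ∀ n, IntegrableOn (fun z => a n z - h z) K := fun n =>
    (((ha n).mono hKΩ).sub (hdiff.continuousOn.mono hKΩ)).integrableOn_compact hK
  have ht := (ENNReal.tendsto_toReal ENNReal.zero_ne_top).comp hP
  rw [ENNReal.toReal_zero] at ht
  refine ht.congr' (Eventually.of_forall fun n => ?_)
  simp only [Function.comp_apply]
  rw [integral_norm_eq_lintegral_enorm (hi n).aestronglyMeasurable]

/-- **Sequence form of Weyl's lemma.** Let `Ω ⊆ ℂ` be open and `a n` continuous on `Ω`.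
If `a n` is Cauchy in `L²(K)` for every compact `K ⊆ Ω` and satisfies the `∂̄`-equation
asymptotically in the weak sense, then `a n` converges in `L²(K)`, for every compact
`K ⊆ Ω`, to a function `h` holomorphic on `Ω`. -/
theorem exists_holomorphic_limit {Ω : Set ℂ} (hΩ : IsOpen Ω) (a : ℕ → ℂ → ℂ)
    (ha : ∀ n, ContinuousOn (a n) Ω)
    (hC : ∀ K ⊆ Ω, IsCompact K → ∀ ε > 0, ∃ M, ∀ n ≥ M, ∀ m ≥ M,
      ∫ z in K, ‖a n z - a m z‖ ^ 2 < ε)
    (hW : ∀ ψ : ℂ → ℂ, ContDiff ℝ ∞ ψ → HasCompactSupport ψ → tsupport ψ ⊆ Ω →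
      Tendsto (fun n => ∫ z, a n z * (fderiv ℝ ψ z 1 + I * fderiv ℝ ψ z I)) atTop (𝓝 0)) :
    ∃ h : ℂ → ℂ, DifferentiableOn ℂ h Ω ∧
      (∀ K ⊆ Ω, IsCompact K → Tendsto (fun n => ∫ z in K, ‖a n z - h z‖ ^ 2) atTop (𝓝 0)) ∧
      (∀ K ⊆ Ω, IsCompact K → Tendsto (fun n => ∫ z in K, ‖a n z - h z‖) atTop (𝓝 0)) := by
  have hC1 : ∀ K ⊆ Ω, IsCompact K → ∀ ε > 0, ∃ M, ∀ n ≥ M, ∀ m ≥ M,
      ∫ z in K, ‖a n z - a m z‖ < ε := fun K hKΩ hK =>
    l1_cauchy_of_l2_cauchy hK a (fun n => (ha n).mono hKΩ) (hC K hKΩ hK)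
  obtain ⟨h, hd, hl⟩ := exists_holomorphic_L1_limit hΩ a ha hC1 hW
  refine ⟨h, hd, fun K hKΩ hK => ?_, hl⟩
  have hhc : ContinuousOn h K := hd.continuousOn.mono hKΩ
  have hac : ∀ n, ContinuousOn (a n) K := fun n => (ha n).mono hKΩ
  rw [Metric.tendsto_atTop]
  intro ε hε
  obtain ⟨M, hM⟩ := hC K hKΩ hK (ε / 2) (half_pos hε)
  refine ⟨M, fun n hn => ?_⟩
  have hnn : 0 ≤ ∫ z in K, ‖a n z - h z‖ ^ 2 := integral_nonneg fun _ => by positivity
  rw [Real.dist_eq, sub_zero, abs_of_nonneg hnn]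
  obtain ⟨B₀, hB₀⟩ := hK.exists_bound_of_continuousOn ((hac n).sub hhc)
  set B : ℝ := max B₀ 0 with hBdef
  have hB : ∀ z ∈ K, ‖a n z - h z‖ ≤ B := fun z hz => (hB₀ z hz).trans (le_max_left _ _)
  have hB0 : 0 ≤ B := le_max_right _ _
  set X := ∫ z in K, ‖a n z - h z‖ ^ 2 with hX
  have iX : IntegrableOn (fun z => ‖a n z - h z‖ ^ 2) K :=
    (((hac n).sub hhc).norm.pow 2).integrableOn_compact hK
  -- the key inequality for all `m ≥ M`
  have hkey : ∀ m ≥ M, X ≤ ε / 2 + 2 * B * ∫ z in K, ‖a m z - h z‖ := by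
    intro m hm
    have iY : IntegrableOn (fun z => ‖a n z - a m z‖ ^ 2) K :=
      (((hac n).sub (hac m)).norm.pow 2).integrableOn_compact hK
    have iZ : IntegrableOn (fun z => ‖a m z - h z‖) K :=
      ((hac m).sub hhc).norm.integrableOn_compact hK
    have hpt : ∀ z ∈ K, ‖a n z - h z‖ ^ 2
        ≤ 2⁻¹ * ‖a n z - h z‖ ^ 2 + 2⁻¹ * ‖a n z - a m z‖ ^ 2 + B * ‖a m z - h z‖ := by
      intro z hz
      have hu : ‖a n z - h z‖ ≤ B := hB z hz
      have htri : ‖a n z - h z‖ ≤ ‖a n z - a m z‖ + ‖a m z - h z‖ :=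
        norm_sub_le_norm_sub_add_norm_sub _ _ _
      have hu0 := norm_nonneg (a n z - h z)
      have hv0 := norm_nonneg (a n z - a m z)
      have hw0 := norm_nonneg (a m z - h z)
      nlinarith [sq_nonneg (‖a n z - h z‖ - ‖a n z - a m z‖),
        mul_le_mul_of_nonneg_right hu hw0, mul_le_mul_of_nonneg_left htri hu0]
    have e1 : ∫ z in K, (2⁻¹ * ‖a n z - h z‖ ^ 2 + 2⁻¹ * ‖a n z - a m z‖ ^ 2
        + B * ‖a m z - h z‖)
        = 2⁻¹ * X + 2⁻¹ * (∫ z in K, ‖a n z - a m z‖ ^ 2)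
          + B * ∫ z in K, ‖a m z - h z‖ := by
      have s1 : ∫ z in K, (2⁻¹ * ‖a n z - h z‖ ^ 2 + 2⁻¹ * ‖a n z - a m z‖ ^ 2
          + B * ‖a m z - h z‖)
          = (∫ z in K, (2⁻¹ * ‖a n z - h z‖ ^ 2 + 2⁻¹ * ‖a n z - a m z‖ ^ 2))
            + ∫ z in K, B * ‖a m z - h z‖ :=
        integral_add (f := fun z => 2⁻¹ * ‖a n z - h z‖ ^ 2 + 2⁻¹ * ‖a n z - a m z‖ ^ 2)
          (g := fun z => B * ‖a m z - h z‖) ((iX.const_mul _).add (iY.const_mul _))
          (iZ.const_mul _)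
      have s2 : ∫ z in K, (2⁻¹ * ‖a n z - h z‖ ^ 2 + 2⁻¹ * ‖a n z - a m z‖ ^ 2)
          = (∫ z in K, 2⁻¹ * ‖a n z - h z‖ ^ 2) + ∫ z in K, 2⁻¹ * ‖a n z - a m z‖ ^ 2 :=
        integral_add (f := fun z => 2⁻¹ * ‖a n z - h z‖ ^ 2)
          (g := fun z => 2⁻¹ * ‖a n z - a m z‖ ^ 2) (iX.const_mul _) (iY.const_mul _)
      rw [s1, s2, integral_const_mul, integral_const_mul, integral_const_mul]
    have h1 : X ≤ ∫ z in K, (2⁻¹ * ‖a n z - h z‖ ^ 2 + 2⁻¹ * ‖a n z - a m z‖ ^ 2
        + B * ‖a m z - h z‖) :=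
      setIntegral_mono_on iX (((iX.const_mul _).add (iY.const_mul _)).add (iZ.const_mul _))
        hK.measurableSet hpt
    have h2 := (hM n hn m hm).le
    rw [e1] at h1
    linarith
  have hlim : Tendsto (fun m => ε / 2 + 2 * B * ∫ z in K, ‖a m z - h z‖) atTop
      (𝓝 (ε / 2 + 2 * B * 0)) :=
    tendsto_const_nhds.add ((hl K hKΩ hK).const_mul _)
  have hle : X ≤ ε / 2 + 2 * B * 0 :=
    ge_of_tendsto hlim (eventually_atTop.2 ⟨M, hkey⟩)
  linarith

end Local

end Fermat.Agent.S21.helper2070
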