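import Fermat.Agent.S20.helper260_Sandwich
import Fermat.Agent.S20.helper3006_Basic
import Fermat.Agent.S20.helper3006_Hilbert
import Fermat.Agent.S20.helper387_GoalODE
import Fermat.Agent.S20.helper1774_Ell
import Fermat.Agent.S20.helper1982_GoodLevel
import Fermat.Agent.S20.helper200_GoalSeed
import Fermat.Agent.S20.helper2600_Goals
import Fermat.Agent.S21.helper21_Upper

/-!
# S21 and S20 from the THREE remaining leaves (captain file, helper21)

With the unconditional upper bound `helper21.finrank_cuspForm_le`, both S20 and S21 follow from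
the lower bound `genusFormula N ≤ dim S₂(Γ₀(N))`.  In the `helper560_Spec` / `helper260_Sandwich`
shapes the lower bound needs exactly three leaves that are not yet on main:

* `helper560.Goal_BasisM`      (free basis of `M_*(Γ)` over `ℂ[E₄,E₆]` indexed by the cosets),
* `helper260.Goal_SumWeights`  (`∑ κ j + 6 * cusps = 6 * mu`),
* `helper260.Goal_Lower`       (`finrank M₂ + 1 ≤ finrank S₂ + cusps`).

No `Goal_Upper`, `Goal_BasisS`, `Goal_ODES`, `Goal_Cusp`, `Goal_Dual` is needed.
-/

set_option autoImplicit false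

open UpperHalfPlane ModularForm
open scoped MatrixGroups Manifold Pointwise

namespace Fermat.Agent.S21.helper21

open Fermat.Agent.S20.helper560 Fermat.Agent.S20.helper260

/-- The lower bound `genusFormula N ≤ dim S₂(Γ₀(N))` from the goals of the sandwich route
(lower half only: no `Goal_Upper`). -/
theorem genus_le_of_goals (hBasic : Goal_Basic) (hHilb : Goal_Hilbert) (hRR : Goal_RRdim)
    (hBM : Goal_BasisM) (hOM : Goal_ODEM) (hES : Goal_EllS) (hEST : Goal_EllST)
    (hSW : Goal_SumWeights) (hL : Goal_Lower)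
    (hGL : Goal_GoodLevel) (hSeed : Goal_Seed) (hI : Goal_Index) (hE2 : Goal_E2)
    (hE3 : Goal_E3) (hCu : Goal_Cusps) (N : ℕ) [NeZero N] :
    ModularCurve.genusFormula N
      ≤ (Module.finrank ℂ (CuspForm (CongruenceSubgroup.Gamma0 N) 2) : ℚ) := by
  have hg := hGL N
  obtain ⟨hneg, hodd, hM0, hS0, hSM, hmulM, hmulS, hfin, hS2⟩ := hBasic (G0 N) N hg
  obtain ⟨κ, F, hF, hz⟩ := hBM (G0 N) N hg (hSeed N)
  have hΦ := hOM (G0 N) N hg κ F hF hz
  have hellS := hES (G0 N) N hg κ F hF.1 (hΦ _)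
  have hellST := hEST (G0 N) N hg κ F hF.1 (hΦ _)
  have hHM := fun k => hHilb (MFG (G0 N)) (Q (G0 N)) κ F hF hmulM k
  have hFne : ∀ j, F j ≠ 0 := fun j hj =>
    hΦ UpperHalfPlane.I (fundDet_eq_zero_of_eq_zero (G0 N) κ F _ j hj)
  have h0 : ∀ j, 0 ≤ κ j := by
    intro j
    have hmem := hF.1 j
    by_contra hlt
    rw [hneg _ (not_le.mp hlt)] at hmem
    exact hFne j ((Submodule.mem_bot ℂ).mp hmem)
  have he : ∀ j, κ j % 2 = 0 := by
    intro j
    have hmem := hF.1 j
    by_contra ho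
    have ho' : Odd (κ j) := Int.odd_iff.mpr (by omega)
    rw [hodd _ ho'] at hmem
    exact hFne j ((Submodule.mem_bot ℂ).mp hmem)
  have hcard : (Fintype.card (Q (G0 N)) : ℤ) = (mu (G0 N) : ℤ) := by
    have : Fintype.card (Q (G0 N)) = mu (G0 N) := Nat.card_eq_fintype_card.symm
    exact_mod_cast this
  -- exactly one generator of weight zero
  have hzero : ∑ j, (if κ j = 0 then (1 : ℤ) else 0) = 1 := by
    have h1 : ((Module.finrank ℂ (MFG (G0 N) 0) : ℕ) : ℤ) = 1 := by rw [hM0]; rfl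
    rw [hHM 0] at h1
    push_cast at h1
    refine Eq.trans (Finset.sum_congr rfl fun j _ => ?_) h1
    rw [finrank_RR_eq_dA hRR, dA_neg_of_nonneg _ (h0 j)]
  -- the elliptic counts
  have ha := count_of_ellS κ h0 he (e2 (G0 N)) hellS
  obtain ⟨hb1, hb2⟩ := count_of_ellST κ h0 he (e3 (G0 N)) hellST
  -- the sum of the weights
  have hc := hSW (G0 N) N hg κ F hF hΦ
  obtain ⟨-, hslack⟩ := sandwich_arith κ h0 he (mu (G0 N)) (e2 (G0 N)) (e3 (G0 N))
    (cusps (G0 N)) hcard hzero ha hb1 hb2 hc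
  -- lower bound
  have hlo : ∑ j, (if κ j = 2 then (1 : ℤ) else 0) + 1 ≤
      (Module.finrank ℂ (CFG (G0 N) 2) : ℤ) + (cusps (G0 N) : ℤ) := by
    have h1 := hL (G0 N) N hg
    unfold Stmt_Lower at h1
    rw [hHM 2] at h1
    have h2 : ((∑ j, Module.finrank ℂ (RR (2 - κ j)) + 1 : ℕ) : ℤ) ≤
        ((Module.finrank ℂ (CFG (G0 N) 2) + cusps (G0 N) : ℕ) : ℤ) := by exact_mod_cast h1
    push_cast at h2
    rw [Finset.sum_congr rfl fun j _ => finrank_RR_eq_dA hRR (2 - κ j)] at h2
    rw [Finset.sum_congr rfl fun j _ => dA_two_sub_of_even (κ j) (h0 j) (he j)] at h2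
    exact h2
  have hfin' : 12 + (mu (G0 N) : ℤ) - 3 * (e2 (G0 N) : ℤ) - 4 * (e3 (G0 N) : ℤ)
        - 6 * (cusps (G0 N) : ℤ) ≤ 12 * (Module.finrank ℂ (CFG (G0 N) 2) : ℤ) := by
    linarith
  rw [hS2, hI N, hE2 N, hE3 N, hCu N] at hfin'
  have hQ : 12 + (ModularCurve.dedekindPsi N : ℚ) - 3 * (ModularCurve.nuTwo N : ℚ)
        - 4 * (ModularCurve.nuThree N : ℚ) - 6 * (ModularCurve.cuspCount N : ℚ)
      ≤ 12 * (Module.finrank ℂ (CuspForm (G0 N) 2) : ℚ) := by
    exact_mod_cast hfin'
  show ModularCurve.genusFormula N ≤ (Module.finrank ℂ (CuspForm (G0 N) 2) : ℚ)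
  unfold ModularCurve.genusFormula
  linarith

/-- The lower bound from the three leaves that are not yet on main. -/
theorem genus_le_of_three (hBM : Goal_BasisM) (hSW : Goal_SumWeights) (hL : Goal_Lower)
    (N : ℕ) [NeZero N] :
    ModularCurve.genusFormula N
      ≤ (Module.finrank ℂ (CuspForm (CongruenceSubgroup.Gamma0 N) 2) : ℚ) :=
  genus_le_of_goals Fermat.Agent.S20.helper3006.goal_Basic
    Fermat.Agent.S20.helper3006.goal_Hilbert Fermat.Agent.S20.helper3006.goal_RRdim hBM
    Fermat.Agent.S20.helper387.goal_ODEM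
    Fermat.Agent.S20.helper1774.goal_EllS Fermat.Agent.S20.helper1774.goal_EllST hSW hL
    Fermat.Agent.S20.helper1982.goal_GoodLevel Fermat.Agent.S20.helper200.goal_Seed
    Fermat.Agent.S20.helper2600.goal_Index Fermat.Agent.S20.helper2600.goal_E2
    Fermat.Agent.S20.helper2600.goal_E3 Fermat.Agent.S20.helper2600.goal_Cusps N

/-- **The frozen statement S21 (verbatim)** from the three remaining leaves. -/
theorem s21_of_three (hBM : Goal_BasisM) (hSW : Goal_SumWeights) (hL : Goal_Lower)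
    (N : ℕ) [NeZero N] :
    Function.Injective (ModularCurve.periodHomPair N)
      ∧ LinearMap.range (ModularCurve.periodHomPair N)
          = ModularCurve.Period.parabolicHoms ℂ (CongruenceSubgroup.Gamma0 N) ℂ :=
  result_of_genus_le N (genus_le_of_three hBM hSW hL N)

/-- **The frozen statement S20 (verbatim)** from the three remaining leaves. -/
theorem s20_of_three (hBM : Goal_BasisM) (hSW : Goal_SumWeights) (hL : Goal_Lower)
    (N : ℕ) [NeZero N] :
    (Module.finrank ℂ (CuspForm (CongruenceSubgroup.Gamma0 N) 2) : ℚ) =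
      ModularCurve.genusFormula N :=
  finrank_cuspForm_eq_of_genus_le N (genus_le_of_three hBM hSW hL N)

end Fermat.Agent.S21.helper21
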