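/-
helper2214: S21 Route 2, leaf (5) PER, pure-analysis part (Mathlib only).

**Divergence lemma** (`exists_bound_integral_mul`): let `θ : ℂ → ℝ` be continuous, vanish outside
the open rectangle `(x1,x2) × (y1,y2)` and have `∫ θ = 0`.  Then there is a constant `C` such that
for every open `U ⊇ [x1,x2] × [y1,y2]` and every `E : ℂ → ℝ` which is `C¹` on `U`,
  `|∫ E θ| ≤ C * ∫_{[x1,x2]×[y1,y2]} ‖∇E‖`.
Proof: `θ = ∂ₓA + ∂_yB` with `A, B` continuous and supported in the closed rectangle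
(`A = ∫_{x1}^x (θ - ω m)`, `B = ω(x) ∫_{y1}^y m`, `m(y) = ∫ θ(t,y) dt`, `∫ ω = 1`), then Mathlib's
integration by parts for line derivatives.  This replaces the `L¹` Poincaré inequality in the
period-continuity argument.
-/
import Mathlib

set_option autoImplicit false

namespace Fermat.Agent.S21.helper2214

open MeasureTheory Filter Topology Set
open scoped ENNReal

noncomputable section

/-- Product of a function continuous on an open set `U` with a continuous function whose
topological support lies in `U`. -/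
theorem continuous_mul_of_tsupport_subset {U : Set ℂ} (hU : IsOpen U) {g A : ℂ → ℝ}
    (hg : ContinuousOn g U) (hA : Continuous A) (hsupp : tsupport A ⊆ U) :
    Continuous (fun z => g z * A z) := by
  rw [continuous_iff_continuousAt]
  intro z
  by_cases hz : z ∈ U
  · exact (hg.continuousAt (hU.mem_nhds hz)).mul hA.continuousAt
  · have hz' : z ∉ tsupport A := fun h => hz (hsupp h)
    have h0 : A =ᶠ[𝓝 z] 0 := (notMem_tsupport_iff_eventuallyEq).mp hz'
    have h1 : (fun z => g z * A z) =ᶠ[𝓝 z] fun _ => 0 := by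
      filter_upwards [h0] with w hw
      simp [hw]
    exact (continuousAt_const.congr h1.symm)

section Div

variable (θ : ℂ → ℝ) (x1 x2 y1 y2 : ℝ)

/-- The row integral `m(y) = ∫_{x1}^{x2} θ(t + iy) dt`. -/
def rowInt (y : ℝ) : ℝ := ∫ t in x1..x2, θ ((t : ℂ) + (y : ℂ) * Complex.I)

/-- An unnormalised continuous weight supported in `[x1, x2]`. -/
def wgt (t : ℝ) : ℝ := max 0 ((t - x1) * (x2 - t))

/-- The normalised weight `ω` (integral one over `[x1, x2]`). -/
def wgtN (t : ℝ) : ℝ := wgt x1 x2 t / ∫ s in x1..x2, wgt x1 x2 s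

/-- The `x`-primitive `A`. -/
def primA (z : ℂ) : ℝ :=
  ∫ t in x1..z.re, (θ ((t : ℂ) + (z.im : ℂ) * Complex.I) - wgtN x1 x2 t * rowInt θ x1 x2 z.im)

/-- The `y`-primitive `B`. -/
def primB (z : ℂ) : ℝ := wgtN x1 x2 z.re * ∫ s in y1..z.im, rowInt θ x1 x2 s

theorem continuous_wgt : Continuous (wgt x1 x2) := by
  unfold wgt; fun_prop

theorem wgt_nonneg (t : ℝ) : 0 ≤ wgt x1 x2 t := le_max_left _ _

theorem wgt_eq_zero (hx : x1 ≤ x2) {t : ℝ} (ht : t ≤ x1 ∨ x2 ≤ t) : wgt x1 x2 t = 0 := by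
  unfold wgt
  apply max_eq_left
  rcases ht with h | h
  · exact mul_nonpos_of_nonpos_of_nonneg (by linarith) (by linarith)
  · exact mul_nonpos_of_nonneg_of_nonpos (by linarith) (by linarith)

theorem wgt_pos {t : ℝ} (ht : t ∈ Ioo x1 x2) : 0 < wgt x1 x2 t := by
  unfold wgt
  exact lt_max_of_lt_right (mul_pos (by linarith [ht.1]) (by linarith [ht.2]))

theorem integral_wgt_pos (hx : x1 < x2) : 0 < ∫ s in x1..x2, wgt x1 x2 s :=
  intervalIntegral.intervalIntegral_pos_of_pos_on
    ((continuous_wgt x1 x2).intervalIntegrable _ _) (fun _ ht => wgt_pos x1 x2 ht) hx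

theorem continuous_wgtN : Continuous (wgtN x1 x2) := by
  unfold wgtN
  exact (continuous_wgt x1 x2).div_const _

theorem wgtN_eq_zero (hx : x1 ≤ x2) {t : ℝ} (ht : t ≤ x1 ∨ x2 ≤ t) : wgtN x1 x2 t = 0 := by
  unfold wgtN
  rw [wgt_eq_zero x1 x2 hx ht, zero_div]

theorem integral_wgtN (hx : x1 < x2) : ∫ t in x1..x2, wgtN x1 x2 t = 1 := by
  unfold wgtN
  rw [intervalIntegral.integral_div]
  exact div_self (integral_wgt_pos x1 x2 hx).ne'

variable {θ x1 x2 y1 y2}

theorem continuous_rowInt (hθ : Continuous θ) : Continuous (rowInt θ x1 x2) := by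
  unfold rowInt
  apply intervalIntegral.continuous_parametric_intervalIntegral_of_continuous'
  fun_prop


theorem rowInt_eq_zero
    (hsupp : ∀ z : ℂ, θ z ≠ 0 → (x1 < z.re ∧ z.re < x2) ∧ (y1 < z.im ∧ z.im < y2))
    {y : ℝ} (hy : y ≤ y1 ∨ y2 ≤ y) : rowInt θ x1 x2 y = 0 := by
  unfold rowInt
  have h0 : ∀ t : ℝ, θ ((t : ℂ) + (y : ℂ) * Complex.I) = 0 := by
    intro t
    by_contra h
    have h2 := (hsupp _ h).2
    simp at h2
    rcases hy with h1 | h1 <;> linarith [h2.1, h2.2]
  simp [h0]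

theorem integral_rowInt (hθ : Continuous θ) (hx : x1 ≤ x2) (hy : y1 ≤ y2)
    (hsupp : ∀ z : ℂ, θ z ≠ 0 → (x1 < z.re ∧ z.re < x2) ∧ (y1 < z.im ∧ z.im < y2)) :
    ∫ y in y1..y2, rowInt θ x1 x2 y = ∫ z, θ z := by
  have h1 : ∫ z, θ z = ∫ p : ℝ × ℝ, θ ((p.1 : ℂ) + (p.2 : ℂ) * Complex.I) := by
    have h := Complex.volume_preserving_equiv_real_prod.integral_comp'
      (fun p : ℝ × ℝ => θ ((p.1 : ℂ) + (p.2 : ℂ) * Complex.I))
    rw [← h]
    congr 1
    funext z
    simp [Complex.measurableEquivRealProd, Complex.re_add_im]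
  have hcont : Continuous (fun p : ℝ × ℝ => θ ((p.1 : ℂ) + (p.2 : ℂ) * Complex.I)) := by
    fun_prop
  have hcs : HasCompactSupport (fun p : ℝ × ℝ => θ ((p.1 : ℂ) + (p.2 : ℂ) * Complex.I)) := by
    refine HasCompactSupport.intro (K := Icc x1 x2 ×ˢ Icc y1 y2)
      (isCompact_Icc.prod isCompact_Icc) (fun p hp => ?_)
    by_contra h
    have h2 := hsupp _ h
    simp at h2
    exact hp ⟨⟨h2.1.1.le, h2.1.2.le⟩, ⟨h2.2.1.le, h2.2.2.le⟩⟩
  have hint : Integrable (fun p : ℝ × ℝ => θ ((p.1 : ℂ) + (p.2 : ℂ) * Complex.I))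
      ((volume : Measure ℝ).prod (volume : Measure ℝ)) :=
    hcont.integrable_of_hasCompactSupport hcs
  rw [h1, Measure.volume_eq_prod, integral_prod_symm _ hint]
  have h2 : ∀ y : ℝ, ∫ x : ℝ, θ ((x : ℂ) + (y : ℂ) * Complex.I) = rowInt θ x1 x2 y := by
    intro y
    unfold rowInt
    rw [intervalIntegral.integral_of_le hx]
    symm
    apply setIntegral_eq_integral_of_forall_compl_eq_zero
    intro x hx'
    by_contra h
    have h3 := (hsupp _ h).1
    simp at h3
    exact hx' ⟨h3.1, h3.2.le⟩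
  simp_rw [h2]
  rw [intervalIntegral.integral_of_le hy]
  apply setIntegral_eq_integral_of_forall_compl_eq_zero
  intro y hy'
  apply rowInt_eq_zero hsupp
  by_contra h
  push Not at h
  exact hy' ⟨h.1, h.2.le⟩

theorem continuous_primA (hθ : Continuous θ) : Continuous (primA θ x1 x2) := by
  unfold primA
  have h1 := continuous_rowInt (x1 := x1) (x2 := x2) hθ
  have h2 := continuous_wgtN x1 x2
  apply intervalIntegral.continuous_parametric_intervalIntegral_of_continuous
  · fun_prop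
  · exact Complex.continuous_re

theorem continuous_primB (hθ : Continuous θ) : Continuous (primB θ x1 x2 y1) := by
  unfold primB
  have h1 := continuous_rowInt (x1 := x1) (x2 := x2) hθ
  have h2 := continuous_wgtN x1 x2
  have h3 : Continuous fun z : ℂ => ∫ s in y1..z.im, rowInt θ x1 x2 s := by
    apply intervalIntegral.continuous_parametric_intervalIntegral_of_continuous
    · fun_prop
    · exact Complex.continuous_im
  exact (h2.comp Complex.continuous_re).mul h3

theorem primA_eq_zero (hθ : Continuous θ) (hx : x1 < x2)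
    (hsupp : ∀ z : ℂ, θ z ≠ 0 → (x1 < z.re ∧ z.re < x2) ∧ (y1 < z.im ∧ z.im < y2))
    {z : ℂ} (hz : z.re ≤ x1 ∨ x2 ≤ z.re ∨ z.im ≤ y1 ∨ y2 ≤ z.im) :
    primA θ x1 x2 z = 0 := by
  unfold primA
  set k : ℝ → ℝ := fun t =>
    θ ((t : ℂ) + (z.im : ℂ) * Complex.I) - wgtN x1 x2 t * rowInt θ x1 x2 z.im with hk
  have hkc : Continuous k := by
    have h2 := continuous_wgtN x1 x2
    fun_prop
  have hθ0 : ∀ t : ℝ, (t ≤ x1 ∨ x2 ≤ t) → θ ((t : ℂ) + (z.im : ℂ) * Complex.I) = 0 := by
    intro t ht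
    by_contra h
    have h3 := (hsupp _ h).1
    simp at h3
    rcases ht with h' | h' <;> linarith [h3.1, h3.2]
  have hk0 : ∀ t : ℝ, (t ≤ x1 ∨ x2 ≤ t) → k t = 0 := by
    intro t ht
    simp [hk, hθ0 t ht, wgtN_eq_zero x1 x2 hx.le ht]
  have hfull : ∫ t in x1..x2, k t = 0 := by
    have e1 : ∫ t in x1..x2, k t
        = (∫ t in x1..x2, θ ((t : ℂ) + (z.im : ℂ) * Complex.I))
          - ∫ t in x1..x2, wgtN x1 x2 t * rowInt θ x1 x2 z.im := by
      apply intervalIntegral.integral_sub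
      · exact Continuous.intervalIntegrable (by fun_prop) _ _
      · exact Continuous.intervalIntegrable
          ((continuous_wgtN x1 x2).mul continuous_const) _ _
    rw [e1, intervalIntegral.integral_mul_const, integral_wgtN x1 x2 hx, one_mul]
    unfold rowInt
    exact sub_self _
  rcases hz with h | h | h | h
  · -- z.re ≤ x1
    have : ∀ t ∈ uIcc x1 z.re, k t = (fun _ => (0 : ℝ)) t := by
      intro t ht
      rw [uIcc_of_ge h] at ht
      exact hk0 t (Or.inl ht.2)
    rw [intervalIntegral.integral_congr this]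
    simp
  · -- x2 ≤ z.re
    have hsplit : ∫ t in x1..z.re, k t = (∫ t in x1..x2, k t) + ∫ t in x2..z.re, k t :=
      (intervalIntegral.integral_add_adjacent_intervals
        (hkc.intervalIntegrable _ _) (hkc.intervalIntegrable _ _)).symm
    have : ∀ t ∈ uIcc x2 z.re, k t = (fun _ => (0 : ℝ)) t := by
      intro t ht
      rw [uIcc_of_le h] at ht
      exact hk0 t (Or.inr ht.1)
    rw [hsplit, hfull, intervalIntegral.integral_congr this]
    simp
  · -- z.im ≤ y1
    have hm : rowInt θ x1 x2 z.im = 0 := rowInt_eq_zero hsupp (Or.inl h)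
    have : ∀ t ∈ uIcc x1 z.re, k t = (fun _ => (0 : ℝ)) t := by
      intro t _
      have h0 : θ ((t : ℂ) + (z.im : ℂ) * Complex.I) = 0 := by
        by_contra h'
        have h3 := (hsupp _ h').2
        simp at h3
        linarith [h3.1]
      simp [hk, h0, hm]
    rw [intervalIntegral.integral_congr this]
    simp
  · -- y2 ≤ z.im
    have hm : rowInt θ x1 x2 z.im = 0 := rowInt_eq_zero hsupp (Or.inr h)
    have : ∀ t ∈ uIcc x1 z.re, k t = (fun _ => (0 : ℝ)) t := by
      intro t _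
      have h0 : θ ((t : ℂ) + (z.im : ℂ) * Complex.I) = 0 := by
        by_contra h'
        have h3 := (hsupp _ h').2
        simp at h3
        linarith [h3.2]
      simp [hk, h0, hm]
    rw [intervalIntegral.integral_congr this]
    simp

theorem primB_eq_zero (hθ : Continuous θ) (hx : x1 < x2) (hy : y1 < y2)
    (hsupp : ∀ z : ℂ, θ z ≠ 0 → (x1 < z.re ∧ z.re < x2) ∧ (y1 < z.im ∧ z.im < y2))
    (hint : ∫ z, θ z = 0)
    {z : ℂ} (hz : z.re ≤ x1 ∨ x2 ≤ z.re ∨ z.im ≤ y1 ∨ y2 ≤ z.im) :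
    primB θ x1 x2 y1 z = 0 := by
  unfold primB
  have hmc := continuous_rowInt (x1 := x1) (x2 := x2) hθ
  rcases hz with h | h | h | h
  · rw [wgtN_eq_zero x1 x2 hx.le (Or.inl h), zero_mul]
  · rw [wgtN_eq_zero x1 x2 hx.le (Or.inr h), zero_mul]
  · have : ∀ s ∈ uIcc y1 z.im, rowInt θ x1 x2 s = (fun _ => (0 : ℝ)) s := by
      intro s hs
      rw [uIcc_of_ge h] at hs
      exact rowInt_eq_zero hsupp (Or.inl hs.2)
    rw [intervalIntegral.integral_congr this]
    simp
  · have hsplit : ∫ s in y1..z.im, rowInt θ x1 x2 s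
        = (∫ s in y1..y2, rowInt θ x1 x2 s) + ∫ s in y2..z.im, rowInt θ x1 x2 s :=
      (intervalIntegral.integral_add_adjacent_intervals
        (hmc.intervalIntegrable _ _) (hmc.intervalIntegrable _ _)).symm
    have : ∀ s ∈ uIcc y2 z.im, rowInt θ x1 x2 s = (fun _ => (0 : ℝ)) s := by
      intro s hs
      rw [uIcc_of_le h] at hs
      exact rowInt_eq_zero hsupp (Or.inr hs.1)
    rw [hsplit, integral_rowInt hθ hx.le hy.le hsupp, hint,
      intervalIntegral.integral_congr this]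
    simp

theorem hasLineDerivAt_primA (hθ : Continuous θ) (z : ℂ) :
    HasLineDerivAt ℝ (primA θ x1 x2)
      (θ z - wgtN x1 x2 z.re * rowInt θ x1 x2 z.im) z 1 := by
  set k : ℝ → ℝ := fun t =>
    θ ((t : ℂ) + (z.im : ℂ) * Complex.I) - wgtN x1 x2 t * rowInt θ x1 x2 z.im with hk
  have hkc : Continuous k := by
    have h2 := continuous_wgtN x1 x2
    fun_prop
  have h1 : HasDerivAt (fun u => ∫ s in x1..u, k s) (k z.re) (z.re + 0) := by
    rw [add_zero]
    exact intervalIntegral.integral_hasDerivAt_right (hkc.intervalIntegrable _ _)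
      (hkc.stronglyMeasurableAtFilter _ _) hkc.continuousAt
  have h2 := HasDerivAt.comp_const_add z.re 0 h1
  have hkz : k z.re = θ z - wgtN x1 x2 z.re * rowInt θ x1 x2 z.im := by
    simp [hk, Complex.re_add_im]
  rw [hkz] at h2
  unfold HasLineDerivAt
  convert h2 using 1
  funext t
  simp [primA, hk]

theorem hasLineDerivAt_primB (hθ : Continuous θ) (z : ℂ) :
    HasLineDerivAt ℝ (primB θ x1 x2 y1)
      (wgtN x1 x2 z.re * rowInt θ x1 x2 z.im) z Complex.I := by
  have hmc := continuous_rowInt (x1 := x1) (x2 := x2) hθ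
  have h1 : HasDerivAt (fun u => ∫ s in y1..u, rowInt θ x1 x2 s) (rowInt θ x1 x2 z.im)
      (z.im + 0) := by
    rw [add_zero]
    exact intervalIntegral.integral_hasDerivAt_right (hmc.intervalIntegrable _ _)
      (hmc.stronglyMeasurableAtFilter _ _) hmc.continuousAt
  have h2 := (HasDerivAt.comp_const_add z.im 0 h1).const_mul (wgtN x1 x2 z.re)
  have h3 : (fun t : ℝ => primB θ x1 x2 y1 (z + t • Complex.I))
      = fun y => wgtN x1 x2 z.re * ∫ s in y1..z.im + y, rowInt θ x1 x2 s := by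
    funext t
    simp [primB]
  unfold HasLineDerivAt
  rw [h3]
  exact h2


/-- **Divergence lemma.** A continuous function `θ` vanishing outside the open rectangle
`(x1,x2) × (y1,y2)` and of total integral zero pairs with a `C¹` function `E` through the
gradient of `E` only: `|∫ E θ| ≤ C ∫_R ‖∇E‖` with `C` depending on `θ` only. -/
theorem exists_bound_integral_mul (hθ : Continuous θ) (hx : x1 < x2) (hy : y1 < y2)
    (hsupp : ∀ z : ℂ, θ z ≠ 0 → (x1 < z.re ∧ z.re < x2) ∧ (y1 < z.im ∧ z.im < y2))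
    (hint : ∫ z, θ z = 0) :
    ∃ C : ℝ, 0 ≤ C ∧ ∀ (U : Set ℂ) (E : ℂ → ℝ) (E' : ℂ → ℂ →L[ℝ] ℝ), IsOpen U →
      (Complex.reProdIm (Icc x1 x2) (Icc y1 y2)) ⊆ U → (∀ z ∈ U, HasFDerivAt E (E' z) z) →
      ContinuousOn E' U →
      |∫ z, E z * θ z| ≤ C * ∫ z in (Complex.reProdIm (Icc x1 x2) (Icc y1 y2)), ‖E' z‖ := by
  set R : Set ℂ := Complex.reProdIm (Icc x1 x2) (Icc y1 y2) with hR
  have hRc : IsCompact R := isCompact_Icc.reProdIm isCompact_Icc
  set A := primA θ x1 x2 with hA
  set B := primB θ x1 x2 y1 with hB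
  have hAc : Continuous A := continuous_primA hθ
  have hBc : Continuous B := continuous_primB hθ
  have hnotR : ∀ z : ℂ, z ∉ R → z.re ≤ x1 ∨ x2 ≤ z.re ∨ z.im ≤ y1 ∨ y2 ≤ z.im := by
    intro z hz
    by_contra h
    push Not at h
    exact hz (Complex.mem_reProdIm.mpr ⟨⟨h.1.le, h.2.1.le⟩, ⟨h.2.2.1.le, h.2.2.2.le⟩⟩)
  have hA0 : ∀ z, z ∉ R → A z = 0 := fun z hz => primA_eq_zero hθ hx hsupp (hnotR z hz)
  have hB0 : ∀ z, z ∉ R → B z = 0 :=
    fun z hz => primB_eq_zero hθ hx hy hsupp hint (hnotR z hz)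
  have hAcs : HasCompactSupport A := HasCompactSupport.intro hRc hA0
  have hBcs : HasCompactSupport B := HasCompactSupport.intro hRc hB0
  have hts : ∀ h : ℂ → ℝ, (∀ z, z ∉ R → h z = 0) → tsupport h ⊆ R := by
    intro h h0
    refine closure_minimal (fun z hz => ?_) hRc.isClosed
    by_contra h'
    exact hz (h0 z h')
  obtain ⟨CA, hCA⟩ := hAc.bounded_above_of_compact_support hAcs
  obtain ⟨CB, hCB⟩ := hBc.bounded_above_of_compact_support hBcs
  have hCA0 : 0 ≤ CA := (norm_nonneg _).trans (hCA 0)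
  have hCB0 : 0 ≤ CB := (norm_nonneg _).trans (hCB 0)
  refine ⟨CA + CB, add_nonneg hCA0 hCB0, ?_⟩
  intro U E E' hU hRU hE hE'
  set kA : ℂ → ℝ := fun z => θ z - wgtN x1 x2 z.re * rowInt θ x1 x2 z.im with hkA
  set kB : ℂ → ℝ := fun z => wgtN x1 x2 z.re * rowInt θ x1 x2 z.im with hkB
  have hkBc : Continuous kB := ((continuous_wgtN x1 x2).comp Complex.continuous_re).mul
    ((continuous_rowInt hθ).comp Complex.continuous_im)
  have hkAc : Continuous kA := hθ.sub hkBc
  have hkB0 : ∀ z, z ∉ R → kB z = 0 := by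
    intro z hz
    rcases hnotR z hz with h | h | h | h
    · simp [hkB, wgtN_eq_zero x1 x2 hx.le (Or.inl h)]
    · simp [hkB, wgtN_eq_zero x1 x2 hx.le (Or.inr h)]
    · simp [hkB, rowInt_eq_zero hsupp (Or.inl h)]
    · simp [hkB, rowInt_eq_zero hsupp (Or.inr h)]
  have hθ0 : ∀ z, z ∉ R → θ z = 0 := by
    intro z hz
    by_contra h
    have h2 := hsupp z h
    exact hz (Complex.mem_reProdIm.mpr ⟨⟨h2.1.1.le, h2.1.2.le⟩, ⟨h2.2.1.le, h2.2.2.le⟩⟩)
  have hkA0 : ∀ z, z ∉ R → kA z = 0 := by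
    intro z hz
    have h1 := hkB0 z hz
    simp only [hkB] at h1
    simp [hkA, hθ0 z hz, h1]
  have hEc : ContinuousOn E U := fun z hz => (hE z hz).continuousAt.continuousWithinAt
  have hInt : ∀ (g h : ℂ → ℝ), ContinuousOn g U → Continuous h → (∀ z, z ∉ R → h z = 0) →
      Integrable (fun z => g z * h z) := by
    intro g h hg hh h0
    have hcs : HasCompactSupport h := HasCompactSupport.intro hRc h0
    exact (continuous_mul_of_tsupport_subset hU hg hh ((hts h h0).trans hRU)).integrable_of_hasCompactSupport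
      hcs.mul_left
  have hE1c : ContinuousOn (fun z => E' z 1) U := hE'.clm_apply continuousOn_const
  have hEIc : ContinuousOn (fun z => E' z Complex.I) U := hE'.clm_apply continuousOn_const
  have ibp1 : ∫ z, E z * kA z = - ∫ z, E' z 1 * A z := by
    have h := integral_bilinear_hasLineDerivAt_right_eq_neg_left_of_integrable
      (μ := (volume : Measure ℂ)) (f := E) (f' := fun z => E' z 1) (g := A) (g' := kA)
      (v := (1 : ℂ)) (B := ContinuousLinearMap.mul ℝ ℝ)
      (by simpa using hInt _ _ hE1c hAc hA0) (by simpa using hInt _ _ hEc hkAc hkA0)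
      (by simpa using hInt _ _ hEc hAc hA0)
      (fun z hz => (hE z (hRU (hts A hA0 hz))).hasLineDerivAt 1)
      (fun z _ => hasLineDerivAt_primA hθ z)
    simpa using h
  have ibp2 : ∫ z, E z * kB z = - ∫ z, E' z Complex.I * B z := by
    have h := integral_bilinear_hasLineDerivAt_right_eq_neg_left_of_integrable
      (μ := (volume : Measure ℂ)) (f := E) (f' := fun z => E' z Complex.I) (g := B) (g' := kB)
      (v := Complex.I) (B := ContinuousLinearMap.mul ℝ ℝ)
      (by simpa using hInt _ _ hEIc hBc hB0) (by simpa using hInt _ _ hEc hkBc hkB0)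
      (by simpa using hInt _ _ hEc hBc hB0)
      (fun z hz => (hE z (hRU (hts B hB0 hz))).hasLineDerivAt Complex.I)
      (fun z _ => hasLineDerivAt_primB hθ z)
    simpa using h
  have hsum : ∫ z, E z * θ z = (∫ z, E z * kA z) + ∫ z, E z * kB z := by
    rw [← integral_add (hInt _ _ hEc hkAc hkA0) (hInt _ _ hEc hkBc hkB0)]
    congr 1
    funext z
    simp only [hkA, hkB]
    ring
  have hIntR : IntegrableOn (fun z => ‖E' z‖) R :=
    ((hE'.norm).mono hRU).integrableOn_compact hRc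
  have hbound : ∀ (v : ℂ) (D : ℂ → ℝ) (CD : ℝ), ‖v‖ = 1 → Continuous D →
      (∀ z, z ∉ R → D z = 0) → (∀ z, ‖D z‖ ≤ CD) →
      |∫ z, E' z v * D z| ≤ CD * ∫ z in R, ‖E' z‖ := by
    intro v D CD hv hDc hD0 hCD
    have e : ∫ z, E' z v * D z = ∫ z in R, E' z v * D z :=
      (setIntegral_eq_integral_of_forall_compl_eq_zero (fun z hz => by simp [hD0 z hz])).symm
    rw [e, ← integral_const_mul]
    calc |∫ z in R, E' z v * D z| = ‖∫ z in R, E' z v * D z‖ := (Real.norm_eq_abs _).symm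
      _ ≤ ∫ z in R, ‖E' z v * D z‖ := norm_integral_le_integral_norm _
      _ ≤ ∫ z in R, CD * ‖E' z‖ := by
          refine setIntegral_mono_on ?_ (hIntR.const_mul CD) hRc.measurableSet (fun z _ => ?_)
          · exact (hInt _ _ (hE'.clm_apply continuousOn_const) hDc hD0).norm.integrableOn
          · rw [norm_mul, mul_comm]
            have h1 : ‖E' z v‖ ≤ ‖E' z‖ := by
              have := (E' z).le_opNorm v
              rwa [hv, mul_one] at this
            exact mul_le_mul (hCD z) h1 (norm_nonneg _) ((norm_nonneg _).trans (hCD z))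
  have b1 := hbound 1 A CA (by simp) hAc hA0 hCA
  have b2 := hbound Complex.I B CB (by simp) hBc hB0 hCB
  rw [hsum, ibp1, ibp2, add_mul]
  calc |-(∫ z, E' z 1 * A z) + -(∫ z, E' z Complex.I * B z)|
      ≤ |-(∫ z, E' z 1 * A z)| + |-(∫ z, E' z Complex.I * B z)| := abs_add_le _ _
    _ = |∫ z, E' z 1 * A z| + |∫ z, E' z Complex.I * B z| := by rw [abs_neg, abs_neg]
    _ ≤ _ := add_le_add b1 b2

end Div

end

end Fermat.Agent.S21.helper2214
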