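/-
helper2214: S21 Route 2 (Hodge / Weyl projection), leaf (5) PER, in the exact shape of the
on-main Spec `helper801_HodgeSpec`:

  `theorem stmtPER (N : ℕ) : helper801.StmtPER N`

(period continuity: if the complex gradients of potentials `u_n` for `φ` converge in `L²_loc`
to a cusp form `f` with primitive `F`, then `Re (F (γ • i) - F i) = φ γ`).

Proof (no Poincaré inequality).  `e_n := u_n - Re F` satisfies `e_n (γ z) - e_n z = c` with the
constant `c = φ γ - Re (period)`.  Pair with a bump `η` around `i` and use the invariance of the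
hyperbolic measure of `ℍ` (Mathlib): `c ∫ η dμ = ∫_ℂ e_n θ`, `θ = (η∘γ⁻¹ - η)/y²`, `∫_ℂ θ = 0`
(`pairing_identity`).  By the divergence lemma (`helper2214_Divergence`),
`|∫ e_n θ| ≤ C ∫_R ‖∇e_n‖ ≤ C ∫_R |gradC u_n - f| → 0` (`L²` ⇒ `L¹` on the compact rectangle `R`).
Hence `c = 0`.
-/
import Fermat.Agent.S21.helper801_HodgeSpec
import Fermat.Agent.S21.helper2214_Divergence

set_option autoImplicit false

namespace Fermat.Agent.S21.helper2214

open ModularCurve ModularCurve.Period CongruenceSubgroup UpperHalfPlane MeasureTheory Filter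
  Topology Set
open Fermat.Agent.S21.helper921 Fermat.Agent.S21.helper801
open scoped MatrixGroups ENNReal

noncomputable section

/-- Integrals over `ℍ` for the invariant measure as Lebesgue integrals over `ℂ`. -/
theorem integral_uhp (h : ℍ → ℝ) :
    ∫ z : ℍ, h z = ∫ w : ℂ, if 0 < w.im then h (ofComplex w) / w.im ^ 2 else 0 := by
  set K : ℂ → ℝ := fun w => if 0 < w.im then h (ofComplex w) / w.im ^ 2 else 0 with hK
  have hmeas : Measurable (fun z : ℍ => ((1 / NNReal.mk z.im z.im_pos.le : NNReal) ^ 2)) := by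
    refine Continuous.measurable ?_
    refine .pow (.div₀ continuous_const ?_ ?_) _
    · exact continuous_im.subtype_mk _
    · exact fun x ↦ NNReal.ne_iff.mp x.im_ne_zero
  rw [volume_def, integral_withDensity_eq_integral_smul hmeas]
  have h1 : (fun z : ℍ => ((1 / NNReal.mk z.im z.im_pos.le : NNReal) ^ 2) • h z)
      = fun z : ℍ => K (z : ℂ) := by
    funext z
    have hz : 0 < (z : ℂ).im := z.im_pos
    simp only [hK, hz, if_true, ofComplex_apply]
    rw [NNReal.smul_def]
    simp
    field_simp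
  rw [h1, ← measurableEmbedding_coe.integral_map, measurableEmbedding_coe.map_comap, range_coe]
  apply setIntegral_eq_integral_of_forall_compl_eq_zero
  intro w hw
  have hw' : ¬ 0 < w.im := hw
  simp only [hK]
  rw [if_neg hw']

/-- A function which agrees on the upper half-plane with a function continuous there, and
which vanishes outside a compact subset of the upper half-plane, is continuous on `ℂ`. -/
theorem continuous_of_cutoff {S : Set ℂ} (hS : IsCompact S) (hSU : S ⊆ upperHalfPlaneSet)
    {f g : ℂ → ℝ} (hg : ContinuousOn g upperHalfPlaneSet)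
    (hfg : ∀ w ∈ upperHalfPlaneSet, f w = g w) (hf0 : ∀ w, w ∉ S → f w = 0) : Continuous f := by
  rw [continuous_iff_continuousAt]
  intro w
  by_cases hw : w ∈ upperHalfPlaneSet
  · have h1 : f =ᶠ[𝓝 w] g := by
      filter_upwards [isOpen_upperHalfPlaneSet.mem_nhds hw] with v hv using hfg v hv
    exact (hg.continuousAt (isOpen_upperHalfPlaneSet.mem_nhds hw)).congr h1.symm
  · have hwS : w ∈ Sᶜ := fun h => hw (hSU h)
    have h1 : f =ᶠ[𝓝 w] fun _ => 0 := by
      filter_upwards [hS.isClosed.isOpen_compl.mem_nhds hwS] with v hv using hf0 v hv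
    exact continuousAt_const.congr h1.symm

/-- A compact subset of the upper half-plane lies in an open rectangle whose closure is in the
upper half-plane. -/
theorem exists_rectangle {S : Set ℂ} (hS : IsCompact S) (hSU : S ⊆ upperHalfPlaneSet) :
    ∃ x1 x2 y1 y2 : ℝ, x1 < x2 ∧ 0 < y1 ∧ y1 < y2 ∧
      ∀ w ∈ S, (x1 < w.re ∧ w.re < x2) ∧ (y1 < w.im ∧ w.im < y2) := by
  rcases S.eq_empty_or_nonempty with rfl | hne
  · exact ⟨-1, 1, 1, 2, by norm_num, by norm_num, by norm_num, by simp⟩
  obtain ⟨M, hM0, hM⟩ := hS.isBounded.exists_pos_norm_le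
  obtain ⟨w0, hw0, hmin⟩ := hS.exists_isMinOn hne Complex.continuous_im.continuousOn
  have hδ : 0 < w0.im := hSU hw0
  refine ⟨-M - 1, M + 1, w0.im / 2, M + 1 + w0.im, by linarith, by linarith, by linarith, ?_⟩
  intro w hw
  have h1 : |w.re| ≤ M := (Complex.abs_re_le_norm w).trans (hM w hw)
  have h2 : |w.im| ≤ M := (Complex.abs_im_le_norm w).trans (hM w hw)
  have h3 : w0.im ≤ w.im := hmin hw
  rw [abs_le] at h1 h2
  exact ⟨⟨by linarith, by linarith⟩, ⟨by linarith, by linarith⟩⟩

/-- `L²` convergence to zero on a compact set implies `L¹` convergence to zero. -/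
theorem tendsto_integral_norm_of_tendsto_lintegral_sq {R : Set ℂ} (hR : IsCompact R)
    (b : ℕ → ℂ → ℂ) (hb : ∀ n, ContinuousOn (b n) R)
    (h : Tendsto (fun n => ∫⁻ z in R, ‖b n z‖ₑ ^ 2) atTop (𝓝 0)) :
    Tendsto (fun n => ∫ z in R, ‖b n z‖) atTop (𝓝 0) := by
  have hI : ∀ n, IntegrableOn (fun z => ‖b n z‖) R := fun n => (hb n).norm.integrableOn_compact hR
  have hI2 : ∀ n, IntegrableOn (fun z => ‖b n z‖ ^ 2) R :=
    fun n => ((hb n).norm.pow 2).integrableOn_compact hR
  have hsq : ∀ n, ∫ z in R, ‖b n z‖ ^ 2 = (∫⁻ z in R, ‖b n z‖ₑ ^ 2).toReal := by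
    intro n
    rw [integral_eq_lintegral_of_nonneg_ae (Eventually.of_forall fun z => by positivity)
      (hI2 n).aestronglyMeasurable]
    congr 2
    funext z
    rw [ENNReal.ofReal_pow (norm_nonneg _), ofReal_norm]
  have hsq0 : Tendsto (fun n => ∫ z in R, ‖b n z‖ ^ 2) atTop (𝓝 0) := by
    simp_rw [hsq]
    have := (ENNReal.tendsto_toReal ENNReal.zero_ne_top).comp h
    simpa [Function.comp_def] using this
  set V : ℝ := (volume : Measure ℂ).real R with hV
  have hV0 : 0 ≤ V := measureReal_nonneg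
  rw [Metric.tendsto_atTop]
  intro ε hε
  set δ : ℝ := ε / (V + 1) with hδ
  have hδ0 : 0 < δ := div_pos hε (by linarith)
  have hδV : δ * V < ε := by
    rw [hδ, div_mul_eq_mul_div, div_lt_iff₀ (by linarith)]
    nlinarith
  have hev : ∀ᶠ n in atTop, ∫ z in R, ‖b n z‖ ^ 2 < ε * δ := by
    have := (Metric.tendsto_atTop.mp hsq0) (ε * δ) (mul_pos hε hδ0)
    obtain ⟨n0, hn0⟩ := this
    filter_upwards [eventually_ge_atTop n0] with n hn
    have h1 := hn0 n hn
    rw [Real.dist_eq, sub_zero] at h1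
    exact (le_abs_self _).trans_lt h1
  obtain ⟨n0, hn0⟩ := eventually_atTop.mp hev
  refine ⟨n0, fun n hn => ?_⟩
  have hnn : 0 ≤ ∫ z in R, ‖b n z‖ := integral_nonneg fun z => norm_nonneg _
  rw [Real.dist_eq, sub_zero, abs_of_nonneg hnn]
  have hconst : IntegrableOn (fun _ : ℂ => δ / 2) R := integrableOn_const (hR.measure_lt_top.ne)
  have hle : ∫ z in R, ‖b n z‖ ≤ ∫ z in R, (δ / 2 + ‖b n z‖ ^ 2 / (2 * δ)) := by
    refine setIntegral_mono_on (hI n) ?_ hR.measurableSet (fun z _ => ?_)
    · exact hconst.add ((hI2 n).div_const _)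
    · rw [← sub_nonneg]
      have : δ / 2 + ‖b n z‖ ^ 2 / (2 * δ) - ‖b n z‖ = (‖b n z‖ - δ) ^ 2 / (2 * δ) := by
        field_simp
        ring
      rw [this]
      positivity
  have hcalc : ∫ z in R, (δ / 2 + ‖b n z‖ ^ 2 / (2 * δ))
      = δ / 2 * V + (∫ z in R, ‖b n z‖ ^ 2) / (2 * δ) := by
    rw [integral_add hconst ((hI2 n).div_const _), setIntegral_const, integral_div]
    simp [hV, mul_comm]
  have h3 := hn0 n hn
  have h4 : (∫ z in R, ‖b n z‖ ^ 2) / (2 * δ) < ε / 2 := by
    rw [div_lt_iff₀ (by positivity)]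
    nlinarith
  calc ∫ z in R, ‖b n z‖ ≤ δ / 2 * V + (∫ z in R, ‖b n z‖ ^ 2) / (2 * δ) := hle.trans_eq hcalc
    _ < ε := by nlinarith


theorem coe_ofComplex_of_im_pos {w : ℂ} (hw : 0 < w.im) : ((ofComplex w : ℍ) : ℂ) = w := by
  rw [ofComplex_apply_of_im_pos hw]

theorem continuousOn_ofComplex : ContinuousOn (fun w : ℂ => ofComplex w) upperHalfPlaneSet :=
  fun _ hw => (mdifferentiableAt_ofComplex hw).continuousAt.continuousWithinAt

theorem isCompact_preimage_coe {K : Set ℂ} (hK : IsCompact K) (hKU : K ⊆ upperHalfPlaneSet) :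
    IsCompact (UpperHalfPlane.coe ⁻¹' K) := by
  have h : K ⊆ Set.range UpperHalfPlane.coe := by rw [range_coe]; exact hKU
  exact (isEmbedding_coe.isInducing.isCompact_preimage_iff h).mpr hK

/-- The function `θ = (η∘G⁻¹ - η) / y²` on `ℂ` (zero outside the upper half-plane). -/
def thetaFun (G : GL (Fin 2) ℝ) (η0 : ℂ → ℝ) (w : ℂ) : ℝ :=
  if 0 < w.im then (η0 ↑(G⁻¹ • ofComplex w) - η0 w) / w.im ^ 2 else 0

/-- A compact subset of the upper half-plane outside of which `thetaFun` vanishes. -/
def suppSet (G : GL (Fin 2) ℝ) (η0 : ℂ → ℝ) : Set ℂ :=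
  tsupport η0 ∪
    UpperHalfPlane.coe '' ((fun z : ℍ => G • z) '' (UpperHalfPlane.coe ⁻¹' tsupport η0))

theorem isCompact_suppSet (G : GL (Fin 2) ℝ) {η0 : ℂ → ℝ} (hηcs : HasCompactSupport η0)
    (hηU : tsupport η0 ⊆ upperHalfPlaneSet) : IsCompact (suppSet G η0) :=
  IsCompact.union hηcs
    (((isCompact_preimage_coe hηcs hηU).image (continuous_const_smul G)).image continuous_coe)

theorem suppSet_subset (G : GL (Fin 2) ℝ) {η0 : ℂ → ℝ} (hηU : tsupport η0 ⊆ upperHalfPlaneSet) :
    suppSet G η0 ⊆ upperHalfPlaneSet := by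
  rintro w (hw | ⟨z, -, rfl⟩)
  · exact hηU hw
  · exact z.im_pos

theorem thetaFun_eq_zero (G : GL (Fin 2) ℝ) (η0 : ℂ → ℝ) {w : ℂ} (hw : w ∉ suppSet G η0) :
    thetaFun G η0 w = 0 := by
  unfold thetaFun
  split_ifs with him
  · have h1 : η0 w = 0 := image_eq_zero_of_notMem_tsupport (fun h => hw (Or.inl h))
    have h2 : η0 ↑(G⁻¹ • ofComplex w) = 0 := by
      by_contra h
      apply hw
      right
      exact ⟨ofComplex w, ⟨G⁻¹ • ofComplex w, subset_tsupport _ h, smul_inv_smul G _⟩,
        coe_ofComplex_of_im_pos him⟩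
    rw [h1, h2]
    simp
  · rfl

theorem continuous_thetaFun (G : GL (Fin 2) ℝ) {η0 : ℂ → ℝ} (hη : Continuous η0)
    (hηcs : HasCompactSupport η0) (hηU : tsupport η0 ⊆ upperHalfPlaneSet) :
    Continuous (thetaFun G η0) := by
  refine continuous_of_cutoff (isCompact_suppSet G hηcs hηU) (suppSet_subset G hηU)
    (g := fun w => (η0 ↑(G⁻¹ • ofComplex w) - η0 w) / w.im ^ 2) ?_
    (fun w hw => by simp [thetaFun, show 0 < w.im from hw])
    (fun w hw => thetaFun_eq_zero G η0 hw)
  have h1 : ContinuousOn (fun w : ℂ => η0 ↑(G⁻¹ • ofComplex w)) upperHalfPlaneSet :=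
    (hη.comp (continuous_coe.comp (continuous_const_smul G⁻¹))).comp_continuousOn
      continuousOn_ofComplex
  exact ContinuousOn.div (h1.sub hη.continuousOn) (Complex.continuous_im.pow 2).continuousOn
    (fun w hw => pow_ne_zero 2 (ne_of_gt hw))

/-- The pairing identity: if `e (G • z) - e z = c` is constant, then pairing with a test
function `η` on `ℍ` and using the invariance of the hyperbolic measure gives
`c ∫ η dμ = ∫_ℂ e θ` with `θ = (η∘G⁻¹ - η)/y²`, and `∫_ℂ θ = 0`. -/
theorem pairing_identity (G : GL (Fin 2) ℝ) (e : ℍ → ℝ) (he : Continuous e) (c : ℝ)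
    (hec : ∀ z : ℍ, e (G • z) - e z = c) {η0 : ℂ → ℝ} (hη : Continuous η0)
    (hηcs : HasCompactSupport η0) (hηU : tsupport η0 ⊆ upperHalfPlaneSet) :
    c * (∫ w : ℂ, if 0 < w.im then η0 w / w.im ^ 2 else 0)
        = ∫ w : ℂ, e (ofComplex w) * thetaFun G η0 w
      ∧ ∫ w : ℂ, thetaFun G η0 w = 0 := by
  set η : ℍ → ℝ := fun z => η0 (z : ℂ) with hηdef
  set η2 : ℍ → ℝ := fun z => η (G⁻¹ • z) with hη2def
  have hηc : Continuous η := hη.comp continuous_coe
  have hη2c : Continuous η2 := hηc.comp (continuous_const_smul G⁻¹)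
  have hK := isCompact_preimage_coe hηcs hηU
  have hcs1 : HasCompactSupport η :=
    HasCompactSupport.intro hK (fun z hz => image_eq_zero_of_notMem_tsupport (f := η0) hz)
  have hcs2 : HasCompactSupport η2 := by
    refine HasCompactSupport.intro (hK.image (continuous_const_smul G)) (fun z hz => ?_)
    by_contra h
    exact hz ⟨G⁻¹ • z, subset_tsupport _ h, smul_inv_smul G z⟩
  have i0 : Integrable η := hηc.integrable_of_hasCompactSupport hcs1
  have i0' : Integrable η2 := hη2c.integrable_of_hasCompactSupport hcs2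
  have i1 : Integrable (fun z : ℍ => e (G • z) * η z) :=
    ((he.comp (continuous_const_smul G)).mul hηc).integrable_of_hasCompactSupport hcs1.mul_left
  have i2 : Integrable (fun z : ℍ => e z * η z) :=
    (he.mul hηc).integrable_of_hasCompactSupport hcs1.mul_left
  have i3 : Integrable (fun z : ℍ => e z * η2 z) :=
    (he.mul hη2c).integrable_of_hasCompactSupport hcs2.mul_left
  have A1 : ∫ z : ℍ, e (G • z) * η z = ∫ z : ℍ, e z * η2 z := by
    have h := integral_smul_eq_self (μ := (volume : Measure ℍ)) (fun z : ℍ => e z * η2 z) (g := G)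
    rw [← h]
    congr 1
    funext z
    simp only [hη2def, inv_smul_smul]
  have A2 : c * ∫ z : ℍ, η z = ∫ z : ℍ, e z * (η2 z - η z) := by
    have h1 : ∫ z : ℍ, e z * (η2 z - η z) = (∫ z : ℍ, e z * η2 z) - ∫ z : ℍ, e z * η z := by
      rw [← integral_sub i3 i2]
      congr 1
      funext z
      ring
    rw [h1, ← A1, ← integral_sub i1 i2, ← integral_const_mul]
    congr 1
    funext z
    rw [← hec z]
    ring
  have A3 : ∫ z : ℍ, (η2 z - η z) = 0 := by
    rw [integral_sub i0' i0]
    have h := integral_smul_eq_self (μ := (volume : Measure ℍ)) η (g := G⁻¹)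
    rw [show (∫ z : ℍ, η2 z) = ∫ z : ℍ, η (G⁻¹ • z) from rfl, h, sub_self]
  constructor
  · have B1 : (∫ w : ℂ, if 0 < w.im then η0 w / w.im ^ 2 else 0) = ∫ z : ℍ, η z := by
      rw [integral_uhp]
      congr 1
      funext w
      split_ifs with hw
      · simp only [hηdef]
        rw [coe_ofComplex_of_im_pos hw]
      · rfl
    rw [B1, A2, integral_uhp]
    congr 1
    funext w
    unfold thetaFun
    split_ifs with hw
    · simp only [hηdef, hη2def]
      rw [coe_ofComplex_of_im_pos hw]
      ring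
    · simp
  · rw [← A3, integral_uhp]
    congr 1
    funext w
    unfold thetaFun
    split_ifs with hw
    · simp only [hηdef, hη2def]
      rw [coe_ofComplex_of_im_pos hw]
    · rfl

/-- A concrete continuous bump around `i`. -/
def bump (w : ℂ) : ℝ := max 0 (1 / 2 - ‖w - Complex.I‖)

theorem continuous_bump : Continuous bump := by
  unfold bump
  fun_prop

theorem bump_eq_zero {w : ℂ} (hw : w ∉ Metric.closedBall Complex.I (1 / 2)) : bump w = 0 := by
  unfold bump
  apply max_eq_left
  rw [Metric.mem_closedBall, dist_eq_norm] at hw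
  push Not at hw
  linarith

theorem hasCompactSupport_bump : HasCompactSupport bump :=
  HasCompactSupport.intro (isCompact_closedBall _ _) (fun _ hw => bump_eq_zero hw)

theorem tsupport_bump_subset : tsupport bump ⊆ Metric.closedBall Complex.I (1 / 2) :=
  closure_minimal (fun w hw => by
    by_contra h
    exact hw (bump_eq_zero h)) Metric.isClosed_closedBall

theorem closedBall_subset_uhp : Metric.closedBall Complex.I (1 / 2 : ℝ) ⊆ upperHalfPlaneSet := by
  intro w hw
  rw [Metric.mem_closedBall, dist_eq_norm] at hw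
  have h1 : |(w - Complex.I).im| ≤ ‖w - Complex.I‖ := Complex.abs_im_le_norm _
  simp only [Complex.sub_im, Complex.I_im] at h1
  rw [abs_le] at h1
  show 0 < w.im
  linarith

theorem tsupport_bump_subset_uhp : tsupport bump ⊆ upperHalfPlaneSet :=
  tsupport_bump_subset.trans closedBall_subset_uhp

theorem integral_bump_pos : 0 < ∫ w : ℂ, if 0 < w.im then bump w / w.im ^ 2 else 0 := by
  have hc : Continuous (fun w : ℂ => if 0 < w.im then bump w / w.im ^ 2 else 0) :=
    continuous_of_cutoff (isCompact_closedBall Complex.I (1 / 2)) closedBall_subset_uhp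
      (g := fun w => bump w / w.im ^ 2)
      (continuous_bump.continuousOn.div (Complex.continuous_im.pow 2).continuousOn
        (fun w hw => pow_ne_zero 2 (ne_of_gt hw)))
      (fun w hw => by simp [show 0 < w.im from hw]) (fun w hw => by simp [bump_eq_zero hw])
  refine hc.integral_pos_of_hasCompactSupport_nonneg_nonzero
    (HasCompactSupport.intro (isCompact_closedBall Complex.I (1 / 2))
      (fun w hw => by simp [bump_eq_zero hw])) (fun w => ?_) (x := Complex.I) ?_
  · show 0 ≤ if 0 < w.im then bump w / w.im ^ 2 else 0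
    split_ifs
    · exact div_nonneg (le_max_left _ _) (by positivity)
    · exact le_refl _
  · simp [bump]

/-- The derivative of `(u - Re F) ∘ ofComplex` as a real-linear functional. -/
def gradDiff (u : ℍ → ℝ) (f : ℍ → ℂ) (w : ℂ) : ℂ →L[ℝ] ℝ :=
  fderiv ℝ (u ∘ ofComplex) w
    - ((f (ofComplex w)).re • Complex.reCLM - (f (ofComplex w)).im • Complex.imCLM)

theorem norm_gradDiff_le (u : ℍ → ℝ) (f : ℍ → ℂ) (w : ℂ) :
    ‖gradDiff u f w‖ ≤ ‖gradC u w - f (ofComplex w)‖ := by
  refine ContinuousLinearMap.opNorm_le_bound _ (norm_nonneg _) (fun v => ?_)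
  have key : gradDiff u f w v = ((gradC u w - f (ofComplex w)) * v).re := by
    have hL := clm_wirtinger (fderiv ℝ (u ∘ ofComplex) w) v
    have h1 : (fderiv ℝ (u ∘ ofComplex) w) v = (v * gradC u w).re := by
      have h2 := congrArg Complex.re hL
      simpa [gradC] using h2
    simp only [gradDiff, sub_apply, smul_apply,
      Complex.reCLM_apply, Complex.imCLM_apply, smul_eq_mul]
    rw [h1]
    simp only [Complex.mul_re, Complex.sub_re, Complex.sub_im]
    ring
  rw [key]
  calc ‖((gradC u w - f (ofComplex w)) * v).re‖ ≤ ‖(gradC u w - f (ofComplex w)) * v‖ := by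
        rw [Real.norm_eq_abs]
        exact Complex.abs_re_le_norm _
    _ = ‖gradC u w - f (ofComplex w)‖ * ‖v‖ := norm_mul _ _


variable {N : ℕ} {φ : Additive (Gamma0 N) →+ ℝ} {u : ℍ → ℝ}

theorem continuous_of_isPot (hu : IsPot N φ u) : Continuous u := by
  rw [continuous_iff_continuousAt]
  intro z
  have h1 : ContinuousAt (u ∘ ofComplex) (z : ℂ) :=
    hu.contDiffOn.continuousOn.continuousAt (isOpen_upperHalfPlaneSet.mem_nhds z.im_pos)
  have h2 : ContinuousAt ((u ∘ ofComplex) ∘ UpperHalfPlane.coe) z :=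
    ContinuousAt.comp (g := u ∘ ofComplex) h1 continuous_coe.continuousAt
  have h3 : (u ∘ ofComplex) ∘ UpperHalfPlane.coe = u := by
    funext w
    simp
  rwa [h3] at h2

theorem continuous_of_primitive {f : CuspForm (Gamma0 N) 2} {F : ℍ → ℂ}
    (hF : HasEquivariantPrimitive N f F) : Continuous F := by
  rw [continuous_iff_continuousAt]
  intro z
  have h1 : ContinuousAt (F ∘ ofComplex) (z : ℂ) := (hF.1 z).continuousAt
  have h2 : ContinuousAt ((F ∘ ofComplex) ∘ UpperHalfPlane.coe) z :=
    ContinuousAt.comp (g := F ∘ ofComplex) h1 continuous_coe.continuousAt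
  have h3 : (F ∘ ofComplex) ∘ UpperHalfPlane.coe = F := by
    funext w
    simp
  rwa [h3] at h2

theorem hasFDerivAt_diff (hu : IsPot N φ u) {f : CuspForm (Gamma0 N) 2} {F : ℍ → ℂ}
    (hF : HasEquivariantPrimitive N f F) {w : ℂ} (hw : w ∈ upperHalfPlaneSet) :
    HasFDerivAt (fun v : ℂ => u (ofComplex v) - (F (ofComplex v)).re) (gradDiff u f w) w := by
  have h1 : HasFDerivAt (u ∘ ofComplex) (fderiv ℝ (u ∘ ofComplex) w) w :=
    ((hu.contDiffOn.differentiableOn one_ne_zero).differentiableAt
      (isOpen_upperHalfPlaneSet.mem_nhds hw)).hasFDerivAt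
  have h2 : HasDerivAt (F ∘ ofComplex) (f (ofComplex w)) w := by
    have h := hF.1 ⟨w, hw⟩
    rw [ofComplex_apply_of_im_pos hw]
    exact h
  have hEq : Complex.reCLM ∘L (ContinuousLinearMap.restrictScalars ℝ
        (ContinuousLinearMap.toSpanSingleton ℂ (f (ofComplex w))))
      = (f (ofComplex w)).re • Complex.reCLM - (f (ofComplex w)).im • Complex.imCLM := by
    ext v
    simp [Complex.mul_re]
    ring
  have h3 : HasFDerivAt (fun v : ℂ => (F (ofComplex v)).re)
      ((f (ofComplex w)).re • Complex.reCLM - (f (ofComplex w)).im • Complex.imCLM) w := by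
    have h4 := (Complex.reCLM.hasFDerivAt (x := (F ∘ ofComplex) w)).comp w
      (h2.hasFDerivAt.restrictScalars ℝ)
    rw [← hEq]
    exact h4
  exact h1.sub h3

theorem continuousOn_gradDiff (hu : IsPot N φ u) (f : CuspForm (Gamma0 N) 2) :
    ContinuousOn (gradDiff u f) upperHalfPlaneSet := by
  have h1 : ContinuousOn (fderiv ℝ (u ∘ ofComplex)) upperHalfPlaneSet :=
    hu.contDiffOn.continuousOn_fderiv_of_isOpen isOpen_upperHalfPlaneSet le_rfl
  have hf : ContinuousOn (fun w : ℂ => f (ofComplex w)) upperHalfPlaneSet :=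
    (CuspFormClass.holo f).continuous.comp_continuousOn continuousOn_ofComplex
  unfold gradDiff
  exact h1.sub (((Complex.continuous_re.comp_continuousOn hf).smul continuousOn_const).sub
    ((Complex.continuous_im.comp_continuousOn hf).smul continuousOn_const))

/-- **(PER)**, leaf 5 of Route 2 for S21, in the exact shape of `helper801.StmtPER`. -/
theorem stmtPER (N : ℕ) : StmtPER N := by
  intro φ u f F hu hF htend γ
  set g : SL(2, ℤ) := (γ : SL(2, ℤ)) with hg
  set G : GL (Fin 2) ℝ := Matrix.SpecialLinearGroup.mapGL ℝ g with hG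
  have hGsmul : ∀ z : ℍ, G • z = g • z := fun z => rfl
  set c : ℝ := φ (Additive.ofMul γ) - (F (g • UpperHalfPlane.I) - F UpperHalfPlane.I).re with hc
  suffices hc0 : c = 0 by
    rw [hc] at hc0
    linarith
  obtain ⟨c', hc'⟩ := hF.2.2.1 γ
  have hFper : ∀ z : ℍ, F (g • z) - F z = F (g • UpperHalfPlane.I) - F UpperHalfPlane.I :=
    fun z => by rw [hc' z, hc' UpperHalfPlane.I]
  have hec : ∀ (n : ℕ) (z : ℍ), (u n (G • z) - (F (G • z)).re) - (u n z - (F z).re) = c := by
    intro n z
    rw [hGsmul, (hu n).map_smul γ z]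
    have h1 := congrArg Complex.re (hFper z)
    simp only [Complex.sub_re] at h1
    simp only [hc, Complex.sub_re]
    linarith
  have hFc : Continuous F := continuous_of_primitive hF
  have hecont : ∀ n, Continuous (fun z : ℍ => u n z - (F z).re) :=
    fun n => (continuous_of_isPot (hu n)).sub (Complex.continuous_re.comp hFc)
  have hpair := fun n => pairing_identity G (fun z : ℍ => u n z - (F z).re) (hecont n) c (hec n)
    continuous_bump hasCompactSupport_bump tsupport_bump_subset_uhp
  have hθc : Continuous (thetaFun G bump) :=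
    continuous_thetaFun G continuous_bump hasCompactSupport_bump tsupport_bump_subset_uhp
  have hS := isCompact_suppSet G hasCompactSupport_bump tsupport_bump_subset_uhp
  obtain ⟨x1, x2, y1, y2, hx, hy1, hy, hrect⟩ :=
    exists_rectangle hS (suppSet_subset G tsupport_bump_subset_uhp)
  have hsupp : ∀ z : ℂ, thetaFun G bump z ≠ 0 →
      (x1 < z.re ∧ z.re < x2) ∧ (y1 < z.im ∧ z.im < y2) := by
    intro z hz
    apply hrect
    by_contra h
    exact hz (thetaFun_eq_zero G bump h)
  obtain ⟨C, hC0, hC⟩ := exists_bound_integral_mul hθc hx hy hsupp (hpair 0).2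
  set R : Set ℂ := Complex.reProdIm (Icc x1 x2) (Icc y1 y2) with hR
  have hRc : IsCompact R := isCompact_Icc.reProdIm isCompact_Icc
  have hRU : R ⊆ upperHalfPlaneSet := by
    intro w hw
    have h1 := (Complex.mem_reProdIm.mp hw).2.1
    exact lt_of_lt_of_le hy1 h1
  have hfc : ContinuousOn (fun w : ℂ => f (ofComplex w)) upperHalfPlaneSet :=
    (CuspFormClass.holo f).continuous.comp_continuousOn continuousOn_ofComplex
  have hbcont : ∀ n, ContinuousOn (fun z => gradC (u n) z - f (ofComplex z)) upperHalfPlaneSet :=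
    fun n => (hu n).continuousOn_gradC.sub hfc
  set κ : ℝ := ∫ w : ℂ, if 0 < w.im then bump w / w.im ^ 2 else 0 with hκ
  have hbound : ∀ n, |c * κ| ≤ C * ∫ z in R, ‖gradC (u n) z - f (ofComplex z)‖ := by
    intro n
    rw [(hpair n).1]
    refine (hC upperHalfPlaneSet _ (gradDiff (u n) f) isOpen_upperHalfPlaneSet hRU
      (fun w hw => hasFDerivAt_diff (hu n) hF hw) (continuousOn_gradDiff (hu n) f)).trans ?_
    refine mul_le_mul_of_nonneg_left ?_ hC0
    refine setIntegral_mono_on ?_ ?_ hRc.measurableSet (fun w _ => norm_gradDiff_le _ _ _)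
    · exact (((continuousOn_gradDiff (hu n) f).norm).mono hRU).integrableOn_compact hRc
    · exact (((hbcont n).norm).mono hRU).integrableOn_compact hRc
  have hlim : Tendsto (fun n => ∫ z in R, ‖gradC (u n) z - f (ofComplex z)‖) atTop (𝓝 0) :=
    tendsto_integral_norm_of_tendsto_lintegral_sq hRc
      (fun n z => gradC (u n) z - f (ofComplex z)) (fun n => (hbcont n).mono hRU)
      (htend R hRc hRU)
  have hlim' : Tendsto (fun n => C * ∫ z in R, ‖gradC (u n) z - f (ofComplex z)‖) atTop (𝓝 0) := by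
    simpa using hlim.const_mul C
  have h0 : |c * κ| ≤ 0 := ge_of_tendsto' hlim' hbound
  have hκpos : 0 < κ := integral_bump_pos
  have h1 : c * κ = 0 := abs_nonpos_iff.mp h0
  exact (mul_eq_zero.mp h1).resolve_right hκpos.ne'

end

end Fermat.Agent.S21.helper2214
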