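import Mathlib

set_option autoImplicit false

/-!
# S21-D1 arithmetic core (helper230)

Let `k : J → ℤ` be the (even, nonnegative) weights of a free homogeneous basis of
`M_*(Γ)` over `M_*(SL₂(ℤ))`, `|J| = μ`.  The elliptic-point eigenvalue counts give
`#{j | 4 ∣ k j} = o₂` (number of `S`-orbits on the cosets), `#{j | 6 ∣ k j} = o₃`
(number of `ST`-orbits), `#{j | k j ≡ 2 mod 6} = #{j | k j ≡ 4 mod 6}`, and the cusp
computation gives `∑ k j ≤ 6 (μ - c)` (`c` = number of `T`-orbits).

Then `μ + c ≤ 2 * #{j | k j = 2} + o₂ + o₃`, *without* knowing `k j ≤ 10` and without knowing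
`#{j | k j = 0} = 1`.  Hence no duality step is needed for the lower bound
`μ + 2 ≤ 2 * dim S₂(Γ) + o₂ + o₃ + c` (which is the bound `2 g ≤ 2 dim S₂`).
-/

namespace Fermat.Agent.S21.helper230

/-- Pointwise inequality behind the count (in terms of `m = k / 2`). -/
theorem pointwise_nat (m : ℕ) :
    5 + 2 * (if m % 3 = 1 then 1 else 0)
      ≤ 6 * (if m = 1 then 1 else 0) + 3 * (if m % 2 = 0 then 1 else 0)
        + 2 * (if m % 3 = 0 then 1 else 0) + m := by
  split_ifs <;> omega

/-- The counting inequality for half-weights `m : J → ℕ`. -/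
theorem half_weight_count {J : Type*} [Fintype J] (m : J → ℕ) (μ o₂ o₃ c : ℕ)
    (hcard : Fintype.card J = μ)
    (h2 : (Finset.univ.filter fun j => m j % 2 = 0).card = o₂)
    (h3 : (Finset.univ.filter fun j => m j % 3 = 0).card = o₃)
    (h12 : (Finset.univ.filter fun j => m j % 3 = 1).card
      = (Finset.univ.filter fun j => m j % 3 = 2).card)
    (hK : ∑ j, m j + 3 * c ≤ 3 * μ) :
    μ + c ≤ 2 * (Finset.univ.filter fun j => m j = 1).card + o₂ + o₃ := by
  classical
  have hsum := Finset.sum_le_sum (s := (Finset.univ : Finset J))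
    (fun j _ => pointwise_nat (m j))
  simp only [Finset.sum_add_distrib, ← Finset.mul_sum, Finset.sum_boole, Finset.sum_const,
    Finset.card_univ, smul_eq_mul, Nat.cast_id] at hsum
  rw [hcard, h2, h3] at hsum
  -- the three residue classes mod 3 partition `J`
  have hpart : (Finset.univ.filter fun j => m j % 3 = 0).card
      + (Finset.univ.filter fun j => m j % 3 = 1).card
      + (Finset.univ.filter fun j => m j % 3 = 2).card = μ := by
    have hpt : ∀ j : J, (if m j % 3 = 0 then 1 else 0) + (if m j % 3 = 1 then 1 else 0)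
        + (if m j % 3 = 2 then 1 else 0) = (1 : ℕ) := by
      intro j
      split_ifs <;> omega
    have hs := Finset.sum_congr (s₁ := (Finset.univ : Finset J)) rfl (fun j _ => hpt j)
    simp only [Finset.sum_add_distrib, Finset.sum_boole, Finset.sum_const,
      Finset.card_univ, smul_eq_mul, Nat.cast_id, mul_one] at hs
    rw [hs, hcard]
  rw [h3] at hpart
  omega

/-- The counting inequality for weights `k : J → ℤ` (even, nonnegative). -/
theorem weight_count {J : Type*} [Fintype J] (k : J → ℤ) (μ o₂ o₃ c : ℕ)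
    (hk0 : ∀ j, 0 ≤ k j) (hkev : ∀ j, Even (k j))
    (hcard : Fintype.card J = μ)
    (h2 : (Finset.univ.filter fun j => (4 : ℤ) ∣ k j).card = o₂)
    (h3 : (Finset.univ.filter fun j => (6 : ℤ) ∣ k j).card = o₃)
    (h12 : (Finset.univ.filter fun j => k j % 6 = 2).card
      = (Finset.univ.filter fun j => k j % 6 = 4).card)
    (hK : ∑ j, k j + 6 * (c : ℤ) ≤ 6 * (μ : ℤ)) :
    μ + c ≤ 2 * (Finset.univ.filter fun j => k j = 2).card + o₂ + o₃ := by
  classical
  -- half weights
  have hm : ∀ j, ∃ m : ℕ, k j = 2 * (m : ℤ) := by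
    intro j
    obtain ⟨r, hr⟩ := hkev j
    have hr0 : 0 ≤ r := by have := hk0 j; omega
    exact ⟨r.toNat, by rw [Int.toNat_of_nonneg hr0]; omega⟩
  choose m hm using hm
  have e2 : (Finset.univ.filter fun j => (4 : ℤ) ∣ k j)
      = Finset.univ.filter fun j => m j % 2 = 0 := by
    ext j
    simp only [Finset.mem_filter, Finset.mem_univ, true_and, hm j]
    omega
  have e3 : (Finset.univ.filter fun j => (6 : ℤ) ∣ k j)
      = Finset.univ.filter fun j => m j % 3 = 0 := by
    ext j
    simp only [Finset.mem_filter, Finset.mem_univ, true_and, hm j]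
    omega
  have e31 : (Finset.univ.filter fun j => k j % 6 = 2)
      = Finset.univ.filter fun j => m j % 3 = 1 := by
    ext j
    simp only [Finset.mem_filter, Finset.mem_univ, true_and, hm j]
    omega
  have e32 : (Finset.univ.filter fun j => k j % 6 = 4)
      = Finset.univ.filter fun j => m j % 3 = 2 := by
    ext j
    simp only [Finset.mem_filter, Finset.mem_univ, true_and, hm j]
    omega
  have e1 : (Finset.univ.filter fun j => k j = 2)
      = Finset.univ.filter fun j => m j = 1 := by
    ext j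
    simp only [Finset.mem_filter, Finset.mem_univ, true_and, hm j]
    omega
  rw [e2] at h2
  rw [e3] at h3
  rw [e31, e32] at h12
  rw [e1]
  refine half_weight_count m μ o₂ o₃ c hcard h2 h3 h12 ?_
  have hsum : ∑ j, k j = 2 * ((∑ j, m j : ℕ) : ℤ) := by
    rw [Nat.cast_sum, Finset.mul_sum]
    exact Finset.sum_congr rfl fun j _ => hm j
  rw [hsum] at hK
  omega

/-- Final numerical step of S21-D1: from the count of weight-2 generators and the
constant-term bound `dim M₂ ≤ dim S₂ + c - 1` one gets `μ + 2 ≤ 2 dim S₂ + o₂ + o₃ + c`. -/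
theorem final_count (μ o₂ o₃ c n₂ dM dS : ℕ)
    (hcount : μ + c ≤ 2 * n₂ + o₂ + o₃) (hn₂ : n₂ ≤ dM) (hMS : dM + 1 ≤ dS + c) :
    μ + 2 ≤ 2 * dS + o₂ + o₃ + c := by
  omega

end Fermat.Agent.S21.helper230
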