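import Fermat.Agent.S21.helper921_Wiring

/-!
# S21, Route 2 (Hodge / Weyl orthogonal projection): specification file

Goal of Route 2: `StmtH N`  (every REAL parabolic hom of `Γ₀(N)` is the real part of the period
hom of a weight-2 cusp form).  `StmtH` replaces the dimension count `StmtD` of
`helper921_Wiring` (see `helper2361_WeylWiring`), so Route 2 needs neither Riemann-Roch nor any
orbit counting.

All intermediate results are Prop-valued definitions `Stmt_*` below; leaf workers prove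
`theorem ... : Stmt_X N` (or with other `Stmt_*` as hypotheses) in their own files.

Conventions.
* `Γ = Gamma0 N ≤ SL(2,ℤ)`, acting on `ℍ` by `(γ : SL(2,ℤ)) • z`; automorphy factor
  `denom (γ : SL(2,ℤ)) z`.
* Functions "on the upper half plane" that must be differentiated are written as functions
  `ℂ → ℂ` (test functions, junk-free since they are supported in `{0 < im}`), or as functions
  `ℍ → _` precomposed with `UpperHalfPlane.ofComplex`.
* `dz`, `dzbar` are the Wirtinger derivatives of a (real-differentiable) function `ℂ → ℂ`.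
* `lebH` is Lebesgue measure on `ℍ` (NOT the hyperbolic `volume`), `nu β = β · lebH`.
-/

set_option autoImplicit false

namespace Fermat.Agent.S21.helper2361

open ModularCurve ModularCurve.Period CongruenceSubgroup UpperHalfPlane Filter Topology
open MeasureTheory
open scoped MatrixGroups ComplexConjugate

/-! ## Basic definitions -/

/-- Wirtinger derivative `∂/∂z = (∂_x - i ∂_y)/2` of a function `ℂ → ℂ`. -/
noncomputable def dz (a : ℂ → ℂ) (z : ℂ) : ℂ :=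
  (fderiv ℝ a z 1 - Complex.I * fderiv ℝ a z Complex.I) / 2

/-- Wirtinger derivative `∂/∂z̄ = (∂_x + i ∂_y)/2` of a function `ℂ → ℂ`. -/
noncomputable def dzbar (a : ℂ → ℂ) (z : ℂ) : ℂ :=
  (fderiv ℝ a z 1 + Complex.I * fderiv ℝ a z Complex.I) / 2

/-- The open upper half plane as a subset of `ℂ`. -/
def UHP : Set ℂ := {z : ℂ | 0 < z.im}

/-- `h : ℂ → ℂ` is continuous with compact support contained in the open upper half plane. -/
def IsCcH (h : ℂ → ℂ) : Prop :=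
  Continuous h ∧ HasCompactSupport h ∧ tsupport h ⊆ UHP

/-- Smooth (C^∞) complex test function with compact support in the open upper half plane. -/
def IsTest (a : ℂ → ℂ) : Prop :=
  ContDiff ℝ ((⊤ : ℕ∞) : WithTop ℕ∞) a ∧ HasCompactSupport a ∧ tsupport a ⊆ UHP

/-- Real-valued test function. -/
def IsRealTest (a : ℂ → ℂ) : Prop :=
  IsTest a ∧ ∀ z, (a z).im = 0

/-- Extend a real function on `ℍ` to a complex-valued function on `ℂ` (junk outside `UHP`). -/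
noncomputable def ext (u : ℍ → ℝ) (z : ℂ) : ℂ := ((u (ofComplex z) : ℝ) : ℂ)

/-- A real function on `ℍ` is `C¹`. -/
def IsC1 (u : ℍ → ℝ) : Prop :=
  ContDiffOn ℝ 1 (fun z : ℂ => u (ofComplex z)) UHP

variable (N : ℕ)

/-- Weight-2 Poincaré average over `Γ₀(N)`: `Θh(z) = ∑_γ h(γ z) / j(γ,z)^2`. -/
noncomputable def Theta (h : ℂ → ℂ) (z : ℍ) : ℂ :=
  ∑' γ : Gamma0 N, h ↑((γ : SL(2, ℤ)) • z) / (denom (γ : SL(2, ℤ)) (z : ℂ)) ^ 2

/-- Weight-0 average over `Γ₀(N)`: `Avg a (z) = ∑_γ a(γ z)`. -/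
noncomputable def Avg (a : ℂ → ℂ) (z : ℍ) : ℂ :=
  ∑' γ : Gamma0 N, a ↑((γ : SL(2, ℤ)) • z)

/-- A function `s : ℍ → ℂ` is weight-2 invariant under `Γ₀(N)` (pointwise). -/
def IsWt2 (s : ℍ → ℂ) : Prop :=
  ∀ (γ : Gamma0 N) (z : ℍ),
    s ((γ : SL(2, ℤ)) • z) = (denom (γ : SL(2, ℤ)) (z : ℂ)) ^ 2 * s z

/-- Lebesgue measure on `ℍ` (pull-back of Lebesgue measure on `ℂ`). -/
noncomputable def lebH : Measure ℍ := (volume : Measure ℂ).comap UpperHalfPlane.coe

/-- `s` is weight-2 invariant under `Γ₀(N)` Lebesgue-almost everywhere. -/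
def IsWt2AE (s : ℍ → ℂ) : Prop :=
  ∀ γ : Gamma0 N, ∀ᵐ z ∂lebH,
    s ((γ : SL(2, ℤ)) • z) = (denom (γ : SL(2, ℤ)) (z : ℂ)) ^ 2 * s z

/-- The measure `β · lebH`. -/
noncomputable def nu (β : ℍ → ℝ) : Measure ℍ :=
  lebH.withDensity (fun z => ENNReal.ofReal (β z))

/-- A `Γ₀(N)`-partition weight: measurable, positive, locally bounded below,
`∑_γ β(γ z) = 1` for every `z`. -/
def IsWeight (β : ℍ → ℝ) : Prop :=
  Measurable β ∧ (∀ z, 0 < β z) ∧
    (∀ z : ℍ, HasSum (fun γ : Gamma0 N => β ((γ : SL(2, ℤ)) • z)) 1) ∧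
    (∀ K : Set ℍ, IsCompact K → ∃ c : ℝ, 0 < c ∧ ∀ z ∈ K, c ≤ β z)

/-! ## Target of Route 2 -/

/-- (H) Hodge existence: every real parabolic hom is the real part of a period hom. -/
def StmtH : Prop :=
  ∀ φ : Additive (Gamma0 N) →+ ℝ, IsParabolicHom (Gamma0 N) φ →
    ∃ f : CuspForm (Gamma0 N) 2, ∀ γ : Gamma0 N,
      (periodMap N f (Additive.ofMul γ)).re = φ (Additive.ofMul γ)

/-! ## Leaf statements -/

/-- (W1) a partition weight exists. -/
def Stmt_weight : Prop := ∃ β : ℍ → ℝ, IsWeight N β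

/-- (W2a) basic properties of `Theta`: local finiteness gives continuity, weight-2 invariance,
additivity and homogeneity. -/
def Stmt_theta : Prop :=
  (∀ h : ℂ → ℂ, IsCcH h → Continuous (Theta N h) ∧ IsWt2 N (Theta N h)) ∧
  (∀ h₁ h₂ : ℂ → ℂ, IsCcH h₁ → IsCcH h₂ →
      Theta N (fun z => h₁ z + h₂ z) = fun z => Theta N h₁ z + Theta N h₂ z) ∧
  (∀ (c : ℂ) (h : ℂ → ℂ), IsCcH h → Theta N (fun z => c * h z) = fun z => c * Theta N h z)

/-- (W2b) `Theta h` is square integrable for the measure `nu β`. -/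
def Stmt_thetaL2 : Prop :=
  ∀ β : ℍ → ℝ, IsWeight N β → ∀ h : ℂ → ℂ, IsCcH h → MemLp (Theta N h) 2 (nu β)

/-- (W2c) unfolding: pairing against `Theta h` over `nu β` equals pairing against `h` over
Lebesgue measure, for a.e.-weight-2-invariant `L²(nu β)` functions. -/
def Stmt_unfold : Prop :=
  ∀ β : ℍ → ℝ, IsWeight N β → ∀ h : ℂ → ℂ, IsCcH h →
    ∀ s : ℍ → ℂ, MemLp s 2 (nu β) → IsWt2AE N s →
      Integrable (fun z : ℍ => conj (h z) * s z) lebH ∧
      ∫ z, conj (Theta N h z) * s z ∂(nu β) = ∫ z : ℍ, conj (h z) * s z ∂lebH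

/-- (W2d) a.e. weight-2 invariance is a closed condition in `L²(nu β)`. -/
def Stmt_closedInv : Prop :=
  ∀ β : ℍ → ℝ, IsWeight N β →
    IsClosed {f : Lp ℂ 2 (nu β) | IsWt2AE N (f : ℍ → ℂ)}

/-- (W3) the `Γ₀(N)`-average of a test function: `C¹`, invariant, real if `a` is real, and
its `∂/∂z` is `Theta (∂a/∂z)`. -/
def Stmt_avg : Prop :=
  ∀ a : ℂ → ℂ, IsTest a →
    ContDiffOn ℝ 1 (fun z : ℂ => Avg N a (ofComplex z)) UHP ∧
    (∀ (γ : Gamma0 N) (z : ℍ), Avg N a ((γ : SL(2, ℤ)) • z) = Avg N a z) ∧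
    ((∀ z, (a z).im = 0) → ∀ z, (Avg N a z).im = 0) ∧
    (∀ z : ℍ, dz (fun w : ℂ => Avg N a (ofComplex w)) z = Theta N (dz a) z)

/-- (W4) a `C¹` equivariant potential with prescribed real parabolic periods whose `∂/∂z`
is the Poincaré average of a compactly supported continuous function. -/
def Stmt_u0 : Prop :=
  ∀ φ : Additive (Gamma0 N) →+ ℝ, IsParabolicHom (Gamma0 N) φ →
    ∃ (u : ℍ → ℝ) (h₀ : ℂ → ℂ), IsC1 u ∧
      (∀ (γ : Gamma0 N) (z : ℍ), u ((γ : SL(2, ℤ)) • z) = u z + φ (Additive.ofMul γ)) ∧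
      IsCcH h₀ ∧ ∀ z : ℍ, dz (ext u) z = Theta N h₀ z

/-- (W5) Weyl's lemma for `∂/∂z̄` on the upper half plane. -/
def Stmt_weyl : Prop :=
  ∀ g : ℂ → ℂ, LocallyIntegrableOn g UHP →
    (∀ ψ : ℂ → ℂ, IsTest ψ → ∫ z, g z * dzbar ψ z = 0) →
    ∃ h : ℂ → ℂ, DifferentiableOn ℂ h UHP ∧ ∀ᵐ z ∂(volume.restrict UHP), g z = h z

/-- (W6) a holomorphic weight-2 invariant function with finite `L²(nu β)` norm is a cusp
form. -/
def Stmt_cusp : Prop :=
  ∀ β : ℍ → ℝ, IsWeight N β → ∀ S : ℍ → ℂ,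
    DifferentiableOn ℂ (fun z : ℂ => S (ofComplex z)) UHP → IsWt2 N S → MemLp S 2 (nu β) →
    ∃ f : CuspForm (Gamma0 N) 2, ∀ z, f z = S z

/-- (W7) continuity of periods: if `v` is `C¹` with `v ∘ γ - v = c γ` and `∂v/∂z` is an
`L²(nu β)`-limit of `∂A_n/∂z` with `A_n` invariant `C¹` functions, then `c = 0`. -/
def Stmt_periodCont : Prop :=
  ∀ β : ℍ → ℝ, IsWeight N β → ∀ (v : ℍ → ℝ) (c : Gamma0 N → ℝ), IsC1 v →
    (∀ (γ : Gamma0 N) (z : ℍ), v ((γ : SL(2, ℤ)) • z) = v z + c γ) →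
    ∀ A : ℕ → ℍ → ℝ, (∀ n, IsC1 (A n)) →
      (∀ (n : ℕ) (γ : Gamma0 N) (z : ℍ), A n ((γ : SL(2, ℤ)) • z) = A n z) →
      Tendsto (fun n => ∫⁻ z : ℍ, ‖dz (ext v) z - dz (ext (A n)) z‖ₑ ^ 2 ∂(nu β))
        atTop (𝓝 0) →
      ∀ γ, c γ = 0

/-- (W8) integration by parts on the upper half plane: for a real test function `a` and a
real `C¹` function `B` on `ℍ`, `∫ (a_x B_y - a_y B_x) = 0`, i.e.
`Im ∫ conj(∂a) ∂B = 0`. -/
def Stmt_ibp : Prop :=
  ∀ (a : ℂ → ℂ) (B : ℍ → ℝ), IsRealTest a → IsC1 B →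
    (∫ z : ℍ, conj (dz a z) * dz (ext B) z ∂lebH).im = 0

end Fermat.Agent.S21.helper2361
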