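/-
helper2377: S21 Route 2, leaf VAR — auxiliary lemmas (Mathlib only).

* `exists_minimizing_seq`: abstract Dirichlet principle without completeness;
* `lintegral_hyp_eq`, `integral_hyp_eq`: hyperbolic measure with density `im²` is Lebesgue
  measure on the upper half-plane;
* `lintegral_unfold`, `integral_unfold`, `lintegral_weight_le_of_cover`,
  `setLIntegral_le_of_count`: unfolding with a measurable partition weight `w`;
* `integral_cross_eq`, `integral_gradB_mul_dbar`: integration by parts on `ℂ`.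
-/
import Mathlib

set_option autoImplicit false

namespace Fermat.Agent.S21.helper2377

open MeasureTheory Filter Topology UpperHalfPlane
open scoped ENNReal MatrixGroups

/-- Abstract Dirichlet principle without completeness: a minimizing sequence for the distance
from `g0` to a "linear" set `T` is Cauchy and asymptotically orthogonal to `T`, with explicit
rates. -/
theorem exists_minimizing_seq {E : Type*} [NormedAddCommGroup E] [InnerProductSpace ℝ E]
    (T : Set E) (h0 : (0 : E) ∈ T) (hT : ∀ s ∈ T, ∀ s' ∈ T, ∀ t : ℝ, s + t • s' ∈ T) (g0 : E) :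
    ∃ s : ℕ → E, (∀ n, s n ∈ T) ∧ (∀ n, ‖g0 - s n‖ ^ 2 ≤ ‖g0‖ ^ 2 + 1) ∧
      (∀ n m, ‖s n - s m‖ ^ 2 ≤ 2 / ((n : ℝ) + 1) + 2 / ((m : ℝ) + 1)) ∧
      (∀ v ∈ T, ∀ n : ℕ,
        |inner ℝ (g0 - s n) v| ≤ (‖v‖ ^ 2 + 1) / (2 * Real.sqrt ((n : ℝ) + 1))) := by
  set d2 : ℝ := sInf ((fun s => ‖g0 - s‖ ^ 2) '' T) with hd2
  have hbdd : BddBelow ((fun s => ‖g0 - s‖ ^ 2) '' T) :=
    ⟨0, by rintro _ ⟨s, -, rfl⟩; positivity⟩
  have hne : ((fun s => ‖g0 - s‖ ^ 2) '' T).Nonempty := ⟨_, ⟨0, h0, rfl⟩⟩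
  have hd2le : ∀ s ∈ T, d2 ≤ ‖g0 - s‖ ^ 2 := fun s hs => csInf_le hbdd ⟨s, hs, rfl⟩
  have hex : ∀ n : ℕ, ∃ s ∈ T, ‖g0 - s‖ ^ 2 < d2 + 1 / ((n : ℝ) + 1) := by
    intro n
    have hpos : (0 : ℝ) < 1 / ((n : ℝ) + 1) := by positivity
    obtain ⟨_, ⟨s, hs, rfl⟩, hlt⟩ := exists_lt_of_csInf_lt hne (lt_add_of_pos_right d2 hpos)
    exact ⟨s, hs, hlt⟩
  choose s hsT hs using hex
  have hd2le0 : d2 ≤ ‖g0‖ ^ 2 := by simpa using hd2le 0 h0
  refine ⟨s, hsT, ?_, ?_, ?_⟩
  · intro n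
    have := hs n
    have h1 : 1 / ((n : ℝ) + 1) ≤ 1 := by
      rw [div_le_one (by positivity)]; linarith [Nat.cast_nonneg (α := ℝ) n]
    linarith
  · intro n m
    have hmid : (1 / 2 : ℝ) • s n + (1 / 2 : ℝ) • s m ∈ T := by
      have h1 : (1 / 2 : ℝ) • s n ∈ T := by simpa using hT 0 h0 (s n) (hsT n) (1 / 2)
      exact hT _ h1 _ (hsT m) _
    have hpar := parallelogram_law_with_norm ℝ (g0 - s n) (g0 - s m)
    have hsum : (g0 - s n) + (g0 - s m)
        = (2 : ℝ) • (g0 - ((1 / 2 : ℝ) • s n + (1 / 2 : ℝ) • s m)) := by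
      simp only [smul_sub, smul_add, smul_smul]
      norm_num
      rw [two_smul]; abel
    have hdiff : (g0 - s n) - (g0 - s m) = -(s n - s m) := by abel
    have hmid' := hd2le _ hmid
    rw [hsum, hdiff, norm_smul, norm_neg] at hpar
    have h1 := hs n
    have h2 := hs m
    have h3 : ‖(2 : ℝ)‖ = 2 := by norm_num
    rw [h3] at hpar
    have e1 : (2 : ℝ) / ((n : ℝ) + 1) = 2 * (1 / ((n : ℝ) + 1)) := by ring
    have e2 : (2 : ℝ) / ((m : ℝ) + 1) = 2 * (1 / ((m : ℝ) + 1)) := by ring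
    rw [e1, e2]
    nlinarith
  · intro v hv n
    set x := g0 - s n with hx
    set δ : ℝ := 1 / Real.sqrt ((n : ℝ) + 1) with hδ
    have hn1 : (0 : ℝ) < (n : ℝ) + 1 := by positivity
    have hsq : 0 < Real.sqrt ((n : ℝ) + 1) := Real.sqrt_pos.mpr hn1
    have hδpos : 0 < δ := by positivity
    have hδ2 : δ ^ 2 = 1 / ((n : ℝ) + 1) := by
      rw [hδ, div_pow, Real.sq_sqrt hn1.le]; norm_num
    have key : ∀ t : ℝ, 2 * t * inner ℝ x v ≤ t ^ 2 * ‖v‖ ^ 2 + 1 / ((n : ℝ) + 1) := by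
      intro t
      have hmem : s n + t • v ∈ T := hT _ (hsT n) _ hv t
      have h1 := hd2le _ hmem
      have h2 : g0 - (s n + t • v) = x - t • v := by rw [hx]; abel
      rw [h2, norm_sub_sq_real, real_inner_smul_right, norm_smul, mul_pow, Real.norm_eq_abs,
        sq_abs] at h1
      have h3 := hs n
      linarith
    have k1 := key δ
    have k2 := key (-δ)
    have hb : (‖v‖ ^ 2 + 1) / (2 * Real.sqrt ((n : ℝ) + 1)) = δ * (‖v‖ ^ 2 + 1) / 2 := by
      rw [hδ]; field_simp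
    rw [hb, abs_le]
    have hv2 : 0 ≤ ‖v‖ ^ 2 := by positivity
    constructor
    · have : 2 * δ * (-inner ℝ x v) ≤ δ * (δ * (‖v‖ ^ 2 + 1)) := by
        have : (-δ) ^ 2 = δ ^ 2 := by ring
        nlinarith
      have h4 : -inner ℝ x v ≤ δ * (‖v‖ ^ 2 + 1) / 2 := by
        by_contra hcon
        rw [not_le] at hcon
        nlinarith
      linarith
    · have : 2 * δ * inner ℝ x v ≤ δ * (δ * (‖v‖ ^ 2 + 1)) := by nlinarith
      by_contra hcon
      rw [not_le] at hcon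
      nlinarith

/-- The hyperbolic measure with the density `im²` is Lebesgue measure on the upper half-plane
(`lintegral` version, no measurability needed). -/
theorem lintegral_hyp_eq (g : ℂ → ℝ≥0∞) :
    ∫⁻ z : ℍ, g ↑z * ENNReal.ofReal (z.im ^ 2) = ∫⁻ z in upperHalfPlaneSet, g z := by
  have hmeas : Measurable fun z : ℍ => ((((1 / NNReal.mk z.im z.im_pos.le : NNReal) ^ 2 : NNReal)) : ℝ≥0∞) := by
    have : Measurable fun z : ℍ => (NNReal.mk z.im z.im_pos.le : NNReal) :=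
      (UpperHalfPlane.continuous_im.subtype_mk _).measurable
    fun_prop
  rw [volume_def, lintegral_withDensity_eq_lintegral_mul_non_measurable _ hmeas
    (Filter.Eventually.of_forall fun z => ENNReal.coe_lt_top)]
  have key : ∀ z : ℍ, ((((1 / NNReal.mk z.im z.im_pos.le : NNReal) ^ 2 : NNReal)) : ℝ≥0∞)
      * (g ↑z * ENNReal.ofReal (z.im ^ 2)) = g ↑z := by
    intro z
    have h1 : ENNReal.ofReal (z.im ^ 2) = (((NNReal.mk z.im z.im_pos.le) ^ 2 : NNReal) : ℝ≥0∞) := by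
      rw [ENNReal.ofReal, ENNReal.coe_inj]
      ext
      simp [Real.coe_toNNReal _ (sq_nonneg z.im)]
    rw [h1, mul_comm, mul_assoc, ← ENNReal.coe_mul]
    have h2 : ((NNReal.mk z.im z.im_pos.le) ^ 2 * (1 / NNReal.mk z.im z.im_pos.le) ^ 2 : NNReal) = 1 := by
      have hne : (NNReal.mk z.im z.im_pos.le) ≠ 0 := by
        intro h
        have := congrArg NNReal.toReal h
        simp at this
        exact z.im_ne_zero this
      field_simp
    rw [h2]; simp
  simp only [Pi.mul_apply, key]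
  rw [← measurableEmbedding_coe.lintegral_map, measurableEmbedding_coe.map_comap, range_coe]

section Unfold

variable {Γ : Subgroup SL(2, ℤ)} {w : ℍ → ℝ≥0∞}

theorem countable_sl2z : Countable SL(2, ℤ) := by
  have : Countable (Matrix (Fin 2) (Fin 2) ℤ) := by
    unfold Matrix; infer_instance
  exact Subtype.countable

theorem countable_subgroup (Γ : Subgroup SL(2, ℤ)) : Countable Γ := by
  have := countable_sl2z
  exact Subtype.countable

theorem measurable_sl_smul (g : SL(2, ℤ)) : Measurable fun z : ℍ => g • z :=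
  (measurable_const_smul ((g : SL(2, ℤ)) : GL (Fin 2) ℝ) : Measurable fun z : ℍ => _ • z)

theorem lintegral_sl_smul (g : SL(2, ℤ)) (f : ℍ → ℝ≥0∞) (hf : Measurable f) :
    ∫⁻ z : ℍ, f (g • z) = ∫⁻ z : ℍ, f z :=
  (measurePreserving_smul ((g : SL(2, ℤ)) : GL (Fin 2) ℝ) (volume : Measure ℍ)).lintegral_comp hf

theorem integral_sl_smul (g : SL(2, ℤ)) (f : ℍ → ℝ) :
    ∫ z : ℍ, f (g • z) = ∫ z : ℍ, f z :=
  integral_smul_eq_self (μ := (volume : Measure ℍ)) f (g := ((g : SL(2, ℤ)) : GL (Fin 2) ℝ))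

theorem weight_le_one (hsum : ∀ z : ℍ, ∑' γ : Γ, w ((γ : SL(2, ℤ)) • z) = 1) (z : ℍ) : w z ≤ 1 := by
  have h := ENNReal.le_tsum (f := fun γ : Γ => w ((γ : SL(2, ℤ)) • z)) 1
  rw [hsum z] at h
  simpa using h

theorem tsum_weight_inv (hsum : ∀ z : ℍ, ∑' γ : Γ, w ((γ : SL(2, ℤ)) • z) = 1) (z : ℍ) :
    ∑' γ : Γ, w ((γ : SL(2, ℤ))⁻¹ • z) = 1 := by
  have h := (Equiv.inv Γ).tsum_eq (fun γ : Γ => w ((γ : SL(2, ℤ)) • z))
  simp only [Equiv.inv_apply, InvMemClass.coe_inv] at h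
  rw [h, hsum]

/-- Unfolding for nonnegative functions. -/
theorem lintegral_unfold (hw : Measurable w)
    (hsum : ∀ z : ℍ, ∑' γ : Γ, w ((γ : SL(2, ℤ)) • z) = 1) (g : ℍ → ℝ≥0∞) (hg : Measurable g) :
    ∫⁻ z, w z * ∑' γ : Γ, g ((γ : SL(2, ℤ)) • z) = ∫⁻ z, g z := by
  have := countable_subgroup Γ
  calc ∫⁻ z, w z * ∑' γ : Γ, g ((γ : SL(2, ℤ)) • z)
      = ∫⁻ z, ∑' γ : Γ, w z * g ((γ : SL(2, ℤ)) • z) := by simp_rw [ENNReal.tsum_mul_left]
    _ = ∑' γ : Γ, ∫⁻ z, w z * g ((γ : SL(2, ℤ)) • z) :=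
        lintegral_tsum fun γ => (hw.mul (hg.comp (measurable_sl_smul _))).aemeasurable
    _ = ∑' γ : Γ, ∫⁻ z, w ((γ : SL(2, ℤ))⁻¹ • z) * g z := by
        congr 1; ext γ
        have := lintegral_sl_smul (γ : SL(2, ℤ)) (fun z => w ((γ : SL(2, ℤ))⁻¹ • z) * g z)
          ((hw.comp (measurable_sl_smul _)).mul hg)
        rw [← this]
        simp only [inv_smul_smul]
    _ = ∫⁻ z, ∑' γ : Γ, w ((γ : SL(2, ℤ))⁻¹ • z) * g z :=
        (lintegral_tsum fun γ => ((hw.comp (measurable_sl_smul _)).mul hg).aemeasurable).symm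
    _ = ∫⁻ z, g z := by
        congr 1; ext z
        rw [ENNReal.tsum_mul_right, tsum_weight_inv hsum, one_mul]

/-- Energy bound by the integral over a set meeting all relevant orbits. -/
theorem lintegral_weight_le_of_cover (hw : Measurable w)
    (hsum : ∀ z : ℍ, ∑' γ : Γ, w ((γ : SL(2, ℤ)) • z) = 1) (G : ℍ → ℝ≥0∞) (hG : Measurable G)
    (hinv : ∀ (γ : Γ) (z : ℍ), G ((γ : SL(2, ℤ)) • z) = G z) (B : Set ℍ) (hB : MeasurableSet B)
    (hcov : ∀ z : ℍ, G z ≠ 0 → ∃ γ : Γ, (γ : SL(2, ℤ)) • z ∈ B) :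
    ∫⁻ z, w z * G z ≤ ∫⁻ z in B, G z := by
  rw [← lintegral_indicator hB, ← lintegral_unfold hw hsum (B.indicator G) (hG.indicator hB)]
  refine lintegral_mono fun z => ?_
  refine mul_le_mul_right ?_ _
  by_cases h0 : G z = 0
  · simp [h0]
  · obtain ⟨γ, hγ⟩ := hcov z h0
    calc G z = B.indicator G ((γ : SL(2, ℤ)) • z) := by rw [Set.indicator_of_mem hγ, hinv]
      _ ≤ _ := ENNReal.le_tsum γ

/-- Integral over a set with bounded orbit multiplicity is bounded by the energy. -/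
theorem setLIntegral_le_of_count (hw : Measurable w)
    (hsum : ∀ z : ℍ, ∑' γ : Γ, w ((γ : SL(2, ℤ)) • z) = 1) (G : ℍ → ℝ≥0∞) (hG : Measurable G)
    (hinv : ∀ (γ : Γ) (z : ℍ), G ((γ : SL(2, ℤ)) • z) = G z) (S : Set ℍ) (hS : MeasurableSet S)
    (M : ℕ) (hM : ∀ z : ℍ, {γ : Γ | (γ : SL(2, ℤ)) • z ∈ S}.encard ≤ M) :
    ∫⁻ z in S, G z ≤ M * ∫⁻ z, w z * G z := by
  rw [← lintegral_indicator hS, ← lintegral_unfold hw hsum (S.indicator G) (hG.indicator hS),
    ← lintegral_const_mul (M : ℝ≥0∞) (show Measurable fun z => w z * G z from hw.mul hG)]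
  refine lintegral_mono fun z => ?_
  have h2 : ∑' γ : Γ, S.indicator G ((γ : SL(2, ℤ)) • z)
      = ({γ : Γ | (γ : SL(2, ℤ)) • z ∈ S}.encard : ℝ≥0∞) * G z := by
    have h1 : ∀ γ : Γ, S.indicator G ((γ : SL(2, ℤ)) • z)
        = ({γ : Γ | (γ : SL(2, ℤ)) • z ∈ S}.indicator (fun _ => (1 : ℝ≥0∞)) γ) * G z := by
      intro γ
      by_cases h : (γ : SL(2, ℤ)) • z ∈ S
      · rw [Set.indicator_of_mem h,
          Set.indicator_of_mem (show γ ∈ {γ : Γ | (γ : SL(2, ℤ)) • z ∈ S} from h), one_mul, hinv]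
      · rw [Set.indicator_of_notMem h,
          Set.indicator_of_notMem (show γ ∉ {γ : Γ | (γ : SL(2, ℤ)) • z ∈ S} from h), zero_mul]
    simp_rw [h1, ENNReal.tsum_mul_right]
    congr 1
    rw [← tsum_subtype]
    exact ENNReal.tsum_set_one _
  rw [h2]
  have h3 : ({γ : Γ | (γ : SL(2, ℤ)) • z ∈ S}.encard : ℝ≥0∞) ≤ (M : ℝ≥0∞) := by
    have := ENat.toENNReal_le.mpr (hM z)
    simpa using this
  calc w z * (({γ : Γ | (γ : SL(2, ℤ)) • z ∈ S}.encard : ℝ≥0∞) * G z)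
      = ({γ : Γ | (γ : SL(2, ℤ)) • z ∈ S}.encard : ℝ≥0∞) * (w z * G z) := by ring
    _ ≤ (M : ℝ≥0∞) * (w z * G z) := mul_le_mul_left h3 _

/-- Unfolding for integrable real functions. -/
theorem integral_unfold (hw : Measurable w)
    (hsum : ∀ z : ℍ, ∑' γ : Γ, w ((γ : SL(2, ℤ)) • z) = 1) (H : ℍ → ℝ) (hHm : Measurable H)
    (hH : Integrable H) :
    ∫ z, (w z).toReal * ∑' γ : Γ, H ((γ : SL(2, ℤ)) • z) = ∫ z, H z := by
  have := countable_subgroup Γ
  have hw1 : ∀ z, w z ≠ ⊤ := fun z => ne_top_of_le_ne_top ENNReal.one_ne_top (weight_le_one hsum z)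
  have hfin : ∫⁻ z, ‖H z‖ₑ ≠ ⊤ := hH.2.ne
  have e1 : ∫ z, (w z).toReal * ∑' γ : Γ, H ((γ : SL(2, ℤ)) • z)
      = ∑' γ : Γ, ∫ z, (w z).toReal * H ((γ : SL(2, ℤ)) • z) := by
    simp_rw [← tsum_mul_left]
    refine integral_tsum (fun γ => ?_) ?_
    · exact ((hw.ennreal_toReal).mul (hHm.comp (measurable_sl_smul _))).aestronglyMeasurable
    · have h1 : ∀ (γ : Γ) (z : ℍ), ‖(w z).toReal * H ((γ : SL(2, ℤ)) • z)‖ₑ
          = w z * ‖H ((γ : SL(2, ℤ)) • z)‖ₑ := by
        intro γ z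
        rw [enorm_mul, Real.enorm_eq_ofReal ENNReal.toReal_nonneg, ENNReal.ofReal_toReal (hw1 z)]
      simp_rw [h1]
      rw [← lintegral_tsum (f := fun (γ : Γ) (z : ℍ) => w z * ‖H ((γ : SL(2, ℤ)) • z)‖ₑ)
        (fun γ => (hw.mul ((hHm.comp (measurable_sl_smul _)).enorm)).aemeasurable)]
      simp_rw [ENNReal.tsum_mul_left]
      rw [lintegral_unfold hw hsum (fun z => ‖H z‖ₑ) hHm.enorm]
      exact hfin
  have e2 : ∀ γ : Γ, ∫ z, (w z).toReal * H ((γ : SL(2, ℤ)) • z)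
      = ∫ z, (w ((γ : SL(2, ℤ))⁻¹ • z)).toReal * H z := by
    intro γ
    rw [← integral_sl_smul (γ : SL(2, ℤ)) (fun z => (w ((γ : SL(2, ℤ))⁻¹ • z)).toReal * H z)]
    simp only [inv_smul_smul]
  have e3 : ∑' γ : Γ, ∫ z, (w ((γ : SL(2, ℤ))⁻¹ • z)).toReal * H z
      = ∫ z, ∑' γ : Γ, (w ((γ : SL(2, ℤ))⁻¹ • z)).toReal * H z := by
    symm
    refine integral_tsum (fun γ => ?_) ?_
    · exact (((hw.comp (measurable_sl_smul _)).ennreal_toReal).mul hHm).aestronglyMeasurable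
    · have h1 : ∀ (γ : Γ) (z : ℍ), ‖(w ((γ : SL(2, ℤ))⁻¹ • z)).toReal * H z‖ₑ
          = w ((γ : SL(2, ℤ))⁻¹ • z) * ‖H z‖ₑ := by
        intro γ z
        rw [enorm_mul, Real.enorm_eq_ofReal ENNReal.toReal_nonneg, ENNReal.ofReal_toReal (hw1 _)]
      simp_rw [h1]
      rw [← lintegral_tsum (f := fun (γ : Γ) (z : ℍ) => w ((γ : SL(2, ℤ))⁻¹ • z) * ‖H z‖ₑ)
        (fun γ => ((hw.comp (measurable_sl_smul _)).mul hHm.enorm).aemeasurable)]
      simp_rw [ENNReal.tsum_mul_right, tsum_weight_inv hsum, one_mul]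
      exact hfin
  have e4 : ∀ z, ∑' γ : Γ, (w ((γ : SL(2, ℤ))⁻¹ • z)).toReal * H z = H z := by
    intro z
    rw [tsum_mul_right, ← ENNReal.tsum_toReal_eq (fun γ => hw1 _), tsum_weight_inv hsum]
    simp
  rw [e1]
  simp_rw [e2]
  rw [e3]
  simp_rw [e4]

end Unfold

/-- Bochner version of `lintegral_hyp_eq`. -/
theorem integral_hyp_eq (g : ℂ → ℝ) :
    ∫ z : ℍ, z.im ^ 2 * g ↑z = ∫ z in upperHalfPlaneSet, g z := by
  have hmeas : Measurable fun z : ℍ => ((1 / NNReal.mk z.im z.im_pos.le : NNReal) ^ 2 : NNReal) := by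
    have : Measurable fun z : ℍ => (NNReal.mk z.im z.im_pos.le : NNReal) :=
      (UpperHalfPlane.continuous_im.subtype_mk _).measurable
    fun_prop
  rw [volume_def, integral_withDensity_eq_integral_smul hmeas]
  have key : ∀ z : ℍ, ((1 / NNReal.mk z.im z.im_pos.le : NNReal) ^ 2 : NNReal) • (z.im ^ 2 * g ↑z)
      = g ↑z := by
    intro z
    rw [NNReal.smul_def, smul_eq_mul]
    have hne : z.im ≠ 0 := z.im_ne_zero
    simp only [one_div, NNReal.coe_pow, NNReal.coe_inv, NNReal.coe_mk]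
    field_simp
  simp only [key]
  rw [← measurableEmbedding_coe.integral_map, measurableEmbedding_coe.map_comap, range_coe]

/-- A function continuous on an open set times a continuous function compactly supported in
that set is continuous. -/
theorem continuous_mul_of_tsupport_subset {Ω : Set ℂ} (hΩ : IsOpen Ω) {f g : ℂ → ℝ}
    (hf : ContinuousOn f Ω) (hg : Continuous g) (hs : tsupport g ⊆ Ω) :
    Continuous (fun z => f z * g z) := by
  rw [continuous_iff_continuousAt]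
  intro z
  by_cases hz : z ∈ Ω
  · exact (hf.continuousAt (hΩ.mem_nhds hz)).mul hg.continuousAt
  · have hz' : z ∉ tsupport g := fun h => hz (hs h)
    have h0 : (fun z => f z * g z) =ᶠ[𝓝 z] fun _ => 0 := by
      filter_upwards [notMem_tsupport_iff_eventuallyEq.mp hz'] with y hy
      simp [hy]
    exact continuousAt_const.congr h0.symm

theorem integrable_mul_of_tsupport_subset {Ω : Set ℂ} (hΩ : IsOpen Ω) {f g : ℂ → ℝ}
    (hf : ContinuousOn f Ω) (hg : Continuous g) (hc : HasCompactSupport g)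
    (hs : tsupport g ⊆ Ω) : Integrable (fun z => f z * g z) :=
  (continuous_mul_of_tsupport_subset hΩ hf hg hs).integrable_of_hasCompactSupport hc.mul_left



/-- Integration by parts: the cross term integrates to zero. -/
theorem integral_cross_eq (U B : ℂ → ℝ) (hU : ContDiffOn ℝ 1 U upperHalfPlaneSet)
    (hB : ContDiff ℝ 2 B) (hc : HasCompactSupport B) (hs : tsupport B ⊆ upperHalfPlaneSet) :
    ∫ z, fderiv ℝ U z 1 * fderiv ℝ B z Complex.I
      = ∫ z, fderiv ℝ U z Complex.I * fderiv ℝ B z 1 := by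
  have hΩ := isOpen_upperHalfPlaneSet
  set g1 : ℂ → ℝ := fun z => fderiv ℝ B z Complex.I with hg1
  set g2 : ℂ → ℝ := fun z => fderiv ℝ B z 1 with hg2
  have hB1 : ContDiff ℝ 1 (fderiv ℝ B) := hB.fderiv_right (by norm_num)
  have hg1c : ContDiff ℝ 1 g1 := hB1.clm_apply contDiff_const
  have hg2c : ContDiff ℝ 1 g2 := hB1.clm_apply contDiff_const
  have hts1 : tsupport g1 ⊆ upperHalfPlaneSet := (tsupport_fderiv_apply_subset ℝ _).trans hs
  have hts2 : tsupport g2 ⊆ upperHalfPlaneSet := (tsupport_fderiv_apply_subset ℝ _).trans hs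
  have hc1 : HasCompactSupport g1 := hc.fderiv_apply (𝕜 := ℝ) _
  have hc2 : HasCompactSupport g2 := hc.fderiv_apply (𝕜 := ℝ) _
  have hUc : ContinuousOn U upperHalfPlaneSet := hU.continuousOn
  have hU' : ContinuousOn (fderiv ℝ U) upperHalfPlaneSet :=
    hU.continuousOn_fderiv_of_isOpen hΩ le_rfl
  have hUv : ∀ v : ℂ, ContinuousOn (fun z => fderiv ℝ U z v) upperHalfPlaneSet :=
    fun v => hU'.clm_apply continuousOn_const
  have hUd : ∀ z ∈ upperHalfPlaneSet, DifferentiableAt ℝ U z := fun z hz =>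
    (hU.differentiableOn one_ne_zero).differentiableAt (hΩ.mem_nhds hz)
  have hgd : ∀ (g : ℂ → ℝ), ContDiff ℝ 1 g → ∀ v : ℂ, Continuous fun z => fderiv ℝ g z v :=
    fun g hg v => (hg.continuous_fderiv one_ne_zero).clm_apply continuous_const
  have hgts : ∀ (g : ℂ → ℝ) (v : ℂ), tsupport g ⊆ upperHalfPlaneSet →
      tsupport (fun z => fderiv ℝ g z v) ⊆ upperHalfPlaneSet :=
    fun g v h => (tsupport_fderiv_apply_subset ℝ _).trans h
  have h1 := integral_mul_fderiv_eq_neg_fderiv_mul_of_integrable (μ := (volume : Measure ℂ))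
    (f := U) (g := g1) (v := (1 : ℂ))
    (integrable_mul_of_tsupport_subset hΩ (hUv 1) hg1c.continuous hc1 hts1)
    (integrable_mul_of_tsupport_subset hΩ hUc (hgd g1 hg1c 1) (hc1.fderiv_apply (𝕜 := ℝ) _)
      (hgts g1 1 hts1))
    (integrable_mul_of_tsupport_subset hΩ hUc hg1c.continuous hc1 hts1)
    (fun z hz => hUd z (hts1 hz))
    (fun z _ => (hg1c.differentiable one_ne_zero).differentiableAt)
  have h2 := integral_mul_fderiv_eq_neg_fderiv_mul_of_integrable (μ := (volume : Measure ℂ))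
    (f := U) (g := g2) (v := Complex.I)
    (integrable_mul_of_tsupport_subset hΩ (hUv Complex.I) hg2c.continuous hc2 hts2)
    (integrable_mul_of_tsupport_subset hΩ hUc (hgd g2 hg2c Complex.I)
      (hc2.fderiv_apply (𝕜 := ℝ) _) (hgts g2 Complex.I hts2))
    (integrable_mul_of_tsupport_subset hΩ hUc hg2c.continuous hc2 hts2)
    (fun z hz => hUd z (hts2 hz))
    (fun z _ => (hg2c.differentiable one_ne_zero).differentiableAt)
  have hsymm : ∀ z, fderiv ℝ g1 z 1 = fderiv ℝ g2 z Complex.I := by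
    intro z
    have hd : DifferentiableAt ℝ (fderiv ℝ B) z := (hB1.differentiable one_ne_zero).differentiableAt
    have e1 : fderiv ℝ g1 z = (fderiv ℝ (fderiv ℝ B) z).flip Complex.I := by
      rw [hg1, fderiv_clm_apply hd (differentiableAt_const _)]
      simp
    have e2 : fderiv ℝ g2 z = (fderiv ℝ (fderiv ℝ B) z).flip 1 := by
      rw [hg2, fderiv_clm_apply hd (differentiableAt_const _)]
      simp
    rw [e1, e2]
    simp only [ContinuousLinearMap.flip_apply]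
    exact (hB.contDiffAt.isSymmSndFDerivAt (by simp)) 1 Complex.I
  simp_rw [hsymm] at h1
  have h3 : ∫ z, fderiv ℝ U z 1 * g1 z = ∫ z, fderiv ℝ U z Complex.I * g2 z := by
    linarith
  exact h3



/-- The complex gradient `B_x - i B_y` of a real function on `ℂ`. -/
noncomputable def gradB (B : ℂ → ℝ) (z : ℂ) : ℂ :=
  ((fderiv ℝ B z 1 : ℝ) : ℂ) - Complex.I * ((fderiv ℝ B z Complex.I : ℝ) : ℂ)

/-- The pointwise inner product of gradients `U_x B_x + U_y B_y`. -/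
noncomputable def gradDot (U B : ℂ → ℝ) (z : ℂ) : ℝ :=
  fderiv ℝ U z 1 * fderiv ℝ B z 1 + fderiv ℝ U z Complex.I * fderiv ℝ B z Complex.I

theorem integrable_fderiv_mul_fderiv (U B : ℂ → ℝ) (hU : ContDiffOn ℝ 1 U upperHalfPlaneSet)
    (hB : ContDiff ℝ 2 B) (hc : HasCompactSupport B) (hs : tsupport B ⊆ upperHalfPlaneSet)
    (v v' : ℂ) : Integrable (fun z => fderiv ℝ U z v * fderiv ℝ B z v') := by
  have hΩ := isOpen_upperHalfPlaneSet
  have hU' : ContinuousOn (fderiv ℝ U) upperHalfPlaneSet :=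
    hU.continuousOn_fderiv_of_isOpen hΩ le_rfl
  have hUv : ContinuousOn (fun z => fderiv ℝ U z v) upperHalfPlaneSet :=
    hU'.clm_apply continuousOn_const
  have hB1 : Continuous (fun z => fderiv ℝ B z v') :=
    (hB.continuous_fderiv (by norm_num)).clm_apply continuous_const
  exact integrable_mul_of_tsupport_subset hΩ hUv hB1 (hc.fderiv_apply (𝕜 := ℝ) _)
    ((tsupport_fderiv_apply_subset ℝ _).trans hs)

theorem integrable_gradDot (U B : ℂ → ℝ) (hU : ContDiffOn ℝ 1 U upperHalfPlaneSet)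
    (hB : ContDiff ℝ 2 B) (hc : HasCompactSupport B) (hs : tsupport B ⊆ upperHalfPlaneSet) :
    Integrable (gradDot U B) :=
  (integrable_fderiv_mul_fderiv U B hU hB hc hs 1 1).add
    (integrable_fderiv_mul_fderiv U B hU hB hc hs Complex.I Complex.I)

/-- Weak formulation: `∫ (U_x - i U_y) (ψ_x + i ψ_y)` in terms of the Dirichlet pairings with
the real and imaginary parts of the test function. -/
theorem integral_gradB_mul_dbar (U : ℂ → ℝ) (ψ : ℂ → ℂ)
    (hU : ContDiffOn ℝ 1 U upperHalfPlaneSet) (hψ : ContDiff ℝ 2 ψ) (hc : HasCompactSupport ψ)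
    (hs : tsupport ψ ⊆ upperHalfPlaneSet) :
    ∫ z, gradB U z * (fderiv ℝ ψ z 1 + Complex.I * fderiv ℝ ψ z Complex.I)
      = ((∫ z, gradDot U (fun z => (ψ z).re) z : ℝ) : ℂ)
        + Complex.I * ((∫ z, gradDot U (fun z => (ψ z).im) z : ℝ) : ℂ) := by
  set B1 : ℂ → ℝ := fun z => (ψ z).re with hB1
  set B2 : ℂ → ℝ := fun z => (ψ z).im with hB2
  have hB1c : ContDiff ℝ 2 B1 := Complex.reCLM.contDiff.comp hψ
  have hB2c : ContDiff ℝ 2 B2 := Complex.imCLM.contDiff.comp hψ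
  have hc1 : HasCompactSupport B1 := hc.comp_left (g := Complex.re) Complex.zero_re
  have hc2 : HasCompactSupport B2 := hc.comp_left (g := Complex.im) Complex.zero_im
  have hs1 : tsupport B1 ⊆ upperHalfPlaneSet :=
    (tsupport_comp_subset (g := Complex.re) Complex.zero_re ψ).trans hs
  have hs2 : tsupport B2 ⊆ upperHalfPlaneSet :=
    (tsupport_comp_subset (g := Complex.im) Complex.zero_im ψ).trans hs
  have hψd : ∀ z, DifferentiableAt ℝ ψ z := fun z => (hψ.differentiable (by norm_num)).differentiableAt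
  have hd1 : ∀ z v, fderiv ℝ B1 z v = (fderiv ℝ ψ z v).re := by
    intro z v
    have := (Complex.reCLM.hasFDerivAt.comp z (hψd z).hasFDerivAt).fderiv
    have h' : fderiv ℝ B1 z = Complex.reCLM.comp (fderiv ℝ ψ z) := this
    rw [h']; rfl
  have hd2 : ∀ z v, fderiv ℝ B2 z v = (fderiv ℝ ψ z v).im := by
    intro z v
    have := (Complex.imCLM.hasFDerivAt.comp z (hψd z).hasFDerivAt).fderiv
    have h' : fderiv ℝ B2 z = Complex.imCLM.comp (fderiv ℝ ψ z) := this
    rw [h']; rfl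
  have hI := integrable_fderiv_mul_fderiv U
  -- the cross terms
  set X1 : ℂ → ℝ := fun z => fderiv ℝ U z 1 * fderiv ℝ B1 z Complex.I
    - fderiv ℝ U z Complex.I * fderiv ℝ B1 z 1 with hX1
  set X2 : ℂ → ℝ := fun z => fderiv ℝ U z 1 * fderiv ℝ B2 z Complex.I
    - fderiv ℝ U z Complex.I * fderiv ℝ B2 z 1 with hX2
  have hX1i : Integrable X1 := (hI B1 hU hB1c hc1 hs1 1 Complex.I).sub (hI B1 hU hB1c hc1 hs1 Complex.I 1)
  have hX2i : Integrable X2 := (hI B2 hU hB2c hc2 hs2 1 Complex.I).sub (hI B2 hU hB2c hc2 hs2 Complex.I 1)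
  have hX1z : ∫ z, X1 z = 0 := by
    rw [hX1, integral_sub (hI B1 hU hB1c hc1 hs1 1 Complex.I) (hI B1 hU hB1c hc1 hs1 Complex.I 1),
      integral_cross_eq U B1 hU hB1c hc1 hs1, sub_self]
  have hX2z : ∫ z, X2 z = 0 := by
    rw [hX2, integral_sub (hI B2 hU hB2c hc2 hs2 1 Complex.I) (hI B2 hU hB2c hc2 hs2 Complex.I 1),
      integral_cross_eq U B2 hU hB2c hc2 hs2, sub_self]
  have hQ1 := integrable_gradDot U B1 hU hB1c hc1 hs1
  have hQ2 := integrable_gradDot U B2 hU hB2c hc2 hs2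
  have hpt : ∀ z, gradB U z * (fderiv ℝ ψ z 1 + Complex.I * fderiv ℝ ψ z Complex.I)
      = ((gradDot U B1 z - X2 z : ℝ) : ℂ) + Complex.I * ((gradDot U B2 z + X1 z : ℝ) : ℂ) := by
    intro z
    have e1 : fderiv ℝ ψ z 1 = ((fderiv ℝ B1 z 1 : ℝ) : ℂ) + Complex.I * ((fderiv ℝ B2 z 1 : ℝ) : ℂ) := by
      rw [hd1, hd2, mul_comm]; exact (Complex.re_add_im _).symm
    have e2 : fderiv ℝ ψ z Complex.I
        = ((fderiv ℝ B1 z Complex.I : ℝ) : ℂ) + Complex.I * ((fderiv ℝ B2 z Complex.I : ℝ) : ℂ) := by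
      rw [hd1, hd2, mul_comm]; exact (Complex.re_add_im _).symm
    rw [e1, e2]
    simp only [gradB, gradDot, hX1, hX2]
    apply Complex.ext <;> simp <;> ring
  simp_rw [hpt]
  have hi1 : Integrable (fun z => ((gradDot U B1 z - X2 z : ℝ) : ℂ)) := (hQ1.sub hX2i).ofReal
  have hi2 : Integrable (fun z => Complex.I * ((gradDot U B2 z + X1 z : ℝ) : ℂ)) :=
    ((hQ2.add hX1i).ofReal).const_mul _
  have r1 : ∫ a, ((gradDot U B1 a - X2 a : ℝ) : ℂ)
      = ((∫ a, (gradDot U B1 a - X2 a) : ℝ) : ℂ) := integral_ofReal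
  have r2 : ∫ a, Complex.I * ((gradDot U B2 a + X1 a : ℝ) : ℂ)
      = Complex.I * ((∫ a, (gradDot U B2 a + X1 a) : ℝ) : ℂ) := by
    rw [integral_const_mul]
    congr 1
    exact integral_ofReal
  rw [integral_add hi1 hi2, r1, r2, integral_sub hQ1 hX2i, integral_add hQ2 hX1i, hX1z, hX2z,
    sub_zero, add_zero]

end Fermat.Agent.S21.helper2377
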