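/-
helper2377: S21 Route 2, leaf VAR (Dirichlet principle) — complete proof of `helper801.StmtVAR N`
from the group-action layer, in hypothesis-passing form:

  theorem stmtVAR_of (N : ℕ)
      (hW : ∃ w : ℍ → ℝ≥0∞, Measurable w ∧ ∀ z, ∑' γ : Gamma0 N, w (γ • z) = 1)       -- (W1)
      (hA : LocFin N)                                                                  -- (A1)
      (hM2 : ∃ M : ℕ, ∀ σ z, {γ : Gamma0 N | σ⁻¹ • (γ • z) ∈ cuspStrip N}.encard ≤ M)  -- (M2)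
      : helper801.StmtVAR N

Proof: minimizing sequence (no completeness) for the energy in `L²(w dμ)` over the variations
`u₀ - v`, `v` invariant `C¹` of finite energy; the averages `avg N B` of test functions are such
variations; unfolding turns the first variation into `∫ ⟨∇u, ∇B⟩` on `ℂ`; integration by parts
kills the cross term.
-/
import Fermat.Agent.S21.helper801_HodgeSpec
import Fermat.Agent.S21.helper2377_VarAux

set_option autoImplicit false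

namespace Fermat.Agent.S21.helper2377

open ModularCurve ModularCurve.Period CongruenceSubgroup UpperHalfPlane MeasureTheory Filter
  Topology
open Fermat.Agent.S21.helper801
open scoped MatrixGroups ENNReal

noncomputable section

/-! ### `L²` bookkeeping -/

theorem eLpNorm_two_sq {α : Type*} [MeasurableSpace α] (μ : Measure α) (f : α → ℂ) :
    eLpNorm f 2 μ ^ 2 = ∫⁻ z, ‖f z‖ₑ ^ 2 ∂μ := by
  have h := eLpNorm_nnreal_pow_eq_lintegral (μ := μ) (f := f) (p := 2) two_ne_zero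
  have h2 : ((2 : NNReal) : ℝ) = 2 := by norm_num
  rw [h2] at h
  simp only [ENNReal.rpow_two] at h
  exact_mod_cast h

theorem memLp_two_iff_lintegral {α : Type*} [MeasurableSpace α] (μ : Measure α) (f : α → ℂ)
    (hf : AEStronglyMeasurable f μ) : MemLp f 2 μ ↔ ∫⁻ z, ‖f z‖ₑ ^ 2 ∂μ < ⊤ := by
  rw [← eLpNorm_two_sq]
  constructor
  · intro h
    exact ENNReal.pow_lt_top h.2
  · intro h
    refine ⟨hf, ?_⟩
    by_contra hcon
    rw [not_lt, top_le_iff] at hcon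
    rw [hcon] at h
    simp at h

theorem ofReal_norm_toLp_sq {α : Type*} [MeasurableSpace α] (μ : Measure α) (f : α → ℂ)
    (hf : MemLp f 2 μ) : ENNReal.ofReal (‖hf.toLp f‖ ^ 2) = ∫⁻ z, ‖f z‖ₑ ^ 2 ∂μ := by
  rw [Lp.norm_toLp, ← eLpNorm_two_sq, ENNReal.ofReal_pow ENNReal.toReal_nonneg,
    ENNReal.ofReal_toReal hf.2.ne]

theorem complex_real_inner (a b : ℂ) : inner ℝ a b = a.re * b.re + a.im * b.im := by
  simp
  ring

theorem inner_toLp {α : Type*} [MeasurableSpace α] (μ : Measure α) (f g : α → ℂ)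
    (hf : MemLp f 2 μ) (hg : MemLp g 2 μ) :
    inner ℝ (hf.toLp f) (hg.toLp g) = ∫ z, inner ℝ (f z) (g z) ∂μ := by
  rw [L2.inner_def]
  refine integral_congr_ae ?_
  filter_upwards [hf.coeFn_toLp, hg.coeFn_toLp] with z h1 h2
  rw [h1, h2]

/-! ### Potentials and their gradients -/

variable {N : ℕ} {φ φ' : Additive (Gamma0 N) →+ ℝ} {u v : ℍ → ℝ}

theorem gradC_eq_gradB (u : ℍ → ℝ) (z : ℂ) : gradC u z = gradB (u ∘ ofComplex) z := rfl

theorem isPot_differentiableAt (hu : IsPot N φ u) (z : ℍ) :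
    DifferentiableAt ℝ (u ∘ ofComplex) (z : ℂ) :=
  (hu.contDiffOn.differentiableOn one_ne_zero).differentiableAt
    (isOpen_upperHalfPlaneSet.mem_nhds z.im_pos)

theorem gradC_add_smul {z : ℂ} (hu : DifferentiableAt ℝ (u ∘ ofComplex) z)
    (hv : DifferentiableAt ℝ (v ∘ ofComplex) z) (t : ℝ) :
    gradC (u + t • v) z = gradC u z + t * gradC v z := by
  have e : (u + t • v) ∘ ofComplex = (u ∘ ofComplex) + t • (v ∘ ofComplex) := rfl
  unfold gradC
  rw [e, fderiv_add hu (hv.const_smul t), fderiv_const_smul hv]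
  simp
  ring

theorem isPot_add_smul (hu : IsPot N φ u) (hv : IsPot N 0 v) (t : ℝ) :
    IsPot N φ (u + t • v) := by
  refine ⟨?_, ?_⟩
  · have e : (u + t • v) ∘ ofComplex = (u ∘ ofComplex) + t • (v ∘ ofComplex) := rfl
    rw [e]
    exact hu.contDiffOn.add (hv.contDiffOn.const_smul t)
  · intro γ z
    simp only [Pi.add_apply, Pi.smul_apply, smul_eq_mul, hu.map_smul γ z, hv.map_smul γ z,
      AddMonoidHom.zero_apply, add_zero]
    ring

theorem isPot_sub (hu : IsPot N φ u) (hv : IsPot N φ v) :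
    IsPot N 0 (u + (-1 : ℝ) • v) := by
  refine ⟨?_, ?_⟩
  · have e : (u + (-1 : ℝ) • v) ∘ ofComplex = (u ∘ ofComplex) + (-1 : ℝ) • (v ∘ ofComplex) := rfl
    rw [e]
    exact hu.contDiffOn.add (hv.contDiffOn.const_smul (-1 : ℝ))
  · intro γ z
    simp only [Pi.add_apply, Pi.smul_apply, smul_eq_mul, hu.map_smul γ z, hv.map_smul γ z,
      AddMonoidHom.zero_apply, add_zero]
    ring

theorem isPot_zero : IsPot N 0 (0 : ℍ → ℝ) := by
  refine ⟨?_, ?_⟩
  · have e : (0 : ℍ → ℝ) ∘ ofComplex = fun _ => (0 : ℝ) := rfl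
    rw [e]
    exact contDiffOn_const
  · intro γ z
    simp

/-- The hyperbolic gradient `y · (u_x - i u_y)` as a function on `ℍ`. -/
def gr (u : ℍ → ℝ) (z : ℍ) : ℂ := (z.im : ℂ) * gradC u ↑z

theorem gr_add_smul (hu : IsPot N φ u) (hv : IsPot N φ' v) (t : ℝ) :
    gr (u + t • v) = gr u + t • gr v := by
  funext z
  simp only [gr, Pi.add_apply, Pi.smul_apply,
    gradC_add_smul (isPot_differentiableAt hu z) (isPot_differentiableAt hv z) t,
    Complex.real_smul]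
  ring

theorem gr_zero : gr (0 : ℍ → ℝ) = 0 := by
  funext z
  have e : (0 : ℍ → ℝ) ∘ ofComplex = fun _ => (0 : ℝ) := rfl
  simp [gr, gradC, e]

theorem continuous_gradC_coe (hu : IsPot N φ u) : Continuous fun z : ℍ => gradC u ↑z :=
  hu.continuousOn_gradC.comp_continuous continuous_coe (fun z => z.im_pos)

theorem continuous_gr (hu : IsPot N φ u) : Continuous (gr u) :=
  (Complex.continuous_ofReal.comp continuous_im).mul (continuous_gradC_coe hu)

/-- The invariant energy density `|a|² y²`. -/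
def dens (a : ℂ → ℂ) (z : ℍ) : ℝ≥0∞ := ‖a ↑z‖ₑ ^ 2 * ENNReal.ofReal (z.im ^ 2)

theorem dens_eq_ofReal (a : ℂ → ℂ) (z : ℍ) :
    dens a z = ENNReal.ofReal (‖a ↑z‖ ^ 2 * z.im ^ 2) := by
  rw [dens, ENNReal.ofReal_mul (by positivity), ENNReal.ofReal_pow (norm_nonneg _),
    ofReal_norm]

theorem enorm_gr_sq (u : ℍ → ℝ) (z : ℍ) : ‖gr u z‖ₑ ^ 2 = dens (gradC u) z := by
  rw [dens_eq_ofReal, gr, enorm_mul, mul_pow, ← ofReal_norm, ← ofReal_norm,
    ← ENNReal.ofReal_pow (norm_nonneg _), ← ENNReal.ofReal_pow (norm_nonneg _),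
    ← ENNReal.ofReal_mul (by positivity)]
  congr 1
  rw [Complex.norm_real, Real.norm_eq_abs, sq_abs]
  ring

theorem dens_smul (a : ℂ → ℂ) (g : SL(2, ℤ)) (z : ℍ)
    (h : a ↑(g • z) = ((g 1 0 : ℂ) * (z : ℂ) + (g 1 1 : ℂ)) ^ 2 * a ↑z) :
    dens a (g • z) = dens a z := by
  rw [dens_eq_ofReal, dens_eq_ofReal, h, ModularGroup.im_smul_eq_div_normSq]
  congr 1
  have hd : denom g z = (g 1 0 : ℂ) * (z : ℂ) + (g 1 1 : ℂ) := ModularGroup.denom_apply g z
  have hd0 : denom g z ≠ 0 := denom_ne_zero g z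
  rw [← hd, Complex.normSq_eq_norm_sq, norm_mul, norm_pow]
  have hn : ‖denom g z‖ ≠ 0 := norm_ne_zero_iff.mpr hd0
  field_simp

theorem isPot_dens_smul (hu : IsPot N φ u) (γ : Gamma0 N) (z : ℍ) :
    dens (gradC u) ((γ : SL(2, ℤ)) • z) = dens (gradC u) z :=
  dens_smul _ _ _ (hu.gradC_smul γ z)

theorem isPot_measurable_dens (hu : IsPot N φ u) : Measurable (dens (gradC u)) := by
  have h : Continuous fun z : ℍ => ‖gradC u ↑z‖ ^ 2 * z.im ^ 2 :=
    ((continuous_gradC_coe hu).norm.pow 2).mul (continuous_im.pow 2)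
  have e : dens (gradC u) = fun z : ℍ => ENNReal.ofReal (‖gradC u ↑z‖ ^ 2 * z.im ^ 2) :=
    funext fun z => dens_eq_ofReal _ z
  rw [e]
  exact ENNReal.measurable_ofReal.comp h.measurable

/-- The weighted measure `w dμ` on `ℍ`. -/
def nu (w : ℍ → ℝ≥0∞) : Measure ℍ := (volume : Measure ℍ).withDensity w

theorem lintegral_nu_gr {w : ℍ → ℝ≥0∞} (hw : Measurable w) (hu : IsPot N φ u) :
    ∫⁻ z, ‖gr u z‖ₑ ^ 2 ∂(nu w) = ∫⁻ z, w z * dens (gradC u) z := by
  simp_rw [enorm_gr_sq]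
  rw [nu, lintegral_withDensity_eq_lintegral_mul _ hw (isPot_measurable_dens hu)]
  rfl

theorem memLp_gr_iff {w : ℍ → ℝ≥0∞} (hw : Measurable w) (hu : IsPot N φ u) :
    MemLp (gr u) 2 (nu w) ↔ ∫⁻ z, w z * dens (gradC u) z < ⊤ := by
  rw [memLp_two_iff_lintegral _ _ (continuous_gr hu).aestronglyMeasurable, lintegral_nu_gr hw hu]

theorem ofReal_norm_toLp_gr {w : ℍ → ℝ≥0∞} (hw : Measurable w) (hu : IsPot N φ u)
    (h : MemLp (gr u) 2 (nu w)) :
    ENNReal.ofReal (‖h.toLp (gr u)‖ ^ 2) = ∫⁻ z, w z * dens (gradC u) z := by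
  rw [ofReal_norm_toLp_sq, lintegral_nu_gr hw hu]

theorem toLp_gr_add_smul {w : ℍ → ℝ≥0∞} (hu : IsPot N φ u) (hv : IsPot N φ' v) (t : ℝ)
    (hmu : MemLp (gr u) 2 (nu w)) (hmv : MemLp (gr v) 2 (nu w)) :
    ∃ h : MemLp (gr (u + t • v)) 2 (nu w),
      h.toLp (gr (u + t • v)) = hmu.toLp (gr u) + t • hmv.toLp (gr v) := by
  rw [gr_add_smul hu hv t]
  exact ⟨hmu.add (hmv.const_smul t), rfl⟩

/-! ### Averaging test functions over `Γ₀(N)` -/

/-- Local finiteness of the action (hypothesis (A1), supplied by the group-action layer). -/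
def LocFin (N : ℕ) : Prop :=
  ∀ K L : Set ℍ, IsCompact K → IsCompact L →
    {γ : Gamma0 N | ∃ z ∈ K, (γ : SL(2, ℤ)) • z ∈ L}.Finite

/-- `B ∘ (g • ·)` as a function on `ℂ`. -/
def tr (g : SL(2, ℤ)) (B : ℂ → ℝ) (w : ℂ) : ℝ := B ↑(g • ofComplex w)

/-- The `Γ₀(N)`-average of a test function. -/
def avg (N : ℕ) (B : ℂ → ℝ) (z : ℍ) : ℝ := ∑ᶠ γ : Gamma0 N, B ↑((γ : SL(2, ℤ)) • z)

theorem isCompact_coe_preimage {K : Set ℂ} (hK : IsCompact K) (hKU : K ⊆ upperHalfPlaneSet) :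
    IsCompact ((↑) ⁻¹' K : Set ℍ) := by
  rw [isEmbedding_coe.isInducing.isCompact_preimage_iff]
  · exact hK
  · rw [range_coe]; exact hKU

theorem avg_local (hA : LocFin N) (B : ℂ → ℝ) (hc : HasCompactSupport B)
    (hs : tsupport B ⊆ upperHalfPlaneSet) (z0 : ℍ) :
    ∃ F : Finset (Gamma0 N),
      (∀ γ : Gamma0 N, γ ∉ F → (↑((γ : SL(2, ℤ)) • z0) : ℂ) ∉ tsupport B) ∧
      ∀ᶠ w in 𝓝 (z0 : ℂ), (avg N B ∘ ofComplex) w = ∑ γ ∈ F, tr (γ : SL(2, ℤ)) B w := by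
  set r : ℝ := z0.im / 2 with hr
  have hrpos : 0 < r := by have := z0.im_pos; positivity
  have hK0U : Metric.closedBall (z0 : ℂ) r ⊆ upperHalfPlaneSet := by
    intro w hw
    have h1 : |(w - (z0 : ℂ)).im| ≤ ‖w - (z0 : ℂ)‖ := Complex.abs_im_le_norm _
    have h2 : ‖w - (z0 : ℂ)‖ ≤ r := by simpa [dist_eq_norm] using hw
    have h3 : (w - (z0 : ℂ)).im = w.im - z0.im := by rw [Complex.sub_im]; rfl
    have h4 := (abs_le.mp (h1.trans h2)).1
    show 0 < w.im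
    rw [h3] at h4
    have := z0.im_pos
    linarith
  have hK : IsCompact ((↑) ⁻¹' Metric.closedBall (z0 : ℂ) r : Set ℍ) :=
    isCompact_coe_preimage (isCompact_closedBall _ _) hK0U
  have hL : IsCompact ((↑) ⁻¹' tsupport B : Set ℍ) := isCompact_coe_preimage hc hs
  refine ⟨(hA _ _ hK hL).toFinset, ?_, ?_⟩
  · intro γ hγ hmem
    apply hγ
    rw [Set.Finite.mem_toFinset]
    exact ⟨z0, by simp [hrpos.le], hmem⟩
  · filter_upwards [Metric.ball_mem_nhds (z0 : ℂ) hrpos] with w hw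
    have hwK : w ∈ Metric.closedBall (z0 : ℂ) r := Metric.ball_subset_closedBall hw
    have hwU : 0 < w.im := hK0U hwK
    have hcoe : ((ofComplex w : ℍ) : ℂ) = w := by rw [ofComplex_apply_of_im_pos hwU]
    show avg N B (ofComplex w) = _
    unfold avg tr
    apply finsum_eq_sum_of_support_subset
    intro γ hγ
    rw [Function.mem_support] at hγ
    rw [Finset.mem_coe, Set.Finite.mem_toFinset]
    refine ⟨ofComplex w, ?_, ?_⟩
    · show ((ofComplex w : ℍ) : ℂ) ∈ Metric.closedBall (z0 : ℂ) r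
      rw [hcoe]; exact hwK
    · show (↑((γ : SL(2, ℤ)) • ofComplex w) : ℂ) ∈ tsupport B
      exact subset_tsupport _ hγ

theorem avg_smul (B : ℂ → ℝ) (γ : Gamma0 N) (z : ℍ) :
    avg N B ((γ : SL(2, ℤ)) • z) = avg N B z := by
  unfold avg
  have h := finsum_comp_equiv (Equiv.mulRight γ) (f := fun δ : Gamma0 N => B ↑((δ : SL(2, ℤ)) • z))
  rw [← h]
  congr 1
  funext δ
  simp only [Equiv.coe_mulRight, Subgroup.coe_mul, mul_smul]

theorem mob_hasDerivAt (g : SL(2, ℤ)) (z : ℍ) :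
    HasDerivAt (fun w : ℂ => (↑(g • ofComplex w) : ℂ)) (1 / (denom g z) ^ 2) ↑z := by
  set G : GL (Fin 2) ℝ :=
    Matrix.SpecialLinearGroup.toGL ((Matrix.SpecialLinearGroup.map (Int.castRingHom ℝ)) g) with hG
  have hdet1 : (G : Matrix (Fin 2) (Fin 2) ℝ).det = 1 :=
    (Matrix.SpecialLinearGroup.map (Int.castRingHom ℝ) g).det_coe
  have hdet : 0 < (G : Matrix (Fin 2) (Fin 2) ℝ).det := by rw [hdet1]; exact one_pos
  have := (hasStrictDerivAt_smul hdet z).hasDerivAt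
  rw [hdet1] at this
  simpa using this

theorem mob_contDiffAt (g : SL(2, ℤ)) (z : ℍ) :
    ContDiffAt ℝ 1 (fun w : ℂ => (↑(g • ofComplex w) : ℂ)) ↑z := by
  set G : GL (Fin 2) ℝ :=
    Matrix.SpecialLinearGroup.toGL ((Matrix.SpecialLinearGroup.map (Int.castRingHom ℝ)) g) with hG
  have hdet1 : (G : Matrix (Fin 2) (Fin 2) ℝ).det = 1 :=
    (Matrix.SpecialLinearGroup.map (Int.castRingHom ℝ) g).det_coe
  have hdet : 0 < (G : Matrix (Fin 2) (Fin 2) ℝ).det := by rw [hdet1]; exact one_pos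
  have h := (analyticAt_smul hdet z).contDiffAt (n := 1)
  exact h.restrict_scalars ℝ

theorem tr_contDiffAt (g : SL(2, ℤ)) (B : ℂ → ℝ) (hB : ContDiff ℝ 1 B) (z : ℍ) :
    ContDiffAt ℝ 1 (tr g B) ↑z :=
  hB.contDiffAt.comp (↑z : ℂ) (mob_contDiffAt g z)

theorem gradB_tr (g : SL(2, ℤ)) (B : ℂ → ℝ) (hB : Differentiable ℝ B) (z : ℍ) :
    gradB (tr g B) ↑z = (1 / (denom g z) ^ 2) * gradB B ↑(g • z) := by
  have hmob := mob_hasDerivAt g z
  have hmobz : (↑(g • ofComplex (z : ℂ)) : ℂ) = ↑(g • z) := by rw [ofComplex_apply]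
  have hBd : DifferentiableAt ℝ B (↑(g • ofComplex (z : ℂ)) : ℂ) := hB _
  have hcomp := hBd.hasFDerivAt.comp (↑z : ℂ) (hmob.hasFDerivAt.restrictScalars ℝ)
  have hfd : fderiv ℝ (tr g B) ↑z = (fderiv ℝ B (↑(g • ofComplex (z : ℂ)) : ℂ)).comp
      (ContinuousLinearMap.restrictScalars ℝ
        (ContinuousLinearMap.toSpanSingleton ℂ (1 / (denom g z) ^ 2))) := hcomp.fderiv
  have key := clm_wirtinger (fderiv ℝ B (↑(g • ofComplex (z : ℂ)) : ℂ)) (1 / (denom g z) ^ 2)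
  unfold gradB
  rw [hfd, ← hmobz]
  simp only [ContinuousLinearMap.comp_apply, ContinuousLinearMap.coe_restrictScalars',
    ContinuousLinearMap.toSpanSingleton_apply, smul_eq_mul, one_mul]
  rw [key]

theorem isPot_avg (hA : LocFin N) (B : ℂ → ℝ) (hB : ContDiff ℝ 1 B) (hc : HasCompactSupport B)
    (hs : tsupport B ⊆ upperHalfPlaneSet) : IsPot N 0 (avg N B) := by
  refine ⟨?_, ?_⟩
  · intro z hz
    obtain ⟨F, -, hF⟩ := avg_local hA B hc hs ⟨z, hz⟩
    have h1 : ContDiffAt ℝ 1 (fun w => ∑ γ ∈ F, tr (γ : SL(2, ℤ)) B w) z :=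
      ContDiffAt.sum fun γ _ => tr_contDiffAt (γ : SL(2, ℤ)) B hB ⟨z, hz⟩
    exact (h1.congr_of_eventuallyEq hF).contDiffWithinAt
  · intro γ z
    rw [avg_smul, AddMonoidHom.zero_apply, add_zero]

theorem gradC_avg (hA : LocFin N) (B : ℂ → ℝ) (hB : ContDiff ℝ 1 B) (hc : HasCompactSupport B)
    (hs : tsupport B ⊆ upperHalfPlaneSet) (z0 : ℍ) :
    ∃ F : Finset (Gamma0 N),
      (∀ γ : Gamma0 N, γ ∉ F → (↑((γ : SL(2, ℤ)) • z0) : ℂ) ∉ tsupport B) ∧
      gradC (avg N B) ↑z0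
        = ∑ γ ∈ F, (1 / (denom (γ : SL(2, ℤ)) z0) ^ 2) * gradB B ↑((γ : SL(2, ℤ)) • z0) := by
  obtain ⟨F, hF1, hF2⟩ := avg_local hA B hc hs z0
  refine ⟨F, hF1, ?_⟩
  have hd : ∀ γ ∈ F, DifferentiableAt ℝ (tr ((γ : Gamma0 N) : SL(2, ℤ)) B) (z0 : ℂ) :=
    fun γ _ => (tr_contDiffAt _ B hB z0).differentiableAt one_ne_zero
  have e1 : fderiv ℝ (avg N B ∘ ofComplex) ↑z0
      = ∑ γ ∈ F, fderiv ℝ (tr ((γ : Gamma0 N) : SL(2, ℤ)) B) ↑z0 := by
    have hF2' : (avg N B ∘ ofComplex) =ᶠ[𝓝 (z0 : ℂ)]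
        (fun w => ∑ γ ∈ F, tr ((γ : Gamma0 N) : SL(2, ℤ)) B w) := hF2
    rw [hF2'.fderiv_eq, fderiv_fun_sum hd]
  have e2 : gradC (avg N B) ↑z0 = ∑ γ ∈ F, gradB (tr ((γ : Gamma0 N) : SL(2, ℤ)) B) ↑z0 := by
    unfold gradC gradB
    rw [e1]
    simp only [_root_.sum_apply, Complex.ofReal_sum,
      Finset.mul_sum, Finset.sum_sub_distrib]
  rw [e2]
  refine Finset.sum_congr rfl fun γ _ => ?_
  exact gradB_tr _ B (hB.differentiable one_ne_zero) z0

/-! ### Energy of averages and the unfolded pairing -/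

theorem gradB_eq_zero_of_notMem {B : ℂ → ℝ} {z : ℂ} (hz : z ∉ tsupport B) : gradB B z = 0 := by
  unfold gradB
  rw [fderiv_of_notMem_tsupport (𝕜 := ℝ) hz]
  simp

theorem continuous_gradB {B : ℂ → ℝ} (hB : ContDiff ℝ 1 B) : Continuous (gradB B) := by
  have h1 : Continuous (fderiv ℝ B) := hB.continuous_fderiv one_ne_zero
  have h2 : ∀ v : ℂ, Continuous fun z => fderiv ℝ B z v := fun v => h1.clm_apply continuous_const
  unfold gradB
  exact (Complex.continuous_ofReal.comp (h2 1)).sub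
    (continuous_const.mul (Complex.continuous_ofReal.comp (h2 Complex.I)))

theorem avg_memLp {w : ℍ → ℝ≥0∞} (hw : Measurable w)
    (hsum : ∀ z : ℍ, ∑' γ : Gamma0 N, w ((γ : SL(2, ℤ)) • z) = 1) (hA : LocFin N)
    (B : ℂ → ℝ) (hB : ContDiff ℝ 1 B) (hc : HasCompactSupport B)
    (hs : tsupport B ⊆ upperHalfPlaneSet) : MemLp (gr (avg N B)) 2 (nu w) := by
  have hpot := isPot_avg hA B hB hc hs
  rw [memLp_gr_iff hw hpot]
  set L : Set ℍ := (↑) ⁻¹' tsupport B with hL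
  have hLc : IsCompact L := isCompact_coe_preimage hc hs
  have hcov : ∀ z : ℍ, dens (gradC (avg N B)) z ≠ 0 →
      ∃ γ : Gamma0 N, (γ : SL(2, ℤ)) • z ∈ L := by
    intro z hz
    obtain ⟨F, hF1, hF2⟩ := gradC_avg hA B hB hc hs z
    by_contra hcon
    rw [not_exists] at hcon
    apply hz
    have h0 : gradC (avg N B) ↑z = 0 := by
      rw [hF2]
      refine Finset.sum_eq_zero fun γ _ => ?_
      have h1 : (↑((γ : SL(2, ℤ)) • z) : ℂ) ∉ tsupport B := hcon γ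
      rw [gradB_eq_zero_of_notMem h1, mul_zero]
    simp [dens, h0]
  refine (lintegral_weight_le_of_cover hw hsum _ (isPot_measurable_dens hpot)
    (fun γ z => isPot_dens_smul hpot γ z) L hLc.measurableSet hcov).trans_lt ?_
  have hcont : Continuous fun z : ℍ => ‖gradC (avg N B) ↑z‖ ^ 2 * z.im ^ 2 :=
    ((continuous_gradC_coe hpot).norm.pow 2).mul (continuous_im.pow 2)
  obtain ⟨C, hC⟩ := hLc.exists_bound_of_continuousOn hcont.continuousOn
  calc ∫⁻ z in L, dens (gradC (avg N B)) z ≤ ∫⁻ z in L, ENNReal.ofReal C := by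
        refine setLIntegral_mono measurable_const fun z hz => ?_
        rw [dens_eq_ofReal]
        exact ENNReal.ofReal_le_ofReal ((le_abs_self _).trans (hC z hz))
    _ = ENNReal.ofReal C * volume L := by rw [setLIntegral_const]
    _ < ⊤ := ENNReal.mul_lt_top ENNReal.ofReal_lt_top hLc.measure_lt_top

/-- The unfolded integrand `y² ⟨∇u, ∇B⟩`. -/
def pairH (u : ℍ → ℝ) (B : ℂ → ℝ) (z : ℍ) : ℝ := z.im ^ 2 * inner ℝ (gradC u ↑z) (gradB B ↑z)

open scoped ComplexConjugate in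
theorem inner_alg (y : ℝ) (a b d : ℂ) (hd : d ≠ 0) :
    inner ℝ ((y : ℂ) * a) ((y : ℂ) * ((1 / d ^ 2) * b))
      = (y / Complex.normSq d) ^ 2 * inner ℝ (d ^ 2 * a) b := by
  have hN : ((Complex.normSq d : ℝ) : ℂ) = d * conj d := (Complex.mul_conj d).symm
  have hcd : conj d ≠ 0 := by simpa using hd
  have h1 : ∀ p q : ℂ, inner ℝ p q = (conj p * q).re := fun p q => by
    simp [Complex.mul_re]
    ring
  rw [h1, h1, ← Complex.re_ofReal_mul]
  congr 1
  push_cast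
  rw [hN]
  simp only [map_mul, map_pow, Complex.conj_ofReal]
  field_simp

theorem inner_gr_tr (hu : IsPot N φ u) (γ : Gamma0 N) (z : ℍ) (B : ℂ → ℝ) :
    inner ℝ ((z.im : ℂ) * gradC u ↑z)
        ((z.im : ℂ) * ((1 / (denom (γ : SL(2, ℤ)) z) ^ 2) * gradB B ↑((γ : SL(2, ℤ)) • z)))
      = pairH u B ((γ : SL(2, ℤ)) • z) := by
  have hd : denom (γ : SL(2, ℤ)) z
      = (((γ : SL(2, ℤ)) 1 0 : ℂ) * (z : ℂ) + ((γ : SL(2, ℤ)) 1 1 : ℂ)) :=
    ModularGroup.denom_apply _ z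
  have hd0 : denom (γ : SL(2, ℤ)) z ≠ 0 := denom_ne_zero _ z
  unfold pairH
  rw [hu.gradC_smul γ z, ModularGroup.im_smul_eq_div_normSq, ← hd]
  exact inner_alg _ _ _ _ hd0

theorem inner_gr_avg (hu : IsPot N φ u) (hA : LocFin N) (B : ℂ → ℝ) (hB : ContDiff ℝ 1 B)
    (hc : HasCompactSupport B) (hs : tsupport B ⊆ upperHalfPlaneSet) (z : ℍ) :
    inner ℝ (gr u z) (gr (avg N B) z) = ∑' γ : Gamma0 N, pairH u B ((γ : SL(2, ℤ)) • z) := by
  obtain ⟨F, hF1, hF2⟩ := gradC_avg hA B hB hc hs z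
  rw [tsum_eq_sum (s := F) (fun γ hγ => by
    unfold pairH
    rw [gradB_eq_zero_of_notMem (hF1 γ hγ), inner_zero_right, mul_zero])]
  unfold gr
  rw [hF2, Finset.mul_sum, inner_sum]
  exact Finset.sum_congr rfl fun γ _ => inner_gr_tr hu γ z B

theorem continuous_pairH (hu : IsPot N φ u) {B : ℂ → ℝ} (hB : ContDiff ℝ 1 B) :
    Continuous (pairH u B) :=
  (continuous_im.pow 2).mul
    ((continuous_gradC_coe hu).inner ((continuous_gradB hB).comp continuous_coe))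

theorem integrable_pairH (hu : IsPot N φ u) {B : ℂ → ℝ} (hB : ContDiff ℝ 1 B)
    (hc : HasCompactSupport B) (hs : tsupport B ⊆ upperHalfPlaneSet) :
    Integrable (pairH u B) := by
  refine (continuous_pairH hu hB).integrable_of_hasCompactSupport ?_
  refine HasCompactSupport.intro (isCompact_coe_preimage hc hs) fun z hz => ?_
  unfold pairH
  rw [gradB_eq_zero_of_notMem hz, inner_zero_right, mul_zero]

theorem inner_toLp_gr_avg {w : ℍ → ℝ≥0∞} (hw : Measurable w)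
    (hsum : ∀ z : ℍ, ∑' γ : Gamma0 N, w ((γ : SL(2, ℤ)) • z) = 1) (hA : LocFin N)
    (hu : IsPot N φ u) (hmu : MemLp (gr u) 2 (nu w)) (B : ℂ → ℝ) (hB : ContDiff ℝ 1 B)
    (hc : HasCompactSupport B) (hs : tsupport B ⊆ upperHalfPlaneSet)
    (hmB : MemLp (gr (avg N B)) 2 (nu w)) :
    inner ℝ (hmu.toLp (gr u)) (hmB.toLp (gr (avg N B))) = ∫ z, gradDot (u ∘ ofComplex) B z := by
  have hw1 : ∀ᵐ z ∂(volume : Measure ℍ), w z < ⊤ :=
    Filter.Eventually.of_forall fun z => lt_of_le_of_lt (weight_le_one hsum z) ENNReal.one_lt_top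
  rw [inner_toLp, nu, integral_withDensity_eq_integral_toReal_smul hw hw1]
  simp_rw [inner_gr_avg hu hA B hB hc hs, smul_eq_mul]
  rw [integral_unfold hw hsum (pairH u B) (continuous_pairH hu hB).measurable
    (integrable_pairH hu hB hc hs)]
  have e : ∫ z : ℍ, pairH u B z
      = ∫ z in upperHalfPlaneSet, inner ℝ (gradC u z) (gradB B z) :=
    integral_hyp_eq (fun z : ℂ => inner ℝ (gradC u z) (gradB B z))
  rw [e, setIntegral_eq_integral_of_forall_compl_eq_zero]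
  · refine integral_congr_ae (Filter.Eventually.of_forall fun z => ?_)
    show inner ℝ (gradC u z) (gradB B z) = gradDot (u ∘ ofComplex) B z
    rw [gradC_eq_gradB, complex_real_inner]
    simp [gradB, gradDot]
  · intro z hz
    have hz' : z ∉ tsupport B := fun h => hz (hs h)
    rw [gradB_eq_zero_of_notMem hz', inner_zero_right]

/-! ### Local and cuspidal bounds by the energy -/

theorem compact_count (hA : LocFin N) (K : Set ℍ) (hK : IsCompact K) :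
    ∃ M : ℕ, ∀ z : ℍ, {γ : Gamma0 N | (γ : SL(2, ℤ)) • z ∈ K}.encard ≤ M := by
  have hF := hA K K hK hK
  refine ⟨hF.toFinset.card, fun z => ?_⟩
  by_cases hz : ∃ γ₀ : Gamma0 N, (γ₀ : SL(2, ℤ)) • z ∈ K
  · obtain ⟨γ₀, hγ₀⟩ := hz
    have hsub : {γ : Gamma0 N | (γ : SL(2, ℤ)) • z ∈ K}
        ⊆ (fun δ : Gamma0 N => δ * γ₀) '' {γ : Gamma0 N | ∃ z ∈ K, (γ : SL(2, ℤ)) • z ∈ K} := by
      intro γ hγ
      refine ⟨γ * γ₀⁻¹, ⟨(γ₀ : SL(2, ℤ)) • z, hγ₀, ?_⟩, by group⟩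
      have h1 : (((γ * γ₀⁻¹ : Gamma0 N)) : SL(2, ℤ)) • ((γ₀ : SL(2, ℤ)) • z)
          = (γ : SL(2, ℤ)) • z := by
        rw [← mul_smul]
        congr 1
        simp
      rw [h1]
      exact hγ
    calc {γ : Gamma0 N | (γ : SL(2, ℤ)) • z ∈ K}.encard
        ≤ ((fun δ : Gamma0 N => δ * γ₀) ''
            {γ : Gamma0 N | ∃ z ∈ K, (γ : SL(2, ℤ)) • z ∈ K}).encard := Set.encard_le_encard hsub
      _ ≤ {γ : Gamma0 N | ∃ z ∈ K, (γ : SL(2, ℤ)) • z ∈ K}.encard := Set.encard_image_le _ _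
      _ = (hF.toFinset.card : ℕ∞) := hF.encard_eq_coe_toFinset_card
  · have h0 : {γ : Gamma0 N | (γ : SL(2, ℤ)) • z ∈ K} = ∅ := by
      ext γ
      simp only [Set.mem_ofPred_eq, Set.mem_empty_iff_false, iff_false]
      exact fun h => hz ⟨γ, h⟩
    rw [h0]
    simp

theorem setLIntegral_compact_le {w : ℍ → ℝ≥0∞} (hw : Measurable w)
    (hsum : ∀ z : ℍ, ∑' γ : Gamma0 N, w ((γ : SL(2, ℤ)) • z) = 1) (hA : LocFin N)
    (K : Set ℂ) (hK : IsCompact K) (hKU : K ⊆ upperHalfPlaneSet) :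
    ∃ M : ℕ, ∀ (D : ℍ → ℝ), IsPot N 0 D →
      ∫⁻ z in K, ‖gradC D z‖ₑ ^ 2 ≤ M * ∫⁻ z, w z * dens (gradC D) z := by
  obtain ⟨M, hM⟩ := compact_count hA _ (isCompact_coe_preimage hK hKU)
  refine ⟨M, fun D hD => ?_⟩
  have hKm : MeasurableSet ((↑) ⁻¹' K : Set ℍ) := (isCompact_coe_preimage hK hKU).measurableSet
  have e : ∫⁻ z in K, ‖gradC D z‖ₑ ^ 2 = ∫⁻ z in ((↑) ⁻¹' K : Set ℍ), dens (gradC D) z := by
    rw [← lintegral_indicator hKm]
    have h1 : ∀ z : ℍ, ((↑) ⁻¹' K : Set ℍ).indicator (dens (gradC D)) z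
        = (K.indicator (fun z => ‖gradC D z‖ₑ ^ 2)) ↑z * ENNReal.ofReal (z.im ^ 2) := by
      intro z
      by_cases hz : (z : ℂ) ∈ K
      · rw [Set.indicator_of_mem (show z ∈ ((↑) ⁻¹' K : Set ℍ) from hz), Set.indicator_of_mem hz]
        rfl
      · rw [Set.indicator_of_notMem (show z ∉ ((↑) ⁻¹' K : Set ℍ) from hz),
          Set.indicator_of_notMem hz, zero_mul]
    simp_rw [h1]
    rw [lintegral_hyp_eq, lintegral_indicator hK.measurableSet,
      Measure.restrict_restrict hK.measurableSet, Set.inter_eq_left.mpr hKU]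
  rw [e]
  exact setLIntegral_le_of_count hw hsum _ (isPot_measurable_dens hD)
    (fun γ z => isPot_dens_smul hD γ z) _ hKm M hM

theorem measurableSet_cuspStrip : MeasurableSet (cuspStrip N) := by
  have h : IsClosed (cuspStrip N) :=
    (isClosed_le (continuous_abs.comp UpperHalfPlane.continuous_re) continuous_const).inter
      (isClosed_le continuous_const UpperHalfPlane.continuous_im)
  exact h.measurableSet

theorem setLIntegral_strip_le {w : ℍ → ℝ≥0∞} (hw : Measurable w)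
    (hsum : ∀ z : ℍ, ∑' γ : Gamma0 N, w ((γ : SL(2, ℤ)) • z) = 1) (M : ℕ)
    (hM : ∀ (σ : SL(2, ℤ)) (z : ℍ),
      {γ : Gamma0 N | σ⁻¹ • ((γ : SL(2, ℤ)) • z) ∈ cuspStrip N}.encard ≤ M)
    {D : ℍ → ℝ} (hD : IsPot N φ D) (σ : SL(2, ℤ)) :
    ∫⁻ z in cuspStrip N, ‖gradC D ↑(σ • z)‖ₑ ^ 2 * ENNReal.ofReal ((σ • z).im ^ 2)
      ≤ M * ∫⁻ z, w z * dens (gradC D) z := by
  set S : Set ℍ := {z | σ⁻¹ • z ∈ cuspStrip N} with hS
  have hSm : MeasurableSet S := (measurable_sl_smul σ⁻¹) measurableSet_cuspStrip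
  have e : ∫⁻ z in cuspStrip N, ‖gradC D ↑(σ • z)‖ₑ ^ 2 * ENNReal.ofReal ((σ • z).im ^ 2)
      = ∫⁻ z in S, dens (gradC D) z := by
    rw [← lintegral_indicator measurableSet_cuspStrip, ← lintegral_indicator hSm,
      ← lintegral_sl_smul σ (S.indicator (dens (gradC D)))
        ((isPot_measurable_dens hD).indicator hSm)]
    congr 1
    funext z
    by_cases hz : z ∈ cuspStrip N
    · have hz' : σ • z ∈ S := by
        show σ⁻¹ • (σ • z) ∈ cuspStrip N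
        rw [inv_smul_smul]; exact hz
      rw [Set.indicator_of_mem hz, Set.indicator_of_mem hz']
      rfl
    · have hz' : σ • z ∉ S := by
        show ¬ (σ⁻¹ • (σ • z) ∈ cuspStrip N)
        rw [inv_smul_smul]; exact hz
      rw [Set.indicator_of_notMem hz, Set.indicator_of_notMem hz']
  rw [e]
  exact setLIntegral_le_of_count hw hsum _ (isPot_measurable_dens hD)
    (fun γ z => isPot_dens_smul hD γ z) S hSm M (fun z => hM σ z)

/-! ### The variational set and the main theorem -/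

/-- The `L²(w dμ)` classes of hyperbolic gradients of invariant `C¹` functions of finite
energy. -/
def varSet (N : ℕ) (w : ℍ → ℝ≥0∞) : Set (Lp ℂ 2 (nu w)) :=
  {x | ∃ v : ℍ → ℝ, IsPot N 0 v ∧ ∃ h : MemLp (gr v) 2 (nu w), x = h.toLp (gr v)}

theorem zero_mem_varSet (w : ℍ → ℝ≥0∞) : (0 : Lp ℂ 2 (nu w)) ∈ varSet N w := by
  refine ⟨0, isPot_zero, ?_⟩
  rw [gr_zero]
  exact ⟨MemLp.zero, (MemLp.toLp_zero _).symm⟩

theorem add_smul_mem_varSet (w : ℍ → ℝ≥0∞) :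
    ∀ s ∈ varSet N w, ∀ s' ∈ varSet N w, ∀ t : ℝ, s + t • s' ∈ varSet N w := by
  rintro s ⟨v, hv, hmv, rfl⟩ s' ⟨v', hv', hmv', rfl⟩ t
  obtain ⟨h, hh⟩ := toLp_gr_add_smul hv hv' t hmv hmv'
  exact ⟨v + t • v', isPot_add_smul hv hv' t, h, hh.symm⟩

theorem tendsto_rate (C : ℝ) :
    Tendsto (fun n : ℕ => C / (2 * Real.sqrt ((n : ℝ) + 1))) atTop (𝓝 0) := by
  refine tendsto_const_nhds.div_atTop ?_
  refine Tendsto.const_mul_atTop (by norm_num : (0 : ℝ) < 2) ?_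
  exact Real.tendsto_sqrt_atTop.comp
    (tendsto_atTop_add_const_right _ 1 tendsto_natCast_atTop_atTop)

theorem tendsto_rate_prod (M : ℕ) :
    Tendsto (fun p : ℕ × ℕ =>
      (M : ℝ≥0∞) * ENNReal.ofReal (2 / ((p.1 : ℝ) + 1) + 2 / ((p.2 : ℝ) + 1))) atTop (𝓝 0) := by
  have h1 : Tendsto (fun n : ℕ => 2 / ((n : ℝ) + 1)) atTop (𝓝 0) := by
    have := (tendsto_one_div_add_atTop_nhds_zero_nat (𝕜 := ℝ)).const_mul 2
    simpa [div_eq_mul_inv] using this
  have hfst : Tendsto (Prod.fst : ℕ × ℕ → ℕ) atTop atTop := by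
    rw [← prod_atTop_atTop_eq]; exact tendsto_fst
  have hsnd : Tendsto (Prod.snd : ℕ × ℕ → ℕ) atTop atTop := by
    rw [← prod_atTop_atTop_eq]; exact tendsto_snd
  have h2 : Tendsto (fun p : ℕ × ℕ => 2 / ((p.1 : ℝ) + 1) + 2 / ((p.2 : ℝ) + 1)) atTop (𝓝 0) := by
    simpa using (h1.comp hfst).add (h1.comp hsnd)
  have h3 := ENNReal.tendsto_ofReal h2
  have h4 := ENNReal.Tendsto.const_mul (a := (M : ℝ≥0∞)) h3 (Or.inr (ENNReal.natCast_ne_top M))
  simpa using h4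

/-- **(VAR)** from the group-action layer: a measurable partition weight (W1), local finiteness
(A1) and the uniform cusp-strip count (M2). -/
theorem stmtVAR_of (N : ℕ)
    (hW : ∃ w : ℍ → ℝ≥0∞, Measurable w ∧ ∀ z : ℍ, ∑' γ : Gamma0 N, w ((γ : SL(2, ℤ)) • z) = 1)
    (hA : LocFin N)
    (hM2 : ∃ M : ℕ, ∀ (σ : SL(2, ℤ)) (z : ℍ),
      {γ : Gamma0 N | σ⁻¹ • ((γ : SL(2, ℤ)) • z) ∈ cuspStrip N}.encard ≤ M) :
    StmtVAR N := by
  obtain ⟨w, hw, hsum⟩ := hW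
  obtain ⟨M2, hM2⟩ := hM2
  intro φ u0 hu0 hcert
  obtain ⟨B, hBm, hBcov, hBfin⟩ := hcert
  have hE0 : ∫⁻ z, w z * dens (gradC u0) z < ⊤ :=
    (lintegral_weight_le_of_cover hw hsum _ (isPot_measurable_dens hu0)
      (fun γ z => isPot_dens_smul hu0 γ z) B hBm (fun z _ => hBcov z)).trans_lt hBfin
  have hm0 : MemLp (gr u0) 2 (nu w) := (memLp_gr_iff hw hu0).mpr hE0
  set g0 := hm0.toLp (gr u0) with hg0
  obtain ⟨s, hsT, hbd, hcau, hort⟩ :=
    exists_minimizing_seq (varSet N w) (zero_mem_varSet w) (add_smul_mem_varSet w) g0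
  choose v hv hmv hsv using hsT
  have hu : ∀ n, IsPot N φ (u0 + (-1 : ℝ) • v n) := fun n => isPot_add_smul hu0 (hv n) _
  have hmu' : ∀ n, ∃ h : MemLp (gr (u0 + (-1 : ℝ) • v n)) 2 (nu w),
      h.toLp (gr (u0 + (-1 : ℝ) • v n)) = g0 - s n := by
    intro n
    obtain ⟨h, hh⟩ := toLp_gr_add_smul hu0 (hv n) (-1) hm0 (hmv n)
    refine ⟨h, ?_⟩
    rw [hh, hsv n, neg_one_smul, ← sub_eq_add_neg]
  choose hmu hmu_eq using hmu'
  have hEn : ∀ n, ∫⁻ z, w z * dens (gradC (u0 + (-1 : ℝ) • v n)) z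
      = ENNReal.ofReal (‖g0 - s n‖ ^ 2) := by
    intro n
    rw [← hmu_eq n, ofReal_norm_toLp_gr hw (hu n)]
  refine ⟨fun n => u0 + (-1 : ℝ) • v n, hu, ?_, ?_, ?_⟩
  · -- `L²_loc`-Cauchy
    intro K hK hKU
    obtain ⟨M, hM⟩ := setLIntegral_compact_le hw hsum hA K hK hKU
    have hle : ∀ p : ℕ × ℕ,
        ∫⁻ z in K, ‖gradC (u0 + (-1 : ℝ) • v p.1) z - gradC (u0 + (-1 : ℝ) • v p.2) z‖ₑ ^ 2
          ≤ (M : ℝ≥0∞) * ENNReal.ofReal (2 / ((p.1 : ℝ) + 1) + 2 / ((p.2 : ℝ) + 1)) := by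
      rintro ⟨n, m⟩
      have hDpot : IsPot N 0 ((u0 + (-1 : ℝ) • v n) + (-1 : ℝ) • (u0 + (-1 : ℝ) • v m)) :=
        isPot_sub (hu n) (hu m)
      obtain ⟨hmD, hmD_eq⟩ := toLp_gr_add_smul (hu n) (hu m) (-1) (hmu n) (hmu m)
      have e1 : ∫⁻ z in K, ‖gradC (u0 + (-1 : ℝ) • v n) z - gradC (u0 + (-1 : ℝ) • v m) z‖ₑ ^ 2
          = ∫⁻ z in K,
            ‖gradC ((u0 + (-1 : ℝ) • v n) + (-1 : ℝ) • (u0 + (-1 : ℝ) • v m)) z‖ₑ ^ 2 := by
        refine setLIntegral_congr_fun hK.measurableSet fun z hz => ?_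
        have hzU : 0 < z.im := hKU hz
        have h1 := gradC_add_smul (isPot_differentiableAt (hu n) ⟨z, hzU⟩)
          (isPot_differentiableAt (hu m) ⟨z, hzU⟩) (-1)
        have h2 : gradC ((u0 + (-1 : ℝ) • v n) + (-1 : ℝ) • (u0 + (-1 : ℝ) • v m)) z
            = gradC (u0 + (-1 : ℝ) • v n) z - gradC (u0 + (-1 : ℝ) • v m) z := by
          rw [h1]; push_cast; ring
        show ‖gradC (u0 + (-1 : ℝ) • v n) z - gradC (u0 + (-1 : ℝ) • v m) z‖ₑ ^ 2 = _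
        rw [h2]
      show ∫⁻ z in K, ‖gradC (u0 + (-1 : ℝ) • v n) z - gradC (u0 + (-1 : ℝ) • v m) z‖ₑ ^ 2
          ≤ (M : ℝ≥0∞) * ENNReal.ofReal (2 / ((n : ℝ) + 1) + 2 / ((m : ℝ) + 1))
      rw [e1]
      refine (hM _ hDpot).trans ?_
      refine mul_le_mul_right ?_ _
      rw [← ofReal_norm_toLp_gr hw hDpot hmD, hmD_eq, hmu_eq, hmu_eq]
      apply ENNReal.ofReal_le_ofReal
      have h3 : g0 - s n + (-1 : ℝ) • (g0 - s m) = -(s n - s m) := by
        rw [neg_one_smul]; abel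
      rw [h3, norm_neg]
      exact hcau n m
    exact tendsto_of_tendsto_of_tendsto_of_le_of_le tendsto_const_nhds (tendsto_rate_prod M)
      (fun p => by simp) hle
  · -- asymptotic weak holomorphy
    intro ψ hψ hc hs
    have h2le : (2 : WithTop ℕ∞) ≤ ((⊤ : ℕ∞) : WithTop ℕ∞) := by
      have h2 : (2 : WithTop ℕ∞) = ((2 : ℕ∞) : WithTop ℕ∞) := rfl
      rw [h2]
      exact WithTop.coe_le_coe.mpr le_top
    have hψ2 : ContDiff ℝ 2 ψ := hψ.of_le h2le
    set B1 : ℂ → ℝ := fun z => (ψ z).re with hB1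
    set B2 : ℂ → ℝ := fun z => (ψ z).im with hB2
    have hB1c : ContDiff ℝ 1 B1 := (Complex.reCLM.contDiff.comp hψ2).of_le one_le_two
    have hB2c : ContDiff ℝ 1 B2 := (Complex.imCLM.contDiff.comp hψ2).of_le one_le_two
    have hc1 : HasCompactSupport B1 := hc.comp_left (g := Complex.re) Complex.zero_re
    have hc2 : HasCompactSupport B2 := hc.comp_left (g := Complex.im) Complex.zero_im
    have hs1 : tsupport B1 ⊆ upperHalfPlaneSet :=
      (tsupport_comp_subset (g := Complex.re) Complex.zero_re ψ).trans hs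
    have hs2 : tsupport B2 ⊆ upperHalfPlaneSet :=
      (tsupport_comp_subset (g := Complex.im) Complex.zero_im ψ).trans hs
    have hm1 := avg_memLp hw hsum hA B1 hB1c hc1 hs1
    have hm2 := avg_memLp hw hsum hA B2 hB2c hc2 hs2
    have hx1 : hm1.toLp (gr (avg N B1)) ∈ varSet N w :=
      ⟨avg N B1, isPot_avg hA B1 hB1c hc1 hs1, hm1, rfl⟩
    have hx2 : hm2.toLp (gr (avg N B2)) ∈ varSet N w :=
      ⟨avg N B2, isPot_avg hA B2 hB2c hc2 hs2, hm2, rfl⟩
    have hform : ∀ n, ∫ z, gradC (u0 + (-1 : ℝ) • v n) z * dbar ψ z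
        = ((inner ℝ (g0 - s n) (hm1.toLp (gr (avg N B1))) : ℝ) : ℂ)
          + Complex.I * ((inner ℝ (g0 - s n) (hm2.toLp (gr (avg N B2))) : ℝ) : ℂ) := by
      intro n
      rw [← hmu_eq n, inner_toLp_gr_avg hw hsum hA (hu n) (hmu n) B1 hB1c hc1 hs1 hm1,
        inner_toLp_gr_avg hw hsum hA (hu n) (hmu n) B2 hB2c hc2 hs2 hm2]
      exact integral_gradB_mul_dbar _ ψ (hu n).contDiffOn hψ2 hc hs
    have ht : ∀ x ∈ varSet N w, Tendsto (fun n => inner ℝ (g0 - s n) x) atTop (𝓝 0) := by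
      intro x hx
      refine squeeze_zero_norm (fun n => ?_) (tendsto_rate (‖x‖ ^ 2 + 1))
      rw [Real.norm_eq_abs]
      exact hort x hx n
    have h1 := (Complex.continuous_ofReal.tendsto 0).comp (ht _ hx1)
    have h2 := (Complex.continuous_ofReal.tendsto 0).comp (ht _ hx2)
    have h3 := h1.add (h2.const_mul Complex.I)
    simp only [Complex.ofReal_zero, mul_zero, add_zero] at h3
    show Tendsto (fun n => ∫ z, gradC (u0 + (-1 : ℝ) • v n) z * dbar ψ z) atTop (𝓝 0)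
    simp_rw [hform]
    exact h3
  · -- uniform bound on cusp strips
    refine ⟨M2 * ENNReal.ofReal (‖g0‖ ^ 2 + 1),
      ENNReal.mul_lt_top (ENNReal.natCast_lt_top M2) ENNReal.ofReal_lt_top, fun n σ => ?_⟩
    refine (setLIntegral_strip_le hw hsum M2 hM2 (hu n) σ).trans ?_
    refine mul_le_mul_right ?_ _
    rw [hEn n]
    exact ENNReal.ofReal_le_ofReal (hbd n)

end

end Fermat.Agent.S21.helper2377
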