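/-
helper2385: S21 Route 2 — bridges between the leaf shapes of `helper2385_R2Spec`.
(B2) `Dc` of a potential is continuous on `UH`;
(B3) `Dc` of a potential is weight-2 invariant, `Gd` is invariant;
(B4) `fderiv ℝ u z v = Re (Dc u z * v)`;
(B1) output of `SpecPOT` ⟹ input of `SpecVAR`.
-/
import Fermat.Agent.S21.helper2385_R2Spec

set_option autoImplicit false

namespace Fermat.Agent.S21.helper2385

open UpperHalfPlane CongruenceSubgroup ModularCurve ModularCurve.Period MeasureTheory Filter Topology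
open scoped MatrixGroups ENNReal ContDiff

theorem isOpen_UH : IsOpen UH := isOpen_lt continuous_const Complex.continuous_im

theorem coe_mem_UH (z : ℍ) : (z : ℂ) ∈ UH := z.im_pos

/-- (B4) the real derivative of `u` in terms of `Dc u`. -/
theorem fderiv_eq_re_Dc_mul (u : ℂ → ℝ) (z v : ℂ) : fderiv ℝ u z v = (Dc u z * v).re := by
  have hv : v = v.re • (1 : ℂ) + v.im • Complex.I := by
    apply Complex.ext <;> simp
  conv_lhs => rw [hv]
  rw [map_add, map_smul, map_smul]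
  simp [Dc]
  ring

/-- A complex number is determined by the real-linear form `v ↦ Re (A * v)`. -/
theorem eq_of_re_mul_eq {A B : ℂ} (h : ∀ v : ℂ, (A * v).re = (B * v).re) : A = B := by
  have h1 := h 1
  have h2 := h Complex.I
  simp at h1 h2
  exact Complex.ext h1 h2

theorem Dc_eq_zero_of_fderiv_eq_zero {u : ℂ → ℝ} {z : ℂ} (h : fderiv ℝ u z = 0) : Dc u z = 0 := by
  simp [Dc, h]

theorem Dc_congr_of_eventuallyEq {u v : ℂ → ℝ} {z : ℂ} (h : u =ᶠ[𝓝 z] v) : Dc u z = Dc v z := by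
  simp [Dc, h.fderiv_eq]

/-- (B2) `Dc` of a `C¹` function on `UH` is continuous there. -/
theorem continuousOn_Dc {u : ℂ → ℝ} (hu : ContDiffOn ℝ 1 u UH) : ContinuousOn (Dc u) UH := by
  have h1 : ContinuousOn (fderiv ℝ u) UH := hu.continuousOn_fderiv_of_isOpen isOpen_UH le_rfl
  have e1 : ContinuousOn (fun z => fderiv ℝ u z 1) UH := h1.clm_apply continuousOn_const
  have e2 : ContinuousOn (fun z => fderiv ℝ u z Complex.I) UH := h1.clm_apply continuousOn_const
  unfold Dc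
  exact ((Complex.continuous_ofReal.comp_continuousOn e1).sub
    ((Complex.continuous_ofReal.comp_continuousOn e2).mul continuousOn_const))

theorem IsPot.continuousOn_Dc {N : ℕ} {φ : Additive (Gamma0 N) →+ ℝ} {u : ℂ → ℝ}
    (h : IsPot N φ u) : ContinuousOn (Dc u) UH :=
  helper2385.continuousOn_Dc h.1

/-- (B3) chain rule: if `u (γ z) = u z + c` on `ℍ` then `Dc u` is weight-2 equivariant for `γ`. -/
theorem Dc_smul_of_add_const {u : ℂ → ℝ} (hu : DifferentiableOn ℝ u UH) (γ : SL(2, ℤ)) (c : ℝ)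
    (h : ∀ z : ℍ, u ((γ • z : ℍ) : ℂ) = u (z : ℂ) + c) (z : ℍ) :
    Dc u ((γ • z : ℍ) : ℂ) = (denom γ z) ^ 2 * Dc u (z : ℂ) := by
  set g : GL (Fin 2) ℝ := (γ : GL (Fin 2) ℝ) with hg
  have hdet1 : (g.val.det : ℝ) = 1 :=
    Matrix.SpecialLinearGroup.det_coe (Matrix.SpecialLinearGroup.map (Int.castRingHom ℝ) γ)
  have hdet : (0 : ℝ) < g.val.det := by rw [hdet1]; exact one_pos
  set m : ℂ → ℂ := fun w => ((g • ofComplex w : ℍ) : ℂ) with hm
  have hmz : m (z : ℂ) = ((γ • z : ℍ) : ℂ) := by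
    simp [hm, hg, ofComplex_apply]
  have hd : HasDerivAt m (g.val.det / denom g z ^ 2) (z : ℂ) :=
    (hasStrictDerivAt_smul hdet z).hasDerivAt
  have hd' : HasFDerivAt m
      ((ContinuousLinearMap.toSpanSingleton ℂ ((1 : ℂ) / denom g z ^ 2)).restrictScalars ℝ)
      (z : ℂ) := by
    have := hd.hasFDerivAt.restrictScalars ℝ
    simpa [hdet1] using this
  have hudiff : DifferentiableAt ℝ u (m (z : ℂ)) := by
    rw [hmz]
    exact (hu _ (coe_mem_UH _)).differentiableAt (isOpen_UH.mem_nhds (coe_mem_UH _))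
  have hcomp : HasFDerivAt (u ∘ m)
      ((fderiv ℝ u (m (z : ℂ))).comp
        ((ContinuousLinearMap.toSpanSingleton ℂ ((1 : ℂ) / denom g z ^ 2)).restrictScalars ℝ))
      (z : ℂ) := hudiff.hasFDerivAt.comp (z : ℂ) hd'
  have hev : u ∘ m =ᶠ[𝓝 (z : ℂ)] fun w => u w + c := by
    filter_upwards [isOpen_UH.mem_nhds (coe_mem_UH z)] with w hw
    have := h ⟨w, hw⟩
    simp only [Function.comp_apply, hm]
    rw [ofComplex_apply_of_im_pos hw]
    exact this
  have hf1 : fderiv ℝ (u ∘ m) (z : ℂ) = fderiv ℝ u (z : ℂ) := by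
    rw [hev.fderiv_eq]
    simp
  have key : ∀ v : ℂ, (Dc u (z : ℂ) * v).re
      = (Dc u (m (z : ℂ)) * ((1 : ℂ) / denom g z ^ 2) * v).re := by
    intro v
    rw [← fderiv_eq_re_Dc_mul, ← hf1, hcomp.fderiv, mul_assoc, ← fderiv_eq_re_Dc_mul]
    simp [mul_comm]
  have hne : denom g z ≠ 0 := denom_ne_zero g z
  have := eq_of_re_mul_eq key
  rw [hmz] at this
  rw [this]
  field_simp

/-- (B3) `Dc` of a potential is weight-2 equivariant under `Γ₀(N)`. -/
theorem IsPot.Dc_smul {N : ℕ} {φ : Additive (Gamma0 N) →+ ℝ} {u : ℂ → ℝ} (h : IsPot N φ u)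
    (γ : SL(2, ℤ)) (hγ : γ ∈ Gamma0 N) (z : ℍ) :
    Dc u ((γ • z : ℍ) : ℂ) = (denom γ z) ^ 2 * Dc u (z : ℂ) :=
  Dc_smul_of_add_const (h.1.differentiableOn one_ne_zero) γ (φ (Additive.ofMul ⟨γ, hγ⟩))
    (fun w => h.2 ⟨γ, hγ⟩ w) z

/-- `Gd` at `γ • z` in terms of `Dc` at `γ • z`. -/
theorem Gd_smul_eq (u : ℂ → ℝ) (σ : SL(2, ℤ)) (z : ℍ) :
    Gd u (σ • z) = (σ • z).im ^ 2 * ‖Dc u ((σ • z : ℍ) : ℂ)‖ ^ 2 := rfl

/-- (B3') the energy density of a potential is `Γ₀(N)`-invariant. -/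
theorem IsPot.Gd_smul {N : ℕ} {φ : Additive (Gamma0 N) →+ ℝ} {u : ℂ → ℝ} (h : IsPot N φ u)
    (γ : SL(2, ℤ)) (hγ : γ ∈ Gamma0 N) (z : ℍ) : Gd u (γ • z) = Gd u z := by
  have hne : denom γ z ≠ 0 := denom_ne_zero γ z
  have hpos : 0 < Complex.normSq (denom γ z) := Complex.normSq_pos.mpr hne
  rw [Gd_smul_eq, h.Dc_smul γ hγ z, ModularGroup.im_smul_eq_div_normSq, norm_mul, norm_pow,
    Complex.normSq_eq_norm_sq]
  have hn : ‖denom γ z‖ ≠ 0 := norm_ne_zero_iff.mpr hne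
  unfold Gd
  field_simp

theorem continuous_Gd {u : ℂ → ℝ} (hu : ContDiffOn ℝ 1 u UH) : Continuous (Gd u) := by
  have h1 : Continuous fun z : ℍ => Dc u (z : ℂ) :=
    (continuousOn_Dc hu).comp_continuous continuous_coe coe_mem_UH
  unfold Gd
  exact (continuous_im.pow 2).mul (h1.norm.pow 2)

/-- The covering set: a finite union of translates of the standard fundamental domain. -/
def covSet (N : ℕ) : Set ℍ :=
  ⋃ q : SL(2, ℤ) ⧸ Gamma0 N, (fun w : ℍ => (q.out : SL(2, ℤ)) • w) ⁻¹' ModularGroup.fd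

theorem countable_SL2Z : Countable SL(2, ℤ) :=
  Function.Injective.countable (β := Fin 2 → Fin 2 → ℤ)
    (f := fun g : SL(2, ℤ) => fun i j => (g : Matrix (Fin 2) (Fin 2) ℤ) i j)
    (fun _ _ h => Subtype.ext (Matrix.ext fun i j => congrFun (congrFun h i) j))

theorem continuous_SL_smul (g : SL(2, ℤ)) : Continuous fun w : ℍ => g • w :=
  continuous_const_smul (Matrix.SpecialLinearGroup.mapGL ℝ g)

theorem measurableSet_covSet (N : ℕ) : MeasurableSet (covSet N) := by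
  have := countable_SL2Z
  have : Countable (SL(2, ℤ) ⧸ Gamma0 N) :=
    Function.Surjective.countable (QuotientGroup.mk_surjective (s := Gamma0 N))
  refine MeasurableSet.iUnion fun q => ?_
  exact (ModularGroup.isClosed_fd.preimage (continuous_SL_smul _)).measurableSet

theorem exists_smul_mem_covSet (N : ℕ) (z : ℍ) :
    ∃ γ : Gamma0 N, (γ : SL(2, ℤ)) • z ∈ covSet N := by
  obtain ⟨g, hg⟩ := ModularGroup.exists_smul_mem_fd z
  obtain ⟨γ₀, hγ₀⟩ := QuotientGroup.mk_out_eq_mul (Gamma0 N) g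
  refine ⟨γ₀⁻¹, ?_⟩
  simp only [covSet, Set.mem_iUnion, Set.mem_preimage]
  refine ⟨(QuotientGroup.mk g : SL(2, ℤ) ⧸ Gamma0 N), ?_⟩
  rw [hγ₀, ← mul_smul]
  have : g * (γ₀ : SL(2, ℤ)) * (((γ₀⁻¹ : Gamma0 N) : SL(2, ℤ))) = g := by
    simp
  rw [this]
  exact hg

/-- A function which is constant on `σ • {Im > 2}` has vanishing `Dc` there. -/
theorem Dc_eq_zero_of_const_on_horoball {U : ℂ → ℝ} (g : SL(2, ℤ)) (c : ℝ)
    (hc : ∀ z : ℍ, 2 < z.im → U ((g⁻¹ • z : ℍ) : ℂ) = c) (z : ℍ) (hz : 2 < (g • z).im) :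
    Dc U (z : ℂ) = 0 := by
  have hcont : ContinuousAt (fun w : ℂ => (((g • ofComplex w : ℍ) : ℂ)).im) (z : ℂ) :=
    Complex.continuous_im.continuousAt.comp
      (hasStrictFDerivAt_smul (Matrix.SpecialLinearGroup.mapGL ℝ g) z).continuousAt
  have hz' : 2 < (((g • ofComplex (z : ℂ) : ℍ) : ℂ)).im := by
    rw [ofComplex_apply]; exact hz
  have hev : U =ᶠ[𝓝 (z : ℂ)] fun _ => c := by
    filter_upwards [isOpen_UH.mem_nhds (coe_mem_UH z), hcont.eventually (lt_mem_nhds hz')]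
      with w hw1 hw2
    have h1 := hc (g • ofComplex w) hw2
    rw [inv_smul_smul, ofComplex_apply_of_im_pos hw1] at h1
    exact h1
  rw [Dc_congr_of_eventuallyEq hev]
  simp [Dc]

/-- Finite energy on one translate of the fundamental domain, for a `C¹` function which is
constant on every `σ • {Im > 2}`. -/
theorem lintegral_Gd_translate_lt_top {U : ℂ → ℝ} (hU : ContDiffOn ℝ 1 U UH)
    (hc : ∀ σ : SL(2, ℤ), ∃ c : ℝ, ∀ z : ℍ, 2 < z.im → U ((σ • z : ℍ) : ℂ) = c) (g : SL(2, ℤ)) :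
    ∫⁻ z in (fun w : ℍ => g • w) ⁻¹' ModularGroup.fd, ENNReal.ofReal (Gd U z) < ⊤ := by
  set A : Set ℍ := (fun w : ℍ => g • w) ⁻¹' ModularGroup.fd with hA
  set A₁ : Set ℍ := (fun w : ℍ => g • w) ⁻¹' ModularGroup.truncatedFundamentalDomain 2 with hA₁
  have hA₁c : IsCompact A₁ := by
    have : A₁ = (fun w : ℍ => g⁻¹ • w) '' ModularGroup.truncatedFundamentalDomain 2 := by
      ext w
      simp only [hA₁, Set.mem_preimage, Set.mem_image]
      constructor
      · intro hw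
        exact ⟨g • w, hw, inv_smul_smul g w⟩
      · rintro ⟨k, hk, rfl⟩
        rwa [smul_inv_smul]
    rw [this]
    exact (ModularGroup.isCompact_truncatedFundamentalDomain 2).image (continuous_SL_smul g⁻¹)
  have hAm : MeasurableSet A :=
    (ModularGroup.isClosed_fd.preimage (continuous_SL_smul g)).measurableSet
  have hA₁m : MeasurableSet A₁ := hA₁c.measurableSet
  obtain ⟨c, hc'⟩ := hc g⁻¹
  have hzero : ∀ z : ℍ, 2 < (g • z).im → Gd U z = 0 := by
    intro z hz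
    have := Dc_eq_zero_of_const_on_horoball g c hc' z hz
    simp [Gd, this]
  have hle : ∀ z : ℍ, A.indicator (fun z => ENNReal.ofReal (Gd U z)) z
      ≤ A₁.indicator (fun z => ENNReal.ofReal (Gd U z)) z := by
    intro z
    by_cases hzA : z ∈ A
    · by_cases h2 : (g • z).im ≤ 2
      · have hz1 : z ∈ A₁ := ⟨hzA, h2⟩
        rw [Set.indicator_of_mem hzA, Set.indicator_of_mem hz1]
      · rw [Set.indicator_of_mem hzA, hzero z (not_le.mp h2)]
        simp
    · rw [Set.indicator_of_notMem hzA]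
      exact bot_le
  obtain ⟨C, hC⟩ := hA₁c.exists_bound_of_continuousOn (continuous_Gd hU).continuousOn
  calc ∫⁻ z in A, ENNReal.ofReal (Gd U z)
      = ∫⁻ z, A.indicator (fun z => ENNReal.ofReal (Gd U z)) z := (lintegral_indicator hAm _).symm
    _ ≤ ∫⁻ z, A₁.indicator (fun z => ENNReal.ofReal (Gd U z)) z := lintegral_mono hle
    _ = ∫⁻ z in A₁, ENNReal.ofReal (Gd U z) := lintegral_indicator hA₁m _
    _ ≤ ∫⁻ _z in A₁, ENNReal.ofReal C := by
        refine setLIntegral_mono measurable_const fun z hz => ?_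
        exact ENNReal.ofReal_le_ofReal ((le_abs_self _).trans (hC z hz))
    _ = ENNReal.ofReal C * volume A₁ := setLIntegral_const _ _
    _ < ⊤ := ENNReal.mul_lt_top ENNReal.ofReal_lt_top hA₁c.measure_lt_top

/-- (B1) finite energy on the covering set. -/
theorem lintegral_Gd_covSet_lt_top (N : ℕ) [NeZero N] {U : ℂ → ℝ} (hU : ContDiffOn ℝ 1 U UH)
    (hc : ∀ σ : SL(2, ℤ), ∃ c : ℝ, ∀ z : ℍ, 2 < z.im → U ((σ • z : ℍ) : ℂ) = c) :
    ∫⁻ z in covSet N, ENNReal.ofReal (Gd U z) < ⊤ := by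
  have hfin : Finite (SL(2, ℤ) ⧸ Gamma0 N) := inferInstance
  have := Fintype.ofFinite (SL(2, ℤ) ⧸ Gamma0 N)
  unfold covSet
  refine lt_of_le_of_lt (lintegral_iUnion_le _ _) ?_
  rw [tsum_fintype]
  exact ENNReal.sum_lt_top.mpr fun q _ => lintegral_Gd_translate_lt_top hU hc _

/-- (B1) the output of `SpecPOT` gives the input of `SpecVAR`. -/
theorem isPot_of_pot (N : ℕ) (φ : Additive (Gamma0 N) →+ ℝ) (u : ℍ → ℝ)
    (h1 : ∀ γ : Gamma0 N, ∀ z : ℍ, u ((γ : SL(2, ℤ)) • z) = u z + φ (Additive.ofMul γ))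
    (h2 : ContDiffOn ℝ ∞ (u ∘ ofComplex) UH) : IsPot N φ (u ∘ ofComplex) := by
  refine ⟨h2.of_le (by exact_mod_cast le_top), fun γ z => ?_⟩
  simp only [Function.comp_apply, ofComplex_apply]
  exact h1 γ z

end Fermat.Agent.S21.helper2385
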