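/-
helper2385: S21 Route 2 (Hodge/Weyl) — ASSEMBLY.

`stmtH_of_leaves` : the five leaf statements of `helper2385_R2Spec` imply the Hodge existence
statement `helper801.StmtH N`; `rank_of_leaves` : hence the rank inequality needed by the
captain's `helper21.result_of_rank`; `result_of_leaves` : hence the S21 statement.
-/
import Fermat.Agent.S21.helper2385_R2Bridge
import Fermat.Agent.S21.helper801_HodgeAlg
import Fermat.Agent.S21.helper21_Assembly

set_option autoImplicit false

namespace Fermat.Agent.S21.helper2385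

open UpperHalfPlane CongruenceSubgroup ModularCurve ModularCurve.Period MeasureTheory Filter Topology
open scoped MatrixGroups ENNReal ContDiff

/-- Route 2 assembly: POT, VAR, LIM, CUSP, PER and existence of primitives give (H). -/
theorem stmtH_of_leaves (N : ℕ) [NeZero N] (hPOT : SpecPOT N) (hVAR : SpecVAR N)
    (hLIM : SpecLIM) (hCUSP : SpecCUSP N) (hPER : SpecPER N) (hA : helper921.StmtA N) :
    helper801.StmtH N := by
  intro φ hφ
  obtain ⟨u₀, h1, h2, h3⟩ := hPOT φ hφ
  have hpot : IsPot N φ (u₀ ∘ ofComplex) := isPot_of_pot N φ u₀ h1 h2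
  have hconst : ∀ σ : SL(2, ℤ), ∃ c : ℝ, ∀ z : ℍ, 2 < z.im →
      (u₀ ∘ ofComplex) ((σ • z : ℍ) : ℂ) = c := by
    intro σ
    obtain ⟨c, hc⟩ := h3 σ
    exact ⟨c, fun z hz => by simp only [Function.comp_apply, ofComplex_apply, hc z hz]⟩
  obtain ⟨u, hu, hi, hii, hiii⟩ := hVAR φ (u₀ ∘ ofComplex) hpot h2 (covSet N)
    (measurableSet_covSet N) (exists_smul_mem_covSet N)
    (lintegral_Gd_covSet_lt_top N hpot.1 hconst)
  obtain ⟨h, hh, hlim⟩ := hLIM UH isOpen_UH (fun n => Dc (u n))
    (fun n => (hu n).continuousOn_Dc) hi hii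
  obtain ⟨f, hf⟩ := hCUSP (fun n => Dc (u n)) h hh (fun n => (hu n).continuousOn_Dc) hlim
    (fun n γ hγ z => (hu n).Dc_smul γ hγ z) hiii
  obtain ⟨F, hF⟩ := hA f
  refine ⟨f, hPER φ u f F hF hu ?_⟩
  intro K hK hKU
  refine (hlim K hK hKU).congr fun n => ?_
  refine setIntegral_congr_fun hK.measurableSet fun z hz => ?_
  simp only [hf, ofComplex_apply_of_im_pos (hKU hz)]

/-- The rank inequality from the Route 2 leaves. -/
theorem rank_of_leaves (N : ℕ) [NeZero N] (hPOT : SpecPOT N) (hVAR : SpecVAR N)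
    (hLIM : SpecLIM) (hCUSP : SpecCUSP N) (hPER : SpecPER N) :
    Module.finrank ℂ ↥(parabolicHoms ℂ (Gamma0 N) ℂ)
      ≤ 2 * Module.finrank ℂ (CuspForm (Gamma0 N) 2) :=
  (helper801.stmtD_of_ACH N (helper21.stmtA N) (helper21.stmtCplus N)
    (stmtH_of_leaves N hPOT hVAR hLIM hCUSP hPER (helper21.stmtA N))).2

/-- The S21 statement from the Route 2 leaves. -/
theorem result_of_leaves (N : ℕ) [NeZero N] (hPOT : SpecPOT N) (hVAR : SpecVAR N)
    (hLIM : SpecLIM) (hCUSP : SpecCUSP N) (hPER : SpecPER N) :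
    Function.Injective (ModularCurve.periodHomPair N)
      ∧ LinearMap.range (ModularCurve.periodHomPair N)
          = ModularCurve.Period.parabolicHoms ℂ (CongruenceSubgroup.Gamma0 N) ℂ :=
  helper21.result_of_rank N (rank_of_leaves N hPOT hVAR hLIM hCUSP hPER)

end Fermat.Agent.S21.helper2385
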