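/-
helper2385: S21 Route 2 — leaf PER in the on-main Spec shape.

`stmtPER (N) : helper801.StmtPER N`, a bridge from
`helper1545.re_periodMap_eq_of_potentials` (potentials on `ℂ`, `HasFDerivAt` shape, `L¹_loc`
convergence) to the shape of `helper801_HodgeSpec` (potentials on `ℍ`, `gradC`, `L²_loc`).
-/
import Fermat.Agent.S21.helper2385_R2Bridge
import Fermat.Agent.S21.helper801_HodgeSpec
import Fermat.Agent.S21.helper1545_PeriodCont

set_option autoImplicit false

namespace Fermat.Agent.S21.helper2385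

open UpperHalfPlane CongruenceSubgroup ModularCurve ModularCurve.Period MeasureTheory Filter Topology
open scoped MatrixGroups ENNReal ContDiff

/-- `x ≤ δ + δ⁻¹ x²` in `ℝ≥0∞`. -/
theorem ennreal_le_add_inv_mul_sq (x δ : ℝ≥0∞) (hδ0 : δ ≠ 0) (hδt : δ ≠ ⊤) :
    x ≤ δ + δ⁻¹ * x ^ 2 := by
  rcases le_or_gt x δ with h | h
  · exact h.trans le_self_add
  · refine le_trans ?_ le_add_self
    calc x = δ⁻¹ * (δ * x) := by
          rw [← mul_assoc, ENNReal.inv_mul_cancel hδ0 hδt, one_mul]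
      _ ≤ δ⁻¹ * (x * x) := by gcongr
      _ = δ⁻¹ * x ^ 2 := by rw [sq]

/-- `L²` convergence on a set of finite measure implies `L¹` convergence (no measurability
assumptions). -/
theorem tendsto_lintegral_of_tendsto_lintegral_sq {α : Type*} [MeasurableSpace α]
    (μ : Measure α) (hμ : μ Set.univ ≠ ⊤) (g : ℕ → α → ℝ≥0∞)
    (h : Tendsto (fun n => ∫⁻ z, g n z ^ 2 ∂μ) atTop (𝓝 0)) :
    Tendsto (fun n => ∫⁻ z, g n z ∂μ) atTop (𝓝 0) := by
  rw [ENNReal.tendsto_nhds_zero] at h ⊢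
  intro ε hε
  by_cases hεt : ε = ⊤
  · exact Filter.Eventually.of_forall fun n => hεt ▸ le_top
  -- choose δ with δ * μ univ ≤ ε / 2
  obtain ⟨δ, hδ0, hδt, hδ⟩ : ∃ δ : ℝ≥0∞, δ ≠ 0 ∧ δ ≠ ⊤ ∧ δ * μ Set.univ ≤ ε / 2 := by
    by_cases hμ0 : μ Set.univ = 0
    · exact ⟨1, one_ne_zero, ENNReal.one_ne_top, by simp [hμ0]⟩
    · refine ⟨ε / 2 / μ Set.univ, ?_, ?_, ?_⟩
      · exact (ENNReal.div_pos (ENNReal.half_pos hε.ne').ne' hμ).ne'
      · exact (ENNReal.div_lt_top (ENNReal.div_ne_top hεt (by norm_num)) hμ0).ne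
      · rw [ENNReal.div_mul_cancel hμ0 hμ]
  have hε2 : 0 < δ * (ε / 2) :=
    ENNReal.mul_pos hδ0 (ENNReal.half_pos hε.ne').ne'
  filter_upwards [h (δ * (ε / 2)) hε2] with n hn
  calc ∫⁻ z, g n z ∂μ ≤ ∫⁻ z, (δ + δ⁻¹ * g n z ^ 2) ∂μ :=
        lintegral_mono fun z => ennreal_le_add_inv_mul_sq _ _ hδ0 hδt
    _ = ∫⁻ _z, δ ∂μ + ∫⁻ z, δ⁻¹ * g n z ^ 2 ∂μ := lintegral_add_left measurable_const _
    _ = δ * μ Set.univ + δ⁻¹ * ∫⁻ z, g n z ^ 2 ∂μ := by
        rw [lintegral_const, lintegral_const_mul' _ _ (ENNReal.inv_ne_top.mpr hδ0)]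
    _ ≤ ε / 2 + δ⁻¹ * (δ * (ε / 2)) := by gcongr
    _ = ε / 2 + ε / 2 := by rw [← mul_assoc, ENNReal.inv_mul_cancel hδ0 hδt, one_mul]
    _ = ε := ENNReal.add_halves ε

/-- **Leaf PER of Route 2**, in the shape of `helper801_HodgeSpec`. -/
theorem stmtPER (N : ℕ) : helper801.StmtPER N := by
  intro φ u f F hu hF hlim γ
  rw [← helper921.periodMap_apply_of_primitive hF γ]
  refine helper1545.re_periodMap_eq_of_potentials f hF φ (fun n => u n ∘ ofComplex)
    (fun n => helper801.gradC (u n)) ?_ ?_ ?_ ?_ γ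
  · intro n γ z
    simp only [Function.comp_apply, ofComplex_apply]
    exact (hu n).map_smul γ z
  · intro n w hw
    have hd : DifferentiableAt ℝ (u n ∘ ofComplex) w :=
      ((hu n).contDiffOn.differentiableOn one_ne_zero).differentiableAt
        (isOpen_upperHalfPlaneSet.mem_nhds hw)
    have he : fderiv ℝ (u n ∘ ofComplex) w = helper1545.reMul (helper801.gradC (u n) w) := by
      have hg : helper801.gradC (u n) w = Dc (u n ∘ ofComplex) w := by
        simp only [helper801.gradC, Dc, mul_comm]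
      ext v
      rw [helper1545.reMul_apply, hg, fderiv_eq_re_Dc_mul]
    rw [← he]
    exact hd.hasFDerivAt
  · intro n
    exact (hu n).continuousOn_gradC
  · intro K hK hKU
    have h1 := hlim K hK hKU
    exact tendsto_lintegral_of_tendsto_lintegral_sq (volume.restrict K)
      (by simpa using hK.measure_lt_top.ne) _ h1

end Fermat.Agent.S21.helper2385
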