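import Mathlib
import Fermat.Prelude.Def_ModularCurve_PeriodMap

/-!
# S21, Route 2 (Hodge/Weyl), leaf POT: a smooth potential with prescribed periods

For a real-valued homomorphism `φ : Γ₀(N) → ℝ` killing all elements of trace `±2`
(`φ ∈ parabolicHoms ℝ (Gamma0 N) ℝ`) we construct a smooth function `u : ℍ → ℝ` with

* (P1) `u (γ • τ) = u τ + φ γ` for all `γ ∈ Γ₀(N)`;
* (P2) `u ∘ ofComplex` is `C^∞` on `{0 < im}`;
* (P3) for every `σ ∈ SL(2, ℤ)`, `u` is constant on `σ • {2 < im}` (so `u` is locally constant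
  on all cusp neighbourhoods `{τ | ∃ g, 2 < im (g • τ)}`).

Construction: `u τ = ∑ᶠ g : SL(2, ℤ), ψ (g • τ) * f g⁻¹` where `ψ` is a smooth
`SL(2, ℤ)`-partition of unity supported near the standard fundamental domain and
`f : SL(2, ℤ) → ℝ` satisfies `f (γ g) = φ γ + f g`, `f (g p) = f g` for upper triangular `p`.

Main results: `exists_f0`, `finsum_psi`, `exists_potential`, `eventually_eq_of_horoball`.
-/

set_option autoImplicit false

namespace Fermat.Agent.S21.helper3081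

open Complex Filter Topology UpperHalfPlane CongruenceSubgroup ModularCurve.Period
open scoped MatrixGroups ContDiff

/-! ## The upper triangular subgroup `P` of `SL(2, ℤ)` (stabiliser of the cusp `∞`) -/

/-- The subgroup of `SL(2, ℤ)` of upper triangular matrices (lower left entry zero). -/
def upperP : Subgroup SL(2, ℤ) where
  carrier := {g | g 1 0 = 0}
  mul_mem' := by
    intro a b (ha : a 1 0 = 0) (hb : b 1 0 = 0)
    show (a * b) 1 0 = 0
    rw [Matrix.SpecialLinearGroup.coe_mul, Matrix.mul_apply, Fin.sum_univ_two, ha, hb]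
    ring
  one_mem' := by
    show (1 : SL(2, ℤ)) 1 0 = 0
    simp
  inv_mem' := by
    intro a (ha : a 1 0 = 0)
    show (a⁻¹) 1 0 = 0
    rw [Matrix.SpecialLinearGroup.SL2_inv_expl]
    simp [ha]

theorem mem_upperP {g : SL(2, ℤ)} : g ∈ upperP ↔ g 1 0 = 0 := Iff.rfl

/-- Elements of `upperP` have trace `±2`. -/
theorem trace_sq_of_mem_upperP {g : SL(2, ℤ)} (hg : g ∈ upperP) :
    (g : Matrix (Fin 2) (Fin 2) ℤ).trace ^ 2 = 4 := by
  have hc : g 1 0 = 0 := hg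
  have hdet : g 0 0 * g 1 1 - g 0 1 * g 1 0 = 1 := by
    have := g.det_coe
    rwa [Matrix.det_fin_two] at this
  rw [hc, mul_zero, sub_zero] at hdet
  rw [Matrix.trace_fin_two]
  rcases Int.eq_one_or_neg_one_of_mul_eq_one' hdet with ⟨h1, h2⟩ | ⟨h1, h2⟩
  · rw [h1, h2]; norm_num
  · rw [h1, h2]; norm_num

/-- Conjugates of elements of `upperP` have trace `±2`. -/
theorem trace_sq_conj_of_mem_upperP {p : SL(2, ℤ)} (hp : p ∈ upperP) (r : SL(2, ℤ)) :
    ((r * p * r⁻¹ : SL(2, ℤ)) : Matrix (Fin 2) (Fin 2) ℤ).trace ^ 2 = 4 := by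
  have h : ((r * p * r⁻¹ : SL(2, ℤ)) : Matrix (Fin 2) (Fin 2) ℤ).trace
      = (p : Matrix (Fin 2) (Fin 2) ℤ).trace := by
    rw [Matrix.SpecialLinearGroup.coe_mul, Matrix.SpecialLinearGroup.coe_mul,
      Matrix.trace_mul_comm, ← Matrix.mul_assoc, ← Matrix.SpecialLinearGroup.coe_mul,
      inv_mul_cancel, Matrix.SpecialLinearGroup.coe_one, Matrix.one_mul]
  rw [h]
  exact trace_sq_of_mem_upperP hp

/-- If `τ` is high (`2 < im τ`) and `g • τ` is not low (`1/2 < im (g • τ)`), then `g` is upper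
triangular. -/
theorem mem_upperP_of_im {g : SL(2, ℤ)} {τ : ℍ} (hτ : 2 < τ.im) (hg : 1 / 2 < (g • τ).im) :
    g ∈ upperP := by
  by_contra hc
  have hc' : g 1 0 ≠ 0 := hc
  have h1 : (1 : ℝ) ≤ ((g 1 0 : ℤ) : ℝ) ^ 2 := by
    have : (1 : ℤ) ≤ (g 1 0) ^ 2 := by
      have := sq_nonneg (g 1 0)
      have h0 : (g 1 0) ^ 2 ≠ 0 := pow_ne_zero 2 hc'
      omega
    exact_mod_cast this
  have h2 := UpperHalfPlane.c_mul_im_sq_le_normSq_denom (g : GL (Fin 2) ℝ) τ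
  have h3 : τ.im ^ 2 ≤ Complex.normSq (denom (g : GL (Fin 2) ℝ) τ) := by
    refine le_trans ?_ h2
    have : ((g : GL (Fin 2) ℝ) 1 0 : ℝ) = ((g 1 0 : ℤ) : ℝ) := by simp
    rw [this, mul_pow]
    nlinarith [sq_nonneg τ.im]
  rw [ModularGroup.im_smul_eq_div_normSq] at hg
  have hpos : 0 < Complex.normSq (denom (g : GL (Fin 2) ℝ) τ) := by
    have := τ.im_pos
    nlinarith
  rw [lt_div_iff₀ hpos] at hg
  have := τ.im_pos
  nlinarith

/-- For every `g ∈ SL(2, ℤ)`: `im (g • τ) ≤ max (im τ) (1 / im τ)`. -/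
theorem im_smul_le_max (g : SL(2, ℤ)) (τ : ℍ) : (g • τ).im ≤ max τ.im (1 / τ.im) := by
  have hτ := τ.im_pos
  rw [ModularGroup.im_smul_eq_div_normSq]
  have hden : denom (g : GL (Fin 2) ℝ) τ = (g 1 0 : ℂ) * τ + (g 1 1 : ℂ) := by
    simp [denom]
  have hns : Complex.normSq (denom (g : GL (Fin 2) ℝ) τ)
      = ((g 1 0 : ℝ) * τ.re + (g 1 1 : ℝ)) ^ 2 + ((g 1 0 : ℝ) * τ.im) ^ 2 := by
    rw [hden, Complex.normSq_apply]
    simp
    ring
  by_cases hc : g 1 0 = 0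
  · -- then `d ≠ 0`
    have hdet : g 0 0 * g 1 1 - g 0 1 * g 1 0 = 1 := by
      have := g.det_coe
      rwa [Matrix.det_fin_two] at this
    rw [hc, mul_zero, sub_zero] at hdet
    have hd : (1 : ℝ) ≤ ((g 1 1 : ℤ) : ℝ) ^ 2 := by
      have hd0 : g 1 1 ≠ 0 := by
        rintro h0; rw [h0, mul_zero] at hdet; exact zero_ne_one hdet
      have : (1 : ℤ) ≤ (g 1 1) ^ 2 := by
        have := sq_nonneg (g 1 1)
        have h0 : (g 1 1) ^ 2 ≠ 0 := pow_ne_zero 2 hd0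
        omega
      exact_mod_cast this
    have h1 : (1 : ℝ) ≤ Complex.normSq (denom (g : GL (Fin 2) ℝ) τ) := by
      rw [hns, hc]; simpa using hd
    refine le_trans ?_ (le_max_left _ _)
    rw [div_le_iff₀ (by linarith)]
    nlinarith
  · have hc1 : (1 : ℝ) ≤ ((g 1 0 : ℤ) : ℝ) ^ 2 := by
      have : (1 : ℤ) ≤ (g 1 0) ^ 2 := by
        have := sq_nonneg (g 1 0)
        have h0 : (g 1 0) ^ 2 ≠ 0 := pow_ne_zero 2 hc
        omega
      exact_mod_cast this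
    have h1 : τ.im ^ 2 ≤ Complex.normSq (denom (g : GL (Fin 2) ℝ) τ) := by
      rw [hns, mul_pow]
      nlinarith [sq_nonneg ((g 1 0 : ℝ) * τ.re + (g 1 1 : ℝ)), sq_nonneg τ.im]
    refine le_trans ?_ (le_max_right _ _)
    have hpos : 0 < Complex.normSq (denom (g : GL (Fin 2) ℝ) τ) := by nlinarith
    rw [div_le_div_iff₀ hpos hτ]
    nlinarith

/-! ## The double coset function -/

section DoubleCosetFunction

variable {N : ℕ} (φ : Additive (Gamma0 N) →+ ℝ)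

/-- Key well-definedness lemma: a parabolic hom takes the same value on `γ, γ'` whenever
`γ * r * p = γ' * r * p'` with `p, p'` upper triangular. -/
theorem phi_eq_of_mul_eq (hφ : φ ∈ parabolicHoms ℝ (Gamma0 N) ℝ) {γ γ' : Gamma0 N}
    {r p p' : SL(2, ℤ)} (hp : p ∈ upperP) (hp' : p' ∈ upperP)
    (h : (γ : SL(2, ℤ)) * r * p = (γ' : SL(2, ℤ)) * r * p') :
    φ (Additive.ofMul γ) = φ (Additive.ofMul γ') := by
  have h1 : ((γ'⁻¹ * γ : Gamma0 N) : SL(2, ℤ)) = r * (p' * p⁻¹) * r⁻¹ := by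
    have h2 : (γ : SL(2, ℤ)) = (γ' : SL(2, ℤ)) * r * p' * p⁻¹ * r⁻¹ := by
      rw [← h]; group
    rw [Subgroup.coe_mul, Subgroup.coe_inv, h2]; group
  have h3 : φ (Additive.ofMul (γ'⁻¹ * γ)) = 0 := by
    apply hφ
    rw [h1]
    exact trace_sq_conj_of_mem_upperP (upperP.mul_mem hp' (upperP.inv_mem hp)) r
  have h4 : φ (Additive.ofMul (γ'⁻¹ * γ)) = - φ (Additive.ofMul γ') + φ (Additive.ofMul γ) := by
    rw [ofMul_mul, map_add, ofMul_inv, map_neg]
  linarith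

/-- Existence of the double coset function attached to a parabolic hom `φ : Γ₀(N) → ℝ`:
a function `f` on `SL(2, ℤ)` with `f (γ * g) = φ γ + f g` for `γ ∈ Γ₀(N)` and
`f (g * p) = f g` for `p` upper triangular. -/
theorem exists_f0 (hφ : φ ∈ parabolicHoms ℝ (Gamma0 N) ℝ) :
    ∃ f : SL(2, ℤ) → ℝ,
      (∀ (γ : Gamma0 N) (g : SL(2, ℤ)), f ((γ : SL(2, ℤ)) * g) = φ (Additive.ofMul γ) + f g) ∧
      (∀ (g : SL(2, ℤ)) (p : SL(2, ℤ)), p ∈ upperP → f (g * p) = f g) := by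
  choose h k hh hk hout using DoubleCoset.mk_out_eq_mul (Gamma0 N) upperP
  -- `out (mk g) = h g * g * k g`, so `g = (h g)⁻¹ * out (mk g) * (k g)⁻¹`
  have hg : ∀ g : SL(2, ℤ), g = (((⟨h g, hh g⟩ : Gamma0 N)⁻¹ : Gamma0 N) : SL(2, ℤ)) *
      Quotient.out (DoubleCoset.mk (Gamma0 N) upperP g) * (k g)⁻¹ := by
    intro g
    rw [hout g, Subgroup.coe_inv]; group
  have key : ∀ (g : SL(2, ℤ)) (γ : Gamma0 N) (p : SL(2, ℤ)), p ∈ upperP →
      g = (γ : SL(2, ℤ)) * Quotient.out (DoubleCoset.mk (Gamma0 N) upperP g) * p →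
      -φ (Additive.ofMul ⟨h g, hh g⟩) = φ (Additive.ofMul γ) := by
    intro g γ p hp hgp
    have := phi_eq_of_mul_eq φ hφ (upperP.inv_mem (hk g)) hp ((hg g).symm.trans hgp)
    rw [← this, ofMul_inv, map_neg]
  refine ⟨fun g => -φ (Additive.ofMul ⟨h g, hh g⟩), fun γ g => ?_, fun g p hp => ?_⟩
  · have hmk : DoubleCoset.mk (Gamma0 N) upperP ((γ : SL(2, ℤ)) * g)
        = DoubleCoset.mk (Gamma0 N) upperP g := by
      rw [DoubleCoset.eq]
      exact ⟨(γ : SL(2, ℤ))⁻¹, (Gamma0 N).inv_mem γ.2, 1, upperP.one_mem, by group⟩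
    have hg' : (γ : SL(2, ℤ)) * g = ((γ * (⟨h g, hh g⟩ : Gamma0 N)⁻¹ : Gamma0 N) : SL(2, ℤ)) *
        Quotient.out (DoubleCoset.mk (Gamma0 N) upperP ((γ : SL(2, ℤ)) * g)) * (k g)⁻¹ := by
      rw [hmk, Subgroup.coe_mul]
      conv_lhs => rw [hg g]
      group
    have e2 := key _ _ _ (upperP.inv_mem (hk g)) hg'
    show -φ (Additive.ofMul ⟨h (↑γ * g), hh (↑γ * g)⟩)
      = φ (Additive.ofMul γ) + -φ (Additive.ofMul ⟨h g, hh g⟩)
    rw [e2, ofMul_mul, map_add, ofMul_inv, map_neg]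
  · have hmk : DoubleCoset.mk (Gamma0 N) upperP (g * p)
        = DoubleCoset.mk (Gamma0 N) upperP g := by
      rw [DoubleCoset.eq]
      exact ⟨1, (Gamma0 N).one_mem, p⁻¹, upperP.inv_mem hp, by group⟩
    have hg' : g * p = (((⟨h g, hh g⟩ : Gamma0 N)⁻¹ : Gamma0 N) : SL(2, ℤ)) *
        Quotient.out (DoubleCoset.mk (Gamma0 N) upperP (g * p)) * ((k g)⁻¹ * p) := by
      rw [hmk]
      conv_lhs => rw [hg g]
      group
    have e2 := key _ _ _ (upperP.mul_mem (upperP.inv_mem (hk g)) hp) hg'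
    show -φ (Additive.ofMul ⟨h (g * p), hh (g * p)⟩) = -φ (Additive.ofMul ⟨h g, hh g⟩)
    rw [e2, ofMul_inv, map_neg]

end DoubleCosetFunction

/-! ## Compactness and proper discontinuity -/

/-- A compact box in the upper half plane. -/
theorem isCompact_box (A B Y : ℝ) (hB : 0 < B) :
    IsCompact {w : ℍ | |w.re| ≤ A ∧ B ≤ w.im ∧ w.im ≤ Y} := by
  have himg : UpperHalfPlane.coe '' {w : ℍ | |w.re| ≤ A ∧ B ≤ w.im ∧ w.im ≤ Y}
      = (Set.Icc (-A) A) ×ℂ (Set.Icc B Y) := by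
    ext z
    constructor
    · rintro ⟨w, ⟨h1, h2, h3⟩, rfl⟩
      exact ⟨abs_le.mp h1, h2, h3⟩
    · rintro ⟨h1, h2, h3⟩
      exact ⟨⟨z, lt_of_lt_of_le hB h2⟩, ⟨abs_le.mpr h1, h2, h3⟩, rfl⟩
  rw [isEmbedding_coe.isCompact_iff, himg]
  exact isCompact_Icc.reProdIm isCompact_Icc

/-- Proper discontinuity of the `SL(2, ℤ)`-action, in elementwise form. -/
theorem finite_smul_inter {K L : Set ℍ} (hK : IsCompact K) (hL : IsCompact L) :
    {g : SL(2, ℤ) | ∃ τ ∈ K, g • τ ∈ L}.Finite := by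
  have h := ProperlyDiscontinuousSMul.finite_disjoint_inter_image (Γ := 𝒮ℒ) hK hL
  let f : SL(2, ℤ) → 𝒮ℒ := fun g => ⟨Matrix.SpecialLinearGroup.mapGL ℝ g, g, rfl⟩
  have hf : Function.Injective f := by
    intro a b hab
    have : Matrix.SpecialLinearGroup.mapGL ℝ a = Matrix.SpecialLinearGroup.mapGL ℝ b :=
      congrArg Subtype.val hab
    exact Matrix.SpecialLinearGroup.mapGL_injective this
  refine (h.preimage (Set.injOn_of_injective hf)).subset ?_
  rintro g ⟨τ, hτ, hgτ⟩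
  exact ⟨g • τ, ⟨τ, hτ, rfl⟩, hgτ⟩

/-! ## The cutoff function -/

/-- A smooth cutoff on `ℂ`: equal to `1` on the standard fundamental domain, and supported in
`{re ^ 2 < 4/9, 3/4 < normSq}`. -/
noncomputable def chi (z : ℂ) : ℝ :=
  Real.smoothTransition ((4 / 9 - (Complex.reCLM z) ^ 2) * (36 / 7)) *
    Real.smoothTransition (4 * ((Complex.reCLM z) ^ 2 + (Complex.imCLM z) ^ 2) - 3)

theorem chi_contDiff : ContDiff ℝ ∞ chi := by
  unfold chi
  have h1 : ContDiff ℝ ∞ (fun z : ℂ => Complex.reCLM z) := Complex.reCLM.contDiff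
  have h2 : ContDiff ℝ ∞ (fun z : ℂ => Complex.imCLM z) := Complex.imCLM.contDiff
  have hs : ContDiff ℝ ∞ Real.smoothTransition := Real.smoothTransition.contDiff
  exact (hs.comp ((contDiff_const.sub (h1.pow 2)).mul contDiff_const)).mul
    (hs.comp (((contDiff_const.mul ((h1.pow 2).add (h2.pow 2)))).sub contDiff_const))

theorem chi_nonneg (z : ℂ) : 0 ≤ chi z :=
  mul_nonneg (Real.smoothTransition.nonneg _) (Real.smoothTransition.nonneg _)

theorem chi_eq_one_of_mem_fd {τ : ℍ} (hτ : τ ∈ ModularGroup.fd) : chi (τ : ℂ) = 1 := by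
  obtain ⟨h1, h2⟩ := hτ
  have hre : (τ : ℂ).re ^ 2 ≤ 1 / 4 := by
    have h3 : |τ.re| ≤ 1 / 2 := h2
    have := abs_le.mp h3
    have h4 : τ.re = (τ : ℂ).re := rfl
    rw [← h4]
    nlinarith
  have hns : (τ : ℂ).re ^ 2 + (τ : ℂ).im ^ 2 = Complex.normSq τ := by
    rw [Complex.normSq_apply]; ring
  unfold chi
  simp only [Complex.reCLM_apply, Complex.imCLM_apply]
  rw [Real.smoothTransition.one_of_one_le, Real.smoothTransition.one_of_one_le, one_mul]
  · rw [hns]; linarith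
  · linarith

theorem chi_ne_zero_imp {z : ℂ} (h : chi z ≠ 0) : z.re ^ 2 < 4 / 9 ∧ 3 / 4 < z.re ^ 2 + z.im ^ 2 := by
  unfold chi at h
  simp only [Complex.reCLM_apply, Complex.imCLM_apply] at h
  constructor
  · by_contra hc
    rw [not_lt] at hc
    apply h
    rw [Real.smoothTransition.zero_of_nonpos, zero_mul]
    nlinarith
  · by_contra hc
    rw [not_lt] at hc
    apply h
    rw [Real.smoothTransition.zero_of_nonpos (x := 4 * _ - 3), mul_zero]
    linarith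

/-- On the upper half plane, `chi τ ≠ 0` forces `|re τ| ≤ 2/3` and `1/2 < im τ`. -/
theorem chi_ne_zero_imp' {τ : ℍ} (h : chi (τ : ℂ) ≠ 0) : |τ.re| ≤ 2 / 3 ∧ 1 / 2 < τ.im := by
  obtain ⟨h1, h2⟩ := chi_ne_zero_imp h
  have hre : (τ : ℂ).re = τ.re := rfl
  have him : (τ : ℂ).im = τ.im := rfl
  rw [hre] at h1 h2
  rw [him] at h2
  have hpos := τ.im_pos
  constructor
  · rw [abs_le]; constructor <;> nlinarith
  · nlinarith

/-! ## The `SL(2, ℤ)`-partition of unity -/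

/-- The translated cutoff. -/
noncomputable def chiG (g : SL(2, ℤ)) (τ : ℍ) : ℝ := chi ((g • τ : ℍ) : ℂ)

theorem chiG_nonneg (g : SL(2, ℤ)) (τ : ℍ) : 0 ≤ chiG g τ := chi_nonneg _

theorem chiG_smul (g h : SL(2, ℤ)) (τ : ℍ) : chiG g (h • τ) = chiG (g * h) τ := by
  unfold chiG; rw [mul_smul]

/-- Local finiteness of the family of translated cutoffs. -/
theorem exists_nhds_finite (τ₀ : ℍ) :
    ∃ U ∈ 𝓝 τ₀, {g : SL(2, ℤ) | ∃ τ ∈ U, chiG g τ ≠ 0}.Finite := by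
  obtain ⟨K, hK, hKn⟩ := exists_compact_mem_nhds τ₀
  obtain ⟨A, B, hB, hKAB⟩ := subset_verticalStrip_of_isCompact hK
  obtain ⟨Y, hY⟩ := (hK.image continuous_im).bddAbove
  refine ⟨K, hKn, (finite_smul_inter hK
    (isCompact_box (2 / 3) (1 / 2) (max Y (1 / B)) (by norm_num))).subset ?_⟩
  rintro g ⟨τ, hτ, hne⟩
  refine ⟨τ, hτ, ?_⟩
  obtain ⟨h1, h2⟩ := chi_ne_zero_imp' hne
  refine ⟨h1, h2.le, (im_smul_le_max g τ).trans (max_le_max ?_ ?_)⟩
  · exact hY ⟨τ, hτ, rfl⟩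
  · exact one_div_le_one_div_of_le hB (hKAB hτ).2

theorem finite_support_chiG (τ : ℍ) :
    (Function.support fun g : SL(2, ℤ) => chiG g τ).Finite := by
  obtain ⟨U, hU, hfin⟩ := exists_nhds_finite τ
  exact hfin.subset fun g hg => ⟨τ, mem_of_mem_nhds hU, hg⟩

/-- The sum of all translates of the cutoff. -/
noncomputable def chiSum (τ : ℍ) : ℝ := ∑ᶠ g : SL(2, ℤ), chiG g τ

theorem one_le_chiSum (τ : ℍ) : 1 ≤ chiSum τ := by
  obtain ⟨g, hg⟩ := ModularGroup.exists_smul_mem_fd τ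
  have h1 : chiG g τ = 1 := chi_eq_one_of_mem_fd hg
  rw [← h1]
  exact single_le_finsum g (finite_support_chiG τ) (fun j => chiG_nonneg j τ)

theorem chiSum_pos (τ : ℍ) : 0 < chiSum τ := lt_of_lt_of_le one_pos (one_le_chiSum τ)

theorem chiSum_smul (h : SL(2, ℤ)) (τ : ℍ) : chiSum (h • τ) = chiSum τ := by
  unfold chiSum
  simp_rw [chiG_smul]
  exact finsum_comp_equiv (Equiv.mulRight h) (f := fun g => chiG g τ)

/-- The partition of unity function. -/
noncomputable def psi (τ : ℍ) : ℝ := chi (τ : ℂ) / chiSum τ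

theorem psi_nonneg (τ : ℍ) : 0 ≤ psi τ := div_nonneg (chi_nonneg _) (chiSum_pos τ).le

theorem psi_smul (g : SL(2, ℤ)) (τ : ℍ) : psi (g • τ) = chiG g τ / chiSum τ := by
  unfold psi; rw [chiSum_smul]; rfl

theorem psi_ne_zero_imp {τ : ℍ} (h : psi τ ≠ 0) : |τ.re| ≤ 2 / 3 ∧ 1 / 2 < τ.im := by
  apply chi_ne_zero_imp'
  intro h0
  apply h
  unfold psi
  rw [h0, zero_div]

theorem finite_support_psi (τ : ℍ) :
    (Function.support fun g : SL(2, ℤ) => psi (g • τ)).Finite := by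
  refine (finite_support_chiG τ).subset fun g hg => ?_
  rw [Function.mem_support] at hg ⊢
  rw [psi_smul] at hg
  intro h0
  apply hg
  rw [h0, zero_div]

theorem finsum_psi (τ : ℍ) : ∑ᶠ g : SL(2, ℤ), psi (g • τ) = 1 := by
  simp_rw [psi_smul, div_eq_mul_inv]
  rw [← finsum_mul]
  exact mul_inv_cancel₀ (chiSum_pos τ).ne'

/-! ## The potential -/

/-- The potential attached to a function `f` on `SL(2, ℤ)`. -/
noncomputable def pot (f : SL(2, ℤ) → ℝ) (τ : ℍ) : ℝ :=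
  ∑ᶠ g : SL(2, ℤ), psi (g • τ) * f g⁻¹

theorem finite_support_pot (f : SL(2, ℤ) → ℝ) (τ : ℍ) :
    (Function.support fun g : SL(2, ℤ) => psi (g • τ) * f g⁻¹).Finite := by
  refine (finite_support_psi τ).subset fun g hg => ?_
  rw [Function.mem_support] at hg ⊢
  intro h0
  apply hg
  rw [h0, zero_mul]

theorem pot_smul (f : SL(2, ℤ) → ℝ) (h : SL(2, ℤ)) (τ : ℍ) :
    pot f (h • τ) = ∑ᶠ g : SL(2, ℤ), psi (g • τ) * f (h * g⁻¹) := by
  unfold pot
  have : ∀ g : SL(2, ℤ), psi (g • h • τ) * f g⁻¹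
      = (fun g' : SL(2, ℤ) => psi (g' • τ) * f (h * g'⁻¹)) (Equiv.mulRight h g) := by
    intro g
    simp only [Equiv.coe_mulRight, mul_smul]
    congr 2
    group
  simp_rw [this]
  exact finsum_comp_equiv (Equiv.mulRight h) (f := fun g' : SL(2, ℤ) => psi (g' • τ) * f (h * g'⁻¹))

/-- (P1) equivariance of the potential. -/
theorem pot_smul_of_left {f : SL(2, ℤ) → ℝ} {h : SL(2, ℤ)} {c : ℝ}
    (hf : ∀ g : SL(2, ℤ), f (h * g) = c + f g) (τ : ℍ) :
    pot f (h • τ) = pot f τ + c := by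
  rw [pot_smul]
  have : ∀ g : SL(2, ℤ), psi (g • τ) * f (h * g⁻¹) = psi (g • τ) * c + psi (g • τ) * f g⁻¹ := by
    intro g; rw [hf]; ring
  simp_rw [this]
  rw [finsum_add_distrib, ← finsum_mul, finsum_psi, one_mul]
  · unfold pot; ring
  · refine (finite_support_psi τ).subset fun g hg => ?_
    rw [Function.mem_support] at hg ⊢
    intro h0
    apply hg
    rw [h0, zero_mul]
  · exact finite_support_pot f τ

/-- (P3) the potential is constant on the `σ`-translate of the horoball `{2 < im}`. -/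
theorem pot_smul_of_im {f : SL(2, ℤ) → ℝ}
    (hf : ∀ (g : SL(2, ℤ)) (p : SL(2, ℤ)), p ∈ upperP → f (g * p) = f g)
    (σ : SL(2, ℤ)) {τ : ℍ} (hτ : 2 < τ.im) :
    pot f (σ • τ) = f σ := by
  rw [pot_smul]
  have : ∀ g : SL(2, ℤ), psi (g • τ) * f (σ * g⁻¹) = psi (g • τ) * f σ := by
    intro g
    by_cases h0 : psi (g • τ) = 0
    · rw [h0, zero_mul, zero_mul]
    · have hg : g ∈ upperP := mem_upperP_of_im hτ (psi_ne_zero_imp h0).2
      rw [hf σ g⁻¹ (upperP.inv_mem hg)]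
  simp_rw [this]
  rw [← finsum_mul, finsum_psi, one_mul]

/-! ## Smoothness -/

/-- The Möbius action in the coordinate of `ℂ` is smooth on the upper half plane. -/
theorem contDiffAt_smul (g : SL(2, ℤ)) {z₀ : ℂ} (hz₀ : 0 < z₀.im) :
    ContDiffAt ℝ ∞ (fun z : ℂ => ((g • ofComplex z : ℍ) : ℂ)) z₀ := by
  set num : ℂ → ℂ := fun z =>
    ((algebraMap ℤ ℝ (g 0 0) : ℝ) : ℂ) * z + ((algebraMap ℤ ℝ (g 0 1) : ℝ) : ℂ) with hnum
  set den : ℂ → ℂ := fun z =>
    ((algebraMap ℤ ℝ (g 1 0) : ℝ) : ℂ) * z + ((algebraMap ℤ ℝ (g 1 1) : ℝ) : ℂ) with hden'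
  have heq : ∀ z : ℂ, 0 < z.im → ((g • ofComplex z : ℍ) : ℂ) = num z / den z := by
    intro z hz
    rw [coe_specialLinearGroup_apply, ofComplex_apply_of_im_pos hz]
  have hden : den z₀ ≠ 0 := by
    intro h0
    have h1 := heq z₀ hz₀
    rw [h0, div_zero] at h1
    have h2 := (g • ofComplex z₀).im_pos
    have h3 : (g • ofComplex z₀).im = ((g • ofComplex z₀ : ℍ) : ℂ).im := rfl
    rw [h3, h1] at h2
    simp at h2
  have hnum_cd : ContDiffAt ℂ ∞ num z₀ :=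
    (contDiffAt_const.mul contDiffAt_id).add contDiffAt_const
  have hden_cd : ContDiffAt ℂ ∞ den z₀ :=
    (contDiffAt_const.mul contDiffAt_id).add contDiffAt_const
  refine ((hnum_cd.div hden_cd hden).restrict_scalars ℝ).congr_of_eventuallyEq ?_
  filter_upwards [(Complex.continuous_im.isOpen_preimage _ isOpen_Ioi).mem_nhds hz₀] with z hz
  exact heq z hz

theorem contDiffAt_chiG (g : SL(2, ℤ)) {z₀ : ℂ} (hz₀ : 0 < z₀.im) :
    ContDiffAt ℝ ∞ (fun z : ℂ => chiG g (ofComplex z)) z₀ :=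
  chi_contDiff.contDiffAt.comp z₀ (contDiffAt_smul g hz₀)

/-- (P2) the potential is smooth on the upper half plane. -/
theorem contDiffAt_pot (f : SL(2, ℤ) → ℝ) {z₀ : ℂ} (hz₀ : 0 < z₀.im) :
    ContDiffAt ℝ ∞ (fun z : ℂ => pot f (ofComplex z)) z₀ := by
  obtain ⟨U, hU, hfin⟩ := exists_nhds_finite (ofComplex z₀)
  set s := hfin.toFinset with hs_def
  have hs : ∀ τ ∈ U, ∀ g : SL(2, ℤ), g ∉ s → chiG g τ = 0 := by
    intro τ hτ g hg
    by_contra hne
    exact hg (hfin.mem_toFinset.mpr ⟨τ, hτ, hne⟩)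
  have hsum : ∀ τ ∈ U, chiSum τ = ∑ g ∈ s, chiG g τ := by
    intro τ hτ
    apply finsum_eq_sum_of_support_subset
    intro g hg
    by_contra hgs
    exact hg (hs τ hτ g (by simpa using hgs))
  have hpot : ∀ τ ∈ U, pot f τ = (∑ g ∈ s, chiG g τ * f g⁻¹) / (∑ g ∈ s, chiG g τ) := by
    intro τ hτ
    unfold pot
    rw [finsum_eq_sum_of_support_subset (s := s), Finset.sum_div]
    · refine Finset.sum_congr rfl fun g _ => ?_
      rw [psi_smul, hsum τ hτ]; ring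
    · intro g hg
      by_contra hgs
      apply hg
      show psi (g • τ) * f g⁻¹ = 0
      rw [psi_smul, hs τ hτ g (by simpa using hgs), zero_div, zero_mul]
  have hcoe : ((ofComplex z₀ : ℍ) : ℂ) = z₀ := by
    rw [ofComplex_apply_of_im_pos hz₀]
  have hev : ∀ᶠ z in 𝓝 z₀, ofComplex z ∈ U := by
    have h1 : UpperHalfPlane.coe '' U ∈ 𝓝 z₀ := by
      rw [← hcoe, ← isOpenEmbedding_coe.map_nhds_eq]
      exact image_mem_map hU
    filter_upwards [h1] with z hz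
    obtain ⟨τ, hτ, rfl⟩ := hz
    rwa [ofComplex_apply]
  have hcd : ContDiffAt ℝ ∞ (fun z : ℂ => (∑ g ∈ s, chiG g (ofComplex z) * f g⁻¹) /
      (∑ g ∈ s, chiG g (ofComplex z))) z₀ := by
    refine ContDiffAt.div ?_ ?_ ?_
    · exact ContDiffAt.sum fun g _ => (contDiffAt_chiG g hz₀).mul contDiffAt_const
    · exact ContDiffAt.sum fun g _ => contDiffAt_chiG g hz₀
    · rw [← hsum _ (mem_of_mem_nhds hU)]
      exact (chiSum_pos _).ne'
  refine hcd.congr_of_eventuallyEq ?_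
  filter_upwards [hev] with z hz
  exact hpot _ hz

/-! ## Main results -/

/-- **Route 2, leaf POT.** For a real-valued hom `φ` on `Γ₀(N)` killing all elements of trace
`±2` there is a smooth potential `u : ℍ → ℝ` with periods `φ` which is constant on every
`SL(2, ℤ)`-translate of the horoball `{2 < im}`. -/
theorem exists_potential (N : ℕ) (φ : Additive (Gamma0 N) →+ ℝ)
    (hφ : φ ∈ parabolicHoms ℝ (Gamma0 N) ℝ) :
    ∃ u : ℍ → ℝ,
      (∀ (γ : Gamma0 N) (τ : ℍ), u ((γ : SL(2, ℤ)) • τ) = u τ + φ (Additive.ofMul γ)) ∧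
      ContDiffOn ℝ ∞ (fun z : ℂ => u (ofComplex z)) {z : ℂ | 0 < z.im} ∧
      (∀ σ : SL(2, ℤ), ∃ c : ℝ, ∀ τ : ℍ, 2 < τ.im → u (σ • τ) = c) := by
  obtain ⟨f, hf1, hf2⟩ := exists_f0 φ hφ
  refine ⟨pot f, fun γ τ => pot_smul_of_left (fun g => hf1 γ g) τ, fun z hz => ?_, fun σ => ?_⟩
  · exact (contDiffAt_pot f hz).contDiffWithinAt
  · exact ⟨f σ, fun τ hτ => pot_smul_of_im hf2 σ hτ⟩

/-- A function which is constant on every `SL(2, ℤ)`-translate of the horoball `{2 < im}` is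
locally constant at every point `τ₀` of a cusp neighbourhood `{τ | ∃ g, 2 < im (g • τ)}`. -/
theorem eventually_eq_of_horoball {u : ℍ → ℝ}
    (h3 : ∀ σ : SL(2, ℤ), ∃ c : ℝ, ∀ τ : ℍ, 2 < τ.im → u (σ • τ) = c)
    {τ₀ : ℍ} {g : SL(2, ℤ)} (hg : 2 < (g • τ₀).im) : ∀ᶠ τ in 𝓝 τ₀, u τ = u τ₀ := by
  obtain ⟨c, hc⟩ := h3 g⁻¹
  have hcont : Continuous fun τ : ℍ => (g • τ).im :=
    UpperHalfPlane.continuous_im.comp
      (continuous_const_smul (Matrix.SpecialLinearGroup.mapGL ℝ g) (T := ℍ))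
  have hopen : IsOpen {τ : ℍ | 2 < (g • τ).im} := isOpen_lt continuous_const hcont
  have key : ∀ τ : ℍ, 2 < (g • τ).im → u τ = c := by
    intro τ hτ
    have := hc (g • τ) hτ
    rwa [inv_smul_smul] at this
  filter_upwards [hopen.mem_nhds hg] with τ hτ
  rw [key τ hτ, key τ₀ hg]

/-- Coordinate version of `eventually_eq_of_horoball`: in the coordinate of `ℂ`, the function
is locally constant at such points, hence has vanishing derivative there. -/
theorem hasFDerivAt_zero_of_horoball {u : ℍ → ℝ}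
    (h3 : ∀ σ : SL(2, ℤ), ∃ c : ℝ, ∀ τ : ℍ, 2 < τ.im → u (σ • τ) = c)
    {τ₀ : ℍ} {g : SL(2, ℤ)} (hg : 2 < (g • τ₀).im) :
    HasFDerivAt (fun z : ℂ => u (ofComplex z)) (0 : ℂ →L[ℝ] ℝ) (τ₀ : ℂ) := by
  have h1 := eventually_eq_of_horoball h3 hg
  have h2 : ∀ᶠ z in 𝓝 (τ₀ : ℂ), u (ofComplex z) = u τ₀ := by
    have h3' : UpperHalfPlane.coe '' {τ : ℍ | u τ = u τ₀} ∈ 𝓝 (τ₀ : ℂ) := by
      rw [← isOpenEmbedding_coe.map_nhds_eq]
      exact image_mem_map h1
    filter_upwards [h3'] with z hz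
    obtain ⟨τ, hτ, rfl⟩ := hz
    rw [ofComplex_apply]
    exact hτ
  exact (hasFDerivAt_const (u τ₀) (τ₀ : ℂ)).congr_of_eventuallyEq h2

end Fermat.Agent.S21.helper3081
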