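/-
helper2385: S21 Route 2 — leaf POT in the on-main Spec shape.

`stmtPOT (N) [NeZero N] : helper801.StmtPOT N`, from `helper3081.exists_potential`
(smooth potential, constant on every `σ • {Im > 2}`) and the finite-energy bridge (B1) of
`helper2385_R2Bridge` (covering set = finite union of translates of `ModularGroup.fd`).
-/
import Fermat.Agent.S21.helper2385_R2Bridge
import Fermat.Agent.S21.helper801_HodgeSpec
import Fermat.Agent.S21.helper3081_Potential

set_option autoImplicit false

namespace Fermat.Agent.S21.helper2385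

open UpperHalfPlane CongruenceSubgroup ModularCurve ModularCurve.Period MeasureTheory Filter Topology
open scoped MatrixGroups ENNReal ContDiff

/-- `helper801.gradC` is `Dc` of the extension to `ℂ`. -/
theorem gradC_eq_Dc (u : ℍ → ℝ) (z : ℂ) : helper801.gradC u z = Dc (u ∘ ofComplex) z := by
  simp only [helper801.gradC, Dc, mul_comm]

/-- The energy integrand of `helper801.FiniteEnergyCert` is `ofReal (Gd ·)`. -/
theorem energy_integrand_eq (u : ℍ → ℝ) (z : ℍ) :
    ‖helper801.gradC u (z : ℂ)‖ₑ ^ 2 * ENNReal.ofReal (z.im ^ 2)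
      = ENNReal.ofReal (Gd (u ∘ ofComplex) z) := by
  rw [gradC_eq_Dc, Gd, ENNReal.ofReal_mul (sq_nonneg _), mul_comm,
    ENNReal.ofReal_pow (norm_nonneg _), ofReal_norm]

/-- Finite-energy certificate for a `C¹` function on `ℍ` which is constant on every
`σ • {Im > 2}`, `σ ∈ SL(2,ℤ)`. -/
theorem finiteEnergyCert_of_const_near_cusps (N : ℕ) [NeZero N] (u : ℍ → ℝ)
    (h2 : ContDiffOn ℝ 1 (u ∘ ofComplex) UH)
    (h3 : ∀ σ : SL(2, ℤ), ∃ c : ℝ, ∀ z : ℍ, 2 < z.im → u (σ • z) = c) :
    helper801.FiniteEnergyCert N u := by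
  refine ⟨covSet N, measurableSet_covSet N, exists_smul_mem_covSet N, ?_⟩
  have hconst : ∀ σ : SL(2, ℤ), ∃ c : ℝ, ∀ z : ℍ, 2 < z.im →
      (u ∘ ofComplex) ((σ • z : ℍ) : ℂ) = c := by
    intro σ
    obtain ⟨c, hc⟩ := h3 σ
    exact ⟨c, fun z hz => by simp only [Function.comp_apply, ofComplex_apply, hc z hz]⟩
  have := lintegral_Gd_covSet_lt_top N h2 hconst
  simpa only [energy_integrand_eq] using this

/-- **Leaf POT of Route 2**, in the shape of `helper801_HodgeSpec`. -/
theorem stmtPOT (N : ℕ) [NeZero N] : helper801.StmtPOT N := by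
  intro φ hφ
  obtain ⟨u, h1, h2, h3⟩ := helper3081.exists_potential N φ hφ
  have h2' : ContDiffOn ℝ 1 (u ∘ ofComplex) UH := h2.of_le (by exact_mod_cast le_top)
  exact ⟨u, ⟨h2', h1⟩, finiteEnergyCert_of_const_near_cusps N u h2' h3⟩

end Fermat.Agent.S21.helper2385
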