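import Mathlib

set_option autoImplicit false

open UpperHalfPlane MeasureTheory ModularForm CongruenceSubgroup Filter Topology
open scoped Manifold MatrixGroups ENNReal

namespace Fermat.Agent.S21.helper2982

noncomputable section

/-- Hyperbolic integrals of `(im z)^2 * F z` over a measurable set of `ℍ` are Lebesgue
integrals of `F` over the image of the set in `ℂ`. -/
lemma lintegral_im_sq_mul_eq (S : Set ℍ) (hS : MeasurableSet S) (F : ℍ → ℝ) :
    ∫⁻ z in S, ENNReal.ofReal (z.im ^ 2 * F z) =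
      ∫⁻ w in (UpperHalfPlane.coe '' S), ENNReal.ofReal (F (ofComplex w)) := by
  have hmp : MeasurePreserving UpperHalfPlane.coe (volume.comap UpperHalfPlane.coe)
      (volume.restrict (Set.range UpperHalfPlane.coe)) :=
    ⟨measurable_coe, by rw [measurableEmbedding_coe.map_comap]⟩
  have hdens : Measurable fun z : ℍ ↦ ((↑((1 / NNReal.mk z.im z.im_pos.le : NNReal) ^ 2) : ℝ≥0∞)) := by
    refine measurable_coe_nnreal_ennreal.comp ?_
    refine (Continuous.measurable ?_)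
    refine .pow (.div₀ continuous_const ?_ ?_) _
    · exact continuous_im.subtype_mk _
    · exact fun x ↦ NNReal.ne_iff.mp x.im_ne_zero
  rw [volume_def, setLIntegral_withDensity_eq_setLIntegral_mul_non_measurable _ hdens _ hS
    (by simp)]
  have key : ∀ z : ℍ, ((fun z : ℍ ↦ ((↑((1 / NNReal.mk z.im z.im_pos.le : NNReal) ^ 2) : ℝ≥0∞))) *
      fun z : ℍ ↦ ENNReal.ofReal (z.im ^ 2 * F z)) z =
      (fun w : ℂ ↦ ENNReal.ofReal (F (ofComplex w))) (z : ℂ) := by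
    intro z
    have hz := z.im_pos
    simp only [Pi.mul_apply, ofComplex_apply]
    have h1 : ((↑((1 / NNReal.mk z.im z.im_pos.le : NNReal) ^ 2) : ℝ≥0∞)) =
        ENNReal.ofReal ((1 / z.im) ^ 2) := by
      rw [ENNReal.ofReal, ENNReal.coe_inj]
      ext
      simp
      positivity
    rw [h1, ← ENNReal.ofReal_mul (by positivity)]
    congr 1
    field_simp
  simp_rw [key]
  rw [hmp.setLIntegral_comp_emb measurableEmbedding_coe (fun w : ℂ ↦ ENNReal.ofReal (F (ofComplex w))) S,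
    Measure.restrict_restrict', Set.inter_eq_self_of_subset_left (Set.image_subset_range _ _)]
  exact measurableEmbedding_coe.measurableSet_range

/-- The pure complex-analysis strip lemma (4a), as a `Prop`: a holomorphic function on the
upper half-plane which is `p`-periodic and square-integrable on a half-strip of width `2p`
tends to `0` as `im z → ∞`. -/
def StripLemma : Prop :=
  ∀ (p : ℝ) (G : ℂ → ℂ), 1 ≤ p → DifferentiableOn ℂ G {z : ℂ | 0 < z.im} →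
    (∀ z : ℂ, 0 < z.im → G (z + p) = G z) →
    ∫⁻ z in {z : ℂ | 2 ≤ z.im ∧ |z.re| ≤ p}, ENNReal.ofReal (‖G z‖ ^ 2) < ⊤ →
    ∀ ε : ℝ, 0 < ε → ∃ A : ℝ, ∀ z : ℂ, A ≤ z.im → 0 < z.im → ‖G z‖ ≤ ε

lemma coe_image_strip (N : ℕ) :
    UpperHalfPlane.coe '' {z : ℍ | 2 ≤ z.im ∧ |z.re| ≤ N} = {w : ℂ | 2 ≤ w.im ∧ |w.re| ≤ N} := by
  ext w
  constructor
  · rintro ⟨z, hz, rfl⟩
    exact hz
  · intro hw
    have hw0 : 0 < w.im := lt_of_lt_of_le two_pos hw.1
    exact ⟨⟨w, hw0⟩, hw, rfl⟩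

lemma measurableSet_strip (N : ℕ) : MeasurableSet {z : ℍ | 2 ≤ z.im ∧ |z.re| ≤ N} := by
  have h1 : IsClosed {z : ℍ | 2 ≤ z.im ∧ |z.re| ≤ N} := by
    refine IsClosed.and ?_ ?_
    · exact isClosed_le continuous_const UpperHalfPlane.continuous_im
    · exact isClosed_le (continuous_abs.comp UpperHalfPlane.continuous_re) continuous_const
  exact h1.measurableSet

/-- Strip lemma on `ℍ` with the hyperbolic measure, deduced from the complex strip lemma. -/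
theorem isZeroAtImInfty_of_L2_strip (hS : StripLemma) (N : ℕ) [NeZero N] (g : ℍ → ℂ)
    (hol : MDiff g) (hper : ∀ z : ℍ, g ((N : ℝ) +ᵥ z) = g z)
    (hL2 : ∫⁻ z in {z : ℍ | 2 ≤ z.im ∧ |z.re| ≤ N}, ENNReal.ofReal (z.im ^ 2 * ‖g z‖ ^ 2) < ⊤) :
    IsZeroAtImInfty g := by
  have hN : (1 : ℝ) ≤ N := by exact_mod_cast Nat.one_le_iff_ne_zero.mpr (NeZero.ne N)
  rw [lintegral_im_sq_mul_eq _ (measurableSet_strip N) (fun z ↦ ‖g z‖ ^ 2), coe_image_strip] at hL2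
  have hG : DifferentiableOn ℂ (g ∘ ofComplex) {z : ℂ | 0 < z.im} :=
    UpperHalfPlane.mdifferentiable_iff.mp hol
  have hperG : ∀ z : ℂ, 0 < z.im → (g ∘ ofComplex) (z + ((N : ℝ) : ℂ)) = (g ∘ ofComplex) z := by
    intro z hz
    have hz' : 0 < (z + ((N : ℝ) : ℂ)).im := by simpa using hz
    simp only [Function.comp_apply, ofComplex_apply_of_im_pos hz', ofComplex_apply_of_im_pos hz]
    rw [← hper ⟨z, hz⟩]
    congr 1
    ext
    simp [add_comm]
  have key := hS (N : ℝ) (g ∘ ofComplex) hN hG hperG hL2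
  rw [isZeroAtImInfty_iff]
  intro ε hε
  obtain ⟨A, hA⟩ := key ε hε
  refine ⟨A, fun z hz ↦ ?_⟩
  have := hA (z : ℂ) hz z.im_pos
  simpa using this

lemma im_sq_mul_norm_sq_smul (h : ℍ → ℂ) (σ : SL(2, ℤ)) (z : ℍ) :
    (σ • z).im ^ 2 * ‖h (σ • z)‖ ^ 2 = z.im ^ 2 * ‖(h ∣[(2 : ℤ)] σ) z‖ ^ 2 := by
  rw [SL_slash_apply, ModularGroup.im_smul_eq_div_normSq]
  have hd := denom_ne_zero (Matrix.SpecialLinearGroup.toGL
    ((Matrix.SpecialLinearGroup.map (Int.castRingHom ℝ)) σ)) z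
  have hd' : ‖denom (Matrix.SpecialLinearGroup.toGL
    ((Matrix.SpecialLinearGroup.map (Int.castRingHom ℝ)) σ)) z‖ ≠ 0 := norm_ne_zero_iff.mpr hd
  rw [Complex.normSq_eq_norm_sq, norm_mul, norm_zpow]
  simp only [zpow_neg]
  have : (‖denom (Matrix.SpecialLinearGroup.toGL
    ((Matrix.SpecialLinearGroup.map (Int.castRingHom ℝ)) σ)) z‖ ^ (2 : ℤ)) =
      ‖denom (Matrix.SpecialLinearGroup.toGL
    ((Matrix.SpecialLinearGroup.map (Int.castRingHom ℝ)) σ)) z‖ ^ 2 := by norm_cast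
  rw [this]
  field_simp

/-- `σ T^N σ⁻¹ ∈ Γ₀(N)`. -/
lemma conj_T_pow_mem_Gamma0 (N : ℕ) (σ : SL(2, ℤ)) :
    σ * ModularGroup.T ^ (N : ℤ) * σ⁻¹ ∈ Gamma0 N := by
  have h1 : ModularGroup.T ^ (N : ℤ) ∈ Gamma N := by
    simpa using ModularGroup_T_pow_mem_Gamma (N : ℤ) (N : ℤ) dvd_rfl
  have h2 : σ * ModularGroup.T ^ (N : ℤ) * σ⁻¹ ∈ Gamma N := (Gamma_normal N).conj_mem _ h1 σ
  rw [Gamma_mem] at h2
  rw [Gamma0_mem]
  exact h2.2.2.1

lemma slash_T_zpow_apply' (f : ℍ → ℂ) (m : ℤ) (z : ℍ) :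
    (f ∣[(2 : ℤ)] (ModularGroup.T ^ m)) z = f ((m : ℝ) +ᵥ z) := by
  rw [SL_slash_apply, modular_T_zpow_smul]
  have h2 : denom (ModularGroup.T ^ m : SL(2, ℤ)) z = 1 := by
    rw [ModularGroup.denom_apply]
    simp [ModularGroup.coe_T_zpow]
  rw [h2]
  simp

lemma slash_periodic (N : ℕ) (h : ℍ → ℂ) (hinv : ∀ γ ∈ Gamma0 N, h ∣[(2 : ℤ)] γ = h)
    (σ : SL(2, ℤ)) (z : ℍ) :
    (h ∣[(2 : ℤ)] σ) ((N : ℝ) +ᵥ z) = (h ∣[(2 : ℤ)] σ) z := by
  have h1 := slash_T_zpow_apply' (h ∣[(2 : ℤ)] σ) (N : ℤ) z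
  have h2 : (h ∣[(2 : ℤ)] σ) ∣[(2 : ℤ)] (ModularGroup.T ^ (N : ℤ)) = h ∣[(2 : ℤ)] σ := by
    rw [← SlashAction.slash_mul]
    have : σ * ModularGroup.T ^ (N : ℤ) = (σ * ModularGroup.T ^ (N : ℤ) * σ⁻¹) * σ := by group
    rw [this, SlashAction.slash_mul, hinv _ (conj_T_pow_mem_Gamma0 N σ)]
  rw [h2] at h1
  simpa using h1.symm

/-- **CUSP core (4b)**, modulo the strip lemma (4a): a holomorphic weight-2 invariant function
for `Γ₀(N)` whose `SL(2,ℤ)`-translates are square-integrable (Petersson density, hyperbolic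
measure) on the cusp strip is a cusp form. -/
theorem cuspForm_of_L2_of_strip (hS : StripLemma) (N : ℕ) [NeZero N] (h : ℍ → ℂ) (hol : MDiff h)
    (hinv : ∀ γ ∈ Gamma0 N, h ∣[(2 : ℤ)] γ = h)
    (hL2 : ∀ σ : SL(2, ℤ), ∫⁻ z in {z : ℍ | 2 ≤ z.im ∧ |z.re| ≤ N},
        ENNReal.ofReal ((σ • z).im ^ 2 * ‖h (σ • z)‖ ^ 2) < ⊤) :
    ∃ f : CuspForm (Gamma0 N) 2, ∀ z, f z = h z := by
  refine ⟨{ toFun := h
            slash_action_eq' := ?_
            holo' := hol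
            zero_at_cusps' := ?_ }, fun z ↦ rfl⟩
  · rintro _ ⟨γ, hγ, rfl⟩
    have := hinv γ hγ
    rw [SL_slash] at this
    exact this
  · intro c hc
    rw [Subgroup.IsArithmetic.isCusp_iff_isCusp_SL2Z] at hc
    rw [OnePoint.isZeroAt_iff_forall_SL2Z hc]
    intro σ _
    refine isZeroAtImInfty_of_L2_strip hS N (h ∣[(2 : ℤ)] σ) ?_ (slash_periodic N h hinv σ) ?_
    · rw [SL_slash]
      exact hol.slash 2 _
    · have := hL2 σ
      simp_rw [im_sq_mul_norm_sq_smul] at this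
      exact this

end

end Fermat.Agent.S21.helper2982
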