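import Fermat.Agent.S21.helper2415_Strip
import Fermat.Agent.S21.helper2982_CuspL2

/-!
# helper2415: CUSP core, unconditional (Route 2 of S21, leaf CUSP, 4a + 4b)

`helper2982.StripLemma` holds (it is `exists_bound_of_periodic_of_lintegral_lt_top`), hence
`helper2982.cuspForm_of_L2_of_strip` becomes unconditional.
-/

set_option autoImplicit false

namespace Fermat.Agent.S21.helper2415

open UpperHalfPlane MeasureTheory ModularForm CongruenceSubgroup Filter Topology
open scoped Manifold MatrixGroups ENNReal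

/-- The pure complex-analysis strip lemma (4a) in the `Prop` shape of `helper2982`. -/
theorem stripLemma : Fermat.Agent.S21.helper2982.StripLemma := by
  intro p G hp hG hper hL2 ε hε
  obtain ⟨A, hA⟩ := exists_bound_of_periodic_of_lintegral_lt_top hp hG hper hL2 ε hε
  exact ⟨A, fun z hz _ => hA z hz⟩

/-- **CUSP core (4a + 4b), unconditional**: a holomorphic weight-2 `Γ₀(N)`-invariant function on
`ℍ` which is `L²` (invariant density `(im z)² ‖h z‖²`, hyperbolic measure) on every
`SL(2,ℤ)`-translate of the cusp strip is a cusp form of weight 2 and level `Γ₀(N)`. -/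
theorem cuspForm_of_L2 (N : ℕ) [NeZero N] (h : ℍ → ℂ) (hol : MDiff h)
    (hinv : ∀ γ ∈ Gamma0 N, h ∣[(2 : ℤ)] γ = h)
    (hL2 : ∀ σ : SL(2, ℤ), ∫⁻ z in {z : ℍ | 2 ≤ z.im ∧ |z.re| ≤ N},
      ENNReal.ofReal ((σ • z).im ^ 2 * ‖h (σ • z)‖ ^ 2) < ⊤) :
    ∃ f : CuspForm (Gamma0 N) 2, ∀ z, f z = h z :=
  Fermat.Agent.S21.helper2982.cuspForm_of_L2_of_strip stripLemma N h hol hinv hL2

end Fermat.Agent.S21.helper2415
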