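import Fermat.Agent.S21.helper2415_MeanValue

/-!
# helper2415: area mean-value inequalities on discs, `L¹` and Bochner forms

For `f` holomorphic on the open disc `ball c R`:

* `ofReal_pi_mul_sq_mul_norm_le`: `ofReal (π R² ‖f c‖) ≤ ∫⁻ z in ball c R, ‖f z‖ₑ`;
* `pi_mul_sq_mul_norm_le_integral`: `π R² ‖f c‖ ≤ ∫ z in ball c R, ‖f z‖` (Bochner, if integrable);
* `pi_mul_sq_mul_norm_sq_le_integral`: `π R² ‖f c‖² ≤ ∫ z in ball c R, ‖f z‖²` (Bochner).
-/

set_option autoImplicit false

namespace Fermat.Agent.S21.helper2415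

open Complex MeasureTheory Metric Set Real Filter Topology

/-- Circle-level inequality: `2π ‖f c‖ ≤ ∫_{-π}^{π} ‖f (c + r e^{iθ})‖ dθ`. -/
lemma two_pi_mul_norm_le_integral {f : ℂ → ℂ} {c : ℂ} {r : ℝ} (hr : 0 < r)
    (hf : DiffContOnCl ℂ f (ball c r)) :
    2 * π * ‖f c‖ ≤ ∫ θ in (-π)..π, ‖f (circleMap c r θ)‖ := by
  have habs : |r| = r := abs_of_pos hr
  have hmv : circleAverage f c r = f c := by
    apply DiffContOnCl.circleAverage
    rwa [habs]
  rw [circleAverage_eq_integral_add (-π)] at hmv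
  have hshift : ∫ θ in (0:ℝ)..2 * π, f (circleMap c r (θ + -π))
      = ∫ θ in (-π)..π, f (circleMap c r θ) := by
    rw [intervalIntegral.integral_comp_add_right (fun θ => f (circleMap c r θ)) (-π)]
    congr 1 <;> ring
  rw [hshift] at hmv
  have hpi : (0:ℝ) < π := Real.pi_pos
  have hle : (-π) ≤ π := by linarith
  have hn : ‖f c‖ = (2 * π)⁻¹ * ‖∫ θ in (-π)..π, f (circleMap c r θ)‖ := by
    conv_lhs => rw [← hmv]
    rw [norm_smul, norm_inv, Real.norm_eq_abs, abs_of_pos (by positivity)]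
  have hn2 : ‖∫ θ in (-π)..π, f (circleMap c r θ)‖ ≤ ∫ θ in (-π)..π, ‖f (circleMap c r θ)‖ :=
    intervalIntegral.norm_integral_le_integral_norm hle
  have h2pi : (0:ℝ) < 2 * π := by positivity
  rw [hn, ← mul_assoc, mul_inv_cancel₀ h2pi.ne', one_mul]
  exact hn2

/-- Lintegral version of the circle-level inequality, in polar coordinates. -/
lemma ofReal_two_pi_mul_norm_le_lintegral {f : ℂ → ℂ} {c : ℂ} {r : ℝ} (hr : 0 < r)
    (hf : DiffContOnCl ℂ f (ball c r)) :
    ENNReal.ofReal (2 * π * ‖f c‖)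
      ≤ ∫⁻ θ in Ioo (-π) π, ENNReal.ofReal (‖f (Complex.polarCoord.symm (r, θ) + c)‖) := by
  have hpi : (0:ℝ) < π := Real.pi_pos
  have hle : (-π) ≤ π := by linarith
  have hcont : Continuous (fun θ : ℝ => f (circleMap c r θ)) := by
    have h1 : ContinuousOn f (closedBall c r) := by
      have := hf.continuousOn
      rwa [closure_ball c hr.ne'] at this
    refine h1.comp_continuous (continuous_circleMap c r) (fun θ => ?_)
    exact sphere_subset_closedBall (circleMap_mem_sphere c hr.le θ)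
  have hcm : ∀ θ : ℝ, Complex.polarCoord.symm (r, θ) + c = circleMap c r θ := by
    intro θ
    rw [Complex.polarCoord_symm_apply, circleMap, Complex.exp_mul_I]
    simp only [Complex.ofReal_cos, Complex.ofReal_sin]
    ring
  simp_rw [hcm]
  have hint : IntegrableOn (fun θ : ℝ => ‖f (circleMap c r θ)‖) (Ioo (-π) π) :=
    ((hcont.norm).integrableOn_Icc (a := -π) (b := π)).mono_set Ioo_subset_Icc_self
  rw [← ofReal_integral_eq_lintegral_ofReal hint (ae_of_all _ fun θ => norm_nonneg _)]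
  apply ENNReal.ofReal_le_ofReal
  have := two_pi_mul_norm_le_integral hr hf
  rwa [intervalIntegral.integral_of_le hle, integral_Ioc_eq_integral_Ioo] at this

/-- **Area mean-value inequality** (`L¹` form) for a holomorphic function on a disc:
`π R² ‖f c‖ ≤ ∫_{B(c,R)} ‖f‖`. -/
theorem ofReal_pi_mul_sq_mul_norm_le' {f : ℂ → ℂ} {c : ℂ} {R : ℝ} (hR : 0 < R)
    (hf : DifferentiableOn ℂ f (ball c R)) :
    ENNReal.ofReal (π * R ^ 2 * ‖f c‖) ≤ ∫⁻ z in ball c R, ENNReal.ofReal (‖f z‖) := by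
  classical
  set F : ℂ → ENNReal := (ball c R).indicator (fun z => ENNReal.ofReal (‖f z‖)) with hF
  have hFmeas : Measurable F := by
    have hc : ContinuousOn (fun z => ENNReal.ofReal (‖f z‖)) (ball c R) :=
      ENNReal.continuous_ofReal.comp_continuousOn (hf.continuousOn.norm)
    have : F = (ball c R).piecewise (fun z => ENNReal.ofReal (‖f z‖)) (fun _ => 0) := by
      ext z; simp [F, Set.indicator, Set.piecewise]
    rw [this]
    exact hc.measurable_piecewise continuousOn_const measurableSet_ball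
  have e1 : ∫⁻ z in ball c R, ENNReal.ofReal (‖f z‖) = ∫⁻ z, F z := by
    rw [hF, lintegral_indicator measurableSet_ball]
  have e2 : ∫⁻ z, F z = ∫⁻ w, F (w + c) := (lintegral_add_right_eq_self F c).symm
  have e3 : ∫⁻ w, F (w + c)
      = ∫⁻ p in polarCoord.target, ENNReal.ofReal p.1 • F (Complex.polarCoord.symm p + c) :=
    (Complex.lintegral_comp_polarCoord_symm (fun w => F (w + c))).symm
  rw [e1, e2, e3, polarCoord_target, Measure.volume_eq_prod, ← Measure.prod_restrict,
    lintegral_prod]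
  swap
  · apply Measurable.aemeasurable
    refine Measurable.smul (ENNReal.measurable_ofReal.comp measurable_fst) ?_
    refine hFmeas.comp ?_
    refine Measurable.add ?_ measurable_const
    have hcs : Continuous (fun p : ℝ × ℝ => Complex.polarCoord.symm p) := by
      simp_rw [Complex.polarCoord_symm_apply]
      fun_prop
    exact hcs.measurable
  have hinner : ∀ r ∈ Ioo (0:ℝ) R,
      ENNReal.ofReal r * ENNReal.ofReal (2 * π * ‖f c‖)
        ≤ ∫⁻ θ in Ioo (-π) π, ENNReal.ofReal r • F (Complex.polarCoord.symm (r, θ) + c) := by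
    intro r hr
    have hrpos : 0 < r := hr.1
    have hfr : DiffContOnCl ℂ f (ball c r) :=
      hf.diffContOnCl_ball (closedBall_subset_ball hr.2)
    have hFeq : ∀ θ : ℝ, F (Complex.polarCoord.symm (r, θ) + c)
        = ENNReal.ofReal (‖f (Complex.polarCoord.symm (r, θ) + c)‖) := by
      intro θ
      rw [hF, Set.indicator_of_mem]
      rw [mem_ball, dist_eq_norm, add_sub_cancel_right, Complex.norm_polarCoord_symm,
        abs_of_pos hrpos]
      exact hr.2
    simp_rw [hFeq, smul_eq_mul]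
    rw [lintegral_const_mul']
    · exact mul_le_mul_right (ofReal_two_pi_mul_norm_le_lintegral hrpos hfr) _
    · exact ENNReal.ofReal_ne_top
  calc ENNReal.ofReal (π * R ^ 2 * ‖f c‖)
      = ∫⁻ r in Ioo (0:ℝ) R, ENNReal.ofReal r * ENNReal.ofReal (2 * π * ‖f c‖) := by
        rw [lintegral_mul_const' _ _ ENNReal.ofReal_ne_top]
        have hint : IntegrableOn (fun r : ℝ => r) (Ioo 0 R) :=
          (continuous_id.integrableOn_Icc (a := (0:ℝ)) (b := R)).mono_set Ioo_subset_Icc_self
        rw [← ofReal_integral_eq_lintegral_ofReal hint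
          ((ae_restrict_iff' measurableSet_Ioo).mpr (ae_of_all _ fun r hr => hr.1.le)),
          ← ENNReal.ofReal_mul (by
            apply setIntegral_nonneg measurableSet_Ioo fun r hr => hr.1.le)]
        congr 1
        rw [← integral_Ioc_eq_integral_Ioo, ← intervalIntegral.integral_of_le hR.le,
          integral_id]
        ring
    _ ≤ ∫⁻ r in Ioo (0:ℝ) R, ∫⁻ θ in Ioo (-π) π,
          ENNReal.ofReal r • F (Complex.polarCoord.symm (r, θ) + c) :=
        setLIntegral_mono' measurableSet_Ioo hinner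
    _ ≤ ∫⁻ r in Ioi (0:ℝ), ∫⁻ θ in Ioo (-π) π,
          ENNReal.ofReal r • F (Complex.polarCoord.symm (r, θ) + c) :=
        lintegral_mono_set Ioo_subset_Ioi_self

/-- Area mean-value inequality, `L¹` form with `‖·‖ₑ`. -/
theorem ofReal_pi_mul_sq_mul_norm_le {f : ℂ → ℂ} {c : ℂ} {R : ℝ} (hR : 0 < R)
    (hf : DifferentiableOn ℂ f (ball c R)) :
    ENNReal.ofReal (π * R ^ 2 * ‖f c‖) ≤ ∫⁻ z in ball c R, ‖f z‖ₑ := by
  have := ofReal_pi_mul_sq_mul_norm_le' hR hf
  simpa only [ofReal_norm] using this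

/-- Area mean-value inequality, Bochner `L¹` form. -/
theorem pi_mul_sq_mul_norm_le_integral {f : ℂ → ℂ} {c : ℂ} {R : ℝ} (hR : 0 < R)
    (hf : DifferentiableOn ℂ f (ball c R))
    (hint : IntegrableOn (fun z => ‖f z‖) (ball c R)) :
    π * R ^ 2 * ‖f c‖ ≤ ∫ z in ball c R, ‖f z‖ := by
  have h := ofReal_pi_mul_sq_mul_norm_le' hR hf
  rw [← ofReal_integral_eq_lintegral_ofReal hint (ae_of_all _ fun z => norm_nonneg _)] at h
  exact (ENNReal.ofReal_le_ofReal_iff (integral_nonneg fun z => norm_nonneg _)).mp h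

/-- Sub-mean-value inequality for `‖f‖²`, Bochner form. -/
theorem pi_mul_sq_mul_norm_sq_le_integral {f : ℂ → ℂ} {c : ℂ} {R : ℝ} (hR : 0 < R)
    (hf : DifferentiableOn ℂ f (ball c R))
    (hint : IntegrableOn (fun z => ‖f z‖ ^ 2) (ball c R)) :
    π * R ^ 2 * ‖f c‖ ^ 2 ≤ ∫ z in ball c R, ‖f z‖ ^ 2 := by
  have h := ofReal_pi_mul_sq_mul_norm_sq_le hR hf
  rw [← ofReal_integral_eq_lintegral_ofReal hint (ae_of_all _ fun z => sq_nonneg _)] at h
  exact (ENNReal.ofReal_le_ofReal_iff (integral_nonneg fun z => sq_nonneg _)).mp h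

end Fermat.Agent.S21.helper2415
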