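import Fermat.Agent.S21.helper2519_WeylL2

set_option autoImplicit false

/-!
# Weyl's lemma for `∂̄`, sequence form (Route 2 of S21, leaf LIM)

If `a n : ℂ → ℂ` are continuous on an open set `Ω`, Cauchy in `L²(K)` for every compact
`K ⊆ Ω`, and `∫ a n * ∂̄ψ → 0` for every test function `ψ` supported in `Ω`, then there is
a holomorphic `h` on `Ω` with `∫_K ‖a n - h‖² → 0` for every compact `K ⊆ Ω`.

Proof: mollify the sequence with an annular radial mollifier `moll ε = ∂̄ (ker ε)`, where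
`ker ε` is a smooth truncation of the Cauchy kernel.  The mollified sequence and its derivative
converge uniformly, the limit is `C¹` with `∂̄ = 0` (test function `moll ε (z - ·)`), hence
holomorphic; it does not depend on `ε` (test function `ker ε (z - ·) - ker δ (z - ·)`); the
`L²` convergence is `tendsto_setIntegral_norm_sub_sq_of_mollified`.
-/

namespace Fermat.Agent.S21.helper2519

open Complex MeasureTheory Metric Set Filter Topology
open scoped ContDiff Convolution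

/-! ### The operator `∂̄` (without the factor `1/2`) -/

/-- `dbar f w = ∂f/∂x + i ∂f/∂y` (twice the Wirtinger derivative `∂f/∂z̄`). -/
noncomputable def dbar (f : ℂ → ℂ) (w : ℂ) : ℂ := fderiv ℝ f w 1 + I * fderiv ℝ f w I

theorem dbar_mul {f g : ℂ → ℂ} {w : ℂ} (hf : DifferentiableAt ℝ f w)
    (hg : DifferentiableAt ℝ g w) :
    dbar (fun x => f x * g x) w = dbar f w * g w + f w * dbar g w := by
  unfold dbar
  rw [fderiv_fun_mul hf hg]
  simp only [add_apply, smul_apply, smul_eq_mul]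
  ring

theorem dbar_sub {f g : ℂ → ℂ} {w : ℂ} (hf : DifferentiableAt ℝ f w)
    (hg : DifferentiableAt ℝ g w) :
    dbar (fun x => f x - g x) w = dbar f w - dbar g w := by
  unfold dbar
  rw [fderiv_fun_sub hf hg]
  simp only [sub_apply]
  ring

theorem dbar_comp_sub_left {f : ℂ → ℂ} (z w : ℂ) (hf : DifferentiableAt ℝ f (z - w)) :
    dbar (fun x => f (z - x)) w = - dbar f (z - w) := by
  unfold dbar
  have h1 : HasFDerivAt (fun x : ℂ => z - x) (-ContinuousLinearMap.id ℝ ℂ) w :=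
    (hasFDerivAt_id w).const_sub z
  have h2 : HasFDerivAt (fun x => f (z - x))
      ((fderiv ℝ f (z - w)).comp (-ContinuousLinearMap.id ℝ ℂ)) w :=
    hf.hasFDerivAt.comp w h1
  rw [h2.fderiv]
  simp only [ContinuousLinearMap.comp_neg, ContinuousLinearMap.comp_id,
    neg_apply]
  ring

theorem dbar_eq_zero_of_differentiableAt {f : ℂ → ℂ} {w : ℂ} (hf : DifferentiableAt ℂ f w) :
    dbar f w = 0 := by
  unfold dbar
  rw [hf.fderiv_restrictScalars ℝ]
  simp only [ContinuousLinearMap.coe_restrictScalars']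
  have h : fderiv ℂ f w I = I • fderiv ℂ f w 1 := by
    rw [← ContinuousLinearMap.map_smul]; simp
  rw [h, smul_eq_mul, ← mul_assoc, I_mul_I]
  ring

theorem dbar_eq_zero_of_eventuallyEq_const {f : ℂ → ℂ} {w c : ℂ}
    (hf : f =ᶠ[𝓝 w] fun _ => c) : dbar f w = 0 := by
  unfold dbar
  rw [hf.fderiv_eq]
  simp

/-! ### The cutoff profile -/

/-- A smooth monotone profile, `0` on `(-∞, 1/2]` and `1` on `[1, ∞)`. -/
noncomputable def cutoff (t : ℝ) : ℝ := Real.smoothTransition (2 * t - 1)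

/-- The derivative of `cutoff`. -/
noncomputable def cutoffD (t : ℝ) : ℝ := deriv cutoff t

theorem cutoff_contDiff : ContDiff ℝ ∞ cutoff :=
  Real.smoothTransition.contDiff.comp (by fun_prop)

theorem cutoffD_contDiff : ContDiff ℝ ∞ cutoffD :=
  (contDiff_infty_iff_deriv.1 cutoff_contDiff).2

theorem cutoff_eq_zero {t : ℝ} (h : t ≤ 1 / 2) : cutoff t = 0 :=
  Real.smoothTransition.zero_of_nonpos (by linarith)

theorem cutoff_eq_one {t : ℝ} (h : 1 ≤ t) : cutoff t = 1 :=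
  Real.smoothTransition.one_of_one_le (by linarith)

theorem cutoff_monotone : Monotone cutoff := fun _ _ h =>
  Real.smoothTransition.monotone (by linarith)

theorem hasDerivAt_cutoff (t : ℝ) : HasDerivAt cutoff (cutoffD t) t :=
  (cutoff_contDiff.differentiable (by simp) t).hasDerivAt

theorem cutoffD_continuous : Continuous cutoffD := cutoffD_contDiff.continuous

theorem cutoffD_nonneg (t : ℝ) : 0 ≤ cutoffD t := cutoff_monotone.deriv_nonneg

theorem cutoffD_eq_zero_of_lt {t : ℝ} (h : t < 1 / 2) : cutoffD t = 0 := by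
  have : cutoff =ᶠ[𝓝 t] fun _ => (0 : ℝ) := by
    filter_upwards [Iio_mem_nhds h] with s hs
    exact cutoff_eq_zero (le_of_lt hs)
  unfold cutoffD
  rw [this.deriv_eq]
  simp

theorem cutoffD_eq_zero_of_gt {t : ℝ} (h : 1 < t) : cutoffD t = 0 := by
  have : cutoff =ᶠ[𝓝 t] fun _ => (1 : ℝ) := by
    filter_upwards [Ioi_mem_nhds h] with s hs
    exact cutoff_eq_one (le_of_lt hs)
  unfold cutoffD
  rw [this.deriv_eq]
  simp

/-! ### The truncated Cauchy kernel and the annular mollifier -/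

/-- The truncated Cauchy kernel: `1 / (2π w)` for `‖w‖ ≥ ε`, zero near `0`, smooth. -/
noncomputable def ker (ε : ℝ) (w : ℂ) : ℂ :=
  (cutoff (‖w‖ ^ 2 / ε ^ 2) : ℂ) / (2 * (Real.pi : ℂ) * w)

/-- The annular mollifier `moll ε = ∂̄ (ker ε)`. -/
noncomputable def moll (ε : ℝ) (w : ℂ) : ℝ := cutoffD (‖w‖ ^ 2 / ε ^ 2) / (Real.pi * ε ^ 2)

theorem ker_eventually_zero {ε : ℝ} (hε : 0 < ε) {w : ℂ} (hw : ‖w‖ < ε / 2) :
    ker ε =ᶠ[𝓝 w] fun _ => (0 : ℂ) := by
  have hopen : IsOpen {x : ℂ | ‖x‖ < ε / 2} := isOpen_lt continuous_norm continuous_const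
  filter_upwards [hopen.mem_nhds hw] with x hx
  have hx' : ‖x‖ < ε / 2 := hx
  have h1 : ‖x‖ ^ 2 / ε ^ 2 ≤ 1 / 2 := by
    rw [div_le_iff₀ (by positivity)]
    nlinarith [norm_nonneg x]
  simp [ker, cutoff_eq_zero h1]

theorem ker_eq {ε : ℝ} (hε : 0 < ε) {w : ℂ} (hw : ε ≤ ‖w‖) :
    ker ε w = 1 / (2 * (Real.pi : ℂ) * w) := by
  have h1 : 1 ≤ ‖w‖ ^ 2 / ε ^ 2 := by
    rw [le_div_iff₀ (by positivity)]
    nlinarith [norm_nonneg w]
  simp [ker, cutoff_eq_one h1]

theorem ker_contDiff {ε : ℝ} (hε : 0 < ε) : ContDiff ℝ ∞ (ker ε) := by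
  rw [contDiff_iff_contDiffAt]
  intro w
  by_cases hw : ‖w‖ < ε / 2
  · exact (contDiffAt_const (c := (0 : ℂ))).congr_of_eventuallyEq (ker_eventually_zero hε hw)
  · have hw0 : w ≠ 0 := by
      rintro rfl
      simp at hw
      linarith
    have h1 : ContDiff ℝ ∞ (fun x : ℂ => ((cutoff (‖x‖ ^ 2 / ε ^ 2) : ℝ) : ℂ)) :=
      Complex.ofRealCLM.contDiff.comp
        (cutoff_contDiff.comp ((contDiff_norm_sq ℝ).div_const _))
    have h2 : ContDiff ℝ ∞ (fun x : ℂ => 2 * (Real.pi : ℂ) * x) := contDiff_const.mul contDiff_id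
    have h3 : ContDiffAt ℝ ∞ (fun x : ℂ => (2 * (Real.pi : ℂ) * x)⁻¹) w :=
      (h2.contDiffAt (x := w)).inv (by simp [hw0, Real.pi_ne_zero])
    have h4 := (h1.contDiffAt (x := w)).mul h3
    refine h4.congr_of_eventuallyEq (Eventually.of_forall fun x => ?_)
    simp [ker, div_eq_mul_inv]

theorem moll_nonneg {ε : ℝ} (w : ℂ) : 0 ≤ moll ε w :=
  div_nonneg (cutoffD_nonneg _) (by positivity)

theorem moll_eq_zero_of_lt {ε : ℝ} (hε : 0 < ε) {w : ℂ} (hw : ε < ‖w‖) : moll ε w = 0 := by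
  have h1 : 1 < ‖w‖ ^ 2 / ε ^ 2 := by
    rw [lt_div_iff₀ (by positivity)]
    nlinarith [norm_nonneg w]
  simp [moll, cutoffD_eq_zero_of_gt h1]

theorem moll_contDiff {ε : ℝ} : ContDiff ℝ ∞ (moll ε) := by
  unfold moll
  exact (cutoffD_contDiff.comp ((contDiff_norm_sq ℝ).div_const _)).div_const _

theorem continuous_moll {ε : ℝ} : Continuous (moll ε) := moll_contDiff.continuous

theorem dbar_ker {ε : ℝ} (hε : 0 < ε) (w : ℂ) : dbar (ker ε) w = (moll ε w : ℂ) := by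
  by_cases hw : ‖w‖ < ε / 2
  · rw [dbar_eq_zero_of_eventuallyEq_const (ker_eventually_zero hε hw)]
    have h1 : ‖w‖ ^ 2 / ε ^ 2 < 1 / 2 := by
      rw [div_lt_iff₀ (by positivity)]
      nlinarith [norm_nonneg w]
    simp [moll, cutoffD_eq_zero_of_lt h1]
  · have hw0 : w ≠ 0 := by
      rintro rfl
      simp at hw
      linarith
    set t : ℝ := ‖w‖ ^ 2 / ε ^ 2 with ht
    have hv : HasFDerivAt (fun x : ℂ => cutoff (‖x‖ ^ 2 / ε ^ 2))
        (cutoffD t • ((1 / ε ^ 2) • (2 • innerSL ℝ w))) w := by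
      have h1 : HasFDerivAt (fun x : ℂ => ‖x‖ ^ 2 / ε ^ 2) ((1 / ε ^ 2) • (2 • innerSL ℝ w)) w := by
        have := ((hasStrictFDerivAt_norm_sq w).hasFDerivAt).const_smul (1 / ε ^ 2)
        refine this.congr_of_eventuallyEq (Eventually.of_forall fun x => ?_)
        simp [div_eq_inv_mul]
      exact HasDerivAt.comp_hasFDerivAt (h₂ := cutoff) w (hasDerivAt_cutoff t) h1
    have hu : HasFDerivAt (fun x : ℂ => ((cutoff (‖x‖ ^ 2 / ε ^ 2) : ℝ) : ℂ))
        (Complex.ofRealCLM.comp (cutoffD t • ((1 / ε ^ 2) • (2 • innerSL ℝ w)))) w :=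
      Complex.ofRealCLM.hasFDerivAt.comp w hv
    have hF : DifferentiableAt ℂ (fun x : ℂ => (2 * (Real.pi : ℂ) * x)⁻¹) w := by
      apply DifferentiableAt.inv (by fun_prop)
      simp [hw0, Real.pi_ne_zero]
    have hker : ker ε
        = fun x => ((cutoff (‖x‖ ^ 2 / ε ^ 2) : ℝ) : ℂ) * (2 * (Real.pi : ℂ) * x)⁻¹ := by
      funext x
      simp [ker, div_eq_mul_inv]
    rw [hker, dbar_mul hu.differentiableAt (hF.restrictScalars ℝ),
      dbar_eq_zero_of_differentiableAt hF]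
    unfold dbar
    rw [hu.fderiv]
    simp only [ContinuousLinearMap.comp_apply, smul_apply,
      innerSL_apply_apply, Complex.inner, Complex.ofRealCLM_apply, moll, smul_eq_mul,
      nsmul_eq_mul]
    simp only [← ht]
    have hre : ((1 : ℂ) * (starRingEnd ℂ) w).re = w.re := by simp
    have him : (I * (starRingEnd ℂ) w).re = w.im := by simp
    have hπ : (Real.pi : ℂ) ≠ 0 := by exact_mod_cast Real.pi_ne_zero
    have hε' : (ε : ℂ) ≠ 0 := by exact_mod_cast hε.ne'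
    rw [hre, him]
    push_cast
    have key : (cutoffD t : ℂ) * (1 / (ε : ℂ) ^ 2 * (2 * (w.re : ℂ)))
        + I * ((cutoffD t : ℂ) * (1 / (ε : ℂ) ^ 2 * (2 * (w.im : ℂ))))
        = (cutoffD t : ℂ) * (2 / (ε : ℂ) ^ 2) * w := by
      conv_rhs => rw [← Complex.re_add_im w]
      ring
    rw [key, mul_zero, add_zero]
    field_simp

theorem integral_cutoffD_radial {ε : ℝ} (hε : 0 < ε) :
    ∫ y in Ioi (0 : ℝ), cutoffD (y ^ 2 / ε ^ 2) * (2 * y / ε ^ 2) = 1 := by
  have hderiv : ∀ x ∈ Ici (0 : ℝ), HasDerivAt (fun y : ℝ => cutoff (y ^ 2 / ε ^ 2))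
      (cutoffD (x ^ 2 / ε ^ 2) * (2 * x / ε ^ 2)) x := by
    intro x _
    have h1 : HasDerivAt (fun y : ℝ => y ^ 2 / ε ^ 2) (2 * x / ε ^ 2) x := by
      simpa using ((hasDerivAt_pow 2 x).div_const (ε ^ 2))
    exact HasDerivAt.comp (h₂ := cutoff) x (hasDerivAt_cutoff _) h1
  have hcont : Continuous (fun y : ℝ => cutoffD (y ^ 2 / ε ^ 2) * (2 * y / ε ^ 2)) :=
    (cutoffD_continuous.comp (by fun_prop)).mul (by fun_prop)
  have hcs : HasCompactSupport (fun y : ℝ => cutoffD (y ^ 2 / ε ^ 2) * (2 * y / ε ^ 2)) := by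
    refine HasCompactSupport.intro (isCompact_Icc (a := -ε) (b := ε)) fun x hx => ?_
    have hx' : ε < |x| := by
      by_contra h
      rw [not_lt, abs_le] at h
      exact hx h
    have h1 : 1 < x ^ 2 / ε ^ 2 := by
      rw [lt_div_iff₀ (by positivity), one_mul]
      have := sq_lt_sq' (by linarith [abs_nonneg x]) hx'
      rwa [sq_abs] at this
    rw [cutoffD_eq_zero_of_gt h1, zero_mul]
  have hlim : Tendsto (fun y : ℝ => cutoff (y ^ 2 / ε ^ 2)) atTop (𝓝 1) := by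
    apply tendsto_const_nhds.congr'
    filter_upwards [eventually_ge_atTop ε] with y hy
    rw [cutoff_eq_one]
    rw [le_div_iff₀ (by positivity), one_mul]
    exact pow_le_pow_left₀ hε.le hy 2
  have := integral_Ioi_of_hasDerivAt_of_tendsto' hderiv
    (hcont.integrable_of_hasCompactSupport hcs).integrableOn hlim
  rw [this, cutoff_eq_zero (by simp)]
  simp

theorem integral_moll {ε : ℝ} (hε : 0 < ε) : ∫ w : ℂ, moll ε w = 1 := by
  have h1 : (fun w : ℂ => moll ε w)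
      = fun w : ℂ => (fun y : ℝ => cutoffD (y ^ 2 / ε ^ 2) / (Real.pi * ε ^ 2)) ‖w‖ := rfl
  have h0 := integral_fun_norm_addHaar (volume : Measure ℂ)
    (fun y : ℝ => cutoffD (y ^ 2 / ε ^ 2) / (Real.pi * ε ^ 2))
  rw [h1, h0]
  have hvol : (volume : Measure ℂ).real (ball (0 : ℂ) 1) = Real.pi := by
    simp [Measure.real, Complex.volume_ball]
  rw [Complex.finrank_real_complex, hvol]
  have h2 : ∀ y : ℝ, y ^ (2 - 1) • (cutoffD (y ^ 2 / ε ^ 2) / (Real.pi * ε ^ 2))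
      = (1 / (2 * Real.pi)) * (cutoffD (y ^ 2 / ε ^ 2) * (2 * y / ε ^ 2)) := by
    intro y
    have hπ := Real.pi_ne_zero
    simp only [smul_eq_mul]
    field_simp
    ring
  simp_rw [h2]
  rw [integral_const_mul, integral_cutoffD_radial hε]
  have hπ := Real.pi_ne_zero
  simp only [nsmul_eq_mul, smul_eq_mul]
  field_simp
  norm_num

theorem isMollifier_moll {ε : ℝ} (hε : 0 < ε) : IsMollifier (moll ε) ε where
  cont := continuous_moll
  nonneg := moll_nonneg
  supp := fun _ hw => moll_eq_zero_of_lt hε hw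
  integral_eq_one := integral_moll hε

/-! ### Consequences of the weak `∂̄`-hypothesis -/

/-- Test functions of the form `w ↦ g (z - w)`. -/
theorem tendsto_integral_mul_dbar_comp_sub {Ω : Set ℂ} (a : ℕ → ℂ → ℂ)
    (hW : ∀ ψ : ℂ → ℂ, ContDiff ℝ ∞ ψ → HasCompactSupport ψ → tsupport ψ ⊆ Ω →
      Tendsto (fun n => ∫ z, a n z * (fderiv ℝ ψ z 1 + Complex.I * fderiv ℝ ψ z Complex.I))
        atTop (𝓝 0))
    {g : ℂ → ℂ} (hg : ContDiff ℝ ∞ g) {r : ℝ} (hgs : ∀ w, r < ‖w‖ → g w = 0) {z : ℂ}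
    (hz : closedBall z r ⊆ Ω) :
    Tendsto (fun n => ∫ w, a n w * dbar g (z - w)) atTop (𝓝 0) := by
  have hψ : ContDiff ℝ ∞ (fun w => g (z - w)) := hg.comp (contDiff_const.sub contDiff_id)
  have hsupp : Function.support (fun w => g (z - w)) ⊆ closedBall z r := by
    intro w hw
    rw [Function.mem_support] at hw
    rw [mem_closedBall, dist_eq_norm]
    by_contra hlt
    rw [not_le] at hlt
    exact hw (hgs _ (by rwa [← norm_neg, neg_sub]))
  have hts : tsupport (fun w => g (z - w)) ⊆ closedBall z r :=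
    closure_minimal hsupp isClosed_closedBall
  have hcs : HasCompactSupport (fun w => g (z - w)) :=
    (isCompact_closedBall z r).of_isClosed_subset (isClosed_tsupport _) hts
  have key := hW _ hψ hcs (hts.trans hz)
  have e : ∀ n, ∫ w, a n w * dbar g (z - w)
      = - ∫ w, a n w * (fderiv ℝ (fun w => g (z - w)) w 1
          + I * fderiv ℝ (fun w => g (z - w)) w I) := by
    intro n
    rw [← integral_neg]
    congr 1; ext w
    have h1 := dbar_comp_sub_left (f := g) z w ((hg.differentiable (by simp)) _)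
    unfold dbar at h1 ⊢
    rw [h1]; ring
  simp_rw [e]
  simpa using key.neg

/-- The complex-valued version of a real function. -/
noncomputable def toC (ρ : ℂ → ℝ) : ℂ → ℂ := fun u => ((ρ u : ℝ) : ℂ)

theorem toC_apply (ρ : ℂ → ℝ) (u : ℂ) : toC ρ u = ((ρ u : ℝ) : ℂ) := rfl

theorem integrable_mul_moll {Ω : Set ℂ} {f : ℂ → ℂ} (hf : ContinuousOn f Ω) {ε : ℝ}
    (hε : 0 < ε) {z : ℂ} (hz : closedBall z ε ⊆ Ω) :
    Integrable (fun w => f w * ((moll ε (z - w) : ℝ) : ℂ)) := by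
  have h1 := integrable_mconv_integrand (isMollifier_moll hε)
    (integrable_indicator_of_continuousOn (isCompact_closedBall z ε) (hf.mono hz)) z
  refine h1.congr (Eventually.of_forall fun w => ?_)
  by_cases hw : w ∈ closedBall z ε
  · simp [indicator_of_mem hw]
  · simp [(isMollifier_moll hε).eq_zero_of_notMem subset_rfl hw]

theorem tendsto_integral_mul_dbar_moll {Ω : Set ℂ} (a : ℕ → ℂ → ℂ)
    (hW : ∀ ψ : ℂ → ℂ, ContDiff ℝ ∞ ψ → HasCompactSupport ψ → tsupport ψ ⊆ Ω →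
      Tendsto (fun n => ∫ z, a n z * (fderiv ℝ ψ z 1 + Complex.I * fderiv ℝ ψ z Complex.I))
        atTop (𝓝 0))
    {ε : ℝ} (hε : 0 < ε) {z : ℂ} (hz : closedBall z ε ⊆ Ω) :
    Tendsto (fun n => ∫ w, a n w * dbar (toC (moll ε)) (z - w)) atTop (𝓝 0) := by
  refine tendsto_integral_mul_dbar_comp_sub a hW
    (Complex.ofRealCLM.contDiff.comp moll_contDiff) (r := ε) (fun w hw => ?_) hz
  simp [moll_eq_zero_of_lt hε hw]

theorem tendsto_integral_mul_moll_sub {Ω : Set ℂ} (a : ℕ → ℂ → ℂ)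
    (ha : ∀ n, ContinuousOn (a n) Ω)
    (hW : ∀ ψ : ℂ → ℂ, ContDiff ℝ ∞ ψ → HasCompactSupport ψ → tsupport ψ ⊆ Ω →
      Tendsto (fun n => ∫ z, a n z * (fderiv ℝ ψ z 1 + Complex.I * fderiv ℝ ψ z Complex.I))
        atTop (𝓝 0))
    {ε δ : ℝ} (hε : 0 < ε) (hδ : 0 < δ) {z : ℂ} (hzε : closedBall z ε ⊆ Ω)
    (hzδ : closedBall z δ ⊆ Ω) :
    Tendsto (fun n => (∫ w, a n w * ((moll ε (z - w) : ℝ) : ℂ))
      - ∫ w, a n w * ((moll δ (z - w) : ℝ) : ℂ)) atTop (𝓝 0) := by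
  have hg : ContDiff ℝ ∞ (fun u => ker ε u - ker δ u) := (ker_contDiff hε).sub (ker_contDiff hδ)
  have hgs : ∀ w : ℂ, max ε δ < ‖w‖ → ker ε w - ker δ w = 0 := by
    intro w hw
    rw [ker_eq hε ((le_max_left _ _).trans hw.le), ker_eq hδ ((le_max_right _ _).trans hw.le),
      sub_self]
  have hz : closedBall z (max ε δ) ⊆ Ω := by
    rcases le_total ε δ with h | h
    · rwa [max_eq_right h]
    · rwa [max_eq_left h]
  have key := tendsto_integral_mul_dbar_comp_sub a hW hg hgs hz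
  refine key.congr fun n => ?_
  rw [← integral_sub (integrable_mul_moll (ha n) hε hzε) (integrable_mul_moll (ha n) hδ hzδ)]
  congr 1; ext w
  have hd : dbar (fun u => ker ε u - ker δ u) (z - w)
      = ((moll ε (z - w) : ℝ) : ℂ) - ((moll δ (z - w) : ℝ) : ℂ) := by
    rw [dbar_sub ((ker_contDiff hε).differentiable (by simp) _)
      ((ker_contDiff hδ).differentiable (by simp) _), dbar_ker hε, dbar_ker hδ]
  rw [hd]; ring

/-! ### The mollified sequence converges in `C¹` to a holomorphic function -/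

theorem sq_setIntegral_norm_le {K₁ : Set ℂ} (hK₁ : IsCompact K₁) {g : ℂ → ℂ}
    (hg : ContinuousOn g K₁) :
    (∫ w in K₁, ‖g w‖) ^ 2 ≤ volume.real K₁ * ∫ w in K₁, ‖g w‖ ^ 2 := by
  have h1 : IntegrableOn (fun w => ‖g w‖) K₁ := hg.norm.integrableOn_compact hK₁
  have h2 : IntegrableOn (fun w => ‖g w‖ ^ 2) K₁ := (hg.norm.pow 2).integrableOn_compact hK₁
  have key : ∀ t : ℝ, 0 ≤ volume.real K₁ * (t * t) + (-2 * ∫ w in K₁, ‖g w‖) * t
      + ∫ w in K₁, ‖g w‖ ^ 2 := by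
    intro t
    have hnn : 0 ≤ ∫ w in K₁, (‖g w‖ - t) ^ 2 := integral_nonneg fun w => sq_nonneg _
    have e : ∫ w in K₁, (‖g w‖ - t) ^ 2
        = (∫ w in K₁, ‖g w‖ ^ 2) - 2 * t * (∫ w in K₁, ‖g w‖) + t ^ 2 * volume.real K₁ := by
      have e' : ∀ w, (‖g w‖ - t) ^ 2 = ‖g w‖ ^ 2 - 2 * t * ‖g w‖ + t ^ 2 := fun w => by ring
      simp_rw [e']
      have hA : IntegrableOn (fun w => ‖g w‖ ^ 2 - 2 * t * ‖g w‖) K₁ := h2.sub (h1.const_mul _)
      have hB : IntegrableOn (fun w => 2 * t * ‖g w‖) K₁ := h1.const_mul _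
      have hD : IntegrableOn (fun _ : ℂ => t ^ 2) K₁ := integrableOn_const hK₁.measure_lt_top.ne
      rw [integral_add hA hD, integral_sub h2 hB, integral_const_mul, setIntegral_const,
        smul_eq_mul]
      ring
    rw [e] at hnn
    nlinarith
  have hd := discrim_le_zero key
  rw [discrim] at hd
  nlinarith

theorem indicator_sub_indicator (K₁ : Set ℂ) (f g : ℂ → ℂ) :
    K₁.indicator f - K₁.indicator g = K₁.indicator (fun w => f w - g w) := by
  funext w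
  by_cases hw : w ∈ K₁
  · simp [indicator_of_mem hw]
  · simp [indicator_of_notMem hw]

theorem integral_norm_indicator {K₁ : Set ℂ} (hK₁ : IsCompact K₁) (g : ℂ → ℂ) :
    ∫ w, ‖K₁.indicator g w‖ = ∫ w in K₁, ‖g w‖ := by
  have : (fun w => ‖K₁.indicator g w‖) = K₁.indicator (fun w => ‖g w‖) := by
    funext w
    by_cases hw : w ∈ K₁
    · simp [indicator_of_mem hw]
    · simp [indicator_of_notMem hw]
  rw [this, integral_indicator hK₁.measurableSet]

theorem integrable_mul_clm {F : ℂ → ℂ} (hF : Integrable F) {D : ℂ → ℂ →L[ℝ] ℂ}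
    (hD : Continuous D) {M : ℝ} (hM : ∀ u, ‖D u‖ ≤ M) (z v : ℂ) :
    Integrable (fun t => F t * D (z - t) v) := by
  refine hF.mul_bdd (c := M * ‖v‖) ?_ (Eventually.of_forall fun t => ?_)
  · exact ((hD.comp (continuous_const.sub continuous_id)).clm_apply
      continuous_const).aestronglyMeasurable
  · exact (ContinuousLinearMap.le_opNorm _ _).trans
      (mul_le_mul_of_nonneg_right (hM _) (norm_nonneg _))

theorem norm_integral_mul_clm_le {F : ℂ → ℂ} (hF : Integrable F) {D : ℂ → ℂ →L[ℝ] ℂ}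
    {M : ℝ} (hM : ∀ u, ‖D u‖ ≤ M) (z v : ℂ) :
    ‖∫ t, F t * D (z - t) v‖ ≤ M * (∫ t, ‖F t‖) * ‖v‖ := by
  calc ‖∫ t, F t * D (z - t) v‖ ≤ ∫ t, ‖F t‖ * (M * ‖v‖) := by
        refine norm_integral_le_of_norm_le (hF.norm.mul_const _)
          (Eventually.of_forall fun t => ?_)
        rw [norm_mul]
        exact mul_le_mul_of_nonneg_left ((ContinuousLinearMap.le_opNorm _ _).trans
          (mul_le_mul_of_nonneg_right (hM _) (norm_nonneg _))) (norm_nonneg _)
    _ = M * (∫ t, ‖F t‖) * ‖v‖ := by rw [integral_mul_const]; ring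

/-- The mollified sequence is Cauchy at every point whose `ε`-ball lies in `Ω`. -/
theorem cauchySeq_integral_mul_mollifier {Ω : Set ℂ} (a : ℕ → ℂ → ℂ)
    (ha : ∀ n, ContinuousOn (a n) Ω)
    (hC : ∀ K, IsCompact K → K ⊆ Ω → ∀ η > 0, ∃ n₀, ∀ n ≥ n₀, ∀ m ≥ n₀,
      ∫ z in K, ‖a n z - a m z‖ ^ 2 ≤ η)
    {ρ : ℂ → ℝ} {ε : ℝ} (hρ : IsMollifier ρ ε) {z : ℂ} (hz : closedBall z ε ⊆ Ω) :
    CauchySeq (fun n => ∫ w, a n w * ((ρ (z - w) : ℝ) : ℂ)) := by
  obtain ⟨K₁, hK₁def⟩ : ∃ K₁, K₁ = closedBall z ε := ⟨_, rfl⟩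
  have hK₁ : IsCompact K₁ := hK₁def ▸ isCompact_closedBall _ _
  have hK₁Ω : K₁ ⊆ Ω := hK₁def ▸ hz
  have hzK₁ : closedBall z ε ⊆ K₁ := hK₁def ▸ subset_rfl
  have haK₁ : ∀ n, ContinuousOn (a n) K₁ := fun n => (ha n).mono hK₁Ω
  have hFi : ∀ n, Integrable (K₁.indicator (a n)) := fun n =>
    integrable_indicator_of_continuousOn hK₁ (haK₁ n)
  have hsubc : ∀ n m, ContinuousOn (fun w => a n w - a m w) K₁ := fun n m =>
    (haK₁ n).sub (haK₁ m)
  have hF2 : ∀ n m, Integrable (fun w => ‖(K₁.indicator (a n) - K₁.indicator (a m)) w‖ ^ 2) :=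
    fun n m => by
      rw [indicator_sub_indicator]; exact integrable_norm_sq_indicator hK₁ (hsubc n m)
  have hF2int : ∀ n m, ∫ w, ‖(K₁.indicator (a n) - K₁.indicator (a m)) w‖ ^ 2
      = ∫ w in K₁, ‖a n w - a m w‖ ^ 2 := fun n m => by
    rw [indicator_sub_indicator]; exact integral_norm_sq_indicator hK₁ _
  obtain ⟨C, hC0, hCb⟩ := hρ.exists_bound
  have hfun : (fun n => ∫ w, a n w * ((ρ (z - w) : ℝ) : ℂ))
      = fun n => mconv (K₁.indicator (a n)) ρ z := by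
    funext n; exact (mconv_indicator_eq hρ hzK₁ (a n)).symm
  rw [hfun, Metric.cauchySeq_iff]
  intro η hη
  obtain ⟨n₀, hn₀⟩ := hC K₁ hK₁ hK₁Ω (η ^ 2 / (2 * (C + 1))) (by positivity)
  refine ⟨n₀, fun n hn m hm => ?_⟩
  rw [dist_eq_norm, ← mconv_sub hρ (hFi n) (hFi m)]
  have h1 : ‖mconv (K₁.indicator (a n) - K₁.indicator (a m)) ρ z‖ ^ 2
      ≤ C * ∫ w in K₁, ‖a n w - a m w‖ ^ 2 := by
    rw [← hF2int]
    exact norm_sq_mconv_le_mul hρ hCb ((hFi n).sub (hFi m)) (hF2 n m) z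
  have h2 := hn₀ n hn m hm
  have h3 : C * (η ^ 2 / (2 * (C + 1))) < η ^ 2 := by
    rw [← mul_div_assoc, div_lt_iff₀ (by positivity)]
    nlinarith [sq_pos_of_pos hη]
  have h4 : ‖mconv (K₁.indicator (a n) - K₁.indicator (a m)) ρ z‖ ^ 2 < η ^ 2 :=
    lt_of_le_of_lt (h1.trans (mul_le_mul_of_nonneg_left h2 hC0)) h3
  exact lt_of_pow_lt_pow_left₀ 2 hη.le h4

/-- **Local holomorphic limit.** If `a n` is `L²_loc`-Cauchy and asymptotically weakly
`∂̄`-closed against the translates of a `C¹` mollifier `ρ` of radius `r`, then on a ball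
`ball z₀ r` with `closedBall z₀ (2 r) ⊆ Ω` the mollified sequence converges pointwise to a
holomorphic function. -/
theorem exists_differentiable_limit_on_ball {Ω : Set ℂ} (a : ℕ → ℂ → ℂ)
    (ha : ∀ n, ContinuousOn (a n) Ω)
    (hC : ∀ K, IsCompact K → K ⊆ Ω → ∀ η > 0, ∃ n₀, ∀ n ≥ n₀, ∀ m ≥ n₀,
      ∫ z in K, ‖a n z - a m z‖ ^ 2 ≤ η)
    {ρ : ℂ → ℝ} {r : ℝ} (hρ : IsMollifier ρ r) (hρs : ContDiff ℝ 1 ρ)
    {z₀ : ℂ} (hz₀ : closedBall z₀ (2 * r) ⊆ Ω)
    (hdbar : ∀ z ∈ ball z₀ r,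
      Tendsto (fun n => ∫ w, a n w * dbar (toC ρ) (z - w)) atTop (𝓝 0)) :
    ∃ g : ℂ → ℂ, (∀ z ∈ ball z₀ r, DifferentiableAt ℂ g z) ∧
      ∀ z ∈ ball z₀ r,
        Tendsto (fun n => ∫ w, a n w * ((ρ (z - w) : ℝ) : ℂ)) atTop (𝓝 (g z)) := by
  obtain ⟨K₁, hK₁def⟩ : ∃ K₁, K₁ = closedBall z₀ (2 * r) := ⟨_, rfl⟩
  have hK₁ : IsCompact K₁ := hK₁def ▸ isCompact_closedBall _ _
  have hK₁Ω : K₁ ⊆ Ω := hK₁def ▸ hz₀
  have hball : ∀ z ∈ ball z₀ r, closedBall z r ⊆ K₁ := by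
    intro z hz w hw
    rw [hK₁def]
    rw [mem_closedBall] at hw ⊢
    rw [mem_ball] at hz
    calc dist w z₀ ≤ dist w z + dist z z₀ := dist_triangle _ _ _
      _ ≤ 2 * r := by linarith
  have haK₁ : ∀ n, ContinuousOn (a n) K₁ := fun n => (ha n).mono hK₁Ω
  have hFi : ∀ n, Integrable (K₁.indicator (a n)) := fun n =>
    integrable_indicator_of_continuousOn hK₁ (haK₁ n)
  have hsubc : ∀ n m, ContinuousOn (fun w => a n w - a m w) K₁ := fun n m =>
    (haK₁ n).sub (haK₁ m)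
  have hF2 : ∀ n m, Integrable (fun w => ‖(K₁.indicator (a n) - K₁.indicator (a m)) w‖ ^ 2) :=
    fun n m => by
      rw [indicator_sub_indicator]; exact integrable_norm_sq_indicator hK₁ (hsubc n m)
  have hF2int : ∀ n m, ∫ w, ‖(K₁.indicator (a n) - K₁.indicator (a m)) w‖ ^ 2
      = ∫ w in K₁, ‖a n w - a m w‖ ^ 2 := fun n m => by
    rw [indicator_sub_indicator]; exact integral_norm_sq_indicator hK₁ _
  have hF1int : ∀ n m, ∫ w, ‖(K₁.indicator (a n) - K₁.indicator (a m)) w‖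
      = ∫ w in K₁, ‖a n w - a m w‖ := fun n m => by
    rw [indicator_sub_indicator]; exact integral_norm_indicator hK₁ _
  -- the kernel
  have hρc1 : ContDiff ℝ 1 (toC ρ) := Complex.ofRealCLM.contDiff.comp hρs
  have hρcs : HasCompactSupport (toC ρ) := hρ.hasCompactSupport.comp_left Complex.ofReal_zero
  have hDc : Continuous (fderiv ℝ (toC ρ)) := hρc1.continuous_fderiv one_ne_zero
  obtain ⟨M, hM⟩ := hDc.bounded_above_of_compact_support (hρcs.fderiv ℝ)
  have hM0 : 0 ≤ M := (norm_nonneg _).trans (hM 0)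
  obtain ⟨C, hC0, hCb⟩ := hρ.exists_bound
  -- the approximants and their derivatives
  obtain ⟨G, hGdef⟩ : ∃ G : ℕ → ℂ → ℂ, G = fun n => mconv (K₁.indicator (a n)) ρ := ⟨_, rfl⟩
  obtain ⟨G', hG'def⟩ : ∃ G' : ℕ → ℂ → (ℂ →L[ℝ] ℂ), G' = fun n z =>
      (K₁.indicator (a n) ⋆[(ContinuousLinearMap.mul ℝ ℂ).precompR ℂ, volume]
        fderiv ℝ (toC ρ)) z := ⟨_, rfl⟩
  have hGd : ∀ n z, HasFDerivAt (G n) (G' n z) z := by
    intro n z
    rw [hGdef, hG'def]
    simp only [mconv_eq_convolution]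
    exact hρcs.hasFDerivAt_convolution_right _ (hFi n).locallyIntegrable hρc1 z
  have hG'apply : ∀ n z v, G' n z v
      = ∫ t, K₁.indicator (a n) t * fderiv ℝ (toC ρ) (z - t) v := by
    intro n z v
    rw [hG'def]
    simp only
    rw [convolution_precompR_apply _ (hFi n).locallyIntegrable (hρcs.fderiv ℝ) hDc z v]
    simp [convolution_def]
  have hGsub : ∀ n m z, G n z - G m z
      = mconv (K₁.indicator (a n) - K₁.indicator (a m)) ρ z := fun n m z => by
    rw [hGdef, mconv_sub hρ (hFi n) (hFi m)]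
  -- Cauchy estimates
  have hGbd : ∀ n m z, ‖G n z - G m z‖ ^ 2 ≤ C * ∫ w in K₁, ‖a n w - a m w‖ ^ 2 := by
    intro n m z
    rw [hGsub, ← hF2int]
    exact norm_sq_mconv_le_mul hρ hCb ((hFi n).sub (hFi m)) (hF2 n m) z
  have hG'bd : ∀ n m z, ‖G' n z - G' m z‖ ≤ M * ∫ w in K₁, ‖a n w - a m w‖ := by
    intro n m z
    refine ContinuousLinearMap.opNorm_le_bound _
      (mul_nonneg hM0 (integral_nonneg fun w => norm_nonneg _)) fun v => ?_
    rw [sub_apply, hG'apply, hG'apply,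
      ← integral_sub (integrable_mul_clm (hFi n) hDc hM z v)
        (integrable_mul_clm (hFi m) hDc hM z v), ← hF1int]
    have e : ∀ t, K₁.indicator (a n) t * fderiv ℝ (toC ρ) (z - t) v
        - K₁.indicator (a m) t * fderiv ℝ (toC ρ) (z - t) v
        = (K₁.indicator (a n) - K₁.indicator (a m)) t * fderiv ℝ (toC ρ) (z - t) v := by
      intro t; simp [sub_mul]
    simp_rw [e]
    exact norm_integral_mul_clm_le ((hFi n).sub (hFi m)) hM z v
  have hV : 0 ≤ volume.real K₁ := measureReal_nonneg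
  have hL1 : ∀ η > 0, ∃ n₀, ∀ n ≥ n₀, ∀ m ≥ n₀, ∫ w in K₁, ‖a n w - a m w‖ ≤ η := by
    intro η hη
    obtain ⟨n₀, hn₀⟩ := hC K₁ hK₁ hK₁Ω (η ^ 2 / (volume.real K₁ + 1)) (by positivity)
    refine ⟨n₀, fun n hn m hm => ?_⟩
    have h1 := sq_setIntegral_norm_le hK₁ (hsubc n m)
    have h2 := hn₀ n hn m hm
    have h3 : volume.real K₁ * (η ^ 2 / (volume.real K₁ + 1)) ≤ η ^ 2 := by
      rw [← mul_div_assoc, div_le_iff₀ (by positivity)]
      nlinarith [sq_nonneg η]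
    have h4 : (∫ w in K₁, ‖a n w - a m w‖) ^ 2 ≤ η ^ 2 :=
      h1.trans ((mul_le_mul_of_nonneg_left h2 hV).trans h3)
    exact le_of_sq_le_sq h4 hη.le
  have hGcauchy : ∀ z, CauchySeq (fun n => G n z) := by
    intro z
    rw [Metric.cauchySeq_iff]
    intro η hη
    obtain ⟨n₀, hn₀⟩ := hC K₁ hK₁ hK₁Ω (η ^ 2 / (2 * (C + 1))) (by positivity)
    refine ⟨n₀, fun n hn m hm => ?_⟩
    rw [dist_eq_norm]
    have h1 := hGbd n m z
    have h2 := hn₀ n hn m hm
    have h3 : C * (η ^ 2 / (2 * (C + 1))) < η ^ 2 := by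
      rw [← mul_div_assoc, div_lt_iff₀ (by positivity)]
      nlinarith [sq_pos_of_pos hη]
    have h4 : ‖G n z - G m z‖ ^ 2 < η ^ 2 :=
      lt_of_le_of_lt (h1.trans (mul_le_mul_of_nonneg_left h2 hC0)) h3
    exact lt_of_pow_lt_pow_left₀ 2 hη.le h4
  have hG'unif : UniformCauchySeqOn G' atTop (ball z₀ r) := by
    rw [Metric.uniformCauchySeqOn_iff]
    intro η hη
    obtain ⟨n₀, hn₀⟩ := hL1 (η / (2 * (M + 1))) (by positivity)
    refine ⟨n₀, fun n hn m hm z _ => ?_⟩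
    rw [dist_eq_norm]
    have h1 := hG'bd n m z
    have h2 := hn₀ n hn m hm
    have h3 : M * (η / (2 * (M + 1))) < η := by
      rw [← mul_div_assoc, div_lt_iff₀ (by positivity)]
      nlinarith
    exact lt_of_le_of_lt (h1.trans (mul_le_mul_of_nonneg_left h2 hM0)) h3
  have hG'cauchy : ∀ z, CauchySeq (fun n => G' n z) := by
    intro z
    rw [Metric.cauchySeq_iff]
    intro η hη
    obtain ⟨n₀, hn₀⟩ := hL1 (η / (2 * (M + 1))) (by positivity)
    refine ⟨n₀, fun n hn m hm => ?_⟩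
    rw [dist_eq_norm]
    have h1 := hG'bd n m z
    have h2 := hn₀ n hn m hm
    have h3 : M * (η / (2 * (M + 1))) < η := by
      rw [← mul_div_assoc, div_lt_iff₀ (by positivity)]
      nlinarith
    exact lt_of_le_of_lt (h1.trans (mul_le_mul_of_nonneg_left h2 hM0)) h3
  -- the limits
  obtain ⟨g, hgdef⟩ : ∃ g : ℂ → ℂ, g = fun z => limUnder atTop (fun n => G n z) := ⟨_, rfl⟩
  obtain ⟨g', hg'def⟩ : ∃ g' : ℂ → (ℂ →L[ℝ] ℂ),
      g' = fun z => limUnder atTop (fun n => G' n z) := ⟨_, rfl⟩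
  have hGlim : ∀ z, Tendsto (fun n => G n z) atTop (𝓝 (g z)) := fun z => by
    rw [hgdef]; exact (hGcauchy z).tendsto_limUnder
  have hG'lim : ∀ z, Tendsto (fun n => G' n z) atTop (𝓝 (g' z)) := fun z => by
    rw [hg'def]; exact (hG'cauchy z).tendsto_limUnder
  have hG'tu : TendstoUniformlyOn G' g' atTop (ball z₀ r) :=
    hG'unif.tendstoUniformlyOn_of_tendsto fun z _ => hG'lim z
  have hgd : ∀ z ∈ ball z₀ r, HasFDerivAt g (g' z) z := fun z hz =>
    hasFDerivAt_of_tendstoUniformlyOn isOpen_ball hG'tu (fun n x _ => hGd n x)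
      (fun x _ => hGlim x) hz
  -- the Cauchy-Riemann equation in the limit
  have hCR : ∀ z ∈ ball z₀ r, g' z 1 + I * g' z I = 0 := by
    intro z hz
    have e1 : Tendsto (fun n => G' n z 1 + I * G' n z I) atTop (𝓝 (g' z 1 + I * g' z I)) := by
      have t1 : Tendsto (fun n => G' n z 1) atTop (𝓝 (g' z 1)) :=
        ((ContinuousLinearMap.apply ℝ ℂ (1 : ℂ)).continuous.tendsto (g' z)).comp (hG'lim z)
      have t2 : Tendsto (fun n => G' n z I) atTop (𝓝 (g' z I)) :=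
        ((ContinuousLinearMap.apply ℝ ℂ (I : ℂ)).continuous.tendsto (g' z)).comp (hG'lim z)
      exact t1.add (t2.const_mul I)
    have e2 : ∀ n, G' n z 1 + I * G' n z I = ∫ w, a n w * dbar (toC ρ) (z - w) := by
      intro n
      rw [hG'apply, hG'apply, ← integral_const_mul,
        ← integral_add (integrable_mul_clm (hFi n) hDc hM z 1)
          ((integrable_mul_clm (hFi n) hDc hM z I).const_mul I)]
      congr 1; ext w
      unfold dbar
      by_cases hw : w ∈ K₁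
      · rw [indicator_of_mem hw]; ring
      · have h0 : toC ρ =ᶠ[𝓝 (z - w)] fun _ => (0 : ℂ) := by
          have hopen : IsOpen {u : ℂ | r < ‖u‖} := isOpen_lt continuous_const continuous_norm
          have hmem : r < ‖z - w‖ := by
            by_contra hle
            rw [not_lt] at hle
            exact hw (hball z hz (by
              rw [mem_closedBall, dist_eq_norm, ← norm_neg]; simpa using hle))
          filter_upwards [hopen.mem_nhds hmem] with u hu
          simp [toC, hρ.supp u hu]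
        rw [h0.fderiv_eq]
        simp [indicator_of_notMem hw]
    simp_rw [e2] at e1
    exact tendsto_nhds_unique e1 (hdbar z hz)
  refine ⟨g, fun z hz => ?_, fun z hz => ?_⟩
  · have hd := hgd z hz
    refine differentiableAt_complex_iff_differentiableAt_real.2 ⟨hd.differentiableAt, ?_⟩
    rw [hd.fderiv, smul_eq_mul]
    have h1 := hCR z hz
    have h2 : I * (g' z 1 + I * g' z I) = 0 := by rw [h1, mul_zero]
    rw [mul_add, ← mul_assoc, I_mul_I] at h2
    linear_combination -h2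
  · refine (hGlim z).congr fun n => ?_
    rw [hGdef]
    exact mconv_indicator_eq hρ (hball z hz) (a n)

/-! ### The main theorem -/

/-- **Weyl's lemma for `∂̄`, sequence form.** If `a n : ℂ → ℂ` are continuous on an open set
`Ω`, Cauchy in `L²(K)` for every compact `K ⊆ Ω`, and `∫ a n * ∂̄ψ → 0` for every test function
`ψ` supported in `Ω`, then there is a holomorphic `h` on `Ω` with `∫_K ‖a n - h‖² → 0` for
every compact `K ⊆ Ω`. -/
theorem exists_holomorphic_L2loc_limit {Ω : Set ℂ} (hΩ : IsOpen Ω) (a : ℕ → ℂ → ℂ)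
    (ha : ∀ n, ContinuousOn (a n) Ω)
    (hC : ∀ K, IsCompact K → K ⊆ Ω → ∀ η > 0, ∃ n₀, ∀ n ≥ n₀, ∀ m ≥ n₀,
      ∫ z in K, ‖a n z - a m z‖ ^ 2 ≤ η)
    (hW : ∀ ψ : ℂ → ℂ, ContDiff ℝ ∞ ψ → HasCompactSupport ψ → tsupport ψ ⊆ Ω →
      Tendsto (fun n => ∫ z, a n z * (fderiv ℝ ψ z 1 + Complex.I * fderiv ℝ ψ z Complex.I))
        atTop (𝓝 0)) :
    ∃ h : ℂ → ℂ, DifferentiableOn ℂ h Ω ∧ ∀ K, IsCompact K → K ⊆ Ω →
      Tendsto (fun n => ∫ z in K, ‖a n z - h z‖ ^ 2) atTop (𝓝 0) := by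
  classical
  -- a radius function
  have hex : ∀ z : Ω, ∃ ε > 0, closedBall (z : ℂ) ε ⊆ Ω := fun z => by
    obtain ⟨ε, hε, hb⟩ := Metric.isOpen_iff.1 hΩ z z.2
    exact ⟨ε / 2, by positivity, (closedBall_subset_ball (by linarith)).trans hb⟩
  choose rad hrad0 hradΩ using hex
  -- the candidate limit
  obtain ⟨h, hdef⟩ : ∃ h : ℂ → ℂ, h = fun z => if hz : z ∈ Ω then
      limUnder atTop (fun n => ∫ w, a n w * ((moll (rad ⟨z, hz⟩) (z - w) : ℝ) : ℂ)) else 0 :=
    ⟨_, rfl⟩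
  -- the mollified sequence converges to `h z` for every admissible radius
  have hP : ∀ z ε, 0 < ε → closedBall z ε ⊆ Ω →
      Tendsto (fun n => ∫ w, a n w * ((moll ε (z - w) : ℝ) : ℂ)) atTop (𝓝 (h z)) := by
    intro z ε hε hzε
    have hzΩ : z ∈ Ω := hzε (mem_closedBall_self hε.le)
    have h1 : Tendsto (fun n => ∫ w, a n w * ((moll (rad ⟨z, hzΩ⟩) (z - w) : ℝ) : ℂ)) atTop
        (𝓝 (h z)) := by
      have hc := cauchySeq_integral_mul_mollifier a ha hC (isMollifier_moll (hrad0 ⟨z, hzΩ⟩))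
        (hradΩ ⟨z, hzΩ⟩)
      have hh : h z = limUnder atTop
          (fun n => ∫ w, a n w * ((moll (rad ⟨z, hzΩ⟩) (z - w) : ℝ) : ℂ)) := by
        rw [hdef]; simp only [dif_pos hzΩ]
      rw [hh]
      exact hc.tendsto_limUnder
    have h2 := tendsto_integral_mul_moll_sub a ha hW hε (hrad0 ⟨z, hzΩ⟩) hzε (hradΩ ⟨z, hzΩ⟩)
    have h3 := h2.add h1
    simpa using h3
  -- holomorphy
  have hdiff : DifferentiableOn ℂ h Ω := by
    intro z₀ hz₀
    obtain ⟨r, hrdef⟩ : ∃ r, r = rad ⟨z₀, hz₀⟩ / 2 := ⟨_, rfl⟩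
    have hr : 0 < r := by rw [hrdef]; exact half_pos (hrad0 _)
    have hz₀r : closedBall z₀ (2 * r) ⊆ Ω := by
      have : 2 * r = rad ⟨z₀, hz₀⟩ := by rw [hrdef]; ring
      rw [this]; exact hradΩ ⟨z₀, hz₀⟩
    have hsub : ∀ z ∈ ball z₀ r, closedBall z r ⊆ Ω := by
      intro z hz w hw
      apply hz₀r
      rw [mem_closedBall] at hw ⊢
      rw [mem_ball] at hz
      calc dist w z₀ ≤ dist w z + dist z z₀ := dist_triangle _ _ _
        _ ≤ 2 * r := by linarith
    obtain ⟨g, hg, hglim⟩ := exists_differentiable_limit_on_ball a ha hC (isMollifier_moll hr)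
      (moll_contDiff.of_le (by simp)) hz₀r
      (fun z hz => tendsto_integral_mul_dbar_moll a hW hr (hsub z hz))
    have heq : ∀ z ∈ ball z₀ r, h z = g z := fun z hz =>
      tendsto_nhds_unique (hP z r hr (hsub z hz)) (hglim z hz)
    have hev : h =ᶠ[𝓝 z₀] g := Filter.eventuallyEq_of_mem (ball_mem_nhds z₀ hr) heq
    exact ((hg z₀ (mem_ball_self hr)).congr_of_eventuallyEq hev).differentiableWithinAt
  exact ⟨h, hdiff, fun K hK hKΩ => tendsto_setIntegral_norm_sub_sq_of_mollified hΩ a ha hC moll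
    (fun ε hε => isMollifier_moll hε) h hdiff.continuousOn hP K hK hKΩ⟩

end Fermat.Agent.S21.helper2519
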