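import Mathlib

set_option autoImplicit false

/-!
# Mollification of an `L²_loc`-Cauchy sequence (Route 2 of S21, leaf LIM, `L²` part)

Abstract (mollifier-agnostic) part of the sequence form of Weyl's lemma: if `a n` are continuous
on an open `Ω ⊆ ℂ`, Cauchy in `L²(K)` for every compact `K ⊆ Ω`, and the mollified sequences
`∫ a n w * ρ_ε (z - w) dw` converge pointwise to a continuous `h`, then `a n → h` in `L²(K)`
for every compact `K ⊆ Ω`.
-/

namespace Fermat.Agent.S21.helper2519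

open Complex MeasureTheory Metric Set Filter Topology
open scoped Convolution

/-- Weighted Cauchy–Schwarz / Jensen inequality for a probability density `ω`. -/
theorem norm_sq_integral_mul_le {f : ℂ → ℂ} (hf : Integrable f)
    (hf2 : Integrable (fun w => ‖f w‖ ^ 2)) {ω : ℂ → ℝ} (hωc : Continuous ω)
    (hω0 : ∀ w, 0 ≤ ω w) {C : ℝ} (hωb : ∀ w, ω w ≤ C) (hω1 : ∫ w, ω w = 1) :
    ‖∫ w, f w * ((ω w : ℝ) : ℂ)‖ ^ 2 ≤ ∫ w, ‖f w‖ ^ 2 * ω w := by
  have hωi : Integrable ω := by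
    by_contra h
    rw [integral_undef h] at hω1
    exact zero_ne_one hω1
  have hbd : ∀ᵐ w ∂(volume : Measure ℂ), ‖ω w‖ ≤ C := Eventually.of_forall fun w => by
    rw [Real.norm_of_nonneg (hω0 w)]; exact hωb w
  have hi1 : Integrable (fun w => ‖f w‖ * ω w) := hf.norm.mul_bdd hωc.aestronglyMeasurable hbd
  have hi2 : Integrable (fun w => ‖f w‖ ^ 2 * ω w) := hf2.mul_bdd hωc.aestronglyMeasurable hbd
  have h1 : ‖∫ w, f w * ((ω w : ℝ) : ℂ)‖ ≤ ∫ w, ‖f w‖ * ω w := by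
    calc ‖∫ w, f w * ((ω w : ℝ) : ℂ)‖ ≤ ∫ w, ‖f w * ((ω w : ℝ) : ℂ)‖ :=
          norm_integral_le_integral_norm _
      _ = ∫ w, ‖f w‖ * ω w := by
        congr 1; ext w
        rw [norm_mul, Complex.norm_real, Real.norm_of_nonneg (hω0 w)]
  obtain ⟨L, hL⟩ : ∃ L, L = ∫ w, ‖f w‖ * ω w := ⟨_, rfl⟩
  rw [← hL] at h1
  have key : 0 ≤ ∫ w, (‖f w‖ - L) ^ 2 * ω w :=
    integral_nonneg fun w => mul_nonneg (sq_nonneg _) (hω0 w)
  have expand : ∫ w, (‖f w‖ - L) ^ 2 * ω w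
      = (∫ w, ‖f w‖ ^ 2 * ω w) - 2 * L * L + L ^ 2 * 1 := by
    have e : ∀ w, (‖f w‖ - L) ^ 2 * ω w
        = ‖f w‖ ^ 2 * ω w - 2 * L * (‖f w‖ * ω w) + L ^ 2 * ω w := by
      intro w; ring
    simp_rw [e]
    have hA : Integrable (fun w => ‖f w‖ ^ 2 * ω w - 2 * L * (‖f w‖ * ω w)) :=
      hi2.sub (hi1.const_mul _)
    have hB : Integrable (fun w => 2 * L * (‖f w‖ * ω w)) := hi1.const_mul _
    have hD : Integrable (fun w => L ^ 2 * ω w) := hωi.const_mul _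
    rw [integral_add hA hD, integral_sub hi2 hB, integral_const_mul, integral_const_mul, hω1,
      ← hL]
  have hn := norm_nonneg (∫ w, f w * ((ω w : ℝ) : ℂ))
  nlinarith

/-- A continuous nonnegative mollifier on `ℂ` of total mass one, supported in the closed ball
of radius `ε` around the origin. -/
structure IsMollifier (ρ : ℂ → ℝ) (ε : ℝ) : Prop where
  cont : Continuous ρ
  nonneg : ∀ w, 0 ≤ ρ w
  supp : ∀ w, ε < ‖w‖ → ρ w = 0
  integral_eq_one : ∫ w, ρ w = 1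

namespace IsMollifier

variable {ρ : ℂ → ℝ} {ε : ℝ}

theorem hasCompactSupport (h : IsMollifier ρ ε) : HasCompactSupport ρ :=
  HasCompactSupport.intro (isCompact_closedBall (0 : ℂ) ε) fun w hw => h.supp w (by
    simpa [mem_closedBall, dist_zero_right, not_le] using hw)

theorem integrable (h : IsMollifier ρ ε) : Integrable ρ :=
  h.cont.integrable_of_hasCompactSupport h.hasCompactSupport

theorem exists_bound (h : IsMollifier ρ ε) : ∃ C, 0 ≤ C ∧ ∀ w, ρ w ≤ C := by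
  obtain ⟨C, hC⟩ := h.cont.bounded_above_of_compact_support h.hasCompactSupport
  refine ⟨max C 0, le_max_right _ _, fun w => ?_⟩
  have := hC w
  rw [Real.norm_eq_abs] at this
  exact le_trans (le_trans (le_abs_self _) this) (le_max_left _ _)

theorem integral_sub_left (h : IsMollifier ρ ε) (z : ℂ) : ∫ w, ρ (z - w) = 1 := by
  rw [integral_sub_left_eq_self ρ volume z]; exact h.integral_eq_one

theorem integral_sub_left_ofReal (h : IsMollifier ρ ε) (z : ℂ) :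
    ∫ w, ((ρ (z - w) : ℝ) : ℂ) = 1 := by
  rw [integral_complex_ofReal, h.integral_sub_left z]; simp

theorem eq_zero_of_notMem (h : IsMollifier ρ ε) {K₁ : Set ℂ} {z w : ℂ}
    (hz : closedBall z ε ⊆ K₁) (hw : w ∉ K₁) : ρ (z - w) = 0 := by
  apply h.supp
  by_contra hle
  rw [not_lt] at hle
  exact hw (hz (by rw [mem_closedBall, dist_eq_norm, ← norm_neg]; simpa using hle))

end IsMollifier

/-- Mollification of `F` by `ρ`: `z ↦ ∫ F w * ρ (z - w) dw`. -/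
noncomputable def mconv (F : ℂ → ℂ) (ρ : ℂ → ℝ) (z : ℂ) : ℂ :=
  ∫ w, F w * ((ρ (z - w) : ℝ) : ℂ)

theorem mconv_eq_convolution (F : ℂ → ℂ) (ρ : ℂ → ℝ) :
    mconv F ρ = F ⋆[ContinuousLinearMap.mul ℝ ℂ, volume] (fun w => ((ρ w : ℝ) : ℂ)) := by
  funext z
  simp [mconv, convolution_def]

section

variable {ρ : ℂ → ℝ} {ε : ℝ}

theorem integrable_mconv_integrand (hρ : IsMollifier ρ ε) {F : ℂ → ℂ} (hF : Integrable F)
    (z : ℂ) : Integrable (fun w => F w * ((ρ (z - w) : ℝ) : ℂ)) := by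
  obtain ⟨C, -, hC⟩ := hρ.exists_bound
  refine hF.mul_bdd (c := C) ?_ (Eventually.of_forall fun w => ?_)
  · exact (continuous_ofReal.comp
      (hρ.cont.comp (continuous_const.sub continuous_id))).aestronglyMeasurable
  · rw [Complex.norm_real, Real.norm_of_nonneg (hρ.nonneg _)]; exact hC _

theorem continuous_mconv (hρ : IsMollifier ρ ε) {F : ℂ → ℂ} (hF : Integrable F) :
    Continuous (mconv F ρ) := by
  rw [mconv_eq_convolution]
  exact HasCompactSupport.continuous_convolution_right _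
    (hρ.hasCompactSupport.comp_left Complex.ofReal_zero) hF.locallyIntegrable
    (continuous_ofReal.comp hρ.cont)

theorem mconv_sub (hρ : IsMollifier ρ ε) {F₁ F₂ : ℂ → ℂ} (hF₁ : Integrable F₁)
    (hF₂ : Integrable F₂) (z : ℂ) :
    mconv (F₁ - F₂) ρ z = mconv F₁ ρ z - mconv F₂ ρ z := by
  unfold mconv
  rw [← integral_sub (integrable_mconv_integrand hρ hF₁ z) (integrable_mconv_integrand hρ hF₂ z)]
  congr 1; ext w
  simp [sub_mul]

theorem norm_sq_mconv_le (hρ : IsMollifier ρ ε) {F : ℂ → ℂ} (hF : Integrable F)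
    (hF2 : Integrable (fun w => ‖F w‖ ^ 2)) (z : ℂ) :
    ‖mconv F ρ z‖ ^ 2 ≤ ∫ w, ‖F w‖ ^ 2 * ρ (z - w) := by
  obtain ⟨C, -, hC⟩ := hρ.exists_bound
  exact norm_sq_integral_mul_le hF hF2 (ω := fun w => ρ (z - w))
    (hρ.cont.comp (continuous_const.sub continuous_id)) (fun w => hρ.nonneg _) (fun w => hC _)
    (hρ.integral_sub_left z)

theorem norm_sq_mconv_le_mul (hρ : IsMollifier ρ ε) {C : ℝ} (hC : ∀ w, ρ w ≤ C) {F : ℂ → ℂ}
    (hF : Integrable F) (hF2 : Integrable (fun w => ‖F w‖ ^ 2)) (z : ℂ) :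
    ‖mconv F ρ z‖ ^ 2 ≤ C * ∫ w, ‖F w‖ ^ 2 := by
  refine (norm_sq_mconv_le hρ hF hF2 z).trans ?_
  rw [← integral_const_mul]
  refine integral_mono_of_nonneg (Eventually.of_forall fun w => mul_nonneg (sq_nonneg _)
    (hρ.nonneg _)) (hF2.const_mul C) (Eventually.of_forall fun w => ?_)
  show ‖F w‖ ^ 2 * ρ (z - w) ≤ C * ‖F w‖ ^ 2
  rw [mul_comm C]
  exact mul_le_mul_of_nonneg_left (hC _) (sq_nonneg _)

/-- Young's inequality `‖F ⋆ ρ‖_{L²} ≤ ‖F‖_{L²}` for a mollifier `ρ`. -/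
theorem setIntegral_norm_sq_mconv_le (hρ : IsMollifier ρ ε) {F : ℂ → ℂ} (hF : Integrable F)
    (hF2 : Integrable (fun w => ‖F w‖ ^ 2)) (K : Set ℂ) :
    ∫ z in K, ‖mconv F ρ z‖ ^ 2 ≤ ∫ w, ‖F w‖ ^ 2 := by
  have hconv : Integrable ((fun w => ‖F w‖ ^ 2) ⋆[ContinuousLinearMap.mul ℝ ℝ, volume] ρ) :=
    hF2.integrable_convolution _ hρ.integrable
  have hint : ∫ z, ((fun w => ‖F w‖ ^ 2) ⋆[ContinuousLinearMap.mul ℝ ℝ, volume] ρ) z
      = ∫ w, ‖F w‖ ^ 2 := by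
    rw [integral_convolution _ hF2 hρ.integrable]
    simp [hρ.integral_eq_one]
  have hpt : ∀ z, ‖mconv F ρ z‖ ^ 2
      ≤ ((fun w => ‖F w‖ ^ 2) ⋆[ContinuousLinearMap.mul ℝ ℝ, volume] ρ) z := by
    intro z
    rw [convolution_def]
    simpa using norm_sq_mconv_le hρ hF hF2 z
  have hI : Integrable (fun z => ‖mconv F ρ z‖ ^ 2) := by
    refine hconv.mono' ?_ (Eventually.of_forall fun z => ?_)
    · exact ((continuous_mconv hρ hF).norm.pow 2).aestronglyMeasurable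
    · rw [Real.norm_of_nonneg (sq_nonneg _)]; exact hpt z
  calc ∫ z in K, ‖mconv F ρ z‖ ^ 2
      ≤ ∫ z in K, ((fun w => ‖F w‖ ^ 2) ⋆[ContinuousLinearMap.mul ℝ ℝ, volume] ρ) z :=
        setIntegral_mono hI.integrableOn hconv.integrableOn hpt
    _ ≤ ∫ z, ((fun w => ‖F w‖ ^ 2) ⋆[ContinuousLinearMap.mul ℝ ℝ, volume] ρ) z :=
        setIntegral_le_integral hconv (Eventually.of_forall fun z =>
          le_trans (sq_nonneg _) (hpt z))
    _ = ∫ w, ‖F w‖ ^ 2 := hint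

theorem mconv_indicator_eq (hρ : IsMollifier ρ ε) {K₁ : Set ℂ} {z : ℂ}
    (hz : closedBall z ε ⊆ K₁) (g : ℂ → ℂ) :
    mconv (K₁.indicator g) ρ z = ∫ w, g w * ((ρ (z - w) : ℝ) : ℂ) := by
  unfold mconv
  congr 1; ext w
  by_cases hw : w ∈ K₁
  · rw [indicator_of_mem hw]
  · simp [hρ.eq_zero_of_notMem hz hw]

end

theorem integrable_indicator_of_continuousOn {K₁ : Set ℂ} (hK₁ : IsCompact K₁) {g : ℂ → ℂ}
    (hg : ContinuousOn g K₁) : Integrable (K₁.indicator g) :=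
  (integrable_indicator_iff hK₁.measurableSet).2 (hg.integrableOn_compact hK₁)

theorem norm_sq_indicator (K₁ : Set ℂ) (g : ℂ → ℂ) :
    (fun w => ‖K₁.indicator g w‖ ^ 2) = K₁.indicator (fun w => ‖g w‖ ^ 2) := by
  funext w
  by_cases hw : w ∈ K₁
  · simp [indicator_of_mem hw]
  · simp [indicator_of_notMem hw]

theorem integrable_norm_sq_indicator {K₁ : Set ℂ} (hK₁ : IsCompact K₁) {g : ℂ → ℂ}
    (hg : ContinuousOn g K₁) : Integrable (fun w => ‖K₁.indicator g w‖ ^ 2) := by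
  rw [norm_sq_indicator, integrable_indicator_iff hK₁.measurableSet]
  exact (hg.norm.pow 2).integrableOn_compact hK₁

theorem integral_norm_sq_indicator {K₁ : Set ℂ} (hK₁ : IsCompact K₁) (g : ℂ → ℂ) :
    ∫ w, ‖K₁.indicator g w‖ ^ 2 = ∫ w in K₁, ‖g w‖ ^ 2 := by
  rw [norm_sq_indicator, integral_indicator hK₁.measurableSet]

/-- Approximate identity, uniformly on a compact set. -/
theorem exists_mconv_close {K₁ : Set ℂ} (hK₁ : IsCompact K₁) {g : ℂ → ℂ}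
    (hg : ContinuousOn g K₁) {η : ℝ} (hη : 0 < η) :
    ∃ ε₁ > 0, ∀ (ε : ℝ) (ρ : ℂ → ℝ), ε ≤ ε₁ → IsMollifier ρ ε → ∀ z ∈ K₁,
      closedBall z ε ⊆ K₁ → ‖g z - mconv (K₁.indicator g) ρ z‖ ≤ η := by
  obtain ⟨δ, hδ, H⟩ := Metric.uniformContinuousOn_iff_le.1
    (hK₁.uniformContinuousOn_of_continuous hg) η hη
  refine ⟨δ, hδ, fun ε ρ hε hρ z hzK hz => ?_⟩
  have hi1 : Integrable (fun w => g z * ((ρ (z - w) : ℝ) : ℂ)) :=
    ((hρ.integrable.comp_sub_left z).ofReal).const_mul _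
  have hi2 : Integrable (fun w => K₁.indicator g w * ((ρ (z - w) : ℝ) : ℂ)) :=
    integrable_mconv_integrand hρ (integrable_indicator_of_continuousOn hK₁ hg) z
  have h1 : g z = ∫ w, g z * ((ρ (z - w) : ℝ) : ℂ) := by
    rw [integral_const_mul, hρ.integral_sub_left_ofReal, mul_one]
  have h2 : g z - mconv (K₁.indicator g) ρ z
      = ∫ w, (g z * ((ρ (z - w) : ℝ) : ℂ) - K₁.indicator g w * ((ρ (z - w) : ℝ) : ℂ)) := by
    rw [integral_sub hi1 hi2, ← h1]; rfl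
  rw [h2]
  calc ‖∫ w, (g z * ((ρ (z - w) : ℝ) : ℂ) - K₁.indicator g w * ((ρ (z - w) : ℝ) : ℂ))‖
      ≤ ∫ w, η * ρ (z - w) := by
        refine norm_integral_le_of_norm_le ((hρ.integrable.comp_sub_left z).const_mul η)
          (Eventually.of_forall fun w => ?_)
        by_cases hw : w ∈ K₁
        · rw [indicator_of_mem hw, ← sub_mul, norm_mul, Complex.norm_real,
            Real.norm_of_nonneg (hρ.nonneg _)]
          by_cases hzw : ‖z - w‖ ≤ ε
          · have := H z hzK w hw (by rw [dist_eq_norm]; linarith)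
            rw [dist_eq_norm] at this
            exact mul_le_mul_of_nonneg_right this (hρ.nonneg _)
          · rw [hρ.supp _ (not_le.1 hzw)]; simp
        · simp [hρ.eq_zero_of_notMem hz hw]
    _ = η := by rw [integral_const_mul, hρ.integral_sub_left, mul_one]

/-- **`L²` part of Weyl's lemma (sequence form).** If `a n` is `L²_loc`-Cauchy on `Ω` and its
mollifications converge pointwise to a continuous function `h`, then `a n → h` in `L²(K)` for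
every compact `K ⊆ Ω`. -/
theorem tendsto_setIntegral_norm_sub_sq_of_mollified {Ω : Set ℂ} (hΩ : IsOpen Ω)
    (a : ℕ → ℂ → ℂ) (ha : ∀ n, ContinuousOn (a n) Ω)
    (hC : ∀ K, IsCompact K → K ⊆ Ω → ∀ η > 0, ∃ n₀, ∀ n ≥ n₀, ∀ m ≥ n₀,
      ∫ z in K, ‖a n z - a m z‖ ^ 2 ≤ η)
    (ρ : ℝ → ℂ → ℝ) (hρ : ∀ ε > 0, IsMollifier (ρ ε) ε)
    (h : ℂ → ℂ) (hh : ContinuousOn h Ω)
    (hlim : ∀ z ε, 0 < ε → closedBall z ε ⊆ Ω →
      Tendsto (fun n => ∫ w, a n w * ((ρ ε (z - w) : ℝ) : ℂ)) atTop (𝓝 (h z)))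
    (K : Set ℂ) (hK : IsCompact K) (hKΩ : K ⊆ Ω) :
    Tendsto (fun n => ∫ z in K, ‖a n z - h z‖ ^ 2) atTop (𝓝 0) := by
  obtain ⟨δ₀, hδ₀, hδΩ⟩ := hK.exists_cthickening_subset_open hΩ hKΩ
  obtain ⟨K₁, hK₁def⟩ : ∃ K₁, K₁ = cthickening δ₀ K := ⟨_, rfl⟩
  have hK₁ : IsCompact K₁ := hK₁def ▸ hK.cthickening
  have hK₁Ω : K₁ ⊆ Ω := hK₁def ▸ hδΩ
  have hKK₁ : K ⊆ K₁ := hK₁def ▸ self_subset_cthickening K
  have hball : ∀ z ∈ K, ∀ ε ≤ δ₀, closedBall z ε ⊆ K₁ := fun z hz ε hε =>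
    hK₁def ▸ (closedBall_subset_closedBall hε).trans (closedBall_subset_cthickening hz δ₀)
  have haK₁ : ∀ n, ContinuousOn (a n) K₁ := fun n => (ha n).mono hK₁Ω
  have hFi : ∀ n, Integrable (K₁.indicator (a n)) := fun n =>
    integrable_indicator_of_continuousOn hK₁ (haK₁ n)
  have hFsub : ∀ n m, K₁.indicator (a n) - K₁.indicator (a m)
      = K₁.indicator (fun w => a n w - a m w) := fun n m => by
    funext w
    by_cases hw : w ∈ K₁
    · simp [indicator_of_mem hw]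
    · simp [indicator_of_notMem hw]
  have hsubc : ∀ n m, ContinuousOn (fun w => a n w - a m w) K₁ := fun n m =>
    (haK₁ n).sub (haK₁ m)
  have hF2 : ∀ n m, Integrable (fun w => ‖(K₁.indicator (a n) - K₁.indicator (a m)) w‖ ^ 2) :=
    fun n m => by rw [hFsub]; exact integrable_norm_sq_indicator hK₁ (hsubc n m)
  have hF2int : ∀ n m, ∫ w, ‖(K₁.indicator (a n) - K₁.indicator (a m)) w‖ ^ 2
      = ∫ w in K₁, ‖a n w - a m w‖ ^ 2 := fun n m => by
    rw [hFsub]; exact integral_norm_sq_indicator hK₁ _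
  rw [Metric.tendsto_atTop]
  intro η hη
  have hV : 0 ≤ volume.real K := measureReal_nonneg
  obtain ⟨η', hη'def⟩ : ∃ η', η' = η / (16 * (1 + volume.real K)) := ⟨_, rfl⟩
  have hη'pos : 0 < η' := by rw [hη'def]; positivity
  obtain ⟨n₀, hn₀⟩ := hC K hK hKΩ η' hη'pos
  obtain ⟨n₁, hn₁⟩ := hC K₁ hK₁ hK₁Ω η' hη'pos
  obtain ⟨m, hmdef⟩ : ∃ m, m = max n₀ n₁ := ⟨_, rfl⟩
  have hmn₀ : n₀ ≤ m := hmdef ▸ le_max_left _ _
  have hmn₁ : n₁ ≤ m := hmdef ▸ le_max_right _ _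
  obtain ⟨ε₁, hε₁, happrox⟩ := exists_mconv_close hK₁ (haK₁ m) (Real.sqrt_pos.2 hη'pos)
  obtain ⟨ε, hεdef⟩ : ∃ ε, ε = min ε₁ δ₀ := ⟨_, rfl⟩
  have hε : 0 < ε := hεdef ▸ lt_min hε₁ hδ₀
  have hεε₁ : ε ≤ ε₁ := hεdef ▸ min_le_left _ _
  have hεδ₀ : ε ≤ δ₀ := hεdef ▸ min_le_right _ _
  have hρε := hρ ε hε
  obtain ⟨C, hC0, hCb⟩ := hρε.exists_bound
  obtain ⟨n₂, hn₂⟩ := hC K₁ hK₁ hK₁Ω (η' / (C + 1)) (by positivity)
  refine ⟨max m n₂, fun n hn => ?_⟩
  have hnm : m ≤ n := le_trans (le_max_left _ _) hn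
  have hnn₂ : n₂ ≤ n := le_trans (le_max_right _ _) hn
  -- the mollified truncations
  obtain ⟨B, hBdef⟩ : ∃ B : ℕ → ℂ → ℂ, B = fun k => mconv (K₁.indicator (a k)) (ρ ε) := ⟨_, rfl⟩
  have hBc : ∀ k, Continuous (B k) := fun k => hBdef ▸ continuous_mconv hρε (hFi k)
  have hBsub : ∀ k l z, B k z - B l z
      = mconv (K₁.indicator (a k) - K₁.indicator (a l)) (ρ ε) z := fun k l z => by
    rw [hBdef, mconv_sub hρε (hFi k) (hFi l)]
  have hBlim : ∀ z ∈ K, Tendsto (fun k => B k z) atTop (𝓝 (h z)) := fun z hz => by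
    have := hlim z ε hε ((hball z hz ε hεδ₀).trans hK₁Ω)
    refine this.congr fun k => ?_
    rw [hBdef]; exact (mconv_indicator_eq hρε (hball z hz ε hεδ₀) (a k)).symm
  -- third term
  have hT3 : ∀ z ∈ K, ‖a m z - B m z‖ ^ 2 ≤ η' := fun z hz => by
    have := happrox ε (ρ ε) hεε₁ hρε z (hKK₁ hz) (hball z hz ε hεδ₀)
    rw [hBdef]
    calc ‖a m z - mconv (K₁.indicator (a m)) (ρ ε) z‖ ^ 2 ≤ (Real.sqrt η') ^ 2 :=
          pow_le_pow_left₀ (norm_nonneg _) this 2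
      _ = η' := Real.sq_sqrt hη'pos.le
  -- fourth term
  have hT4 : ∀ z ∈ K, ‖B n z - h z‖ ^ 2 ≤ η' := fun z hz => by
    have hlim' : Tendsto (fun k => ‖B n z - B k z‖ ^ 2) atTop (𝓝 (‖B n z - h z‖ ^ 2)) :=
      ((tendsto_const_nhds.sub (hBlim z hz)).norm).pow 2
    refine le_of_tendsto hlim' ?_
    filter_upwards [eventually_ge_atTop n₂] with k hk
    rw [hBsub]
    calc ‖mconv (K₁.indicator (a n) - K₁.indicator (a k)) (ρ ε) z‖ ^ 2
        ≤ C * ∫ w, ‖(K₁.indicator (a n) - K₁.indicator (a k)) w‖ ^ 2 :=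
          norm_sq_mconv_le_mul hρε hCb ((hFi n).sub (hFi k)) (hF2 n k) z
      _ = C * ∫ w in K₁, ‖a n w - a k w‖ ^ 2 := by rw [hF2int]
      _ ≤ C * (η' / (C + 1)) := mul_le_mul_of_nonneg_left (hn₂ n hnn₂ k hk) hC0
      _ ≤ η' := by
        rw [← mul_div_assoc, div_le_iff₀ (by positivity)]
        nlinarith
  -- pointwise estimate on `K`
  have hpt : ∀ z ∈ K, ‖a n z - h z‖ ^ 2
      ≤ 4 * ‖a n z - a m z‖ ^ 2 + 4 * ‖B n z - B m z‖ ^ 2 + 8 * η' := fun z hz => by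
    have e : a n z - h z = (a n z - a m z) + (a m z - B m z) - (B n z - B m z) + (B n z - h z) := by
      ring
    have h3 := hT3 z hz
    have h4 := hT4 z hz
    have hn : ‖a n z - h z‖ ≤ ‖a n z - a m z‖ + ‖a m z - B m z‖ + ‖B n z - B m z‖ + ‖B n z - h z‖ := by
      rw [e]
      exact (norm_add_le _ _).trans (add_le_add_left ((norm_sub_le _ _).trans
        (add_le_add_left (norm_add_le _ _) _)) _)
    have hsq : ‖a n z - h z‖ ^ 2
        ≤ (‖a n z - a m z‖ + ‖a m z - B m z‖ + ‖B n z - B m z‖ + ‖B n z - h z‖) ^ 2 :=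
      pow_le_pow_left₀ (norm_nonneg _) hn 2
    nlinarith [sq_nonneg (‖a n z - a m z‖ - ‖a m z - B m z‖),
      sq_nonneg (‖a n z - a m z‖ - ‖B n z - B m z‖), sq_nonneg (‖a n z - a m z‖ - ‖B n z - h z‖),
      sq_nonneg (‖a m z - B m z‖ - ‖B n z - B m z‖), sq_nonneg (‖a m z - B m z‖ - ‖B n z - h z‖),
      sq_nonneg (‖B n z - B m z‖ - ‖B n z - h z‖)]
  -- integrate
  have hi0 : IntegrableOn (fun z => ‖a n z - h z‖ ^ 2) K :=
    ((((ha n).mono hKΩ).sub (hh.mono hKΩ)).norm.pow 2).integrableOn_compact hK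
  have hi1 : IntegrableOn (fun z => ‖a n z - a m z‖ ^ 2) K :=
    ((((ha n).mono hKΩ).sub ((ha m).mono hKΩ)).norm.pow 2).integrableOn_compact hK
  have hi2 : IntegrableOn (fun z => ‖B n z - B m z‖ ^ 2) K :=
    ((((hBc n).sub (hBc m)).norm.pow 2).continuousOn).integrableOn_compact hK
  have hi3 : IntegrableOn (fun _ : ℂ => 8 * η') K := integrableOn_const hK.measure_lt_top.ne
  have hYoung : ∫ z in K, ‖B n z - B m z‖ ^ 2 ≤ η' := by
    simp_rw [hBsub]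
    calc ∫ z in K, ‖mconv (K₁.indicator (a n) - K₁.indicator (a m)) (ρ ε) z‖ ^ 2
        ≤ ∫ w, ‖(K₁.indicator (a n) - K₁.indicator (a m)) w‖ ^ 2 :=
          setIntegral_norm_sq_mconv_le hρε ((hFi n).sub (hFi m)) (hF2 n m) K
      _ = ∫ w in K₁, ‖a n w - a m w‖ ^ 2 := hF2int n m
      _ ≤ η' := hn₁ n (hmn₁.trans hnm) m hmn₁
  have hi4 : IntegrableOn (fun z => 4 * ‖a n z - a m z‖ ^ 2) K := hi1.const_mul 4
  have hi5 : IntegrableOn (fun z => 4 * ‖B n z - B m z‖ ^ 2) K := hi2.const_mul 4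
  have hi6 : IntegrableOn (fun z => 4 * ‖a n z - a m z‖ ^ 2 + 4 * ‖B n z - B m z‖ ^ 2) K :=
    hi4.add hi5
  have hi7 : IntegrableOn
      (fun z => 4 * ‖a n z - a m z‖ ^ 2 + 4 * ‖B n z - B m z‖ ^ 2 + 8 * η') K := hi6.add hi3
  have hmain : ∫ z in K, ‖a n z - h z‖ ^ 2 ≤ 4 * η' + 4 * η' + 8 * η' * volume.real K := by
    calc ∫ z in K, ‖a n z - h z‖ ^ 2
        ≤ ∫ z in K, (4 * ‖a n z - a m z‖ ^ 2 + 4 * ‖B n z - B m z‖ ^ 2 + 8 * η') :=
          setIntegral_mono_on hi0 hi7 hK.measurableSet hpt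
      _ = 4 * (∫ z in K, ‖a n z - a m z‖ ^ 2) + 4 * (∫ z in K, ‖B n z - B m z‖ ^ 2)
          + 8 * η' * volume.real K := by
        rw [integral_add hi6 hi3, integral_add hi4 hi5, integral_const_mul,
          integral_const_mul, setIntegral_const, smul_eq_mul, mul_comm (volume.real K)]
      _ ≤ 4 * η' + 4 * η' + 8 * η' * volume.real K := by
        have := hn₀ n (hmn₀.trans hnm) m hmn₀
        linarith
  have hnonneg : 0 ≤ ∫ z in K, ‖a n z - h z‖ ^ 2 := integral_nonneg fun z => sq_nonneg _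
  rw [Real.dist_eq, sub_zero, abs_of_nonneg hnonneg]
  have hfin : 4 * η' + 4 * η' + 8 * η' * volume.real K = η / 2 := by
    rw [hη'def]; field_simp; ring
  linarith

end Fermat.Agent.S21.helper2519
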