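/-
S21 / S20 PRE-ASSEMBLY (seat helper2601).

Both frozen statements S20 (`dim S₂(Γ₀(N)) = genusFormula N`) and S21 (Eichler–Shimura) are
reduced on main to the single lower bound `genusFormula N ≤ dim S₂(Γ₀(N))`
(`helper21_Upper`).  This file proves that lower bound from the pieces of the free-module
route that are NOT yet proved, with every goal that is already proved plugged in:

* `genus_le_of_basis` : from ONE coset-indexed free basis `(κ, F)` of `M_*(Γ₀(N))` with
  invertible fundamental matrix and the weight-sum INEQUALITY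
  `∑ κ j + 6 * cusps ≤ 6 * mu`  (no duality, no `κ j ≤ 10`, no "exactly one weight 0");
* `genus_le_of_goals`, `s21_of_goals`, `s20_of_goals` : from
  `helper560.Goal_BasisM` and `helper260.Goal_SumWeights` (the two open leaves).

Plugged in (all on main): `Goal_Basic`, `Goal_Hilbert`, `Goal_RRdim` (helper3006),
`Goal_ODEM` (helper387), `Goal_EllS`, `Goal_EllST` (helper1774), `Goal_GoodLevel` (helper1982),
`Goal_Seed` (helper200), `Goal_Index/E2/E3/Cusps` (helper2600), `Goal_Lower` (helper440),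
the unconditional upper bounds (helper21_Upper).
-/
import Fermat.Agent.S20.helper260_Sandwich
import Fermat.Agent.S20.helper3006_Basic
import Fermat.Agent.S20.helper3006_Hilbert
import Fermat.Agent.S20.helper387_GoalODE
import Fermat.Agent.S20.helper1774_Ell
import Fermat.Agent.S20.helper1982_GoodLevel
import Fermat.Agent.S20.helper200_GoalSeed
import Fermat.Agent.S20.helper2600_Goals
import Fermat.Agent.S20.helper440_GoalLower
import Fermat.Agent.S21.helper21_Upper

set_option autoImplicit false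

open UpperHalfPlane ModularForm
open scoped MatrixGroups Manifold Pointwise

namespace Fermat.Agent.S21.helper2601

open Fermat.Agent.S20.helper560 Fermat.Agent.S20.helper260

/-- **Lower-bound arithmetic** (weights `κ j ≥ 0` even, arbitrary otherwise): the elliptic
counts and the weight-sum INEQUALITY `∑ κ + 6 c ≤ 6 μ` give
`12 + μ - 3 e₂ - 4 e₃ - 6 c ≤ 12 (#{κ = 2} - (c - 1))`. -/
theorem lower_arith {J : Type*} [Fintype J] (κ : J → ℤ) (h0 : ∀ j, 0 ≤ κ j)
    (he : ∀ j, κ j % 2 = 0) (μ e2 e3 c : ℤ)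
    (hμ : (Fintype.card J : ℤ) = μ)
    (ha : ∑ j, (if κ j % 4 = 0 then (1 : ℤ) else -1) = e2)
    (hb1 : ∑ j, (if κ j % 6 = 2 then (1 : ℤ) else 0) = ∑ j, (if κ j % 6 = 4 then (1 : ℤ) else 0))
    (hb2 : ∑ j, (if κ j % 6 = 0 then (1 : ℤ) else 0)
      - ∑ j, (if κ j % 6 = 2 then (1 : ℤ) else 0) = e3)
    (hc : ∑ j, κ j + 6 * c ≤ 6 * μ) :
    12 + μ - 3 * e2 - 4 * e3 - 6 * c ≤
      12 * (∑ j, (if κ j = 2 then (1 : ℤ) else 0)) - 12 * (c - 1) := by
  classical
  set S4 := ∑ j, (if κ j % 4 = 0 then (1 : ℤ) else 0) with hS4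
  set S60 := ∑ j, (if κ j % 6 = 0 then (1 : ℤ) else 0) with hS60
  set S62 := ∑ j, (if κ j % 6 = 2 then (1 : ℤ) else 0) with hS62
  set S64 := ∑ j, (if κ j % 6 = 4 then (1 : ℤ) else 0) with hS64
  set N2 := ∑ j, (if κ j = 2 then (1 : ℤ) else 0) with hN2
  set SK := ∑ j, κ j with hSK
  have hcard : ∑ _j : J, (1 : ℤ) = μ := by simpa using hμ
  have ha' : 2 * S4 - μ = e2 := by
    rw [← ha, ← hcard, hS4, Finset.mul_sum, ← Finset.sum_sub_distrib]
    refine Finset.sum_congr rfl fun j _ => ?_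
    split_ifs <;> ring
  have h6 : S60 + S62 + S64 = μ := by
    rw [← hcard, hS60, hS62, hS64, ← Finset.sum_add_distrib, ← Finset.sum_add_distrib]
    refine Finset.sum_congr rfl fun j _ => ?_
    have := he j
    split_ifs <;> omega
  have h2 : 0 ≤ 12 * N2 - 12 * μ + SK + 6 * S4 + 6 * S60 - 2 * (S62 - S64) := by
    rw [← hcard, hN2, hSK, hS4, hS60, hS62, hS64]
    simp only [Finset.mul_sum, ← Finset.sum_sub_distrib, ← Finset.sum_add_distrib]
    refine Finset.sum_nonneg fun j _ => ?_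
    have := lower_slack_nonneg (κ j) (h0 j) (he j)
    linarith
  have hb1' : S62 = S64 := hb1
  have hb2' : S60 - S62 = e3 := hb2
  linarith

/-- **The lower bound from one basis.**  A coset-indexed free basis `(κ, F)` of `M_*(Γ₀(N))`
over the level one ring whose fundamental matrix is invertible on all of `ℍ` and whose
weights satisfy `∑ κ j + 6 * cusps ≤ 6 * mu` forces `genusFormula N ≤ dim S₂(Γ₀(N))`. -/
theorem genus_le_of_basis (N : ℕ) [NeZero N]
    (κ : Q (G0 N) → ℤ) (F : Q (G0 N) → ℍ → ℂ) (hF : IsFreeBasis (MFG (G0 N)) κ F)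
    (hΦ : ∀ z, fundDet (G0 N) κ F z ≠ 0)
    (hc : ∑ j, κ j + 6 * (cusps (G0 N) : ℤ) ≤ 6 * (mu (G0 N) : ℤ)) :
    ModularCurve.genusFormula N ≤
      (Module.finrank ℂ (CuspForm (CongruenceSubgroup.Gamma0 N) 2) : ℚ) := by
  have hg := Fermat.Agent.S20.helper1982.goal_GoodLevel N
  have hRR := Fermat.Agent.S20.helper3006.goal_RRdim
  obtain ⟨hneg, hodd, hM0, hS0, hSM, hmulM, hmulS, hfin, hS2⟩ :=
    Fermat.Agent.S20.helper3006.goal_Basic (G0 N) N hg
  have hellS := Fermat.Agent.S20.helper1774.goal_EllS (G0 N) N hg κ F hF.1 (hΦ _)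
  have hellST := Fermat.Agent.S20.helper1774.goal_EllST (G0 N) N hg κ F hF.1 (hΦ _)
  have hHM := fun k =>
    Fermat.Agent.S20.helper3006.goal_Hilbert (MFG (G0 N)) (Q (G0 N)) κ F hF hmulM k
  have hFne : ∀ j, F j ≠ 0 := fun j hj =>
    hΦ UpperHalfPlane.I (fundDet_eq_zero_of_eq_zero (G0 N) κ F _ j hj)
  have h0 : ∀ j, 0 ≤ κ j := by
    intro j
    have hmem := hF.1 j
    by_contra hlt
    rw [hneg _ (not_le.mp hlt)] at hmem
    exact hFne j ((Submodule.mem_bot ℂ).mp hmem)
  have he : ∀ j, κ j % 2 = 0 := by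
    intro j
    have hmem := hF.1 j
    by_contra ho
    have ho' : Odd (κ j) := Int.odd_iff.mpr (by omega)
    rw [hodd _ ho'] at hmem
    exact hFne j ((Submodule.mem_bot ℂ).mp hmem)
  have hcard : (Fintype.card (Q (G0 N)) : ℤ) = (mu (G0 N) : ℤ) := by
    have : Fintype.card (Q (G0 N)) = mu (G0 N) := Nat.card_eq_fintype_card.symm
    exact_mod_cast this
  -- the elliptic counts
  have ha := count_of_ellS κ h0 he (e2 (G0 N)) hellS
  obtain ⟨hb1, hb2⟩ := count_of_ellST κ h0 he (e3 (G0 N)) hellST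
  have hslack := lower_arith κ h0 he (mu (G0 N)) (e2 (G0 N)) (e3 (G0 N))
    (cusps (G0 N)) hcard ha hb1 hb2 hc
  -- the constant-term bound in weight two
  have hlo : ∑ j, (if κ j = 2 then (1 : ℤ) else 0) + 1 ≤
      (Module.finrank ℂ (CFG (G0 N) 2) : ℤ) + (cusps (G0 N) : ℤ) := by
    have h1 := Fermat.Agent.S20.helper440.goal_Lower (G0 N) N hg
    unfold Stmt_Lower at h1
    rw [hHM 2] at h1
    have h2 : ((∑ j, Module.finrank ℂ (RR (2 - κ j)) + 1 : ℕ) : ℤ) ≤
        ((Module.finrank ℂ (CFG (G0 N) 2) + cusps (G0 N) : ℕ) : ℤ) := by exact_mod_cast h1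
    push_cast at h2
    rw [Finset.sum_congr rfl fun j _ => finrank_RR_eq_dA hRR (2 - κ j)] at h2
    rw [Finset.sum_congr rfl fun j _ => dA_two_sub_of_even (κ j) (h0 j) (he j)] at h2
    exact h2
  have hfin' : 12 + (mu (G0 N) : ℤ) - 3 * (e2 (G0 N) : ℤ) - 4 * (e3 (G0 N) : ℤ)
        - 6 * (cusps (G0 N) : ℤ) ≤ 12 * (Module.finrank ℂ (CFG (G0 N) 2) : ℤ) := by
    linarith
  rw [hS2, Fermat.Agent.S20.helper2600.goal_Index N, Fermat.Agent.S20.helper2600.goal_E2 N,
    Fermat.Agent.S20.helper2600.goal_E3 N, Fermat.Agent.S20.helper2600.goal_Cusps N] at hfin'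
  have hQ : 12 + (ModularCurve.dedekindPsi N : ℚ) - 3 * (ModularCurve.nuTwo N : ℚ)
        - 4 * (ModularCurve.nuThree N : ℚ) - 6 * (ModularCurve.cuspCount N : ℚ) ≤
      12 * (Module.finrank ℂ (CuspForm (G0 N) 2) : ℚ) := by
    exact_mod_cast hfin'
  show ModularCurve.genusFormula N ≤ (Module.finrank ℂ (CuspForm (G0 N) 2) : ℚ)
  unfold ModularCurve.genusFormula
  linarith

/-- Weak form of the weight-sum statement for `Γ₀(N)`: inequality only. -/
def Stmt_SumWeightsLe (N : ℕ) [NeZero N] : Prop :=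
  ∀ (κ : Q (G0 N) → ℤ) (F : Q (G0 N) → ℍ → ℂ), IsFreeBasis (MFG (G0 N)) κ F →
    (∀ z, fundDet (G0 N) κ F z ≠ 0) →
    ∑ j, κ j + 6 * (cusps (G0 N) : ℤ) ≤ 6 * (mu (G0 N) : ℤ)

/-- The lower bound from a coset-indexed free basis (`Stmt_Basis`) and the weak weight-sum
statement, for one level `N`. -/
theorem genus_le_of_stmts (N : ℕ) [NeZero N] (hB : Stmt_Basis (G0 N) (MFG (G0 N)))
    (hSW : Stmt_SumWeightsLe N) :
    ModularCurve.genusFormula N ≤
      (Module.finrank ℂ (CuspForm (CongruenceSubgroup.Gamma0 N) 2) : ℚ) := by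
  obtain ⟨κ, F, hF, hz⟩ := hB
  have hΦ := Fermat.Agent.S20.helper387.goal_ODEM (G0 N) N
    (Fermat.Agent.S20.helper1982.goal_GoodLevel N) κ F hF hz
  exact genus_le_of_basis N κ F hF hΦ (hSW κ F hF hΦ)

/-- **The lower bound from the two open goals** `Goal_BasisM` and `Goal_SumWeights`. -/
theorem genus_le_of_goals (hBM : Goal_BasisM) (hSW : Goal_SumWeights) (N : ℕ) [NeZero N] :
    ModularCurve.genusFormula N ≤
      (Module.finrank ℂ (CuspForm (CongruenceSubgroup.Gamma0 N) 2) : ℚ) := by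
  have hg := Fermat.Agent.S20.helper1982.goal_GoodLevel N
  refine genus_le_of_stmts N (hBM (G0 N) N hg (Fermat.Agent.S20.helper200.goal_Seed N)) ?_
  intro κ F hF hΦ
  exact le_of_eq (hSW (G0 N) N hg κ F hF hΦ)

/-- **S21 (Eichler–Shimura) from the two open goals.** -/
theorem s21_of_goals (hBM : Goal_BasisM) (hSW : Goal_SumWeights) (N : ℕ) [NeZero N] :
    Function.Injective (ModularCurve.periodHomPair N)
      ∧ LinearMap.range (ModularCurve.periodHomPair N)
          = ModularCurve.Period.parabolicHoms ℂ (CongruenceSubgroup.Gamma0 N) ℂ :=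
  Fermat.Agent.S21.helper21.result_of_genus_le N (genus_le_of_goals hBM hSW N)

/-- **S20 (dimension formula) from the two open goals.** -/
theorem s20_of_goals (hBM : Goal_BasisM) (hSW : Goal_SumWeights) (N : ℕ) [NeZero N] :
    (Module.finrank ℂ (CuspForm (CongruenceSubgroup.Gamma0 N) 2) : ℚ)
      = ModularCurve.genusFormula N :=
  Fermat.Agent.S21.helper21.finrank_cuspForm_eq_of_genus_le N (genus_le_of_goals hBM hSW N)

/-- S21 from one basis with the weight-sum inequality (most flexible form). -/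
theorem s21_of_basis (N : ℕ) [NeZero N]
    (κ : Q (G0 N) → ℤ) (F : Q (G0 N) → ℍ → ℂ) (hF : IsFreeBasis (MFG (G0 N)) κ F)
    (hΦ : ∀ z, fundDet (G0 N) κ F z ≠ 0)
    (hc : ∑ j, κ j + 6 * (cusps (G0 N) : ℤ) ≤ 6 * (mu (G0 N) : ℤ)) :
    Function.Injective (ModularCurve.periodHomPair N)
      ∧ LinearMap.range (ModularCurve.periodHomPair N)
          = ModularCurve.Period.parabolicHoms ℂ (CongruenceSubgroup.Gamma0 N) ℂ :=
  Fermat.Agent.S21.helper21.result_of_genus_le N (genus_le_of_basis N κ F hF hΦ hc)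

/-- S20 from one basis with the weight-sum inequality (most flexible form). -/
theorem s20_of_basis (N : ℕ) [NeZero N]
    (κ : Q (G0 N) → ℤ) (F : Q (G0 N) → ℍ → ℂ) (hF : IsFreeBasis (MFG (G0 N)) κ F)
    (hΦ : ∀ z, fundDet (G0 N) κ F z ≠ 0)
    (hc : ∑ j, κ j + 6 * (cusps (G0 N) : ℤ) ≤ 6 * (mu (G0 N) : ℤ)) :
    (Module.finrank ℂ (CuspForm (CongruenceSubgroup.Gamma0 N) 2) : ℚ)
      = ModularCurve.genusFormula N :=
  Fermat.Agent.S21.helper21.finrank_cuspForm_eq_of_genus_le N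
    (genus_le_of_basis N κ F hF hΦ hc)

end Fermat.Agent.S21.helper2601
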