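import Mathlib

set_option autoImplicit false

/-!
# Weyl's lemma for `∂̄`, sequence form (Route 2 of S21, leaf LIM)

If `a n : ℂ → ℂ` are continuous on an open set `Ω`, Cauchy in `L²(K)` for every compact
`K ⊆ Ω`, and `∫ a n * ∂̄ψ → 0` for every test function `ψ` supported in `Ω`, then there is
a holomorphic `h` on `Ω` with `∫_K ‖a n - h‖² → 0` for every compact `K ⊆ Ω`.
-/

namespace Fermat.Agent.S21.helper261

open Complex MeasureTheory Metric Set Filter Topology
open scoped ContDiff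

/-! ### The operator `∂̄` (without the factor `1/2`) -/

/-- `dbar f w = ∂f/∂x + i ∂f/∂y` (twice the Wirtinger derivative `∂f/∂z̄`). -/
noncomputable def dbar (f : ℂ → ℂ) (w : ℂ) : ℂ := fderiv ℝ f w 1 + I * fderiv ℝ f w I

theorem dbar_mul {f g : ℂ → ℂ} {w : ℂ} (hf : DifferentiableAt ℝ f w)
    (hg : DifferentiableAt ℝ g w) :
    dbar (fun x => f x * g x) w = dbar f w * g w + f w * dbar g w := by
  unfold dbar
  rw [fderiv_fun_mul hf hg]
  simp only [add_apply, smul_apply, smul_eq_mul]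
  ring

theorem dbar_comp_sub_left {f : ℂ → ℂ} (z w : ℂ) (hf : DifferentiableAt ℝ f (z - w)) :
    dbar (fun x => f (z - x)) w = - dbar f (z - w) := by
  unfold dbar
  have h1 : HasFDerivAt (fun x : ℂ => z - x) (-ContinuousLinearMap.id ℝ ℂ) w :=
    (hasFDerivAt_id w).const_sub z
  have h2 : HasFDerivAt (fun x => f (z - x))
      ((fderiv ℝ f (z - w)).comp (-ContinuousLinearMap.id ℝ ℂ)) w :=
    hf.hasFDerivAt.comp w h1
  rw [h2.fderiv]
  simp only [ContinuousLinearMap.comp_neg, ContinuousLinearMap.comp_id, neg_apply]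
  ring

theorem dbar_eq_zero_of_differentiableAt {f : ℂ → ℂ} {w : ℂ} (hf : DifferentiableAt ℂ f w) :
    dbar f w = 0 := by
  unfold dbar
  rw [hf.fderiv_restrictScalars ℝ]
  simp only [ContinuousLinearMap.coe_restrictScalars']
  have h : fderiv ℂ f w I = I • fderiv ℂ f w 1 := by
    rw [← ContinuousLinearMap.map_smul]; simp
  rw [h, smul_eq_mul, ← mul_assoc, I_mul_I]
  ring

theorem dbar_eq_zero_of_eventuallyEq_const {f : ℂ → ℂ} {w c : ℂ}
    (hf : f =ᶠ[𝓝 w] fun _ => c) : dbar f w = 0 := by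
  unfold dbar
  rw [hf.fderiv_eq]
  simp

/-! ### The cutoff profile -/

/-- A smooth monotone profile, `0` on `(-∞, 1/2]` and `1` on `[1, ∞)`. -/
noncomputable def theta (t : ℝ) : ℝ := Real.smoothTransition (2 * t - 1)

/-- The derivative of `theta`. -/
noncomputable def thetaD (t : ℝ) : ℝ := deriv theta t

theorem theta_contDiff : ContDiff ℝ ∞ theta :=
  Real.smoothTransition.contDiff.comp (by fun_prop)

theorem theta_eq_zero {t : ℝ} (h : t ≤ 1 / 2) : theta t = 0 :=
  Real.smoothTransition.zero_of_nonpos (by linarith)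

theorem theta_eq_one {t : ℝ} (h : 1 ≤ t) : theta t = 1 :=
  Real.smoothTransition.one_of_one_le (by linarith)

theorem theta_nonneg (t : ℝ) : 0 ≤ theta t := Real.smoothTransition.nonneg _

theorem theta_le_one (t : ℝ) : theta t ≤ 1 := Real.smoothTransition.le_one _

theorem theta_monotone : Monotone theta := fun _ _ h =>
  Real.smoothTransition.monotone (by linarith)

theorem hasDerivAt_theta (t : ℝ) : HasDerivAt theta (thetaD t) t :=
  (theta_contDiff.differentiable (by simp) t).hasDerivAt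

theorem thetaD_continuous : Continuous thetaD :=
  theta_contDiff.continuous_deriv (by simp)

theorem thetaD_nonneg (t : ℝ) : 0 ≤ thetaD t := theta_monotone.deriv_nonneg

theorem thetaD_eq_zero_of_lt {t : ℝ} (h : t < 1 / 2) : thetaD t = 0 := by
  have : theta =ᶠ[𝓝 t] fun _ => (0 : ℝ) := by
    filter_upwards [Iio_mem_nhds h] with s hs
    exact theta_eq_zero (le_of_lt hs)
  unfold thetaD
  rw [this.deriv_eq]
  simp

theorem thetaD_eq_zero_of_gt {t : ℝ} (h : 1 < t) : thetaD t = 0 := by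
  have : theta =ᶠ[𝓝 t] fun _ => (1 : ℝ) := by
    filter_upwards [Ioi_mem_nhds h] with s hs
    exact theta_eq_one (le_of_lt hs)
  unfold thetaD
  rw [this.deriv_eq]
  simp

/-! ### The mollified Cauchy kernel and its `∂̄`, an annular mollifier -/

/-- The mollified Cauchy kernel: `1 / (2π w)` for `‖w‖ ≥ ε`, smooth everywhere. -/
noncomputable def cauchyKer (ε : ℝ) (w : ℂ) : ℂ :=
  (theta (‖w‖ ^ 2 / ε ^ 2) : ℂ) / (2 * (Real.pi : ℂ) * w)

/-- The annular mollifier `moll ε = ∂̄ (cauchyKer ε)`. -/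
noncomputable def moll (ε : ℝ) (w : ℂ) : ℝ := thetaD (‖w‖ ^ 2 / ε ^ 2) / (Real.pi * ε ^ 2)

theorem cauchyKer_eventually_zero {ε : ℝ} (hε : 0 < ε) {w : ℂ} (hw : ‖w‖ < ε / 2) :
    cauchyKer ε =ᶠ[𝓝 w] fun _ => (0 : ℂ) := by
  have hopen : IsOpen {x : ℂ | ‖x‖ < ε / 2} := isOpen_lt continuous_norm continuous_const
  filter_upwards [hopen.mem_nhds hw] with x hx
  have hx' : ‖x‖ < ε / 2 := hx
  have h1 : ‖x‖ ^ 2 / ε ^ 2 ≤ 1 / 2 := by
    rw [div_le_iff₀ (by positivity)]
    nlinarith [norm_nonneg x]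
  simp [cauchyKer, theta_eq_zero h1]

theorem cauchyKer_eq {ε : ℝ} (hε : 0 < ε) {w : ℂ} (hw : ε ≤ ‖w‖) :
    cauchyKer ε w = 1 / (2 * (Real.pi : ℂ) * w) := by
  have h1 : 1 ≤ ‖w‖ ^ 2 / ε ^ 2 := by
    rw [le_div_iff₀ (by positivity)]
    nlinarith [norm_nonneg w]
  simp [cauchyKer, theta_eq_one h1]

theorem cauchyKer_contDiff {ε : ℝ} (hε : 0 < ε) : ContDiff ℝ ∞ (cauchyKer ε) := by
  rw [contDiff_iff_contDiffAt]
  intro w
  by_cases hw : ‖w‖ < ε / 2
  · exact (contDiffAt_const (c := (0 : ℂ))).congr_of_eventuallyEq (cauchyKer_eventually_zero hε hw)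
  · have hw0 : w ≠ 0 := by
      rintro rfl
      simp at hw
      linarith
    have h1 : ContDiff ℝ ∞ (fun x : ℂ => ((theta (‖x‖ ^ 2 / ε ^ 2) : ℝ) : ℂ)) :=
      Complex.ofRealCLM.contDiff.comp
        (theta_contDiff.comp ((contDiff_norm_sq ℝ).div_const _))
    have h2 : ContDiff ℝ ∞ (fun x : ℂ => 2 * (Real.pi : ℂ) * x) := contDiff_const.mul contDiff_id
    have h3 : ContDiffAt ℝ ∞ (fun x : ℂ => (2 * (Real.pi : ℂ) * x)⁻¹) w :=
      (h2.contDiffAt (x := w)).inv (by simp [hw0, Real.pi_ne_zero])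
    have h4 := (h1.contDiffAt (x := w)).mul h3
    refine h4.congr_of_eventuallyEq (Eventually.of_forall fun x => ?_)
    simp [cauchyKer, div_eq_mul_inv]

theorem norm_cauchyKer_le {ε : ℝ} (hε : 0 < ε) (w : ℂ) : ‖cauchyKer ε w‖ ≤ 1 / ε := by
  by_cases hw : ‖w‖ < ε / 2
  · rw [(cauchyKer_eventually_zero hε hw).self_of_nhds]
    simp
    positivity
  · rw [not_lt] at hw
    have hw0 : 0 < ‖w‖ := lt_of_lt_of_le (by positivity) hw
    unfold cauchyKer
    rw [norm_div, norm_mul, norm_mul, Complex.norm_real, Complex.norm_real]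
    simp only [Complex.norm_ofNat, Real.norm_eq_abs]
    rw [abs_of_nonneg (theta_nonneg _), abs_of_pos Real.pi_pos, div_le_div_iff₀ (by positivity) hε]
    have h3 : (3 : ℝ) < Real.pi := Real.pi_gt_three
    have h4 := theta_le_one (‖w‖ ^ 2 / ε ^ 2)
    have h5 := theta_nonneg (‖w‖ ^ 2 / ε ^ 2)
    nlinarith [mul_nonneg h5 hε.le, mul_pos hw0 Real.pi_pos]

theorem moll_nonneg {ε : ℝ} (w : ℂ) : 0 ≤ moll ε w :=
  div_nonneg (thetaD_nonneg _) (by positivity)

theorem moll_eq_zero_of_lt {ε : ℝ} (hε : 0 < ε) {w : ℂ} (hw : ε < ‖w‖) : moll ε w = 0 := by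
  have h1 : 1 < ‖w‖ ^ 2 / ε ^ 2 := by
    rw [lt_div_iff₀ (by positivity)]
    nlinarith [norm_nonneg w]
  simp [moll, thetaD_eq_zero_of_gt h1]

theorem continuous_moll {ε : ℝ} : Continuous (moll ε) := by
  unfold moll
  exact (thetaD_continuous.comp (by fun_prop)).div_const _

theorem dbar_cauchyKer {ε : ℝ} (hε : 0 < ε) (w : ℂ) : dbar (cauchyKer ε) w = (moll ε w : ℂ) := by
  by_cases hw : ‖w‖ < ε / 2
  · rw [dbar_eq_zero_of_eventuallyEq_const (cauchyKer_eventually_zero hε hw)]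
    have h1 : ‖w‖ ^ 2 / ε ^ 2 < 1 / 2 := by
      rw [div_lt_iff₀ (by positivity)]
      nlinarith [norm_nonneg w]
    simp [moll, thetaD_eq_zero_of_lt h1]
  · have hw0 : w ≠ 0 := by
      rintro rfl
      simp at hw
      linarith
    set t : ℝ := ‖w‖ ^ 2 / ε ^ 2 with ht
    -- the real cutoff factor
    have hv : HasFDerivAt (fun x : ℂ => theta (‖x‖ ^ 2 / ε ^ 2))
        (thetaD t • ((1 / ε ^ 2) • (2 • innerSL ℝ w))) w := by
      have h1 : HasFDerivAt (fun x : ℂ => ‖x‖ ^ 2 / ε ^ 2) ((1 / ε ^ 2) • (2 • innerSL ℝ w)) w := by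
        have := ((hasStrictFDerivAt_norm_sq w).hasFDerivAt).const_smul (1 / ε ^ 2)
        refine this.congr_of_eventuallyEq (Eventually.of_forall fun x => ?_)
        simp [div_eq_inv_mul]
      exact HasDerivAt.comp_hasFDerivAt (h₂ := theta) w (hasDerivAt_theta t) h1
    have hu : HasFDerivAt (fun x : ℂ => ((theta (‖x‖ ^ 2 / ε ^ 2) : ℝ) : ℂ))
        (Complex.ofRealCLM.comp (thetaD t • ((1 / ε ^ 2) • (2 • innerSL ℝ w)))) w :=
      Complex.ofRealCLM.hasFDerivAt.comp w hv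
    have hF : DifferentiableAt ℂ (fun x : ℂ => (2 * (Real.pi : ℂ) * x)⁻¹) w := by
      apply DifferentiableAt.inv (by fun_prop)
      simp [hw0, Real.pi_ne_zero]
    have hker : cauchyKer ε = fun x => ((theta (‖x‖ ^ 2 / ε ^ 2) : ℝ) : ℂ) * (2 * (Real.pi : ℂ) * x)⁻¹ := by
      funext x
      simp [cauchyKer, div_eq_mul_inv]
    rw [hker, dbar_mul hu.differentiableAt (hF.restrictScalars ℝ),
      dbar_eq_zero_of_differentiableAt hF]
    unfold dbar
    rw [hu.fderiv]
    simp only [ContinuousLinearMap.comp_apply, smul_apply, innerSL_apply_apply, Complex.inner,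
      Complex.ofRealCLM_apply, moll, smul_eq_mul, nsmul_eq_mul]
    simp only [← ht]
    have hre : ((1 : ℂ) * (starRingEnd ℂ) w).re = w.re := by simp
    have him : (I * (starRingEnd ℂ) w).re = w.im := by simp
    have hπ : (Real.pi : ℂ) ≠ 0 := by exact_mod_cast Real.pi_ne_zero
    have hε' : (ε : ℂ) ≠ 0 := by exact_mod_cast hε.ne'
    rw [hre, him]
    push_cast
    have key : (thetaD t : ℂ) * (1 / (ε : ℂ) ^ 2 * (2 * (w.re : ℂ)))
        + I * ((thetaD t : ℂ) * (1 / (ε : ℂ) ^ 2 * (2 * (w.im : ℂ))))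
        = (thetaD t : ℂ) * (2 / (ε : ℂ) ^ 2) * w := by
      conv_rhs => rw [← Complex.re_add_im w]
      ring
    rw [key, mul_zero, add_zero]
    field_simp

theorem integral_thetaD_radial {ε : ℝ} (hε : 0 < ε) :
    ∫ y in Ioi (0 : ℝ), thetaD (y ^ 2 / ε ^ 2) * (2 * y / ε ^ 2) = 1 := by
  have hderiv : ∀ x ∈ Ici (0 : ℝ), HasDerivAt (fun y : ℝ => theta (y ^ 2 / ε ^ 2))
      (thetaD (x ^ 2 / ε ^ 2) * (2 * x / ε ^ 2)) x := by
    intro x _
    have h1 : HasDerivAt (fun y : ℝ => y ^ 2 / ε ^ 2) (2 * x / ε ^ 2) x := by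
      simpa using ((hasDerivAt_pow 2 x).div_const (ε ^ 2))
    exact HasDerivAt.comp (h₂ := theta) x (hasDerivAt_theta _) h1
  have hcont : Continuous (fun y : ℝ => thetaD (y ^ 2 / ε ^ 2) * (2 * y / ε ^ 2)) :=
    (thetaD_continuous.comp (by fun_prop)).mul (by fun_prop)
  have hcs : HasCompactSupport (fun y : ℝ => thetaD (y ^ 2 / ε ^ 2) * (2 * y / ε ^ 2)) := by
    refine HasCompactSupport.intro (isCompact_Icc (a := -ε) (b := ε)) fun x hx => ?_
    have hx' : ε < |x| := by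
      by_contra h
      rw [not_lt, abs_le] at h
      exact hx h
    have h1 : 1 < x ^ 2 / ε ^ 2 := by
      rw [lt_div_iff₀ (by positivity), one_mul]
      have := sq_lt_sq' (by linarith [abs_nonneg x]) hx'
      rwa [sq_abs] at this
    rw [thetaD_eq_zero_of_gt h1, zero_mul]
  have hlim : Tendsto (fun y : ℝ => theta (y ^ 2 / ε ^ 2)) atTop (𝓝 1) := by
    apply tendsto_const_nhds.congr'
    filter_upwards [eventually_ge_atTop ε] with y hy
    rw [theta_eq_one]
    rw [le_div_iff₀ (by positivity), one_mul]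
    exact pow_le_pow_left₀ hε.le hy 2
  have := integral_Ioi_of_hasDerivAt_of_tendsto' hderiv
    (hcont.integrable_of_hasCompactSupport hcs).integrableOn hlim
  rw [this, theta_eq_zero (by simp)]
  simp

theorem integral_moll {ε : ℝ} (hε : 0 < ε) : ∫ w : ℂ, moll ε w = 1 := by
  have h1 : (fun w : ℂ => moll ε w)
      = fun w : ℂ => (fun y : ℝ => thetaD (y ^ 2 / ε ^ 2) / (Real.pi * ε ^ 2)) ‖w‖ := rfl
  have h0 := integral_fun_norm_addHaar (volume : Measure ℂ)
    (fun y : ℝ => thetaD (y ^ 2 / ε ^ 2) / (Real.pi * ε ^ 2))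
  rw [h1, h0]
  have hvol : (volume : Measure ℂ).real (ball (0 : ℂ) 1) = Real.pi := by
    simp [Measure.real, Complex.volume_ball]
  rw [Complex.finrank_real_complex, hvol]
  have h2 : ∀ y : ℝ, y ^ (2 - 1) • (thetaD (y ^ 2 / ε ^ 2) / (Real.pi * ε ^ 2))
      = (1 / (2 * Real.pi)) * (thetaD (y ^ 2 / ε ^ 2) * (2 * y / ε ^ 2)) := by
    intro y
    have hπ := Real.pi_ne_zero
    simp only [smul_eq_mul]
    field_simp
    ring
  simp_rw [h2]
  rw [integral_const_mul, integral_thetaD_radial hε]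
  have hπ := Real.pi_ne_zero
  simp only [nsmul_eq_mul, smul_eq_mul]
  field_simp
  norm_num

theorem moll_sub_eq_zero {ε : ℝ} (hε : 0 < ε) {z w : ℂ} (hw : w ∉ closedBall z ε) :
    moll ε (z - w) = 0 := by
  apply moll_eq_zero_of_lt hε
  rw [mem_closedBall, not_le, dist_comm, dist_eq_norm] at hw
  exact hw

theorem integral_moll_sub {ε : ℝ} (hε : 0 < ε) (z : ℂ) : ∫ w : ℂ, moll ε (z - w) = 1 := by
  rw [integral_sub_left_eq_self (fun w => moll ε w) volume z]
  exact integral_moll hε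

theorem hasCompactSupport_moll_sub {ε : ℝ} (hε : 0 < ε) (z : ℂ) :
    HasCompactSupport (fun w : ℂ => moll ε (z - w)) :=
  HasCompactSupport.intro (isCompact_closedBall z ε) fun _ hw => moll_sub_eq_zero hε hw

theorem continuous_moll_sub {ε : ℝ} (z : ℂ) : Continuous (fun w : ℂ => moll ε (z - w)) :=
  continuous_moll.comp (by fun_prop)

theorem exists_moll_bound {ε : ℝ} (hε : 0 < ε) : ∃ M : ℝ, 0 ≤ M ∧ ∀ w, moll ε w ≤ M := by
  have hcs : HasCompactSupport (moll ε) := by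
    have := hasCompactSupport_moll_sub hε 0
    refine HasCompactSupport.intro (isCompact_closedBall (0 : ℂ) ε) fun w hw => ?_
    apply moll_eq_zero_of_lt hε
    rw [mem_closedBall, not_le, dist_zero_right] at hw
    exact hw
  obtain ⟨C, hC⟩ := continuous_moll.bounded_above_of_compact_support hcs
  refine ⟨max C 0, le_max_right _ _, fun w => ?_⟩
  have := hC w
  rw [Real.norm_eq_abs] at this
  exact le_trans (le_abs_self _) (le_trans this (le_max_left _ _))

/-! ### Integrability helper -/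

theorem continuous_mul_of_support {Ω K : Set ℂ} (hΩ : IsOpen Ω) {g k : ℂ → ℂ}
    (hg : ContinuousOn g Ω) (hk : Continuous k) (hK : IsCompact K) (hKΩ : K ⊆ Ω)
    (hsupp : ∀ w, w ∉ K → k w = 0) :
    Continuous (fun w => g w * k w) ∧ HasCompactSupport (fun w => g w * k w) := by
  have h0 : ∀ w, w ∉ K → g w * k w = 0 := fun w hw => by rw [hsupp w hw, mul_zero]
  have hts : tsupport (fun w => g w * k w) ⊆ K := by
    apply closure_minimal _ hK.isClosed
    intro w hw
    by_contra hwK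
    exact hw (h0 w hwK)
  exact ⟨ContinuousOn.continuous_of_tsupport_subset (hg.mul hk.continuousOn) hΩ
    (hts.trans hKΩ), HasCompactSupport.intro hK h0⟩

theorem integrable_mul_of_support {Ω K : Set ℂ} (hΩ : IsOpen Ω) {g k : ℂ → ℂ}
    (hg : ContinuousOn g Ω) (hk : Continuous k) (hK : IsCompact K) (hKΩ : K ⊆ Ω)
    (hsupp : ∀ w, w ∉ K → k w = 0) : Integrable (fun w => g w * k w) := by
  obtain ⟨h1, h2⟩ := continuous_mul_of_support hΩ hg hk hK hKΩ hsupp
  exact h1.integrable_of_hasCompactSupport h2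

/-! ### Mollification -/

/-- Mollification of `g` at scale `ε`. -/
noncomputable def conv (g : ℂ → ℂ) (ε : ℝ) (z : ℂ) : ℂ := ∫ w, g w * (moll ε (z - w) : ℂ)

theorem conv_integrable {Ω : Set ℂ} (hΩ : IsOpen Ω) {g : ℂ → ℂ} (hg : ContinuousOn g Ω)
    {ε : ℝ} (hε : 0 < ε) {z : ℂ} (hz : closedBall z ε ⊆ Ω) :
    Integrable (fun w => g w * (moll ε (z - w) : ℂ)) :=
  integrable_mul_of_support hΩ hg (Complex.continuous_ofReal.comp (continuous_moll_sub z))
    (isCompact_closedBall z ε) hz (fun w hw => by simp [moll_sub_eq_zero hε hw])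

/-- Sup bound for the difference of two mollifications by the `L¹` distance. -/
theorem conv_sub_norm_le {Ω : Set ℂ} (hΩ : IsOpen Ω) {g₁ g₂ : ℂ → ℂ} (hg₁ : ContinuousOn g₁ Ω)
    (hg₂ : ContinuousOn g₂ Ω) {ε : ℝ} (hε : 0 < ε) {z : ℂ} {K : Set ℂ} (hK : IsCompact K)
    (hKΩ : K ⊆ Ω) (hz : closedBall z ε ⊆ K) {M : ℝ} (hM : ∀ w, moll ε w ≤ M) :
    ‖conv g₁ ε z - conv g₂ ε z‖ ≤ M * ∫ w in K, ‖g₁ w - g₂ w‖ := by
  have hzΩ := hz.trans hKΩ
  unfold conv
  rw [← integral_sub (conv_integrable hΩ hg₁ hε hzΩ) (conv_integrable hΩ hg₂ hε hzΩ)]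
  have h0 : ∀ w, w ∉ K → g₁ w * (moll ε (z - w) : ℂ) - g₂ w * (moll ε (z - w) : ℂ) = 0 := by
    intro w hw
    have : w ∉ closedBall z ε := fun h => hw (hz h)
    simp [moll_sub_eq_zero hε this]
  rw [← setIntegral_eq_integral_of_forall_compl_eq_zero h0, ← integral_const_mul]
  have hint : IntegrableOn (fun w => M * ‖g₁ w - g₂ w‖) K :=
    ((hg₁.mono hKΩ).sub (hg₂.mono hKΩ)).norm.integrableOn_compact hK |>.const_mul M
  refine norm_integral_le_of_norm_le hint ?_
  refine (ae_restrict_iff' hK.measurableSet).2 (Eventually.of_forall fun w _ => ?_)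
  rw [← sub_mul, norm_mul, Complex.norm_real, Real.norm_eq_abs, abs_of_nonneg (moll_nonneg _),
    mul_comm]
  exact mul_le_mul_of_nonneg_right (hM _) (norm_nonneg _)

/-- Approximate identity: mollifications converge uniformly on compacts. -/
theorem conv_approx {Ω : Set ℂ} (hΩ : IsOpen Ω) {g : ℂ → ℂ} (hg : ContinuousOn g Ω)
    {K : Set ℂ} (hK : IsCompact K) {d : ℝ} (hd : 0 < d) (hdK : cthickening d K ⊆ Ω)
    {η : ℝ} (hη : 0 < η) :
    ∃ ε₀, 0 < ε₀ ∧ ε₀ ≤ d ∧ ∀ ε, 0 < ε → ε ≤ ε₀ → ∀ z ∈ K, ‖conv g ε z - g z‖ ≤ η := by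
  have hK' : IsCompact (cthickening d K) := hK.cthickening
  have huc := hK'.uniformContinuousOn_of_continuous (hg.mono hdK)
  rw [Metric.uniformContinuousOn_iff_le] at huc
  obtain ⟨δ, hδ, hδ'⟩ := huc η hη
  refine ⟨min d δ, lt_min hd hδ, min_le_left _ _, fun ε hε hε' z hz => ?_⟩
  have hzK' : z ∈ cthickening d K := self_subset_cthickening K hz
  have hball : closedBall z ε ⊆ cthickening d K :=
    (closedBall_subset_cthickening hz ε).trans (cthickening_mono (hε'.trans (min_le_left _ _)) K)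
  have hzΩ : closedBall z ε ⊆ Ω := hball.trans hdK
  have hint := conv_integrable hΩ hg hε hzΩ
  have hmint : Integrable (fun w : ℂ => moll ε (z - w)) :=
    (continuous_moll_sub z).integrable_of_hasCompactSupport (hasCompactSupport_moll_sub hε z)
  have hint2 : Integrable (fun w => g z * (moll ε (z - w) : ℂ)) := hmint.ofReal.const_mul (g z)
  have h2 : ∫ w, g z * (moll ε (z - w) : ℂ) = g z := by
    rw [integral_const_mul, integral_complex_ofReal, integral_moll_sub hε]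
    simp
  have h1 : conv g ε z - g z = ∫ w, (g w - g z) * (moll ε (z - w) : ℂ) := by
    calc conv g ε z - g z
        = (∫ w, g w * (moll ε (z - w) : ℂ)) - ∫ w, g z * (moll ε (z - w) : ℂ) := by
          rw [h2]; rfl
      _ = ∫ w, (g w * (moll ε (z - w) : ℂ) - g z * (moll ε (z - w) : ℂ)) :=
          (integral_sub hint hint2).symm
      _ = ∫ w, (g w - g z) * (moll ε (z - w) : ℂ) := by
          congr 1; funext w; ring
  rw [h1]
  have hb : ‖∫ w, (g w - g z) * (moll ε (z - w) : ℂ)‖ ≤ ∫ w, η * moll ε (z - w) := by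
    refine norm_integral_le_of_norm_le (hmint.const_mul η) (Eventually.of_forall fun w => ?_)
    rw [norm_mul, Complex.norm_real, Real.norm_eq_abs, abs_of_nonneg (moll_nonneg _)]
    by_cases hw : w ∈ closedBall z ε
    · have hd' : dist w z ≤ δ := (mem_closedBall.mp hw).trans (hε'.trans (min_le_right _ _))
      have := hδ' w (hball hw) z hzK' hd'
      rw [dist_eq_norm] at this
      exact mul_le_mul_of_nonneg_right this (moll_nonneg _)
    · rw [moll_sub_eq_zero hε hw]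
      simp
  rw [integral_const_mul, integral_moll_sub hε, mul_one] at hb
  exact hb

/-- `L¹` bound from an `L²` bound on a compact set (AM-GM form). -/
theorem setIntegral_norm_le_of_sq {K : Set ℂ} (hK : IsCompact K) {g : ℂ → ℂ}
    (hg : ContinuousOn g K) {t : ℝ} (ht : 0 < t) :
    ∫ w in K, ‖g w‖ ≤ (t * volume.real K + (∫ w in K, ‖g w‖ ^ 2) / t) / 2 := by
  have h1 : IntegrableOn (fun w => ‖g w‖) K := hg.norm.integrableOn_compact hK
  have h2 : IntegrableOn (fun w => ‖g w‖ ^ 2) K := (hg.norm.pow 2).integrableOn_compact hK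
  have hc : IntegrableOn (fun _ : ℂ => t) K := integrableOn_const hK.measure_lt_top.ne
  have h3 : ∫ w in K, (t + ‖g w‖ ^ 2 / t) / 2
      = (t * volume.real K + (∫ w in K, ‖g w‖ ^ 2) / t) / 2 := by
    rw [integral_div, integral_add hc (h2.div_const t), setIntegral_const, integral_div]
    simp [mul_comm]
  rw [← h3]
  refine setIntegral_mono_on h1 ((hc.add (h2.div_const t)).div_const 2) hK.measurableSet
    fun w _ => ?_
  rw [le_div_iff₀ (by norm_num : (0 : ℝ) < 2), ← sub_nonneg]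
  have : t + ‖g w‖ ^ 2 / t - ‖g w‖ * 2 = (‖g w‖ - t) ^ 2 / t := by
    field_simp
    ring
  rw [this]
  positivity

theorem l1_cauchy_of_l2_cauchy {Ω : Set ℂ} {a : ℕ → ℂ → ℂ} (ha : ∀ n, ContinuousOn (a n) Ω)
    (hC : ∀ K, IsCompact K → K ⊆ Ω → ∀ η > 0, ∃ n₀, ∀ n ≥ n₀, ∀ m ≥ n₀,
      ∫ z in K, ‖a n z - a m z‖ ^ 2 ≤ η)
    {K : Set ℂ} (hK : IsCompact K) (hKΩ : K ⊆ Ω) {η : ℝ} (hη : 0 < η) :
    ∃ n₀, ∀ n ≥ n₀, ∀ m ≥ n₀, ∫ z in K, ‖a n z - a m z‖ ≤ η := by
  set V : ℝ := volume.real K with hV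
  have hV0 : 0 ≤ V := measureReal_nonneg
  set t : ℝ := η / (V + 1) with ht
  have ht0 : 0 < t := by positivity
  obtain ⟨n₀, hn₀⟩ := hC K hK hKΩ (η * t) (by positivity)
  refine ⟨n₀, fun n hn m hm => ?_⟩
  have h1 := setIntegral_norm_le_of_sq hK (((ha n).mono hKΩ).sub ((ha m).mono hKΩ)) ht0
  have h2 := hn₀ n hn m hm
  simp only [Pi.sub_apply] at h1
  have h3 : (∫ w in K, ‖a n w - a m w‖ ^ 2) / t ≤ η := by
    rw [div_le_iff₀ ht0]; exact h2
  have h4 : t * V ≤ η := by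
    rw [ht, div_mul_eq_mul_div, div_le_iff₀ (by positivity)]
    nlinarith
  linarith

/-- Jensen's inequality for the mollification. -/
theorem norm_conv_sq_le {g : ℂ → ℂ} (hg : Continuous g) {ε : ℝ} (hε : 0 < ε) (z : ℂ) :
    ‖conv g ε z‖ ^ 2 ≤ ∫ w, ‖g w‖ ^ 2 * moll ε (z - w) := by
  have hρc := continuous_moll_sub (ε := ε) z
  have hρs := hasCompactSupport_moll_sub hε z
  have hρi : Integrable (fun w : ℂ => moll ε (z - w)) := hρc.integrable_of_hasCompactSupport hρs
  have hi1 : Integrable (fun w => ‖g w‖ * moll ε (z - w)) :=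
    (hg.norm.mul hρc).integrable_of_hasCompactSupport hρs.mul_left
  have hi2 : Integrable (fun w => ‖g w‖ ^ 2 * moll ε (z - w)) :=
    ((hg.norm.pow 2).mul hρc).integrable_of_hasCompactSupport hρs.mul_left
  set m : ℝ := ∫ w, ‖g w‖ * moll ε (z - w) with hm
  have h1 : ‖conv g ε z‖ ≤ m := by
    unfold conv
    refine norm_integral_le_of_norm_le hi1 (Eventually.of_forall fun w => ?_)
    rw [norm_mul, Complex.norm_real, Real.norm_eq_abs, abs_of_nonneg (moll_nonneg _)]
  have h2 : 0 ≤ ∫ w, (‖g w‖ - m) ^ 2 * moll ε (z - w) :=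
    integral_nonneg fun w => mul_nonneg (sq_nonneg _) (moll_nonneg _)
  have h3 : ∫ w, (‖g w‖ - m) ^ 2 * moll ε (z - w)
      = (∫ w, ‖g w‖ ^ 2 * moll ε (z - w)) - m ^ 2 := by
    have : ∀ w, (‖g w‖ - m) ^ 2 * moll ε (z - w)
        = ‖g w‖ ^ 2 * moll ε (z - w) - 2 * m * (‖g w‖ * moll ε (z - w))
          + m ^ 2 * moll ε (z - w) := fun w => by ring
    simp_rw [this]
    rw [integral_add (f := fun w => ‖g w‖ ^ 2 * moll ε (z - w)
          - 2 * m * (‖g w‖ * moll ε (z - w))) (g := fun w => m ^ 2 * moll ε (z - w))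
        (hi2.sub (hi1.const_mul _)) (hρi.const_mul _),
      integral_sub (f := fun w => ‖g w‖ ^ 2 * moll ε (z - w))
        (g := fun w => 2 * m * (‖g w‖ * moll ε (z - w))) hi2 (hi1.const_mul _),
      integral_const_mul, integral_const_mul, integral_moll_sub hε, ← hm]
    ring
  have h4 : m ^ 2 ≤ ∫ w, ‖g w‖ ^ 2 * moll ε (z - w) := by linarith
  exact (pow_le_pow_left₀ (norm_nonneg _) h1 2).trans h4

/-- Fubini part of Young's inequality `‖g ⋆ ρ_ε‖₂ ≤ ‖g‖₂` for continuous compactly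
supported `g`: the majorant of `norm_conv_sq_le` is integrable with integral `∫ ‖g‖²`. -/
theorem young_aux {g : ℂ → ℂ} (hg : Continuous g) (hgc : HasCompactSupport g)
    {ε : ℝ} (hε : 0 < ε) :
    Integrable (fun z => ∫ w, ‖g w‖ ^ 2 * moll ε (z - w)) ∧
      ∫ z, ∫ w, ‖g w‖ ^ 2 * moll ε (z - w) = ∫ w, ‖g w‖ ^ 2 := by
  set F : ℂ → ℂ → ℝ := fun z w => ‖g w‖ ^ 2 * moll ε (z - w) with hF
  have hFc : Continuous (Function.uncurry F) := by
    apply Continuous.mul
    · exact (hg.norm.pow 2).comp continuous_snd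
    · exact continuous_moll.comp (continuous_fst.sub continuous_snd)
  obtain ⟨R, hR⟩ := hgc.isCompact.isBounded.subset_closedBall (0 : ℂ)
  have hFs : HasCompactSupport (Function.uncurry F) := by
    refine HasCompactSupport.intro
      ((isCompact_closedBall (0 : ℂ) (R + ε)).prod (isCompact_closedBall (0 : ℂ) R)) ?_
    rintro ⟨z, w⟩ hzw
    simp only [Function.uncurry, hF]
    by_cases hw : w ∈ closedBall (0 : ℂ) R
    · have hz : z ∉ closedBall (0 : ℂ) (R + ε) := fun hz => hzw ⟨hz, hw⟩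
      have : w ∉ closedBall z ε := by
        intro h
        apply hz
        rw [mem_closedBall] at *
        calc dist z 0 ≤ dist z w + dist w 0 := dist_triangle _ _ _
          _ ≤ ε + R := add_le_add (by rw [dist_comm]; exact h) hw
          _ = R + ε := add_comm _ _
      rw [moll_sub_eq_zero hε this, mul_zero]
    · have : g w = 0 := by
        by_contra h
        exact hw (hR (subset_tsupport _ h))
      simp [this]
  have hFi : Integrable (Function.uncurry F) ((volume : Measure ℂ).prod (volume : Measure ℂ)) :=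
    hFc.integrable_of_hasCompactSupport hFs
  have hswap := integral_integral_swap hFi
  have hinner : ∀ w, ∫ z, F z w = ‖g w‖ ^ 2 := by
    intro w
    simp only [hF]
    rw [integral_const_mul, integral_sub_right_eq_self (fun z => moll ε z) w,
      integral_moll hε, mul_one]
  refine ⟨hFi.integral_prod_left, ?_⟩
  calc ∫ z, ∫ w, F z w = ∫ w, ∫ z, F z w := hswap
    _ = ∫ w, ‖g w‖ ^ 2 := by simp_rw [hinner]

/-! ### The local holomorphic limit -/

theorem local_limit {Ω : Set ℂ} (hΩ : IsOpen Ω) (a : ℕ → ℂ → ℂ) (ha : ∀ n, ContinuousOn (a n) Ω)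
    (hC1 : ∀ K, IsCompact K → K ⊆ Ω → ∀ η > 0, ∃ n₀, ∀ n ≥ n₀, ∀ m ≥ n₀,
      ∫ z in K, ‖a n z - a m z‖ ≤ η)
    (hW : ∀ ψ : ℂ → ℂ, ContDiff ℝ ∞ ψ → HasCompactSupport ψ → tsupport ψ ⊆ Ω →
      Tendsto (fun n => ∫ z, a n z * dbar ψ z) atTop (𝓝 0))
    {z₀ : ℂ} {R : ℝ} (hR : 0 < R) (hRΩ : closedBall z₀ R ⊆ Ω) :
    ∃ c : ℂ → ℂ, DifferentiableOn ℂ c (ball z₀ (R / 4)) ∧
      ∀ ε, 0 < ε → ε ≤ R / 4 → ∀ z ∈ ball z₀ (R / 4),
        Tendsto (fun n => conv (a n) ε z) atTop (𝓝 (c z)) := by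
  -- the cutoff
  let χ : ContDiffBump z₀ := ⟨R / 2, R, by positivity, by linarith⟩
  have hχin : χ.rIn = R / 2 := rfl
  have hχout : χ.rOut = R := rfl
  set χc : ℂ → ℂ := fun w => ((χ w : ℝ) : ℂ) with hχc
  have hχs : ContDiff ℝ ∞ χc := Complex.ofRealCLM.contDiff.comp χ.contDiff
  set D : ℂ → ℂ := dbar χc with hD
  have hDc : Continuous D := by
    have := hχs.continuous_fderiv (by simp)
    exact (this.clm_apply continuous_const).add
      (continuous_const.mul (this.clm_apply continuous_const))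
  have hD1 : ∀ w ∈ ball z₀ (R / 2), D w = 0 := by
    intro w hw
    apply dbar_eq_zero_of_eventuallyEq_const (c := 1)
    filter_upwards [isOpen_ball.mem_nhds hw] with x hx
    have : χ x = 1 := χ.one_of_mem_closedBall (by rw [hχin]; exact ball_subset_closedBall hx)
    simp [hχc, this]
  have hD2 : ∀ w, w ∉ closedBall z₀ R → D w = 0 := by
    intro w hw
    apply dbar_eq_zero_of_eventuallyEq_const (c := 0)
    have hopen : IsOpen (closedBall z₀ R)ᶜ := isClosed_closedBall.isOpen_compl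
    filter_upwards [hopen.mem_nhds hw] with x hx
    have hx' : R ≤ dist x z₀ := by
      have : ¬ dist x z₀ ≤ R := hx
      linarith
    have : χ x = 0 := χ.zero_of_le_dist (by rw [hχout]; exact hx')
    simp [hχc, this]
  have hK₀ : IsCompact (closedBall z₀ R) := isCompact_closedBall z₀ R
  set ε₁ : ℝ := R / 4 with hε₁def
  have hε₁ : 0 < ε₁ := by positivity
  -- geometry
  have G1 : ∀ z ∈ ball z₀ (R / 4), ∀ w, D w ≠ 0 → R / 4 ≤ ‖z - w‖ := by
    intro z hz w hw
    have h1 : R / 2 ≤ dist w z₀ := by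
      by_contra h
      exact hw (hD1 w (by rw [mem_ball]; linarith))
    have h2 : dist z z₀ < R / 4 := hz
    have h3 : dist w z₀ ≤ dist w z + dist z z₀ := dist_triangle _ _ _
    rw [← dist_eq_norm, dist_comm z w]
    linarith
  have G2 : ∀ z ∈ ball z₀ (R / 4), ∀ ε, ε ≤ R / 4 → ∀ w ∈ closedBall z ε,
      w ∈ closedBall z₀ (R / 2) := by
    intro z hz ε hε w hw
    have h1 : dist w z ≤ ε := hw
    have h2 : dist z z₀ < R / 4 := hz
    have h3 : dist w z₀ ≤ dist w z + dist z z₀ := dist_triangle _ _ _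
    rw [mem_closedBall]
    linarith
  -- the Cauchy transforms
  set cn : ℕ → ℂ → ℂ := fun n z => ∫ w, a n w * (D w * cauchyKer ε₁ (z - w)) with hcn
  have hkc : ∀ z, Continuous (fun w => D w * cauchyKer ε₁ (z - w)) := fun z =>
    hDc.mul ((cauchyKer_contDiff hε₁).continuous.comp (continuous_const.sub continuous_id))
  have hk0 : ∀ z w, w ∉ closedBall z₀ R → D w * cauchyKer ε₁ (z - w) = 0 := fun z w hw => by
    rw [hD2 w hw, zero_mul]
  have hcn_int : ∀ n z, Integrable (fun w => a n w * (D w * cauchyKer ε₁ (z - w))) := fun n z =>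
    integrable_mul_of_support hΩ (ha n) (hkc z) hK₀ hRΩ (hk0 z)
  -- (a) comparison with the mollification
  have hstepa : ∀ ε, 0 < ε → ε ≤ R / 4 → ∀ z ∈ ball z₀ (R / 4),
      Tendsto (fun n => cn n z - conv (a n) ε z) atTop (𝓝 0) := by
    intro ε hε hεR z hz
    set ψ : ℂ → ℂ := fun w => χc w * cauchyKer ε (z - w) with hψ
    have hkd : ∀ w, DifferentiableAt ℝ (fun x => cauchyKer ε (z - x)) w := fun w =>
      ((cauchyKer_contDiff hε).differentiable (by simp) (z - w)).comp w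
        (differentiableAt_id.const_sub z)
    have hψs : ContDiff ℝ ∞ ψ :=
      hχs.mul ((cauchyKer_contDiff hε).comp (contDiff_const.sub contDiff_id))
    have hψ0 : ∀ w, w ∉ closedBall z₀ R → ψ w = 0 := by
      intro w hw
      have hx' : R ≤ dist w z₀ := by
        have : ¬ dist w z₀ ≤ R := hw
        linarith
      have : χ w = 0 := χ.zero_of_le_dist (by rw [hχout]; exact hx')
      simp [hψ, hχc, this]
    have hψc : HasCompactSupport ψ := HasCompactSupport.intro hK₀ hψ0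
    have hψt : tsupport ψ ⊆ Ω := by
      refine (closure_minimal ?_ hK₀.isClosed).trans hRΩ
      intro w hw
      by_contra hwK
      exact hw (hψ0 w hwK)
    have hdbar : ∀ w, dbar ψ w = D w * cauchyKer ε (z - w) - χc w * (moll ε (z - w) : ℂ) := by
      intro w
      rw [hψ, dbar_mul (hχs.differentiable (by simp) w) (hkd w),
        dbar_comp_sub_left z w ((cauchyKer_contDiff hε).differentiable (by simp) (z - w)),
        dbar_cauchyKer hε]
      ring
    have heq : ∀ n w, a n w * dbar ψ w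
        = a n w * (D w * cauchyKer ε₁ (z - w)) - a n w * (moll ε (z - w) : ℂ) := by
      intro n w
      rw [hdbar]
      have e1 : D w * cauchyKer ε (z - w) = D w * cauchyKer ε₁ (z - w) := by
        by_cases hw : D w = 0
        · rw [hw, zero_mul, zero_mul]
        · have := G1 z hz w hw
          rw [cauchyKer_eq hε (hεR.trans this), cauchyKer_eq hε₁ this]
      have e2 : χc w * (moll ε (z - w) : ℂ) = (moll ε (z - w) : ℂ) := by
        by_cases hw : w ∈ closedBall z ε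
        · have : χ w = 1 :=
            χ.one_of_mem_closedBall (by rw [hχin]; exact G2 z hz ε hεR w hw)
          simp [hχc, this]
        · simp [moll_sub_eq_zero hε hw]
      rw [e1, e2]
      ring
    have hzΩ : closedBall z ε ⊆ Ω := fun w hw =>
      hRΩ (closedBall_subset_closedBall (by linarith) (G2 z hz ε hεR w hw))
    have hint : ∀ n, ∫ w, a n w * dbar ψ w = cn n z - conv (a n) ε z := by
      intro n
      simp_rw [heq n]
      rw [integral_sub (hcn_int n z) (conv_integrable hΩ (ha n) hε hzΩ)]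
      rfl
    have := hW ψ hψs hψc hψt
    simp_rw [hint] at this
    exact this
  -- (b) holomorphy of the Cauchy transforms
  have hcn_diff : ∀ n, DifferentiableOn ℂ (cn n) (ball z₀ (R / 4)) := by
    intro n z₁ hz₁
    apply DifferentiableAt.differentiableWithinAt
    obtain ⟨hAc, hAs⟩ := continuous_mul_of_support hΩ (ha n) hDc hK₀ hRΩ hD2
    set A : ℂ → ℂ := fun w => a n w * D w with hA
    set F : ℂ → ℂ → ℂ := fun z w => A w * cauchyKer ε₁ (z - w) with hF
    set F' : ℂ → ℂ → ℂ := fun z w =>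
      A w * (-(2 * (Real.pi : ℂ)) / (2 * (Real.pi : ℂ) * (z - w)) ^ 2) with hF'
    have hcnF : cn n = fun z => ∫ w, F z w := by
      funext z
      simp only [hcn, hF, hA, mul_assoc]
    have hkc' : ∀ z, Continuous (fun w => cauchyKer ε₁ (z - w)) := fun z =>
      (cauchyKer_contDiff hε₁).continuous.comp (continuous_const.sub continuous_id)
    have hπ : (Real.pi : ℂ) ≠ 0 := by exact_mod_cast Real.pi_ne_zero
    have key := hasDerivAt_integral_of_dominated_loc_of_deriv_le (μ := (volume : Measure ℂ))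
      (F := F) (F' := F') (x₀ := z₁) (s := ball z₀ (R / 4))
      (bound := fun w => ‖A w‖ * (16 / R ^ 2)) (isOpen_ball.mem_nhds hz₁)
      (Eventually.of_forall fun z => (hAc.mul (hkc' z)).aestronglyMeasurable)
      ((hAc.mul (hkc' z₁)).integrable_of_hasCompactSupport hAs.mul_right)
      ((hAc.measurable.mul (by fun_prop)).aestronglyMeasurable)
      ?_ ((hAc.norm.integrable_of_hasCompactSupport hAs.norm).mul_const _) ?_
    · rw [hcnF]
      exact key.2.differentiableAt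
    · refine Eventually.of_forall fun w z hz => ?_
      by_cases hw : D w = 0
      · have hA0 : A w = 0 := by simp [hA, hw]
        simp only [hF', hA0, zero_mul, norm_zero]
        positivity
      · have hzw := G1 z hz w hw
        have hzw0 : z - w ≠ 0 := by
          intro h
          rw [h, norm_zero] at hzw
          linarith
        have e : -(2 * (Real.pi : ℂ)) / (2 * (Real.pi : ℂ) * (z - w)) ^ 2
            = -(1 / (2 * (Real.pi : ℂ) * (z - w) ^ 2)) := by
          field_simp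
        have hn : ‖(2 : ℂ) * (Real.pi : ℂ) * (z - w) ^ 2‖ = 2 * Real.pi * ‖z - w‖ ^ 2 := by
          rw [norm_mul, norm_mul, norm_pow, Complex.norm_real, Real.norm_eq_abs,
            abs_of_pos Real.pi_pos]
          simp
        have hb : ‖-(2 * (Real.pi : ℂ)) / (2 * (Real.pi : ℂ) * (z - w)) ^ 2‖ ≤ 16 / R ^ 2 := by
          rw [e, norm_neg, norm_div, norm_one, hn,
            div_le_div_iff₀ (by positivity) (by positivity)]
          have h3 : (3 : ℝ) < Real.pi := Real.pi_gt_three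
          have h4 : (R / 4) ^ 2 ≤ ‖z - w‖ ^ 2 := pow_le_pow_left₀ (by positivity) hzw 2
          nlinarith [mul_nonneg Real.pi_pos.le (sq_nonneg ‖z - w‖)]
        simp only [hF']
        rw [norm_mul]
        exact mul_le_mul_of_nonneg_left hb (norm_nonneg _)
    · refine Eventually.of_forall fun w z hz => ?_
      by_cases hw : D w = 0
      · have hA0 : A w = 0 := by simp [hA, hw]
        simp only [hF, hF', hA0, zero_mul]
        exact hasDerivAt_const z 0
      · have hzw := G1 z hz w hw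
        have hzw0 : z - w ≠ 0 := by
          intro h
          rw [h, norm_zero] at hzw
          linarith
        have hc : HasDerivAt (fun y : ℂ => 2 * (Real.pi : ℂ) * (y - w)) (2 * (Real.pi : ℂ)) z := by
          simpa using ((hasDerivAt_id z).sub_const w).const_mul (2 * (Real.pi : ℂ))
        have h1 : HasDerivAt (fun y : ℂ => (2 * (Real.pi : ℂ) * (y - w))⁻¹)
            (-(2 * (Real.pi : ℂ)) / (2 * (Real.pi : ℂ) * (z - w)) ^ 2) z :=
          hc.inv (by simp [hπ, hzw0])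
        have h2 : (fun y => cauchyKer ε₁ (y - w))
            =ᶠ[𝓝 z] fun y => (2 * (Real.pi : ℂ) * (y - w))⁻¹ := by
          filter_upwards [isOpen_ball.mem_nhds hz] with y hy
          rw [cauchyKer_eq hε₁ (G1 y hy w hw), one_div]
        exact (h1.congr_of_eventuallyEq h2).const_mul (A w)
  -- (c) the Cauchy transforms are uniformly Cauchy
  obtain ⟨CD, hCD⟩ := hK₀.exists_bound_of_continuousOn hDc.continuousOn
  have hCD0 : 0 ≤ CD := (norm_nonneg _).trans (hCD z₀ (mem_closedBall_self hR.le))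
  have hkb : ∀ z w, ‖D w * cauchyKer ε₁ (z - w)‖ ≤ CD * (1 / ε₁) := by
    intro z w
    rw [norm_mul]
    by_cases hw : w ∈ closedBall z₀ R
    · exact mul_le_mul (hCD w hw) (norm_cauchyKer_le hε₁ _) (norm_nonneg _) hCD0
    · rw [hD2 w hw, norm_zero, zero_mul]
      positivity
  have hcauchy : ∀ η > 0, ∃ n₀, ∀ n ≥ n₀, ∀ m ≥ n₀, ∀ z, ‖cn n z - cn m z‖ ≤ η := by
    intro η hη
    obtain ⟨n₀, hn₀⟩ := hC1 _ hK₀ hRΩ (η / (CD * (1 / ε₁) + 1)) (by positivity)
    refine ⟨n₀, fun n hn m hm z => ?_⟩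
    have h1 : cn n z - cn m z
        = ∫ w in closedBall z₀ R, (a n w - a m w) * (D w * cauchyKer ε₁ (z - w)) := by
      simp only [hcn]
      rw [← integral_sub (hcn_int n z) (hcn_int m z),
        setIntegral_eq_integral_of_forall_compl_eq_zero]
      · congr 1
        funext w
        ring
      · intro w hw
        rw [hk0 z w hw, mul_zero]
    rw [h1]
    have hint : IntegrableOn (fun w => ‖a n w - a m w‖ * (CD * (1 / ε₁))) (closedBall z₀ R) :=
      ((((ha n).mono hRΩ).sub ((ha m).mono hRΩ)).norm.integrableOn_compact hK₀).mul_const _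
    have h2 : ‖∫ w in closedBall z₀ R, (a n w - a m w) * (D w * cauchyKer ε₁ (z - w))‖
        ≤ ∫ w in closedBall z₀ R, ‖a n w - a m w‖ * (CD * (1 / ε₁)) := by
      refine norm_integral_le_of_norm_le hint (Eventually.of_forall fun w => ?_)
      rw [norm_mul]
      exact mul_le_mul_of_nonneg_left (hkb z w) (norm_nonneg _)
    rw [integral_mul_const] at h2
    have h3 := hn₀ n hn m hm
    have hX : 0 ≤ CD * (1 / ε₁) := by positivity
    calc _ ≤ (∫ w in closedBall z₀ R, ‖a n w - a m w‖) * (CD * (1 / ε₁)) := h2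
      _ ≤ (η / (CD * (1 / ε₁) + 1)) * (CD * (1 / ε₁)) := mul_le_mul_of_nonneg_right h3 hX
      _ ≤ η := by
        rw [div_mul_eq_mul_div, div_le_iff₀ (by positivity)]
        nlinarith
  -- (d) limits
  have hlim : ∀ z, ∃ l, Tendsto (fun n => cn n z) atTop (𝓝 l) := by
    intro z
    apply cauchySeq_tendsto_of_complete
    rw [Metric.cauchySeq_iff']
    intro η hη
    obtain ⟨n₀, hn₀⟩ := hcauchy (η / 2) (by positivity)
    refine ⟨n₀, fun n hn => ?_⟩
    rw [dist_eq_norm]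
    exact lt_of_le_of_lt (hn₀ n hn n₀ le_rfl z) (by linarith)
  choose c hc using hlim
  have hunif : TendstoUniformlyOn cn c atTop (ball z₀ (R / 4)) := by
    rw [Metric.tendstoUniformlyOn_iff]
    intro η hη
    obtain ⟨n₀, hn₀⟩ := hcauchy (η / 2) (by positivity)
    filter_upwards [eventually_ge_atTop n₀] with n hn z _
    have : ‖c z - cn n z‖ ≤ η / 2 := by
      refine le_of_tendsto (((hc z).sub tendsto_const_nhds).norm) ?_
      filter_upwards [eventually_ge_atTop n₀] with m hm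
      exact hn₀ m hm n hn z
    rw [dist_eq_norm]
    linarith
  refine ⟨c, hunif.tendstoLocallyUniformlyOn.differentiableOn (Eventually.of_forall hcn_diff)
    isOpen_ball, ?_⟩
  intro ε hε hεR z hz
  have := (hc z).sub (hstepa ε hε hεR z hz)
  simpa using this

/-! ### Weyl's lemma, sequence form -/

/-- Weyl's lemma in sequence form, with the weak hypothesis stated through `dbar`. -/
theorem exists_holomorphic_limit_dbar {Ω : Set ℂ} (hΩ : IsOpen Ω) (a : ℕ → ℂ → ℂ)
    (ha : ∀ n, ContinuousOn (a n) Ω)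
    (hC : ∀ K, IsCompact K → K ⊆ Ω → ∀ η > 0, ∃ n₀, ∀ n ≥ n₀, ∀ m ≥ n₀,
      ∫ z in K, ‖a n z - a m z‖ ^ 2 ≤ η)
    (hW : ∀ ψ : ℂ → ℂ, ContDiff ℝ ∞ ψ → HasCompactSupport ψ → tsupport ψ ⊆ Ω →
      Tendsto (fun n => ∫ z, a n z * dbar ψ z) atTop (𝓝 0)) :
    ∃ h : ℂ → ℂ, DifferentiableOn ℂ h Ω ∧ ∀ K, IsCompact K → K ⊆ Ω →
      Tendsto (fun n => ∫ z in K, ‖a n z - h z‖ ^ 2) atTop (𝓝 0) := by
  have hC1 : ∀ K, IsCompact K → K ⊆ Ω → ∀ η > 0, ∃ n₀, ∀ n ≥ n₀, ∀ m ≥ n₀,
      ∫ z in K, ‖a n z - a m z‖ ≤ η :=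
    fun K hK hKΩ η hη => l1_cauchy_of_l2_cauchy ha hC hK hKΩ hη
  have hL := fun (z₀ : ℂ) (R : ℝ) (hR : 0 < R) (hRΩ : closedBall z₀ R ⊆ Ω) =>
    local_limit hΩ a ha hC1 hW hR hRΩ
  -- radii and local limits
  have hrad : ∀ z, ∃ R : ℝ, z ∈ Ω → 0 < R ∧ closedBall z R ⊆ Ω := by
    intro z
    by_cases hz : z ∈ Ω
    · obtain ⟨R, hR, hRΩ⟩ := Metric.nhds_basis_closedBall.mem_iff.mp (hΩ.mem_nhds hz)
      exact ⟨R, fun _ => ⟨hR, hRΩ⟩⟩
    · exact ⟨1, fun h => absurd h hz⟩
  choose Rf hRf using hrad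
  have hcf : ∀ z, ∃ c : ℂ → ℂ, z ∈ Ω → DifferentiableOn ℂ c (ball z (Rf z / 4)) ∧
      ∀ ε, 0 < ε → ε ≤ Rf z / 4 → ∀ x ∈ ball z (Rf z / 4),
        Tendsto (fun n => conv (a n) ε x) atTop (𝓝 (c x)) := by
    intro z
    by_cases hz : z ∈ Ω
    · obtain ⟨c, hc⟩ := hL z (Rf z) (hRf z hz).1 (hRf z hz).2
      exact ⟨c, fun _ => hc⟩
    · exact ⟨fun _ => 0, fun h => absurd h hz⟩
  choose cf hcf' using hcf
  set h : ℂ → ℂ := fun z => cf z z with hh
  -- the pointwise limit of the mollifications is `h`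
  have hpt : ∀ z₀ R, 0 < R → closedBall z₀ R ⊆ Ω → ∀ ε, 0 < ε → ε ≤ R / 4 →
      ∀ z ∈ ball z₀ (R / 4), Tendsto (fun n => conv (a n) ε z) atTop (𝓝 (h z)) := by
    intro z₀ R hR hRΩ ε hε hεR z hz
    obtain ⟨c, -, hc⟩ := hL z₀ R hR hRΩ
    have hzΩ : z ∈ Ω := hRΩ (ball_subset_closedBall (ball_subset_ball (by linarith) hz))
    have hRz := (hRf z hzΩ).1
    have heq : c z = h z := by
      have hε'0 : 0 < min (R / 4) (Rf z / 4) := lt_min (by positivity) (by positivity)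
      have t1 := hc _ hε'0 (min_le_left _ _) z hz
      have t2 := (hcf' z hzΩ).2 _ hε'0 (min_le_right _ _) z (mem_ball_self (by positivity))
      exact tendsto_nhds_unique t1 t2
    rw [← heq]
    exact hc ε hε hεR z hz
  have hdiff : DifferentiableOn ℂ h Ω := by
    intro z₀ hz₀
    have hR := (hRf z₀ hz₀).1
    have hR4 : 0 < Rf z₀ / 4 := by positivity
    have hd := (hcf' z₀ hz₀).1
    have heq : h =ᶠ[𝓝 z₀] cf z₀ := by
      filter_upwards [isOpen_ball.mem_nhds (mem_ball_self hR4)] with z hz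
      exact tendsto_nhds_unique (hpt z₀ (Rf z₀) hR (hRf z₀ hz₀).2 _ hR4 le_rfl z hz)
        ((hcf' z₀ hz₀).2 _ hR4 le_rfl z hz)
    exact ((hd.differentiableAt (isOpen_ball.mem_nhds (mem_ball_self hR4))).congr_of_eventuallyEq
      heq).differentiableWithinAt
  refine ⟨h, hdiff, ?_⟩
  intro K hK hKΩ
  obtain ⟨d, hd, hdK⟩ := hK.exists_cthickening_subset_open hΩ hKΩ
  have hK' : IsCompact (cthickening d K) := hK.cthickening
  have hKK' : K ⊆ cthickening d K := self_subset_cthickening K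
  -- Step 1: uniform convergence of the mollifications on `K`
  have hstep1 : ∀ ε, 0 < ε → ε ≤ d / 4 → ∀ η' > 0, ∃ n₁, ∀ n ≥ n₁, ∀ z ∈ K,
      ‖conv (a n) ε z - h z‖ ≤ η' := by
    intro ε hε hεd η' hη'
    obtain ⟨M, hM0, hM⟩ := exists_moll_bound hε
    obtain ⟨n₁, hn₁⟩ := hC1 _ hK' hdK (η' / (M + 1)) (by positivity)
    refine ⟨n₁, fun n hn z hz => ?_⟩
    have hzball : closedBall z d ⊆ Ω := (closedBall_subset_cthickening hz d).trans hdK
    have hlim := hpt z d hd hzball ε hε hεd z (mem_ball_self (by positivity))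
    have hzε : closedBall z ε ⊆ cthickening d K :=
      (closedBall_subset_closedBall (by linarith)).trans (closedBall_subset_cthickening hz d)
    refine le_of_tendsto ((tendsto_const_nhds.sub hlim).norm) ?_
    filter_upwards [eventually_ge_atTop n₁] with m hm
    calc ‖conv (a n) ε z - conv (a m) ε z‖
        ≤ M * ∫ w in cthickening d K, ‖a n w - a m w‖ :=
          conv_sub_norm_le hΩ (ha n) (ha m) hε hK' hdK hzε hM
      _ ≤ M * (η' / (M + 1)) := mul_le_mul_of_nonneg_left (hn₁ n hn m hm) hM0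
      _ ≤ η' := by
          rw [mul_div_assoc', div_le_iff₀ (by positivity)]
          nlinarith
  -- Step 2: a continuous cutoff, equal to `1` near `K` and vanishing outside `cthickening d K`
  have hdisj : Disjoint (cthickening (d / 2) K) (thickening (3 * d / 4) K)ᶜ :=
    disjoint_compl_right_iff_subset.mpr
      (cthickening_subset_thickening' (by positivity) (by linarith) K)
  obtain ⟨f, hf1, hf0, -, hf01⟩ := exists_continuous_one_zero_of_isCompact
    (hK.cthickening (r := d / 2)) (isOpen_thickening.isClosed_compl) hdisj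
  have hfK' : ∀ w, w ∉ cthickening d K → ((f w : ℝ) : ℂ) = 0 := by
    intro w hw
    have hw' : w ∈ (thickening (3 * d / 4) K)ᶜ := fun hw' =>
      hw (cthickening_mono (by linarith) K (thickening_subset_cthickening _ _ hw'))
    have := hf0 hw'
    simp only [Pi.zero_apply] at this
    simp [this]
  have hfc : Continuous (fun w => ((f w : ℝ) : ℂ)) :=
    Complex.continuous_ofReal.comp f.continuous
  rw [Metric.tendsto_atTop]
  intro η hη
  set V : ℝ := volume.real K with hV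
  have hV0 : 0 ≤ V := measureReal_nonneg
  set δ : ℝ := η / 20 with hδ
  have hδ0 : 0 < δ := by positivity
  obtain ⟨n₀, hn₀⟩ := hC _ hK' hdK δ hδ0
  set η₂ : ℝ := Real.sqrt (δ / (4 * (V + 1))) with hη₂
  have hη₂0 : 0 < η₂ := Real.sqrt_pos.mpr (by positivity)
  have hη₂sq : η₂ ^ 2 = δ / (4 * (V + 1)) := Real.sq_sqrt (by positivity)
  obtain ⟨ε, hε, hεd, hεapprox⟩ := conv_approx hΩ (ha n₀) hK (d := d / 4) (by positivity)
    ((cthickening_mono (by linarith) K).trans hdK) hη₂0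
  obtain ⟨n₁, hn₁⟩ := hstep1 ε hε hεd η₂ hη₂0
  refine ⟨max n₀ n₁, fun n hn => ?_⟩
  have hnn₀ : n₀ ≤ n := (le_max_left _ _).trans hn
  have hnn₁ : n₁ ≤ n := (le_max_right _ _).trans hn
  -- the cut-off difference
  set gd : ℂ → ℂ := fun w => (a n₀ w - a n w) * ((f w : ℝ) : ℂ) with hgd
  obtain ⟨hgdc, hgds⟩ := continuous_mul_of_support hΩ ((ha n₀).sub (ha n)) hfc hK' hdK hfK'
  obtain ⟨hPint, hPeq⟩ := young_aux hgdc hgds hε
  set P : ℂ → ℝ := fun z => ∫ w, ‖gd w‖ ^ 2 * moll ε (z - w) with hP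
  have hgd_le : ∫ w, ‖gd w‖ ^ 2 ≤ δ := by
    have h0 : ∀ w, w ∉ cthickening d K → ‖gd w‖ ^ 2 = 0 := by
      intro w hw
      simp [hgd, hfK' w hw]
    rw [← setIntegral_eq_integral_of_forall_compl_eq_zero h0]
    refine le_trans (setIntegral_mono_on ((hgdc.norm.pow 2).continuousOn.integrableOn_compact hK')
      ((((ha n₀).mono hdK).sub ((ha n).mono hdK)).norm.pow 2 |>.integrableOn_compact hK')
      hK'.measurableSet fun w _ => ?_) (hn₀ n₀ le_rfl n hnn₀)
    have hfw := hf01 w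
    have : ‖gd w‖ ≤ ‖a n₀ w - a n w‖ := by
      simp only [hgd]
      rw [norm_mul, Complex.norm_real, Real.norm_eq_abs, abs_of_nonneg hfw.1]
      exact mul_le_of_le_one_right (norm_nonneg _) hfw.2
    exact pow_le_pow_left₀ (norm_nonneg _) this 2
  have hpw : ∀ z ∈ K, ‖a n z - h z‖ ^ 2
      ≤ 4 * ‖a n z - a n₀ z‖ ^ 2 + 4 * P z + 8 * η₂ ^ 2 := by
    intro z hz
    have hzε : closedBall z ε ⊆ cthickening (d / 2) K :=
      (closedBall_subset_cthickening hz ε).trans (cthickening_mono (by linarith) K)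
    have hzΩ : closedBall z ε ⊆ Ω :=
      hzε.trans ((cthickening_mono (by linarith) K).trans hdK)
    have e3 : conv (a n₀) ε z - conv (a n) ε z = conv gd ε z := by
      unfold conv
      rw [← integral_sub (conv_integrable hΩ (ha n₀) hε hzΩ) (conv_integrable hΩ (ha n) hε hzΩ)]
      congr 1
      funext w
      by_cases hw : w ∈ closedBall z ε
      · have : f w = 1 := by simpa using hf1 (hzε hw)
        simp only [hgd, this]
        push_cast
        ring
      · simp [moll_sub_eq_zero hε hw]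
    have b2 : ‖a n₀ z - conv (a n₀) ε z‖ ≤ η₂ := by
      rw [norm_sub_rev]
      exact hεapprox ε hε le_rfl z hz
    have b3 : ‖conv (a n₀) ε z - conv (a n) ε z‖ ^ 2 ≤ P z := by
      rw [e3]
      exact norm_conv_sq_le hgdc hε z
    have b4 : ‖conv (a n) ε z - h z‖ ≤ η₂ := hn₁ n hnn₁ z hz
    have e : a n z - h z = (a n z - a n₀ z) + (a n₀ z - conv (a n₀) ε z)
        + (conv (a n₀) ε z - conv (a n) ε z) + (conv (a n) ε z - h z) := by ring
    have t : ‖a n z - h z‖ ≤ ‖a n z - a n₀ z‖ + ‖a n₀ z - conv (a n₀) ε z‖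
        + ‖conv (a n₀) ε z - conv (a n) ε z‖ + ‖conv (a n) ε z - h z‖ := by
      rw [e]
      exact (norm_add_le _ _).trans (add_le_add_left
        ((norm_add_le _ _).trans (add_le_add_left (norm_add_le _ _) _)) _)
    have t2 := pow_le_pow_left₀ (norm_nonneg _) t 2
    have c2 := pow_le_pow_left₀ (norm_nonneg _) b2 2
    have c4 := pow_le_pow_left₀ (norm_nonneg _) b4 2
    nlinarith [sq_nonneg (‖a n z - a n₀ z‖ - ‖a n₀ z - conv (a n₀) ε z‖),
      sq_nonneg (‖a n z - a n₀ z‖ - ‖conv (a n₀) ε z - conv (a n) ε z‖),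
      sq_nonneg (‖a n z - a n₀ z‖ - ‖conv (a n) ε z - h z‖),
      sq_nonneg (‖a n₀ z - conv (a n₀) ε z‖ - ‖conv (a n₀) ε z - conv (a n) ε z‖),
      sq_nonneg (‖a n₀ z - conv (a n₀) ε z‖ - ‖conv (a n) ε z - h z‖),
      sq_nonneg (‖conv (a n₀) ε z - conv (a n) ε z‖ - ‖conv (a n) ε z - h z‖)]
  have hi1 : IntegrableOn (fun z => ‖a n z - a n₀ z‖ ^ 2) K :=
    (((ha n).mono hKΩ).sub ((ha n₀).mono hKΩ)).norm.pow 2 |>.integrableOn_compact hK
  have hi1' : IntegrableOn (fun z => ‖a n z - a n₀ z‖ ^ 2) (cthickening d K) :=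
    (((ha n).mono hdK).sub ((ha n₀).mono hdK)).norm.pow 2 |>.integrableOn_compact hK'
  have hi3 : IntegrableOn (fun _ : ℂ => 8 * η₂ ^ 2) K := integrableOn_const hK.measure_lt_top.ne
  have hint_rhs : IntegrableOn (fun z => 4 * ‖a n z - a n₀ z‖ ^ 2 + 4 * P z + 8 * η₂ ^ 2) K :=
    ((hi1.const_mul 4).add (hPint.integrableOn.const_mul 4)).add hi3
  have hle : ∫ z in K, ‖a n z - h z‖ ^ 2
      ≤ ∫ z in K, (4 * ‖a n z - a n₀ z‖ ^ 2 + 4 * P z + 8 * η₂ ^ 2) :=
    integral_mono_of_nonneg (Eventually.of_forall fun z => sq_nonneg _) hint_rhs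
      ((ae_restrict_iff' hK.measurableSet).2 (Eventually.of_forall hpw))
  have hcalc : ∫ z in K, (4 * ‖a n z - a n₀ z‖ ^ 2 + 4 * P z + 8 * η₂ ^ 2)
      = 4 * (∫ z in K, ‖a n z - a n₀ z‖ ^ 2) + 4 * (∫ z in K, P z) + 8 * η₂ ^ 2 * V := by
    have hiP : IntegrableOn (fun z => 4 * P z) K := hPint.integrableOn.const_mul 4
    have hi14 : IntegrableOn (fun z => 4 * ‖a n z - a n₀ z‖ ^ 2) K := hi1.const_mul 4
    have hi_sum : Integrable (fun z => 4 * ‖a n z - a n₀ z‖ ^ 2 + 4 * P z)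
        (volume.restrict K) := hi14.add hiP
    rw [integral_add (μ := volume.restrict K) (f := fun z => 4 * ‖a n z - a n₀ z‖ ^ 2 + 4 * P z)
        (g := fun _ => 8 * η₂ ^ 2) hi_sum hi3,
      integral_add (μ := volume.restrict K) (f := fun z => 4 * ‖a n z - a n₀ z‖ ^ 2)
        (g := fun z => 4 * P z) hi14 hiP,
      integral_const_mul, integral_const_mul, setIntegral_const]
    simp [hV, mul_comm]
  have hb1 : ∫ z in K, ‖a n z - a n₀ z‖ ^ 2 ≤ δ :=
    (setIntegral_mono_set hi1' (Eventually.of_forall fun z => sq_nonneg _)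
      (Eventually.of_forall hKK')).trans (hn₀ n hnn₀ n₀ le_rfl)
  have hb2 : ∫ z in K, P z ≤ δ := by
    have hP0 : ∀ z, 0 ≤ P z := fun z =>
      integral_nonneg fun w => mul_nonneg (sq_nonneg _) (moll_nonneg _)
    exact (setIntegral_le_integral hPint (Eventually.of_forall hP0)).trans (hPeq.le.trans hgd_le)
  have hb3 : 8 * η₂ ^ 2 * V ≤ 2 * δ := by
    rw [hη₂sq]
    have : 8 * (δ / (4 * (V + 1))) * V = 2 * δ * (V / (V + 1)) := by
      field_simp
      ring
    rw [this]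
    have hV1 : V / (V + 1) ≤ 1 := by
      rw [div_le_one (by positivity)]
      linarith
    nlinarith
  rw [Real.dist_eq, sub_zero, abs_of_nonneg (integral_nonneg fun z => sq_nonneg _)]
  have : ∫ z in K, ‖a n z - h z‖ ^ 2 ≤ 10 * δ := by
    rw [hcalc] at hle
    linarith
  rw [hδ] at this
  linarith

/-- **Weyl's lemma, sequence form.** If `a n` are continuous on the open set `Ω`, Cauchy in
`L²(K)` for every compact `K ⊆ Ω`, and `∫ a n * (∂ψ/∂x + i ∂ψ/∂y) → 0` for every smooth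
compactly supported `ψ` with support in `Ω`, then there is a holomorphic `h` on `Ω` with
`∫_K ‖a n - h‖² → 0` for every compact `K ⊆ Ω`. -/
theorem exists_holomorphic_L2loc_limit {Ω : Set ℂ} (hΩ : IsOpen Ω) (a : ℕ → ℂ → ℂ)
    (ha : ∀ n, ContinuousOn (a n) Ω)
    (hC : ∀ K, IsCompact K → K ⊆ Ω → ∀ η > 0, ∃ n₀, ∀ n ≥ n₀, ∀ m ≥ n₀,
      ∫ z in K, ‖a n z - a m z‖ ^ 2 ≤ η)
    (hW : ∀ ψ : ℂ → ℂ, ContDiff ℝ ∞ ψ → HasCompactSupport ψ → tsupport ψ ⊆ Ω →
      Tendsto (fun n => ∫ z, a n z * (fderiv ℝ ψ z 1 + Complex.I * fderiv ℝ ψ z Complex.I))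
        atTop (𝓝 0)) :
    ∃ h : ℂ → ℂ, DifferentiableOn ℂ h Ω ∧ ∀ K, IsCompact K → K ⊆ Ω →
      Tendsto (fun n => ∫ z in K, ‖a n z - h z‖ ^ 2) atTop (𝓝 0) :=
  exists_holomorphic_limit_dbar hΩ a ha hC hW

/-- The weak hypothesis for complex test functions follows from the one for real test
functions. -/
theorem weak_of_real {Ω : Set ℂ} (hΩ : IsOpen Ω) (a : ℕ → ℂ → ℂ)
    (ha : ∀ n, ContinuousOn (a n) Ω)
    (hWr : ∀ ψ : ℂ → ℝ, ContDiff ℝ ∞ ψ → HasCompactSupport ψ → tsupport ψ ⊆ Ω →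
      Tendsto (fun n => ∫ z, a n z * ((fderiv ℝ ψ z 1 : ℂ) + Complex.I * (fderiv ℝ ψ z Complex.I : ℂ)))
        atTop (𝓝 0))
    (ψ : ℂ → ℂ) (hψ : ContDiff ℝ ∞ ψ) (hψc : HasCompactSupport ψ) (hψt : tsupport ψ ⊆ Ω) :
    Tendsto (fun n => ∫ z, a n z * dbar ψ z) atTop (𝓝 0) := by
  set ψ₁ : ℂ → ℝ := fun z => (ψ z).re with hψ₁
  set ψ₂ : ℂ → ℝ := fun z => (ψ z).im with hψ₂
  have h1s : ContDiff ℝ ∞ ψ₁ := Complex.reCLM.contDiff.comp hψ
  have h2s : ContDiff ℝ ∞ ψ₂ := Complex.imCLM.contDiff.comp hψ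
  have h1c : HasCompactSupport ψ₁ := hψc.comp_left Complex.zero_re
  have h2c : HasCompactSupport ψ₂ := hψc.comp_left Complex.zero_im
  have h1t : tsupport ψ₁ ⊆ Ω := (tsupport_comp_subset Complex.zero_re ψ).trans hψt
  have h2t : tsupport ψ₂ ⊆ Ω := (tsupport_comp_subset Complex.zero_im ψ).trans hψt
  have hd : ∀ z v, fderiv ℝ ψ z v
      = ((fderiv ℝ ψ₁ z v : ℝ) : ℂ) + Complex.I * ((fderiv ℝ ψ₂ z v : ℝ) : ℂ) := by
    intro z v
    have hdiff : DifferentiableAt ℝ ψ z := hψ.differentiable (by simp) z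
    have e1 : fderiv ℝ ψ₁ z = Complex.reCLM.comp (fderiv ℝ ψ z) :=
      (Complex.reCLM.hasFDerivAt.comp z hdiff.hasFDerivAt).fderiv
    have e2 : fderiv ℝ ψ₂ z = Complex.imCLM.comp (fderiv ℝ ψ z) :=
      (Complex.imCLM.hasFDerivAt.comp z hdiff.hasFDerivAt).fderiv
    rw [e1, e2]
    simp only [ContinuousLinearMap.comp_apply, Complex.reCLM_apply, Complex.imCLM_apply]
    rw [mul_comm]
    exact (Complex.re_add_im _).symm
  have heq : ∀ n z, a n z * dbar ψ z
      = a n z * ((fderiv ℝ ψ₁ z 1 : ℂ) + Complex.I * (fderiv ℝ ψ₁ z Complex.I : ℂ))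
        + Complex.I * (a n z * ((fderiv ℝ ψ₂ z 1 : ℂ)
          + Complex.I * (fderiv ℝ ψ₂ z Complex.I : ℂ))) := by
    intro n z
    unfold dbar
    rw [hd z 1, hd z Complex.I]
    ring
  have hint : ∀ (φ : ℂ → ℝ), ContDiff ℝ ∞ φ → HasCompactSupport φ → tsupport φ ⊆ Ω → ∀ n,
      Integrable (fun z => a n z * ((fderiv ℝ φ z 1 : ℂ)
        + Complex.I * (fderiv ℝ φ z Complex.I : ℂ))) := by
    intro φ hφ hφc hφt n
    have hcf := hφ.continuous_fderiv (by simp)
    refine integrable_mul_of_support hΩ (ha n) ?_ hφc hφt fun w hw => ?_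
    · exact (Complex.continuous_ofReal.comp (hcf.clm_apply continuous_const)).add
        (continuous_const.mul (Complex.continuous_ofReal.comp (hcf.clm_apply continuous_const)))
    · rw [fderiv_of_notMem_tsupport ℝ hw]
      simp
  have := (hWr ψ₁ h1s h1c h1t).add ((hWr ψ₂ h2s h2c h2t).const_mul Complex.I)
  simp only [mul_zero, add_zero] at this
  refine this.congr fun n => ?_
  rw [← integral_const_mul, ← integral_add (hint ψ₁ h1s h1c h1t n)
    ((hint ψ₂ h2s h2c h2t n).const_mul Complex.I)]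
  congr 1
  funext z
  rw [heq]

/-- **Weyl's lemma, sequence form**, with the weak hypothesis only for real test functions. -/
theorem exists_holomorphic_L2loc_limit_of_real {Ω : Set ℂ} (hΩ : IsOpen Ω) (a : ℕ → ℂ → ℂ)
    (ha : ∀ n, ContinuousOn (a n) Ω)
    (hC : ∀ K, IsCompact K → K ⊆ Ω → ∀ η > 0, ∃ n₀, ∀ n ≥ n₀, ∀ m ≥ n₀,
      ∫ z in K, ‖a n z - a m z‖ ^ 2 ≤ η)
    (hWr : ∀ ψ : ℂ → ℝ, ContDiff ℝ ∞ ψ → HasCompactSupport ψ → tsupport ψ ⊆ Ω →
      Tendsto (fun n => ∫ z, a n z * ((fderiv ℝ ψ z 1 : ℂ) + Complex.I * (fderiv ℝ ψ z Complex.I : ℂ)))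
        atTop (𝓝 0)) :
    ∃ h : ℂ → ℂ, DifferentiableOn ℂ h Ω ∧ ∀ K, IsCompact K → K ⊆ Ω →
      Tendsto (fun n => ∫ z in K, ‖a n z - h z‖ ^ 2) atTop (𝓝 0) :=
  exists_holomorphic_limit_dbar hΩ a ha hC (weak_of_real hΩ a ha hWr)

/-- Uniqueness of continuous `L²_loc`-limits. -/
theorem eqOn_of_L2loc_limit {Ω : Set ℂ} (hΩ : IsOpen Ω) (a : ℕ → ℂ → ℂ)
    (ha : ∀ n, ContinuousOn (a n) Ω) {h₁ h₂ : ℂ → ℂ}
    (hc₁ : ContinuousOn h₁ Ω) (hc₂ : ContinuousOn h₂ Ω)
    (hl₁ : ∀ K, IsCompact K → K ⊆ Ω →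
      Tendsto (fun n => ∫ z in K, ‖a n z - h₁ z‖ ^ 2) atTop (𝓝 0))
    (hl₂ : ∀ K, IsCompact K → K ⊆ Ω →
      Tendsto (fun n => ∫ z in K, ‖a n z - h₂ z‖ ^ 2) atTop (𝓝 0)) :
    EqOn h₁ h₂ Ω := by
  intro z hz
  obtain ⟨R, hR, hRΩ⟩ := Metric.nhds_basis_closedBall.mem_iff.mp (hΩ.mem_nhds hz)
  have hK : IsCompact (closedBall z R) := isCompact_closedBall z R
  have hi : ∀ (g₁ g₂ : ℂ → ℂ), ContinuousOn g₁ Ω → ContinuousOn g₂ Ω →
      IntegrableOn (fun w => ‖g₁ w - g₂ w‖ ^ 2) (closedBall z R) := fun g₁ g₂ hg₁ hg₂ =>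
    ((hg₁.mono hRΩ).sub (hg₂.mono hRΩ)).norm.pow 2 |>.integrableOn_compact hK
  have hle : ∀ n, ∫ w in closedBall z R, ‖h₁ w - h₂ w‖ ^ 2
      ≤ 2 * (∫ w in closedBall z R, ‖a n w - h₁ w‖ ^ 2)
        + 2 * (∫ w in closedBall z R, ‖a n w - h₂ w‖ ^ 2) := by
    intro n
    rw [← integral_const_mul, ← integral_const_mul,
      ← integral_add ((hi _ _ (ha n) hc₁).const_mul 2) ((hi _ _ (ha n) hc₂).const_mul 2)]
    refine setIntegral_mono_on (hi _ _ hc₁ hc₂)
      (((hi _ _ (ha n) hc₁).const_mul 2).add ((hi _ _ (ha n) hc₂).const_mul 2))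
      hK.measurableSet fun w _ => ?_
    have e : h₁ w - h₂ w = (a n w - h₂ w) - (a n w - h₁ w) := by ring
    have t : ‖h₁ w - h₂ w‖ ≤ ‖a n w - h₂ w‖ + ‖a n w - h₁ w‖ := by
      rw [e]
      exact norm_sub_le _ _
    have t2 := pow_le_pow_left₀ (norm_nonneg _) t 2
    nlinarith [sq_nonneg (‖a n w - h₂ w‖ - ‖a n w - h₁ w‖)]
  have hlim : Tendsto (fun n => 2 * (∫ w in closedBall z R, ‖a n w - h₁ w‖ ^ 2)
      + 2 * (∫ w in closedBall z R, ‖a n w - h₂ w‖ ^ 2)) atTop (𝓝 0) := by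
    have := ((hl₁ _ hK hRΩ).const_mul 2).add ((hl₂ _ hK hRΩ).const_mul 2)
    simpa using this
  have h0 : ∫ w in closedBall z R, ‖h₁ w - h₂ w‖ ^ 2 = 0 :=
    le_antisymm (ge_of_tendsto' hlim hle) (integral_nonneg fun w => sq_nonneg _)
  have hae := (setIntegral_eq_zero_iff_of_nonneg_ae (Eventually.of_forall fun w => sq_nonneg _)
    (hi _ _ hc₁ hc₂)).mp h0
  have hae' : h₁ =ᵐ[volume.restrict (ball z R)] h₂ := by
    have := ae_restrict_of_ae_restrict_of_subset (μ := (volume : Measure ℂ))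
      (ball_subset_closedBall (x := z) (ε := R)) hae
    filter_upwards [this] with w hw
    have : ‖h₁ w - h₂ w‖ ^ 2 = 0 := hw
    rw [sq_eq_zero_iff, norm_eq_zero, sub_eq_zero] at this
    exact this
  have hsub : ball z R ⊆ Ω := ball_subset_closedBall.trans hRΩ
  exact Measure.eqOn_open_of_ae_eq hae' isOpen_ball (hc₁.mono hsub) (hc₂.mono hsub)
    (mem_ball_self hR)

end Fermat.Agent.S21.helper261
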