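import Mathlib
import Fermat.Prelude.Def_ModularCurve_PeriodHomPair

/-!
# S21, part (C): injectivity of the period-hom pair (helper2841)

* `exp_const_of_re_invariant`: a maximum principle on modular curves
  (holomorphic `h` on the upper half plane with invariant real part and limits at all cusps
  has constant `exp ∘ h`).
* `eq_zero_of_period_relation`: a weight-2 cusp form on `Gamma0 N` whose period homomorphism `P`
  satisfies `P γ + ε P (jγ) = 0` (with `ε` real) vanishes.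
* `injective_periodHomPair_of`: injectivity of `ModularCurve.periodHomPair N`, assuming
  linearity of the period map and existence of equivariant primitives.
-/

set_option autoImplicit false

open UpperHalfPlane CongruenceSubgroup Filter Topology Function
open scoped MatrixGroups Manifold Real ComplexConjugate

namespace Fermat.Agent.S21.helper2841

noncomputable section

open ModularCurve ModularCurve.Period

local notation "𝕢" => Periodic.qParam

/-- Periodicity of `V ∘ ofComplex` from periodicity on `ℍ`. -/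
theorem periodic_comp_ofComplex_of_vadd {V : ℍ → ℂ} {n : ℝ}
    (hV : ∀ w : ℍ, V (n +ᵥ w) = V w) : Periodic (V ∘ ofComplex) n := by
  intro w
  by_cases hw : 0 < w.im
  · have hw' : 0 < (w + n).im := by simpa using hw
    simp only [comp_apply, ofComplex_apply_of_im_pos hw', ofComplex_apply_of_im_pos hw]
    rw [← hV ⟨w, hw⟩]
    congr 1
    ext
    simp [add_comm]
  · have hw0 : w.im ≤ 0 := not_lt.mp hw
    have hw' : (w + n).im ≤ 0 := by simpa using hw0
    simp [ofComplex_apply_of_im_nonpos hw', ofComplex_apply_of_im_nonpos hw0]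

/-- Holomorphy of `exp ∘ h ∘ (g • ·)`. -/
theorem mdiff_exp_comp_smul {h : ℍ → ℂ} (hhol : MDiff h) (g : SL(2, ℤ)) :
    MDiff (fun z : ℍ => Complex.exp (h (g • z))) := by
  have h1 : MDiff (fun z : ℍ => h (g • z)) := by
    have := hhol.comp (mdifferentiable_smul (g := (g : GL (Fin 2) ℝ)) (by simp))
    exact this
  intro τ
  rw [mdifferentiableAt_iff]
  have h2 := mdifferentiableAt_iff.mp (h1 τ)
  exact h2.cexp

/-- **Maximum principle on a modular curve.**  Let `Γ` be a finite-index subgroup of `SL(2, ℤ)`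
and `h` a holomorphic function on `ℍ` whose real part is `Γ`-invariant, such that every translate
`h ∘ δ` (`δ ∈ SL(2, ℤ)`) is `n`-periodic and has a limit at `i∞`.  Then `exp ∘ h` is constant. -/
theorem exp_const_of_re_invariant (Γ : Subgroup SL(2, ℤ)) [Γ.FiniteIndex] (n : ℕ) [NeZero n]
    (h : ℍ → ℂ) (hhol : MDiff h)
    (hinv : ∀ γ ∈ Γ, ∀ z : ℍ, (h (γ • z)).re = (h z).re)
    (hlim : ∀ δ : SL(2, ℤ), ∃ L : ℂ, Tendsto (fun w : ℍ => h (δ • w)) atImInfty (𝓝 L))
    (hper : ∀ δ : SL(2, ℤ), ∀ w : ℍ, h (δ • ((n : ℝ) +ᵥ w)) = h (δ • w)) :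
    ∃ C : ℂ, ∀ z : ℍ, Complex.exp (h z) = C := by
  classical
  have : Finite (SL(2, ℤ) ⧸ Γ) := Subgroup.finite_quotient_of_finiteIndex
  let _ : Fintype (SL(2, ℤ) ⧸ Γ) := Fintype.ofFinite _
  have hn : (0 : ℝ) < n := Nat.cast_pos.mpr (NeZero.pos n)
  -- the translates
  set V : SL(2, ℤ) ⧸ Γ → ℍ → ℂ := fun c z => Complex.exp (h ((c.out : SL(2, ℤ))⁻¹ • z)) with hV
  have hVper : ∀ c, Periodic (V c ∘ ofComplex) n := fun c =>
    periodic_comp_ofComplex_of_vadd fun w => by simp only [hV, hper]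
  have hVhol : ∀ c, MDiff (V c) := fun c => mdiff_exp_comp_smul hhol _
  have hVbdd : ∀ c, IsBoundedAtImInfty (V c) := fun c => by
    obtain ⟨L, hL⟩ := hlim (c.out : SL(2, ℤ))⁻¹
    have : Tendsto (V c) atImInfty (𝓝 (Complex.exp L)) :=
      (Complex.continuous_exp.tendsto L).comp hL
    exact this.isBigO_one ℝ
  have hVeq : ∀ c (z : ℍ), cuspFunction n (V c) (𝕢 n z) = V c z := fun c z =>
    eq_cuspFunction z hn.ne' (hVper c)
  -- invariance of the sum of squares
  have hnormV : ∀ (γ : SL(2, ℤ)) (c : SL(2, ℤ) ⧸ Γ) (z : ℍ),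
      ‖V c (γ • z)‖ = ‖V (γ⁻¹ • c) z‖ := by
    intro γ c z
    obtain ⟨η, hη⟩ := QuotientGroup.mk_out_eq_mul Γ (γ⁻¹ * (c.out : SL(2, ℤ)))
    have hc : γ⁻¹ • c = ((γ⁻¹ * (c.out : SL(2, ℤ)) : SL(2, ℤ)) : SL(2, ℤ) ⧸ Γ) := by
      conv_lhs => rw [← QuotientGroup.out_eq' c]
      rfl
    simp only [hV, Complex.norm_exp]
    rw [hc, hη]
    have : ((c.out : SL(2, ℤ))⁻¹ • γ • z)
        = (η : SL(2, ℤ)) • ((γ⁻¹ * (c.out : SL(2, ℤ)) * (η : SL(2, ℤ)))⁻¹ • z) := by
      rw [← mul_smul, ← mul_smul]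
      congr 1
      group
    rw [this, hinv _ η.2]
  have hsum : ∀ (γ : SL(2, ℤ)) (z : ℍ),
      ∑ c, ‖V c (γ • z)‖ ^ 2 = ∑ c, ‖V c z‖ ^ 2 := by
    intro γ z
    simp only [hnormV]
    exact Equiv.sum_comp (MulAction.toPerm (γ⁻¹ : SL(2, ℤ))) (fun c => ‖V c z‖ ^ 2)
  -- the vector-valued function on the disc
  set Ψ : ℂ → EuclideanSpace ℂ (SL(2, ℤ) ⧸ Γ) :=
    fun q => WithLp.toLp 2 (fun c => cuspFunction n (V c) q) with hΨ
  have hΨdiff : DifferentiableOn ℂ Ψ (Metric.ball 0 1) := by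
    intro q hq
    refine DifferentiableAt.differentiableWithinAt ?_
    rw [differentiableAt_euclidean]
    intro c
    exact differentiableAt_cuspFunction hn (hVper c) (hVhol c) (hVbdd c)
      (mem_ball_zero_iff.mp hq)
  have hΨnorm : ∀ z : ℍ, ‖Ψ (𝕢 n z)‖ ^ 2 = ∑ c, ‖V c z‖ ^ 2 := by
    intro z
    rw [EuclideanSpace.norm_sq_eq]
    simp only [hΨ, hVeq]
  have hr : Real.exp (-π / n) < 1 := by
    rw [Real.exp_lt_one_iff]
    exact div_neg_of_neg_of_pos (neg_lt_zero.mpr Real.pi_pos) hn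
  have hconst := Complex.eq_const_of_exists_le hΨdiff (Real.exp_pos _).le hr (fun q hq => by
    rcases eq_or_ne q 0 with rfl | hq0
    · exact ⟨0, by simp [(Real.exp_pos _).le], le_rfl⟩
    · have hqn : ‖q‖ < 1 := mem_ball_zero_iff.mp hq
      set z : ℍ := ⟨Periodic.invQParam n q, Periodic.im_invQParam_pos_of_norm_lt_one hn hqn hq0⟩
        with hz
      have hqz : 𝕢 n z = q := Periodic.qParam_right_inv hn.ne' hq0
      obtain ⟨γ, hγ⟩ := ModularGroup.exists_one_half_le_im_smul z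
      refine ⟨𝕢 n ((γ • z : ℍ) : ℂ), ?_, ?_⟩
      · rw [mem_closedBall_zero_iff, Periodic.norm_qParam, Real.exp_le_exp]
        rw [div_le_div_iff_of_pos_right hn]
        have : (1 : ℝ) / 2 ≤ ((γ • z : ℍ) : ℂ).im := hγ
        nlinarith [Real.pi_pos]
      · have h1 : ‖Ψ q‖ ^ 2 = ‖Ψ (𝕢 n ((γ • z : ℍ) : ℂ))‖ ^ 2 := by
          rw [← hqz, hΨnorm, hΨnorm, hsum]
        exact le_of_eq ((sq_eq_sq₀ (norm_nonneg _) (norm_nonneg _)).mp h1))
  -- conclude
  have hone : ∀ z : ℍ, V ((1 : SL(2, ℤ)) : SL(2, ℤ) ⧸ Γ) z = (Ψ 0).ofLp ((1 : SL(2, ℤ)) : SL(2, ℤ) ⧸ Γ) := by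
    intro z
    have hz : 𝕢 n (z : ℂ) ∈ Metric.ball (0 : ℂ) 1 := by
      rw [mem_ball_zero_iff]
      exact Periodic.norm_qParam_lt_one hn z.im_pos
    have := hconst hz
    rw [← hVeq]
    have h2 := congrArg (fun v : EuclideanSpace ℂ (SL(2, ℤ) ⧸ Γ) => v.ofLp ((1 : SL(2, ℤ)) : SL(2, ℤ) ⧸ Γ)) this
    simpa [hΨ] using h2
  refine ⟨(Ψ 0).ofLp ((1 : SL(2, ℤ)) : SL(2, ℤ) ⧸ Γ), fun z => ?_⟩
  have := hone (((1 : SL(2, ℤ)) : SL(2, ℤ) ⧸ Γ).out • z)
  rw [← this]
  simp only [hV]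
  rw [inv_smul_smul]

/-- The anti-holomorphic involution `z ↦ -conj z` of `ℍ`. -/
def cc (z : ℍ) : ℍ := ⟨-conj (z : ℂ), by simpa using z.im_pos⟩

@[simp] theorem coe_cc (z : ℍ) : ((cc z : ℍ) : ℂ) = -conj (z : ℂ) := rfl

@[simp] theorem cc_im (z : ℍ) : (cc z).im = z.im := by
  change (-conj (z : ℂ)).im = (z : ℂ).im
  simp

theorem cc_cc (z : ℍ) : cc (cc z) = z := by
  ext
  simp

theorem tendsto_cc : Tendsto cc atImInfty atImInfty := by
  rw [atImInfty, tendsto_comap_iff]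
  have : UpperHalfPlane.im ∘ cc = UpperHalfPlane.im := by
    funext z
    simp
  rw [this]
  exact tendsto_comap

theorem cc_vadd (x : ℝ) (z : ℍ) : cc (x +ᵥ z) = (-x) +ᵥ cc z := by
  ext
  simp [coe_vadd, add_comm]

theorem jConjSL_smul_cc (γ : SL(2, ℤ)) (z : ℍ) : jConjSL γ • cc z = cc (γ • z) := by
  ext
  rw [coe_specialLinearGroup_apply, coe_cc, coe_cc, coe_specialLinearGroup_apply]
  simp only [jConjSL_coe, jConjMat_apply_zero_zero, jConjMat_apply_zero_one,
    jConjMat_apply_one_zero, jConjMat_apply_one_one, map_div₀, map_add, map_mul]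
  simp
  ring

/-- Derivative of `z ↦ conj (F (-conj z))`. -/
theorem hasDerivAt_conj_comp_cc {F : ℍ → ℂ} {d : ℂ} (τ : ℍ)
    (hF : HasDerivAt (F ∘ ofComplex) d ((cc τ : ℍ) : ℂ)) :
    HasDerivAt ((fun z : ℍ => conj (F (cc z))) ∘ ofComplex) (-conj d) (τ : ℂ) := by
  have h1 : HasDerivAt (fun u : ℂ => (F ∘ ofComplex) (-u)) (-d) (conj (τ : ℂ)) := by
    have hneg : HasDerivAt (fun u : ℂ => -u) (-1) (conj (τ : ℂ)) := hasDerivAt_neg _
    have hF' : HasDerivAt (F ∘ ofComplex) d (-(conj (τ : ℂ))) := hF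
    have := HasDerivAt.comp (conj (τ : ℂ)) hF' hneg
    rw [mul_neg_one] at this
    exact this
  have h2 := h1.conj_conj
  rw [Complex.conj_conj] at h2
  have h3 : -conj d = conj (-d) := by simp
  rw [h3]
  refine h2.congr_of_eventuallyEq ?_
  filter_upwards [isOpen_upperHalfPlaneSet.mem_nhds τ.im_pos] with w hw
  have hw' : 0 < (-conj w).im := by simpa using hw
  simp only [comp_apply, ofComplex_apply_of_im_pos hw, ofComplex_apply_of_im_pos hw']
  rfl

/-- If `exp ∘ h` is constant then every derivative of `h ∘ ofComplex` vanishes. -/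
theorem deriv_eq_zero_of_exp_const {h : ℍ → ℂ} {C : ℂ} (hC : ∀ z, Complex.exp (h z) = C)
    {τ d : ℂ} (hd : HasDerivAt (h ∘ ofComplex) d τ) : d = 0 := by
  have h1 : HasDerivAt (fun w => Complex.exp ((h ∘ ofComplex) w))
      (Complex.exp ((h ∘ ofComplex) τ) * d) τ := hd.cexp
  have h2 : (fun w : ℂ => Complex.exp ((h ∘ ofComplex) w)) = fun _ => C :=
    funext fun w => hC _
  rw [h2] at h1
  have := h1.unique (hasDerivAt_const _ _)
  exact (mul_eq_zero.mp this).resolve_left (Complex.exp_ne_zero _)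

/-- Translates of an equivariant primitive having limits at the cusps are `N`-periodic. -/
theorem primitive_translate_periodic {N : ℕ} {F : ℍ → ℂ}
    (hE : IsEquivariantPrimitive (Gamma0 N) F)
    (hlim : ∀ δ : SL(2, ℤ), ∃ L : ℂ, Tendsto (fun w : ℍ => F (δ • w)) atImInfty (𝓝 L))
    (δ : SL(2, ℤ)) (m : ℤ) (hm : (N : ℤ) ∣ m) (w : ℍ) :
    F (δ • ((m : ℝ) +ᵥ w)) = F (δ • w) := by
  have hmem : δ * ModularGroup.T ^ m * δ⁻¹ ∈ Gamma0 N := by
    have h1 : ModularGroup.T ^ m ∈ Gamma N := by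
      simpa using ModularGroup_T_pow_mem_Gamma (N : ℤ) m hm
    have h2 : δ * ModularGroup.T ^ m * δ⁻¹ ∈ Gamma N := (Gamma_normal N).conj_mem _ h1 δ
    rw [Gamma_mem] at h2
    rw [Gamma0_mem]
    exact h2.2.2.1
  obtain ⟨c, hc⟩ := hE ⟨_, hmem⟩
  have hkey : ∀ w : ℍ, F (δ • ((m : ℝ) +ᵥ w)) - F (δ • w) = c := by
    intro w
    have := hc (δ • w)
    rw [← this]
    congr 2
    rw [← modular_T_zpow_smul]
    simp only [mul_smul, inv_smul_smul]
  obtain ⟨L, hL⟩ := hlim δ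
  have hshift : Tendsto (fun w : ℍ => (m : ℝ) +ᵥ w) atImInfty atImInfty := by
    rw [atImInfty, tendsto_comap_iff]
    have : UpperHalfPlane.im ∘ (fun w : ℍ => (m : ℝ) +ᵥ w) = UpperHalfPlane.im := by
      funext z
      simp [vadd_im]
    rw [this]
    exact tendsto_comap
  have hL2 : Tendsto (fun w : ℍ => F (δ • ((m : ℝ) +ᵥ w))) atImInfty (𝓝 L) := hL.comp hshift
  have h0 : Tendsto (fun w : ℍ => F (δ • ((m : ℝ) +ᵥ w)) - F (δ • w)) atImInfty (𝓝 (L - L)) :=
    hL2.sub hL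
  have hc0 : c = 0 := by
    have h1 : Tendsto (fun _ : ℍ => c) atImInfty (𝓝 (L - L)) := by
      refine h0.congr fun w => hkey w
    have := tendsto_nhds_unique h1 tendsto_const_nhds
    rw [← this, sub_self]
  have := hkey w
  rw [hc0, sub_eq_zero] at this
  exact this

/-- **Key lemma.** Let `F` be an equivariant primitive of the weight-2 cusp form `f` on
`Gamma0 N` with period homomorphism `P`.  If `P γ + ε * P (jγ) = 0` for all `γ`
(`ε` real, `j` the conjugation by `diag(1,-1)`), then `f = 0`. -/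
theorem eq_zero_of_period_relation {N : ℕ} [NeZero N] (f : CuspForm (Gamma0 N) 2) {F : ℍ → ℂ}
    (hF : HasEquivariantPrimitive N f F) (ε : ℝ)
    (hrel : ∀ γ : Gamma0 N,
      hF.2.2.1.period γ + (ε : ℂ) * hF.2.2.1.period (jConjGamma0 N γ) = 0) :
    f = 0 := by
  have hderiv := hF.1
  have hE : IsEquivariantPrimitive (Gamma0 N) F := hF.2.2.1
  have hlim := hF.2.2.2
  have hrel' : ∀ γ : Gamma0 N, hE.period γ + (ε : ℂ) * hE.period (jConjGamma0 N γ) = 0 := hrel
  have hre : ∀ γ : Gamma0 N,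
      (hE.period γ).re + ε * (hE.period (jConjGamma0 N γ)).re = 0 := fun γ => by
    have := congrArg Complex.re (hrel' γ)
    simpa using this
  have him : ∀ γ : Gamma0 N,
      (hE.period γ).im + ε * (hE.period (jConjGamma0 N γ)).im = 0 := fun γ => by
    have := congrArg Complex.im (hrel' γ)
    simpa using this
  -- transformation of `F` and of `Fs z = conj (F (-conj z))`
  have hP : ∀ (γ : SL(2, ℤ)) (hγ : γ ∈ Gamma0 N) (z : ℍ),
      F (γ • z) = F z + hE.period ⟨γ, hγ⟩ := fun γ hγ z => by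
    have := hE.sub_eq_period ⟨γ, hγ⟩ z
    linear_combination this
  set Fs : ℍ → ℂ := fun z => conj (F (cc z)) with hFs
  have hFs_smul : ∀ (δ : SL(2, ℤ)) (w : ℍ), Fs (δ • w) = conj (F (jConjSL δ • cc w)) :=
    fun δ w => by simp only [hFs, jConjSL_smul_cc]
  have hPs : ∀ (γ : SL(2, ℤ)) (hγ : γ ∈ Gamma0 N) (z : ℍ),
      Fs (γ • z) = Fs z + conj (hE.period (jConjGamma0 N ⟨γ, hγ⟩)) := by
    intro γ hγ z
    rw [hFs_smul]
    have := hP (jConjSL γ) (jConjSL_mem_Gamma0 hγ) (cc z)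
    rw [this, map_add]
    rfl
  -- periodicity of the translates
  have hperF : ∀ (δ : SL(2, ℤ)) (w : ℍ), F (δ • ((N : ℝ) +ᵥ w)) = F (δ • w) := fun δ w => by
    have := primitive_translate_periodic hE hlim δ (N : ℤ) dvd_rfl w
    simpa using this
  have hperF' : ∀ (δ : SL(2, ℤ)) (w : ℍ), F (δ • ((-(N : ℝ)) +ᵥ w)) = F (δ • w) := fun δ w => by
    have := primitive_translate_periodic hE hlim δ (-(N : ℤ)) (dvd_neg.mpr dvd_rfl) w
    simpa using this
  have hperFs : ∀ (δ : SL(2, ℤ)) (w : ℍ), Fs (δ • ((N : ℝ) +ᵥ w)) = Fs (δ • w) := fun δ w => by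
    rw [hFs_smul, hFs_smul, cc_vadd, hperF']
  -- limits at the cusps
  have hlimFs : ∀ δ : SL(2, ℤ), ∃ L : ℂ, Tendsto (fun w : ℍ => Fs (δ • w)) atImInfty (𝓝 L) := by
    intro δ
    obtain ⟨L, hL⟩ := hlim (jConjSL δ)
    refine ⟨conj L, ?_⟩
    have h1 : Tendsto (fun w : ℍ => F (jConjSL δ • cc w)) atImInfty (𝓝 L) := hL.comp tendsto_cc
    have h2 := (Complex.continuous_conj.tendsto L).comp h1
    refine h2.congr fun w => ?_
    rw [hFs_smul]
    rfl
  -- derivative of `Fs`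
  have hderivs : ∀ τ : ℍ, HasDerivAt (Fs ∘ ofComplex) (-conj (f (cc τ))) τ := fun τ =>
    hasDerivAt_conj_comp_cc τ (hderiv (cc τ))
  -- the two holomorphic functions
  set h1 : ℍ → ℂ := fun z => F z + (ε : ℂ) * Fs z with hh1
  set h2 : ℍ → ℂ := fun z => -Complex.I * (F z - (ε : ℂ) * Fs z) with hh2
  have hd1 : ∀ τ : ℍ, HasDerivAt (h1 ∘ ofComplex) (f τ + (ε : ℂ) * (-conj (f (cc τ)))) τ :=
    fun τ => (hderiv τ).add ((hderivs τ).const_mul (ε : ℂ))
  have hd2 : ∀ τ : ℍ,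
      HasDerivAt (h2 ∘ ofComplex) (-Complex.I * (f τ - (ε : ℂ) * (-conj (f (cc τ))))) τ :=
    fun τ => ((hderiv τ).sub ((hderivs τ).const_mul (ε : ℂ))).const_mul (-Complex.I)
  have hhol1 : MDiff h1 := fun τ => mdifferentiableAt_iff.mpr (hd1 τ).differentiableAt
  have hhol2 : MDiff h2 := fun τ => mdifferentiableAt_iff.mpr (hd2 τ).differentiableAt
  have hinv1 : ∀ γ ∈ Gamma0 N, ∀ z : ℍ, (h1 (γ • z)).re = (h1 z).re := by
    intro γ hγ z
    have r := hre ⟨γ, hγ⟩
    simp only [hh1, hP γ hγ z, hPs γ hγ z, Complex.add_re, Complex.re_ofReal_mul, Complex.conj_re]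
    linarith
  have hinv2 : ∀ γ ∈ Gamma0 N, ∀ z : ℍ, (h2 (γ • z)).re = (h2 z).re := by
    intro γ hγ z
    have r := him ⟨γ, hγ⟩
    simp only [hh2, hP γ hγ z, hPs γ hγ z, Complex.mul_re, Complex.neg_re, Complex.I_re,
      Complex.neg_im, Complex.I_im, Complex.sub_im, Complex.add_im, Complex.im_ofReal_mul,
      Complex.conj_im]
    linarith
  have hlim1 : ∀ δ : SL(2, ℤ), ∃ L : ℂ, Tendsto (fun w : ℍ => h1 (δ • w)) atImInfty (𝓝 L) := by
    intro δ
    obtain ⟨L, hL⟩ := hlim δ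
    obtain ⟨L', hL'⟩ := hlimFs δ
    exact ⟨L + (ε : ℂ) * L', hL.add (hL'.const_mul _)⟩
  have hlim2 : ∀ δ : SL(2, ℤ), ∃ L : ℂ, Tendsto (fun w : ℍ => h2 (δ • w)) atImInfty (𝓝 L) := by
    intro δ
    obtain ⟨L, hL⟩ := hlim δ
    obtain ⟨L', hL'⟩ := hlimFs δ
    exact ⟨-Complex.I * (L - (ε : ℂ) * L'), (hL.sub (hL'.const_mul _)).const_mul _⟩
  have hper1 : ∀ (δ : SL(2, ℤ)) (w : ℍ), h1 (δ • ((N : ℝ) +ᵥ w)) = h1 (δ • w) := fun δ w => by
    simp only [hh1, hperF, hperFs]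
  have hper2 : ∀ (δ : SL(2, ℤ)) (w : ℍ), h2 (δ • ((N : ℝ) +ᵥ w)) = h2 (δ • w) := fun δ w => by
    simp only [hh2, hperF, hperFs]
  obtain ⟨C1, hC1⟩ := exp_const_of_re_invariant (Gamma0 N) N h1 hhol1 hinv1 hlim1 hper1
  obtain ⟨C2, hC2⟩ := exp_const_of_re_invariant (Gamma0 N) N h2 hhol2 hinv2 hlim2 hper2
  ext τ
  have e1 := deriv_eq_zero_of_exp_const hC1 (hd1 τ)
  have e2 := deriv_eq_zero_of_exp_const hC2 (hd2 τ)
  have e3 : f τ - (ε : ℂ) * (-conj (f (cc τ))) = 0 := by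
    rcases mul_eq_zero.mp e2 with h | h
    · exact absurd h (neg_ne_zero.mpr Complex.I_ne_zero)
    · exact h
  have : (2 : ℂ) * f τ = 0 := by linear_combination e1 + e3
  simpa using this

/-- A cusp form whose period map is anti-invariant under the involution vanishes. -/
theorem eq_zero_of_periodMap_add_charInvolution {N : ℕ} [NeZero N] (f : CuspForm (Gamma0 N) 2)
    (hprim : ∃ F : ℍ → ℂ, HasEquivariantPrimitive N f F) (ε : ℝ)
    (h : ∀ γ : Gamma0 N, periodMap N f (Additive.ofMul γ)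
      + (ε : ℂ) * periodMap N f (Additive.ofMul (jConjGamma0 N γ)) = 0) :
    f = 0 := by
  obtain ⟨F, hF⟩ := hprim
  obtain ⟨F₀, h₀, hPf⟩ := periodMap_def N f hF
  refine eq_zero_of_period_relation f h₀ ε fun γ => ?_
  have := h γ
  rw [hPf] at this
  exact this

/-- **Injectivity of the period-hom pair**, assuming linearity of the period map and existence
of equivariant primitives for all cusp forms. -/
theorem injective_periodHomPair_of (N : ℕ) [NeZero N] (hlin : ExistsPeriodMapLinear N)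
    (hprim : ∀ f : CuspForm (Gamma0 N) 2, ∃ F : ℍ → ℂ, HasEquivariantPrimitive N f F) :
    Function.Injective (periodHomPair N) := by
  obtain ⟨pml, hpml, hdef⟩ := periodHomPair_def N hlin
  rw [← LinearMap.ker_eq_bot, LinearMap.ker_eq_bot']
  rintro ⟨f, g⟩ hfg
  rw [hdef] at hfg
  simp only [LinearMap.coprod_apply, LinearMap.comp_apply, LinearMap.add_apply,
    LinearMap.sub_apply, LinearMap.id_apply, hpml] at hfg
  -- evaluate at `γ` and at `jγ`
  have key : ∀ γ : Gamma0 N,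
      (periodMap N f (Additive.ofMul γ) + periodMap N f (Additive.ofMul (jConjGamma0 N γ)))
        + (periodMap N g (Additive.ofMul γ) - periodMap N g (Additive.ofMul (jConjGamma0 N γ)))
        = 0 := by
    intro γ
    have := DFunLike.congr_fun hfg (Additive.ofMul γ)
    simpa using this
  have hf : f = 0 := by
    refine eq_zero_of_periodMap_add_charInvolution f (hprim f) 1 fun γ => ?_
    have k1 := key γ
    have k2 := key (jConjGamma0 N γ)
    rw [jConjGamma0_jConjGamma0] at k2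
    push_cast
    linear_combination (1 / 2 : ℂ) * k1 + (1 / 2 : ℂ) * k2
  have hg : g = 0 := by
    refine eq_zero_of_periodMap_add_charInvolution g (hprim g) (-1) fun γ => ?_
    have k1 := key γ
    have k2 := key (jConjGamma0 N γ)
    rw [jConjGamma0_jConjGamma0] at k2
    push_cast
    linear_combination (1 / 2 : ℂ) * k1 - (1 / 2 : ℂ) * k2
  rw [hf, hg]
  rfl

end

end Fermat.Agent.S21.helper2841
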