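/-
helper2982: S21 Route 2, leaf (4) CUSP, part (4b) CORE — unconditional versions.

`helper2982_CuspL2` proves the core modulo the pure-`ℂ` strip lemma (`StripLemma`);
`helper2415_Strip` proves that strip lemma.  This file combines them and adds `ℂ`-level variants
(`h : ℂ → ℂ` holomorphic on the upper half-plane, pointwise weight-2 invariance).
-/
import Fermat.Agent.S21.helper2982_CuspL2
import Fermat.Agent.S21.helper2415_Strip

set_option autoImplicit false

open UpperHalfPlane MeasureTheory ModularForm CongruenceSubgroup Filter Topology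
open scoped Manifold MatrixGroups ENNReal

namespace Fermat.Agent.S21.helper2982

noncomputable section

/-- The strip lemma (4a), proved by helper2415. -/
theorem stripLemma : StripLemma := by
  intro p G hp hG hper hL2 ε hε
  obtain ⟨A, hA⟩ :=
    Fermat.Agent.S21.helper2415.exists_bound_of_periodic_of_lintegral_lt_top hp hG hper hL2 ε hε
  exact ⟨A, fun z hz _ ↦ hA z hz⟩

/-- **CUSP core (4b)**: a holomorphic weight-2 invariant function for `Γ₀(N)` whose
`SL(2,ℤ)`-translates are square-integrable (Petersson density, hyperbolic measure) on the cusp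
strip is a cusp form. -/
theorem cuspForm_of_L2 (N : ℕ) [NeZero N] (h : ℍ → ℂ) (hol : MDiff h)
    (hinv : ∀ γ ∈ Gamma0 N, h ∣[(2 : ℤ)] γ = h)
    (hL2 : ∀ σ : SL(2, ℤ), ∫⁻ z in {z : ℍ | 2 ≤ z.im ∧ |z.re| ≤ N},
        ENNReal.ofReal ((σ • z).im ^ 2 * ‖h (σ • z)‖ ^ 2) < ⊤) :
    ∃ f : CuspForm (Gamma0 N) 2, ∀ z, f z = h z :=
  cuspForm_of_L2_of_strip stripLemma N h hol hinv hL2

/-- Pointwise weight-2 invariance is slash invariance. -/
lemma slash_eq_of_pointwise (h : ℍ → ℂ) (γ : SL(2, ℤ))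
    (hγ : ∀ z : ℍ, h (γ • z) = (denom γ z) ^ 2 * h z) : h ∣[(2 : ℤ)] γ = h := by
  funext z
  rw [SL_slash_apply, hγ z]
  have hd := denom_ne_zero (Matrix.SpecialLinearGroup.toGL
    ((Matrix.SpecialLinearGroup.map (Int.castRingHom ℝ)) γ)) z
  simp only [zpow_neg]
  have : (denom (Matrix.SpecialLinearGroup.toGL
    ((Matrix.SpecialLinearGroup.map (Int.castRingHom ℝ)) γ)) z ^ (2 : ℤ)) =
      denom (Matrix.SpecialLinearGroup.toGL
    ((Matrix.SpecialLinearGroup.map (Int.castRingHom ℝ)) γ)) z ^ 2 := by norm_cast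
  rw [this]
  field_simp

/-- **CUSP core (4b)**, `ℂ`-level variant: `h : ℂ → ℂ` holomorphic on the upper half-plane,
pointwise weight-2 invariant under `Γ₀(N)`, with finite Petersson integrals over the cusp strip
for every `σ ∈ SL(2,ℤ)`, is (the restriction of) a cusp form. -/
theorem cuspForm_of_L2_complex (N : ℕ) [NeZero N] (h : ℂ → ℂ)
    (hh : DifferentiableOn ℂ h {z : ℂ | 0 < z.im})
    (hinv : ∀ γ ∈ Gamma0 N, ∀ z : ℍ, h ↑(γ • z) = (denom γ z) ^ 2 * h ↑z)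
    (hL2 : ∀ σ : SL(2, ℤ), ∫⁻ z in {z : ℍ | 2 ≤ z.im ∧ |z.re| ≤ N},
        ENNReal.ofReal ((σ • z).im ^ 2 * ‖h ↑(σ • z)‖ ^ 2) < ⊤) :
    ∃ f : CuspForm (Gamma0 N) 2, ∀ z : ℍ, f z = h ↑z := by
  refine cuspForm_of_L2 N (fun z : ℍ ↦ h ↑z) ?_ ?_ hL2
  · rw [UpperHalfPlane.mdifferentiable_iff]
    refine hh.congr fun w hw ↦ ?_
    simp only [Function.comp_apply]
    rw [ofComplex_apply_of_im_pos hw]
  · intro γ hγ
    exact slash_eq_of_pointwise _ γ (hinv γ hγ)

/-- Variant of `cuspForm_of_L2_complex` with the invariance hypothesis in the explicit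
`(c z + d)^2` form and indexed by the subtype `Γ₀(N)`. -/
theorem cuspForm_of_L2_complex' (N : ℕ) [NeZero N] (h : ℂ → ℂ)
    (hh : DifferentiableOn ℂ h {z : ℂ | 0 < z.im})
    (hinv : ∀ (γ : Gamma0 N) (z : ℍ), h ↑((γ : SL(2, ℤ)) • z) =
      (↑((γ : SL(2, ℤ)) 1 0) * ↑z + ↑((γ : SL(2, ℤ)) 1 1)) ^ 2 * h ↑z)
    (hL2 : ∀ σ : SL(2, ℤ), ∫⁻ z in {z : ℍ | 2 ≤ z.im ∧ |z.re| ≤ N},
        ENNReal.ofReal ((σ • z).im ^ 2 * ‖h ↑(σ • z)‖ ^ 2) < ⊤) :
    ∃ f : CuspForm (Gamma0 N) 2, ∀ z : ℍ, f z = h ↑z := by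
  refine cuspForm_of_L2_complex N h hh ?_ hL2
  intro γ hγ z
  have := hinv ⟨γ, hγ⟩ z
  rw [ModularGroup.denom_apply]
  exact this

end

end Fermat.Agent.S21.helper2982
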