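/-
helper3081: S21 Route 2, leaf (POT) in the on-main spec shape `helper801.StmtPOT N`.

`helper3081_Potential.exists_potential` gives a smooth potential which is constant on every
horoball `σ • {im > 2}`.  Here we add the finite-energy certificate: the covering set is
`B = ⋃_r r⁻¹ • 𝒟` over representatives `r` of `SL(2,ℤ) ⧸ Γ₀(N)`; the complex gradient vanishes
on `B` outside the compact set `⋃_r r⁻¹ • (𝒟 ∩ {im ≤ 2})`.
-/
import Fermat.Agent.S21.helper801_HodgeSpec
import Fermat.Agent.S21.helper3081_Potential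

set_option autoImplicit false

namespace Fermat.Agent.S21.helper3081

open ModularCurve ModularCurve.Period CongruenceSubgroup UpperHalfPlane MeasureTheory Filter
  Topology
open Fermat.Agent.S21.helper801
open scoped MatrixGroups ENNReal ContDiff

noncomputable section

/-- The complex gradient vanishes on every horoball on which the function is constant. -/
theorem gradC_eq_zero_of_horoball {u : ℍ → ℝ}
    (h3 : ∀ σ : SL(2, ℤ), ∃ c : ℝ, ∀ τ : ℍ, 2 < τ.im → u (σ • τ) = c)
    {τ₀ : ℍ} {g : SL(2, ℤ)} (hg : 2 < (g • τ₀).im) : gradC u (τ₀ : ℂ) = 0 := by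
  have h := (hasFDerivAt_zero_of_horoball h3 hg).fderiv
  unfold gradC
  rw [show (u ∘ ofComplex) = fun z : ℂ => u (ofComplex z) from rfl, h]
  simp

/-- Finite-energy certificate for a function on `ℍ` whose complex gradient is continuous and
which is constant on every horoball `σ • {im > 2}`, `σ ∈ SL(2,ℤ)`. -/
theorem finiteEnergyCert_of_horoball (N : ℕ) [NeZero N] {u : ℍ → ℝ}
    (hc : ContinuousOn (gradC u) upperHalfPlaneSet)
    (h3 : ∀ σ : SL(2, ℤ), ∃ c : ℝ, ∀ τ : ℍ, 2 < τ.im → u (σ • τ) = c) :
    FiniteEnergyCert N u := by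
  classical
  let R : Set SL(2, ℤ) := Set.range (Quotient.out : SL(2, ℤ) ⧸ Gamma0 N → SL(2, ℤ))
  have hfin : Finite (SL(2, ℤ) ⧸ Gamma0 N) := Subgroup.finite_quotient_of_finiteIndex
  have hRfin : R.Finite := Set.finite_range _
  have hsmul : ∀ r : SL(2, ℤ), Continuous fun z : ℍ => r • z := fun r =>
    continuous_const_smul (Matrix.SpecialLinearGroup.mapGL ℝ r) (T := ℍ)
  let B : Set ℍ := ⋃ r ∈ R, {z : ℍ | r • z ∈ ModularGroup.fd}
  let K : Set ℍ := ⋃ r ∈ R, (fun z : ℍ => r⁻¹ • z) '' ModularGroup.truncatedFundamentalDomain 2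
  have hBmeas : MeasurableSet B :=
    hRfin.measurableSet_biUnion fun r _ =>
      (ModularGroup.isClosed_fd.preimage (hsmul r)).measurableSet
  have hKcomp : IsCompact K :=
    hRfin.isCompact_biUnion fun r _ =>
      (ModularGroup.isCompact_truncatedFundamentalDomain 2).image (hsmul r⁻¹)
  have hKmeas : MeasurableSet K := hKcomp.isClosed.measurableSet
  refine ⟨B, hBmeas, ?_, ?_⟩
  · intro z
    obtain ⟨g, hg⟩ := ModularGroup.exists_smul_mem_fd z
    obtain ⟨h, hh⟩ := QuotientGroup.mk_out_eq_mul (Gamma0 N) g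
    refine ⟨h⁻¹, ?_⟩
    simp only [B, Set.mem_iUnion, Set.mem_ofPred_eq, exists_prop]
    refine ⟨_, Set.mem_range_self (QuotientGroup.mk g : SL(2, ℤ) ⧸ Gamma0 N), ?_⟩
    have : (Quotient.out (QuotientGroup.mk g : SL(2, ℤ) ⧸ Gamma0 N))
        • ((↑(h⁻¹) : SL(2, ℤ)) • z) = g • z := by
      rw [hh, ← mul_smul]
      simp
    rw [this]
    exact hg
  · -- the integrand
    set F : ℍ → ℝ≥0∞ := fun z => ‖gradC u z‖ₑ ^ 2 * ENNReal.ofReal (z.im ^ 2) with hF
    have hzero : ∀ z : ℍ, z ∈ B → z ∉ K → F z = 0 := by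
      intro z hzB hzK
      simp only [B, Set.mem_iUnion, Set.mem_ofPred_eq, exists_prop] at hzB
      obtain ⟨r, hr, hrz⟩ := hzB
      have him : 2 < (r • z).im := by
        by_contra hcon
        apply hzK
        simp only [K, Set.mem_iUnion, Set.mem_image, exists_prop]
        exact ⟨r, hr, r • z, ⟨hrz, not_lt.mp hcon⟩, inv_smul_smul r z⟩
      simp only [hF, gradC_eq_zero_of_horoball h3 him]
      simp
    have hle : ∫⁻ z in B, F z ≤ ∫⁻ z in K, F z := by
      rw [← lintegral_indicator hBmeas, ← lintegral_indicator hKmeas]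
      refine lintegral_mono fun z => ?_
      by_cases hzB : z ∈ B
      · by_cases hzK : z ∈ K
        · simp [Set.indicator_of_mem hzB, Set.indicator_of_mem hzK]
        · rw [Set.indicator_of_mem hzB, hzero z hzB hzK]
          exact zero_le
      · rw [Set.indicator_of_notMem hzB]
        exact zero_le
    -- boundedness on the compact set
    let G : ℍ → ℝ := fun z => ‖gradC u z‖ ^ 2 * z.im ^ 2
    have hGc : Continuous G := by
      have h1 : Continuous fun z : ℍ => gradC u (z : ℂ) :=
        hc.comp_continuous continuous_coe fun z => z.im_pos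
      exact (h1.norm.pow 2).mul (UpperHalfPlane.continuous_im.pow 2)
    obtain ⟨C, hC⟩ := hKcomp.exists_bound_of_continuousOn hGc.continuousOn
    have hFG : ∀ z : ℍ, F z = ENNReal.ofReal (G z) := by
      intro z
      simp only [hF, G]
      rw [ENNReal.ofReal_mul (by positivity), ENNReal.ofReal_pow (norm_nonneg _),
        ofReal_norm]
    have hbound : ∫⁻ z in K, F z ≤ ENNReal.ofReal C * volume K := by
      calc ∫⁻ z in K, F z ≤ ∫⁻ _ in K, ENNReal.ofReal C :=
            setLIntegral_mono measurable_const fun z hz => by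
              rw [hFG z]
              exact ENNReal.ofReal_le_ofReal ((le_abs_self _).trans (hC z hz))
        _ = ENNReal.ofReal C * volume K := setLIntegral_const K _
    exact lt_of_le_of_lt (hle.trans hbound)
      (ENNReal.mul_lt_top ENNReal.ofReal_lt_top hKcomp.measure_lt_top)

/-- **(POT)** in the shape of `helper801_HodgeSpec`: every real parabolic hom of `Γ₀(N)` has a
`C¹` potential of finite energy. -/
theorem stmtPOT (N : ℕ) [NeZero N] : StmtPOT N := by
  intro φ hφ
  obtain ⟨u, h1, h2, h3⟩ := exists_potential N φ hφ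
  have hpot : IsPot N φ u :=
    { contDiffOn := h2.of_le (by norm_num)
      map_smul := h1 }
  exact ⟨u, hpot, finiteEnergyCert_of_horoball N hpot.continuousOn_gradC h3⟩

end

end Fermat.Agent.S21.helper3081
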