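/-
helper3110: S21 Route 2, leaf VAR (backup copy), part 3: potentials.

`C¹` functions on the upper half plane, the function `gfun u = y (u_x - i u_y)` whose squared
norm is the invariant energy density, its linearity, the general chain rule under `SL(2,ℤ)`,
and the bridges between the hyperbolic volume on `ℍ` and Lebesgue measure on `ℂ`.
-/
import Fermat.Agent.S21.helper801_HodgeSpec

set_option autoImplicit false

namespace Fermat.Agent.S21.helper3110

open ModularCurve ModularCurve.Period CongruenceSubgroup UpperHalfPlane MeasureTheory Filter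
  Topology
open Fermat.Agent.S21.helper801
open scoped MatrixGroups ENNReal ComplexConjugate

noncomputable section

/-- `u` is `C¹` on the upper half plane. -/
def IsC1 (u : ℍ → ℝ) : Prop := ContDiffOn ℝ 1 (u ∘ ofComplex) upperHalfPlaneSet

/-- `y (u_x - i u_y)`; its squared norm is the invariant energy density. -/
def gfun (u : ℍ → ℝ) (z : ℍ) : ℂ := (z.im : ℂ) * gradC u ↑z

/-- The invariant energy density, in the shape used by `helper801_HodgeSpec`. -/
def Gd (u : ℍ → ℝ) (z : ℍ) : ℝ≥0∞ := ‖gradC u ↑z‖ₑ ^ 2 * ENNReal.ofReal (z.im ^ 2)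

theorem enorm_gfun_sq (u : ℍ → ℝ) (z : ℍ) : ‖gfun u z‖ₑ ^ 2 = Gd u z := by
  unfold gfun Gd
  rw [enorm_mul, mul_pow, mul_comm]
  congr 1
  rw [← ofReal_norm, Complex.norm_real, Real.norm_eq_abs, abs_of_pos z.im_pos,
    ENNReal.ofReal_pow z.im_pos.le]

section C1

variable {u v : ℍ → ℝ}

theorem IsC1.differentiableAt (hu : IsC1 u) (z : ℍ) :
    DifferentiableAt ℝ (u ∘ ofComplex) ↑z :=
  ((ContDiffOn.differentiableOn hu one_ne_zero) ↑z z.im_pos).differentiableAt
    (isOpen_upperHalfPlaneSet.mem_nhds z.im_pos)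

theorem IsC1.add (hu : IsC1 u) (hv : IsC1 v) : IsC1 (u + v) := ContDiffOn.add hu hv

theorem IsC1.sub (hu : IsC1 u) (hv : IsC1 v) : IsC1 (u - v) := ContDiffOn.sub hu hv

theorem IsC1.const_smul (hu : IsC1 u) (t : ℝ) : IsC1 (t • u) := ContDiffOn.const_smul t hu

theorem IsC1.continuousOn_gradC (hu : IsC1 u) : ContinuousOn (gradC u) upperHalfPlaneSet := by
  have h1 : ContinuousOn (fderiv ℝ (u ∘ ofComplex)) upperHalfPlaneSet :=
    ContDiffOn.continuousOn_fderiv_of_isOpen hu isOpen_upperHalfPlaneSet le_rfl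
  have h2 : ∀ v : ℂ, ContinuousOn (fun z => (fderiv ℝ (u ∘ ofComplex) z) v) upperHalfPlaneSet :=
    fun v => h1.clm_apply continuousOn_const
  unfold gradC
  exact (Complex.continuous_ofReal.comp_continuousOn (h2 1)).sub
    (continuousOn_const.mul (Complex.continuous_ofReal.comp_continuousOn (h2 Complex.I)))

theorem IsC1.continuous_gradC_coe (hu : IsC1 u) : Continuous (fun z : ℍ => gradC u ↑z) :=
  hu.continuousOn_gradC.comp_continuous continuous_coe (fun z => z.im_pos)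

theorem IsC1.continuous_gfun (hu : IsC1 u) : Continuous (gfun u) := by
  unfold gfun
  exact (Complex.continuous_ofReal.comp UpperHalfPlane.continuous_im).mul hu.continuous_gradC_coe

theorem IsC1.measurable_Gd (hu : IsC1 u) : Measurable (Gd u) := by
  have : Gd u = fun z => ‖gfun u z‖ₑ ^ 2 := funext fun z => (enorm_gfun_sq u z).symm
  rw [this]
  exact (hu.continuous_gfun.measurable.enorm).pow_const 2

theorem gradC_add (hu : IsC1 u) (hv : IsC1 v) (z : ℍ) :
    gradC (u + v) ↑z = gradC u ↑z + gradC v ↑z := by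
  unfold gradC
  have h : (u + v) ∘ ofComplex = (u ∘ ofComplex) + (v ∘ ofComplex) := rfl
  rw [h, fderiv_add (hu.differentiableAt z) (hv.differentiableAt z)]
  simp only [add_apply, Complex.ofReal_add]
  ring

theorem gradC_const_smul (hu : IsC1 u) (t : ℝ) (z : ℍ) :
    gradC (t • u) ↑z = (t : ℂ) * gradC u ↑z := by
  unfold gradC
  have h : (t • u) ∘ ofComplex = t • (u ∘ ofComplex) := rfl
  rw [h, fderiv_const_smul (hu.differentiableAt z)]
  simp only [smul_apply, smul_eq_mul, Complex.ofReal_mul]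
  ring

theorem gradC_sub (hu : IsC1 u) (hv : IsC1 v) (z : ℍ) :
    gradC (u - v) ↑z = gradC u ↑z - gradC v ↑z := by
  unfold gradC
  have h : (u - v) ∘ ofComplex = (u ∘ ofComplex) - (v ∘ ofComplex) := rfl
  rw [h, fderiv_sub (hu.differentiableAt z) (hv.differentiableAt z)]
  simp only [sub_apply, Complex.ofReal_sub]
  ring

theorem gfun_add (hu : IsC1 u) (hv : IsC1 v) : gfun (u + v) = gfun u + gfun v := by
  funext z
  simp only [gfun, Pi.add_apply, gradC_add hu hv z]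
  ring

theorem gfun_const_smul (hu : IsC1 u) (t : ℝ) : gfun (t • u) = t • gfun u := by
  funext z
  simp only [gfun, Pi.smul_apply, gradC_const_smul hu t z, Complex.real_smul]
  ring

theorem gfun_sub (hu : IsC1 u) (hv : IsC1 v) : gfun (u - v) = gfun u - gfun v := by
  funext z
  simp only [gfun, Pi.sub_apply, gradC_sub hu hv z]
  ring

theorem Gd_sub (hu : IsC1 u) (hv : IsC1 v) (z : ℍ) :
    Gd (u - v) z = ‖gradC u ↑z - gradC v ↑z‖ₑ ^ 2 * ENNReal.ofReal (z.im ^ 2) := by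
  unfold Gd
  rw [gradC_sub hu hv z]

end C1

/-! ### Chain rule under `SL(2,ℤ)` -/

/-- The unimodular factor `j / conj j`, `j = c z + d`. -/
def uni (g : SL(2, ℤ)) (z : ℍ) : ℂ :=
  ((g 1 0 : ℂ) * (z : ℂ) + (g 1 1 : ℂ)) / conj ((g 1 0 : ℂ) * (z : ℂ) + (g 1 1 : ℂ))

theorem cz_add_d_ne_zero (g : SL(2, ℤ)) (z : ℍ) : (g 1 0 : ℂ) * (z : ℂ) + (g 1 1 : ℂ) ≠ 0 := by
  have h := denom_ne_zero
    (Matrix.SpecialLinearGroup.toGL ((Matrix.SpecialLinearGroup.map (Int.castRingHom ℝ)) g)) z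
  rwa [ModularGroup.denom_apply] at h

theorem norm_uni (g : SL(2, ℤ)) (z : ℍ) : ‖uni g z‖ = 1 := by
  unfold uni
  rw [norm_div, RCLike.norm_conj, div_self]
  exact norm_ne_zero_iff.mpr (cz_add_d_ne_zero g z)

theorem uni_ne_zero (g : SL(2, ℤ)) (z : ℍ) : uni g z ≠ 0 := by
  rw [← norm_ne_zero_iff, norm_uni]
  exact one_ne_zero

theorem im_smul_eq (g : SL(2, ℤ)) (z : ℍ) :
    (((g • z).im : ℝ) : ℂ) = (z.im : ℂ) / (((g 1 0 : ℂ) * (z : ℂ) + (g 1 1 : ℂ))
      * conj ((g 1 0 : ℂ) * (z : ℂ) + (g 1 1 : ℂ))) := by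
  rw [ModularGroup.im_smul_eq_div_normSq, ModularGroup.denom_apply, Complex.ofReal_div,
    Complex.mul_conj]

/-- General chain rule: the complex gradient of `τ ↦ u (g • τ)`. -/
theorem gradC_comp_smul (u : ℍ → ℝ) (g : SL(2, ℤ)) (z : ℍ)
    (hd : DifferentiableAt ℝ (u ∘ ofComplex) ↑(g • z)) :
    gradC (fun τ : ℍ => u (g • τ)) ↑z
      = (1 / ((g 1 0 : ℂ) * (z : ℂ) + (g 1 1 : ℂ)) ^ 2) * gradC u ↑(g • z) := by
  set G : GL (Fin 2) ℝ :=
    Matrix.SpecialLinearGroup.toGL ((Matrix.SpecialLinearGroup.map (Int.castRingHom ℝ)) g) with hG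
  have hdet1 : (G : Matrix (Fin 2) (Fin 2) ℝ).det = 1 :=
    (Matrix.SpecialLinearGroup.map (Int.castRingHom ℝ) g).det_coe
  have hdet : 0 < (G : Matrix (Fin 2) (Fin 2) ℝ).det := by rw [hdet1]; exact one_pos
  set d : ℂ := (g 1 0 : ℂ) * (z : ℂ) + (g 1 1 : ℂ) with hd'
  have hden : denom G z = d := ModularGroup.denom_apply g z
  let U : ℂ → ℝ := u ∘ ofComplex
  let mob : ℂ → ℂ := fun w => ↑(G • ofComplex w)
  have hmob : HasDerivAt mob (1 / d ^ 2) ↑z := by
    have := (hasStrictDerivAt_smul hdet z).hasDerivAt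
    rw [hdet1, hden] at this
    simpa using this
  have hmobz : mob ↑z = ↑(g • z) := by
    simp only [mob, ofComplex_apply]
    rfl
  have hUdiff : DifferentiableAt ℝ U (mob ↑z) := by
    rw [hmobz]
    exact hd
  have hmobF := hmob.hasFDerivAt.restrictScalars ℝ
  have hcomp := hUdiff.hasFDerivAt.comp (↑z : ℂ) hmobF
  have hEq : (fun τ : ℍ => u (g • τ)) ∘ ofComplex = U ∘ mob := by
    funext w
    simp only [U, mob, Function.comp_apply, ofComplex_apply]
    rfl
  have hfd : fderiv ℝ ((fun τ : ℍ => u (g • τ)) ∘ ofComplex) ↑z = (fderiv ℝ U (mob ↑z)).comp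
      (ContinuousLinearMap.restrictScalars ℝ
        (ContinuousLinearMap.toSpanSingleton ℂ (1 / d ^ 2))) := by
    rw [hEq]; exact hcomp.fderiv
  have key := clm_wirtinger (fderiv ℝ U (mob ↑z)) (1 / d ^ 2)
  unfold gradC
  rw [hfd, ← hmobz]
  simp only [ContinuousLinearMap.comp_apply, ContinuousLinearMap.coe_restrictScalars',
    ContinuousLinearMap.toSpanSingleton_apply, smul_eq_mul, one_mul]
  rw [key]

/-- General chain rule for `gfun`. -/
theorem gfun_smul (u : ℍ → ℝ) (g : SL(2, ℤ)) (z : ℍ)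
    (hd : DifferentiableAt ℝ (u ∘ ofComplex) ↑(g • z)) :
    gfun u (g • z) = uni g z * gfun (fun τ : ℍ => u (g • τ)) z := by
  have hj := cz_add_d_ne_zero g z
  have hjc : conj ((g 1 0 : ℂ) * (z : ℂ) + (g 1 1 : ℂ)) ≠ 0 :=
    (map_ne_zero (starRingEnd ℂ)).mpr hj
  unfold gfun uni
  rw [gradC_comp_smul u g z hd, im_smul_eq]
  field_simp

/-- For a potential, `gfun` changes by the unimodular factor. -/
theorem gfun_smul_of_isPot {N : ℕ} {φ : Additive (Gamma0 N) →+ ℝ} {u : ℍ → ℝ}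
    (hu : IsPot N φ u) (γ : Gamma0 N) (z : ℍ) :
    gfun u ((γ : SL(2, ℤ)) • z) = uni (γ : SL(2, ℤ)) z * gfun u z := by
  have hj := cz_add_d_ne_zero (γ : SL(2, ℤ)) z
  have hjc : conj (((γ : SL(2, ℤ)) 1 0 : ℂ) * (z : ℂ) + ((γ : SL(2, ℤ)) 1 1 : ℂ)) ≠ 0 :=
    (map_ne_zero (starRingEnd ℂ)).mpr hj
  unfold gfun uni
  rw [hu.gradC_smul γ z, im_smul_eq]
  field_simp

theorem Gd_smul_of_isPot {N : ℕ} {φ : Additive (Gamma0 N) →+ ℝ} {u : ℍ → ℝ}
    (hu : IsPot N φ u) (γ : Gamma0 N) (z : ℍ) : Gd u ((γ : SL(2, ℤ)) • z) = Gd u z := by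
  rw [← enorm_gfun_sq, ← enorm_gfun_sq, gfun_smul_of_isPot hu γ z, enorm_mul]
  have : ‖uni (γ : SL(2, ℤ)) z‖ₑ = 1 := by
    rw [← ofReal_norm, norm_uni, ENNReal.ofReal_one]
  rw [this, one_mul]

theorem inner_uni_mul (g : SL(2, ℤ)) (z : ℍ) (x y : ℂ) :
    inner ℝ (uni g z * x) (uni g z * y) = inner ℝ x y := by
  have h1 : uni g z * conj (uni g z) = 1 := by
    rw [Complex.mul_conj, Complex.normSq_eq_norm_sq, norm_uni]
    simp
  rw [Complex.inner, Complex.inner, map_mul]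
  have : uni g z * y * (conj (uni g z) * conj x) = (uni g z * conj (uni g z)) * (y * conj x) := by
    ring
  rw [this, h1, one_mul]

end

end Fermat.Agent.S21.helper3110
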