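/-
helper3110: S21 Route 2, leaf VAR (backup copy), part 1: unfolding.

A countable group `G` acts on a measure space `(X, μ)` by measure preserving maps, and
`w : X → ℝ≥0∞` is a measurable partition weight: `∑' g, w (g • x) = 1` for every `x`.
Then for measurable `F ≥ 0`:  `∫⁻ w x * ∑' g, F (g • x) = ∫⁻ F`   (`lintegral_unfold`),
with the two counting corollaries for `G`-invariant densities, and the signed version for
integrable real functions (`integral_unfold`).  Mathlib only.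
-/
import Mathlib

set_option autoImplicit false

namespace Fermat.Agent.S21.helper3110

open MeasureTheory Filter Topology
open scoped ENNReal

section Unfold

set_option linter.unusedSectionVars false

variable {G X : Type*} [Group G] [Countable G] [MulAction G X] [MeasurableSpace X]
  {μ : Measure X} {w : X → ℝ≥0∞}

theorem tsum_inv_smul_eq (hsum : ∀ x, ∑' g : G, w (g • x) = 1) (x : X) :
    ∑' g : G, w (g⁻¹ • x) = 1 := by
  rw [← hsum x]
  exact (Equiv.inv G).tsum_eq (fun g => w (g • x))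

theorem weight_ne_top (hsum : ∀ x, ∑' g : G, w (g • x) = 1) (x : X) : w x ≠ ⊤ := by
  have h1 : w ((1 : G) • x) ≤ ∑' g : G, w (g • x) :=
    ENNReal.le_tsum (f := fun g : G => w (g • x)) 1
  rw [hsum x, one_smul] at h1
  exact ne_top_of_le_ne_top ENNReal.one_ne_top h1

/-- **Unfolding** for nonnegative measurable functions. -/
theorem lintegral_unfold (hmp : ∀ g : G, MeasurePreserving (fun x : X => g • x) μ μ)
    (hw : Measurable w) (hsum : ∀ x, ∑' g : G, w (g • x) = 1) (F : X → ℝ≥0∞)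
    (hF : Measurable F) :
    ∫⁻ x, w x * ∑' g : G, F (g • x) ∂μ = ∫⁻ x, F x ∂μ := by
  have hmeas : ∀ g : G, Measurable (fun x : X => g • x) := fun g => (hmp g).measurable
  calc ∫⁻ x, w x * ∑' g : G, F (g • x) ∂μ
      = ∫⁻ x, ∑' g : G, w x * F (g • x) ∂μ := by
        simp_rw [ENNReal.tsum_mul_left]
    _ = ∑' g : G, ∫⁻ x, w x * F (g • x) ∂μ :=
        lintegral_tsum fun g => (hw.mul (hF.comp (hmeas g))).aemeasurable
    _ = ∑' g : G, ∫⁻ x, w (g⁻¹ • x) * F x ∂μ := by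
        congr 1; funext g
        have := (hmp g).lintegral_comp (f := fun x => w (g⁻¹ • x) * F x)
          ((hw.comp (hmeas g⁻¹)).mul hF)
        simpa using this
    _ = ∫⁻ x, ∑' g : G, w (g⁻¹ • x) * F x ∂μ :=
        (lintegral_tsum fun g => ((hw.comp (hmeas g⁻¹)).mul hF).aemeasurable).symm
    _ = ∫⁻ x, F x ∂μ := by
        simp_rw [ENNReal.tsum_mul_right, tsum_inv_smul_eq hsum, one_mul]

theorem tsum_indicator_smul_eq (S : Set X) (Gf : X → ℝ≥0∞)
    (hinv : ∀ (g : G) (x : X), Gf (g • x) = Gf x) (x : X) :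
    ∑' g : G, S.indicator Gf (g • x) = ({g : G | g • x ∈ S}.encard : ℝ≥0∞) * Gf x := by
  have h1 : ∀ g : G, S.indicator Gf (g • x)
      = {g : G | g • x ∈ S}.indicator (fun _ => Gf x) g := by
    intro g
    by_cases h : g • x ∈ S
    · rw [Set.indicator_of_mem h, Set.indicator_of_mem (by exact h), hinv]
    · rw [Set.indicator_of_notMem h, Set.indicator_of_notMem (by exact h)]
  simp_rw [h1]
  rw [← tsum_subtype, ENNReal.tsum_const]
  rfl

/-- Counting bound: if every orbit meets `S` at most `M` times, the integral over `S` of an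
invariant density is at most `M` times its weighted integral. -/
theorem setLIntegral_le_of_count (hmp : ∀ g : G, MeasurePreserving (fun x : X => g • x) μ μ)
    (hw : Measurable w) (hsum : ∀ x, ∑' g : G, w (g • x) = 1) {S : Set X}
    (hS : MeasurableSet S) (Gf : X → ℝ≥0∞) (hG : Measurable Gf)
    (hinv : ∀ (g : G) (x : X), Gf (g • x) = Gf x) (M : ℕ)
    (hM : ∀ x, {g : G | g • x ∈ S}.encard ≤ M) :
    ∫⁻ x in S, Gf x ∂μ ≤ M * ∫⁻ x, w x * Gf x ∂μ := by
  rw [← lintegral_indicator hS, ← lintegral_unfold hmp hw hsum (S.indicator Gf) (hG.indicator hS),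
    ← lintegral_const_mul' _ _ (ENNReal.natCast_ne_top M)]
  apply lintegral_mono
  intro x
  show w x * ∑' g : G, S.indicator Gf (g • x) ≤ (M : ℝ≥0∞) * (w x * Gf x)
  rw [tsum_indicator_smul_eq S Gf hinv x]
  have hle : ({g : G | g • x ∈ S}.encard : ℝ≥0∞) ≤ (M : ℝ≥0∞) := by
    exact_mod_cast hM x
  calc w x * (({g : G | g • x ∈ S}.encard : ℝ≥0∞) * Gf x) ≤ w x * ((M : ℝ≥0∞) * Gf x) := by
        gcongr
    _ = (M : ℝ≥0∞) * (w x * Gf x) := by ring

/-- Covering bound: if every point where the invariant density is nonzero has a translate in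
`S`, then the weighted integral is at most the integral over `S`. -/
theorem lintegral_le_setLIntegral_of_cover
    (hmp : ∀ g : G, MeasurePreserving (fun x : X => g • x) μ μ)
    (hw : Measurable w) (hsum : ∀ x, ∑' g : G, w (g • x) = 1) {S : Set X}
    (hS : MeasurableSet S) (Gf : X → ℝ≥0∞) (hG : Measurable Gf)
    (hinv : ∀ (g : G) (x : X), Gf (g • x) = Gf x)
    (hcov : ∀ x, Gf x ≠ 0 → ∃ g : G, g • x ∈ S) :
    ∫⁻ x, w x * Gf x ∂μ ≤ ∫⁻ x in S, Gf x ∂μ := by
  rw [← lintegral_indicator hS, ← lintegral_unfold hmp hw hsum (S.indicator Gf) (hG.indicator hS)]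
  apply lintegral_mono
  intro x
  show w x * Gf x ≤ w x * ∑' g : G, S.indicator Gf (g • x)
  by_cases h0 : Gf x = 0
  · simp [h0]
  · obtain ⟨g, hg⟩ := hcov x h0
    gcongr
    calc Gf x = S.indicator Gf (g • x) := by rw [Set.indicator_of_mem hg, hinv]
      _ ≤ ∑' g : G, S.indicator Gf (g • x) :=
          ENNReal.le_tsum (f := fun g : G => S.indicator Gf (g • x)) g

theorem enorm_toReal_mul (c : ℝ≥0∞) (hc : c ≠ ⊤) (r : ℝ) : ‖c.toReal * r‖ₑ = c * ‖r‖ₑ := by
  rw [enorm_mul, Real.enorm_eq_ofReal ENNReal.toReal_nonneg, ENNReal.ofReal_toReal hc]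

/-- **Unfolding** for integrable real functions. -/
theorem integral_unfold (hmp : ∀ g : G, MeasurePreserving (fun x : X => g • x) μ μ)
    (hw : Measurable w) (hsum : ∀ x, ∑' g : G, w (g • x) = 1) (H : X → ℝ)
    (hHm : Measurable H) (hH : Integrable H μ) :
    ∫ x, (w x).toReal * ∑' g : G, H (g • x) ∂μ = ∫ x, H x ∂μ := by
  have hmeas : ∀ g : G, Measurable (fun x : X => g • x) := fun g => (hmp g).measurable
  have hfin : ∀ x, w x ≠ ⊤ := weight_ne_top hsum
  let e : G → X ≃ᵐ X := fun g =>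
    { toEquiv := MulAction.toPerm g
      measurable_toFun := hmeas g
      measurable_invFun := hmeas g⁻¹ }
  have hHfin : ∫⁻ x, ‖H x‖ₑ ∂μ ≠ ⊤ := hH.2.ne
  have hkey1 : ∑' g : G, ∫⁻ x, ‖(w x).toReal * H (g • x)‖ₑ ∂μ ≠ ⊤ := by
    have e1 : ∑' g : G, ∫⁻ x, ‖(w x).toReal * H (g • x)‖ₑ ∂μ = ∫⁻ x, ‖H x‖ₑ ∂μ := by
      calc ∑' g : G, ∫⁻ x, ‖(w x).toReal * H (g • x)‖ₑ ∂μ
          = ∑' g : G, ∫⁻ x, w x * ‖H (g • x)‖ₑ ∂μ := by
            simp_rw [enorm_toReal_mul _ (hfin _)]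
        _ = ∫⁻ x, ∑' g : G, w x * ‖H (g • x)‖ₑ ∂μ :=
            (lintegral_tsum fun g => (hw.mul ((hHm.comp (hmeas g)).enorm)).aemeasurable).symm
        _ = ∫⁻ x, w x * ∑' g : G, ‖H (g • x)‖ₑ ∂μ := by
            simp_rw [ENNReal.tsum_mul_left]
        _ = ∫⁻ x, ‖H x‖ₑ ∂μ := lintegral_unfold hmp hw hsum (fun x => ‖H x‖ₑ) hHm.enorm
    rw [e1]; exact hHfin
  have hkey2 : ∑' g : G, ∫⁻ x, ‖(w (g⁻¹ • x)).toReal * H x‖ₑ ∂μ ≠ ⊤ := by
    have e2 : ∑' g : G, ∫⁻ x, ‖(w (g⁻¹ • x)).toReal * H x‖ₑ ∂μ = ∫⁻ x, ‖H x‖ₑ ∂μ := by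
      calc ∑' g : G, ∫⁻ x, ‖(w (g⁻¹ • x)).toReal * H x‖ₑ ∂μ
          = ∑' g : G, ∫⁻ x, w (g⁻¹ • x) * ‖H x‖ₑ ∂μ := by
            simp_rw [enorm_toReal_mul _ (hfin _)]
        _ = ∫⁻ x, ∑' g : G, w (g⁻¹ • x) * ‖H x‖ₑ ∂μ :=
            (lintegral_tsum fun g => ((hw.comp (hmeas g⁻¹)).mul hHm.enorm).aemeasurable).symm
        _ = ∫⁻ x, ‖H x‖ₑ ∂μ := by
            simp_rw [ENNReal.tsum_mul_right, tsum_inv_smul_eq hsum, one_mul]
    rw [e2]; exact hHfin
  calc ∫ x, (w x).toReal * ∑' g : G, H (g • x) ∂μ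
      = ∫ x, ∑' g : G, (w x).toReal * H (g • x) ∂μ := by
        simp_rw [tsum_mul_left]
    _ = ∑' g : G, ∫ x, (w x).toReal * H (g • x) ∂μ :=
        integral_tsum (fun g =>
          (hw.ennreal_toReal.mul (hHm.comp (hmeas g))).aestronglyMeasurable) hkey1
    _ = ∑' g : G, ∫ x, (w (g⁻¹ • x)).toReal * H x ∂μ := by
        congr 1; funext g
        have h1 : MeasurePreserving (⇑(e g)) μ μ := hmp g
        have h2 := h1.integral_comp' (fun x => (w (g⁻¹ • x)).toReal * H x)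
        have h3 : ∀ x, (e g) x = g • x := fun x => rfl
        simp only [h3, inv_smul_smul] at h2
        exact h2
    _ = ∫ x, ∑' g : G, (w (g⁻¹ • x)).toReal * H x ∂μ :=
        (integral_tsum (fun g =>
          ((hw.comp (hmeas g⁻¹)).ennreal_toReal.mul hHm).aestronglyMeasurable) hkey2).symm
    _ = ∫ x, H x ∂μ := by
        congr 1; funext x
        rw [tsum_mul_right, ← ENNReal.tsum_toReal_eq (fun g => hfin _), tsum_inv_smul_eq hsum]
        simp

end Unfold

end Fermat.Agent.S21.helper3110
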