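/-
helper3110: S21 Route 2, leaf VAR (backup copy), part 4: the weighted energy
`∫⁻ w · Gd u` on `ℍ` and its comparison with integrals over orbit-covering sets, cusp strips
and compact sets; bridge between hyperbolic volume and Lebesgue measure for real integrals.
-/
import Fermat.Agent.S21.helper3110_VarUnfold
import Fermat.Agent.S21.helper3110_VarPot
import Fermat.Agent.S21.helper2307_CuspInv

set_option autoImplicit false

namespace Fermat.Agent.S21.helper3110

open ModularCurve ModularCurve.Period CongruenceSubgroup UpperHalfPlane MeasureTheory Filter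
  Topology
open Fermat.Agent.S21.helper801
open scoped MatrixGroups ENNReal ComplexConjugate

noncomputable section

theorem countable_SL : Countable SL(2, ℤ) :=
  Function.Injective.countable (β := Fin 2 → Fin 2 → ℤ)
    (f := fun g : SL(2, ℤ) => fun i j => (g : Matrix (Fin 2) (Fin 2) ℤ) i j)
    (fun _ _ h => Subtype.ext (Matrix.ext fun i j => congrFun (congrFun h i) j))

theorem countable_Gamma0 (N : ℕ) : Countable (Gamma0 N) := by
  have := countable_SL
  exact Subtype.countable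

theorem measurePreserving_SL_smul (σ : SL(2, ℤ)) :
    MeasurePreserving (fun z : ℍ => σ • z) volume volume :=
  measurePreserving_smul (σ : GL (Fin 2) ℝ) volume

theorem measurePreserving_Gamma0_smul {N : ℕ} (γ : Gamma0 N) :
    MeasurePreserving (fun z : ℍ => γ • z) volume volume :=
  measurePreserving_SL_smul (γ : SL(2, ℤ))

/-- Hyperbolic volume versus Lebesgue measure, for real (Bochner) integrals. -/
theorem integral_im_sq_mul_coe (f : ℂ → ℝ) :
    ∫ z : ℍ, z.im ^ 2 * f ↑z = ∫ w in upperHalfPlaneSet, f w := by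
  have hρc : Continuous fun z : ℍ => ((1 / NNReal.mk z.im z.im_pos.le : NNReal) ^ 2) := by
    refine .pow (.div₀ continuous_const ?_ ?_) _
    · exact continuous_im.subtype_mk _
    · exact fun x ↦ NNReal.ne_iff.mp x.im_ne_zero
  have hρ : Measurable fun z : ℍ => ((1 / NNReal.mk z.im z.im_pos.le : NNReal) ^ 2) :=
    hρc.measurable
  rw [volume_def, integral_withDensity_eq_integral_smul hρ]
  have h1 : ∀ z : ℍ, ((1 / NNReal.mk z.im z.im_pos.le : NNReal) ^ 2) • (z.im ^ 2 * f ↑z)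
      = f ↑z := by
    intro z
    rw [NNReal.smul_def, smul_eq_mul]
    push_cast
    have := z.im_ne_zero
    field_simp
  simp_rw [h1]
  rw [← measurableEmbedding_coe.integral_map (fun w => f w), measurableEmbedding_coe.map_comap,
    range_coe]

theorem measurableSet_cuspStrip (N : ℕ) : MeasurableSet (cuspStrip N) := by
  have h1 : IsClosed {z : ℍ | |z.re| ≤ (N : ℝ)} :=
    isClosed_le (continuous_abs.comp UpperHalfPlane.continuous_re) continuous_const
  have h2 : IsClosed {z : ℍ | (2 : ℝ) ≤ z.im} :=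
    isClosed_le continuous_const UpperHalfPlane.continuous_im
  exact (h1.inter h2).measurableSet

section Energy

variable {N : ℕ} {w : ℍ → ℝ≥0∞}

theorem isPot_sub {φ : Additive (Gamma0 N) →+ ℝ} {u₁ u₂ : ℍ → ℝ} (h₁ : IsPot N φ u₁)
    (h₂ : IsPot N φ u₂) : IsPot N 0 (u₁ - u₂) where
  contDiffOn := IsC1.sub h₁.contDiffOn h₂.contDiffOn
  map_smul γ z := by
    simp only [Pi.sub_apply, h₁.map_smul γ z, h₂.map_smul γ z, AddMonoidHom.zero_apply]
    ring

theorem isPot_add_smul {φ : Additive (Gamma0 N) →+ ℝ} {u v : ℍ → ℝ} (hu : IsPot N φ u)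
    (hv : IsPot N 0 v) (t : ℝ) : IsPot N φ (u + t • v) where
  contDiffOn := IsC1.add hu.contDiffOn (IsC1.const_smul hv.contDiffOn t)
  map_smul γ z := by
    simp only [Pi.add_apply, Pi.smul_apply, hu.map_smul γ z, hv.map_smul γ z,
      AddMonoidHom.zero_apply, smul_eq_mul]
    ring

theorem isPot_midpoint {φ : Additive (Gamma0 N) →+ ℝ} {u₁ u₂ : ℍ → ℝ} (h₁ : IsPot N φ u₁)
    (h₂ : IsPot N φ u₂) : IsPot N φ ((1 / 2 : ℝ) • (u₁ + u₂)) where
  contDiffOn := IsC1.const_smul (IsC1.add h₁.contDiffOn h₂.contDiffOn) _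
  map_smul γ z := by
    simp only [Pi.add_apply, Pi.smul_apply, h₁.map_smul γ z, h₂.map_smul γ z, smul_eq_mul]
    ring

theorem lintegral_gfun_withDensity (hw : Measurable w) {u : ℍ → ℝ} (hu : IsC1 u) :
    ∫⁻ z, ‖gfun u z‖ₑ ^ 2 ∂((volume : Measure ℍ).withDensity w) = ∫⁻ z, w z * Gd u z := by
  simp_rw [enorm_gfun_sq]
  rw [lintegral_withDensity_eq_lintegral_mul _ hw hu.measurable_Gd]
  rfl

/-- A finite-energy certificate bounds the weighted energy. -/
theorem energy_lt_top_of_cert (hw : Measurable w)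
    (hsum : ∀ z : ℍ, ∑' γ : Gamma0 N, w ((γ : SL(2, ℤ)) • z) = 1)
    {φ : Additive (Gamma0 N) →+ ℝ} {u : ℍ → ℝ} (hu : IsPot N φ u)
    (hc : FiniteEnergyCert N u) : ∫⁻ z, w z * Gd u z < ⊤ := by
  have := countable_Gamma0 N
  obtain ⟨B, hB, hcov, hfin⟩ := hc
  refine lt_of_le_of_lt (lintegral_le_setLIntegral_of_cover (G := Gamma0 N)
    (fun γ => measurePreserving_Gamma0_smul γ) hw hsum hB (Gd u)
    (IsC1.measurable_Gd hu.contDiffOn) (fun γ z => Gd_smul_of_isPot hu γ z)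
    (fun z _ => hcov z)) hfin

/-- Strip bound. -/
theorem strip_le (hw : Measurable w)
    (hsum : ∀ z : ℍ, ∑' γ : Gamma0 N, w ((γ : SL(2, ℤ)) • z) = 1) {M : ℕ}
    (hM2 : ∀ (σ : SL(2, ℤ)) (z : ℍ),
      {γ : Gamma0 N | σ⁻¹ • ((γ : SL(2, ℤ)) • z) ∈ cuspStrip N}.encard ≤ M)
    {φ : Additive (Gamma0 N) →+ ℝ} {u : ℍ → ℝ} (hu : IsPot N φ u) (σ : SL(2, ℤ)) :
    ∫⁻ z in cuspStrip N, ‖gradC u ↑(σ • z)‖ₑ ^ 2 * ENNReal.ofReal ((σ • z).im ^ 2)
      ≤ M * ∫⁻ z, w z * Gd u z := by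
  have := countable_Gamma0 N
  have hGm : Measurable (Gd u) := IsC1.measurable_Gd hu.contDiffOn
  set S : Set ℍ := (fun z : ℍ => σ⁻¹ • z) ⁻¹' cuspStrip N with hSdef
  have hS : MeasurableSet S := (measurePreserving_SL_smul σ⁻¹).measurable (measurableSet_cuspStrip N)
  have h1 : ∫⁻ z in cuspStrip N, Gd u (σ • z) = ∫⁻ z in S, Gd u z := by
    have h := (measurePreserving_SL_smul σ).setLIntegral_comp_preimage hS hGm
    have hpre : (fun z : ℍ => σ • z) ⁻¹' S = cuspStrip N := by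
      ext z
      simp [hSdef, inv_smul_smul]
    rw [hpre] at h
    exact h
  calc ∫⁻ z in cuspStrip N, ‖gradC u ↑(σ • z)‖ₑ ^ 2 * ENNReal.ofReal ((σ • z).im ^ 2)
      = ∫⁻ z in cuspStrip N, Gd u (σ • z) := rfl
    _ = ∫⁻ z in S, Gd u z := h1
    _ ≤ M * ∫⁻ z, w z * Gd u z :=
        setLIntegral_le_of_count (G := Gamma0 N) (fun γ => measurePreserving_Gamma0_smul γ) hw
          hsum hS (Gd u) hGm (fun γ z => Gd_smul_of_isPot hu γ z) M (fun z => hM2 σ z)

/-- Compact sets: the `L²` norm over a compact set of the gradient of an invariant function is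
bounded by a multiple of its weighted energy. -/
theorem compact_le (hw : Measurable w)
    (hsum : ∀ z : ℍ, ∑' γ : Gamma0 N, w ((γ : SL(2, ℤ)) • z) = 1)
    (hA1 : ∀ K L : Set ℍ, IsCompact K → IsCompact L →
      {γ : Gamma0 N | ∃ z ∈ K, (γ : SL(2, ℤ)) • z ∈ L}.Finite)
    (K : Set ℂ) (hK : IsCompact K) (hKU : K ⊆ upperHalfPlaneSet) :
    ∃ M : ℕ, ∀ v : ℍ → ℝ, IsPot N 0 v →
      ∫⁻ z in K, ‖gradC v z‖ₑ ^ 2 ≤ M * ∫⁻ z, w z * Gd v z := by
  have := countable_Gamma0 N
  have hrange : K ⊆ Set.range UpperHalfPlane.coe := by rw [range_coe]; exact hKU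
  set K' : Set ℍ := UpperHalfPlane.coe ⁻¹' K with hK'def
  have hK' : IsCompact K' :=
    (isEmbedding_coe.isInducing.isCompact_preimage_iff hrange).mpr hK
  have hfin := hA1 K' K' hK' hK'
  have himg : UpperHalfPlane.coe '' K' = K := Set.image_preimage_eq_of_subset hrange
  have hK'm : MeasurableSet K' := hK'.measurableSet
  refine ⟨hfin.toFinset.card, fun v hv => ?_⟩
  have hc1 : IsC1 v := hv.contDiffOn
  have hbridge : ∫⁻ z in K, ‖gradC v z‖ₑ ^ 2 = ∫⁻ τ in K', Gd v τ := by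
    rw [← himg, helper2307.setLIntegral_coe_image K' hK'm (fun z => ‖gradC v z‖ₑ ^ 2)
      ((hc1.continuous_gradC_coe.measurable.enorm).pow_const 2)]
    rfl
  rw [hbridge]
  refine setLIntegral_le_of_count (G := Gamma0 N) (fun γ => measurePreserving_Gamma0_smul γ) hw
    hsum hK'm (Gd v) hc1.measurable_Gd (fun γ z => Gd_smul_of_isPot hv γ z) _ (fun z => ?_)
  by_cases hne : ∃ γ₁ : Gamma0 N, γ₁ • z ∈ K'
  · obtain ⟨γ₁, h1⟩ := hne
    have hsub : {γ : Gamma0 N | γ • z ∈ K'}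
        ⊆ (fun δ : Gamma0 N => δ * γ₁) ''
          {δ : Gamma0 N | ∃ z ∈ K', (δ : SL(2, ℤ)) • z ∈ K'} := by
      intro γ hγ
      refine ⟨γ * γ₁⁻¹, ⟨γ₁ • z, h1, ?_⟩, by group⟩
      have h2 : (γ * γ₁⁻¹) • γ₁ • z = γ • z := by
        rw [smul_smul, inv_mul_cancel_right]
      have h3 : ((γ * γ₁⁻¹ : Gamma0 N) : SL(2, ℤ)) • (γ₁ • z) = (γ * γ₁⁻¹) • γ₁ • z := rfl
      rw [h3, h2]
      exact hγ
    calc ({γ : Gamma0 N | γ • z ∈ K'}.encard : ℕ∞)
        ≤ ((fun δ : Gamma0 N => δ * γ₁) ''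
          {δ : Gamma0 N | ∃ z ∈ K', (δ : SL(2, ℤ)) • z ∈ K'}).encard := Set.encard_le_encard hsub
      _ ≤ {δ : Gamma0 N | ∃ z ∈ K', (δ : SL(2, ℤ)) • z ∈ K'}.encard := Set.encard_image_le _ _
      _ = (hfin.toFinset.card : ℕ∞) := hfin.encard_eq_coe_toFinset_card
  · have hempty : {γ : Gamma0 N | γ • z ∈ K'} = ∅ := by
      ext γ
      simp only [Set.mem_ofPred_eq, Set.mem_empty_iff_false, iff_false]
      exact fun h => hne ⟨γ, h⟩
    rw [hempty]
    simp

end Energy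

end

end Fermat.Agent.S21.helper3110
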