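/-
helper3110: S21 Route 2, leaf VAR (backup copy), part 5: the average of a test function.

For a smooth real test function `B` compactly supported in the upper half plane,
`avg N B z = ∑' γ : Γ₀(N), B (γ z)` is a locally finite sum, hence a `C¹` invariant function;
its energy is finite and its pairing density against a potential unfolds.
-/
import Fermat.Agent.S21.helper3110_VarEnergy

set_option autoImplicit false

namespace Fermat.Agent.S21.helper3110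

open ModularCurve ModularCurve.Period CongruenceSubgroup UpperHalfPlane MeasureTheory Filter
  Topology
open Fermat.Agent.S21.helper801
open scoped MatrixGroups ENNReal ComplexConjugate

noncomputable section

/-- Restriction of a function on `ℂ` to the upper half plane. -/
def bH (B : ℂ → ℝ) : ℍ → ℝ := fun z => B ↑z

/-- Average over `Γ₀(N)`. -/
def avg (N : ℕ) (B : ℂ → ℝ) : ℍ → ℝ := fun z => ∑' γ : Gamma0 N, B ↑((γ : SL(2, ℤ)) • z)

section Avg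

variable {N : ℕ} {B : ℂ → ℝ}

theorem isCompact_suppH (hBc : HasCompactSupport B) (hBs : tsupport B ⊆ upperHalfPlaneSet) :
    IsCompact (UpperHalfPlane.coe ⁻¹' tsupport B) :=
  (isEmbedding_coe.isInducing.isCompact_preimage_iff (by rw [range_coe]; exact hBs)).mpr hBc

/-- Local finiteness of the family `B ∘ γ`. -/
theorem exists_finset_nhds
    (hA1 : ∀ K L : Set ℍ, IsCompact K → IsCompact L →
      {γ : Gamma0 N | ∃ z ∈ K, (γ : SL(2, ℤ)) • z ∈ L}.Finite)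
    (hBc : HasCompactSupport B) (hBs : tsupport B ⊆ upperHalfPlaneSet) (z₀ : ℍ) :
    ∃ (V : Set ℍ) (F : Finset (Gamma0 N)), V ∈ 𝓝 z₀ ∧
      ∀ z ∈ V, ∀ γ : Gamma0 N, γ ∉ F → (↑((γ : SL(2, ℤ)) • z) : ℂ) ∉ tsupport B := by
  obtain ⟨K₀, hK₀, hK₀n⟩ := exists_compact_mem_nhds z₀
  have hL := isCompact_suppH hBc hBs
  have hfin := hA1 K₀ _ hK₀ hL
  refine ⟨K₀, hfin.toFinset, hK₀n, fun z hz γ hγ hmem => hγ ?_⟩
  rw [Set.Finite.mem_toFinset]
  exact ⟨z, hz, hmem⟩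

theorem isC1_comp_smul (hB : ContDiff ℝ ((⊤ : ℕ∞) : WithTop ℕ∞) B) (g : SL(2, ℤ)) :
    IsC1 (fun τ : ℍ => B ↑(g • τ)) := by
  set G : GL (Fin 2) ℝ :=
    Matrix.SpecialLinearGroup.toGL ((Matrix.SpecialLinearGroup.map (Int.castRingHom ℝ)) g) with hG
  have hdet1 : (G : Matrix (Fin 2) (Fin 2) ℝ).det = 1 :=
    (Matrix.SpecialLinearGroup.map (Int.castRingHom ℝ) g).det_coe
  have hdet : 0 < (G : Matrix (Fin 2) (Fin 2) ℝ).det := by rw [hdet1]; exact one_pos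
  let mob : ℂ → ℂ := fun w => ↑(G • ofComplex w)
  have hmobd : DifferentiableOn ℂ mob upperHalfPlaneSet := by
    intro w hw
    have h := (hasStrictDerivAt_smul hdet ⟨w, hw⟩).hasDerivAt
    exact h.differentiableAt.differentiableWithinAt
  have hmobc : ContDiffOn ℝ 1 mob upperHalfPlaneSet :=
    (hmobd.contDiffOn isOpen_upperHalfPlaneSet).restrict_scalars ℝ
  have hB1 : ContDiff ℝ 1 B := hB.of_le (by simp)
  exact hB1.comp_contDiffOn hmobc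

theorem bH_comp_ofComplex_eventuallyEq (τ : ℍ) : (bH B ∘ ofComplex) =ᶠ[𝓝 (τ : ℂ)] B := by
  filter_upwards [isOpen_upperHalfPlaneSet.mem_nhds τ.im_pos] with w hw
  simp only [bH, Function.comp_apply]
  rw [ofComplex_apply_of_im_pos hw]

theorem isC1_bH (hB : ContDiff ℝ ((⊤ : ℕ∞) : WithTop ℕ∞) B) : IsC1 (bH B) := by
  have hB1 : ContDiff ℝ 1 B := hB.of_le (by simp)
  refine hB1.contDiffOn.congr fun w hw => ?_
  simp only [bH, Function.comp_apply]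
  rw [ofComplex_apply_of_im_pos hw]

theorem gradC_bH (τ : ℍ) :
    gradC (bH B) ↑τ = ((fderiv ℝ B ↑τ 1 : ℝ) : ℂ) - Complex.I * ((fderiv ℝ B ↑τ Complex.I : ℝ) : ℂ) := by
  unfold gradC
  rw [(bH_comp_ofComplex_eventuallyEq τ).fderiv_eq]

theorem gfun_bH_eq_zero (τ : ℍ) (hτ : (τ : ℂ) ∉ tsupport B) : gfun (bH B) τ = 0 := by
  unfold gfun
  rw [gradC_bH, fderiv_of_notMem_tsupport ℝ hτ]
  simp

theorem avg_eq_sum {V : Set ℍ} {F : Finset (Gamma0 N)}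
    (hVF : ∀ z ∈ V, ∀ γ : Gamma0 N, γ ∉ F → (↑((γ : SL(2, ℤ)) • z) : ℂ) ∉ tsupport B)
    {z : ℍ} (hz : z ∈ V) : avg N B z = ∑ γ ∈ F, B ↑((γ : SL(2, ℤ)) • z) := by
  unfold avg
  exact tsum_eq_sum fun γ hγ => image_eq_zero_of_notMem_tsupport (hVF z hz γ hγ)

theorem avg_comp_ofComplex_eventuallyEq {V : Set ℍ} {F : Finset (Gamma0 N)} {z₀ : ℍ}
    (hV : V ∈ 𝓝 z₀)
    (hVF : ∀ z ∈ V, ∀ γ : Gamma0 N, γ ∉ F → (↑((γ : SL(2, ℤ)) • z) : ℂ) ∉ tsupport B) :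
    (avg N B ∘ ofComplex) =ᶠ[𝓝 (z₀ : ℂ)]
      fun w => ∑ γ ∈ F, ((fun τ : ℍ => B ↑((γ : SL(2, ℤ)) • τ)) ∘ ofComplex) w := by
  have hV' : UpperHalfPlane.coe '' V ∈ 𝓝 (z₀ : ℂ) :=
    isOpenEmbedding_coe.isOpenMap.image_mem_nhds hV
  filter_upwards [hV'] with w hw
  obtain ⟨z, hz, rfl⟩ := hw
  simp only [Function.comp_apply, ofComplex_apply]
  exact avg_eq_sum hVF hz

theorem isC1_avg
    (hA1 : ∀ K L : Set ℍ, IsCompact K → IsCompact L →
      {γ : Gamma0 N | ∃ z ∈ K, (γ : SL(2, ℤ)) • z ∈ L}.Finite)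
    (hB : ContDiff ℝ ((⊤ : ℕ∞) : WithTop ℕ∞) B)
    (hBc : HasCompactSupport B) (hBs : tsupport B ⊆ upperHalfPlaneSet) : IsC1 (avg N B) := by
  intro w hw
  obtain ⟨V, F, hV, hVF⟩ := exists_finset_nhds hA1 hBc hBs ⟨w, hw⟩
  have hev := avg_comp_ofComplex_eventuallyEq hV hVF
  have hsum : ContDiffAt ℝ 1
      (fun w => ∑ γ ∈ F, ((fun τ : ℍ => B ↑((γ : SL(2, ℤ)) • τ)) ∘ ofComplex) w) w := by
    refine ContDiffAt.sum fun γ _ => ?_
    exact (isC1_comp_smul hB (γ : SL(2, ℤ))).contDiffAt (isOpen_upperHalfPlaneSet.mem_nhds hw)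
  exact (hsum.congr_of_eventuallyEq hev).contDiffWithinAt

theorem gfun_avg_eq_sum (hB : ContDiff ℝ ((⊤ : ℕ∞) : WithTop ℕ∞) B)
    {V : Set ℍ} {F : Finset (Gamma0 N)} {z₀ : ℍ} (hV : V ∈ 𝓝 z₀)
    (hVF : ∀ z ∈ V, ∀ γ : Gamma0 N, γ ∉ F → (↑((γ : SL(2, ℤ)) • z) : ℂ) ∉ tsupport B) :
    gfun (avg N B) z₀ = ∑ γ ∈ F, gfun (fun τ : ℍ => B ↑((γ : SL(2, ℤ)) • τ)) z₀ := by
  have hev := avg_comp_ofComplex_eventuallyEq hV hVF
  have hfd : fderiv ℝ (avg N B ∘ ofComplex) ↑z₀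
      = ∑ γ ∈ F, fderiv ℝ ((fun τ : ℍ => B ↑((γ : SL(2, ℤ)) • τ)) ∘ ofComplex) ↑z₀ := by
    rw [hev.fderiv_eq]
    exact fderiv_fun_sum fun γ _ => (isC1_comp_smul hB (γ : SL(2, ℤ))).differentiableAt z₀
  unfold gfun gradC
  rw [hfd]
  simp only [sum_apply, Complex.ofReal_sum, Finset.mul_sum]
  rw [← Finset.sum_sub_distrib, Finset.mul_sum]

theorem avg_smul (γ : Gamma0 N) (z : ℍ) : avg N B ((γ : SL(2, ℤ)) • z) = avg N B z := by
  unfold avg
  have h := (Equiv.mulRight γ).tsum_eq (fun δ : Gamma0 N => B ↑((δ : SL(2, ℤ)) • z))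
  rw [← h]
  congr 1
  funext δ
  simp only [Equiv.coe_mulRight, Subgroup.coe_mul, mul_smul]

theorem isPot_avg
    (hA1 : ∀ K L : Set ℍ, IsCompact K → IsCompact L →
      {γ : Gamma0 N | ∃ z ∈ K, (γ : SL(2, ℤ)) • z ∈ L}.Finite)
    (hB : ContDiff ℝ ((⊤ : ℕ∞) : WithTop ℕ∞) B)
    (hBc : HasCompactSupport B) (hBs : tsupport B ⊆ upperHalfPlaneSet) :
    IsPot N 0 (avg N B) where
  contDiffOn := isC1_avg hA1 hB hBc hBs
  map_smul γ z := by
    rw [avg_smul γ z]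
    simp

/-- The pairing density of a function `u` against the test function `B`. -/
def Hd (u : ℍ → ℝ) (B : ℂ → ℝ) (z : ℍ) : ℝ := inner ℝ (gfun u z) (gfun (bH B) z)

theorem Hd_eq_zero (u : ℍ → ℝ) (τ : ℍ) (hτ : (τ : ℂ) ∉ tsupport B) : Hd u B τ = 0 := by
  unfold Hd
  rw [gfun_bH_eq_zero τ hτ, inner_zero_right]

/-- **Pointwise unfolding of the pairing density.** -/
theorem inner_gfun_avg
    (hA1 : ∀ K L : Set ℍ, IsCompact K → IsCompact L →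
      {γ : Gamma0 N | ∃ z ∈ K, (γ : SL(2, ℤ)) • z ∈ L}.Finite)
    (hB : ContDiff ℝ ((⊤ : ℕ∞) : WithTop ℕ∞) B)
    (hBc : HasCompactSupport B) (hBs : tsupport B ⊆ upperHalfPlaneSet)
    {φ : Additive (Gamma0 N) →+ ℝ} {u : ℍ → ℝ} (hu : IsPot N φ u) (z₀ : ℍ) :
    inner ℝ (gfun u z₀) (gfun (avg N B) z₀)
      = ∑' γ : Gamma0 N, Hd u B ((γ : SL(2, ℤ)) • z₀) := by
  obtain ⟨V, F, hV, hVF⟩ := exists_finset_nhds hA1 hBc hBs z₀
  have hz₀ : z₀ ∈ V := mem_of_mem_nhds hV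
  rw [gfun_avg_eq_sum hB hV hVF, inner_sum,
    tsum_eq_sum (s := F) (fun γ hγ => Hd_eq_zero u _ (hVF z₀ hz₀ γ hγ))]
  refine Finset.sum_congr rfl fun γ _ => ?_
  unfold Hd
  rw [gfun_smul_of_isPot hu γ z₀,
    gfun_smul (bH B) (γ : SL(2, ℤ)) z₀ ((isC1_bH hB).differentiableAt _), inner_uni_mul]
  rfl

/-- The average has finite weighted energy. -/
theorem energy_avg_lt_top {w : ℍ → ℝ≥0∞} (hw : Measurable w)
    (hsum : ∀ z : ℍ, ∑' γ : Gamma0 N, w ((γ : SL(2, ℤ)) • z) = 1)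
    (hA1 : ∀ K L : Set ℍ, IsCompact K → IsCompact L →
      {γ : Gamma0 N | ∃ z ∈ K, (γ : SL(2, ℤ)) • z ∈ L}.Finite)
    (hB : ContDiff ℝ ((⊤ : ℕ∞) : WithTop ℕ∞) B)
    (hBc : HasCompactSupport B) (hBs : tsupport B ⊆ upperHalfPlaneSet) :
    ∫⁻ z, w z * Gd (avg N B) z < ⊤ := by
  have := countable_Gamma0 N
  have hpot := isPot_avg hA1 hB hBc hBs
  have hc1 : IsC1 (avg N B) := hpot.contDiffOn
  have hL := isCompact_suppH hBc hBs
  have hcov : ∀ z : ℍ, Gd (avg N B) z ≠ 0 →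
      ∃ γ : Gamma0 N, γ • z ∈ UpperHalfPlane.coe ⁻¹' tsupport B := by
    intro z hz
    by_contra hcon
    push Not at hcon
    apply hz
    obtain ⟨V, F, hV, hVF⟩ := exists_finset_nhds hA1 hBc hBs z
    rw [← enorm_gfun_sq, gfun_avg_eq_sum hB hV hVF]
    have hzero : ∀ γ ∈ F, gfun (fun τ : ℍ => B ↑((γ : SL(2, ℤ)) • τ)) z = 0 := by
      intro γ _
      have h1 := gfun_smul (bH B) (γ : SL(2, ℤ)) z ((isC1_bH hB).differentiableAt _)
      have h0 : gfun (bH B) ((γ : SL(2, ℤ)) • z) = 0 := gfun_bH_eq_zero _ (hcon γ)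
      rw [h0] at h1
      have h2 := (mul_eq_zero.mp h1.symm).resolve_left (uni_ne_zero _ z)
      exact h2
    rw [Finset.sum_eq_zero hzero]
    simp
  refine lt_of_le_of_lt (lintegral_le_setLIntegral_of_cover (G := Gamma0 N)
    (fun γ => measurePreserving_Gamma0_smul γ) hw hsum hL.measurableSet (Gd (avg N B))
    hc1.measurable_Gd (fun γ z => Gd_smul_of_isPot hpot γ z) hcov) ?_
  have hcont : Continuous fun z : ℍ => ‖gfun (avg N B) z‖₊ ^ 2 :=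
    (hc1.continuous_gfun.nnnorm).pow 2
  have h := setLIntegral_lt_top_of_isCompact (μ := (volume : Measure ℍ)) hL.measure_lt_top.ne hL
    hcont
  have heq : ∀ z : ℍ, Gd (avg N B) z = ((‖gfun (avg N B) z‖₊ ^ 2 : NNReal) : ℝ≥0∞) := by
    intro z
    rw [← enorm_gfun_sq, ENNReal.coe_pow]
    rfl
  simp_rw [heq]
  exact h

/-- The integrand of `helper1527.dirichletPairing`. -/
def dirInt (u : ℍ → ℝ) (B : ℂ → ℝ) (w : ℂ) : ℝ :=
  fderiv ℝ (u ∘ ofComplex) w 1 * fderiv ℝ B w 1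
    + fderiv ℝ (u ∘ ofComplex) w Complex.I * fderiv ℝ B w Complex.I

theorem Hd_eq (u : ℍ → ℝ) (z : ℍ) : Hd u B z = z.im ^ 2 * dirInt u B ↑z := by
  unfold Hd gfun dirInt
  rw [gradC_bH, Complex.inner]
  unfold gradC
  simp only [map_mul, map_sub, Complex.conj_ofReal, Complex.conj_I, Complex.mul_re,
    Complex.sub_re, Complex.ofReal_re, Complex.ofReal_im, Complex.I_re, Complex.I_im,
    Complex.sub_im, Complex.mul_im, Complex.neg_re, Complex.neg_im]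
  ring

theorem continuous_Hd (hB : ContDiff ℝ ((⊤ : ℕ∞) : WithTop ℕ∞) B) {u : ℍ → ℝ} (hu : IsC1 u) :
    Continuous (Hd u B) :=
  hu.continuous_gfun.inner (isC1_bH hB).continuous_gfun

theorem integrable_Hd (hB : ContDiff ℝ ((⊤ : ℕ∞) : WithTop ℕ∞) B)
    (hBc : HasCompactSupport B) (hBs : tsupport B ⊆ upperHalfPlaneSet) {u : ℍ → ℝ}
    (hu : IsC1 u) : Integrable (Hd u B) := by
  refine (continuous_Hd hB hu).integrable_of_hasCompactSupport ?_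
  exact HasCompactSupport.intro (isCompact_suppH hBc hBs) fun z hz => Hd_eq_zero u z hz

theorem integral_Hd (hBs : tsupport B ⊆ upperHalfPlaneSet) (u : ℍ → ℝ) :
    ∫ z : ℍ, Hd u B z = ∫ w : ℂ, dirInt u B w := by
  simp_rw [Hd_eq]
  rw [integral_im_sq_mul_coe]
  refine setIntegral_eq_integral_of_forall_compl_eq_zero fun w hw => ?_
  have hw' : w ∉ tsupport B := fun h => hw (hBs h)
  unfold dirInt
  rw [fderiv_of_notMem_tsupport ℝ hw']
  simp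

end Avg

end

end Fermat.Agent.S21.helper3110
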