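/-
helper3110: S21 Route 2, leaf VAR (backup copy), part 2: abstract Hilbert space lemmas for
minimizing sequences, and the dictionary between `L²` elements and (l)integrals.  Mathlib only.
-/
import Mathlib

set_option autoImplicit false

namespace Fermat.Agent.S21.helper3110

open MeasureTheory Filter Topology
open scoped ENNReal

section Hilbert

variable {E : Type*} [NormedAddCommGroup E] [InnerProductSpace ℝ E]

/-- Two almost-minimizers of the norm on a set containing their midpoint are close. -/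
theorem norm_sub_sq_le_of_minimizing (x y : E) (m εx εy : ℝ) (hx : ‖x‖ ^ 2 ≤ m + εx)
    (hy : ‖y‖ ^ 2 ≤ m + εy) (hmid : m ≤ ‖(1 / 2 : ℝ) • (x + y)‖ ^ 2) :
    ‖x - y‖ ^ 2 ≤ 2 * εx + 2 * εy := by
  have h1 := parallelogram_law_with_norm ℝ x y
  have h2 : ‖(1 / 2 : ℝ) • (x + y)‖ ^ 2 = ‖x + y‖ ^ 2 / 4 := by
    rw [norm_smul, mul_pow]
    norm_num
    ring
  rw [h2] at hmid
  linarith

/-- First variation: an almost-minimizer is almost orthogonal to every admissible direction. -/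
theorem inner_sq_le_of_minimizing (x d : E) (m ε : ℝ) (hx : ‖x‖ ^ 2 ≤ m + ε)
    (hmin : ∀ t : ℝ, m ≤ ‖x + t • d‖ ^ 2) : (inner ℝ x d) ^ 2 ≤ ε * ‖d‖ ^ 2 := by
  have h : ∀ t : ℝ, 0 ≤ ‖d‖ ^ 2 * (t * t) + 2 * inner ℝ x d * t + ε := by
    intro t
    have h1 := hmin t
    rw [norm_add_sq_real, norm_smul, inner_smul_right, mul_pow, Real.norm_eq_abs, sq_abs] at h1
    nlinarith
  have h2 := discrim_le_zero h
  unfold discrim at h2
  nlinarith

end Hilbert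

section L2

variable {α : Type*} [MeasurableSpace α] {ν : Measure α}

theorem eLpNorm_two_eq (f : α → ℂ) :
    eLpNorm f 2 ν = (∫⁻ x, ‖f x‖ₑ ^ 2 ∂ν) ^ (1 / 2 : ℝ) := by
  rw [eLpNorm_eq_lintegral_rpow_enorm_toReal (by norm_num) (by norm_num)]
  simp

theorem memLp_two_of_lintegral_lt_top {f : α → ℂ} (hf : AEStronglyMeasurable f ν)
    (h : ∫⁻ x, ‖f x‖ₑ ^ 2 ∂ν < ⊤) : MemLp f 2 ν := by
  refine ⟨hf, ?_⟩
  rw [eLpNorm_two_eq]
  exact ENNReal.rpow_lt_top_of_nonneg (by norm_num) h.ne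

theorem lintegral_enorm_sq_eq_ofReal_norm_toLp {f : α → ℂ} (hf : MemLp f 2 ν) :
    ∫⁻ x, ‖f x‖ₑ ^ 2 ∂ν = ENNReal.ofReal (‖hf.toLp f‖ ^ 2) := by
  have hfin : eLpNorm f 2 ν ≠ ⊤ := hf.2.ne
  rw [Lp.norm_toLp, ENNReal.ofReal_pow ENNReal.toReal_nonneg, ENNReal.ofReal_toReal hfin,
    eLpNorm_two_eq, ← ENNReal.rpow_natCast, ← ENNReal.rpow_mul]
  norm_num

theorem inner_toLp_eq {f g : α → ℂ} (hf : MemLp f 2 ν) (hg : MemLp g 2 ν) :
    inner ℝ (hf.toLp f) (hg.toLp g) = ∫ x, inner ℝ (f x) (g x) ∂ν := by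
  rw [L2.inner_def]
  apply integral_congr_ae
  filter_upwards [hf.coeFn_toLp, hg.coeFn_toLp] with x h1 h2
  rw [h1, h2]

end L2

end Fermat.Agent.S21.helper3110
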