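/-
helper3110: S21 Route 2, leaf VAR (Dirichlet principle), backup copy of the core.

`stmtVAR_of`: `helper801.StmtVAR N` from the three group-action inputs
(W1) a measurable partition weight for `Γ₀(N)` acting on `ℍ`,
(A1) local finiteness of the action on compact sets,
(M2) the uniform strip count.

Proof: minimizing sequence for the weighted energy in `L²(ℍ, w · vol; ℂ)`; the parallelogram
identity gives the Cauchy property, the first variation against averaged test functions gives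
asymptotic weak holomorphy (via `helper1527.asympWeakHol_of_dirichletPairing`), and the
counting bounds give the compact and strip estimates.
-/
import Fermat.Agent.S21.helper3110_VarAvg
import Fermat.Agent.S21.helper3110_VarHilbert
import Fermat.Agent.S21.helper1527_WeakHol

set_option autoImplicit false

namespace Fermat.Agent.S21.helper3110

open ModularCurve ModularCurve.Period CongruenceSubgroup UpperHalfPlane MeasureTheory Filter
  Topology
open Fermat.Agent.S21.helper801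
open scoped MatrixGroups ENNReal ComplexConjugate

noncomputable section

/-- The weighted measure `w · vol` on `ℍ`. -/
def nu (w : ℍ → ℝ≥0∞) : Measure ℍ := (volume : Measure ℍ).withDensity w

open Classical in
/-- The `L²(nu w)` vector of `gfun u` (zero if it is not square integrable). -/
def Xv (w : ℍ → ℝ≥0∞) (u : ℍ → ℝ) : Lp ℂ 2 (nu w) :=
  if h : MemLp (gfun u) 2 (nu w) then h.toLp (gfun u) else 0

section Main

variable {N : ℕ} {w : ℍ → ℝ≥0∞}

theorem Xv_eq {u : ℍ → ℝ} (h : MemLp (gfun u) 2 (nu w)) : Xv w u = h.toLp (gfun u) :=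
  dif_pos h

theorem memLp_gfun (hw : Measurable w) {u : ℍ → ℝ} (hu : IsC1 u)
    (hfin : ∫⁻ z, w z * Gd u z < ⊤) : MemLp (gfun u) 2 (nu w) :=
  memLp_two_of_lintegral_lt_top hu.continuous_gfun.aestronglyMeasurable
    (by rw [nu, lintegral_gfun_withDensity hw hu]; exact hfin)

theorem energy_eq_norm (hw : Measurable w) {u : ℍ → ℝ} (hu : IsC1 u)
    (h : MemLp (gfun u) 2 (nu w)) :
    ∫⁻ z, w z * Gd u z = ENNReal.ofReal (‖Xv w u‖ ^ 2) := by
  rw [Xv_eq h, ← lintegral_gfun_withDensity hw hu]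
  exact lintegral_enorm_sq_eq_ofReal_norm_toLp h

theorem memLp_gfun_add_smul {u v : ℍ → ℝ} (hu : IsC1 u) (hv : IsC1 v)
    (hmu : MemLp (gfun u) 2 (nu w)) (hmv : MemLp (gfun v) 2 (nu w)) (t : ℝ) :
    MemLp (gfun (u + t • v)) 2 (nu w) := by
  rw [gfun_add hu (hv.const_smul t), gfun_const_smul hv t]
  exact hmu.add (hmv.const_smul t)

theorem Xv_add_smul {u v : ℍ → ℝ} (hu : IsC1 u) (hv : IsC1 v)
    (hmu : MemLp (gfun u) 2 (nu w)) (hmv : MemLp (gfun v) 2 (nu w)) (t : ℝ) :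
    Xv w (u + t • v) = Xv w u + t • Xv w v := by
  rw [Xv_eq (memLp_gfun_add_smul hu hv hmu hmv t), Xv_eq hmu, Xv_eq hmv,
    ← MemLp.toLp_const_smul t hmv, ← MemLp.toLp_add hmu (hmv.const_smul t)]
  refine MemLp.toLp_congr _ _ (Filter.Eventually.of_forall fun z => ?_)
  rw [gfun_add hu (hv.const_smul t), gfun_const_smul hv t]

theorem memLp_gfun_smul {u : ℍ → ℝ} (hu : IsC1 u) (hmu : MemLp (gfun u) 2 (nu w)) (t : ℝ) :
    MemLp (gfun (t • u)) 2 (nu w) := by
  rw [gfun_const_smul hu t]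
  exact hmu.const_smul t

theorem Xv_smul {u : ℍ → ℝ} (hu : IsC1 u) (hmu : MemLp (gfun u) 2 (nu w)) (t : ℝ) :
    Xv w (t • u) = t • Xv w u := by
  rw [Xv_eq (memLp_gfun_smul hu hmu t), Xv_eq hmu, ← MemLp.toLp_const_smul t hmu]
  refine MemLp.toLp_congr _ _ (Filter.Eventually.of_forall fun z => ?_)
  rw [gfun_const_smul hu t]

theorem memLp_gfun_add {u v : ℍ → ℝ} (hu : IsC1 u) (hv : IsC1 v)
    (hmu : MemLp (gfun u) 2 (nu w)) (hmv : MemLp (gfun v) 2 (nu w)) :
    MemLp (gfun (u + v)) 2 (nu w) := by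
  rw [gfun_add hu hv]
  exact hmu.add hmv

theorem Xv_add {u v : ℍ → ℝ} (hu : IsC1 u) (hv : IsC1 v)
    (hmu : MemLp (gfun u) 2 (nu w)) (hmv : MemLp (gfun v) 2 (nu w)) :
    Xv w (u + v) = Xv w u + Xv w v := by
  rw [Xv_eq (memLp_gfun_add hu hv hmu hmv), Xv_eq hmu, Xv_eq hmv, ← MemLp.toLp_add hmu hmv]
  refine MemLp.toLp_congr _ _ (Filter.Eventually.of_forall fun z => ?_)
  rw [gfun_add hu hv]

theorem memLp_gfun_sub {u v : ℍ → ℝ} (hu : IsC1 u) (hv : IsC1 v)
    (hmu : MemLp (gfun u) 2 (nu w)) (hmv : MemLp (gfun v) 2 (nu w)) :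
    MemLp (gfun (u - v)) 2 (nu w) := by
  rw [gfun_sub hu hv]
  exact hmu.sub hmv

theorem Xv_sub {u v : ℍ → ℝ} (hu : IsC1 u) (hv : IsC1 v)
    (hmu : MemLp (gfun u) 2 (nu w)) (hmv : MemLp (gfun v) 2 (nu w)) :
    Xv w (u - v) = Xv w u - Xv w v := by
  rw [Xv_eq (memLp_gfun_sub hu hv hmu hmv), Xv_eq hmu, Xv_eq hmv, ← MemLp.toLp_sub hmu hmv]
  refine MemLp.toLp_congr _ _ (Filter.Eventually.of_forall fun z => ?_)
  rw [gfun_sub hu hv]

/-- The first-variation identity: the `L²(nu w)` inner product of a potential with the average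
of a test function is the Dirichlet pairing on `ℂ`. -/
theorem inner_Xv_avg (hw : Measurable w)
    (hsum : ∀ z : ℍ, ∑' γ : Gamma0 N, w ((γ : SL(2, ℤ)) • z) = 1)
    (hA1 : ∀ K L : Set ℍ, IsCompact K → IsCompact L →
      {γ : Gamma0 N | ∃ z ∈ K, (γ : SL(2, ℤ)) • z ∈ L}.Finite)
    {B : ℂ → ℝ} (hB : ContDiff ℝ ((⊤ : ℕ∞) : WithTop ℕ∞) B)
    (hBc : HasCompactSupport B) (hBs : tsupport B ⊆ upperHalfPlaneSet)
    {φ : Additive (Gamma0 N) →+ ℝ} {u : ℍ → ℝ} (hu : IsPot N φ u)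
    (hmu : MemLp (gfun u) 2 (nu w)) (hmv : MemLp (gfun (avg N B)) 2 (nu w)) :
    inner ℝ (Xv w u) (Xv w (avg N B)) = helper1527.dirichletPairing u B := by
  have := countable_Gamma0 N
  have hc1 : IsC1 u := hu.contDiffOn
  have hfin : ∀ z : ℍ, w z ≠ ⊤ := weight_ne_top (G := Gamma0 N) hsum
  calc inner ℝ (Xv w u) (Xv w (avg N B))
      = ∫ z, inner ℝ (gfun u z) (gfun (avg N B) z) ∂(nu w) := by
        rw [Xv_eq hmu, Xv_eq hmv, inner_toLp_eq]
    _ = ∫ z, (w z).toReal • inner ℝ (gfun u z) (gfun (avg N B) z) := by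
        rw [nu, integral_withDensity_eq_integral_toReal_smul hw
          (Filter.Eventually.of_forall fun z => (hfin z).lt_top)]
    _ = ∫ z, (w z).toReal * ∑' γ : Gamma0 N, Hd u B (γ • z) := by
        refine integral_congr_ae (Filter.Eventually.of_forall fun z => ?_)
        show (w z).toReal • inner ℝ (gfun u z) (gfun (avg N B) z)
          = (w z).toReal * ∑' γ : Gamma0 N, Hd u B (γ • z)
        rw [smul_eq_mul, inner_gfun_avg hA1 hB hBc hBs hu z]
        rfl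
    _ = ∫ z, Hd u B z :=
        integral_unfold (G := Gamma0 N) (fun γ => measurePreserving_Gamma0_smul γ) hw hsum
          (Hd u B) (continuous_Hd hB hc1).measurable (integrable_Hd hB hBc hBs hc1)
    _ = ∫ z : ℂ, dirInt u B z := integral_Hd hBs u
    _ = helper1527.dirichletPairing u B := rfl

/-- **VAR** (Dirichlet principle) from the three group-action inputs. -/
theorem stmtVAR_of (N : ℕ)
    (hW : ∃ w : ℍ → ℝ≥0∞, Measurable w ∧
      ∀ z : ℍ, ∑' γ : Gamma0 N, w ((γ : SL(2, ℤ)) • z) = 1)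
    (hA1 : ∀ K L : Set ℍ, IsCompact K → IsCompact L →
      {γ : Gamma0 N | ∃ z ∈ K, (γ : SL(2, ℤ)) • z ∈ L}.Finite)
    (hM2 : ∃ M : ℕ, ∀ (σ : SL(2, ℤ)) (z : ℍ),
      {γ : Gamma0 N | σ⁻¹ • ((γ : SL(2, ℤ)) • z) ∈ helper801.cuspStrip N}.encard ≤ M) :
    helper801.StmtVAR N := by
  obtain ⟨w, hw, hsum⟩ := hW
  obtain ⟨M, hM⟩ := hM2
  intro φ u₀ hu₀ hcert
  -- the admissible set and the infimum of the energy
  set A : Set (ℍ → ℝ) := {u | IsPot N φ u ∧ MemLp (gfun u) 2 (nu w)} with hA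
  have h0 : u₀ ∈ A :=
    ⟨hu₀, memLp_gfun hw hu₀.contDiffOn (energy_lt_top_of_cert hw hsum hu₀ hcert)⟩
  set R : Set ℝ := (fun u => ‖Xv w u‖ ^ 2) '' A with hR
  have hRne : R.Nonempty := ⟨_, u₀, h0, rfl⟩
  have hRbdd : BddBelow R := ⟨0, by rintro _ ⟨u, -, rfl⟩; positivity⟩
  set m := sInf R with hm
  have hmle : ∀ u ∈ A, m ≤ ‖Xv w u‖ ^ 2 := fun u hu => csInf_le hRbdd ⟨u, hu, rfl⟩
  have hex : ∀ n : ℕ, ∃ u ∈ A, ‖Xv w u‖ ^ 2 < m + 1 / ((n : ℝ) + 1) := by
    intro n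
    obtain ⟨r, ⟨u, hu, rfl⟩, hr⟩ :=
      Real.lt_sInf_add_pos hRne (ε := 1 / ((n : ℝ) + 1)) (by positivity)
    exact ⟨u, hu, hr⟩
  choose u huA hun using hex
  have hpot : ∀ n, IsPot N φ (u n) := fun n => (huA n).1
  have hc1 : ∀ n, IsC1 (u n) := fun n => (huA n).1.contDiffOn
  have hmem : ∀ n, MemLp (gfun (u n)) 2 (nu w) := fun n => (huA n).2
  refine ⟨u, hpot, ?_, ?_, ?_⟩
  · -- (i) Cauchy in `L²` on compact sets
    intro K hK hKU
    obtain ⟨MK, hMK⟩ := compact_le hw hsum hA1 K hK hKU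
    have hbound : ∀ p : ℕ × ℕ, ∫⁻ z in K, ‖gradC (u p.1) z - gradC (u p.2) z‖ₑ ^ 2
        ≤ (MK : ℝ≥0∞) * ENNReal.ofReal
          (2 * (1 / ((p.1 : ℝ) + 1)) + 2 * (1 / ((p.2 : ℝ) + 1))) := by
      intro p
      have hp := isPot_sub (hpot p.1) (hpot p.2)
      have h1 := hMK _ hp
      have hL : ∫⁻ z in K, ‖gradC (u p.1 - u p.2) z‖ₑ ^ 2
          = ∫⁻ z in K, ‖gradC (u p.1) z - gradC (u p.2) z‖ₑ ^ 2 := by
        refine setLIntegral_congr_fun hK.measurableSet fun z hz => ?_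
        have h2 := gradC_sub (hc1 p.1) (hc1 p.2) ⟨z, hKU hz⟩
        have h3 : ((⟨z, hKU hz⟩ : ℍ) : ℂ) = z := rfl
        rw [h3] at h2
        show ‖gradC (u p.1 - u p.2) z‖ₑ ^ 2 = ‖gradC (u p.1) z - gradC (u p.2) z‖ₑ ^ 2
        rw [h2]
      rw [← hL]
      refine h1.trans ?_
      gcongr
      rw [energy_eq_norm hw hp.contDiffOn (memLp_gfun_sub (hc1 p.1) (hc1 p.2) (hmem p.1) (hmem p.2)),
        Xv_sub (hc1 p.1) (hc1 p.2) (hmem p.1) (hmem p.2)]
      apply ENNReal.ofReal_le_ofReal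
      refine norm_sub_sq_le_of_minimizing _ _ m _ _ (hun p.1).le (hun p.2).le ?_
      have hmid : (1 / 2 : ℝ) • (u p.1 + u p.2) ∈ A :=
        ⟨isPot_midpoint (hpot p.1) (hpot p.2),
          memLp_gfun_smul ((hc1 p.1).add (hc1 p.2))
            (memLp_gfun_add (hc1 p.1) (hc1 p.2) (hmem p.1) (hmem p.2)) _⟩
      have h4 := hmle _ hmid
      rw [Xv_smul ((hc1 p.1).add (hc1 p.2))
        (memLp_gfun_add (hc1 p.1) (hc1 p.2) (hmem p.1) (hmem p.2)),
        Xv_add (hc1 p.1) (hc1 p.2) (hmem p.1) (hmem p.2)] at h4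
      exact h4
    have hfst : Tendsto (Prod.fst : ℕ × ℕ → ℕ) atTop atTop := by
      rw [← prod_atTop_atTop_eq]; exact tendsto_fst
    have hsnd : Tendsto (Prod.snd : ℕ × ℕ → ℕ) atTop atTop := by
      rw [← prod_atTop_atTop_eq]; exact tendsto_snd
    have ht := tendsto_one_div_add_atTop_nhds_zero_nat (𝕜 := ℝ)
    have hreal : Tendsto (fun p : ℕ × ℕ =>
        2 * (1 / ((p.1 : ℝ) + 1)) + 2 * (1 / ((p.2 : ℝ) + 1))) atTop (𝓝 0) := by
      have h1 := (ht.comp hfst).const_mul 2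
      have h2 := (ht.comp hsnd).const_mul 2
      have h3 := h1.add h2
      simpa using h3
    have hupper : Tendsto (fun p : ℕ × ℕ => (MK : ℝ≥0∞) * ENNReal.ofReal
        (2 * (1 / ((p.1 : ℝ) + 1)) + 2 * (1 / ((p.2 : ℝ) + 1)))) atTop (𝓝 0) := by
      have h1 := ENNReal.Tendsto.const_mul (a := (MK : ℝ≥0∞))
        ((ENNReal.continuous_ofReal.tendsto 0).comp hreal)
        (Or.inr (ENNReal.natCast_ne_top MK))
      simpa using h1
    exact tendsto_of_tendsto_of_tendsto_of_le_of_le tendsto_const_nhds hupper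
      (fun _ => bot_le) hbound
  · -- (ii) asymptotic weak holomorphy
    refine helper1527.asympWeakHol_of_dirichletPairing u hc1 ?_
    intro B hB hBc hBs
    have hpv := isPot_avg (N := N) hA1 hB hBc hBs
    have hcv : IsC1 (avg N B) := hpv.contDiffOn
    have hmv : MemLp (gfun (avg N B)) 2 (nu w) :=
      memLp_gfun hw hcv (energy_avg_lt_top hw hsum hA1 hB hBc hBs)
    have hb : ∀ n, (helper1527.dirichletPairing (u n) B) ^ 2
        ≤ 1 / ((n : ℝ) + 1) * ‖Xv w (avg N B)‖ ^ 2 := by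
      intro n
      rw [← inner_Xv_avg hw hsum hA1 hB hBc hBs (hpot n) (hmem n) hmv]
      refine inner_sq_le_of_minimizing _ _ m _ (hun n).le fun t => ?_
      rw [← Xv_add_smul (hc1 n) hcv (hmem n) hmv t]
      exact hmle _ ⟨isPot_add_smul (hpot n) hpv t,
        memLp_gfun_add_smul (hc1 n) hcv (hmem n) hmv t⟩
    have ht := tendsto_one_div_add_atTop_nhds_zero_nat (𝕜 := ℝ)
    have hsq : Tendsto (fun n => (helper1527.dirichletPairing (u n) B) ^ 2) atTop (𝓝 0) := by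
      have h1 := ht.mul_const (‖Xv w (avg N B)‖ ^ 2)
      rw [zero_mul] at h1
      exact tendsto_of_tendsto_of_tendsto_of_le_of_le tendsto_const_nhds h1
        (fun n => sq_nonneg _) hb
    have habs : Tendsto (fun n => |helper1527.dirichletPairing (u n) B|) atTop (𝓝 0) := by
      have h1 := (Real.continuous_sqrt.tendsto 0).comp hsq
      simp only [Real.sqrt_zero] at h1
      refine h1.congr fun n => ?_
      simp [Real.sqrt_sq_eq_abs]
    exact (tendsto_zero_iff_abs_tendsto_zero _).mpr habs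
  · -- (iii) strip bound
    refine ⟨(M : ℝ≥0∞) * ENNReal.ofReal (m + 1),
      ENNReal.mul_lt_top (ENNReal.natCast_lt_top M) ENNReal.ofReal_lt_top, fun n σ => ?_⟩
    refine (strip_le hw hsum hM (hpot n) σ).trans ?_
    gcongr
    rw [energy_eq_norm hw (hc1 n) (hmem n)]
    apply ENNReal.ofReal_le_ofReal
    have h1 := (hun n).le
    have h2 : 1 / ((n : ℝ) + 1) ≤ 1 := by
      rw [div_le_one (by positivity)]
      have : (0 : ℝ) ≤ n := Nat.cast_nonneg n
      linarith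
    linarith

end Main

end

end Fermat.Agent.S21.helper3110
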