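import Mathlib
import Fermat.Prelude.Def_ModularCurve_PeriodHomPair
import Fermat.Prelude.Def_ModularCurve_GenusNumerics

set_option autoImplicit false

/-!
# S21-D2b: numerical glue

From the abstract dimension bound for parabolic homomorphisms of a finite-index subgroup
(in either of the two shapes in circulation: orbit counts of `S`, `T`, `S*T` on the coset
space, or fixed-point counts of `S`, `S*T` plus the orbit count of `T`) and the coset
counts for `Γ₀(N)` (Module F shapes), deduce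
`(finrank parabolicHoms (Γ₀(N)) : ℚ) ≤ 2 * genusFormula N`.

Everything is in hypothesis-passing style: no dependency on other agent files.
-/

namespace Fermat.Agent.S21.helper3240

open ModularCurve ModularCurve.Period CongruenceSubgroup MulAction Subgroup

open scoped MatrixGroups

/-- Pure arithmetic, orbit-count shape. -/
theorem genus_bound_of_orbit_counts (p μ oS oT oST ψ ν2 ν3 c : ℕ)
    (h : p + (oS + oT + oST) ≤ μ + 2) (h1 : μ = ψ) (hT : oT = c)
    (hS : 2 * oS = ψ + ν2) (hST : 3 * oST = ψ + 2 * ν3) :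
    (p : ℚ) ≤ 2 * (1 + (ψ : ℚ) / 12 - (ν2 : ℚ) / 4 - (ν3 : ℚ) / 3 - (c : ℚ) / 2) := by
  subst h1 hT
  have h' : (p : ℚ) + ((oS : ℚ) + oT + oST) ≤ μ + 2 := by exact_mod_cast h
  have hS' : 2 * (oS : ℚ) = μ + ν2 := by exact_mod_cast hS
  have hST' : 3 * (oST : ℚ) = μ + 2 * ν3 := by exact_mod_cast hST
  linarith

/-- Pure arithmetic, fixed-point shape. -/
theorem genus_bound_of_fixed_counts (p μ fS fST oT ψ ν2 ν3 c : ℕ)
    (h : 6 * p + 3 * fS + 4 * fST + 6 * oT ≤ 12 + μ) (h1 : μ = ψ) (hT : oT = c)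
    (hS : fS = ν2) (hST : fST = ν3) :
    (p : ℚ) ≤ 2 * (1 + (ψ : ℚ) / 12 - (ν2 : ℚ) / 4 - (ν3 : ℚ) / 3 - (c : ℚ) / 2) := by
  subst h1 hT hS hST
  have h' : 6 * (p : ℚ) + 3 * fS + 4 * fST + 6 * oT ≤ 12 + μ := by exact_mod_cast h
  linarith

/-- Conversion between the two shapes: fixed points versus orbits of an element acting with
`g ^ 2` trivial is not needed here; we only record the two final glue theorems. -/
theorem finrank_parabolicHoms_Gamma0_le_of_orbit_counts (N : ℕ) [NeZero N]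
    (hD2a : Module.finrank ℂ (parabolicHoms ℂ (Gamma0 N) ℂ)
      + (Nat.card (orbitRel.Quotient (zpowers ModularGroup.S) (SL(2, ℤ) ⧸ Gamma0 N))
      + Nat.card (orbitRel.Quotient (zpowers ModularGroup.T) (SL(2, ℤ) ⧸ Gamma0 N))
      + Nat.card (orbitRel.Quotient (zpowers (ModularGroup.S * ModularGroup.T))
          (SL(2, ℤ) ⧸ Gamma0 N)))
      ≤ Nat.card (SL(2, ℤ) ⧸ Gamma0 N) + 2)
    (h1 : (Gamma0 N).index = dedekindPsi N)
    (hT : Nat.card (orbitRel.Quotient (zpowers ModularGroup.T) (SL(2, ℤ) ⧸ Gamma0 N))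
      = cuspCount N)
    (hS : 2 * Nat.card (orbitRel.Quotient (zpowers ModularGroup.S) (SL(2, ℤ) ⧸ Gamma0 N))
      = dedekindPsi N + nuTwo N)
    (hST : 3 * Nat.card (orbitRel.Quotient (zpowers (ModularGroup.S * ModularGroup.T))
        (SL(2, ℤ) ⧸ Gamma0 N)) = dedekindPsi N + 2 * nuThree N) :
    (Module.finrank ℂ (parabolicHoms ℂ (Gamma0 N) ℂ) : ℚ) ≤ 2 * genusFormula N := by
  unfold genusFormula
  exact genus_bound_of_orbit_counts _ _ _ _ _ _ _ _ _ hD2a h1 hT hS hST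

theorem finrank_parabolicHoms_Gamma0_le_of_fixed_counts (N : ℕ) [NeZero N]
    (hD2a : 6 * Module.finrank ℂ (parabolicHoms ℂ (Gamma0 N) ℂ)
      + 3 * Nat.card (fixedBy (SL(2, ℤ) ⧸ Gamma0 N) ModularGroup.S)
      + 4 * Nat.card (fixedBy (SL(2, ℤ) ⧸ Gamma0 N) (ModularGroup.S * ModularGroup.T))
      + 6 * Nat.card (orbitRel.Quotient (zpowers ModularGroup.T) (SL(2, ℤ) ⧸ Gamma0 N))
      ≤ 12 + Nat.card (SL(2, ℤ) ⧸ Gamma0 N))
    (h1 : (Gamma0 N).index = dedekindPsi N)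
    (hT : Nat.card (orbitRel.Quotient (zpowers ModularGroup.T) (SL(2, ℤ) ⧸ Gamma0 N))
      = cuspCount N)
    (hS : Nat.card (fixedBy (SL(2, ℤ) ⧸ Gamma0 N) ModularGroup.S) = nuTwo N)
    (hST : Nat.card (fixedBy (SL(2, ℤ) ⧸ Gamma0 N) (ModularGroup.S * ModularGroup.T))
      = nuThree N) :
    (Module.finrank ℂ (parabolicHoms ℂ (Gamma0 N) ℂ) : ℚ) ≤ 2 * genusFormula N := by
  unfold genusFormula
  exact genus_bound_of_fixed_counts _ _ _ _ _ _ _ _ _ hD2a h1 hT hS hST

end Fermat.Agent.S21.helper3240
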