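import Fermat.Agent.S21.helper21_Assembly
import Fermat.Agent.S21.helper681_ParabolicDim
import Fermat.Agent.Lib.helper804_Gamma0Cosets
import Fermat.Agent.S20.helper980_CuspCount

/-!
# S21 / S20: unconditional upper bounds and reduction to the lower bound (seat helper3681)

Everything here is unconditional glue of files already on main:

* `finrank_parabolicHoms_le` : `(finrank H¹_par(Γ₀(N), ℂ) : ℚ) ≤ 2 * genusFormula N`
  (abstract bound of `helper681` + the four coset counts of `helper804` / `helper980`);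
* `finrank_cuspForm_le` : `(finrank S₂(Γ₀(N)) : ℚ) ≤ genusFormula N`
  (the previous bound + Eichler–Shimura injectivity of `helper21`): the upper half of S20;
* `rank_of_lower`, `s21_of_lower`, `s20_of_lower` : S21 and S20 both follow from the single
  lower bound `genusFormula N ≤ finrank S₂(Γ₀(N))`;
* `rank_of_orbit_lower`, `s21_of_orbit_lower`, `s20_of_orbit_lower` : the same from the lower
  bound in orbit-count form `index + 2 ≤ 2 * finrank S₂ + #orb⟨S⟩ + #orb⟨T⟩ + #orb⟨ST⟩`
  (no `genusFormula`, no counting on `ℙ¹(ℤ/N)` is needed for S21 in that form).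
-/

set_option autoImplicit false

open ModularCurve ModularCurve.Period CongruenceSubgroup
open scoped MatrixGroups

namespace Fermat.Agent.S21.helper3681

/-- **D2, unconditional**: `dim H¹_par(Γ₀(N), ℂ) ≤ 2 * genusFormula N`. -/
theorem finrank_parabolicHoms_le (N : ℕ) [NeZero N] :
    (Module.finrank ℂ (parabolicHoms ℂ (Gamma0 N) ℂ) : ℚ) ≤ 2 * genusFormula N :=
  (Fermat.Agent.S21.helper681.finrank_parabolicHoms_Gamma0_le N
    (Fermat.Agent.Lib.helper804.index_Gamma0 N)
    (Fermat.Agent.S20.helper980.card_orbits_T N)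
    (Fermat.Agent.Lib.helper804.card_orbits_S N)
    (Fermat.Agent.Lib.helper804.card_orbits_ST N)).2

/-- **Upper half of S20, unconditional**: `dim S₂(Γ₀(N)) ≤ genusFormula N`. -/
theorem finrank_cuspForm_le (N : ℕ) [NeZero N] :
    (Module.finrank ℂ (CuspForm (Gamma0 N) 2) : ℚ) ≤ genusFormula N := by
  have h1 := finrank_parabolicHoms_le N
  have h2 : (2 : ℚ) * (Module.finrank ℂ (CuspForm (Gamma0 N) 2) : ℚ)
      ≤ (Module.finrank ℂ (parabolicHoms ℂ (Gamma0 N) ℂ) : ℚ) := by
    exact_mod_cast Fermat.Agent.S21.helper21.two_mul_finrank_cuspForm_le N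
  linarith

/-- The rank inequality needed by `helper21.result_of_rank`, from the lower bound
`genusFormula N ≤ dim S₂(Γ₀(N))`. -/
theorem rank_of_lower (N : ℕ) [NeZero N]
    (h : genusFormula N ≤ (Module.finrank ℂ (CuspForm (Gamma0 N) 2) : ℚ)) :
    Module.finrank ℂ ↥(parabolicHoms ℂ (Gamma0 N) ℂ)
      ≤ 2 * Module.finrank ℂ (CuspForm (Gamma0 N) 2) := by
  have h1 := finrank_parabolicHoms_le N
  have h2 : (Module.finrank ℂ (parabolicHoms ℂ (Gamma0 N) ℂ) : ℚ)
      ≤ ((2 * Module.finrank ℂ (CuspForm (Gamma0 N) 2) : ℕ) : ℚ) := by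
    push_cast
    linarith
  exact_mod_cast h2

/-- **S21 from the lower bound** `genusFormula N ≤ dim S₂(Γ₀(N))`. -/
theorem s21_of_lower (N : ℕ) [NeZero N]
    (h : genusFormula N ≤ (Module.finrank ℂ (CuspForm (Gamma0 N) 2) : ℚ)) :
    Function.Injective (ModularCurve.periodHomPair N)
      ∧ LinearMap.range (ModularCurve.periodHomPair N)
          = ModularCurve.Period.parabolicHoms ℂ (CongruenceSubgroup.Gamma0 N) ℂ :=
  Fermat.Agent.S21.helper21.result_of_rank N (rank_of_lower N h)

/-- **S21 from S20.** -/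
theorem s21_of_s20 (N : ℕ) [NeZero N]
    (h : (Module.finrank ℂ (CuspForm (Gamma0 N) 2) : ℚ) = genusFormula N) :
    Function.Injective (ModularCurve.periodHomPair N)
      ∧ LinearMap.range (ModularCurve.periodHomPair N)
          = ModularCurve.Period.parabolicHoms ℂ (CongruenceSubgroup.Gamma0 N) ℂ :=
  s21_of_lower N h.ge

/-- **S20 from the lower bound** `genusFormula N ≤ dim S₂(Γ₀(N))`. -/
theorem s20_of_lower (N : ℕ) [NeZero N]
    (h : genusFormula N ≤ (Module.finrank ℂ (CuspForm (Gamma0 N) 2) : ℚ)) :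
    (Module.finrank ℂ (CuspForm (CongruenceSubgroup.Gamma0 N) 2) : ℚ)
      = ModularCurve.genusFormula N :=
  le_antisymm (finrank_cuspForm_le N) h

/-! ### Orbit-count form of the lower bound -/

/-- The lower bound in orbit-count form (`D1` of the S21 plan) implies the `genusFormula`
form. -/
theorem lower_of_orbit_lower (N : ℕ) [NeZero N]
    (h : (Gamma0 N).index + 2 ≤ 2 * Module.finrank ℂ (CuspForm (Gamma0 N) 2)
      + Nat.card (MulAction.orbitRel.Quotient (Subgroup.zpowers ModularGroup.S)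
          (SL(2, ℤ) ⧸ Gamma0 N))
      + Nat.card (MulAction.orbitRel.Quotient (Subgroup.zpowers ModularGroup.T)
          (SL(2, ℤ) ⧸ Gamma0 N))
      + Nat.card (MulAction.orbitRel.Quotient
          (Subgroup.zpowers (ModularGroup.S * ModularGroup.T)) (SL(2, ℤ) ⧸ Gamma0 N))) :
    genusFormula N ≤ (Module.finrank ℂ (CuspForm (Gamma0 N) 2) : ℚ) := by
  rw [Fermat.Agent.Lib.helper804.index_Gamma0 N,
    Fermat.Agent.S20.helper980.card_orbits_T N] at h
  have hS := Fermat.Agent.Lib.helper804.card_orbits_S N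
  have hST := Fermat.Agent.Lib.helper804.card_orbits_ST N
  have h' : ((dedekindPsi N : ℕ) : ℚ) + 2 ≤ 2 * (Module.finrank ℂ (CuspForm (Gamma0 N) 2) : ℚ)
      + (Nat.card (MulAction.orbitRel.Quotient (Subgroup.zpowers ModularGroup.S)
          (SL(2, ℤ) ⧸ Gamma0 N)) : ℚ)
      + (cuspCount N : ℚ)
      + (Nat.card (MulAction.orbitRel.Quotient
          (Subgroup.zpowers (ModularGroup.S * ModularGroup.T)) (SL(2, ℤ) ⧸ Gamma0 N)) : ℚ) := by
    exact_mod_cast h
  have hS' : (2 : ℚ) * (Nat.card (MulAction.orbitRel.Quotient (Subgroup.zpowers ModularGroup.S)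
      (SL(2, ℤ) ⧸ Gamma0 N)) : ℚ) = (dedekindPsi N : ℚ) + (nuTwo N : ℚ) := by
    exact_mod_cast hS
  have hST' : (3 : ℚ) * (Nat.card (MulAction.orbitRel.Quotient
      (Subgroup.zpowers (ModularGroup.S * ModularGroup.T)) (SL(2, ℤ) ⧸ Gamma0 N)) : ℚ)
      = (dedekindPsi N : ℚ) + 2 * (nuThree N : ℚ) := by
    exact_mod_cast hST
  unfold genusFormula
  linarith

/-- The rank inequality from the orbit-count lower bound, directly from the abstract
bound of `helper681` (no counting on `ℙ¹(ℤ/N)` involved). -/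
theorem rank_of_orbit_lower (N : ℕ) [NeZero N]
    (h : (Gamma0 N).index + 2 ≤ 2 * Module.finrank ℂ (CuspForm (Gamma0 N) 2)
      + Nat.card (MulAction.orbitRel.Quotient (Subgroup.zpowers ModularGroup.S)
          (SL(2, ℤ) ⧸ Gamma0 N))
      + Nat.card (MulAction.orbitRel.Quotient (Subgroup.zpowers ModularGroup.T)
          (SL(2, ℤ) ⧸ Gamma0 N))
      + Nat.card (MulAction.orbitRel.Quotient
          (Subgroup.zpowers (ModularGroup.S * ModularGroup.T)) (SL(2, ℤ) ⧸ Gamma0 N))) :
    Module.finrank ℂ ↥(parabolicHoms ℂ (Gamma0 N) ℂ)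
      ≤ 2 * Module.finrank ℂ (CuspForm (Gamma0 N) 2) :=
  rank_of_lower N (lower_of_orbit_lower N h)

/-- **S21 from the orbit-count lower bound.** -/
theorem s21_of_orbit_lower (N : ℕ) [NeZero N]
    (h : (Gamma0 N).index + 2 ≤ 2 * Module.finrank ℂ (CuspForm (Gamma0 N) 2)
      + Nat.card (MulAction.orbitRel.Quotient (Subgroup.zpowers ModularGroup.S)
          (SL(2, ℤ) ⧸ Gamma0 N))
      + Nat.card (MulAction.orbitRel.Quotient (Subgroup.zpowers ModularGroup.T)
          (SL(2, ℤ) ⧸ Gamma0 N))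
      + Nat.card (MulAction.orbitRel.Quotient
          (Subgroup.zpowers (ModularGroup.S * ModularGroup.T)) (SL(2, ℤ) ⧸ Gamma0 N))) :
    Function.Injective (ModularCurve.periodHomPair N)
      ∧ LinearMap.range (ModularCurve.periodHomPair N)
          = ModularCurve.Period.parabolicHoms ℂ (CongruenceSubgroup.Gamma0 N) ℂ :=
  Fermat.Agent.S21.helper21.result_of_rank N (rank_of_orbit_lower N h)

/-- **S20 from the orbit-count lower bound.** -/
theorem s20_of_orbit_lower (N : ℕ) [NeZero N]
    (h : (Gamma0 N).index + 2 ≤ 2 * Module.finrank ℂ (CuspForm (Gamma0 N) 2)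
      + Nat.card (MulAction.orbitRel.Quotient (Subgroup.zpowers ModularGroup.S)
          (SL(2, ℤ) ⧸ Gamma0 N))
      + Nat.card (MulAction.orbitRel.Quotient (Subgroup.zpowers ModularGroup.T)
          (SL(2, ℤ) ⧸ Gamma0 N))
      + Nat.card (MulAction.orbitRel.Quotient
          (Subgroup.zpowers (ModularGroup.S * ModularGroup.T)) (SL(2, ℤ) ⧸ Gamma0 N))) :
    (Module.finrank ℂ (CuspForm (CongruenceSubgroup.Gamma0 N) 2) : ℚ)
      = ModularCurve.genusFormula N :=
  s20_of_lower N (lower_of_orbit_lower N h)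

end Fermat.Agent.S21.helper3681
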