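/-
helper4076: S21 Route 2 (Hodge/Weyl/Dirichlet principle) — ASSEMBLY.

`stmtH_of_leaves : StmtA N → Stmt_POT N → Stmt_VAR N → Stmt_LIM → Stmt_CUSP N → Stmt_PER N →
  helper801.StmtH N`, with all shape bridges between the leaves:
* `re_Dc_mul`, `continuousOn_Dc`          : the complex gradient `Dc u = u_x - i u_y`;
* `fderiv_comp_smul`, `Dc_smul_eq`         : chain rule for Möbius maps, weight-2 equivariance
                                             of `Dc u` for potentials;
* `Dc_smul_eq_zero_of_const`, `exists_covering_finite_energy` : a cusp-constant potential has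
                                             finite energy on a set meeting every orbit;
* `tendsto_L1_of_tendsto_L2`               : L² → L¹ on compacts.
-/
import Fermat.Agent.S21.helper4076_R2Spec

set_option autoImplicit false

namespace Fermat.Agent.S21.helper4076

open ModularCurve ModularCurve.Period CongruenceSubgroup UpperHalfPlane Filter Topology
  MeasureTheory
open scoped MatrixGroups ENNReal ContDiff Modular

theorem isOpen_UH : IsOpen UH := isOpen_lt continuous_const Complex.continuous_im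

theorem coe_mem_UH (z : ℍ) : (z : ℂ) ∈ UH := z.im_pos

/-- The real derivative of `u` at `z` is `v ↦ Re (Dc u z * v)`. -/
theorem re_Dc_mul (u : ℂ → ℝ) (z v : ℂ) : (Dc u z * v).re = fderiv ℝ u z v := by
  have hv : v = (v.re : ℝ) • (1 : ℂ) + (v.im : ℝ) • Complex.I := by
    apply Complex.ext <;> simp
  conv_rhs => rw [hv]
  rw [map_add, map_smul, map_smul]
  simp only [Dc, Complex.mul_re, Complex.sub_re, Complex.sub_im, Complex.ofReal_re,
    Complex.ofReal_im, Complex.mul_im, Complex.I_re, Complex.I_im, smul_eq_mul]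
  ring

theorem differentiableAt_of_contDiffOn {u : ℂ → ℝ} (hu : ContDiffOn ℝ 1 u UH) {z : ℂ}
    (hz : z ∈ UH) : DifferentiableAt ℝ u z :=
  (hu.differentiableOn one_ne_zero).differentiableAt (isOpen_UH.mem_nhds hz)

/-- If `Re (A v) = Re (B v)` for all `v` then `A = B`. -/
theorem eq_of_forall_re_mul_eq {A B : ℂ} (h : ∀ v : ℂ, (A * v).re = (B * v).re) : A = B := by
  apply Complex.ext
  · simpa using h 1
  · have := h Complex.I
    simpa using this

theorem det_coe_eq_one (g : SL(2, ℤ)) : (g : GL (Fin 2) ℝ).val.det = 1 :=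
  (Matrix.SpecialLinearGroup.map (Int.castRingHom ℝ) g).det_coe

theorem det_coe_pos (g : SL(2, ℤ)) : 0 < (g : GL (Fin 2) ℝ).val.det := by
  rw [det_coe_eq_one]; exact one_pos

/-- Chain rule for a `C¹` function composed with the Möbius action of `g ∈ SL(2, ℤ)`. -/
theorem fderiv_comp_smul {u : ℂ → ℝ} (hu : ContDiffOn ℝ 1 u UH) (g : SL(2, ℤ)) (z : ℍ)
    (v : ℂ) :
    fderiv ℝ (fun w : ℂ => u ↑(g • ofComplex w)) ↑z v
      = fderiv ℝ u ↑(g • z) (v / denom g z ^ 2) := by
  have hm := ((hasStrictDerivAt_smul (det_coe_pos g) z).hasDerivAt).hasFDerivAt.restrictScalars ℝ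
  have hu' : HasFDerivAt u (fderiv ℝ u ↑(g • z))
      ((fun w : ℂ => (↑((g : GL (Fin 2) ℝ) • ofComplex w) : ℂ)) ↑z) := by
    have : ((fun w : ℂ => (↑((g : GL (Fin 2) ℝ) • ofComplex w) : ℂ)) ↑z) = ↑(g • z) := by
      simp
    rw [this]
    exact (differentiableAt_of_contDiffOn hu (coe_mem_UH _)).hasFDerivAt
  have hc := (hu'.comp (↑z : ℂ) hm).fderiv
  have hfun : (fun w : ℂ => u ↑(g • ofComplex w))
      = u ∘ fun w : ℂ => (↑((g : GL (Fin 2) ℝ) • ofComplex w) : ℂ) := rfl
  rw [hfun, hc, det_coe_eq_one]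
  simp only [ContinuousLinearMap.coe_comp, Function.comp_apply,
    ContinuousLinearMap.coe_restrictScalars', ContinuousLinearMap.toSpanSingleton_apply,
    Complex.ofReal_one, smul_eq_mul]
  congr 1
  field_simp

/-- Weight-2 equivariance of the complex gradient of a potential. -/
theorem Dc_smul_eq {N : ℕ} {φ : Additive (Gamma0 N) →+ ℝ} {u : ℂ → ℝ} (hu : IsPotC N φ u)
    (γ : SL(2, ℤ)) (hγ : γ ∈ Gamma0 N) (z : ℍ) :
    Dc u ↑(γ • z) = (denom γ z) ^ 2 * Dc u ↑z := by
  have hd : denom γ z ≠ 0 := denom_ne_zero _ z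
  have hev : (fun w : ℂ => u ↑(γ • ofComplex w))
      =ᶠ[𝓝 (z : ℂ)] fun w => u w + φ (Additive.ofMul (⟨γ, hγ⟩ : Gamma0 N)) := by
    filter_upwards [isOpen_UH.mem_nhds (coe_mem_UH z)] with w hw
    have h := hu.2 ⟨γ, hγ⟩ (ofComplex w)
    have hw' : ((ofComplex w : ℍ) : ℂ) = w := ofComplex_apply_of_im_pos hw ▸ rfl
    rw [hw'] at h
    exact h
  have hfd : fderiv ℝ (fun w : ℂ => u ↑(γ • ofComplex w)) ↑z = fderiv ℝ u ↑z := by
    rw [hev.fderiv_eq]
    exact fderiv_add_const _
  have key : ∀ v : ℂ, (Dc u ↑z * v).re = ((Dc u ↑(γ • z) / denom γ z ^ 2) * v).re := by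
    intro v
    rw [re_Dc_mul, ← hfd, fderiv_comp_smul hu.1, ← re_Dc_mul, div_mul_eq_mul_div, mul_div_assoc]
  have h2 := eq_of_forall_re_mul_eq key
  rw [h2]
  field_simp

/-- If `u ∘ σ` is constant on `{Im > 2}` then the complex gradient of `u` vanishes on
`σ • {Im > 2}`. -/
theorem Dc_smul_eq_zero_of_const {u : ℂ → ℝ} (hu : ContDiffOn ℝ 1 u UH) (σ : SL(2, ℤ)) (c : ℝ)
    (hc : ∀ z : ℍ, 2 < z.im → u ↑(σ • z) = c) (z : ℍ) (hz : 2 < z.im) :
    Dc u ↑(σ • z) = 0 := by
  have hd : denom σ z ≠ 0 := denom_ne_zero _ z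
  have hopen : IsOpen {w : ℂ | 2 < w.im} := isOpen_lt continuous_const Complex.continuous_im
  have hev : (fun w : ℂ => u ↑(σ • ofComplex w)) =ᶠ[𝓝 (z : ℂ)] fun _ => c := by
    filter_upwards [hopen.mem_nhds (show (z : ℂ) ∈ {w : ℂ | 2 < w.im} from hz)] with w hw
    have hw0 : 0 < w.im := lt_trans two_pos hw
    apply hc
    rw [ofComplex_apply_of_im_pos hw0]
    exact hw
  have hfd : fderiv ℝ (fun w : ℂ => u ↑(σ • ofComplex w)) ↑z = 0 := by
    rw [hev.fderiv_eq]
    exact fderiv_const_apply c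
  have key : ∀ v : ℂ, fderiv ℝ u ↑(σ • z) v = 0 := by
    intro v
    have := fderiv_comp_smul hu σ z (v * denom σ z ^ 2)
    rw [hfd] at this
    rw [mul_div_assoc, div_self (pow_ne_zero 2 hd), mul_one] at this
    simpa using this.symm
  unfold Dc
  rw [key, key]
  simp

theorem continuousOn_Dc {u : ℂ → ℝ} (hu : ContDiffOn ℝ 1 u UH) : ContinuousOn (Dc u) UH := by
  have h := hu.continuousOn_fderiv_of_isOpen isOpen_UH le_rfl
  have h1 : ContinuousOn (fun z => fderiv ℝ u z 1) UH := h.clm_apply continuousOn_const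
  have h2 : ContinuousOn (fun z => fderiv ℝ u z Complex.I) UH := h.clm_apply continuousOn_const
  exact (Complex.continuous_ofReal.comp_continuousOn h1).sub
    ((Complex.continuous_ofReal.comp_continuousOn h2).mul continuousOn_const)

theorem setLIntegral_finset_biUnion_lt_top {α ι : Type*} [MeasurableSpace α] {μ : Measure α}
    (R : Finset ι) (t : ι → Set α) (f : α → ℝ≥0∞) (h : ∀ s ∈ R, ∫⁻ a in t s, f a ∂μ < ⊤) :
    ∫⁻ a in ⋃ s ∈ R, t s, f a ∂μ < ⊤ := by
  classical
  induction R using Finset.induction_on with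
  | empty => simp
  | insert i R hi ih =>
    rw [Finset.set_biUnion_insert]
    refine (lintegral_union_le _ _ _).trans_lt ?_
    exact ENNReal.add_lt_top.mpr ⟨h i (Finset.mem_insert_self i R),
      ih fun s hs => h s (Finset.mem_insert_of_mem hs)⟩

/-- Finitely many representatives of `Γ₀(N) \ SL(2, ℤ)`. -/
theorem exists_finite_reps (N : ℕ) [NeZero N] :
    ∃ R : Finset SL(2, ℤ), ∀ g : SL(2, ℤ), ∃ γ ∈ Gamma0 N, ∃ s ∈ R, g = γ * s := by
  classical
  have : Finite (SL(2, ℤ) ⧸ Gamma0 N) := Subgroup.finite_quotient_of_finiteIndex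
  have := Fintype.ofFinite (SL(2, ℤ) ⧸ Gamma0 N)
  refine ⟨Finset.univ.image (fun q : SL(2, ℤ) ⧸ Gamma0 N => (Quotient.out q)⁻¹), fun g => ?_⟩
  obtain ⟨h, hh⟩ := QuotientGroup.mk_out_eq_mul (Gamma0 N) g⁻¹
  refine ⟨h, h.2, _, Finset.mem_image_of_mem _ (Finset.mem_univ (QuotientGroup.mk g⁻¹)), ?_⟩
  rw [hh]; group

theorem continuous_Gdens {u : ℂ → ℝ} (hu : ContDiffOn ℝ 1 u UH) : Continuous (Gdens u) := by
  have h1 : Continuous fun z : ℍ => Dc u ↑z :=
    (continuousOn_Dc hu).comp_continuous UpperHalfPlane.continuous_coe coe_mem_UH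
  exact (UpperHalfPlane.continuous_im.pow 2).mul (h1.norm.pow 2)

theorem continuous_sl_smul (s : SL(2, ℤ)) : Continuous fun z : ℍ => s • z :=
  continuous_const_smul (s : GL (Fin 2) ℝ)

/-- Finite energy of a cusp-constant potential on a finite union of translates of the
standard fundamental domain, which meets every `Γ₀(N)`-orbit. -/
theorem exists_covering_finite_energy (N : ℕ) [NeZero N] (u : ℂ → ℝ)
    (hu : ContDiffOn ℝ 1 u UH)
    (hcusp : ∀ σ : SL(2, ℤ), ∃ c : ℝ, ∀ z : ℍ, 2 < z.im → u ↑(σ • z) = c) :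
    ∃ B : Set ℍ, MeasurableSet B ∧ (∀ z : ℍ, ∃ γ : Gamma0 N, (γ : SL(2, ℤ)) • z ∈ B) ∧
        ∫⁻ z in B, ENNReal.ofReal (Gdens u z) < ⊤ := by
  classical
  obtain ⟨R, hR⟩ := exists_finite_reps N
  refine ⟨⋃ s ∈ R, (fun z : ℍ => s⁻¹ • z) ⁻¹' 𝒟, ?_, ?_, ?_⟩
  · exact Finset.measurableSet_biUnion R fun s _ =>
      (ModularGroup.isClosed_fd.preimage (continuous_sl_smul s⁻¹)).measurableSet
  · intro z
    obtain ⟨g, hg⟩ := ModularGroup.exists_smul_mem_fd z
    obtain ⟨γ, hγ, s, hs, hgs⟩ := hR g⁻¹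
    refine ⟨⟨γ⁻¹, (Gamma0 N).inv_mem hγ⟩, ?_⟩
    simp only [Set.mem_iUnion, Set.mem_preimage, exists_prop]
    refine ⟨s, hs, ?_⟩
    have : s⁻¹ • (γ⁻¹ • z) = g • z := by
      rw [← mul_smul]
      congr 1
      rw [← mul_inv_rev, ← hgs, inv_inv]
    rw [this]
    exact hg
  · -- energy bound
    have hcG : Continuous (Gdens u) := continuous_Gdens hu
    have hterm : ∀ s ∈ R,
        ∫⁻ z in (fun z : ℍ => s⁻¹ • z) ⁻¹' 𝒟, ENNReal.ofReal (Gdens u z) < ⊤ := by
      intro s _
      -- change of variables `z = s • w`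
      have hmp : MeasurePreserving (fun z : ℍ => s⁻¹ • z) volume volume :=
        measurePreserving_smul ((s⁻¹ : SL(2, ℤ)) : GL (Fin 2) ℝ) volume
      have hemb : MeasurableEmbedding (fun z : ℍ => s⁻¹ • z) :=
        measurableEmbedding_const_smul ((s⁻¹ : SL(2, ℤ)) : GL (Fin 2) ℝ)
      have hcv := hmp.setLIntegral_comp_preimage_emb hemb
        (fun w : ℍ => ENNReal.ofReal (Gdens u (s • w))) 𝒟
      have hcv' : ∫⁻ z in (fun z : ℍ => s⁻¹ • z) ⁻¹' 𝒟, ENNReal.ofReal (Gdens u z)
          = ∫⁻ w in 𝒟, ENNReal.ofReal (Gdens u (s • w)) := by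
        rw [← hcv]
        refine lintegral_congr fun z => ?_
        rw [smul_inv_smul]
      rw [hcv']
      -- the integrand vanishes above height 2
      obtain ⟨c, hc⟩ := hcusp s
      have hzero : ∀ w : ℍ, 2 < w.im → Gdens u (s • w) = 0 := by
        intro w hw
        unfold Gdens
        rw [Dc_smul_eq_zero_of_const hu s c hc w hw]
        simp
      have hTmeas : MeasurableSet (ModularGroup.truncatedFundamentalDomain 2) :=
        (ModularGroup.isCompact_truncatedFundamentalDomain 2).isClosed.measurableSet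
      have hle : ∫⁻ w in 𝒟, ENNReal.ofReal (Gdens u (s • w))
          ≤ ∫⁻ w in ModularGroup.truncatedFundamentalDomain 2,
              ENNReal.ofReal (Gdens u (s • w)) := by
        rw [← lintegral_indicator hTmeas]
        refine (setLIntegral_mono' ModularGroup.isClosed_fd.measurableSet fun w hw => ?_).trans
          (setLIntegral_le_lintegral _ _)
        by_cases h2 : w.im ≤ 2
        · rw [Set.indicator_of_mem (show w ∈ ModularGroup.truncatedFundamentalDomain 2 from
            ⟨hw, h2⟩)]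
        · rw [hzero w (not_le.mp h2)]
          simp
      refine hle.trans_lt ?_
      have hint : IntegrableOn (fun w : ℍ => Gdens u (s • w))
          (ModularGroup.truncatedFundamentalDomain 2) volume :=
        (hcG.comp (continuous_sl_smul s)).continuousOn.integrableOn_compact
          (ModularGroup.isCompact_truncatedFundamentalDomain 2)
      exact hint.lintegral_lt_top
    exact setLIntegral_finset_biUnion_lt_top R _ _ hterm

/-- L² convergence on a compact set implies L¹ convergence (for nonnegative continuous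
functions; elementary AM–GM argument). -/
theorem tendsto_L1_of_tendsto_L2 {K : Set ℂ} (hK : IsCompact K) (g : ℕ → ℂ → ℝ)
    (hg0 : ∀ n z, 0 ≤ g n z) (hgc : ∀ n, ContinuousOn (g n) K)
    (h2 : Tendsto (fun n => ∫ z in K, g n z ^ 2) atTop (𝓝 0)) :
    Tendsto (fun n => ∫ z in K, g n z) atTop (𝓝 0) := by
  have hKm : MeasurableSet K := hK.isClosed.measurableSet
  have hint1 : ∀ n, IntegrableOn (g n) K volume := fun n => (hgc n).integrableOn_compact hK
  have hint2 : ∀ n, IntegrableOn (fun z => g n z ^ 2) K volume :=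
    fun n => ((hgc n).pow 2).integrableOn_compact hK
  set V : ℝ := volume.real K with hV
  have hV0 : 0 ≤ V := measureReal_nonneg
  rw [Metric.tendsto_atTop] at h2 ⊢
  intro ε hε
  set t : ℝ := ε / (V + 1) with ht
  have ht0 : 0 < t := div_pos hε (by linarith)
  obtain ⟨n₀, hn₀⟩ := h2 (t * ε) (mul_pos ht0 hε)
  refine ⟨n₀, fun n hn => ?_⟩
  have h2n := hn₀ n hn
  rw [Real.dist_eq, sub_zero] at h2n ⊢
  have hnn : 0 ≤ ∫ z in K, g n z := setIntegral_nonneg hKm fun z _ => hg0 n z
  have hnn2 : 0 ≤ ∫ z in K, g n z ^ 2 := setIntegral_nonneg hKm fun z _ => sq_nonneg _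
  rw [abs_of_nonneg hnn]
  rw [abs_of_nonneg hnn2] at h2n
  have hpt : ∀ z ∈ K, g n z ≤ t / 2 + (1 / (2 * t)) * g n z ^ 2 := by
    intro z _
    have h := sq_nonneg (g n z - t)
    have : t / 2 + (1 / (2 * t)) * g n z ^ 2 - g n z = (g n z - t) ^ 2 / (2 * t) := by
      field_simp
      ring
    have h3 : 0 ≤ (g n z - t) ^ 2 / (2 * t) := div_nonneg h (by linarith)
    linarith
  have hc : IntegrableOn (fun _ : ℂ => t / 2) K volume :=
    integrableOn_const (hK.measure_lt_top.ne)
  have hq : IntegrableOn (fun z => (1 / (2 * t)) * g n z ^ 2) K volume :=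
    (hint2 n).const_mul _
  have hintR : IntegrableOn (fun z => t / 2 + (1 / (2 * t)) * g n z ^ 2) K volume :=
    hc.add hq
  have hle := setIntegral_mono_on (hint1 n) hintR hKm hpt
  have heq : ∫ z in K, (t / 2 + (1 / (2 * t)) * g n z ^ 2)
      = V * (t / 2) + (1 / (2 * t)) * ∫ z in K, g n z ^ 2 := by
    have h1 : ∫ z in K, (t / 2 + (1 / (2 * t)) * g n z ^ 2)
        = (∫ _z in K, t / 2) + ∫ z in K, (1 / (2 * t)) * g n z ^ 2 :=
      integral_add hc hq
    rw [h1, setIntegral_const, integral_const_mul, smul_eq_mul]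
  rw [heq] at hle
  have h4 : (1 / (2 * t)) * ∫ z in K, g n z ^ 2 < ε / 2 := by
    have : (1 / (2 * t)) * ∫ z in K, g n z ^ 2 < (1 / (2 * t)) * (t * ε) :=
      mul_lt_mul_of_pos_left h2n (by positivity)
    have h5 : (1 / (2 * t)) * (t * ε) = ε / 2 := by field_simp
    linarith
  have h6 : V * (t / 2) < ε / 2 := by
    have : V * t < ε := by
      rw [ht, ← mul_div_assoc, div_lt_iff₀ (by linarith)]
      nlinarith
    linarith
  linarith


/-- **Route 2 assembly**: the five leaves (and (A)) give the Hodge existence statement (H). -/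
theorem stmtH_of_leaves (N : ℕ) [NeZero N] (hA : helper921.StmtA N) (hPOT : Stmt_POT N)
    (hVAR : Stmt_VAR N) (hLIM : Stmt_LIM) (hCUSP : Stmt_CUSP N) (hPER : Stmt_PER N) :
    helper801.StmtH N := by
  intro φ hφ
  -- POT: a smooth cusp-constant potential on `ℍ`, transported to `ℂ`
  obtain ⟨u0, hu0per, hu0smooth, hu0cusp⟩ := hPOT φ hφ
  have hU1 : ContDiffOn ℝ 1 (u0 ∘ ofComplex) UH := hu0smooth.of_le (by exact_mod_cast le_top)
  have hpot0 : IsPotC N φ (u0 ∘ ofComplex) := by
    refine ⟨hU1, fun γ z => ?_⟩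
    simp only [Function.comp_apply, ofComplex_apply]
    exact hu0per γ z
  have hcusp' : ∀ σ : SL(2, ℤ), ∃ c : ℝ, ∀ z : ℍ, 2 < z.im →
      (u0 ∘ ofComplex) ↑(σ • z) = c := by
    intro σ
    obtain ⟨c, hc⟩ := hu0cusp σ
    refine ⟨c, fun z hz => ?_⟩
    simp only [Function.comp_apply, ofComplex_apply]
    exact hc z hz
  have hB := exists_covering_finite_energy N (u0 ∘ ofComplex) hU1 hcusp'
  -- VAR: minimising sequence
  obtain ⟨u, hupot, hi, hii, hiii⟩ := hVAR φ hφ (u0 ∘ ofComplex) hpot0 hB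
  have hacont : ∀ n, ContinuousOn (Dc (u n)) UH := fun n => continuousOn_Dc (hupot n).1
  -- LIM: holomorphic L²_loc limit
  obtain ⟨h, hhol, hlim⟩ := hLIM (fun n => Dc (u n)) hacont hi hii
  -- CUSP: the limit is a cusp form
  obtain ⟨f, hf⟩ := hCUSP (fun n => Dc (u n)) h hacont hhol hlim
    (fun n γ hγ z => Dc_smul_eq (hupot n) γ hγ z) hiii
  -- PER: its periods have real part `φ`
  obtain ⟨F, hF⟩ := hA f
  refine ⟨f, hPER f F hF φ (fun n w => u n ↑w) (fun n => Dc (u n))
    (fun n γ z => (hupot n).2 γ z) ?_ hacont ?_⟩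
  · intro n z
    refine ⟨fderiv ℝ (u n) ↑z, ?_, fun v => (re_Dc_mul (u n) ↑z v).symm⟩
    have hd : HasFDerivAt (u n) (fderiv ℝ (u n) ↑z) ↑z :=
      (differentiableAt_of_contDiffOn (hupot n).1 (coe_mem_UH z)).hasFDerivAt
    refine hd.congr_of_eventuallyEq ?_
    filter_upwards [isOpen_UH.mem_nhds (coe_mem_UH z)] with w hw
    simp only [Function.comp_apply]
    rw [ofComplex_apply_of_im_pos hw]
  · intro K hK hKU
    have h1 := tendsto_L1_of_tendsto_L2 hK (fun n z => ‖Dc (u n) z - h z‖)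
      (fun n z => norm_nonneg _)
      (fun n => (((hacont n).sub hhol.continuousOn).norm).mono hKU) (hlim K hK hKU)
    refine h1.congr fun n => ?_
    refine setIntegral_congr_fun hK.isClosed.measurableSet fun z hz => ?_
    have hfz : f (ofComplex z) = h z := by
      rw [hf, ofComplex_apply_of_im_pos (hKU hz)]
    simp only [hfz]

/-- S21 from Route 2: (A), (B), (C±) and the five Route-2 leaves. -/
theorem result_of_route2 (N : ℕ) [NeZero N] (hA : helper921.StmtA N) (hB : helper921.StmtB N)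
    (hCp : helper921.StmtCplus N) (hCm : helper921.StmtCminus N) (hPOT : Stmt_POT N)
    (hVAR : Stmt_VAR N) (hLIM : Stmt_LIM) (hCUSP : Stmt_CUSP N) (hPER : Stmt_PER N) :
    Function.Injective (ModularCurve.periodHomPair N)
      ∧ LinearMap.range (ModularCurve.periodHomPair N)
          = ModularCurve.Period.parabolicHoms ℂ (CongruenceSubgroup.Gamma0 N) ℂ :=
  helper801.result_of_ABCH N hA hB hCp hCm (stmtH_of_leaves N hA hPOT hVAR hLIM hCUSP hPER)

end Fermat.Agent.S21.helper4076
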