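import Mathlib
import Fermat.Agent.S21.helper681_ParabolicDim
import Fermat.Agent.S21.helper21_Assembly
import Fermat.Agent.S20.helper34_Index
import Fermat.Agent.S20.helper980_CuspCount
import Fermat.Agent.S20.helper2600_Counts

/-!
# S21-D2c: the unconditional upper bound `finrank parabolicHoms(Γ₀(N)) ≤ 2 * genusFormula N`

* generic: for an element `g` of a group acting on a finite set `X`,
  `g ^ 2` acting trivially gives `2 * #orbits⟨g⟩ = |X| + #Fix(g)`, and
  `g ^ 3` acting trivially gives `3 * #orbits⟨g⟩ = |X| + 2 * #Fix(g)` (Burnside);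
* the orbit counts of `S` and `S * T` on `SL(2, ℤ) ⧸ Γ₀(N)` in the shape consumed by
  `helper681.finrank_parabolicHoms_Gamma0_le`;
* `finrank_parabolicHoms_le` : `(finrank parabolicHoms(Γ₀(N)) : ℚ) ≤ 2 * genusFormula N`;
* `finrank_cuspForm_le` : `(finrank S₂(Γ₀(N)) : ℚ) ≤ genusFormula N` (upper bound of S20);
* `hrank_of_lower` : the rank inequality needed by `helper21.result_of_rank` follows from
  the lower bound `genusFormula N ≤ finrank S₂(Γ₀(N))` alone.
-/

set_option autoImplicit false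

namespace Fermat.Agent.S21.helper4696

open scoped MatrixGroups
open MulAction Subgroup ModularCurve ModularCurve.Period CongruenceSubgroup

/-! ## Generic orbit counting for cyclic groups -/

section Generic

variable {G X : Type*} [Group G] [MulAction G X]

theorem orbitRel_zpowers_iff (g : G) (a b : X) :
    MulAction.orbitRel (Subgroup.zpowers g) X a b ↔ ∃ n : ℤ, g ^ n • b = a := by
  rw [MulAction.orbitRel_apply, MulAction.mem_orbit_iff]
  constructor
  · rintro ⟨⟨h, hh⟩, rfl⟩
    obtain ⟨n, rfl⟩ := Subgroup.mem_zpowers_iff.mp hh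
    exact ⟨n, rfl⟩
  · rintro ⟨n, rfl⟩
    exact ⟨⟨g ^ n, Subgroup.zpow_mem_zpowers g n⟩, rfl⟩

/-- Burnside's lemma for the cyclic group generated by an element of finite order. -/
theorem sum_card_fixedBy_pow [Finite X] (g : G) (hg : IsOfFinOrder g) :
    ∑ i ∈ Finset.range (orderOf g), Nat.card (fixedBy X (g ^ i))
      = Nat.card (orbitRel.Quotient (zpowers g) X) * orderOf g := by
  classical
  have : Fintype (zpowers g) := Fintype.ofEquiv _ (finEquivZPowers hg)
  have : Fintype X := Fintype.ofFinite X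
  have : ∀ a : zpowers g, Fintype (fixedBy X a) := fun a => Fintype.ofFinite _
  have : Fintype (orbitRel.Quotient (zpowers g) X) := Fintype.ofFinite _
  have hB := MulAction.sum_card_fixedBy_eq_card_orbits_mul_card_group (zpowers g) X
  have hcard : Fintype.card (zpowers g) = orderOf g := by
    rw [Fintype.card_congr (finEquivZPowers hg).symm, Fintype.card_fin]
  rw [hcard] at hB
  rw [Nat.card_eq_fintype_card, ← hB, ← Fin.sum_univ_eq_sum_range
    (fun i => Nat.card (fixedBy X (g ^ i))) (orderOf g),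
    ← (finEquivZPowers hg).sum_comp]
  refine Finset.sum_congr rfl fun i _ => ?_
  rw [← Nat.card_eq_fintype_card, finEquivZPowers_apply]
  rfl

/-- `2 * #orbits = |X| + #Fix` for a permutation of order dividing two. -/
theorem perm_two_mul_card_orbits [Finite X] (σ : Equiv.Perm X) (hσ : σ ^ 2 = 1) :
    2 * Nat.card (orbitRel.Quotient (zpowers σ) X) = Nat.card X + Nat.card (fixedBy X σ) := by
  have hfin : IsOfFinOrder σ := isOfFinOrder_iff_pow_eq_one.mpr ⟨2, by norm_num, hσ⟩
  have hB := sum_card_fixedBy_pow (X := X) σ hfin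
  have hdvd : orderOf σ ∣ 2 := orderOf_dvd_of_pow_eq_one hσ
  have h1 : Nat.card (fixedBy X (1 : Equiv.Perm X)) = Nat.card X := by
    rw [MulAction.fixedBy_one_eq_univ]
    exact Nat.card_congr (Equiv.Set.univ X)
  rcases (Nat.dvd_prime Nat.prime_two).mp hdvd with h | h
  · rw [h] at hB
    have hσ1 : σ = 1 := orderOf_eq_one_iff.mp h
    subst hσ1
    simp only [Finset.sum_range_one, pow_zero, mul_one] at hB
    rw [h1] at hB ⊢
    omega
  · rw [h] at hB
    simp only [Finset.sum_range_succ, Finset.sum_range_zero, pow_zero, pow_one, zero_add] at hB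
    rw [h1] at hB
    omega

/-- `3 * #orbits = |X| + 2 * #Fix` for a permutation of order dividing three. -/
theorem perm_three_mul_card_orbits [Finite X] (σ : Equiv.Perm X) (hσ : σ ^ 3 = 1) :
    3 * Nat.card (orbitRel.Quotient (zpowers σ) X)
      = Nat.card X + 2 * Nat.card (fixedBy X σ) := by
  have hfin : IsOfFinOrder σ := isOfFinOrder_iff_pow_eq_one.mpr ⟨3, by norm_num, hσ⟩
  have hB := sum_card_fixedBy_pow (X := X) σ hfin
  have hdvd : orderOf σ ∣ 3 := orderOf_dvd_of_pow_eq_one hσ
  have h1 : Nat.card (fixedBy X (1 : Equiv.Perm X)) = Nat.card X := by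
    rw [MulAction.fixedBy_one_eq_univ]
    exact Nat.card_congr (Equiv.Set.univ X)
  rcases (Nat.dvd_prime Nat.prime_three).mp hdvd with h | h
  · rw [h] at hB
    have hσ1 : σ = 1 := orderOf_eq_one_iff.mp h
    subst hσ1
    simp only [Finset.sum_range_one, pow_zero, mul_one] at hB
    rw [h1] at hB ⊢
    omega
  · rw [h] at hB
    have h2 : σ ^ 2 = σ⁻¹ := by
      rw [eq_inv_iff_mul_eq_one, ← pow_succ]
      exact hσ
    simp only [Finset.sum_range_succ, Finset.sum_range_zero, pow_zero, pow_one, zero_add] at hB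
    rw [h1, h2, MulAction.fixedBy_inv] at hB
    omega

theorem toPerm_zpow_smul (g : G) (n : ℤ) (x : X) :
    (MulAction.toPerm g : Equiv.Perm X) ^ n • x = g ^ n • x := by
  have h : (MulAction.toPerm g : Equiv.Perm X) ^ n = MulAction.toPerm (g ^ n) := by
    have := map_zpow (MulAction.toPermHom G X) g n
    simpa [MulAction.toPermHom_apply] using this.symm
  rw [h]
  rfl

theorem card_orbits_toPerm (g : G) :
    Nat.card (orbitRel.Quotient (zpowers (MulAction.toPerm g : Equiv.Perm X)) X)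
      = Nat.card (orbitRel.Quotient (zpowers g) X) := by
  refine Nat.card_congr (Quotient.congr (Equiv.refl X) ?_)
  intro a b
  refine (orbitRel_zpowers_iff _ a b).trans ?_
  refine Iff.trans ?_ (orbitRel_zpowers_iff g a b).symm
  simp only [toPerm_zpow_smul]

theorem fixedBy_toPerm (g : G) :
    fixedBy X (MulAction.toPerm g : Equiv.Perm X) = fixedBy X g := by
  ext x
  simp [MulAction.mem_fixedBy]

/-- If `g ^ 2` acts trivially on the finite set `X`, then `2 * #orbits⟨g⟩ = |X| + #Fix(g)`. -/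
theorem two_mul_card_orbits [Finite X] (g : G) (hg : ∀ x : X, g • g • x = x) :
    2 * Nat.card (orbitRel.Quotient (zpowers g) X) = Nat.card X + Nat.card (fixedBy X g) := by
  have hσ : (MulAction.toPerm g : Equiv.Perm X) ^ 2 = 1 := by
    ext x
    simp [pow_two, hg x]
  have h := perm_two_mul_card_orbits (MulAction.toPerm g : Equiv.Perm X) hσ
  rwa [card_orbits_toPerm, fixedBy_toPerm] at h

/-- If `g ^ 3` acts trivially on the finite set `X`, then
`3 * #orbits⟨g⟩ = |X| + 2 * #Fix(g)`. -/
theorem three_mul_card_orbits [Finite X] (g : G) (hg : ∀ x : X, g • g • g • x = x) :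
    3 * Nat.card (orbitRel.Quotient (zpowers g) X)
      = Nat.card X + 2 * Nat.card (fixedBy X g) := by
  have hσ : (MulAction.toPerm g : Equiv.Perm X) ^ 3 = 1 := by
    ext x
    simp [pow_succ, hg x]
  have h := perm_three_mul_card_orbits (MulAction.toPerm g : Equiv.Perm X) hσ
  rwa [card_orbits_toPerm, fixedBy_toPerm] at h

end Generic

/-! ## Orbit counts on `SL(2, ℤ) ⧸ Γ` for `Γ ∋ -1` -/

section SL2Z

theorem neg_one_smul_coset (Γ : Subgroup SL(2, ℤ)) (hneg : (-1 : SL(2, ℤ)) ∈ Γ)
    (x : SL(2, ℤ) ⧸ Γ) : (-1 : SL(2, ℤ)) • x = x := by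
  induction x using QuotientGroup.induction_on with
  | H g =>
    rw [MulAction.Quotient.smul_mk, smul_eq_mul]
    refine QuotientGroup.eq.mpr ?_
    have hc : g * (-1 : SL(2, ℤ)) = (-1) * g := by simp
    have : ((-1 : SL(2, ℤ)) * g)⁻¹ * g = (-1)⁻¹ := by rw [← hc]; group
    rw [this]
    exact Γ.inv_mem hneg

/-- `2 * #orbits⟨S⟩ = index + #Fix(S)` on `SL(2, ℤ) ⧸ Γ` for finite-index `Γ ∋ -1`. -/
theorem two_mul_card_orbits_S (Γ : Subgroup SL(2, ℤ)) [Γ.FiniteIndex]
    (hneg : (-1 : SL(2, ℤ)) ∈ Γ) :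
    2 * Nat.card (orbitRel.Quotient (zpowers ModularGroup.S) (SL(2, ℤ) ⧸ Γ))
      = Γ.index + Nat.card (fixedBy (SL(2, ℤ) ⧸ Γ) ModularGroup.S) := by
  rw [Subgroup.index_eq_card]
  refine two_mul_card_orbits ModularGroup.S fun x => ?_
  rw [← mul_smul, helper681.S_mul_S_eq_neg_one]
  exact neg_one_smul_coset Γ hneg x

/-- `3 * #orbits⟨S * T⟩ = index + 2 * #Fix(S * T)` on `SL(2, ℤ) ⧸ Γ` for finite-index
`Γ ∋ -1`. -/
theorem three_mul_card_orbits_ST (Γ : Subgroup SL(2, ℤ)) [Γ.FiniteIndex]
    (hneg : (-1 : SL(2, ℤ)) ∈ Γ) :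
    3 * Nat.card (orbitRel.Quotient (zpowers (ModularGroup.S * ModularGroup.T))
        (SL(2, ℤ) ⧸ Γ))
      = Γ.index + 2 * Nat.card (fixedBy (SL(2, ℤ) ⧸ Γ) (ModularGroup.S * ModularGroup.T)) := by
  rw [Subgroup.index_eq_card]
  refine three_mul_card_orbits (ModularGroup.S * ModularGroup.T) fun x => ?_
  rw [← mul_smul, ← mul_smul, mul_assoc, helper681.ST_cube_eq_neg_one]
  exact neg_one_smul_coset Γ hneg x

end SL2Z

/-! ## `Γ₀(N)` -/

section Gamma0

variable (N : ℕ) [NeZero N]

theorem two_mul_card_orbits_S_Gamma0 :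
    2 * Nat.card (orbitRel.Quotient (zpowers ModularGroup.S) (SL(2, ℤ) ⧸ Gamma0 N))
      = dedekindPsi N + nuTwo N := by
  rw [two_mul_card_orbits_S (Gamma0 N) (helper681.neg_one_mem_Gamma0 N),
    Fermat.Agent.S20.helper34.index_Gamma0, Fermat.Agent.S20.helper2600.card_fixedBy_S]

theorem three_mul_card_orbits_ST_Gamma0 :
    3 * Nat.card (orbitRel.Quotient (zpowers (ModularGroup.S * ModularGroup.T))
        (SL(2, ℤ) ⧸ Gamma0 N))
      = dedekindPsi N + 2 * nuThree N := by
  rw [three_mul_card_orbits_ST (Gamma0 N) (helper681.neg_one_mem_Gamma0 N),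
    Fermat.Agent.S20.helper34.index_Gamma0, Fermat.Agent.S20.helper2600.card_fixedBy_ST]

/-- **D2, unconditional**: `dim H¹_par(Γ₀(N), ℂ) ≤ 2 * genusFormula N`. -/
theorem finrank_parabolicHoms_le :
    (Module.finrank ℂ (parabolicHoms ℂ (Gamma0 N) ℂ) : ℚ) ≤ 2 * genusFormula N :=
  (helper681.finrank_parabolicHoms_Gamma0_le N
    (Fermat.Agent.S20.helper34.index_Gamma0 N)
    (Fermat.Agent.S20.helper980.card_orbits_T N)
    (two_mul_card_orbits_S_Gamma0 N)
    (three_mul_card_orbits_ST_Gamma0 N)).2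

/-- **Upper bound of S20, unconditional** (no duality): `dim S₂(Γ₀(N)) ≤ genusFormula N`. -/
theorem finrank_cuspForm_le :
    (Module.finrank ℂ (CuspForm (Gamma0 N) 2) : ℚ) ≤ genusFormula N := by
  have h1 := finrank_parabolicHoms_le N
  have h2 : (2 : ℚ) * (Module.finrank ℂ (CuspForm (Gamma0 N) 2) : ℚ)
      ≤ (Module.finrank ℂ (parabolicHoms ℂ (Gamma0 N) ℂ) : ℚ) := by
    exact_mod_cast helper21.two_mul_finrank_cuspForm_le N
  linarith

/-- The rank inequality consumed by `helper21.result_of_rank` follows from the lower bound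
`genusFormula N ≤ dim S₂(Γ₀(N))` alone. -/
theorem hrank_of_lower
    (hlow : genusFormula N ≤ (Module.finrank ℂ (CuspForm (Gamma0 N) 2) : ℚ)) :
    Module.finrank ℂ ↥(parabolicHoms ℂ (Gamma0 N) ℂ)
      ≤ 2 * Module.finrank ℂ (CuspForm (Gamma0 N) 2) := by
  have h1 := finrank_parabolicHoms_le N
  have h2 : (Module.finrank ℂ (parabolicHoms ℂ (Gamma0 N) ℂ) : ℚ)
      ≤ ((2 * Module.finrank ℂ (CuspForm (Gamma0 N) 2) : ℕ) : ℚ) := by
    push_cast
    linarith
  exact_mod_cast h2

/-- S21 from the lower bound `genusFormula N ≤ dim S₂(Γ₀(N))`. -/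
theorem result_of_lower
    (hlow : genusFormula N ≤ (Module.finrank ℂ (CuspForm (Gamma0 N) 2) : ℚ)) :
    Function.Injective (ModularCurve.periodHomPair N)
      ∧ LinearMap.range (ModularCurve.periodHomPair N)
          = ModularCurve.Period.parabolicHoms ℂ (CongruenceSubgroup.Gamma0 N) ℂ :=
  helper21.result_of_rank N (hrank_of_lower N hlow)

/-- S21 from the S20 statement at level `N`. -/
theorem result_of_genus
    (hS20 : (Module.finrank ℂ (CuspForm (Gamma0 N) 2) : ℚ) = genusFormula N) :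
    Function.Injective (ModularCurve.periodHomPair N)
      ∧ LinearMap.range (ModularCurve.periodHomPair N)
          = ModularCurve.Period.parabolicHoms ℂ (CongruenceSubgroup.Gamma0 N) ℂ :=
  result_of_lower N hS20.ge

/-- Conversely, S20 at level `N` follows from the lower bound alone. -/
theorem genus_of_lower
    (hlow : genusFormula N ≤ (Module.finrank ℂ (CuspForm (Gamma0 N) 2) : ℚ)) :
    (Module.finrank ℂ (CuspForm (Gamma0 N) 2) : ℚ) = genusFormula N :=
  le_antisymm (finrank_cuspForm_le N) hlow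

end Gamma0

end Fermat.Agent.S21.helper4696
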