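import Mathlib

/-!
# S21-D1 core (helper540)

Hypothesis-passing core of the lower bound `mu + 2 ≤ 2 dim S₂(Γ₀(N)) + oS + oT + oST`
(orbit counts of `S`, `T`, `S*T` on the cosets), which together with the purely group
theoretic bound `dim H¹_par + oS + oT + oST ≤ mu + 2` gives `dim H¹_par ≤ 2 dim S₂`.
-/

set_option autoImplicit false

namespace Fermat.Agent.S21.helper540

open Module

section Arith

/-- The per-weight inequality behind the dimension count. Equality holds for `k ≤ 10`
and `k = 14`. -/
theorem weight_ineq (k : ℕ) (hk : Even k) :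
    12 + 2 * (if k % 6 = 2 then 1 else 0)
      ≤ 12 * (if k = 2 then 1 else 0) + 6 * (if k % 4 = 0 then 1 else 0)
        + 6 * (if k % 6 = 0 then 1 else 0) + k + 2 * (if k % 6 = 4 then 1 else 0) := by
  obtain ⟨m, rfl⟩ := hk
  split_ifs <;> omega

theorem sum_weight_ineq {J : Type*} [Fintype J] (k : J → ℕ) (hk : ∀ j, Even (k j)) :
    12 * Fintype.card J + 2 * Fintype.card {j // k j % 6 = 2}
      ≤ 12 * Fintype.card {j // k j = 2} + 6 * Fintype.card {j // k j % 4 = 0}
        + 6 * Fintype.card {j // k j % 6 = 0} + ∑ j, k j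
        + 2 * Fintype.card {j // k j % 6 = 4} := by
  classical
  have key : ∀ (p : J → Prop) [DecidablePred p],
      Fintype.card {j // p j} = ∑ j, if p j then 1 else 0 := by
    intro p _
    rw [Fintype.card_subtype, Finset.card_filter]
  rw [key, key, key, key, key]
  have : Fintype.card J = ∑ _j : J, 1 := by simp
  rw [this]
  simp only [Finset.mul_sum, ← Finset.sum_add_distrib]
  exact Finset.sum_le_sum fun j _ => weight_ineq (k j) (hk j)

end Arith

section LinAlg

variable {X J : Type*} [Fintype X] [Fintype J]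

/-- In a basis of eigenvectors, the number of basis vectors with eigenvalue `c` is the
dimension of the `c`-eigenspace. -/
theorem card_eigen_eq_finrank (P : (X → ℂ) →ₗ[ℂ] (X → ℂ)) (v : J → X → ℂ) (lam : J → ℂ)
    (hv : LinearIndependent ℂ v) (hcard : Fintype.card J = Fintype.card X)
    (heig : ∀ j, P (v j) = lam j • v j) (c : ℂ) :
    Fintype.card {j // lam j = c} = finrank ℂ (LinearMap.ker (P - c • LinearMap.id)) := by
  classical
  rcases isEmpty_or_nonempty J with hJ | hJ
  · have hX : IsEmpty X := by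
      rw [← Fintype.card_eq_zero_iff, ← hcard, Fintype.card_eq_zero_iff]; exact hJ
    rw [Fintype.card_eq_zero_iff.mpr inferInstance]
    exact (finrank_zero_of_subsingleton).symm
  · let b : Basis J ℂ (X → ℂ) := basisOfLinearIndependentOfCardEqFinrank hv
      (by rw [hcard, finrank_fintype_fun_eq_card])
    have hb : ∀ j, b j = v j := fun j => by simp [b]
    have hker : LinearMap.ker (P - c • LinearMap.id)
        = Submodule.span ℂ (Set.range (fun j : {j // lam j = c} => v j)) := by
      apply le_antisymm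
      · intro w hw
        rw [LinearMap.mem_ker, LinearMap.sub_apply, LinearMap.smul_apply, LinearMap.id_apply,
          sub_eq_zero] at hw
        have hw' : w = ∑ j, (b.repr w j) • v j := by
          conv_lhs => rw [← b.sum_repr w]
          simp [hb]
        have hcoef : ∀ j, lam j ≠ c → b.repr w j = 0 := by
          intro j hj
          have h1 : P w = ∑ j, (b.repr w j * lam j) • b j := by
            conv_lhs => rw [hw']
            simp [map_sum, heig, hb, smul_smul]
          have h2 : c • w = ∑ j, (c * b.repr w j) • b j := by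
            calc c • w = c • ∑ j, (b.repr w j) • b j := by rw [b.sum_repr]
              _ = ∑ j, (c * b.repr w j) • b j := by
                rw [Finset.smul_sum]; simp only [smul_smul]
          rw [h1, h2] at hw
          have h3 := congrArg (fun u => (b.repr u) j) hw
          simp only [b.repr_sum_self] at h3
          have : b.repr w j * (lam j - c) = 0 := by linear_combination h3
          rcases mul_eq_zero.mp this with h | h
          · exact h
          · exact absurd (sub_eq_zero.mp h) hj
        rw [hw']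
        refine Submodule.sum_mem _ fun j _ => ?_
        by_cases hj : lam j = c
        · exact Submodule.smul_mem _ _ (Submodule.subset_span ⟨⟨j, hj⟩, rfl⟩)
        · rw [hcoef j hj, zero_smul]; exact Submodule.zero_mem _
      · rw [Submodule.span_le]
        rintro _ ⟨⟨j, hj⟩, rfl⟩
        simp [LinearMap.mem_ker, heig, hj]
    have hli : LinearIndependent ℂ (fun j : {j // lam j = c} => v j) :=
      hv.comp _ Subtype.val_injective
    rw [hker, finrank_span_eq_card hli]

variable {G : Type*} [Group G] [MulAction G X]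

/-- The submodule of functions invariant under `g`. -/
def invSub (g : G) : Submodule ℂ (X → ℂ) where
  carrier := {v | ∀ x, v (g • x) = v x}
  add_mem' := fun {a b} ha hb x => by simp [ha x, hb x]
  zero_mem' := fun _ => rfl
  smul_mem' := fun c a ha x => by simp [ha x]

/-- Number of orbits of `⟨g⟩` on `X` (generic form). -/
noncomputable def orbCard (X : Type*) [MulAction G X] (g : G) : ℕ :=
  Nat.card (MulAction.orbitRel.Quotient (Subgroup.zpowers g) X)

omit [Fintype X] in
theorem mem_invSub (g : G) (v : X → ℂ) : v ∈ invSub g ↔ ∀ x, v (g • x) = v x := Iff.rfl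

/-- The dimension of the space of `g`-invariant functions is the number of orbits of `⟨g⟩`. -/
theorem finrank_invSub (g : G) :
    finrank ℂ (invSub (X := X) g) = orbCard X g := by
  classical
  unfold orbCard
  have : Fintype (MulAction.orbitRel.Quotient (Subgroup.zpowers g) X) := Fintype.ofFinite _
  have hinv : ∀ (v : invSub (X := X) g) (h : Subgroup.zpowers g) (x : X),
      v.1 (h • x) = v.1 x := by
    intro v h x
    let H : Subgroup G :=
      { carrier := {h | ∀ x, v.1 (h • x) = v.1 x}
        mul_mem' := fun {a b} ha hb x => by rw [mul_smul, ha, hb]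
        one_mem' := fun x => by rw [one_smul]
        inv_mem' := fun {a} ha x => by
          have := ha (a⁻¹ • x); rw [smul_inv_smul] at this; exact this.symm }
    have hle : Subgroup.zpowers g ≤ H := Subgroup.zpowers_le.mpr v.2
    exact hle h.2 x
  let e : (MulAction.orbitRel.Quotient (Subgroup.zpowers g) X → ℂ) ≃ₗ[ℂ] invSub (X := X) g :=
    { toFun := fun φ => ⟨fun x => φ (Quotient.mk'' x), fun x =>
          congrArg φ (Quotient.sound' ⟨⟨g, Subgroup.mem_zpowers g⟩, rfl⟩)⟩
      map_add' := fun φ ψ => rfl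
      map_smul' := fun c φ => rfl
      invFun := fun v => Quotient.lift v.1 (fun x y hxy => by
          obtain ⟨h, rfl⟩ := hxy
          exact hinv v h y)
      left_inv := fun φ => by
          funext q
          induction q using Quotient.inductionOn with
          | h x => rfl
      right_inv := fun v => by
          ext x; rfl }
  rw [← e.finrank_eq, finrank_fintype_fun_eq_card, Nat.card_eq_fintype_card]

theorem orbCard_inv (g : G) : orbCard X g⁻¹ = orbCard X g := by
  rw [← finrank_invSub, ← finrank_invSub]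
  have : invSub (X := X) g⁻¹ = invSub (X := X) g := by
    ext v
    rw [mem_invSub, mem_invSub]
    constructor
    · intro h x
      have := h (g • x)
      rw [inv_smul_smul] at this
      exact this.symm
    · intro h x
      have := h (g⁻¹ • x)
      rw [smul_inv_smul] at this
      exact this.symm
  rw [this]

theorem card_eigen_one_eq_orbits (g : G) (v : J → X → ℂ) (lam : J → ℂ)
    (hv : LinearIndependent ℂ v) (hcard : Fintype.card J = Fintype.card X)
    (heig : ∀ j x, v j (g • x) = lam j * v j x) :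
    Fintype.card {j // lam j = 1} = orbCard X g := by
  rw [card_eigen_eq_finrank (LinearMap.funLeft ℂ ℂ (fun x : X => g • x)) v lam hv hcard
    (fun j => by ext x; simpa using heig j x) 1, ← finrank_invSub]
  have hker : LinearMap.ker (LinearMap.funLeft ℂ ℂ (fun x : X => g • x) - (1 : ℂ) • LinearMap.id)
      = invSub (X := X) g := by
    ext w
    rw [LinearMap.mem_ker, mem_invSub, LinearMap.sub_apply, sub_eq_zero]
    constructor
    · intro h x
      have := congrFun h x
      simpa using this
    · intro h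
      ext x
      simpa using h x
  rw [hker]

theorem card_eigen_conj (g : G) (v : J → X → ℂ) (lam : J → ℂ)
    (hv : LinearIndependent ℂ v) (hcard : Fintype.card J = Fintype.card X)
    (heig : ∀ j x, v j (g • x) = lam j * v j x) (c : ℂ) :
    Fintype.card {j // lam j = c} = Fintype.card {j // lam j = (starRingEnd ℂ) c} := by
  classical
  have hv' : LinearIndependent ℂ (fun j => fun x => (starRingEnd ℂ) (v j x)) := by
    have := hv.map_of_injective_injective (R' := ℂ) (M' := X → ℂ) (starRingEnd ℂ)
      ({ toFun := fun w x => (starRingEnd ℂ) (w x)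
         map_zero' := by ext; simp
         map_add' := by intros; ext; simp } : (X → ℂ) →+ (X → ℂ))
      (by intro r hr; simpa using hr)
      (by intro m hm; ext x; have := congrFun hm x; simpa using this)
      (by intro r m; ext x; simp)
    exact this
  have h1 := card_eigen_eq_finrank (LinearMap.funLeft ℂ ℂ (fun x : X => g • x))
    (fun j => fun x => (starRingEnd ℂ) (v j x)) (fun j => (starRingEnd ℂ) (lam j)) hv' hcard
    (by intro j; ext x; simp [heig j x]) ((starRingEnd ℂ) c)
  have h2 := card_eigen_eq_finrank (LinearMap.funLeft ℂ ℂ (fun x : X => g • x)) v lam hv hcard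
    (by intro j; ext x; simp [heig j x]) ((starRingEnd ℂ) c)
  rw [h2, ← h1]
  exact Fintype.card_congr (Equiv.subtypeEquivRight fun j =>
    (starRingEnd ℂ).injective.eq_iff.symm)

end LinAlg

section Modular

open UpperHalfPlane CongruenceSubgroup Matrix.SpecialLinearGroup
open scoped MatrixGroups ModularForm

variable (N : ℕ)

/-- The image of `Γ₀(N)` in `GL(2,ℝ)` (what the coercion in the frozen statements unfolds to). -/
abbrev lvl : Subgroup (GL (Fin 2) ℝ) := (Gamma0 N).map (mapGL ℝ)

/-- The coset space used by Mathlib's `SlashInvariantForm.quotientFunc` / `ModularForm.trace`. -/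
abbrev Qt : Type := 𝒮ℒ ⧸ (lvl N).subgroupOf 𝒮ℒ

/-- Number of orbits of `⟨γ⟩` on `SL(2,ℤ) ⧸ Γ₀(N)`. -/
noncomputable abbrev orbCount (γ : SL(2, ℤ)) : ℕ :=
  Nat.card (MulAction.orbitRel.Quotient (Subgroup.zpowers γ) (SL(2, ℤ) ⧸ Gamma0 N))

/-- An element of `SL(2,ℤ)` as an element of `𝒮ℒ`. -/
def toSL : SL(2, ℤ) →* 𝒮ℒ := (mapGL ℝ : SL(2, ℤ) →* GL (Fin 2) ℝ).rangeRestrict

theorem toSL_coe (γ : SL(2, ℤ)) : ((toSL γ : 𝒮ℒ) : GL (Fin 2) ℝ) = mapGL ℝ γ := rfl

theorem toSL_surjective : Function.Surjective toSL :=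
  MonoidHom.rangeRestrict_surjective _

theorem toSL_mem_iff (γ : SL(2, ℤ)) : toSL γ ∈ (lvl N).subgroupOf 𝒮ℒ ↔ γ ∈ Gamma0 N := by
  rw [Subgroup.mem_subgroupOf, toSL_coe, Subgroup.mem_map]
  constructor
  · rintro ⟨x, hx, hxe⟩
    rwa [← mapGL_injective hxe]
  · intro h
    exact ⟨γ, h, rfl⟩

/-- The comparison map between the two coset spaces. -/
def cosetMap : (SL(2, ℤ) ⧸ Gamma0 N) → Qt N :=
  Quotient.map' (fun g => toSL g) (fun a b h => by
    rw [QuotientGroup.leftRel_apply] at h ⊢
    rw [← map_inv, ← map_mul, toSL_mem_iff]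
    exact h)

theorem cosetMap_mk (g : SL(2, ℤ)) :
    cosetMap N (QuotientGroup.mk g) = QuotientGroup.mk (toSL g) := rfl

theorem cosetMap_bijective : Function.Bijective (cosetMap N) := by
  constructor
  · intro x y
    induction x using QuotientGroup.induction_on with
    | H a =>
    induction y using QuotientGroup.induction_on with
    | H b =>
    intro h
    rw [cosetMap_mk, cosetMap_mk, QuotientGroup.eq, ← map_inv, ← map_mul, toSL_mem_iff] at h
    exact QuotientGroup.eq.mpr h
  · intro q
    induction q using QuotientGroup.induction_on with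
    | H h =>
    obtain ⟨γ, hγ⟩ := h.2
    exact ⟨QuotientGroup.mk γ, by rw [cosetMap_mk]; congr 1; exact Subtype.ext hγ⟩

theorem cosetMap_smul (γ : SL(2, ℤ)) (x : SL(2, ℤ) ⧸ Gamma0 N) :
    cosetMap N (γ • x) = toSL γ • cosetMap N x := by
  induction x using QuotientGroup.induction_on with
  | H a =>
  rw [MulAction.Quotient.smul_mk, cosetMap_mk, cosetMap_mk, MulAction.Quotient.smul_mk,
    smul_eq_mul, smul_eq_mul, map_mul]

theorem exists_toSL (q : Qt N) : ∃ γ : SL(2, ℤ), q = QuotientGroup.mk (toSL γ) := by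
  induction q using QuotientGroup.induction_on with
  | H h =>
  obtain ⟨γ, rfl⟩ := toSL_surjective h
  exact ⟨γ, rfl⟩

/-- Orbit counts agree on the two coset spaces. -/
theorem card_orbits_Qt [NeZero N] (γ : SL(2, ℤ)) :
    orbCard (Qt N) (toSL γ) = orbCount N γ := by
  classical
  have : Fintype (Qt N) := Fintype.ofFinite _
  have : Fintype (SL(2, ℤ) ⧸ Gamma0 N) := Fintype.ofFinite _
  show orbCard (Qt N) (toSL γ) = orbCard (SL(2, ℤ) ⧸ Gamma0 N) γ
  rw [← finrank_invSub, ← finrank_invSub]
  let e : (SL(2, ℤ) ⧸ Gamma0 N) ≃ Qt N := Equiv.ofBijective _ (cosetMap_bijective N)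
  have he : ∀ x, e (γ • x) = toSL γ • e x := cosetMap_smul N γ
  let E : (Qt N → ℂ) ≃ₗ[ℂ] ((SL(2, ℤ) ⧸ Gamma0 N) → ℂ) := LinearEquiv.funCongrLeft ℂ ℂ e
  have hmap : (invSub (X := Qt N) (toSL γ)).map (E : (Qt N → ℂ) →ₗ[ℂ] _)
      = invSub (X := SL(2, ℤ) ⧸ Gamma0 N) γ := by
    ext v
    constructor
    · rintro ⟨w, hw, rfl⟩ x
      show w (e (γ • x)) = w (e x)
      rw [he]
      exact hw (e x)
    · intro hv
      refine ⟨fun q => v (e.symm q), fun q => ?_, ?_⟩
      · show v (e.symm (toSL γ • q)) = v (e.symm q)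
        have : e.symm (toSL γ • q) = γ • e.symm q := by
          apply e.injective
          rw [Equiv.apply_symm_apply, he, Equiv.apply_symm_apply]
        rw [this]; exact hv _
      · ext x
        show v (e.symm (e x)) = v x
        rw [Equiv.symm_apply_apply]
  rw [← hmap]
  exact (LinearEquiv.finrank_map_eq E _).symm

theorem card_Qt [NeZero N] : Nat.card (Qt N) = Nat.card (SL(2, ℤ) ⧸ Gamma0 N) :=
  (Nat.card_congr (Equiv.ofBijective _ (cosetMap_bijective N))).symm

/-! ### Translates -/

theorem quotientFunc_mk_toSL {k : ℤ} (f : ModularForm (lvl N) k) (γ : SL(2, ℤ)) :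
    SlashInvariantForm.quotientFunc f (QuotientGroup.mk (toSL γ) : Qt N) = ⇑f ∣[k] γ⁻¹ := by
  rw [show (QuotientGroup.mk (toSL γ) : Qt N) = ⟦toSL γ⟧ from rfl,
    SlashInvariantForm.quotientFunc_mk, toSL_coe, ← map_inv]
  rfl

theorem quotientFunc_add {k : ℤ} (f g : ModularForm (lvl N) k) (q : Qt N) :
    SlashInvariantForm.quotientFunc (f + g) q
      = SlashInvariantForm.quotientFunc f q + SlashInvariantForm.quotientFunc g q := by
  obtain ⟨γ, rfl⟩ := exists_toSL N q
  rw [quotientFunc_mk_toSL, quotientFunc_mk_toSL, quotientFunc_mk_toSL, FunLike.coe_add,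
    SlashAction.add_slash]

theorem quotientFunc_smul {k : ℤ} (c : ℂ) (f : ModularForm (lvl N) k) (q : Qt N) :
    SlashInvariantForm.quotientFunc (c • f) q = c • SlashInvariantForm.quotientFunc f q := by
  obtain ⟨γ, rfl⟩ := exists_toSL N q
  rw [quotientFunc_mk_toSL, quotientFunc_mk_toSL, FunLike.coe_smul, ModularForm.SL_smul_slash]

theorem quotientFunc_mcast {a b : ℤ} (h : a = b) (f : ModularForm (lvl N) a) (q : Qt N) :
    SlashInvariantForm.quotientFunc (ModularForm.mcast h f : ModularForm (lvl N) b) q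
      = SlashInvariantForm.quotientFunc f q := by
  subst h
  obtain ⟨γ, rfl⟩ := exists_toSL N q
  rw [quotientFunc_mk_toSL, quotientFunc_mk_toSL]
  rfl

/-- Evaluation of all translates at a point, as a linear map. -/
noncomputable def evalTranslates (k : ℤ) (z : ℍ) : ModularForm (lvl N) k →ₗ[ℂ] (Qt N → ℂ) where
  toFun f := fun q => SlashInvariantForm.quotientFunc f q z
  map_add' f g := by ext q; rw [quotientFunc_add]; rfl
  map_smul' c f := by ext q; rw [quotientFunc_smul]; rfl

theorem quotientFunc_fixed {k : ℤ} (f : ModularForm (lvl N) k) (γ : SL(2, ℤ)) (z : ℍ)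
    (hz : γ • z = z) (q : Qt N) :
    SlashInvariantForm.quotientFunc f ((toSL γ)⁻¹ • q) z
      = SlashInvariantForm.quotientFunc f q z * denom (mapGL ℝ γ) z ^ (-k) := by
  have h := SlashInvariantForm.quotientFunc_smul (ℋ := 𝒮ℒ) f (toSL γ).2 q
  have h2 := congrFun h z
  have h3 : (SlashInvariantForm.quotientFunc f q ∣[k] γ) z = _ :=
    ModularForm.SL_slash_apply _ γ z
  rw [hz] at h3
  exact h2.symm.trans h3

/-! ### The two elliptic points -/

theorem S_smul_I : ModularGroup.S • UpperHalfPlane.I = UpperHalfPlane.I := by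
  apply UpperHalfPlane.ext
  rw [modular_S_smul]
  simp

theorem denom_S_I : denom (mapGL ℝ ModularGroup.S) (UpperHalfPlane.I : ℍ) = Complex.I :=
  ModularGroup.denom_S UpperHalfPlane.I

/-- The elliptic point `ρ = e^{2πi/3}`. -/
noncomputable def rho : ℍ := ⟨⟨-1/2, Real.sqrt 3 / 2⟩, by simp⟩

theorem rho_coe : (rho : ℂ) = ⟨-1/2, Real.sqrt 3 / 2⟩ := rfl

theorem rho_sq_add : (rho : ℂ) ^ 2 + (rho : ℂ) + 1 = 0 := by
  have h3 : Real.sqrt 3 * Real.sqrt 3 = 3 := Real.mul_self_sqrt (by norm_num)
  apply Complex.ext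
  · simp [rho_coe, pow_two]; nlinarith
  · simp [rho_coe, pow_two]; nlinarith

theorem coe_ST : ((ModularGroup.S * ModularGroup.T : SL(2, ℤ)) : Matrix (Fin 2) (Fin 2) ℤ)
    = !![0, -1; 1, 1] := by
  rw [Matrix.SpecialLinearGroup.coe_mul, ModularGroup.coe_S, ModularGroup.coe_T]
  simp

theorem rho_add_one_ne : (rho : ℂ) + 1 ≠ 0 := by
  intro h0
  have := congrArg Complex.im h0
  simp [rho_coe] at this

theorem ST_smul_rho : (ModularGroup.S * ModularGroup.T) • rho = rho := by
  apply UpperHalfPlane.ext
  rw [coe_specialLinearGroup_apply]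
  have h := rho_sq_add
  simp only [coe_ST]
  simp
  rw [div_eq_iff rho_add_one_ne]
  linear_combination -h

theorem denom_ST_rho :
    denom (mapGL ℝ (ModularGroup.S * ModularGroup.T)) (rho : ℍ) = (rho : ℂ) + 1 := by
  rw [denom]
  rw [show ((mapGL ℝ (ModularGroup.S * ModularGroup.T) : GL (Fin 2) ℝ) 1 0 : ℝ)
      = ((((ModularGroup.S * ModularGroup.T : SL(2, ℤ)) : Matrix (Fin 2) (Fin 2) ℤ) 1 0 : ℤ) : ℝ)
      from rfl,
    show ((mapGL ℝ (ModularGroup.S * ModularGroup.T) : GL (Fin 2) ℝ) 1 1 : ℝ)
      = ((((ModularGroup.S * ModularGroup.T : SL(2, ℤ)) : Matrix (Fin 2) (Fin 2) ℤ) 1 1 : ℤ) : ℝ)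
      from rfl,
    coe_ST]
  simp

/-! ### Eigenvalues -/

theorem I_zpow_eq_one_iff (k : ℕ) (hk : Even k) :
    Complex.I ^ (-(k : ℤ)) = 1 ↔ k % 4 = 0 := by
  obtain ⟨m, rfl⟩ := hk
  have h1 : Complex.I ^ (-((m + m : ℕ) : ℤ)) = (-1) ^ m := by
    rw [zpow_neg, zpow_natCast, ← two_mul, pow_mul, Complex.I_sq, ← inv_pow]
    norm_num
  rw [h1, neg_one_pow_eq_one_iff_even (by norm_num)]
  constructor
  · rintro ⟨a, rfl⟩; omega
  · intro h; exact ⟨m / 2, by omega⟩

theorem rho_cube : (rho : ℂ) ^ 3 = 1 := by
  linear_combination ((rho : ℂ) - 1) * rho_sq_add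

theorem rho_ne_one : (rho : ℂ) ≠ 1 := by
  intro h
  have := congrArg Complex.im h
  simp [rho_coe] at this

theorem conj_rho : (starRingEnd ℂ) (rho : ℂ) = (rho : ℂ) ^ 2 := by
  have h := rho_sq_add
  have h2 : (rho : ℂ) ^ 2 = -1 - rho := by linear_combination h
  rw [h2]
  apply Complex.ext
  · simp [rho_coe]; norm_num
  · simp [rho_coe]

theorem rho_sq_ne_one : (rho : ℂ) ^ 2 ≠ 1 := by
  intro h
  have h2 : (rho : ℂ) = -2 := by linear_combination rho_sq_add - h
  have := congrArg Complex.im h2
  simp [rho_coe] at this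

theorem rho_sq_ne_rho : (rho : ℂ) ^ 2 ≠ rho := by
  intro h
  have h2 : (rho : ℂ) = -1 / 2 := by linear_combination (1 / 2 : ℂ) * rho_sq_add - (1 / 2 : ℂ) * h
  have := congrArg Complex.im h2
  simp [rho_coe] at this

/-- The eigenvalue at `ρ` in terms of the weight modulo `6`. -/
theorem rho_zpow (k : ℕ) (hk : Even k) :
    ((rho : ℂ) + 1) ^ (-(k : ℤ))
      = if k % 6 = 0 then 1 else if k % 6 = 2 then (rho : ℂ) ^ 2 else (rho : ℂ) := by
  obtain ⟨m, rfl⟩ := hk
  have hsq : ((rho : ℂ) + 1) ^ 2 = rho := by linear_combination rho_sq_add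
  have hinv : ((rho : ℂ))⁻¹ = (rho : ℂ) ^ 2 := by
    rw [inv_eq_iff_eq_inv, eq_comm, inv_eq_iff_eq_inv]
    have : (rho : ℂ) ^ 2 * (rho : ℂ) = 1 := by linear_combination rho_cube
    exact (eq_inv_of_mul_eq_one_left this)
  have h1 : ((rho : ℂ) + 1) ^ (-((m + m : ℕ) : ℤ)) = ((rho : ℂ) ^ 2) ^ m := by
    rw [zpow_neg, zpow_natCast, ← two_mul, pow_mul, hsq, ← inv_pow, hinv]
  rw [h1]
  have h6 : ((rho : ℂ) ^ 2) ^ 3 = 1 := by rw [← pow_mul, pow_mul', rho_cube, one_pow]
  have hm : ((rho : ℂ) ^ 2) ^ m = ((rho : ℂ) ^ 2) ^ (m % 3) := by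
    conv_lhs => rw [← Nat.div_add_mod m 3, pow_add, pow_mul, h6, one_pow, one_mul]
  rw [hm]
  have h4 : ((rho : ℂ) ^ 2) ^ 2 = rho := by
    rw [← pow_mul]; linear_combination (rho : ℂ) * rho_cube
  have hm3 : m % 3 = 0 ∨ m % 3 = 1 ∨ m % 3 = 2 := by omega
  rcases hm3 with h | h | h
  · rw [h, pow_zero, if_pos (by omega)]
  · rw [h, pow_one, if_neg (by omega), if_pos (by omega)]
  · rw [h, h4, if_neg (by omega), if_neg (by omega)]

theorem neg_one_mem_lvl : (-1 : GL (Fin 2) ℝ) ∈ lvl N :=
  ⟨-1, by simp [Gamma0_mem], by ext; simp⟩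

/-! ### The core theorem -/

/-- **D1 core.** A tuple of `mu` modular forms on `Γ₀(N)` whose translate matrix has independent
columns at `i` and at `ρ`, whose weights sum to at most `6 (mu - oT)`, together with the
constant-term bound `dim M₂ + 1 ≤ dim S₂ + oT`, forces
`mu + 2 ≤ 2 dim S₂ + oS + oT + oST`. -/
theorem d1_core [NeZero N] {J : Type*} [Fintype J] (k : J → ℕ)
    (F : ∀ j, ModularForm (lvl N) (k j))
    (hcard : Fintype.card J = Nat.card (SL(2, ℤ) ⧸ Gamma0 N))
    (hI : LinearIndependent ℂ
      (fun j (q : Qt N) => SlashInvariantForm.quotientFunc (F j) q UpperHalfPlane.I))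
    (hρ : LinearIndependent ℂ
      (fun j (q : Qt N) => SlashInvariantForm.quotientFunc (F j) q rho))
    (hK : ∑ j, k j + 6 * orbCount N ModularGroup.T ≤ 6 * Nat.card (SL(2, ℤ) ⧸ Gamma0 N))
    [Module.Finite ℂ (ModularForm (lvl N) 2)]
    (hconst : finrank ℂ (ModularForm (lvl N) 2) + 1
      ≤ finrank ℂ (CuspForm (lvl N) 2) + orbCount N ModularGroup.T) :
    Nat.card (SL(2, ℤ) ⧸ Gamma0 N) + 2 ≤ 2 * finrank ℂ (CuspForm (lvl N) 2)
      + (orbCount N ModularGroup.S + orbCount N ModularGroup.T
        + orbCount N (ModularGroup.S * ModularGroup.T)) := by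
  classical
  have : Fintype (Qt N) := Fintype.ofFinite _
  have hcardQ : Fintype.card J = Fintype.card (Qt N) := by
    rw [hcard, ← Nat.card_eq_fintype_card, card_Qt]
  -- weights are even
  have hev : ∀ j, Even (k j) := by
    intro j
    by_contra hodd
    have hodd' : Odd ((k j : ℕ) : ℤ) := by
      rw [Int.odd_coe_nat]; exact Nat.not_even_iff_odd.mp hodd
    have h0 : F j = 0 := ModularForm.eq_zero_of_neg_one_mem (neg_one_mem_lvl N) hodd' (F j)
    apply hI.ne_zero j
    funext q
    have := congrFun (LinearMap.map_zero (evalTranslates N (k j) UpperHalfPlane.I)) q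
    rw [← h0] at this
    exact this
  -- the point `i`
  have hSI : ∀ j (q : Qt N),
      SlashInvariantForm.quotientFunc (F j) ((toSL ModularGroup.S)⁻¹ • q) UpperHalfPlane.I
        = Complex.I ^ (-(k j : ℤ)) * SlashInvariantForm.quotientFunc (F j) q UpperHalfPlane.I :=
    fun j q => by
      rw [quotientFunc_fixed N (F j) ModularGroup.S UpperHalfPlane.I S_smul_I q, denom_S_I,
        mul_comm]
  have cS := card_eigen_one_eq_orbits ((toSL ModularGroup.S)⁻¹) _
    (fun j => Complex.I ^ (-(k j : ℤ))) hI hcardQ hSI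
  rw [orbCard_inv, card_orbits_Qt] at cS
  have cS' : Fintype.card {j // k j % 4 = 0} = orbCount N ModularGroup.S := by
    rw [← cS]
    exact Fintype.card_congr (Equiv.subtypeEquivRight fun j =>
      (I_zpow_eq_one_iff (k j) (hev j)).symm)
  -- the point `ρ`
  have hUρ : ∀ j (q : Qt N),
      SlashInvariantForm.quotientFunc (F j)
          ((toSL (ModularGroup.S * ModularGroup.T))⁻¹ • q) rho
        = ((rho : ℂ) + 1) ^ (-(k j : ℤ)) * SlashInvariantForm.quotientFunc (F j) q rho :=
    fun j q => by
      rw [quotientFunc_fixed N (F j) (ModularGroup.S * ModularGroup.T) rho ST_smul_rho q,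
        denom_ST_rho, mul_comm]
  have cU := card_eigen_one_eq_orbits ((toSL (ModularGroup.S * ModularGroup.T))⁻¹) _
    (fun j => ((rho : ℂ) + 1) ^ (-(k j : ℤ))) hρ hcardQ hUρ
  rw [orbCard_inv, card_orbits_Qt] at cU
  have cU0 : Fintype.card {j // k j % 6 = 0}
      = orbCount N (ModularGroup.S * ModularGroup.T) := by
    rw [← cU]
    refine Fintype.card_congr (Equiv.subtypeEquivRight fun j => ?_)
    rw [rho_zpow (k j) (hev j)]
    constructor
    · intro h; rw [if_pos h]
    · intro h
      by_contra h6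
      rw [if_neg h6] at h
      split_ifs at h
      · exact rho_sq_ne_one h
      · exact rho_ne_one h
  have cU24 : Fintype.card {j // k j % 6 = 2} = Fintype.card {j // k j % 6 = 4} := by
    have hc := card_eigen_conj ((toSL (ModularGroup.S * ModularGroup.T))⁻¹) _
      (fun j => ((rho : ℂ) + 1) ^ (-(k j : ℤ))) hρ hcardQ hUρ (rho : ℂ)
    rw [conj_rho] at hc
    have e4 : Fintype.card {j // k j % 6 = 4}
        = Fintype.card {j // ((rho : ℂ) + 1) ^ (-(k j : ℤ)) = (rho : ℂ)} := by
      refine Fintype.card_congr (Equiv.subtypeEquivRight fun j => ?_)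
      rw [rho_zpow (k j) (hev j)]
      have := hev j
      constructor
      · intro h; rw [if_neg (by omega), if_neg (by omega)]
      · intro h
        split_ifs at h with h0 h2
        · exact absurd h.symm rho_ne_one
        · exact absurd h rho_sq_ne_rho
        · obtain ⟨m, hm⟩ := this; omega
    have e2 : Fintype.card {j // k j % 6 = 2}
        = Fintype.card {j // ((rho : ℂ) + 1) ^ (-(k j : ℤ)) = (rho : ℂ) ^ 2} := by
      refine Fintype.card_congr (Equiv.subtypeEquivRight fun j => ?_)
      rw [rho_zpow (k j) (hev j)]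
      constructor
      · intro h; rw [if_neg (by omega), if_pos h]
      · intro h
        split_ifs at h with h0 h2
        · exact absurd h.symm rho_sq_ne_one
        · exact h2
        · exact absurd h.symm rho_sq_ne_rho
    rw [e2, e4, hc]
  -- the weight two generators are independent in `M₂`
  have hn2 : Fintype.card {j // k j = 2} ≤ finrank ℂ (ModularForm (lvl N) 2) := by
    let G₂ : {j // k j = 2} → ModularForm (lvl N) 2 := fun j =>
      ModularForm.mcast (show ((k j.1 : ℕ) : ℤ) = 2 by rw [j.2]; rfl) (F j.1)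
    have hli : LinearIndependent ℂ G₂ := by
      apply LinearIndependent.of_comp (evalTranslates N 2 UpperHalfPlane.I)
      have := hI.comp (Subtype.val : {j // k j = 2} → J) Subtype.val_injective
      convert this using 1
      funext j q
      show SlashInvariantForm.quotientFunc (G₂ j) q UpperHalfPlane.I = _
      rw [quotientFunc_mcast]
      rfl
    exact hli.fintype_card_le_finrank
  have hsum := sum_weight_ineq k hev
  rw [hcard] at hsum
  omega

end Modular

end Fermat.Agent.S21.helper540
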