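import Mathlib
import Fermat.Agent.S21.helper681_ParabolicDim
import Fermat.Agent.Lib.helper690_SL2ZPresentation

set_option autoImplicit false

/-!
# The exact dimension of parabolic cohomology (lower bound)

`helper681_ParabolicDim` proves, for a finite-index subgroup `Γ ∋ -1` of `SL(2, ℤ)`,
`finrank parabolicHoms(Γ) + #orbits(S) + #orbits(T) + #orbits(S * T) ≤ index + 2`.
Here we prove the reverse inequality, so that equality holds.  The extra input is the
presentation of `SL(2, ℤ)` modulo `±1` as `C₂ * C₃` (`Lib/helper690_SL2ZPresentation`), which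
allows to construct a `1`-cocycle with prescribed values on `S` and `S * T`.
-/

namespace Fermat.Agent.S21.helper690

open scoped MatrixGroups
open ModularCurve.Period
open Fermat.Agent.S21.helper681

section Abstract

variable {G : Type*} [Group G] (Γ : Subgroup G)

theorem rho_rho (g h : G) (m : (G ⧸ Γ) → ℂ) : rho Γ h (rho Γ g m) = rho Γ (g * h) m := by
  funext x
  simp [mul_smul]

theorem rho_one (m : (G ⧸ Γ) → ℂ) : rho Γ 1 m = m := by
  funext x
  simp

/-- the affine bijection `m ↦ ρ_g m + c` of the space of functions on the coset space. -/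
noncomputable def aff (g : G) (c : (G ⧸ Γ) → ℂ) : Equiv.Perm ((G ⧸ Γ) → ℂ) where
  toFun m := rho Γ g m + c
  invFun m := rho Γ g⁻¹ (m - c)
  left_inv m := by
    show rho Γ g⁻¹ (rho Γ g m + c - c) = m
    rw [add_sub_cancel_right, rho_rho, mul_inv_cancel, rho_one]
  right_inv m := by
    show rho Γ g (rho Γ g⁻¹ (m - c)) + c = m
    rw [rho_rho, inv_mul_cancel, rho_one, sub_add_cancel]

theorem aff_apply (g : G) (c m : (G ⧸ Γ) → ℂ) : aff Γ g c m = rho Γ g m + c := rfl

/-- existence of a cocycle with prescribed values on `S` and `S * T`, from the universal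
property (presentation) of the group. -/
theorem exists_cocycle (S T : G) (hgen : Subgroup.closure {S, T} = ⊤)
    (hext : ∀ s u : (Equiv.Perm ((G ⧸ Γ) → ℂ))ᵐᵒᵖ, s ^ 2 = 1 → u ^ 3 = 1 →
      ∃ ψ : G →* (Equiv.Perm ((G ⧸ Γ) → ℂ))ᵐᵒᵖ, ψ S = s ∧ ψ (S * T) = u)
    (hS2 : ∀ x : G ⧸ Γ, S • S • x = x)
    (hU3 : ∀ x : G ⧸ Γ, (S * T) • (S * T) • (S * T) • x = x)
    (a b : (G ⧸ Γ) → ℂ) (ha : ∀ x, a (S • x) + a x = 0)
    (hb : ∀ x, b ((S * T) • (S * T) • x) + b ((S * T) • x) + b x = 0) :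
    ∃ κ : G → (G ⧸ Γ) → ℂ, (∀ g h x, κ (g * h) x = κ g (h • x) + κ h x) ∧
      κ S = a ∧ κ (S * T) = b := by
  have hsq : (MulOpposite.op (aff Γ S a)) ^ 2 = 1 := by
    rw [← MulOpposite.op_pow, ← MulOpposite.op_one]
    congr 1
    refine Equiv.ext fun m => ?_
    rw [pow_two, Equiv.Perm.mul_apply, Equiv.Perm.one_apply, aff_apply, aff_apply]
    funext x
    simp only [Pi.add_apply, rho_apply, map_add]
    rw [hS2 x]
    linear_combination ha x
  have hcube : (MulOpposite.op (aff Γ (S * T) b)) ^ 3 = 1 := by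
    rw [← MulOpposite.op_pow, ← MulOpposite.op_one]
    congr 1
    refine Equiv.ext fun m => ?_
    rw [pow_succ, pow_two, Equiv.Perm.mul_apply, Equiv.Perm.mul_apply, Equiv.Perm.one_apply,
      aff_apply, aff_apply, aff_apply]
    funext x
    simp only [Pi.add_apply, rho_apply, map_add]
    rw [hU3 x]
    linear_combination hb x
  obtain ⟨ψ, hψS, hψU⟩ := hext _ _ hsq hcube
  set A : G → Equiv.Perm ((G ⧸ Γ) → ℂ) := fun g => MulOpposite.unop (ψ g) with hA
  have hA_mul : ∀ g h, A (g * h) = A h * A g := by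
    intro g h
    simp only [hA, map_mul, MulOpposite.unop_mul]
  have hA_one : A 1 = 1 := by
    simp only [hA, map_one, MulOpposite.unop_one]
  have hA_inv : ∀ g, A g⁻¹ = (A g)⁻¹ := by
    intro g
    simp only [hA, map_inv, MulOpposite.unop_inv]
  have hAS : A S = aff Γ S a := by
    simp only [hA, hψS, MulOpposite.unop_op]
  have hAU : A (S * T) = aff Γ (S * T) b := by
    simp only [hA, hψU, MulOpposite.unop_op]
  -- every `A g` is affine with linear part `ρ_g`
  have P_mul : ∀ g h, (∀ m, A g m = rho Γ g m + A g 0) → (∀ m, A h m = rho Γ h m + A h 0) →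
      ∀ m, A (g * h) m = rho Γ (g * h) m + A (g * h) 0 := by
    intro g h hg hh m
    rw [hA_mul, Equiv.Perm.mul_apply, Equiv.Perm.mul_apply, hg m, hh (rho Γ g m + A g 0),
      hh (A g 0), map_add, rho_rho]
    abel
  have P_inv : ∀ g, (∀ m, A g m = rho Γ g m + A g 0) →
      ∀ m, A g⁻¹ m = rho Γ g⁻¹ m + A g⁻¹ 0 := by
    intro g hg m
    have key : ∀ m', A g⁻¹ m' = rho Γ g⁻¹ (m' - A g 0) := by
      intro m'
      rw [hA_inv, Equiv.Perm.inv_def, Equiv.symm_apply_eq, hg, rho_rho, inv_mul_cancel, rho_one,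
        sub_add_cancel]
    rw [key m, key 0, map_sub, zero_sub, map_neg]
    abel
  have PS : ∀ m, A S m = rho Γ S m + A S 0 := by
    intro m
    rw [hAS, aff_apply, aff_apply, map_zero, zero_add]
  have PU : ∀ m, A (S * T) m = rho Γ (S * T) m + A (S * T) 0 := by
    intro m
    rw [hAU, aff_apply, aff_apply, map_zero, zero_add]
  have PT : ∀ m, A T m = rho Γ T m + A T 0 := by
    have h := P_mul S⁻¹ (S * T) (P_inv S PS) PU
    rwa [inv_mul_cancel_left] at h
  have all : ∀ g : G, ∀ m, A g m = rho Γ g m + A g 0 := by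
    intro g
    have hg : g ∈ Subgroup.closure {S, T} := by rw [hgen]; trivial
    induction hg using Subgroup.closure_induction with
    | mem y hy =>
      rcases hy with rfl | rfl
      · exact PS
      · exact PT
    | one =>
      intro m
      rw [hA_one, Equiv.Perm.one_apply, Equiv.Perm.one_apply, rho_one, add_zero]
    | mul a b _ _ iha ihb => exact P_mul a b iha ihb
    | inv a _ iha => exact P_inv a iha
  refine ⟨fun g => A g 0, ?_, ?_, ?_⟩
  · intro g h x
    show A (g * h) 0 x = A g 0 (h • x) + A h 0 x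
    rw [hA_mul, Equiv.Perm.mul_apply, all h (A g 0)]
    rfl
  · show A S 0 = a
    rw [hAS, aff_apply, map_zero, zero_add]
  · show A (S * T) 0 = b
    rw [hAU, aff_apply, map_zero, zero_add]

/-- every cocycle on `G` with values in functions on `G ⧸ Γ` is, up to a coboundary, the cocycle
attached to a homomorphism on `Γ` (Shapiro's lemma, surjectivity part). -/
theorem exists_hom_of_cocycle (κ : G → (G ⧸ Γ) → ℂ)
    (hκ : ∀ g h x, κ (g * h) x = κ g (h • x) + κ h x) :
    ∃ (φ : Additive Γ →+ ℂ) (m : (G ⧸ Γ) → ℂ),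
      ∀ g x, coc φ g x = κ g x + m x - m (g • x) := by
  set x₁ : G ⧸ Γ := ((1 : G) : G ⧸ Γ) with hx₁
  have hfix : ∀ γ : Γ, (γ : G) • x₁ = x₁ := by
    intro γ
    rw [hx₁, MulAction.Quotient.smul_mk, smul_eq_mul, mul_one]
    exact QuotientGroup.eq.mpr (by simp)
  have hκ1 : ∀ x, κ 1 x = 0 := by
    intro x
    have h := hκ 1 1 x
    rw [mul_one, one_smul] at h
    linear_combination -h
  have hout : ∀ x : G ⧸ Γ, (Quotient.out x : G) • x₁ = x := by
    intro x
    rw [hx₁, MulAction.Quotient.smul_mk, smul_eq_mul, mul_one]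
    exact QuotientGroup.out_eq' x
  let φ : Additive Γ →+ ℂ := AddMonoidHom.mk' (fun γ => κ ((Additive.toMul γ : Γ) : G) x₁) (by
    intro γ γ'
    show κ (((Additive.toMul γ * Additive.toMul γ' : Γ)) : G) x₁ = _
    rw [Subgroup.coe_mul, hκ, hfix])
  refine ⟨φ, fun x => κ (Quotient.out x) x₁, fun g x => ?_⟩
  show κ ((cocElt Γ g x : Γ) : G) x₁ = _
  have e : ((cocElt Γ g x : Γ) : G) = (Quotient.out (g • x))⁻¹ * g * Quotient.out x := rfl
  have h3 := hκ (Quotient.out (g • x))⁻¹ (Quotient.out (g • x)) x₁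
  rw [inv_mul_cancel, hκ1, hout] at h3
  rw [e, hκ, hout, hκ]
  linear_combination -h3

section FiberAux

open scoped Classical in
/-- if `m` is constant on the fiber through `x₀` and its fiber sum vanishes there then
`m x₀ = 0`. -/
theorem eq_zero_of_fiberSum_eq_zero {X Q : Type*} [Fintype X] (π : X → Q) (m : X → ℂ) (x₀ : X)
    (h : ∀ x, π x = π x₀ → m x = m x₀) (h0 : fiberSum π m (π x₀) = 0) : m x₀ = 0 := by
  rw [fiberSum_apply, ← Finset.sum_filter] at h0
  rw [Finset.sum_congr rfl (fun y hy => h y (Finset.mem_filter.mp hy).2), Finset.sum_const]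
    at h0
  rcases smul_eq_zero.mp h0 with h1 | h1
  · exact absurd h1
      (Finset.card_ne_zero.mpr ⟨x₀, Finset.mem_filter.mpr ⟨Finset.mem_univ _, rfl⟩⟩)
  · exact h1

open scoped Classical in
/-- the total sum of the fiber sums is the total sum. -/
theorem sum_fiberSum {X Q : Type*} [Fintype X] [Fintype Q] (π : X → Q) (m : X → ℂ) :
    ∑ q, fiberSum π m q = ∑ x, m x := by
  simp only [fiberSum_apply]
  rw [Finset.sum_comm]
  refine Finset.sum_congr rfl fun x _ => ?_
  rw [Finset.sum_ite_eq]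
  simp

end FiberAux

section Finite

variable [Finite (G ⧸ Γ)]

/-- converse of `orbSum_eq_zero_of_norm`: if `g ^ n` acts trivially and the orbit sums of `c`
vanish then the `n`-fold norm of `c` along `g` vanishes. -/
theorem norm_eq_zero_of_orbSum (g : G) (n : ℕ) (hgn : ∀ x : G ⧸ Γ, g ^ n • x = x)
    (c : (G ⧸ Γ) → ℂ) (h : orbSum Γ g c = 0) (x : G ⧸ Γ) :
    ∑ j ∈ Finset.range n, c (g ^ j • x) = 0 := by
  set N : (G ⧸ Γ) → ℂ := fun y => ∑ j ∈ Finset.range n, c (g ^ j • y) with hN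
  have hNg : ∀ y, N (g • y) = N y := by
    intro y
    show ∑ j ∈ Finset.range n, c (g ^ j • g • y) = ∑ j ∈ Finset.range n, c (g ^ j • y)
    have e1 : ∀ j, g ^ j • g • y = g ^ (j + 1) • y := by
      intro j
      rw [pow_succ, mul_smul]
    simp only [e1]
    have h1 := Finset.sum_range_succ (fun j => c (g ^ j • y)) n
    have h2 := Finset.sum_range_succ' (fun j => c (g ^ j • y)) n
    simp only [hgn y, pow_zero, one_smul] at h1 h2
    linear_combination h1 - h2
  have hNH : ∀ k ∈ Subgroup.zpowers g, ∀ y, N (k • y) = N y := by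
    let H : Subgroup G :=
      { carrier := {k | ∀ y, N (k • y) = N y}
        mul_mem' := fun {a b} ha hb y => by rw [mul_smul, ha, hb]
        one_mem' := fun y => by rw [one_smul]
        inv_mem' := fun {a} ha y => by
          have := ha (a⁻¹ • y)
          rw [smul_inv_smul] at this
          exact this.symm }
    have hle : Subgroup.zpowers g ≤ H := (Subgroup.zpowers_le).mpr hNg
    exact fun k hk => hle hk
  have hsum : orbSum Γ g N = 0 := by
    have hN' : N = ∑ j ∈ Finset.range n, rho Γ (g ^ j) c := by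
      funext y
      simp [hN, Finset.sum_apply]
    rw [hN', map_sum]
    simp only [orbSum_rho_pow, h]
    simp
  have hval := congrFun hsum (orbProj Γ g x)
  unfold orbSum at hval
  rw [Pi.zero_apply] at hval
  have hNorb : ∀ y, orbProj Γ g y = orbProj Γ g x → N y = N x := by
    intro y hy
    have hrel : y ∈ MulAction.orbit (Subgroup.zpowers g) x := by
      have := Quotient.exact' hy
      exact this
    obtain ⟨⟨k, hk⟩, rfl⟩ := hrel
    exact hNH k hk x
  exact @eq_zero_of_fiberSum_eq_zero _ _ (Fintype.ofFinite (G ⧸ Γ)) (orbProj Γ g) N x hNorb hval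

/-- the total sum of the orbit sums is the total sum. -/
theorem sum_orbSum (g : G) (m : (G ⧸ Γ) → ℂ) :
    ∑ᶠ q, orbSum Γ g m q = ∑ᶠ x, m x := by
  classical
  let _ := Fintype.ofFinite (G ⧸ Γ)
  let _ := Fintype.ofFinite (MulAction.orbitRel.Quotient (Subgroup.zpowers g) (G ⧸ Γ))
  rw [finsum_eq_sum_of_fintype, finsum_eq_sum_of_fintype]
  exact sum_fiberSum (orbProj Γ g) m

/-- **Lower bound, abstract form.**  Let `G` be generated by `S` and `T`, with `S ^ 2` and
`(S * T) ^ 3` acting trivially on `G ⧸ Γ`, and assume the universal property of `C₂ * C₃` for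
`G` (with target the opposite of the permutation group of the function space).  If `E` contains
every hom whose cocycle vanishes on the stabilisers of powers of `T`, then
`index + 2 ≤ dim E + #orbits`. -/
theorem abstract_lower (S T : G) (hgen : Subgroup.closure {S, T} = ⊤)
    (hext : ∀ s u : (Equiv.Perm ((G ⧸ Γ) → ℂ))ᵐᵒᵖ, s ^ 2 = 1 → u ^ 3 = 1 →
      ∃ ψ : G →* (Equiv.Perm ((G ⧸ Γ) → ℂ))ᵐᵒᵖ, ψ S = s ∧ ψ (S * T) = u)
    (hS2 : ∀ x : G ⧸ Γ, S • S • x = x)
    (hU3 : ∀ x : G ⧸ Γ, (S * T) • (S * T) • (S * T) • x = x)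
    (E : Submodule ℂ (Additive Γ →+ ℂ)) [Module.Finite ℂ E]
    (hE : ∀ φ : Additive Γ →+ ℂ,
      (∀ (n : ℕ) (x : G ⧸ Γ), T ^ n • x = x → coc φ (T ^ n) x = 0) → φ ∈ E) :
    Nat.card (G ⧸ Γ) + 2 ≤ Module.finrank ℂ E
      + (Nat.card (MulAction.orbitRel.Quotient (Subgroup.zpowers S) (G ⧸ Γ))
      + Nat.card (MulAction.orbitRel.Quotient (Subgroup.zpowers T) (G ⧸ Γ))
      + Nat.card (MulAction.orbitRel.Quotient (Subgroup.zpowers (S * T)) (G ⧸ Γ))) := by
  classical
  have instX := Fintype.ofFinite (G ⧸ Γ)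
  -- Step A: exactness in the middle
  have hA : LinearMap.ker (psiMap Γ S T) ≤ LinearMap.range (thetaMap Γ E S T) := by
    rintro ⟨a, b⟩ hab
    rw [LinearMap.mem_ker, psiMap_apply, Prod.mk_eq_zero, Prod.mk_eq_zero] at hab
    obtain ⟨h1, h2, h3⟩ := hab
    have ha : ∀ x, a (S • x) + a x = 0 := by
      intro x
      have := norm_eq_zero_of_orbSum Γ S 2
        (fun x => by rw [pow_two, mul_smul]; exact hS2 x) a h1 x
      simp only [Finset.sum_range_succ, Finset.sum_range_zero, pow_zero, one_smul, pow_one,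
        zero_add] at this
      linear_combination this
    have hb : ∀ x, b ((S * T) • (S * T) • x) + b ((S * T) • x) + b x = 0 := by
      intro x
      have := norm_eq_zero_of_orbSum Γ (S * T) 3
        (fun x => by rw [pow_succ, pow_two, mul_smul, mul_smul]; exact hU3 x) b h2 x
      simp only [Finset.sum_range_succ, Finset.sum_range_zero, pow_zero, one_smul, pow_one,
        zero_add, pow_two, mul_smul] at this
      simp only [mul_smul]
      linear_combination this
    obtain ⟨κ, hκ, hκS, hκU⟩ := exists_cocycle Γ S T hgen hext hS2 hU3 a b ha hb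
    obtain ⟨φ, m, hφ⟩ := exists_hom_of_cocycle Γ κ hκ
    have hκT : ∀ x, κ T x = b x - a (T • x) := by
      intro x
      have := hκ S T x
      rw [hκS, hκU] at this
      linear_combination -this
    have hcT : (fun x => coc φ T x) = (b - a) - (rho Γ T a - a) - (rho Γ T m - m) := by
      funext x
      simp only [Pi.sub_apply, rho_apply]
      rw [hφ T x, hκT x]
      ring
    have c3 : orbSum Γ T (fun x => coc φ T x) = 0 := by
      rw [hcT]
      simp only [map_sub, orbSum_rho, sub_self, sub_zero]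
      rw [← map_sub]
      exact h3
    set n₀ := orderOf (MulAction.toPermHom G (G ⧸ Γ) T) with hn₀
    have hn₀pos : 0 < n₀ := orderOf_pos _
    have hfix : ∀ x : G ⧸ Γ, T ^ n₀ • x = x := by
      intro x
      have h1 : (MulAction.toPermHom G (G ⧸ Γ) T) ^ n₀ = 1 := pow_orderOf_eq_one _
      rw [← map_pow] at h1
      have h2 := DFunLike.congr_fun h1 x
      simpa using h2
    have hT0 : ∀ x, coc φ (T ^ n₀) x = 0 := by
      intro x
      rw [coc_pow_eq_sum]
      exact norm_eq_zero_of_orbSum Γ T n₀ hfix _ c3 x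
    have hφE : φ ∈ E := by
      apply hE
      intro n x hx
      have e1 := coc_pow_eq_sum φ (T ^ n) n₀ x
      have hfixn : ∀ j : ℕ, (T ^ n) ^ j • x = x := by
        intro j
        induction j with
        | zero => simp
        | succ j ih => rw [pow_succ, mul_smul, hx, ih]
      simp only [hfixn, Finset.sum_const, Finset.card_range] at e1
      have e2 := coc_pow_eq_sum φ (T ^ n₀) n x
      simp only [hT0, Finset.sum_const_zero] at e2
      have e3 : (T ^ n) ^ n₀ = (T ^ n₀) ^ n := by rw [← pow_mul, ← pow_mul, mul_comm]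
      rw [e3, e2] at e1
      have e4 : (n₀ : ℂ) * coc φ (T ^ n) x = 0 := by
        rw [← nsmul_eq_mul]
        exact e1.symm
      rcases mul_eq_zero.mp e4 with h | h
      · exact absurd (by exact_mod_cast h) hn₀pos.ne'
      · exact h
    refine ⟨(⟨φ, hφE⟩, m), ?_⟩
    rw [thetaMap_apply]
    refine Prod.ext ?_ ?_
    · funext x
      simp only [Pi.add_apply, Pi.sub_apply, cocL_apply, rho_apply]
      rw [hφ S x, hκS]
      ring
    · funext x
      simp only [Pi.add_apply, Pi.sub_apply, cocL_apply, rho_apply]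
      rw [hφ (S * T) x, hκU]
      ring
  -- Step B: counting dimensions
  obtain ⟨x₀⟩ : Nonempty (G ⧸ Γ) := ⟨((1 : G) : G ⧸ Γ)⟩
  have d1 := LinearMap.finrank_range_add_finrank_ker (thetaMap Γ E S T)
  have d2 : 1 ≤ Module.finrank ℂ (LinearMap.ker (thetaMap Γ E S T)) := by
    have hmem : ((0 : E), (fun _ => (1 : ℂ) : (G ⧸ Γ) → ℂ))
        ∈ LinearMap.ker (thetaMap Γ E S T) := by
      rw [LinearMap.mem_ker, thetaMap_apply]
      refine Prod.ext ?_ ?_ <;>
      · funext x
        simp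
    have hne : (⟨_, hmem⟩ : LinearMap.ker (thetaMap Γ E S T)) ≠ 0 := by
      intro h
      have h' := congrArg (fun v : LinearMap.ker (thetaMap Γ E S T) =>
        (v : E × ((G ⧸ Γ) → ℂ)).2 x₀) h
      simp at h'
    have hpos : 0 < Module.finrank ℂ (LinearMap.ker (thetaMap Γ E S T)) :=
      (Module.finrank_pos_iff_exists_ne_zero (R := ℂ)
        (M := LinearMap.ker (thetaMap Γ E S T))).mpr ⟨_, hne⟩
    exact hpos
  have d3 := Submodule.finrank_mono hA
  have d4 := LinearMap.finrank_range_add_finrank_ker (psiMap Γ S T)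
  have instS := Fintype.ofFinite (MulAction.orbitRel.Quotient (Subgroup.zpowers S) (G ⧸ Γ))
  have instT := Fintype.ofFinite (MulAction.orbitRel.Quotient (Subgroup.zpowers T) (G ⧸ Γ))
  have instU := Fintype.ofFinite (MulAction.orbitRel.Quotient (Subgroup.zpowers (S * T)) (G ⧸ Γ))
  have d6 : Module.finrank ℂ (LinearMap.range (psiMap Γ S T)) < Module.finrank ℂ
      ((MulAction.orbitRel.Quotient (Subgroup.zpowers S) (G ⧸ Γ) → ℂ) ×
        (MulAction.orbitRel.Quotient (Subgroup.zpowers (S * T)) (G ⧸ Γ) → ℂ) ×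
        (MulAction.orbitRel.Quotient (Subgroup.zpowers T) (G ⧸ Γ) → ℂ)) := by
    apply Submodule.finrank_lt
    intro htop
    have hmem : (((fun _ => (1 : ℂ)), 0, 0) :
        (MulAction.orbitRel.Quotient (Subgroup.zpowers S) (G ⧸ Γ) → ℂ) ×
        (MulAction.orbitRel.Quotient (Subgroup.zpowers (S * T)) (G ⧸ Γ) → ℂ) ×
        (MulAction.orbitRel.Quotient (Subgroup.zpowers T) (G ⧸ Γ) → ℂ))
        ∈ LinearMap.range (psiMap Γ S T) := by
      rw [htop]
      trivial
    obtain ⟨⟨a, b⟩, hab⟩ := hmem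
    rw [psiMap_apply] at hab
    simp only [Prod.mk.injEq] at hab
    obtain ⟨e1, e2, e3⟩ := hab
    have s1 := sum_orbSum Γ S a
    have s2 := sum_orbSum Γ (S * T) b
    have s3 := sum_orbSum Γ T (b - a)
    rw [e1] at s1
    rw [e2] at s2
    rw [e3] at s3
    have s4 : ∑ᶠ x, (b - a) x = ∑ᶠ x, b x - ∑ᶠ x, a x :=
      finsum_sub_distrib (Set.toFinite _) (Set.toFinite _)
    rw [s4, ← s1, ← s2] at s3
    simp only [Pi.zero_apply, finsum_zero] at s3
    rw [finsum_eq_sum_of_fintype] at s3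
    simp only [Finset.sum_const, Finset.card_univ, nsmul_eq_mul, mul_one, zero_sub] at s3
    have hpos : 0 < Fintype.card
        (MulAction.orbitRel.Quotient (Subgroup.zpowers S) (G ⧸ Γ)) :=
      Fintype.card_pos_iff.mpr ⟨orbProj Γ S x₀⟩
    have : (Fintype.card
        (MulAction.orbitRel.Quotient (Subgroup.zpowers S) (G ⧸ Γ)) : ℂ) = 0 := by
      linear_combination s3
    exact hpos.ne' (by exact_mod_cast this)
  simp only [Module.finrank_prod, Module.finrank_fintype_fun_eq_card] at d1 d4 d6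
  simp only [Nat.card_eq_fintype_card]
  omega

end Finite

end Abstract

/-! ## Specialisation to `SL(2, ℤ)` -/

section SL2Z

open ModularGroup

/-- an element of `SL(2, ℤ)` with prescribed first column `(x, y)`, from a Bezout relation. -/
def colSL (x y u v : ℤ) (h : u * x + v * y = 1) : SL(2, ℤ) :=
  ⟨!![x, -v; y, u], by rw [Matrix.det_fin_two_of]; linarith⟩

theorem lowerLeft_conj (γ δ : SL(2, ℤ)) :
    (δ⁻¹ * γ * δ) 1 0
      = -(δ 1 0) * (γ 0 0 * δ 0 0 + γ 0 1 * δ 1 0) + δ 0 0 * (γ 1 0 * δ 0 0 + γ 1 1 * δ 1 0) := by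
  simp only [Matrix.SpecialLinearGroup.coe_mul, Matrix.SpecialLinearGroup.coe_inv,
    Matrix.adjugate_fin_two, Matrix.mul_apply, Fin.sum_univ_two, Matrix.of_apply,
    Matrix.cons_val_zero, Matrix.cons_val_one]
  ring

/-- a trace `±2` element of `SL(2, ℤ)` is conjugate to an upper triangular matrix
(same argument as `helper376.exists_conj_lowerLeft_eq_zero`, repeated here to keep the
dependencies of this file small). -/
theorem exists_conj_lowerLeft_eq_zero (γ : SL(2, ℤ))
    (h : (γ : Matrix (Fin 2) (Fin 2) ℤ).trace ^ 2 = 4) :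
    ∃ δ : SL(2, ℤ), (δ⁻¹ * γ * δ) 1 0 = 0 := by
  have hdet : γ 0 0 * γ 1 1 - γ 0 1 * γ 1 0 = 1 := by
    have := γ.det_coe
    rwa [Matrix.det_fin_two] at this
  rw [Matrix.trace_fin_two] at h
  by_cases hc : γ 1 0 = 0
  · exact ⟨1, by simpa using hc⟩
  obtain ⟨ε, hε, htr⟩ : ∃ ε : ℤ, ε ^ 2 = 1 ∧ γ 0 0 + γ 1 1 = 2 * ε := by
    have h' : (γ 0 0 + γ 1 1 - 2) * (γ 0 0 + γ 1 1 + 2) = 0 := by linear_combination h
    rcases mul_eq_zero.mp h' with h1 | h1
    · exact ⟨1, by norm_num, by linarith⟩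
    · exact ⟨-1, by norm_num, by linarith⟩
  have hg : 0 < Int.gcd (ε - γ 1 1) (γ 1 0) := Int.gcd_pos_of_ne_zero_right _ hc
  obtain ⟨x, y, hxy, hx, hy⟩ := Int.exists_gcd_one hg
  obtain ⟨u, v, huv⟩ := Int.isCoprime_iff_gcd_eq_one.mpr hxy
  refine ⟨colSL x y u v huv, ?_⟩
  rw [lowerLeft_conj]
  have e00 : (colSL x y u v huv) 0 0 = x := rfl
  have e10 : (colSL x y u v huv) 1 0 = y := rfl
  rw [e00, e10]
  set g : ℤ := (Int.gcd (ε - γ 1 1) (γ 1 0) : ℤ) with hgdef
  have hg0 : g ≠ 0 := by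
    have : (0 : ℤ) < g := by rw [hgdef]; exact_mod_cast hg
    exact this.ne'
  have key : g ^ 2 * (-y * (γ 0 0 * x + γ 0 1 * y) + x * (γ 1 0 * x + γ 1 1 * y)) = 0 := by
    have hx' : x * g = ε - γ 1 1 := hx.symm
    have hy' : y * g = γ 1 0 := hy.symm
    have : g ^ 2 * (-y * (γ 0 0 * x + γ 0 1 * y) + x * (γ 1 0 * x + γ 1 1 * y))
        = -(y * g) * (γ 0 0 * (x * g) + γ 0 1 * (y * g))
          + (x * g) * (γ 1 0 * (x * g) + γ 1 1 * (y * g)) := by ring
    rw [this, hx', hy']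
    have ha : γ 0 0 = 2 * ε - γ 1 1 := by linarith
    rw [ha] at hdet ⊢
    linear_combination (γ 1 0) * hdet - (γ 1 0) * hε
  exact (mul_eq_zero.mp key).resolve_left (pow_ne_zero 2 hg0)

/-- an upper triangular element of `SL(2, ℤ)` is `± T ^ n`. -/
theorem eq_T_zpow_or_neg (g : SL(2, ℤ)) (hc : g 1 0 = 0) :
    ∃ n : ℤ, g = T ^ n ∨ g = -T ^ n := by
  have had := g.det_coe
  replace had : g 0 0 * g 1 1 = 1 := by rw [Matrix.det_fin_two, hc] at had; lia
  rcases Int.eq_one_or_neg_one_of_mul_eq_one' had with (⟨ha, hd⟩ | ⟨ha, hd⟩)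
  · refine ⟨g 0 1, Or.inl ?_⟩
    ext i j; fin_cases i <;> fin_cases j <;>
      simp [ha, hc, hd, coe_T_zpow, show (1 : Fin (0 + 2)) = (1 : Fin 2) from rfl]
  · refine ⟨-(g 0 1), Or.inr ?_⟩
    ext i j; fin_cases i <;> fin_cases j <;>
      simp [ha, hc, hd, coe_T_zpow, show (1 : Fin (0 + 2)) = (1 : Fin 2) from rfl]

theorem neg_one_smul_eq (Γ : Subgroup SL(2, ℤ)) (hneg : (-1 : SL(2, ℤ)) ∈ Γ)
    (x : SL(2, ℤ) ⧸ Γ) : (-1 : SL(2, ℤ)) • x = x := by
  induction x using QuotientGroup.induction_on with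
  | H g =>
    rw [MulAction.Quotient.smul_mk, smul_eq_mul]
    refine QuotientGroup.eq.mpr ?_
    have : (-1 * g)⁻¹ * g = -1 := by simp
    rw [this]
    exact hneg

/-- a hom whose cocycle vanishes on the stabilisers of powers of `T` kills the elements
conjugate to `± T ^ n`. -/
theorem hom_eq_zero_of_conj (Γ : Subgroup SL(2, ℤ)) (hneg : (-1 : SL(2, ℤ)) ∈ Γ)
    (φ : Additive Γ →+ ℂ)
    (hφ : ∀ (n : ℕ) (x : SL(2, ℤ) ⧸ Γ), T ^ n • x = x → coc φ (T ^ n) x = 0)
    (γ : Γ) (δ : SL(2, ℤ)) (n : ℕ)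
    (h : δ⁻¹ * (γ : SL(2, ℤ)) * δ = T ^ n ∨ δ⁻¹ * (γ : SL(2, ℤ)) * δ = -T ^ n) :
    φ (Additive.ofMul γ) = 0 := by
  have hφneg : φ (Additive.ofMul (⟨-1, hneg⟩ : Γ)) = 0 := by
    have h2 : (2 : ℂ) • φ (Additive.ofMul (⟨-1, hneg⟩ : Γ)) = 0 := by
      rw [two_smul, ← map_add, ← ofMul_mul]
      have : (⟨-1, hneg⟩ : Γ) * ⟨-1, hneg⟩ = 1 := Subtype.ext (by simp)
      rw [this]
      simp
    simpa using h2
  have hγ' : δ * T ^ n * δ⁻¹ = γ ∨ δ * T ^ n * δ⁻¹ = -1 * γ := by
    rcases h with h | h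
    · left
      rw [← h]
      group
    · right
      have h' : T ^ n = -(δ⁻¹ * (γ : SL(2, ℤ)) * δ) := by rw [h, neg_neg]
      rw [h']
      simp [mul_assoc]
  have hmem : δ * T ^ n * δ⁻¹ ∈ Γ := by
    rcases hγ' with h | h
    · rw [h]
      exact γ.2
    · rw [h]
      exact Γ.mul_mem hneg γ.2
  have hφγ' : φ (Additive.ofMul (⟨_, hmem⟩ : Γ)) = φ (Additive.ofMul γ) := by
    rcases hγ' with h | h
    · congr 2
      exact Subtype.ext h
    · have : (⟨_, hmem⟩ : Γ) = ⟨-1, hneg⟩ * γ := Subtype.ext h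
      rw [this, ofMul_mul, map_add, hφneg, zero_add]
  set x : SL(2, ℤ) ⧸ Γ := ((δ⁻¹ : SL(2, ℤ)) : SL(2, ℤ) ⧸ Γ) with hx
  have hfix : T ^ n • x = x := by
    rw [hx, MulAction.Quotient.smul_mk, smul_eq_mul]
    refine QuotientGroup.eq.mpr ?_
    have : (T ^ n * δ⁻¹)⁻¹ * δ⁻¹ = (δ * T ^ n * δ⁻¹)⁻¹ := by group
    rw [this]
    exact Γ.inv_mem hmem
  obtain ⟨η, hη⟩ := QuotientGroup.mk_out_eq_mul Γ δ⁻¹
  have key : cocElt Γ (T ^ n) x = η⁻¹ * ⟨_, hmem⟩ * η := by
    apply Subtype.ext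
    simp only [cocElt, hfix]
    rw [hx, hη]
    simp only [Subgroup.coe_mul, Subgroup.coe_inv]
    group
  have h0 := hφ n x hfix
  rw [coc, key, ofMul_mul, ofMul_mul, ofMul_inv, map_add, map_add, map_neg] at h0
  rw [← hφγ']
  linear_combination h0

/-- a hom whose cocycle vanishes on the stabilisers of powers of `T` is parabolic. -/
theorem mem_parabolicHoms_of_coc_T (Γ : Subgroup SL(2, ℤ)) (hneg : (-1 : SL(2, ℤ)) ∈ Γ)
    (φ : Additive Γ →+ ℂ)
    (hφ : ∀ (n : ℕ) (x : SL(2, ℤ) ⧸ Γ), T ^ n • x = x → coc φ (T ^ n) x = 0) :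
    φ ∈ parabolicHoms ℂ Γ ℂ := by
  rw [mem_parabolicHoms_iff]
  intro γ hγ
  obtain ⟨δ, hδ⟩ := exists_conj_lowerLeft_eq_zero (γ : SL(2, ℤ)) hγ
  obtain ⟨k, hk⟩ := eq_T_zpow_or_neg _ hδ
  rcases Int.eq_nat_or_neg k with ⟨n, rfl | rfl⟩
  · simp only [zpow_natCast] at hk
    exact hom_eq_zero_of_conj Γ hneg φ hφ γ δ n hk
  · have hk' : δ⁻¹ * ((γ⁻¹ : Γ) : SL(2, ℤ)) * δ = T ^ n
        ∨ δ⁻¹ * ((γ⁻¹ : Γ) : SL(2, ℤ)) * δ = -T ^ n := by
      have e : δ⁻¹ * ((γ⁻¹ : Γ) : SL(2, ℤ)) * δ = (δ⁻¹ * (γ : SL(2, ℤ)) * δ)⁻¹ := by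
        rw [Subgroup.coe_inv]
        group
      rw [e]
      rcases hk with hk | hk
      · left
        rw [hk, zpow_neg, inv_inv, zpow_natCast]
      · right
        rw [hk, zpow_neg, zpow_natCast, inv_neg, inv_inv]
    have h0 := hom_eq_zero_of_conj Γ hneg φ hφ γ⁻¹ δ n hk'
    rw [ofMul_inv, map_neg, neg_eq_zero] at h0
    exact h0

/-- **Lower bound for parabolic cohomology**: for a finite-index subgroup `Γ ∋ -1` of
`SL(2, ℤ)`, the index plus two is at most the dimension of the space of parabolic homs plus the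
number of orbits of `S`, `T`, `S * T` on `SL(2, ℤ) ⧸ Γ`.  Together with
`helper681.finrank_parabolicHoms_add_orbits_le` this is an equality. -/
theorem card_add_two_le_finrank_parabolicHoms_add_orbits (Γ : Subgroup SL(2, ℤ))
    [Γ.FiniteIndex] (hneg : (-1 : SL(2, ℤ)) ∈ Γ) :
    Nat.card (SL(2, ℤ) ⧸ Γ) + 2 ≤ Module.finrank ℂ (parabolicHoms ℂ Γ ℂ)
      + (Nat.card (MulAction.orbitRel.Quotient (Subgroup.zpowers ModularGroup.S) (SL(2, ℤ) ⧸ Γ))
      + Nat.card (MulAction.orbitRel.Quotient (Subgroup.zpowers ModularGroup.T) (SL(2, ℤ) ⧸ Γ))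
      + Nat.card (MulAction.orbitRel.Quotient
          (Subgroup.zpowers (ModularGroup.S * ModularGroup.T)) (SL(2, ℤ) ⧸ Γ))) := by
  have := (finrank_parabolicHoms_add_orbits_le Γ hneg).1
  refine abstract_lower Γ ModularGroup.S ModularGroup.T SpecialLinearGroup.SL2Z_generators
    ?_ ?_ ?_ (parabolicHoms ℂ Γ ℂ) ?_
  · intro s u hs hu
    exact Fermat.Agent.Lib.helper690.exists_monoidHom_of_sq_cube s u hs hu
  · intro x
    rw [← mul_smul, S_mul_S_eq_neg_one]
    exact neg_one_smul_eq Γ hneg x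
  · intro x
    rw [← mul_smul, ← mul_smul, mul_assoc, ST_cube_eq_neg_one]
    exact neg_one_smul_eq Γ hneg x
  · intro φ hφ
    exact mem_parabolicHoms_of_coc_T Γ hneg φ hφ

/-- **Exact dimension of parabolic cohomology** (combining both bounds). -/
theorem finrank_parabolicHoms_add_orbits_eq (Γ : Subgroup SL(2, ℤ))
    [Γ.FiniteIndex] (hneg : (-1 : SL(2, ℤ)) ∈ Γ) :
    Module.finrank ℂ (parabolicHoms ℂ Γ ℂ)
      + (Nat.card (MulAction.orbitRel.Quotient (Subgroup.zpowers ModularGroup.S) (SL(2, ℤ) ⧸ Γ))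
      + Nat.card (MulAction.orbitRel.Quotient (Subgroup.zpowers ModularGroup.T) (SL(2, ℤ) ⧸ Γ))
      + Nat.card (MulAction.orbitRel.Quotient
          (Subgroup.zpowers (ModularGroup.S * ModularGroup.T)) (SL(2, ℤ) ⧸ Γ)))
      = Nat.card (SL(2, ℤ) ⧸ Γ) + 2 :=
  le_antisymm (finrank_parabolicHoms_add_orbits_le Γ hneg).2
    (card_add_two_le_finrank_parabolicHoms_add_orbits Γ hneg)

end SL2Z

end Fermat.Agent.S21.helper690
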