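/-
helper7440: S21 Route 2, leaf POT (backup), in the exact shape `helper801.StmtPOT N`.

Every real parabolic hom `φ` of `Γ₀(N)` has a smooth potential `u₀` (`u₀(γ z) = u₀(z) + φ(γ)`)
which is constant on every horoball `σ{Im > 2}`, `σ ∈ SL(2,ℤ)`; hence it has finite energy on a
finite union of translates of the standard fundamental domain.
-/
import Fermat.Agent.S21.helper801_HodgeSpec

set_option autoImplicit false

namespace Fermat.Agent.S21.helper7440

open ModularCurve ModularCurve.Period CongruenceSubgroup UpperHalfPlane MeasureTheory Filter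
  Topology
open scoped MatrixGroups ENNReal Modular ContDiff

noncomputable section

/-! ### The cutoff function -/

/-- A smooth cutoff on `ℂ`: equal to `1` on `{|re| ≤ 1/2, im ≥ 3/4}` (which contains the standard
fundamental domain) and vanishing outside `{|re| < 1, im > 1/2}`. -/
def cut (w : ℂ) : ℝ :=
  Real.smoothTransition (4 - 4 * w.re ^ 2) * Real.smoothTransition (4 * w.im - 2)

theorem cut_contDiff : ContDiff ℝ ∞ cut := by
  unfold cut
  have h1 : ContDiff ℝ ∞ (fun w : ℂ => 4 - 4 * w.re ^ 2) :=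
    contDiff_const.sub (contDiff_const.mul (Complex.reCLM.contDiff.pow 2))
  have h2 : ContDiff ℝ ∞ (fun w : ℂ => 4 * w.im - 2) :=
    (contDiff_const.mul Complex.imCLM.contDiff).sub contDiff_const
  exact (Real.smoothTransition.contDiff.comp h1).mul (Real.smoothTransition.contDiff.comp h2)

theorem cut_nonneg (w : ℂ) : 0 ≤ cut w :=
  mul_nonneg (Real.smoothTransition.nonneg _) (Real.smoothTransition.nonneg _)

theorem cut_eq_one {w : ℂ} (h1 : |w.re| ≤ 1 / 2) (h2 : 3 / 4 ≤ w.im) : cut w = 1 := by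
  unfold cut
  have hre : w.re ^ 2 ≤ 1 / 4 := by
    have := abs_le.mp h1
    nlinarith [this.1, this.2]
  rw [Real.smoothTransition.one_of_one_le (by linarith), Real.smoothTransition.one_of_one_le
    (by linarith), one_mul]

theorem cut_eq_zero_of_im {w : ℂ} (h : w.im ≤ 1 / 2) : cut w = 0 := by
  unfold cut
  rw [Real.smoothTransition.zero_of_nonpos (x := 4 * w.im - 2) (by linarith), mul_zero]

theorem cut_eq_zero_of_re {w : ℂ} (h : 1 ≤ |w.re|) : cut w = 0 := by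
  unfold cut
  have hre : 1 ≤ w.re ^ 2 := by
    have := sq_abs w.re
    nlinarith [abs_nonneg w.re]
  rw [Real.smoothTransition.zero_of_nonpos (x := 4 - 4 * w.re ^ 2) (by linarith), zero_mul]

theorem im_of_cut_ne_zero {w : ℂ} (h : cut w ≠ 0) : 1 / 2 < w.im := by
  by_contra hc
  exact h (cut_eq_zero_of_im (not_lt.mp hc))

theorem re_of_cut_ne_zero {w : ℂ} (h : cut w ≠ 0) : |w.re| < 1 := by
  by_contra hc
  exact h (cut_eq_zero_of_re (not_lt.mp hc))

/-! ### Bounds on `im (g • z)` and local finiteness -/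

theorem im_smul_le_inv (g : SL(2, ℤ)) (hc : g 1 0 ≠ 0) (z : ℍ) : (g • z).im ≤ 1 / z.im := by
  rw [ModularGroup.im_smul_eq_div_normSq]
  have h1 := UpperHalfPlane.c_mul_im_sq_le_normSq_denom (g : GL (Fin 2) ℝ) z
  have hc' : (1 : ℝ) ≤ ((g 1 0 : ℤ) : ℝ) ^ 2 := by
    have : (1 : ℤ) ≤ (g 1 0) ^ 2 := by
      have := sq_pos_of_ne_zero hc
      linarith
    exact_mod_cast this
  have hz := z.im_pos
  have h2 : z.im ^ 2 ≤ Complex.normSq (denom g z) := by
    refine le_trans ?_ h1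
    simp
    nlinarith [sq_nonneg z.im]
  rw [div_le_div_iff₀ (lt_of_lt_of_le (by positivity) h2) hz]
  nlinarith

theorem im_smul_eq_of_c_eq_zero (g : SL(2, ℤ)) (hc : g 1 0 = 0) (z : ℍ) : (g • z).im = z.im := by
  obtain ⟨n, hn⟩ := ModularGroup.exists_eq_T_zpow_of_c_eq_zero hc
  rw [hn z, ModularGroup.im_T_zpow_smul]

theorem im_smul_le_max (g : SL(2, ℤ)) (z : ℍ) : (g • z).im ≤ max z.im (1 / z.im) := by
  by_cases hc : g 1 0 = 0
  · exact (im_smul_eq_of_c_eq_zero g hc z).le.trans (le_max_left _ _)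
  · exact (im_smul_le_inv g hc z).trans (le_max_right _ _)

theorem finite_smul_mem {K L : Set ℍ} (hK : IsCompact K) (hL : IsCompact L) :
    {g : SL(2, ℤ) | ∃ z ∈ K, g • z ∈ L}.Finite := by
  have h := properlyDiscontinuousSL2ZRange.finite_disjoint_inter_image hK hL
  let e : SL(2, ℤ) → 𝒮ℒ := fun g => ⟨Matrix.SpecialLinearGroup.mapGL ℝ g, g, rfl⟩
  have he : Function.Injective e := by
    intro a b hab
    have : Matrix.SpecialLinearGroup.mapGL ℝ a = Matrix.SpecialLinearGroup.mapGL ℝ b :=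
      congrArg Subtype.val hab
    exact Matrix.SpecialLinearGroup.mapGL_injective this
  refine (h.preimage he.injOn).subset ?_
  rintro g ⟨z, hz, hgz⟩
  exact ⟨g • z, ⟨z, hz, rfl⟩, hgz⟩

/-- The box `{|re| ≤ 1, 1/2 ≤ im ≤ Y}` is compact in `ℍ`. -/
theorem isCompact_box (Y : ℝ) : IsCompact {z : ℍ | |z.re| ≤ 1 ∧ 1 / 2 ≤ z.im ∧ z.im ≤ Y} := by
  rw [isEmbedding_coe.isCompact_iff]
  have hbox : IsCompact (Set.Icc (-1 : ℝ) 1 ×ℂ Set.Icc (1 / 2 : ℝ) Y) :=
    isCompact_Icc.reProdIm isCompact_Icc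
  refine hbox.of_isClosed_subset ?_ ?_
  · have : (UpperHalfPlane.coe '' {z : ℍ | |z.re| ≤ 1 ∧ 1 / 2 ≤ z.im ∧ z.im ≤ Y})
        = {w : ℂ | |w.re| ≤ 1 ∧ 1 / 2 ≤ w.im ∧ w.im ≤ Y} := by
      ext w
      constructor
      · rintro ⟨z, hz, rfl⟩
        exact hz
      · intro hw
        exact ⟨⟨w, by linarith [hw.2.1]⟩, hw, rfl⟩
    rw [this]
    exact (isClosed_le (continuous_abs.comp Complex.continuous_re) continuous_const).inter
      ((isClosed_le continuous_const Complex.continuous_im).inter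
        (isClosed_le Complex.continuous_im continuous_const))
  · rintro _ ⟨z, hz, rfl⟩
    exact ⟨abs_le.mp hz.1, hz.2.1, hz.2.2⟩

/-- Local finiteness of the family `z ↦ cut (g • z)`, `g ∈ SL(2,ℤ)`. -/
theorem exists_finite_nhds (z₀ : ℍ) : ∃ (U : Set ℍ) (F : Set SL(2, ℤ)), U ∈ 𝓝 z₀ ∧ F.Finite ∧
    ∀ z ∈ U, ∀ g : SL(2, ℤ), cut ↑(g • z) ≠ 0 → g ∈ F := by
  obtain ⟨K, hK, hKn⟩ := exists_compact_mem_nhds z₀
  obtain ⟨A, B, hB, hKs⟩ := subset_verticalStrip_of_isCompact hK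
  obtain ⟨Y, hY⟩ := (hK.image continuous_im).bddAbove
  set Y' : ℝ := max Y (1 / B) with hY'
  refine ⟨K, {g : SL(2, ℤ) | ∃ z ∈ K, g • z ∈ {z : ℍ | |z.re| ≤ 1 ∧ 1 / 2 ≤ z.im ∧ z.im ≤ Y'}},
    hKn, finite_smul_mem hK (isCompact_box Y'), ?_⟩
  intro z hz g hg
  refine ⟨z, hz, (re_of_cut_ne_zero hg).le, (im_of_cut_ne_zero hg).le, ?_⟩
  refine (im_smul_le_max g z).trans (max_le_max ?_ ?_)
  · exact hY ⟨z, hz, rfl⟩
  · exact one_div_le_one_div_of_le hB (hKs hz).2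

/-! ### The orbit sums -/

/-- `cut` evaluated along the orbit. -/
def cg (g : SL(2, ℤ)) (z : ℍ) : ℝ := cut ↑(g • z)

theorem cg_nonneg (g : SL(2, ℤ)) (z : ℍ) : 0 ≤ cg g z := cut_nonneg _

theorem cg_smul (g h : SL(2, ℤ)) (z : ℍ) : cg g (h • z) = cg (g * h) z := by
  unfold cg; rw [mul_smul]

theorem hasFiniteSupport_cg (z : ℍ) : (fun g : SL(2, ℤ) => cg g z).HasFiniteSupport := by
  obtain ⟨U, F, hU, hF, h⟩ := exists_finite_nhds z
  exact hF.subset fun g hg => h z (mem_of_mem_nhds hU) g hg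

/-- The locally finite sum `∑_g cut (g • z)`. -/
def Ssum (z : ℍ) : ℝ := ∑ᶠ g : SL(2, ℤ), cg g z

theorem Ssum_pos (z : ℍ) : 0 < Ssum z := by
  obtain ⟨g, hg⟩ := ModularGroup.exists_smul_mem_fd z
  refine finsum_pos (fun g => cg_nonneg g z) ⟨g, ?_⟩ (hasFiniteSupport_cg z)
  have h34 : 3 / 4 ≤ (g • z).im := by
    nlinarith [ModularGroup.three_le_four_mul_im_sq_of_mem_fd hg, (g • z).im_pos]
  have : cg g z = 1 := cut_eq_one hg.2 h34
  rw [this]; exact one_pos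

theorem Ssum_smul (h : SL(2, ℤ)) (z : ℍ) : Ssum (h • z) = Ssum z := by
  unfold Ssum
  simp_rw [cg_smul]
  exact finsum_comp_equiv (Equiv.mulRight h) (f := fun g => cg g z)

/-- The locally finite sum `∑_g cut (g • z) f(g⁻¹)`. -/
def Nsum (f : SL(2, ℤ) → ℝ) (z : ℍ) : ℝ := ∑ᶠ g : SL(2, ℤ), cg g z * f g⁻¹

theorem Nsum_smul (f : SL(2, ℤ) → ℝ) (h : SL(2, ℤ)) (z : ℍ) :
    Nsum f (h • z) = Nsum (fun x => f (h * x)) z := by
  unfold Nsum
  simp_rw [cg_smul]
  have := finsum_comp_equiv (Equiv.mulRight h) (f := fun g => cg g z * f (h * g⁻¹))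
  rw [← this]
  refine finsum_congr fun g => ?_
  simp [mul_inv_rev]

/-- The potential attached to `f : SL(2,ℤ) → ℝ`. -/
def pot (f : SL(2, ℤ) → ℝ) (z : ℍ) : ℝ := Nsum f z / Ssum z

theorem pot_smul_of_left (f : SL(2, ℤ) → ℝ) (h : SL(2, ℤ)) (c : ℝ)
    (hf : ∀ x, f (h * x) = c + f x) (z : ℍ) : pot f (h • z) = pot f z + c := by
  unfold pot
  rw [Ssum_smul, Nsum_smul]
  have key : Nsum (fun x => f (h * x)) z = c * Ssum z + Nsum f z := by
    unfold Nsum Ssum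
    simp_rw [hf, mul_add]
    rw [finsum_add_distrib, mul_finsum]
    · congr 1
      exact finsum_congr fun g => mul_comm _ _
    · exact (hasFiniteSupport_cg z).subset fun g hg h0 => hg (by simp [h0])
    · exact (hasFiniteSupport_cg z).subset fun g hg h0 => hg (by simp [h0])
  rw [key]
  have := (Ssum_pos z).ne'
  field_simp
  ring

theorem pot_smul_of_im (f : SL(2, ℤ) → ℝ)
    (hf : ∀ g p : SL(2, ℤ), p 1 0 = 0 → f (g * p) = f g) (σ : SL(2, ℤ)) (z : ℍ)
    (hz : 2 < z.im) : pot f (σ • z) = f σ := by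
  unfold pot
  rw [Ssum_smul, Nsum_smul]
  have key : Nsum (fun x => f (σ * x)) z = f σ * Ssum z := by
    unfold Nsum Ssum
    rw [mul_finsum]
    refine finsum_congr fun g => ?_
    by_cases hg : cg g z = 0
    · simp [hg]
    · have hc : g 1 0 = 0 := by
        by_contra hc
        have h1 := im_smul_le_inv g hc z
        have h2 : 1 / 2 < (g • z).im := im_of_cut_ne_zero hg
        have h3 : 1 / z.im < 1 / 2 := one_div_lt_one_div_of_lt (by norm_num) hz
        linarith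
      have hinv : (g⁻¹) 1 0 = 0 := by
        rw [Matrix.SpecialLinearGroup.SL2_inv_expl]
        simp [hc]
      show cg g z * f (σ * g⁻¹) = f σ * cg g z
      rw [hf σ g⁻¹ hinv, mul_comm]
  rw [key]
  have := (Ssum_pos z).ne'
  field_simp

theorem contDiffAt_cg (g : SL(2, ℤ)) (z : ℍ) :
    ContDiffAt ℝ ∞ (fun w : ℂ => cg g (ofComplex w)) ↑z := by
  have hdet : 0 < ((g : GL (Fin 2) ℝ) : Matrix (Fin 2) (Fin 2) ℝ).det := by
    have : ((g : GL (Fin 2) ℝ) : Matrix (Fin 2) (Fin 2) ℝ).det = 1 :=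
      (Matrix.SpecialLinearGroup.map (Int.castRingHom ℝ) g).det_coe
    rw [this]; exact one_pos
  have h1 : ContDiffAt ℝ ∞ (fun w : ℂ => (↑((g : GL (Fin 2) ℝ) • ofComplex w) : ℂ)) ↑z :=
    ((analyticAt_smul hdet z).contDiffAt).restrict_scalars ℝ
  exact cut_contDiff.contDiffAt.comp _ h1

theorem contDiffOn_pot (f : SL(2, ℤ) → ℝ) :
    ContDiffOn ℝ ∞ (pot f ∘ ofComplex) upperHalfPlaneSet := by
  intro w hw
  refine ContDiffAt.contDiffWithinAt ?_
  set z : ℍ := ⟨w, hw⟩ with hzdef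
  obtain ⟨U, F, hU, hF, h⟩ := exists_finite_nhds z
  have hev : ∀ᶠ w' in 𝓝 w, (pot f ∘ ofComplex) w'
      = (∑ g ∈ hF.toFinset, cg g (ofComplex w') * f g⁻¹)
        / (∑ g ∈ hF.toFinset, cg g (ofComplex w')) := by
    have hU' : UpperHalfPlane.coe '' U ∈ 𝓝 w := by
      have := isOpenEmbedding_coe.map_nhds_eq z
      rw [show (w : ℂ) = (z : ℂ) from rfl, ← this]
      exact image_mem_map hU
    filter_upwards [hU'] with w' hw'
    obtain ⟨z', hz', rfl⟩ := hw'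
    simp only [Function.comp_apply, ofComplex_apply]
    unfold pot Nsum Ssum
    congr 1
    · refine finsum_eq_sum_of_support_subset _ ?_
      intro g hg
      simp only [Set.Finite.coe_toFinset]
      refine h z' hz' g ?_
      intro h0
      apply hg
      show cg g z' * f g⁻¹ = 0
      rw [show cg g z' = 0 from h0, zero_mul]
    · refine finsum_eq_sum_of_support_subset _ ?_
      intro g hg
      simp only [Set.Finite.coe_toFinset]
      exact h z' hz' g hg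
  refine ContDiffAt.congr_of_eventuallyEq ?_ hev
  refine ContDiffAt.div ?_ ?_ ?_
  · exact ContDiffAt.sum fun g _ => (contDiffAt_cg g z).mul contDiffAt_const
  · exact ContDiffAt.sum fun g _ => contDiffAt_cg g z
  · have h1 : (∑ g ∈ hF.toFinset, cg g (ofComplex w)) = Ssum z := by
      unfold Ssum
      rw [show ofComplex w = z from ofComplex_apply z]
      symm
      refine finsum_eq_sum_of_support_subset _ ?_
      intro g hg
      simp only [Set.Finite.coe_toFinset]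
      exact h z (mem_of_mem_nhds hU) g hg
    rw [h1]
    exact (Ssum_pos z).ne'

/-! ### The function `f₀` on `SL(2,ℤ)` -/

/-- The stabiliser of the cusp `∞` in `SL(2,ℤ)`: matrices with vanishing lower-left entry. -/
def Pinf : Subgroup SL(2, ℤ) where
  carrier := {g | g 1 0 = 0}
  mul_mem' := by
    intro a b ha hb
    simp only [Set.mem_ofPred_eq] at *
    rw [Matrix.SpecialLinearGroup.coe_mul, Matrix.mul_apply, Fin.sum_univ_two, ha, hb]
    simp
  one_mem' := by simp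
  inv_mem' := by
    intro a ha
    simp only [Set.mem_ofPred_eq] at *
    rw [Matrix.SpecialLinearGroup.SL2_inv_expl]
    simp [ha]

theorem mem_Pinf {g : SL(2, ℤ)} : g ∈ Pinf ↔ g 1 0 = 0 := Iff.rfl

theorem trace_sq_of_mem_Pinf {k : SL(2, ℤ)} (hk : k ∈ Pinf) :
    (k : Matrix (Fin 2) (Fin 2) ℤ).trace ^ 2 = 4 := by
  have hdet := k.det_coe
  rw [Matrix.det_fin_two, mem_Pinf.mp hk] at hdet
  have had : k 0 0 * k 1 1 = 1 := by linarith
  rcases Int.eq_one_or_neg_one_of_mul_eq_one' had with ⟨ha, hd⟩ | ⟨ha, hd⟩ <;>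
    simp [Matrix.trace_fin_two, ha, hd]

theorem trace_conj (r k : SL(2, ℤ)) :
    ((r * k * r⁻¹ : SL(2, ℤ)) : Matrix (Fin 2) (Fin 2) ℤ).trace
      = (k : Matrix (Fin 2) (Fin 2) ℤ).trace := by
  rw [Matrix.SpecialLinearGroup.coe_mul, Matrix.trace_mul_comm,
    ← Matrix.SpecialLinearGroup.coe_mul]
  simp

variable (N : ℕ) (φ : Additive (Gamma0 N) →+ ℝ)

theorem phi_eq_of_doubleCoset (hφ : φ ∈ parabolicHoms ℝ (Gamma0 N) ℝ)
    {g r : SL(2, ℤ)} {h h' : Gamma0 N} {k k' : SL(2, ℤ)} (hk : k ∈ Pinf) (hk' : k' ∈ Pinf)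
    (e : r = h * g * k) (e' : r = h' * g * k') :
    φ (Additive.ofMul h) = φ (Additive.ofMul h') := by
  have hconj : ((h'⁻¹ * h : Gamma0 N) : SL(2, ℤ)) = g * (k' * k⁻¹) * g⁻¹ := by
    have h1 : (h : SL(2, ℤ)) * g * k = h' * g * k' := by rw [← e, ← e']
    have h2 : (h : SL(2, ℤ)) = h' * g * k' * k⁻¹ * g⁻¹ := by
      rw [← h1]; group
    rw [Subgroup.coe_mul, Subgroup.coe_inv, h2]
    group
  have htr : (((h'⁻¹ * h : Gamma0 N) : SL(2, ℤ)) : Matrix (Fin 2) (Fin 2) ℤ).trace ^ 2 = 4 := by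
    rw [hconj, trace_conj]
    exact trace_sq_of_mem_Pinf (Pinf.mul_mem hk' (Pinf.inv_mem hk))
  have h0 := (mem_parabolicHoms_iff.mp hφ) (h'⁻¹ * h) htr
  rw [ofMul_mul, map_add, ofMul_inv, map_neg] at h0
  linarith

/-- `f₀(g) = φ(γ)` if `g = γ r p` with `r` the chosen representative of the double coset
`Γ₀(N) g P_∞`. -/
def f0 (g : SL(2, ℤ)) : ℝ :=
  -φ (Additive.ofMul ⟨(DoubleCoset.mk_out_eq_mul (Gamma0 N) Pinf g).choose,
    (DoubleCoset.mk_out_eq_mul (Gamma0 N) Pinf g).choose_spec.choose_spec.1⟩)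

theorem f0_eq (hφ : φ ∈ parabolicHoms ℝ (Gamma0 N) ℝ) (g : SL(2, ℤ)) (h : Gamma0 N)
    (k : SL(2, ℤ)) (hk : k ∈ Pinf)
    (e : (DoubleCoset.mk (Gamma0 N) Pinf g).out = h * g * k) :
    f0 N φ g = -φ (Additive.ofMul h) := by
  unfold f0
  have hspec := (DoubleCoset.mk_out_eq_mul (Gamma0 N) Pinf g).choose_spec.choose_spec
  exact congrArg Neg.neg (phi_eq_of_doubleCoset N φ hφ
    (h := ⟨(DoubleCoset.mk_out_eq_mul (Gamma0 N) Pinf g).choose, hspec.1⟩) (h' := h)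
    hspec.2.1 hk hspec.2.2 e)

theorem f0_left (hφ : φ ∈ parabolicHoms ℝ (Gamma0 N) ℝ) (γ : Gamma0 N) (g : SL(2, ℤ)) :
    f0 N φ (γ * g) = φ (Additive.ofMul γ) + f0 N φ g := by
  obtain ⟨h, k, hh, hk, e⟩ := DoubleCoset.mk_out_eq_mul (Gamma0 N) Pinf g
  have hmk : DoubleCoset.mk (Gamma0 N) Pinf (γ * g) = DoubleCoset.mk (Gamma0 N) Pinf g := by
    rw [eq_comm, DoubleCoset.eq]
    exact ⟨γ, γ.2, 1, Pinf.one_mem, by rw [mul_one]⟩
  have e1 : (DoubleCoset.mk (Gamma0 N) Pinf (γ * g)).out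
      = ((⟨h, hh⟩ * γ⁻¹ : Gamma0 N) : SL(2, ℤ)) * (γ * g) * k := by
    rw [hmk, e, Subgroup.coe_mul, Subgroup.coe_inv]
    group
  rw [f0_eq N φ hφ (γ * g) _ k hk e1, f0_eq N φ hφ g ⟨h, hh⟩ k hk e, ofMul_mul, map_add,
    ofMul_inv, map_neg]
  ring

theorem f0_right (hφ : φ ∈ parabolicHoms ℝ (Gamma0 N) ℝ) (g p : SL(2, ℤ)) (hp : p 1 0 = 0) :
    f0 N φ (g * p) = f0 N φ g := by
  obtain ⟨h, k, hh, hk, e⟩ := DoubleCoset.mk_out_eq_mul (Gamma0 N) Pinf g
  have hmk : DoubleCoset.mk (Gamma0 N) Pinf (g * p) = DoubleCoset.mk (Gamma0 N) Pinf g := by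
    rw [eq_comm, DoubleCoset.eq]
    exact ⟨1, (Gamma0 N).one_mem, p, hp, by rw [one_mul]⟩
  have e1 : (DoubleCoset.mk (Gamma0 N) Pinf (g * p)).out
      = ((⟨h, hh⟩ : Gamma0 N) : SL(2, ℤ)) * (g * p) * (p⁻¹ * k) := by
    rw [hmk, e]
    group
  rw [f0_eq N φ hφ (g * p) ⟨h, hh⟩ (p⁻¹ * k) (Pinf.mul_mem (Pinf.inv_mem hp) hk) e1,
    f0_eq N φ hφ g ⟨h, hh⟩ k hk e]

/-! ### The finite-energy certificate -/

theorem gradC_eq_zero_of_const (u : ℍ → ℝ) (z : ℍ) (c : ℝ) (W : Set ℍ) (hW : W ∈ 𝓝 z)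
    (h : ∀ z' ∈ W, u z' = c) : helper801.gradC u ↑z = 0 := by
  have hev : (u ∘ ofComplex) =ᶠ[𝓝 (z : ℂ)] fun _ => c := by
    have : UpperHalfPlane.coe '' W ∈ 𝓝 (z : ℂ) := by
      rw [← isOpenEmbedding_coe.map_nhds_eq z]
      exact image_mem_map hW
    filter_upwards [this] with w hw
    obtain ⟨z', hz', rfl⟩ := hw
    simp [h z' hz']
  unfold helper801.gradC
  rw [hev.fderiv_eq]
  simp

theorem continuous_SL_smul (g : SL(2, ℤ)) : Continuous (fun z : ℍ => g • z) :=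
  continuous_const_smul (Matrix.SpecialLinearGroup.mapGL ℝ g)

theorem finiteEnergyCert_of_const (N : ℕ) [NeZero N] (u : ℍ → ℝ)
    (hu : ContinuousOn (helper801.gradC u) upperHalfPlaneSet)
    (hconst : ∀ σ : SL(2, ℤ), ∃ c, ∀ z : ℍ, 2 < z.im → u (σ • z) = c) :
    helper801.FiniteEnergyCert N u := by
  classical
  have : Finite (SL(2, ℤ) ⧸ Gamma0 N) := Subgroup.finite_quotient_of_finiteIndex
  let rep : SL(2, ℤ) ⧸ Gamma0 N → SL(2, ℤ) := Quotient.out
  let B : Set ℍ := ⋃ q, {z : ℍ | rep q • z ∈ 𝒟}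
  let K : Set ℍ := ⋃ q, (fun z : ℍ => (rep q)⁻¹ • z) '' ModularGroup.truncatedFundamentalDomain 2
  have hBmeas : MeasurableSet B := MeasurableSet.iUnion fun q =>
    (ModularGroup.isClosed_fd.preimage (continuous_SL_smul (rep q))).measurableSet
  have hKcomp : IsCompact K := isCompact_iUnion fun q =>
    (ModularGroup.isCompact_truncatedFundamentalDomain 2).image (continuous_SL_smul _)
  have hKmeas : MeasurableSet K := hKcomp.isClosed.measurableSet
  have hcover : ∀ z : ℍ, ∃ γ : Gamma0 N, (γ : SL(2, ℤ)) • z ∈ B := by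
    intro z
    obtain ⟨g, hg⟩ := ModularGroup.exists_smul_mem_fd z
    let q : SL(2, ℤ) ⧸ Gamma0 N := (g : SL(2, ℤ) ⧸ Gamma0 N)
    have hmem : (rep q)⁻¹ * g ∈ Gamma0 N := by
      have : ((rep q : SL(2, ℤ)) : SL(2, ℤ) ⧸ Gamma0 N) = (g : SL(2, ℤ) ⧸ Gamma0 N) :=
        QuotientGroup.out_eq' q
      exact QuotientGroup.eq.mp this
    refine ⟨⟨(rep q)⁻¹ * g, hmem⟩, Set.mem_iUnion.mpr ⟨q, ?_⟩⟩
    show rep q • ((rep q)⁻¹ * g) • z ∈ 𝒟
    rw [← mul_smul, mul_inv_cancel_left]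
    exact hg
  have hzero : ∀ z ∈ B, z ∉ K → helper801.gradC u ↑z = 0 := by
    intro z hz hzK
    obtain ⟨q, hq⟩ := Set.mem_iUnion.mp hz
    have him : 2 < (rep q • z).im := by
      by_contra hle
      apply hzK
      refine Set.mem_iUnion.mpr ⟨q, rep q • z, ⟨hq, not_lt.mp hle⟩, ?_⟩
      show (rep q)⁻¹ • rep q • z = z
      rw [← mul_smul, inv_mul_cancel, one_smul]
    obtain ⟨c, hc⟩ := hconst (rep q)⁻¹
    refine gradC_eq_zero_of_const u z c {z' : ℍ | 2 < (rep q • z').im} ?_ ?_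
    · exact (isOpen_lt continuous_const
        (continuous_im.comp (continuous_SL_smul (rep q)))).mem_nhds him
    · intro z' hz'
      have := hc (rep q • z') hz'
      rwa [← mul_smul, inv_mul_cancel, one_smul] at this
  obtain ⟨C₁, hC₁⟩ : ∃ C₁ : ℝ, ∀ z ∈ K, ‖helper801.gradC u ↑z‖ ≤ C₁ := by
    have hcont : Continuous (fun z : ℍ => ‖helper801.gradC u ↑z‖) := by
      refine continuous_norm.comp ?_
      exact hu.comp_continuous continuous_coe (fun z => z.im_pos)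
    obtain ⟨C, hC⟩ := (hKcomp.image hcont).bddAbove
    exact ⟨C, fun z hz => hC ⟨z, hz, rfl⟩⟩
  obtain ⟨C₂, hC₂⟩ : ∃ C₂ : ℝ, ∀ z ∈ K, z.im ≤ C₂ := by
    obtain ⟨C, hC⟩ := (hKcomp.image continuous_im).bddAbove
    exact ⟨C, fun z hz => hC ⟨z, hz, rfl⟩⟩
  refine ⟨B, hBmeas, hcover, ?_⟩
  have hle : ∫⁻ z in B, ‖helper801.gradC u ↑z‖ₑ ^ 2 * ENNReal.ofReal (z.im ^ 2)
      ≤ ∫⁻ _z in K, (ENNReal.ofReal C₁) ^ 2 * ENNReal.ofReal (C₂ ^ 2) := by
    rw [← lintegral_indicator hBmeas, ← lintegral_indicator hKmeas]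
    refine lintegral_mono fun z => ?_
    by_cases hzB : z ∈ B
    · by_cases hzK : z ∈ K
      · rw [Set.indicator_of_mem hzB, Set.indicator_of_mem hzK]
        refine mul_le_mul' (pow_le_pow_left' ?_ 2) (ENNReal.ofReal_le_ofReal ?_)
        · rw [← ofReal_norm]
          exact ENNReal.ofReal_le_ofReal (hC₁ z hzK)
        · exact pow_le_pow_left₀ z.im_pos.le (hC₂ z hzK) 2
      · rw [Set.indicator_of_mem hzB, hzero z hzB hzK]
        simp
    · rw [Set.indicator_of_notMem hzB]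
      exact zero_le
  refine lt_of_le_of_lt hle ?_
  rw [setLIntegral_const]
  exact ENNReal.mul_lt_top (ENNReal.mul_lt_top (ENNReal.pow_lt_top ENNReal.ofReal_lt_top)
    ENNReal.ofReal_lt_top) hKcomp.measure_lt_top

/-! ### The leaf POT -/

/-- (POT) in the exact shape of `helper801_HodgeSpec`. -/
theorem stmtPOT (N : ℕ) [NeZero N] : helper801.StmtPOT N := by
  intro φ hφ
  have hpot : helper801.IsPot N φ (pot (f0 N φ)) :=
    ⟨(contDiffOn_pot _).of_le (by norm_num), fun γ z =>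
      pot_smul_of_left (f0 N φ) γ (φ (Additive.ofMul γ)) (fun x => f0_left N φ hφ γ x) z⟩
  refine ⟨pot (f0 N φ), hpot, finiteEnergyCert_of_const N _ hpot.continuousOn_gradC ?_⟩
  intro σ
  exact ⟨f0 N φ σ, fun z hz => pot_smul_of_im _ (f0_right N φ hφ) σ z hz⟩

end

end Fermat.Agent.S21.helper7440
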