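import Mathlib

/-!
# S21 / S20 core, abstract vector-valued formulation (helper799)

Spec file: definitions and `Prop`-valued statements only (no proofs needed to read it).

Setting: `X` is a finite set with an action of `SL(2, ℤ)` (think `X = SL(2, ℤ) ⧸ Γ₀(N)`).
A *vector-valued form* of weight `k` is a family `F : X → ℍ → ℂ` of holomorphic functions,
bounded at `i∞`, with `F x ∣[k] γ = F (γ⁻¹ • x)` for all `γ : SL(2, ℤ)`.
For `f` a modular form on `Γ₀(N)` the family of its translates `f ∣[k] g⁻¹` is such an `F`,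
and boundedness of `f` at all cusps is boundedness of all components at `i∞`: no cusp
bookkeeping is needed in this language.

Goal (`StmtV`): many linearly independent cuspidal `F` of weight `2`, namely `n` of them with
`card X + 2 ≤ 2 n + #orbits(S) + #orbits(S T) + #orbits(T)`.
Together with the group-theoretic bound for parabolic homs this is `StmtD` of S21.

Route: weight-minimal tuple of `card X` forms whose matrix `Phi` is somewhere invertible.
-/

set_option autoImplicit false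

namespace Fermat.Agent.S21.helper799

open UpperHalfPlane hiding I
open ModularForm Filter Topology Complex
open scoped MatrixGroups ModularForm Manifold Real

noncomputable section

/-- `A` is the underlying function of a level-one modular form of weight `k`. -/
def IsL1 (k : ℤ) (A : ℍ → ℂ) : Prop := ∃ f : ModularForm 𝒮ℒ k, ⇑f = A

/-- The weight-12 level-one form `E₆(z₀)² E₄³ - E₄(z₀)³ E₆²`, which vanishes at `z₀`. -/
def Wgen (z₀ : ℍ) (z : ℍ) : ℂ := E₆ z₀ ^ 2 * E₄ z ^ 3 - E₄ z₀ ^ 3 * E₆ z ^ 2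

/-- Twisted Fourier average of an `m`-periodic function: for `f = ∑ₙ aₙ e^{2πi n z / m}` this is
`∑_{a < m} e^{-2πi a z / m} ∑_{n ≡ a (m)} aₙ e^{2πi n z / m}`, a `1`-periodic function. -/
def tw (m : ℕ) (f : ℍ → ℂ) (z : ℍ) : ℂ :=
  ∑ a ∈ Finset.range m, cexp (-2 * π * I * a * z / m) *
    ((m : ℂ)⁻¹ * ∑ t ∈ Finset.range m, cexp (-2 * π * I * a * t / m) * f ((t : ℝ) +ᵥ z))

section VForm

variable (X : Type) [MulAction SL(2, ℤ) X]

/-- Vector-valued modular form of weight `k` for the permutation action on `X`. -/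
structure IsVForm (k : ℤ) (F : X → ℍ → ℂ) : Prop where
  holo : ∀ x, MDiff (F x)
  slash : ∀ (γ : SL(2, ℤ)) (x : X), F x ∣[k] γ = F (γ⁻¹ • x)
  bdd : ∀ x, IsBoundedAtImInfty (F x)

/-- Cuspidal vector-valued form. -/
structure IsVCusp (k : ℤ) (F : X → ℍ → ℂ) : Prop where
  form : IsVForm X k F
  zero : ∀ x, IsZeroAtImInfty (F x)

/-- Standing hypothesis: `-1` acts trivially on `X`. -/
def NegTriv : Prop := ∀ x : X, (-1 : SL(2, ℤ)) • x = x

/-- Standing hypothesis: `T ^ m` acts trivially on `X`, `m > 0`. -/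
def TPeriod (m : ℕ) : Prop := 0 < m ∧ ∀ x : X, (ModularGroup.T ^ m) • x = x

/-- Number of orbits of the cyclic group generated by `g` on `X`. -/
def orbCount (g : SL(2, ℤ)) : ℕ :=
  Nat.card (MulAction.orbitRel.Quotient (Subgroup.zpowers g) X)

variable [Fintype X] [DecidableEq X]

/-- Fundamental matrix of a tuple `F j` (columns `j`, rows `x`). -/
def Phi (F : X → X → ℍ → ℂ) (z : ℍ) : Matrix X X ℂ := Matrix.of fun x j => F j x z

/-- Matrix of twisted averages of a tuple. -/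
def twPhi (m : ℕ) (F : X → X → ℍ → ℂ) (z : ℍ) : Matrix X X ℂ :=
  Matrix.of fun x j => tw m (F j x) z

/-- A tuple of forms of weights `k j`, somewhere invertible, of minimal total weight. -/
structure IsMinGood (k : X → ℤ) (F : X → X → ℍ → ℂ) : Prop where
  form : ∀ j, IsVForm X (k j) (F j)
  good : ∃ z, (Phi X F z).det ≠ 0
  min : ∀ (k' : X → ℤ) (F' : X → X → ℍ → ℂ), (∀ j, IsVForm X (k' j) (F' j)) →
    (∃ z, (Phi X F' z).det ≠ 0) → ∑ j, k j ≤ ∑ j, k' j

/-! ### Statements (all are theorems of the blueprint; prove them hypothesis-passing) -/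

/-- SEP: a form with pairwise distinct components. -/
def StmtSep : Prop :=
  ∃ (k : ℤ) (G : X → ℍ → ℂ), IsVForm X k G ∧ ∀ x y, x ≠ y → G x ≠ G y

/-- GOOD: a somewhere-invertible tuple exists (Vandermonde on powers of a separating form). -/
def StmtGood : Prop :=
  ∃ (k : X → ℤ) (F : X → X → ℍ → ℂ), (∀ j, IsVForm X (k j) (F j)) ∧ ∃ z, (Phi X F z).det ≠ 0

/-- WT: nonzero forms have even weight `≥ 0` (uses that `-1` acts trivially on `X`). -/
def StmtWt : Prop :=
  ∀ (k : ℤ) (F : X → ℍ → ℂ), IsVForm X k F → F ≠ 0 → 0 ≤ k ∧ Even k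

/-- MIN: a minimal good tuple exists. -/
def StmtMin : Prop := ∃ (k : X → ℤ) (F : X → X → ℍ → ℂ), IsMinGood X k F

/-- SYM: if every level-one form vanishing at `z₀` vanishes at `z₁`, then every vector-valued
form all of whose components vanish at `z₀` vanishes at `z₁` (elementary symmetric functions of
the components are level-one forms). -/
def StmtSym : Prop :=
  ∀ (k : ℤ) (F : X → ℍ → ℂ) (z₀ z₁ : ℍ), IsVForm X k F → (∀ x, F x z₀ = 0) →
    (∀ (k' : ℤ) (A : ℍ → ℂ), IsL1 k' A → A z₀ = 0 → A z₁ = 0) → ∀ x, F x z₁ = 0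

/-- DIV: division by a level-one form with simple zeros and nonzero value at `i∞`. -/
def StmtDiv : Prop :=
  ∀ (k w : ℤ) (F : X → ℍ → ℂ) (W : ℍ → ℂ), IsVForm X k F → IsL1 w W →
    (∀ z : ℍ, W z = 0 → deriv (W ∘ ofComplex) z ≠ 0) →
    (∃ c : ℂ, c ≠ 0 ∧ Tendsto W atImInfty (𝓝 c)) →
    (∀ z : ℍ, W z = 0 → ∀ x, F x z = 0) →
    ∃ H : X → ℍ → ℂ, IsVForm X (k - w) H ∧ ∀ x, F x = W * H x

/-- INV: the fundamental matrix of a minimal good tuple is invertible at every point. -/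
def StmtInv : Prop :=
  ∀ (k : X → ℤ) (F : X → X → ℍ → ℂ), IsMinGood X k F → ∀ z, (Phi X F z).det ≠ 0

/-- TWLIM: twisted averages of components have limits at `i∞`. -/
def StmtTwLim (m : ℕ) : Prop :=
  ∀ (k : ℤ) (F : X → ℍ → ℂ), IsVForm X k F → ∀ x, ∃ l : ℂ, Tendsto (tw m (F x)) atImInfty (𝓝 l)

/-- TWDIV: if all leading terms vanish then `F / Δ` is again a form. -/
def StmtTwDiv (m : ℕ) : Prop :=
  ∀ (k : ℤ) (F : X → ℍ → ℂ), IsVForm X k F →
    (∀ x, Tendsto (tw m (F x)) atImInfty (𝓝 0)) → IsVForm X (k - 12) (fun x => F x / ModularForm.discriminant)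

/-- TWDET: `det (twPhi)² = q^{-(card X - #T-orbits)} det(Phi)²`. -/
def StmtTwDet (m : ℕ) : Prop :=
  ∀ (k : X → ℤ) (F : X → X → ℍ → ℂ), (∀ j, IsVForm X (k j) (F j)) → ∀ z : ℍ,
    (twPhi X m F z).det ^ 2 =
      cexp (-2 * π * I * z * ((Fintype.card X : ℂ) - orbCount X ModularGroup.T))
        * (Phi X F z).det ^ 2

/-- LEAD: the leading matrix at `i∞` of a minimal good tuple is invertible. -/
def StmtLead (m : ℕ) : Prop :=
  ∀ (k : X → ℤ) (F : X → X → ℍ → ℂ), IsMinGood X k F →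
    ∃ L : Matrix X X ℂ, L.det ≠ 0 ∧ ∀ x j, Tendsto (tw m (F j x)) atImInfty (𝓝 (L x j))

/-- SUM: total weight of a minimal good tuple. -/
def StmtSum : Prop :=
  ∀ (k : X → ℤ) (F : X → X → ℍ → ℂ), IsMinGood X k F →
    ∑ j, k j = 6 * ((Fintype.card X : ℤ) - orbCount X ModularGroup.T)

/-- DUAL: the weights of a minimal good tuple are at most `10`
(the columns of `Δ • (Phi)⁻ᵀ` are nonzero cuspidal forms of weight `12 - k j`). -/
def StmtDual : Prop :=
  ∀ (k : X → ℤ) (F : X → X → ℍ → ℂ), IsMinGood X k F → ∀ j, k j ≤ 10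

/-- ELL: residue classes of the weights from the elliptic points `i` and `ρ`. -/
def StmtEll : Prop :=
  ∀ (k : X → ℤ) (F : X → X → ℍ → ℂ), IsMinGood X k F →
    (Finset.univ.filter fun j => (4 : ℤ) ∣ k j).card = orbCount X ModularGroup.S ∧
    (Finset.univ.filter fun j => (6 : ℤ) ∣ k j).card
        = orbCount X (ModularGroup.S * ModularGroup.T) ∧
    (Finset.univ.filter fun j => k j % 6 = 2).card = (Finset.univ.filter fun j => k j % 6 = 4).card

/-- COUNT: the number of weight-2 members of a minimal good tuple. -/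
def StmtCount : Prop :=
  ∀ (k : X → ℤ) (F : X → X → ℍ → ℂ), IsMinGood X k F →
    2 * (Finset.univ.filter fun j => k j = 2).card + orbCount X ModularGroup.S
        + orbCount X (ModularGroup.S * ModularGroup.T)
      = Fintype.card X + orbCount X ModularGroup.T

/-- CT: constant-term argument: from the weight-2 members to cuspidal forms. -/
def StmtCT : Prop :=
  ∀ (k : X → ℤ) (F : X → X → ℍ → ℂ), IsMinGood X k F →
    ∃ (n : ℕ) (f : Fin n → X → ℍ → ℂ), (∀ i, IsVCusp X 2 (f i)) ∧ LinearIndependent ℂ f ∧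
      (Finset.univ.filter fun j => k j = 2).card + 1 ≤ n + orbCount X ModularGroup.T

/-- V: the goal. -/
def StmtV : Prop :=
  ∃ (n : ℕ) (f : Fin n → X → ℍ → ℂ), (∀ i, IsVCusp X 2 (f i)) ∧ LinearIndependent ℂ f ∧
    Fintype.card X + 2 ≤ 2 * n + orbCount X ModularGroup.S
      + orbCount X (ModularGroup.S * ModularGroup.T) + orbCount X ModularGroup.T

end VForm

/-! ### Level-one statements -/

/-- PI (generic point): a level-one form vanishing at `z₀` is divisible by `Wgen z₀`. -/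
def StmtPIgen : Prop :=
  ∀ (k : ℤ) (A : ℍ → ℂ) (z₀ : ℍ), IsL1 k A → A z₀ = 0 → E₄ z₀ ≠ 0 → E₆ z₀ ≠ 0 →
    ∃ B : ℍ → ℂ, IsL1 (k - 12) B ∧ A = Wgen z₀ * B

/-- PI (zero of `E₆`). -/
def StmtPI6 : Prop :=
  ∀ (k : ℤ) (A : ℍ → ℂ) (z₀ : ℍ), IsL1 k A → A z₀ = 0 → E₆ z₀ = 0 →
    ∃ B : ℍ → ℂ, IsL1 (k - 6) B ∧ A = ⇑E₆ * B

/-- PI (zero of `E₄`). -/
def StmtPI4 : Prop :=
  ∀ (k : ℤ) (A : ℍ → ℂ) (z₀ : ℍ), IsL1 k A → A z₀ = 0 → E₄ z₀ = 0 →
    ∃ B : ℍ → ℂ, IsL1 (k - 4) B ∧ A = ⇑E₄ * B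

/-- SIMPLE: `E₄`, `E₆` and `Wgen z₀` (generic `z₀`) have only simple zeros. -/
def StmtSimple : Prop :=
  (∀ z : ℍ, E₄ z = 0 → deriv (⇑E₄ ∘ ofComplex) z ≠ 0) ∧
  (∀ z : ℍ, E₆ z = 0 → deriv (⇑E₆ ∘ ofComplex) z ≠ 0) ∧
  (∀ z₀ z : ℍ, E₄ z₀ ≠ 0 → E₆ z₀ ≠ 0 → Wgen z₀ z = 0 → deriv (Wgen z₀ ∘ ofComplex) z ≠ 0)

end

end Fermat.Agent.S21.helper799
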