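/-
helper801: S21 Route 2, pure-analysis leaf (5a).
`L¹` Poincaré inequality (double-integral form) on a convex set of `ℂ`:
  `∫_s ∫_s |e x - e y| ≤ 4 · D · vol(s) · ∫_s ‖fderiv e‖`   (`D ≥ diam s`),
for `e` of class `C¹` on an open set containing the convex measurable set `s`.
-/
import Mathlib

set_option autoImplicit false

namespace Fermat.Agent.S21.helper801

open MeasureTheory Set
open scoped ENNReal

/-- Affine change of variables for the Lebesgue integral on `ℂ`. -/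
theorem lintegral_comp_affine (g : ℂ → ℝ≥0∞) (hg : Measurable g) {c : ℝ} (hc : c ≠ 0) (w : ℂ) :
    ∫⁻ b : ℂ, g (c • b + w) = ENNReal.ofReal |(c ^ 2)⁻¹| * ∫⁻ z : ℂ, g z := by
  have h2 := lintegral_map (μ := (volume : Measure ℂ)) (f := fun z => g (z + w))
    (g := fun b : ℂ => c • b) (hg.comp (measurable_add_const w)) (measurable_const_smul c)
  rw [← h2, Measure.map_addHaar_smul volume hc, lintegral_smul_measure,
    Complex.finrank_real_complex, lintegral_add_right_eq_self]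
  rfl

theorem poincare_L1_aux {s U : Set ℂ} (hs : Convex ℝ s) (hsm : MeasurableSet s) (hU : IsOpen U)
    (hsU : s ⊆ U) {D : ℝ} (hD : ∀ x ∈ s, ∀ y ∈ s, dist x y ≤ D) {e : ℂ → ℝ}
    (he : ContDiffOn ℝ 1 e U) (hem : Measurable e) :
    ∫⁻ x in s, ∫⁻ y in s, ‖e x - e y‖ₑ
      ≤ 4 * ENNReal.ofReal D * volume s * ∫⁻ z in s, ‖fderiv ℝ e z‖ₑ := by
  set g : ℂ → ℝ≥0∞ := s.indicator (fun z => ‖fderiv ℝ e z‖ₑ) with hg
  have hgm : Measurable g := (measurable_fderiv ℝ e).enorm.indicator hsm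
  have hgint : ∫⁻ z, g z = ∫⁻ z in s, ‖fderiv ℝ e z‖ₑ := lintegral_indicator hsm _
  -- Step 1: pointwise bound along the segment from `b` to the midpoint
  have key : ∀ a ∈ s, ∀ b ∈ s, ‖e (midpoint ℝ a b) - e b‖ₑ
      ≤ ENNReal.ofReal (D / 2) * ∫⁻ t in Ioc (0:ℝ) 1, g ((1 - t / 2) • b + (t / 2) • a) := by
    intro a ha b hb
    let ℓ : ℝ → ℂ := fun t => (1 - t / 2) • b + (t / 2) • a
    have hℓmem : ∀ t ∈ Icc (0:ℝ) 1, ℓ t ∈ s := by
      intro t ht
      exact hs hb ha (by linarith [ht.2]) (by linarith [ht.1]) (by ring)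
    have hℓderiv : ∀ t, HasDerivAt ℓ ((1/2 : ℝ) • (a - b)) t := by
      intro t
      have h1 : HasDerivAt (fun t : ℝ => (1 - t / 2) • b) ((-(1/2 : ℝ)) • b) t := by
        have := ((hasDerivAt_id t).div_const 2).const_sub 1
        simpa using this.smul_const b
      have h2 : HasDerivAt (fun t : ℝ => (t / 2) • a) ((1/2 : ℝ) • a) t := by
        have := (hasDerivAt_id t).div_const 2
        simpa using this.smul_const a
      have h3 := h1.add h2
      have heq : (-(1/2 : ℝ)) • b + (1/2 : ℝ) • a = (1/2 : ℝ) • (a - b) := by module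
      rw [heq] at h3
      exact h3
    have hℓcont : Continuous ℓ := by
      simp only [ℓ]; fun_prop
    let φ : ℝ → ℝ := fun t => e (ℓ t)
    let φ' : ℝ → ℝ := fun t => fderiv ℝ e (ℓ t) ((1/2 : ℝ) • (a - b))
    have hφ : ∀ t ∈ uIcc (0:ℝ) 1, HasDerivAt φ (φ' t) t := by
      intro t ht
      rw [uIcc_of_le zero_le_one] at ht
      have hd : DifferentiableAt ℝ e (ℓ t) :=
        (he.differentiableOn one_ne_zero).differentiableAt (hU.mem_nhds (hsU (hℓmem t ht)))
      exact hd.hasFDerivAt.comp_hasDerivAt t (hℓderiv t)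
    have hcont : ContinuousOn φ' (uIcc (0:ℝ) 1) := by
      rw [uIcc_of_le zero_le_one]
      have h1 : ContinuousOn (fderiv ℝ e) U :=
        he.continuousOn_fderiv_of_isOpen hU le_rfl
      have h2 : ContinuousOn (fun t => fderiv ℝ e (ℓ t)) (Icc (0:ℝ) 1) :=
        h1.comp hℓcont.continuousOn (fun t ht => hsU (hℓmem t ht))
      exact h2.clm_apply continuousOn_const
    have hint : IntervalIntegrable φ' volume 0 1 := hcont.intervalIntegrable
    have hFTC := intervalIntegral.integral_eq_sub_of_hasDerivAt hφ hint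
    have h0 : φ 0 = e b := by simp [φ, ℓ]
    have h1 : φ 1 = e (midpoint ℝ a b) := by
      simp only [φ, ℓ]
      congr 1
      rw [midpoint_eq_smul_add, invOf_eq_inv]
      module
    rw [← h1, ← h0, ← hFTC, intervalIntegral.integral_of_le zero_le_one]
    calc ‖∫ t in Ioc (0:ℝ) 1, φ' t‖ₑ ≤ ∫⁻ t in Ioc (0:ℝ) 1, ‖φ' t‖ₑ :=
          enorm_integral_le_lintegral_enorm _
      _ ≤ ∫⁻ t in Ioc (0:ℝ) 1, ENNReal.ofReal (D / 2) * g (ℓ t) := by
          refine setLIntegral_mono' measurableSet_Ioc fun t ht => ?_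
          have htI : t ∈ Icc (0:ℝ) 1 := ⟨ht.1.le, ht.2⟩
          have hmem := hℓmem t htI
          rw [hg, indicator_of_mem hmem]
          have hv : ‖(1/2 : ℝ) • (a - b)‖ₑ ≤ ENNReal.ofReal (D / 2) := by
            rw [← ofReal_norm]
            apply ENNReal.ofReal_le_ofReal
            rw [norm_smul, ← dist_eq_norm]
            have := hD a ha b hb
            norm_num
            linarith
          calc ‖φ' t‖ₑ ≤ ‖fderiv ℝ e (ℓ t)‖ₑ * ‖(1/2 : ℝ) • (a - b)‖ₑ :=
                ContinuousLinearMap.le_opENorm _ _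
            _ ≤ ‖fderiv ℝ e (ℓ t)‖ₑ * ENNReal.ofReal (D / 2) := by gcongr
            _ = ENNReal.ofReal (D / 2) * ‖fderiv ℝ e (ℓ t)‖ₑ := mul_comm _ _
      _ = ENNReal.ofReal (D / 2) * ∫⁻ t in Ioc (0:ℝ) 1, g (ℓ t) :=
          lintegral_const_mul' _ _ ENNReal.ofReal_ne_top
  -- Step 2: bound of the "good" half
  have hT2 : ∫⁻ a in s, ∫⁻ b in s, ‖e (midpoint ℝ a b) - e b‖ₑ
      ≤ 2 * ENNReal.ofReal D * volume s * ∫⁻ z, g z := by
    have hinner : ∀ a ∈ s, ∫⁻ b in s, ‖e (midpoint ℝ a b) - e b‖ₑ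
        ≤ 2 * ENNReal.ofReal D * ∫⁻ z, g z := by
      intro a ha
      calc ∫⁻ b in s, ‖e (midpoint ℝ a b) - e b‖ₑ
          ≤ ∫⁻ b in s, ENNReal.ofReal (D / 2) *
              ∫⁻ t in Ioc (0:ℝ) 1, g ((1 - t / 2) • b + (t / 2) • a) :=
            setLIntegral_mono' hsm fun b hb => key a ha b hb
        _ ≤ ∫⁻ b, ENNReal.ofReal (D / 2) *
              ∫⁻ t in Ioc (0:ℝ) 1, g ((1 - t / 2) • b + (t / 2) • a) :=
            setLIntegral_le_lintegral _ _
        _ = ENNReal.ofReal (D / 2) *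
              ∫⁻ b, ∫⁻ t in Ioc (0:ℝ) 1, g ((1 - t / 2) • b + (t / 2) • a) :=
            lintegral_const_mul' _ _ ENNReal.ofReal_ne_top
        _ = ENNReal.ofReal (D / 2) *
              ∫⁻ t in Ioc (0:ℝ) 1, ∫⁻ b, g ((1 - t / 2) • b + (t / 2) • a) := by
            congr 1
            apply lintegral_lintegral_swap
            apply Measurable.aemeasurable
            apply hgm.comp
            fun_prop
        _ ≤ ENNReal.ofReal (D / 2) * ∫⁻ t in Ioc (0:ℝ) 1, 4 * ∫⁻ z, g z := by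
            gcongr ENNReal.ofReal (D / 2) * ?_
            refine setLIntegral_mono' measurableSet_Ioc fun t ht => ?_
            have hc : (1 - t / 2) ≠ 0 := by linarith [ht.2]
            rw [lintegral_comp_affine g hgm hc]
            gcongr
            rw [show (4 : ℝ≥0∞) = ENNReal.ofReal 4 by norm_num]
            apply ENNReal.ofReal_le_ofReal
            have h1 : (1:ℝ)/2 ≤ 1 - t / 2 := by linarith [ht.2]
            have h2 : (1:ℝ)/4 ≤ (1 - t / 2) ^ 2 := by nlinarith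
            rw [abs_of_nonneg (by positivity)]
            rw [inv_le_comm₀ (by positivity) (by norm_num)]
            linarith
        _ = 2 * ENNReal.ofReal D * ∫⁻ z, g z := by
            rw [setLIntegral_const, Real.volume_Ioc]
            simp only [sub_zero, ENNReal.ofReal_one, mul_one]
            rw [show D / 2 = (1/2) * D by ring, ENNReal.ofReal_mul (by norm_num)]
            rw [show ENNReal.ofReal (1/2) = 2⁻¹ by
              rw [one_div, ENNReal.ofReal_inv_of_pos (by norm_num)]; norm_num]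
            rw [show (4 : ℝ≥0∞) = 2 * 2 by norm_num]
            have h2 : (2⁻¹ : ℝ≥0∞) * 2 = 1 := ENNReal.inv_mul_cancel (by norm_num) (by norm_num)
            calc 2⁻¹ * ENNReal.ofReal D * (2 * 2 * ∫⁻ z, g z)
                = (2⁻¹ * 2) * (2 * ENNReal.ofReal D * ∫⁻ z, g z) := by ring
              _ = 2 * ENNReal.ofReal D * ∫⁻ z, g z := by rw [h2, one_mul]
    calc ∫⁻ a in s, ∫⁻ b in s, ‖e (midpoint ℝ a b) - e b‖ₑ
        ≤ ∫⁻ a in s, 2 * ENNReal.ofReal D * ∫⁻ z, g z := setLIntegral_mono' hsm hinner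
      _ = 2 * ENNReal.ofReal D * volume s * ∫⁻ z, g z := by
          rw [setLIntegral_const]; ring
  -- Step 3: symmetrisation
  have hmeas1 : Measurable (fun p : ℂ × ℂ => ‖e p.1 - e (midpoint ℝ p.1 p.2)‖ₑ) := by
    have : Measurable (fun p : ℂ × ℂ => midpoint ℝ p.1 p.2) := by
      have : Continuous (fun p : ℂ × ℂ => midpoint ℝ p.1 p.2) := by
        simp only [midpoint_eq_smul_add]; fun_prop
      exact this.measurable
    exact ((hem.comp measurable_fst).sub (hem.comp this)).enorm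
  have hswap : ∫⁻ x in s, ∫⁻ y in s, ‖e x - e (midpoint ℝ x y)‖ₑ
      = ∫⁻ a in s, ∫⁻ b in s, ‖e (midpoint ℝ a b) - e b‖ₑ := by
    rw [lintegral_lintegral_swap (f := fun x y => ‖e x - e (midpoint ℝ x y)‖ₑ)
      hmeas1.aemeasurable]
    refine lintegral_congr fun a => lintegral_congr fun b => ?_
    rw [midpoint_comm, enorm_sub_rev]
  calc ∫⁻ x in s, ∫⁻ y in s, ‖e x - e y‖ₑ
      ≤ ∫⁻ x in s, ∫⁻ y in s, (‖e x - e (midpoint ℝ x y)‖ₑ + ‖e (midpoint ℝ x y) - e y‖ₑ) := by
        refine lintegral_mono fun x => lintegral_mono fun y => ?_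
        have : e x - e y = (e x - e (midpoint ℝ x y)) + (e (midpoint ℝ x y) - e y) := by ring
        rw [this]
        exact enorm_add_le _ _
    _ = (∫⁻ x in s, ∫⁻ y in s, ‖e x - e (midpoint ℝ x y)‖ₑ)
          + ∫⁻ x in s, ∫⁻ y in s, ‖e (midpoint ℝ x y) - e y‖ₑ := by
        have hm : ∀ x, Measurable (fun y => ‖e x - e (midpoint ℝ x y)‖ₑ) := fun x =>
          hmeas1.comp (measurable_const.prodMk measurable_id)
        have hsplit : ∀ x, ∫⁻ y in s, (‖e x - e (midpoint ℝ x y)‖ₑ + ‖e (midpoint ℝ x y) - e y‖ₑ)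
            = (∫⁻ y in s, ‖e x - e (midpoint ℝ x y)‖ₑ) + ∫⁻ y in s, ‖e (midpoint ℝ x y) - e y‖ₑ :=
          fun x => lintegral_add_left (hm x) _
        simp_rw [hsplit]
        exact lintegral_add_left (hmeas1.lintegral_prod_right' (ν := volume.restrict s)) _
    _ ≤ (2 * ENNReal.ofReal D * volume s * ∫⁻ z, g z)
          + (2 * ENNReal.ofReal D * volume s * ∫⁻ z, g z) := by
        rw [hswap]
        exact add_le_add hT2 hT2
    _ = 4 * ENNReal.ofReal D * volume s * ∫⁻ z in s, ‖fderiv ℝ e z‖ₑ := by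
        rw [hgint]; ring

/-- **`L¹` Poincaré inequality, double-integral form**, on a convex measurable set `s ⊆ ℂ`
contained in an open set `U` on which `e` is `C¹`; `D` is any bound for the diameter of `s`. -/
theorem poincare_L1 {s U : Set ℂ} (hs : Convex ℝ s) (hsm : MeasurableSet s) (hU : IsOpen U)
    (hsU : s ⊆ U) {D : ℝ} (hD : ∀ x ∈ s, ∀ y ∈ s, dist x y ≤ D) {e : ℂ → ℝ}
    (he : ContDiffOn ℝ 1 e U) :
    ∫⁻ x in s, ∫⁻ y in s, ‖e x - e y‖ₑ
      ≤ 4 * ENNReal.ofReal D * volume s * ∫⁻ z in s, ‖fderiv ℝ e z‖ₑ := by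
  classical
  set e' : ℂ → ℝ := U.indicator e with he'
  have hmeas : Measurable e' := by
    rw [he', ← Set.piecewise_eq_indicator]
    exact he.continuousOn.measurable_piecewise continuousOn_const hU.measurableSet
  have heq : ∀ x ∈ U, e' x = e x := fun x hx => indicator_of_mem hx e
  have hcd : ContDiffOn ℝ 1 e' U := he.congr heq
  have hfd : ∀ z ∈ s, fderiv ℝ e' z = fderiv ℝ e z := by
    intro z hz
    apply Filter.EventuallyEq.fderiv_eq
    filter_upwards [hU.mem_nhds (hsU hz)] with x hx using heq x hx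
  have hmain := poincare_L1_aux hs hsm hU hsU hD hcd hmeas
  calc ∫⁻ x in s, ∫⁻ y in s, ‖e x - e y‖ₑ = ∫⁻ x in s, ∫⁻ y in s, ‖e' x - e' y‖ₑ := by
        refine setLIntegral_congr_fun hsm fun x hx => setLIntegral_congr_fun hsm fun y hy => ?_
        simp only [heq x (hsU hx), heq y (hsU hy)]
    _ ≤ 4 * ENNReal.ofReal D * volume s * ∫⁻ z in s, ‖fderiv ℝ e' z‖ₑ := hmain
    _ = 4 * ENNReal.ofReal D * volume s * ∫⁻ z in s, ‖fderiv ℝ e z‖ₑ := by
        congr 1
        exact setLIntegral_congr_fun hsm fun z hz => by simp only [hfd z hz]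

/-- Variant: integrate over two measurable subsets `A, B` of the convex set. -/
theorem poincare_L1_subsets {s U A B : Set ℂ} (hs : Convex ℝ s) (hsm : MeasurableSet s)
    (hU : IsOpen U) (hsU : s ⊆ U) (hA : A ⊆ s) (hB : B ⊆ s)
    {D : ℝ} (hD : ∀ x ∈ s, ∀ y ∈ s, dist x y ≤ D) {e : ℂ → ℝ} (he : ContDiffOn ℝ 1 e U) :
    ∫⁻ x in A, ∫⁻ y in B, ‖e x - e y‖ₑ
      ≤ 4 * ENNReal.ofReal D * volume s * ∫⁻ z in s, ‖fderiv ℝ e z‖ₑ :=
  calc ∫⁻ x in A, ∫⁻ y in B, ‖e x - e y‖ₑ ≤ ∫⁻ x in A, ∫⁻ y in s, ‖e x - e y‖ₑ :=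
        lintegral_mono fun _ => lintegral_mono_set hB
    _ ≤ ∫⁻ x in s, ∫⁻ y in s, ‖e x - e y‖ₑ := lintegral_mono_set hA
    _ ≤ _ := poincare_L1 hs hsm hU hsU hD he

end Fermat.Agent.S21.helper801
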