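/-
helper801: S21 Route 2, leaf VAR — basic layer.
Invariant energy density `|a|² y²`, weighted energy, weight-2 equivariance, parallelogram law,
local / strip bounds by the energy (on top of `helper1765_Unfold`).
-/
import Fermat.Agent.S21.helper801_HodgeSpec
import Fermat.Agent.S21.helper1765_Unfold

set_option autoImplicit false

namespace Fermat.Agent.S21.helper801

open ModularCurve ModularCurve.Period CongruenceSubgroup UpperHalfPlane MeasureTheory Filter
  Topology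
open Fermat.Agent.S21.helper921
open scoped MatrixGroups ENNReal

noncomputable section

/-- Real-valued invariant energy density `|a|² y²` on `ℍ`. -/
def rdens (a : ℂ → ℂ) (z : ℍ) : ℝ := ‖a ↑z‖ ^ 2 * z.im ^ 2

/-- Invariant energy density `|a|² y²` on `ℍ` (the integrand of `FiniteEnergyCert`). -/
def edens (a : ℂ → ℂ) (z : ℍ) : ℝ≥0∞ := ‖a ↑z‖ₑ ^ 2 * ENNReal.ofReal (z.im ^ 2)

theorem rdens_nonneg (a : ℂ → ℂ) (z : ℍ) : 0 ≤ rdens a z := by unfold rdens; positivity

theorem edens_eq_ofReal (a : ℂ → ℂ) (z : ℍ) : edens a z = ENNReal.ofReal (rdens a z) := by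
  unfold edens rdens
  rw [ENNReal.ofReal_mul (by positivity), ← ofReal_norm, ENNReal.ofReal_pow (norm_nonneg _)]

/-- Weighted energy. -/
def energy (w : ℍ → ℝ≥0∞) (a : ℂ → ℂ) : ℝ≥0∞ := ∫⁻ z : ℍ, w z * edens a z

/-- Weight-2 equivariance under `Γ₀(N)`. -/
def IsW2 (N : ℕ) (a : ℂ → ℂ) : Prop :=
  ∀ (γ : Gamma0 N) (z : ℍ), a ↑((γ : SL(2, ℤ)) • z)
    = (((γ : SL(2, ℤ)) 1 0 : ℂ) * (z : ℂ) + ((γ : SL(2, ℤ)) 1 1 : ℂ)) ^ 2 * a ↑z

theorem IsW2.sub {N : ℕ} {a b : ℂ → ℂ} (ha : IsW2 N a) (hb : IsW2 N b) :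
    IsW2 N (fun x => a x - b x) := fun γ z => by
  simp only [ha γ z, hb γ z]; ring

theorem rdens_smul {N : ℕ} {a : ℂ → ℂ} (ha : IsW2 N a) (γ : Gamma0 N) (z : ℍ) :
    rdens a ((γ : SL(2, ℤ)) • z) = rdens a z := by
  unfold rdens
  set d : ℂ := (((γ : SL(2, ℤ)) 1 0 : ℂ) * (z : ℂ) + ((γ : SL(2, ℤ)) 1 1 : ℂ)) with hd
  have hden : denom (γ : SL(2, ℤ)) z = d := ModularGroup.denom_apply _ z
  have hd0 : d ≠ 0 := by rw [← hden]; exact denom_ne_zero _ z
  rw [ha γ z, ModularGroup.im_smul_eq_div_normSq, hden, Complex.normSq_eq_norm_sq, norm_mul,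
    norm_pow]
  have : ‖d‖ ≠ 0 := norm_ne_zero_iff.mpr hd0
  rw [← hd]
  field_simp

theorem edens_smul {N : ℕ} {a : ℂ → ℂ} (ha : IsW2 N a) (γ : Gamma0 N) (z : ℍ) :
    edens a ((γ : SL(2, ℤ)) • z) = edens a z := by
  rw [edens_eq_ofReal, edens_eq_ofReal, rdens_smul ha]

theorem continuous_comp_coe {a : ℂ → ℂ} (ha : ContinuousOn a upperHalfPlaneSet) :
    Continuous (fun z : ℍ => a ↑z) :=
  ha.comp_continuous continuous_coe (fun z => z.im_pos)

theorem continuous_rdens {a : ℂ → ℂ} (ha : ContinuousOn a upperHalfPlaneSet) :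
    Continuous (rdens a) := by
  unfold rdens
  exact ((continuous_comp_coe ha).norm.pow 2).mul (continuous_im.pow 2)

theorem measurable_edens {a : ℂ → ℂ} (ha : ContinuousOn a upperHalfPlaneSet) :
    Measurable (edens a) := by
  have : edens a = fun z => ENNReal.ofReal (rdens a z) := funext (edens_eq_ofReal a)
  rw [this]
  exact ENNReal.measurable_ofReal.comp (continuous_rdens ha).measurable

theorem energy_congr (w : ℍ → ℝ≥0∞) {a b : ℂ → ℂ} (h : ∀ z : ℍ, a ↑z = b ↑z) :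
    energy w a = energy w b := by
  unfold energy edens
  simp only [h]

/-- Parallelogram law for the density. -/
theorem edens_sub_add_edens_add (a b : ℂ → ℂ) (z : ℍ) :
    edens (fun x => a x - b x) z + edens (fun x => a x + b x) z
      = 2 * edens a z + 2 * edens b z := by
  simp only [edens_eq_ofReal]
  have h2 : (2 : ℝ≥0∞) = ENNReal.ofReal 2 := by norm_num
  rw [← ENNReal.ofReal_add (rdens_nonneg _ _) (rdens_nonneg _ _), h2,
    ← ENNReal.ofReal_mul (by norm_num), ← ENNReal.ofReal_mul (by norm_num),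
    ← ENNReal.ofReal_add (mul_nonneg (by norm_num) (rdens_nonneg _ _))
      (mul_nonneg (by norm_num) (rdens_nonneg _ _))]
  congr 1
  unfold rdens
  have := parallelogram_law_with_norm ℝ (a ↑z) (b ↑z)
  linear_combination (z.im ^ 2) * this

theorem edens_add_eq (a b : ℂ → ℂ) (z : ℍ) :
    edens (fun x => a x + b x) z
      = 4 * edens (fun x => (1 / 2 : ℂ) * a x + (1 / 2 : ℂ) * b x) z := by
  simp only [edens_eq_ofReal]
  rw [show (4 : ℝ≥0∞) = ENNReal.ofReal 4 by norm_num, ← ENNReal.ofReal_mul (by norm_num)]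
  congr 1
  unfold rdens
  have : (1 / 2 : ℂ) * a ↑z + (1 / 2 : ℂ) * b ↑z = (1 / 2 : ℂ) * (a ↑z + b ↑z) := by ring
  beta_reduce
  rw [this, norm_mul]
  norm_num
  ring

theorem energy_parallelogram {w : ℍ → ℝ≥0∞} (hw : Measurable w) {a b : ℂ → ℂ}
    (ha : ContinuousOn a upperHalfPlaneSet) (hb : ContinuousOn b upperHalfPlaneSet) :
    energy w (fun x => a x - b x) + energy w (fun x => a x + b x)
      = 2 * energy w a + 2 * energy w b := by
  unfold energy
  have e1 : Measurable fun z => w z * edens (fun x => a x - b x) z :=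
    hw.mul (measurable_edens (ha.sub hb))
  have e3 : Measurable fun z => w z * edens a z := hw.mul (measurable_edens ha)
  have e4 : Measurable fun z => w z * edens b z := hw.mul (measurable_edens hb)
  calc (∫⁻ z, w z * edens (fun x => a x - b x) z) + ∫⁻ z, w z * edens (fun x => a x + b x) z
      = ∫⁻ z, (w z * edens (fun x => a x - b x) z + w z * edens (fun x => a x + b x) z) :=
        (lintegral_add_left e1 _).symm
    _ = ∫⁻ z, (2 * (w z * edens a z) + 2 * (w z * edens b z)) :=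
        lintegral_congr fun z => by rw [← mul_add, edens_sub_add_edens_add]; ring
    _ = (∫⁻ z, 2 * (w z * edens a z)) + ∫⁻ z, 2 * (w z * edens b z) :=
        lintegral_add_left (e3.const_mul _) _
    _ = _ := by rw [lintegral_const_mul _ e3, lintegral_const_mul _ e4]

theorem energy_add_eq {w : ℍ → ℝ≥0∞} (hw : Measurable w) {a b : ℂ → ℂ}
    (ha : ContinuousOn a upperHalfPlaneSet) (hb : ContinuousOn b upperHalfPlaneSet) :
    energy w (fun x => a x + b x)
      = 4 * energy w (fun x => (1 / 2 : ℂ) * a x + (1 / 2 : ℂ) * b x) := by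
  unfold energy
  have e1 : Measurable fun z => w z * edens (fun x => (1 / 2 : ℂ) * a x + (1 / 2 : ℂ) * b x) z :=
    hw.mul (measurable_edens ((continuousOn_const.mul ha).add (continuousOn_const.mul hb)))
  rw [← lintegral_const_mul _ e1]
  refine lintegral_congr fun z => ?_
  rw [edens_add_eq]; ring

/-- Hyperbolic integral of the density = Lebesgue integral of `|a|²`. -/
theorem setLIntegral_edens (a : ℂ → ℂ) {s : Set ℍ} (hs : MeasurableSet s) :
    ∫⁻ z in s, edens a z = ∫⁻ z in (UpperHalfPlane.coe '' s), ‖a z‖ₑ ^ 2 := by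
  have h := helper1765.setLIntegral_hyp_eq
    (fun z : ℂ => ‖a z‖ₑ ^ 2 * ENNReal.ofReal (z.im ^ 2)) hs
  rw [show (∫⁻ z in s, edens a z)
      = ∫⁻ z in s, (fun z : ℂ => ‖a z‖ₑ ^ 2 * ENNReal.ofReal (z.im ^ 2)) ↑z from rfl, h]
  refine setLIntegral_congr_fun (measurableEmbedding_coe.measurableSet_image.mpr hs) fun z hz => ?_
  obtain ⟨τ, -, rfl⟩ := hz
  have hpos : 0 < (τ : ℂ).im := τ.im_pos
  rw [mul_comm, mul_assoc, ← ENNReal.ofReal_mul (by positivity)]
  rw [show (τ : ℂ).im ^ 2 * (1 / (τ : ℂ).im ^ 2) = 1 by field_simp, ENNReal.ofReal_one, mul_one]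

theorem isCompact_coe_preimage {K : Set ℂ} (hK : IsCompact K) (hKU : K ⊆ upperHalfPlaneSet) :
    IsCompact (UpperHalfPlane.coe ⁻¹' K) := by
  have hr : K ⊆ Set.range UpperHalfPlane.coe := fun z hz => ⟨⟨z, hKU hz⟩, rfl⟩
  exact (isEmbedding_coe.isInducing.isCompact_preimage_iff hr).mpr hK

theorem coe_image_preimage {K : Set ℂ} (hKU : K ⊆ upperHalfPlaneSet) :
    UpperHalfPlane.coe '' (UpperHalfPlane.coe ⁻¹' K) = K :=
  Set.image_preimage_eq_of_subset fun z hz => ⟨⟨z, hKU hz⟩, rfl⟩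

/-- Local `L²` bound by the energy. -/
theorem exists_local_bound (N : ℕ) {K : Set ℂ} (hK : IsCompact K) (hKU : K ⊆ upperHalfPlaneSet) :
    ∃ M : ℕ, ∀ (w : ℍ → ℝ≥0∞), Measurable w →
      (∀ z : ℍ, ∑' γ : Gamma0 N, w ((γ : SL(2, ℤ)) • z) = 1) →
      ∀ a : ℂ → ℂ, ContinuousOn a upperHalfPlaneSet → IsW2 N a →
        ∫⁻ z in K, ‖a z‖ₑ ^ 2 ≤ M * energy w a := by
  have hK' := isCompact_coe_preimage hK hKU
  obtain ⟨M, hM⟩ := helper1765.exists_setLIntegral_compact_le (Gamma0 N) hK'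
  refine ⟨M, fun w hw hsum a ha ha2 => ?_⟩
  have h1 := hM w hw hsum (edens a) (measurable_edens ha).aemeasurable
    (fun γ z => edens_smul ha2 γ z)
  rw [setLIntegral_edens a hK'.measurableSet, coe_image_preimage hKU] at h1
  exact h1

/-- Uniform strip bound by the energy. -/
theorem exists_strip_bound (N : ℕ) :
    ∃ M : ℕ, ∀ (w : ℍ → ℝ≥0∞), Measurable w →
      (∀ z : ℍ, ∑' γ : Gamma0 N, w ((γ : SL(2, ℤ)) • z) = 1) →
      ∀ a : ℂ → ℂ, ContinuousOn a upperHalfPlaneSet → IsW2 N a → ∀ σ : SL(2, ℤ),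
        ∫⁻ z in cuspStrip N, ‖a ↑(σ • z)‖ₑ ^ 2 * ENNReal.ofReal ((σ • z).im ^ 2)
          ≤ M * energy w a := by
  obtain ⟨M, hM⟩ := helper1765.exists_setLIntegral_strip_le (Gamma0 N) N
  refine ⟨M, fun w hw hsum a ha ha2 σ => ?_⟩
  have h1 := hM w hw hsum (edens a) (measurable_edens ha) (fun γ z => edens_smul ha2 γ z) σ
  have hset : cuspStrip N = {τ : ℍ | 2 ≤ τ.im ∧ |τ.re| ≤ N} := by
    ext τ; simp only [cuspStrip, Set.mem_ofPred_eq]; exact and_comm
  rw [hset]
  exact h1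

/-- Finite energy from a finite-energy certificate. -/
theorem energy_lt_top_of_cert {N : ℕ} {w : ℍ → ℝ≥0∞} (hw : Measurable w)
    (hsum : ∀ z : ℍ, ∑' γ : Gamma0 N, w ((γ : SL(2, ℤ)) • z) = 1)
    {φ : Additive (Gamma0 N) →+ ℝ} {u : ℍ → ℝ} (hu : IsPot N φ u) (hc : FiniteEnergyCert N u) :
    energy w (gradC u) < ⊤ := by
  obtain ⟨B, hB, hmeet, hfin⟩ := hc
  have h1 := helper1765.lintegral_weight_le_modular (Gamma0 N) hw hsum
    (measurable_edens hu.continuousOn_gradC).aemeasurable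
    (fun γ z => edens_smul (fun γ z => hu.gradC_smul γ z) γ z) hB (fun z _ => hmeet z)
  exact lt_of_le_of_lt h1 hfin

end

end Fermat.Agent.S21.helper801
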