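/-
helper801: S21 Route 2, leaf VAR — the `Γ₀(N)`-average of a test function.
`avg N B z = ∑' γ, B (γ • z)` is a `C¹` invariant function (a potential for the zero hom); its
complex gradient is a locally finite sum, and pairs with weight-2 equivariant fields by unfolding.
-/
import Fermat.Agent.S21.helper801_VarBasic

set_option autoImplicit false

namespace Fermat.Agent.S21.helper801

open ModularCurve ModularCurve.Period CongruenceSubgroup UpperHalfPlane MeasureTheory Filter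
  Topology
open Fermat.Agent.S21.helper921
open scoped MatrixGroups ENNReal

noncomputable section

/-- The Möbius map of `g ∈ SL(2,ℤ)` as a function on `ℂ` (meaningful on the upper half-plane). -/
def mob (g : SL(2, ℤ)) (w : ℂ) : ℂ := ↑(g • ofComplex w)

/-- `c z + d`. -/
def cd (g : SL(2, ℤ)) (w : ℂ) : ℂ := (g 1 0 : ℂ) * w + (g 1 1 : ℂ)

/-- Complex gradient `B_x - i B_y` of a real function on `ℂ`. -/
def gradR (B : ℂ → ℝ) (z : ℂ) : ℂ :=
  ((fderiv ℝ B z 1 : ℝ) : ℂ) - Complex.I * ((fderiv ℝ B z Complex.I : ℝ) : ℂ)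

theorem gradC_eq_gradR (u : ℍ → ℝ) (z : ℂ) : gradC u z = gradR (u ∘ ofComplex) z := rfl

theorem mob_coe (g : SL(2, ℤ)) (z : ℍ) : mob g ↑z = ↑(g • z) := by
  simp only [mob, ofComplex_apply]

theorem cd_ne_zero (g : SL(2, ℤ)) (z : ℍ) : cd g ↑z ≠ 0 := by
  have hden : denom g z = cd g ↑z := ModularGroup.denom_apply g z
  rw [← hden]; exact denom_ne_zero _ z

theorem hasDerivAt_mob (g : SL(2, ℤ)) (z : ℍ) : HasDerivAt (mob g) (1 / cd g ↑z ^ 2) ↑z := by
  set G : GL (Fin 2) ℝ :=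
    Matrix.SpecialLinearGroup.toGL ((Matrix.SpecialLinearGroup.map (Int.castRingHom ℝ)) g) with hG
  have hdet1 : (G : Matrix (Fin 2) (Fin 2) ℝ).det = 1 :=
    (Matrix.SpecialLinearGroup.map (Int.castRingHom ℝ) g).det_coe
  have hdet : 0 < (G : Matrix (Fin 2) (Fin 2) ℝ).det := by rw [hdet1]; exact one_pos
  have hden : denom G z = cd g ↑z := ModularGroup.denom_apply g z
  have := (hasStrictDerivAt_smul hdet z).hasDerivAt
  rw [hdet1, hden] at this
  show HasDerivAt (fun w : ℂ => ((G • ofComplex w : ℍ) : ℂ)) _ _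
  simpa using this

theorem differentiableOn_mob (g : SL(2, ℤ)) : DifferentiableOn ℂ (mob g) upperHalfPlaneSet := by
  intro w hw
  exact (hasDerivAt_mob g ⟨w, hw⟩).differentiableAt.differentiableWithinAt

theorem contDiffOn_mob (g : SL(2, ℤ)) : ContDiffOn ℝ 1 (mob g) upperHalfPlaneSet :=
  ((differentiableOn_mob g).contDiffOn isOpen_upperHalfPlaneSet).restrict_scalars ℝ

/-- Chain rule for the complex gradient through a Möbius map. -/
theorem gradR_comp_mob (B : ℂ → ℝ) (g : SL(2, ℤ)) (z : ℍ)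
    (hB : DifferentiableAt ℝ B ↑(g • z)) :
    gradR (fun w => B (mob g w)) ↑z = (1 / cd g ↑z ^ 2) * gradR B ↑(g • z) := by
  have hmobF := (hasDerivAt_mob g z).hasFDerivAt.restrictScalars ℝ
  rw [← mob_coe] at hB ⊢
  have hcomp := hB.hasFDerivAt.comp (↑z : ℂ) hmobF
  have key := clm_wirtinger (fderiv ℝ B (mob g ↑z)) (1 / cd g ↑z ^ 2)
  unfold gradR
  rw [show (fun w => B (mob g w)) = B ∘ mob g from rfl, hcomp.fderiv]
  simp only [ContinuousLinearMap.comp_apply, ContinuousLinearMap.coe_restrictScalars',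
    ContinuousLinearMap.toSpanSingleton_apply, smul_eq_mul, one_mul]
  rw [key]

/-- `Γ₀(N)`-average of a function on `ℂ`, as a function on `ℍ`. -/
def avg (N : ℕ) (B : ℂ → ℝ) (z : ℍ) : ℝ := ∑' γ : Gamma0 N, B ↑((γ : SL(2, ℤ)) • z)

theorem avg_smul (N : ℕ) (B : ℂ → ℝ) (γ : Gamma0 N) (z : ℍ) :
    avg N B ((γ : SL(2, ℤ)) • z) = avg N B z := by
  unfold avg
  have h := (Equiv.mulRight γ).tsum_eq (fun γ' : Gamma0 N => B ↑((γ' : SL(2, ℤ)) • z))
  rw [← h]
  refine tsum_congr fun γ' => ?_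
  simp only [Equiv.coe_mulRight, Subgroup.coe_mul, mul_smul]

/-- Local finiteness of the average. -/
theorem exists_finset_avg (N : ℕ) {B : ℂ → ℝ} (hBc : HasCompactSupport B)
    (hBs : tsupport B ⊆ upperHalfPlaneSet) (z₀ : ℍ) :
    ∃ (U : Set ℂ) (S : Finset (Gamma0 N)), IsOpen U ∧ ↑z₀ ∈ U ∧ U ⊆ upperHalfPlaneSet ∧
      ∀ w ∈ U, ∀ γ : Gamma0 N, γ ∉ S → mob (γ : SL(2, ℤ)) w ∉ tsupport B := by
  classical
  set r : ℝ := z₀.im / 2 with hr
  have hrpos : 0 < r := by have := z₀.im_pos; positivity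
  have hKU : Metric.closedBall (z₀ : ℂ) r ⊆ upperHalfPlaneSet := by
    intro w hw
    rw [Metric.mem_closedBall, dist_eq_norm] at hw
    have h1 := Complex.abs_im_le_norm (w - z₀)
    have h2 : |w.im - z₀.im| ≤ r := by
      have : (w - (z₀ : ℂ)).im = w.im - z₀.im := by simp
      rw [← this]; exact h1.trans hw
    have h3 := (abs_le.mp h2).1
    show 0 < w.im
    have : z₀.im = 2 * r := by rw [hr]; ring
    linarith
  have hK₀ : IsCompact (UpperHalfPlane.coe ⁻¹' Metric.closedBall (z₀ : ℂ) r) :=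
    isCompact_coe_preimage (isCompact_closedBall _ _) hKU
  have hL : IsCompact (UpperHalfPlane.coe ⁻¹' tsupport B) := isCompact_coe_preimage hBc hBs
  have := helper1765.properlyDiscontinuousSMul_subgroup (Gamma0 N)
  have hfin := ProperlyDiscontinuousSMul.finite_disjoint_inter_image (Γ := Gamma0 N) hK₀ hL
  refine ⟨Metric.ball (z₀ : ℂ) r, hfin.toFinset, Metric.isOpen_ball, Metric.mem_ball_self hrpos,
    fun w hw => hKU (Metric.ball_subset_closedBall hw), fun w hw γ hγ hmem => hγ ?_⟩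
  rw [Set.Finite.mem_toFinset]
  have hwU : w ∈ upperHalfPlaneSet := hKU (Metric.ball_subset_closedBall hw)
  have hcoe : ((ofComplex w : ℍ) : ℂ) = w := by
    rw [ofComplex_apply_of_im_pos hwU]
  have hmem1 : ((ofComplex w : ℍ) : ℂ) ∈ Metric.closedBall (z₀ : ℂ) r := by
    rw [hcoe]; exact Metric.ball_subset_closedBall hw
  have hne : ((fun x : ℍ => γ • x) '' (UpperHalfPlane.coe ⁻¹' Metric.closedBall (z₀ : ℂ) r)
      ∩ (UpperHalfPlane.coe ⁻¹' tsupport B)).Nonempty :=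
    ⟨γ • ofComplex w, ⟨ofComplex w, hmem1, rfl⟩, hmem⟩
  exact hne

theorem avg_eq_sum (N : ℕ) {B : ℂ → ℝ} {S : Finset (Gamma0 N)} {w : ℂ}
    (hS : ∀ γ : Gamma0 N, γ ∉ S → mob (γ : SL(2, ℤ)) w ∉ tsupport B) :
    avg N B (ofComplex w) = ∑ γ ∈ S, B (mob (γ : SL(2, ℤ)) w) := by
  unfold avg
  exact tsum_eq_sum fun γ hγ => image_eq_zero_of_notMem_tsupport (hS γ hγ)

theorem contDiffOn_avg (N : ℕ) {B : ℂ → ℝ} (hB : ContDiff ℝ 1 B) (hBc : HasCompactSupport B)
    (hBs : tsupport B ⊆ upperHalfPlaneSet) :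
    ContDiffOn ℝ 1 (avg N B ∘ ofComplex) upperHalfPlaneSet := by
  intro w hw
  obtain ⟨U, S, hUo, hzU, -, hS⟩ := exists_finset_avg N hBc hBs ⟨w, hw⟩
  have hEq : (avg N B ∘ ofComplex) =ᶠ[𝓝 w] fun w => ∑ γ ∈ S, B (mob (γ : SL(2, ℤ)) w) := by
    filter_upwards [hUo.mem_nhds hzU] with x hx using avg_eq_sum N (hS x hx)
  have hsum : ContDiffAt ℝ 1 (fun w => ∑ γ ∈ S, B (mob (γ : SL(2, ℤ)) w)) w :=
    ContDiffAt.sum fun γ _ => hB.contDiffAt.comp w
      ((contDiffOn_mob (γ : SL(2, ℤ))).contDiffAt (isOpen_upperHalfPlaneSet.mem_nhds hw))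
  exact (hsum.congr_of_eventuallyEq hEq).contDiffWithinAt

/-- The average of a test function is a potential for the zero hom. -/
theorem isPot_avg (N : ℕ) {B : ℂ → ℝ} (hB : ContDiff ℝ 1 B) (hBc : HasCompactSupport B)
    (hBs : tsupport B ⊆ upperHalfPlaneSet) : IsPot N 0 (avg N B) where
  contDiffOn := contDiffOn_avg N hB hBc hBs
  map_smul γ z := by rw [avg_smul]; simp

/-- The complex gradient of the average as a finite sum. -/
theorem gradC_avg (N : ℕ) {B : ℂ → ℝ} (hB : ContDiff ℝ 1 B) (hBc : HasCompactSupport B)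
    (hBs : tsupport B ⊆ upperHalfPlaneSet) (z : ℍ) :
    ∃ S : Finset (Gamma0 N), (∀ γ : Gamma0 N, γ ∉ S → (↑((γ : SL(2, ℤ)) • z) : ℂ) ∉ tsupport B) ∧
      gradC (avg N B) ↑z
        = ∑ γ ∈ S, (1 / cd (γ : SL(2, ℤ)) ↑z ^ 2) * gradR B ↑((γ : SL(2, ℤ)) • z) := by
  obtain ⟨U, S, hUo, hzU, -, hS⟩ := exists_finset_avg N hBc hBs z
  refine ⟨S, fun γ hγ => ?_, ?_⟩
  · have := hS ↑z hzU γ hγ
    rwa [mob_coe] at this
  have hEq : (avg N B ∘ ofComplex) =ᶠ[𝓝 (z : ℂ)] fun w => ∑ γ ∈ S, B (mob (γ : SL(2, ℤ)) w) := by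
    filter_upwards [hUo.mem_nhds hzU] with x hx using avg_eq_sum N (hS x hx)
  have hBd : ∀ x, DifferentiableAt ℝ B x := fun x => (hB.differentiable one_ne_zero).differentiableAt
  have hd : ∀ γ ∈ S, DifferentiableAt ℝ (fun w => B (mob (γ : SL(2, ℤ)) w)) ↑z := by
    intro γ _
    exact (hBd _).comp (↑z : ℂ)
      ((hasDerivAt_mob (γ : SL(2, ℤ)) z).differentiableAt.restrictScalars ℝ)
  have hfd : fderiv ℝ (avg N B ∘ ofComplex) ↑z
      = ∑ γ ∈ S, fderiv ℝ (fun w => B (mob (γ : SL(2, ℤ)) w)) ↑z := by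
    rw [hEq.fderiv_eq]
    exact fderiv_fun_sum hd
  have hterm : ∀ γ ∈ S, (1 / cd (γ : SL(2, ℤ)) ↑z ^ 2) * gradR B ↑((γ : SL(2, ℤ)) • z)
      = gradR (fun w => B (mob (γ : SL(2, ℤ)) w)) ↑z := fun γ _ =>
    (gradR_comp_mob B (γ : SL(2, ℤ)) z (hBd _)).symm
  rw [Finset.sum_congr rfl hterm]
  unfold gradC gradR
  rw [hfd]
  simp only [_root_.sum_apply, Complex.ofReal_sum, Finset.mul_sum,
    Finset.sum_sub_distrib]

/-- The cross density `y² Re(a · conj g)`. -/
def crossDens (a g : ℂ → ℂ) (τ : ℍ) : ℝ := τ.im ^ 2 * (a ↑τ * starRingEnd ℂ (g ↑τ)).re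

/-- Unfolding identity, pointwise form: the `Γ₀(N)`-orbit sum of the cross density of a weight-2
equivariant `a` against the gradient of `B` is the cross density against the gradient of
`avg N B`. -/
theorem tsum_crossDens (N : ℕ) {B : ℂ → ℝ} (hB : ContDiff ℝ 1 B) (hBc : HasCompactSupport B)
    (hBs : tsupport B ⊆ upperHalfPlaneSet) {a : ℂ → ℂ} (ha : IsW2 N a) (z : ℍ) :
    ∑' γ : Gamma0 N, crossDens a (gradR B) ((γ : SL(2, ℤ)) • z)
      = crossDens a (gradC (avg N B)) z := by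
  obtain ⟨S, hS, hgrad⟩ := gradC_avg N hB hBc hBs z
  have hzero : ∀ γ : Gamma0 N, γ ∉ S → crossDens a (gradR B) ((γ : SL(2, ℤ)) • z) = 0 := by
    intro γ hγ
    have h0 : gradR B ↑((γ : SL(2, ℤ)) • z) = 0 := by
      unfold gradR
      rw [fderiv_of_notMem_tsupport ℝ (hS γ hγ)]
      simp
    unfold crossDens
    rw [h0]; simp
  rw [tsum_eq_sum hzero]
  unfold crossDens
  rw [hgrad, map_sum, Finset.mul_sum, Complex.re_sum, Finset.mul_sum]
  refine Finset.sum_congr rfl fun γ _ => ?_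
  set d : ℂ := cd (γ : SL(2, ℤ)) ↑z with hd
  set G : ℂ := gradR B ↑((γ : SL(2, ℤ)) • z) with hG
  have hd0 : d ≠ 0 := cd_ne_zero _ z
  have hden : denom (γ : SL(2, ℤ)) z = d := ModularGroup.denom_apply _ z
  have haz : a ↑((γ : SL(2, ℤ)) • z) = d ^ 2 * a ↑z := ha γ z
  rw [haz, ModularGroup.im_smul_eq_div_normSq, hden]
  have hnd : Complex.normSq d ≠ 0 := fun h => hd0 (Complex.normSq_eq_zero.mp h)
  have hcd : (starRingEnd ℂ) d ≠ 0 := (map_ne_zero _).mpr hd0
  have hkey : a ↑z * (starRingEnd ℂ) (1 / d ^ 2 * G)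
      = (d ^ 2 * a ↑z * (starRingEnd ℂ) G) * (((Complex.normSq d ^ 2)⁻¹ : ℝ) : ℂ) := by
    rw [map_mul, map_div₀, map_one, map_pow]
    push_cast
    rw [← Complex.mul_conj]
    field_simp
  rw [hkey, Complex.re_mul_ofReal]
  field_simp

/-- Integrals of `|a|²` over compact subsets of the upper half-plane are finite. -/
theorem setLIntegral_enorm_sq_lt_top {a : ℂ → ℂ} (ha : ContinuousOn a upperHalfPlaneSet)
    {K : Set ℂ} (hK : IsCompact K) (hKU : K ⊆ upperHalfPlaneSet) :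
    ∫⁻ z in K, ‖a z‖ₑ ^ 2 < ⊤ := by
  have hint : IntegrableOn (fun z => ‖a z‖ ^ 2) K :=
    ((ha.mono hKU).norm.pow 2).integrableOn_compact hK
  have h2 := hint.2
  unfold HasFiniteIntegral at h2
  refine lt_of_le_of_lt (le_of_eq ?_) h2
  refine lintegral_congr fun z => ?_
  rw [enorm_pow, enorm_norm]

/-- The average of a test function has finite energy. -/
theorem energy_avg_lt_top (N : ℕ) {w : ℍ → ℝ≥0∞} (hw : Measurable w)
    (hsum : ∀ z : ℍ, ∑' γ : Gamma0 N, w ((γ : SL(2, ℤ)) • z) = 1)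
    {B : ℂ → ℝ} (hB : ContDiff ℝ 1 B) (hBc : HasCompactSupport B)
    (hBs : tsupport B ⊆ upperHalfPlaneSet) :
    energy w (gradC (avg N B)) < ⊤ := by
  have hpot := isPot_avg N hB hBc hBs
  have hL : IsCompact (UpperHalfPlane.coe ⁻¹' tsupport B) := isCompact_coe_preimage hBc hBs
  have hmeet : ∀ z : ℍ, edens (gradC (avg N B)) z ≠ 0 →
      ∃ γ : Gamma0 N, (γ : SL(2, ℤ)) • z ∈ UpperHalfPlane.coe ⁻¹' tsupport B := by
    intro z hz
    obtain ⟨S, hS, hgrad⟩ := gradC_avg N hB hBc hBs z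
    by_contra hcon
    push Not at hcon
    apply hz
    have h0 : gradC (avg N B) ↑z = 0 := by
      rw [hgrad]
      refine Finset.sum_eq_zero fun γ _ => ?_
      have : gradR B ↑((γ : SL(2, ℤ)) • z) = 0 := by
        unfold gradR
        rw [fderiv_of_notMem_tsupport ℝ (hcon γ)]
        simp
      rw [this, mul_zero]
    unfold edens
    rw [h0]; simp
  have h1 := helper1765.lintegral_weight_le_modular (Gamma0 N) hw hsum
    (measurable_edens hpot.continuousOn_gradC).aemeasurable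
    (fun γ z => edens_smul (fun γ z => hpot.gradC_smul γ z) γ z) hL.measurableSet hmeet
  refine lt_of_le_of_lt h1 ?_
  rw [setLIntegral_edens _ hL.measurableSet, coe_image_preimage hBs]
  exact setLIntegral_enorm_sq_lt_top hpot.continuousOn_gradC hBc hBs

end

end Fermat.Agent.S21.helper801
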