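/-
helper801: S21 Route 2, leaf VAR — the Dirichlet principle (`StmtVAR N`).
A minimizing sequence of potentials for the weighted invariant energy: parallelogram law gives
`L²_loc`-Cauchy, first variation against `avg N B` + unfolding gives asymptotic weak holomorphy,
and the energy bound gives the uniform strip bound.
-/
import Fermat.Agent.S21.helper801_VarAvg
import Fermat.Agent.S21.helper1527_WeakHol

set_option autoImplicit false

namespace Fermat.Agent.S21.helper801

open ModularCurve ModularCurve.Period CongruenceSubgroup UpperHalfPlane MeasureTheory Filter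
  Topology
open Fermat.Agent.S21.helper921
open scoped MatrixGroups ENNReal

noncomputable section

/-! ### Linear combinations of potentials -/

theorem gradC_lincomb {u v : ℍ → ℝ} {z : ℂ} (hu : DifferentiableAt ℝ (u ∘ ofComplex) z)
    (hv : DifferentiableAt ℝ (v ∘ ofComplex) z) (s t : ℝ) :
    gradC (fun x => s * u x + t * v x) z = (s : ℂ) * gradC u z + (t : ℂ) * gradC v z := by
  have h : ((fun x => s * u x + t * v x) ∘ ofComplex)
      = fun w => s * (u ∘ ofComplex) w + t * (v ∘ ofComplex) w := rfl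
  unfold gradC
  rw [h, fderiv_fun_add (hu.const_mul s) (hv.const_mul t), fderiv_const_mul hu,
    fderiv_const_mul hv]
  simp only [_root_.add_apply, _root_.smul_apply, smul_eq_mul]
  push_cast; ring

variable {N : ℕ} {φ : Additive (Gamma0 N) →+ ℝ}

theorem IsPot.differentiableAt {u : ℍ → ℝ} (hu : IsPot N φ u) (z : ℍ) :
    DifferentiableAt ℝ (u ∘ ofComplex) ↑z :=
  (hu.contDiffOn.differentiableOn one_ne_zero).differentiableAt
    (isOpen_upperHalfPlaneSet.mem_nhds z.im_pos)

theorem IsPot.midpoint {u v : ℍ → ℝ} (hu : IsPot N φ u) (hv : IsPot N φ v) :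
    IsPot N φ (fun x => (1 / 2 : ℝ) * u x + (1 / 2 : ℝ) * v x) where
  contDiffOn := by
    have : ContDiffOn ℝ 1 (fun w => (1 / 2 : ℝ) * (u ∘ ofComplex) w + (1 / 2 : ℝ) * (v ∘ ofComplex) w)
        upperHalfPlaneSet :=
      (contDiffOn_const.mul hu.contDiffOn).add (contDiffOn_const.mul hv.contDiffOn)
    exact this
  map_smul γ z := by
    simp only [hu.map_smul γ z, hv.map_smul γ z]; ring

theorem IsPot.add_mul {u v : ℍ → ℝ} (hu : IsPot N φ u) (hv : IsPot N 0 v) (t : ℝ) :
    IsPot N φ (fun x => (1 : ℝ) * u x + t * v x) where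
  contDiffOn := by
    have : ContDiffOn ℝ 1 (fun w => (1 : ℝ) * (u ∘ ofComplex) w + t * (v ∘ ofComplex) w)
        upperHalfPlaneSet :=
      (contDiffOn_const.mul hu.contDiffOn).add (contDiffOn_const.mul hv.contDiffOn)
    exact this
  map_smul γ z := by
    simp only [hu.map_smul γ z, hv.map_smul γ z, AddMonoidHom.zero_apply]; ring

/-! ### Energy as a Bochner integral, expansion -/

variable {w : ℍ → ℝ≥0∞}

theorem weight_mul_edens (hwtop : ∀ z, w z ≠ ⊤) (a : ℂ → ℂ) (z : ℍ) :
    w z * edens a z = ENNReal.ofReal ((w z).toReal * rdens a z) := by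
  rw [edens_eq_ofReal, ENNReal.ofReal_mul ENNReal.toReal_nonneg, ENNReal.ofReal_toReal (hwtop z)]

theorem energy_eq_lintegral_ofReal (hwtop : ∀ z, w z ≠ ⊤) (a : ℂ → ℂ) :
    energy w a = ∫⁻ z, ENNReal.ofReal ((w z).toReal * rdens a z) := by
  unfold energy; simp only [weight_mul_edens hwtop]

theorem aestronglyMeasurable_weight_rdens (hw : Measurable w) {a : ℂ → ℂ}
    (ha : ContinuousOn a upperHalfPlaneSet) :
    AEStronglyMeasurable (fun z : ℍ => (w z).toReal * rdens a z) volume :=
  (hw.ennreal_toReal.mul (continuous_rdens ha).measurable).aestronglyMeasurable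

theorem integrable_weight_rdens (hw : Measurable w) (hwtop : ∀ z, w z ≠ ⊤) {a : ℂ → ℂ}
    (ha : ContinuousOn a upperHalfPlaneSet) (hE : energy w a < ⊤) :
    Integrable (fun z : ℍ => (w z).toReal * rdens a z) := by
  refine ⟨aestronglyMeasurable_weight_rdens hw ha, ?_⟩
  rw [hasFiniteIntegral_iff_ofReal
    (Eventually.of_forall fun z => mul_nonneg ENNReal.toReal_nonneg (rdens_nonneg a z))]
  rwa [← energy_eq_lintegral_ofReal hwtop]

theorem energy_toReal (hw : Measurable w) (hwtop : ∀ z, w z ≠ ⊤) {a : ℂ → ℂ}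
    (ha : ContinuousOn a upperHalfPlaneSet) :
    (energy w a).toReal = ∫ z : ℍ, (w z).toReal * rdens a z := by
  rw [energy_eq_lintegral_ofReal hwtop, integral_eq_lintegral_of_nonneg_ae
    (Eventually.of_forall fun z => mul_nonneg ENNReal.toReal_nonneg (rdens_nonneg a z))
    (aestronglyMeasurable_weight_rdens hw ha)]

theorem rdens_add_mul (a b : ℂ → ℂ) (t : ℝ) (z : ℍ) :
    rdens (fun x => a x + (t : ℂ) * b x) z
      = rdens a z + 2 * t * crossDens a b z + t ^ 2 * rdens b z := by
  unfold rdens crossDens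
  have h := Complex.normSq_add (a ↑z) ((t : ℂ) * b ↑z)
  rw [Complex.normSq_eq_norm_sq, Complex.normSq_eq_norm_sq, Complex.normSq_eq_norm_sq] at h
  have h2 : (a ↑z * (starRingEnd ℂ) ((t : ℂ) * b ↑z)).re
      = t * (a ↑z * (starRingEnd ℂ) (b ↑z)).re := by
    rw [map_mul, Complex.conj_ofReal,
      show a ↑z * ((t : ℂ) * (starRingEnd ℂ) (b ↑z)) = (t : ℂ) * (a ↑z * (starRingEnd ℂ) (b ↑z))
        by ring, Complex.re_ofReal_mul]
  have h3 : ‖(t : ℂ) * b ↑z‖ ^ 2 = t ^ 2 * ‖b ↑z‖ ^ 2 := by
    rw [norm_mul, Complex.norm_real, mul_pow, Real.norm_eq_abs, sq_abs]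
  beta_reduce
  rw [h, h2, h3]; ring

theorem continuous_crossDens {a g : ℂ → ℂ} (ha : ContinuousOn a upperHalfPlaneSet)
    (hg : ContinuousOn g upperHalfPlaneSet) : Continuous (crossDens a g) := by
  unfold crossDens
  exact (continuous_im.pow 2).mul (Complex.continuous_re.comp
    ((continuous_comp_coe ha).mul (Complex.continuous_conj.comp (continuous_comp_coe hg))))

theorem abs_crossDens_le (a b : ℂ → ℂ) (z : ℍ) :
    |crossDens a b z| ≤ rdens a z + rdens b z := by
  unfold crossDens rdens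
  have h1 : |(a ↑z * (starRingEnd ℂ) (b ↑z)).re| ≤ ‖a ↑z‖ * ‖b ↑z‖ := by
    refine (Complex.abs_re_le_norm _).trans ?_
    rw [norm_mul, RCLike.norm_conj]
  have h2 : ‖a ↑z‖ * ‖b ↑z‖ ≤ ‖a ↑z‖ ^ 2 + ‖b ↑z‖ ^ 2 := by
    nlinarith [sq_nonneg (‖a ↑z‖ - ‖b ↑z‖), sq_nonneg (‖a ↑z‖), sq_nonneg (‖b ↑z‖)]
  rw [abs_mul, abs_of_nonneg (sq_nonneg _)]
  have h3 : 0 ≤ z.im ^ 2 := sq_nonneg _
  calc z.im ^ 2 * |(a ↑z * (starRingEnd ℂ) (b ↑z)).re|
      ≤ z.im ^ 2 * (‖a ↑z‖ ^ 2 + ‖b ↑z‖ ^ 2) := mul_le_mul_of_nonneg_left (h1.trans h2) h3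
    _ = ‖a ↑z‖ ^ 2 * z.im ^ 2 + ‖b ↑z‖ ^ 2 * z.im ^ 2 := by ring

theorem integrable_weight_crossDens (hw : Measurable w) (hwtop : ∀ z, w z ≠ ⊤) {a b : ℂ → ℂ}
    (ha : ContinuousOn a upperHalfPlaneSet) (hb : ContinuousOn b upperHalfPlaneSet)
    (hEa : energy w a < ⊤) (hEb : energy w b < ⊤) :
    Integrable (fun z : ℍ => (w z).toReal * crossDens a b z) := by
  have hIa := integrable_weight_rdens hw hwtop ha hEa
  have hIb := integrable_weight_rdens hw hwtop hb hEb
  refine Integrable.mono' (hIa.add hIb)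
    (hw.ennreal_toReal.mul (continuous_crossDens ha hb).measurable).aestronglyMeasurable
    (Eventually.of_forall fun z => ?_)
  rw [Real.norm_eq_abs, abs_mul, abs_of_nonneg ENNReal.toReal_nonneg]
  have := mul_le_mul_of_nonneg_left (abs_crossDens_le a b z)
    (ENNReal.toReal_nonneg (a := w z))
  simp only [Pi.add_apply]
  linarith

/-- Quadratic expansion of the energy along a line. -/
theorem energy_expand (hw : Measurable w) (hwtop : ∀ z, w z ≠ ⊤) {a b : ℂ → ℂ}
    (ha : ContinuousOn a upperHalfPlaneSet) (hb : ContinuousOn b upperHalfPlaneSet)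
    (hEa : energy w a < ⊤) (hEb : energy w b < ⊤) (t : ℝ) :
    energy w (fun x => a x + (t : ℂ) * b x) < ⊤ ∧
    (energy w (fun x => a x + (t : ℂ) * b x)).toReal
      = (energy w a).toReal + 2 * t * (∫ z : ℍ, (w z).toReal * crossDens a b z)
        + t ^ 2 * (energy w b).toReal := by
  have hIa := integrable_weight_rdens hw hwtop ha hEa
  have hIb := integrable_weight_rdens hw hwtop hb hEb
  have hIc := integrable_weight_crossDens hw hwtop ha hb hEa hEb
  have hcont : ContinuousOn (fun x => a x + (t : ℂ) * b x) upperHalfPlaneSet :=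
    ha.add (continuousOn_const.mul hb)
  have hpoint : ∀ z : ℍ, (w z).toReal * rdens (fun x => a x + (t : ℂ) * b x) z
      = ((w z).toReal * rdens a z + (2 * t) * ((w z).toReal * crossDens a b z))
          + t ^ 2 * ((w z).toReal * rdens b z) := by
    intro z; rw [rdens_add_mul]; ring
  have hI12 : Integrable (fun z : ℍ => (w z).toReal * rdens a z
      + (2 * t) * ((w z).toReal * crossDens a b z)) := hIa.add (hIc.const_mul (2 * t))
  have hI4 : Integrable (fun z : ℍ => t ^ 2 * ((w z).toReal * rdens b z)) := hIb.const_mul (t ^ 2)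
  have hI3 : Integrable (fun z : ℍ => ((w z).toReal * rdens a z
      + (2 * t) * ((w z).toReal * crossDens a b z)) + t ^ 2 * ((w z).toReal * rdens b z)) :=
    hI12.add hI4
  constructor
  · rw [energy_eq_lintegral_ofReal hwtop]
    simp only [hpoint]
    exact hI3.lintegral_lt_top
  · rw [energy_toReal hw hwtop hcont, energy_toReal hw hwtop ha, energy_toReal hw hwtop hb]
    simp only [hpoint]
    rw [integral_add hI12 hI4, integral_add hIa (hIc.const_mul (2 * t)), integral_const_mul,
      integral_const_mul]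

/-! ### Unfolding of the cross term -/

theorem continuous_gradR {B : ℂ → ℝ} (hB : ContDiff ℝ 1 B) : Continuous (gradR B) := by
  have h1 : Continuous (fderiv ℝ B) := hB.continuous_fderiv one_ne_zero
  unfold gradR
  exact (Complex.continuous_ofReal.comp (h1.clm_apply continuous_const)).sub
    (continuous_const.mul (Complex.continuous_ofReal.comp (h1.clm_apply continuous_const)))

theorem gradR_eq_zero_of_notMem {B : ℂ → ℝ} {z : ℂ} (hz : z ∉ tsupport B) : gradR B z = 0 := by
  unfold gradR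
  rw [fderiv_of_notMem_tsupport ℝ hz]
  simp

/-- Unfolding: the weighted cross term against `avg N B` is the Dirichlet pairing with `B`. -/
theorem integral_cross_eq_dirichlet (hw : Measurable w)
    (hsum : ∀ z : ℍ, ∑' γ : Gamma0 N, w ((γ : SL(2, ℤ)) • z) = 1) {u : ℍ → ℝ}
    (hu : IsPot N φ u) {B : ℂ → ℝ} (hB : ContDiff ℝ 1 B) (hBc : HasCompactSupport B)
    (hBs : tsupport B ⊆ upperHalfPlaneSet) :
    ∫ z : ℍ, (w z).toReal * crossDens (gradC u) (gradC (avg N B)) z
      = helper1527.dirichletPairing u B := by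
  set f : ℍ → ℝ := crossDens (gradC u) (gradR B) with hf
  have hfc : Continuous f :=
    continuous_crossDens hu.continuousOn_gradC (continuous_gradR hB).continuousOn
  have hfs : HasCompactSupport f := by
    refine HasCompactSupport.intro (isCompact_coe_preimage hBc hBs) fun τ hτ => ?_
    have : gradR B ↑τ = 0 := gradR_eq_zero_of_notMem hτ
    simp only [hf, crossDens, this, map_zero, mul_zero, Complex.zero_re]
  have hfi : Integrable f := hfc.integrable_of_hasCompactSupport hfs
  have h1 := helper1765.integral_unfold_modular (Gamma0 N) hw hsum hfi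
  have h2 : (fun z : ℍ => (w z).toReal • ∑' γ : Gamma0 N, f (γ • z))
      = fun z : ℍ => (w z).toReal * crossDens (gradC u) (gradC (avg N B)) z := by
    funext z
    rw [smul_eq_mul]
    congr 1
    exact tsum_crossDens N hB hBc hBs (fun γ z => hu.gradC_smul γ z) z
  rw [h2] at h1
  rw [← h1]
  have h3 := helper1765.integral_hyp_eq
    (fun z : ℂ => z.im ^ 2 * (gradC u z * starRingEnd ℂ (gradR B z)).re)
  have h4 : (∫ z : ℍ, f z)
      = ∫ z : ℍ, (fun z : ℂ => z.im ^ 2 * (gradC u z * starRingEnd ℂ (gradR B z)).re) ↑z := rfl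
  rw [h4, h3]
  have hmeas : MeasurableSet {z : ℂ | 0 < z.im} :=
    measurableSet_lt measurable_const Complex.measurable_im
  have h5 : ∫ z : ℂ in {z : ℂ | 0 < z.im},
        (1 / z.im ^ 2) • (z.im ^ 2 * (gradC u z * starRingEnd ℂ (gradR B z)).re)
      = ∫ z : ℂ in {z : ℂ | 0 < z.im}, (gradC u z * starRingEnd ℂ (gradR B z)).re := by
    refine setIntegral_congr_fun hmeas fun z hz => ?_
    have hz' : z.im ≠ 0 := ne_of_gt hz
    simp only [smul_eq_mul]
    field_simp
  rw [h5, setIntegral_eq_integral_of_forall_compl_eq_zero]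
  · unfold helper1527.dirichletPairing
    refine integral_congr_ae (Eventually.of_forall fun z => ?_)
    simp only [gradC, gradR, map_sub, map_mul, Complex.conj_ofReal, Complex.conj_I, Complex.mul_re,
      Complex.sub_re, Complex.sub_im, Complex.ofReal_re, Complex.ofReal_im, Complex.I_re,
      Complex.I_im, Complex.mul_im, Complex.neg_re, Complex.neg_im]
    ring
  · intro z hz
    have hz' : z ∉ tsupport B := fun h => hz (hBs h)
    rw [gradR_eq_zero_of_notMem hz']
    simp

/-! ### The Dirichlet principle -/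

/-- (VAR) -/
theorem stmtVAR (N : ℕ) : StmtVAR N := by
  intro φ u₀ hu₀ hcert
  obtain ⟨w, hw, hsum⟩ := helper1765.exists_weight (Gamma0 N)
  have hwtop : ∀ z, w z ≠ ⊤ := helper1765.weight_ne_top (Γ := Gamma0 N) hsum
  have hE₀ := energy_lt_top_of_cert hw hsum hu₀ hcert
  set I : ℝ≥0∞ := ⨅ u : {u : ℍ → ℝ // IsPot N φ u}, energy w (gradC u.1) with hI
  have hIle : ∀ u, IsPot N φ u → I ≤ energy w (gradC u) :=
    fun u hu => iInf_le_of_le ⟨u, hu⟩ le_rfl
  have hItop : I < ⊤ := lt_of_le_of_lt (hIle u₀ hu₀) hE₀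
  have hex : ∀ n : ℕ, ∃ u : ℍ → ℝ, IsPot N φ u ∧ energy w (gradC u) < I + ((n : ℝ≥0∞) + 1)⁻¹ := by
    intro n
    have hlt : I < I + ((n : ℝ≥0∞) + 1)⁻¹ := ENNReal.lt_add_right hItop.ne (by simp)
    obtain ⟨⟨u, hu⟩, hlt'⟩ := iInf_lt_iff.mp hlt
    exact ⟨u, hu, hlt'⟩
  choose u hu hEu using hex
  have hEfin : ∀ n, energy w (gradC (u n)) < ⊤ := fun n =>
    lt_of_lt_of_le (hEu n) (le_of_lt (ENNReal.add_lt_top.mpr ⟨hItop, by simp⟩))
  have hcontg : ∀ n, ContinuousOn (gradC (u n)) upperHalfPlaneSet := fun n =>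
    (hu n).continuousOn_gradC
  have hW2 : ∀ n, IsW2 N (gradC (u n)) := fun n γ z => (hu n).gradC_smul γ z
  refine ⟨u, hu, ?_, ?_, ?_⟩
  · -- `L²_loc`-Cauchy
    intro K hK hKU
    obtain ⟨M, hM⟩ := exists_local_bound N hK hKU
    have hdiff : ∀ n m, energy w (fun x => gradC (u n) x - gradC (u m) x)
        ≤ 2 * ((n : ℝ≥0∞) + 1)⁻¹ + 2 * ((m : ℝ≥0∞) + 1)⁻¹ := by
      intro n m
      have hpar := energy_parallelogram hw (hcontg n) (hcontg m)
      have hadd := energy_add_eq hw (hcontg n) (hcontg m)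
      have hmid := (hu n).midpoint (hu m)
      have hmidE : energy w (gradC (fun x => (1 / 2 : ℝ) * u n x + (1 / 2 : ℝ) * u m x))
          = energy w (fun x => (1 / 2 : ℂ) * gradC (u n) x + (1 / 2 : ℂ) * gradC (u m) x) := by
        refine energy_congr w fun z => ?_
        rw [gradC_lincomb ((hu n).differentiableAt z) ((hu m).differentiableAt z)]
        push_cast; ring
      have hImid := hIle _ hmid
      rw [hmidE] at hImid
      have h4I : 4 * I ≠ ⊤ := ENNReal.mul_ne_top (by norm_num) hItop.ne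
      have hchain : energy w (fun x => gradC (u n) x - gradC (u m) x) + 4 * I
          ≤ (2 * ((n : ℝ≥0∞) + 1)⁻¹ + 2 * ((m : ℝ≥0∞) + 1)⁻¹) + 4 * I := by
        calc energy w (fun x => gradC (u n) x - gradC (u m) x) + 4 * I
            ≤ energy w (fun x => gradC (u n) x - gradC (u m) x)
                + energy w (fun x => gradC (u n) x + gradC (u m) x) := by
              rw [hadd]; gcongr
          _ = 2 * energy w (gradC (u n)) + 2 * energy w (gradC (u m)) := hpar
          _ ≤ 2 * (I + ((n : ℝ≥0∞) + 1)⁻¹) + 2 * (I + ((m : ℝ≥0∞) + 1)⁻¹) := by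
              gcongr
              · exact (hEu n).le
              · exact (hEu m).le
          _ = (2 * ((n : ℝ≥0∞) + 1)⁻¹ + 2 * ((m : ℝ≥0∞) + 1)⁻¹) + 4 * I := by ring
      exact (ENNReal.add_le_add_iff_right h4I).mp hchain
    have hε : Tendsto (fun n : ℕ => ((n : ℝ≥0∞) + 1)⁻¹) atTop (𝓝 0) := by
      have := ENNReal.tendsto_inv_nat_nhds_zero.comp (tendsto_add_atTop_nat 1)
      refine this.congr fun n => ?_
      simp
    have h1 : Tendsto (fun p : ℕ × ℕ => ((p.1 : ℝ≥0∞) + 1)⁻¹) atTop (𝓝 0) :=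
      hε.comp (by rw [← prod_atTop_atTop_eq]; exact tendsto_fst)
    have h2 : Tendsto (fun p : ℕ × ℕ => ((p.2 : ℝ≥0∞) + 1)⁻¹) atTop (𝓝 0) :=
      hε.comp (by rw [← prod_atTop_atTop_eq]; exact tendsto_snd)
    have hbound : Tendsto (fun p : ℕ × ℕ => (M : ℝ≥0∞)
        * (2 * ((p.1 : ℝ≥0∞) + 1)⁻¹ + 2 * ((p.2 : ℝ≥0∞) + 1)⁻¹)) atTop (𝓝 0) := by
      have h3 := ENNReal.Tendsto.const_mul
        ((ENNReal.Tendsto.const_mul h1 (Or.inr (by norm_num : (2 : ℝ≥0∞) ≠ ⊤))).add
          (ENNReal.Tendsto.const_mul h2 (Or.inr (by norm_num : (2 : ℝ≥0∞) ≠ ⊤))))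
        (Or.inr (ENNReal.natCast_ne_top M))
      simpa using h3
    refine tendsto_of_tendsto_of_tendsto_of_le_of_le tendsto_const_nhds hbound
      (fun p => by simp) (fun p => ?_)
    calc ∫⁻ z in K, ‖gradC (u p.1) z - gradC (u p.2) z‖ₑ ^ 2
        ≤ M * energy w (fun x => gradC (u p.1) x - gradC (u p.2) x) :=
          hM w hw hsum _ ((hcontg p.1).sub (hcontg p.2)) ((hW2 p.1).sub (hW2 p.2))
      _ ≤ M * (2 * ((p.1 : ℝ≥0∞) + 1)⁻¹ + 2 * ((p.2 : ℝ≥0∞) + 1)⁻¹) := by
          gcongr; exact hdiff p.1 p.2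
  · -- asymptotic weak holomorphy
    refine helper1527.asympWeakHol_of_dirichletPairing u (fun n => (hu n).contDiffOn)
      fun B hB hBc hBs => ?_
    have hB1 : ContDiff ℝ 1 B := hB.of_le (by exact_mod_cast le_top)
    have hv := isPot_avg N hB1 hBc hBs
    have hEv := energy_avg_lt_top N hw hsum hB1 hBc hBs
    set Ev : ℝ := (energy w (gradC (avg N B))).toReal with hEvdef
    have hquad : ∀ (n : ℕ) (t : ℝ),
        0 ≤ Ev * (t * t) + (2 * helper1527.dirichletPairing (u n) B) * t + 1 / ((n : ℝ) + 1) := by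
      intro n t
      have hpot := (hu n).add_mul hv t
      have hcongr : energy w (gradC (fun x => (1 : ℝ) * u n x + t * avg N B x))
          = energy w (fun x => gradC (u n) x + (t : ℂ) * gradC (avg N B) x) := by
        refine energy_congr w fun z => ?_
        rw [gradC_lincomb ((hu n).differentiableAt z) (hv.differentiableAt z)]
        push_cast; ring
      obtain ⟨hfin, hexp⟩ := energy_expand hw hwtop (hcontg n) hv.continuousOn_gradC (hEfin n) hEv t
      rw [integral_cross_eq_dirichlet hw hsum (hu n) hB1 hBc hBs] at hexp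
      have hI1 : I.toReal ≤ (energy w (fun x => gradC (u n) x + (t : ℂ) * gradC (avg N B) x)).toReal := by
        refine ENNReal.toReal_mono hfin.ne ?_
        rw [← hcongr]; exact hIle _ hpot
      have hI2 : (energy w (gradC (u n))).toReal ≤ I.toReal + 1 / ((n : ℝ) + 1) := by
        have h1 : (energy w (gradC (u n))).toReal ≤ (I + ((n : ℝ≥0∞) + 1)⁻¹).toReal :=
          ENNReal.toReal_mono (ENNReal.add_lt_top.mpr ⟨hItop, by simp⟩).ne (hEu n).le
        rw [ENNReal.toReal_add hItop.ne (by simp)] at h1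
        have h2 : (((n : ℝ≥0∞) + 1)⁻¹).toReal = 1 / ((n : ℝ) + 1) := by
          rw [ENNReal.toReal_inv, ENNReal.toReal_add (by simp) (by simp)]
          simp
        rw [h2] at h1
        exact h1
      rw [hexp] at hI1
      nlinarith
    have hsq : ∀ n : ℕ, (helper1527.dirichletPairing (u n) B) ^ 2 ≤ Ev * (1 / ((n : ℝ) + 1)) := by
      intro n
      have hd := discrim_le_zero (hquad n)
      unfold discrim at hd
      nlinarith
    have hlim : Tendsto (fun n : ℕ => Ev * (1 / ((n : ℝ) + 1))) atTop (𝓝 0) := by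
      have := (tendsto_one_div_add_atTop_nhds_zero_nat (𝕜 := ℝ)).const_mul Ev
      simpa using this
    have hsqlim : Tendsto (fun n : ℕ => (helper1527.dirichletPairing (u n) B) ^ 2) atTop (𝓝 0) :=
      squeeze_zero (fun n => sq_nonneg _) hsq hlim
    have habs : Tendsto (fun n : ℕ => |helper1527.dirichletPairing (u n) B|) atTop (𝓝 0) := by
      have := (Real.continuous_sqrt.tendsto 0).comp hsqlim
      simp only [Real.sqrt_zero] at this
      refine this.congr fun n => ?_
      simp [Real.sqrt_sq_eq_abs]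
    exact (tendsto_zero_iff_abs_tendsto_zero _).mpr habs
  · -- strip bound
    obtain ⟨M, hM⟩ := exists_strip_bound N
    refine ⟨M * (I + 1), ENNReal.mul_lt_top (ENNReal.natCast_lt_top M)
      (ENNReal.add_lt_top.mpr ⟨hItop, ENNReal.one_lt_top⟩), fun n σ => ?_⟩
    calc ∫⁻ z in cuspStrip N, ‖gradC (u n) ↑(σ • z)‖ₑ ^ 2 * ENNReal.ofReal ((σ • z).im ^ 2)
        ≤ M * energy w (gradC (u n)) := hM w hw hsum _ (hcontg n) (hW2 n) σ
      _ ≤ M * (I + 1) := by
          gcongr
          refine (hEu n).le.trans ?_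
          gcongr
          rw [ENNReal.inv_le_one]
          exact le_add_self

end

end Fermat.Agent.S21.helper801
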