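/-
helper8454: S21 Route 2, leaf POT (core): a smooth potential with prescribed real parabolic
periods which is constant near every cusp.
-/
import Mathlib
import Fermat.Prelude.Def_ModularCurve_PeriodHomPair

set_option autoImplicit false

namespace Fermat.Agent.S21.helper8454

open UpperHalfPlane CongruenceSubgroup ModularCurve ModularCurve.Period Filter Topology
open scoped MatrixGroups ContDiff

noncomputable section

/-! ### The weight function -/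

/-- A smooth nonnegative function on `ℂ`, positive exactly on `|re| < 1`, `im > 1/2`. -/
def Wc (z : ℂ) : ℝ :=
  Real.smoothTransition (z.re + 1) * Real.smoothTransition (1 - z.re)
    * Real.smoothTransition (z.im - 1 / 2)

theorem Wc_nonneg (z : ℂ) : 0 ≤ Wc z :=
  mul_nonneg (mul_nonneg (Real.smoothTransition.nonneg _) (Real.smoothTransition.nonneg _))
    (Real.smoothTransition.nonneg _)

theorem Wc_contDiff : ContDiff ℝ ∞ Wc := by
  unfold Wc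
  have h1 : ContDiff ℝ ∞ (fun z : ℂ => z.re) := Complex.reCLM.contDiff
  have h2 : ContDiff ℝ ∞ (fun z : ℂ => z.im) := Complex.imCLM.contDiff
  exact ((Real.smoothTransition.contDiff.comp (h1.add contDiff_const)).mul
    (Real.smoothTransition.contDiff.comp (contDiff_const.sub h1))).mul
    (Real.smoothTransition.contDiff.comp (h2.sub contDiff_const))

theorem Wc_ne_zero_iff (z : ℂ) : Wc z ≠ 0 ↔ (-1 < z.re ∧ z.re < 1 ∧ 1 / 2 < z.im) := by
  unfold Wc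
  rw [mul_ne_zero_iff, mul_ne_zero_iff, Ne, Ne, Ne, Real.smoothTransition.zero_iff_nonpos,
    Real.smoothTransition.zero_iff_nonpos, Real.smoothTransition.zero_iff_nonpos]
  constructor
  · rintro ⟨⟨h1, h2⟩, h3⟩
    exact ⟨by linarith, by linarith, by linarith⟩
  · rintro ⟨h1, h2, h3⟩
    exact ⟨⟨by linarith, by linarith⟩, by linarith⟩

theorem Wc_pos_iff (z : ℂ) : 0 < Wc z ↔ (-1 < z.re ∧ z.re < 1 ∧ 1 / 2 < z.im) := by
  rw [← Wc_ne_zero_iff]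
  exact ⟨fun h => h.ne', fun h => lt_of_le_of_ne (Wc_nonneg z) (Ne.symm h)⟩

/-! ### Finiteness -/

theorem finite_smul_inter {K L : Set ℍ} (hK : IsCompact K) (hL : IsCompact L) :
    {g : SL(2, ℤ) | ∃ z ∈ K, g • z ∈ L}.Finite := by
  have h := properlyDiscontinuousSL2ZRange
  rw [Subgroup.properlyDiscontinuousSMul_iff] at h
  have h2 := h hK hL
  refine (h2.preimage (f := fun g : SL(2, ℤ) => Matrix.SpecialLinearGroup.mapGL ℝ g) ?_).subset ?_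
  · exact fun a _ b _ hab => Matrix.SpecialLinearGroup.mapGL_injective hab
  · rintro g ⟨z, hz, hgz⟩
    refine ⟨⟨g, rfl⟩, g • z, ⟨z, hz, rfl⟩, hgz⟩

/-! ### Imaginary parts -/

theorem im_smul_mul_im_le (g : SL(2, ℤ)) (z : ℍ) (hc : g 1 0 ≠ 0) : (g • z).im * z.im ≤ 1 := by
  rw [ModularGroup.im_smul_eq_div_normSq]
  have hden : Complex.normSq (denom g z)
      = ((g 1 0 : ℝ) * z.re + (g 1 1 : ℝ)) ^ 2 + ((g 1 0 : ℝ) * z.im) ^ 2 := by
    rw [ModularGroup.denom_apply]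
    simp [Complex.normSq_apply]
    ring
  have hc1 : (1 : ℝ) ≤ (g 1 0 : ℝ) ^ 2 := by
    have h1 : (1 : ℤ) ≤ (g 1 0) ^ 2 := by
      have := Int.one_le_abs hc
      nlinarith [sq_abs (g 1 0)]
    exact_mod_cast h1
  have hy := z.im_pos
  have hpos : 0 < Complex.normSq (denom g z) := by
    rw [hden]
    nlinarith [sq_nonneg ((g 1 0 : ℝ) * z.re + (g 1 1 : ℝ)), mul_pos hy hy]
  rw [div_mul_eq_mul_div, div_le_one hpos, hden]
  nlinarith [sq_nonneg ((g 1 0 : ℝ) * z.re + (g 1 1 : ℝ)), mul_pos hy hy]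

theorem im_smul_of_c_eq_zero (g : SL(2, ℤ)) (z : ℍ) (hc : g 1 0 = 0) : (g • z).im = z.im := by
  obtain ⟨n, hn⟩ := ModularGroup.exists_eq_T_zpow_of_c_eq_zero hc
  rw [hn z, UpperHalfPlane.modular_T_zpow_smul]
  simp

theorem im_smul_le_max (g : SL(2, ℤ)) (z : ℍ) : (g • z).im ≤ max z.im (1 / z.im) := by
  by_cases hc : g 1 0 = 0
  · rw [im_smul_of_c_eq_zero g z hc]; exact le_max_left _ _
  · refine le_trans ?_ (le_max_right _ _)
    rw [le_div_iff₀ z.im_pos]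
    exact im_smul_mul_im_le g z hc

/-! ### Local finiteness -/

theorem exists_nhds_finite (z₀ : ℍ) :
    ∃ U ∈ 𝓝 z₀, {g : SL(2, ℤ) | ∃ z ∈ U, Wc ↑(g • z) ≠ 0}.Finite := by
  obtain ⟨K, hK, hKz⟩ := exists_compact_mem_nhds z₀
  refine ⟨K, hKz, ?_⟩
  obtain ⟨A, B, hB, hKAB⟩ := subset_verticalStrip_of_isCompact hK
  obtain ⟨M, hM⟩ : ∃ M, ∀ z ∈ K, z.im ≤ M := by
    obtain ⟨M, hM⟩ := hK.bddAbove_image UpperHalfPlane.continuous_im.continuousOn
    exact ⟨M, fun z hz => hM ⟨z, hz, rfl⟩⟩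
  set Y := max M (1 / B) with hY
  let L : Set ℍ := UpperHalfPlane.coe ⁻¹' (Set.Icc (-1) 1 ×ℂ Set.Icc (1 / 2) Y)
  have hL : IsCompact L := by
    refine isEmbedding_coe.isInducing.isCompact_preimage' (isCompact_Icc.reProdIm isCompact_Icc) ?_
    intro w hw
    rw [range_coe]
    have h2 : (1 / 2 : ℝ) ≤ w.im := hw.2.1
    show 0 < w.im
    linarith
  refine (finite_smul_inter hK hL).subset ?_
  rintro g ⟨z, hz, hne⟩
  refine ⟨z, hz, ?_⟩
  rw [Wc_ne_zero_iff] at hne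
  obtain ⟨h1, h2, h3⟩ := hne
  have hzB : B ≤ z.im := (hKAB hz).2
  have hbound : (g • z).im ≤ Y := by
    refine (im_smul_le_max g z).trans (max_le_max (hM z hz) ?_)
    exact one_div_le_one_div_of_le hB hzB
  exact ⟨⟨h1.le, h2.le⟩, ⟨h3.le, hbound⟩⟩

theorem finite_support_Wc (z : ℍ) : {g : SL(2, ℤ) | Wc ↑(g • z) ≠ 0}.Finite := by
  obtain ⟨U, hU, hfin⟩ := exists_nhds_finite z
  exact hfin.subset fun g hg => ⟨z, mem_of_mem_nhds hU, hg⟩

/-! ### Upper triangular elements of `SL(2,ℤ)` -/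

theorem c_mul {p q : SL(2, ℤ)} (hp : p 1 0 = 0) (hq : q 1 0 = 0) : (p * q) 1 0 = 0 := by
  rw [Matrix.SpecialLinearGroup.coe_mul, Matrix.mul_apply, Fin.sum_univ_two, hp, hq]
  simp

theorem c_inv {p : SL(2, ℤ)} (hp : p 1 0 = 0) : (p⁻¹) 1 0 = 0 := by
  rw [Matrix.SpecialLinearGroup.coe_inv, Matrix.adjugate_fin_two]
  simp [hp]

theorem trace_sq_of_c {q : SL(2, ℤ)} (hq : q 1 0 = 0) :
    (q : Matrix (Fin 2) (Fin 2) ℤ).trace ^ 2 = 4 := by
  have hdet := q.det_coe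
  rw [Matrix.det_fin_two, hq, mul_zero, sub_zero] at hdet
  rw [Matrix.trace_fin_two]
  rcases Int.eq_one_or_neg_one_of_mul_eq_one' hdet with ⟨h1, h2⟩ | ⟨h1, h2⟩ <;>
    rw [h1, h2] <;> norm_num

theorem trace_conj (r q : SL(2, ℤ)) :
    ((r * q * r⁻¹ : SL(2, ℤ)) : Matrix (Fin 2) (Fin 2) ℤ).trace
      = (q : Matrix (Fin 2) (Fin 2) ℤ).trace := by
  rw [Matrix.SpecialLinearGroup.coe_mul, Matrix.trace_mul_comm,
    ← Matrix.SpecialLinearGroup.coe_mul, inv_mul_cancel_left]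

/-! ### The function `f0` on `SL(2,ℤ)` -/

/-- The double coset relation for `Γ₀(N) \ SL(2,ℤ) / P`, `P` the upper triangular subgroup. -/
def dcRel (N : ℕ) (g g' : SL(2, ℤ)) : Prop :=
  ∃ γ : Gamma0 N, ∃ p : SL(2, ℤ), p 1 0 = 0 ∧ g' = (γ : SL(2, ℤ)) * g * p

theorem dcRel_refl (N : ℕ) (g : SL(2, ℤ)) : dcRel N g g :=
  ⟨1, 1, by simp, by simp⟩

theorem dcRel_symm {N : ℕ} {g g' : SL(2, ℤ)} (h : dcRel N g g') : dcRel N g' g := by
  obtain ⟨γ, p, hp, rfl⟩ := h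
  exact ⟨γ⁻¹, p⁻¹, c_inv hp, by simp [mul_assoc]⟩

theorem dcRel_trans {N : ℕ} {g g' g'' : SL(2, ℤ)} (h : dcRel N g g') (h' : dcRel N g' g'') :
    dcRel N g g'' := by
  obtain ⟨γ, p, hp, rfl⟩ := h
  obtain ⟨γ', p', hp', rfl⟩ := h'
  exact ⟨γ' * γ, p * p', c_mul hp hp', by simp [mul_assoc]⟩

/-- The double coset setoid. -/
def dcSetoid (N : ℕ) : Setoid SL(2, ℤ) :=
  ⟨dcRel N, dcRel_refl N, dcRel_symm, dcRel_trans⟩

/-- A chosen representative of the double coset of `g`. -/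
def rep (N : ℕ) (g : SL(2, ℤ)) : SL(2, ℤ) := (Quotient.mk (dcSetoid N) g).out

theorem rep_rel (N : ℕ) (g : SL(2, ℤ)) : dcRel N (rep N g) g :=
  Quotient.exact (Quotient.out_eq (Quotient.mk (dcSetoid N) g))

theorem rep_eq {N : ℕ} {g g' : SL(2, ℤ)} (h : dcRel N g g') : rep N g = rep N g' := by
  unfold rep
  rw [Quotient.sound (s := dcSetoid N) h]

/-- `f0 φ g = φ γ` if `g = γ * rep g * p`. -/
def f0 {N : ℕ} (φ : Additive (Gamma0 N) →+ ℝ) (g : SL(2, ℤ)) : ℝ :=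
  φ (Additive.ofMul (rep_rel N g).choose)

variable {N : ℕ} {φ : Additive (Gamma0 N) →+ ℝ}

theorem f0_eq (hφ : φ ∈ parabolicHoms ℝ (Gamma0 N) ℝ)
    (g : SL(2, ℤ)) (γ : Gamma0 N) (p : SL(2, ℤ)) (hp : p 1 0 = 0)
    (h : g = (γ : SL(2, ℤ)) * rep N g * p) : f0 φ g = φ (Additive.ofMul γ) := by
  obtain ⟨p₀, hp₀, h₀⟩ := (rep_rel N g).choose_spec
  set γ₀ := (rep_rel N g).choose with hγ₀
  set r := rep N g with hr
  have key : ((γ⁻¹ * γ₀ : Gamma0 N) : SL(2, ℤ)) = r * (p * p₀⁻¹) * r⁻¹ := by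
    have h3 : (γ₀ : SL(2, ℤ)) * r * p₀ = (γ : SL(2, ℤ)) * r * p := h₀.symm.trans h
    have h4 : (γ₀ : SL(2, ℤ)) = (γ : SL(2, ℤ)) * r * p * p₀⁻¹ * r⁻¹ := by
      rw [← h3]; group
    push_cast
    rw [h4]; group
  have htr : (((γ⁻¹ * γ₀ : Gamma0 N) : SL(2, ℤ)) : Matrix (Fin 2) (Fin 2) ℤ).trace ^ 2 = 4 := by
    rw [key, trace_conj]
    exact trace_sq_of_c (c_mul hp (c_inv hp₀))
  have h0 : φ (Additive.ofMul (γ⁻¹ * γ₀)) = 0 := (mem_parabolicHoms_iff.mp hφ) _ htr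
  have h1 : φ (Additive.ofMul (γ⁻¹ * γ₀))
      = - φ (Additive.ofMul γ) + φ (Additive.ofMul γ₀) := by
    rw [ofMul_mul, map_add, ofMul_inv, map_neg]
  show φ (Additive.ofMul γ₀) = _
  linarith

theorem f0_mul_left (hφ : φ ∈ parabolicHoms ℝ (Gamma0 N) ℝ) (γ : Gamma0 N) (g : SL(2, ℤ)) :
    f0 φ ((γ : SL(2, ℤ)) * g) = φ (Additive.ofMul γ) + f0 φ g := by
  obtain ⟨γ₀, p₀, hp₀, h₀⟩ := rep_rel N g
  have hrep : rep N ((γ : SL(2, ℤ)) * g) = rep N g :=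
    (rep_eq ⟨γ, 1, by simp, by simp⟩).symm
  have h1 : f0 φ g = φ (Additive.ofMul γ₀) := f0_eq hφ g γ₀ p₀ hp₀ h₀
  have h2 : f0 φ ((γ : SL(2, ℤ)) * g) = φ (Additive.ofMul (γ * γ₀)) := by
    refine f0_eq hφ _ (γ * γ₀) p₀ hp₀ ?_
    rw [hrep]
    conv_lhs => rw [h₀]
    simp [mul_assoc]
  rw [h2, h1, ofMul_mul, map_add]

theorem f0_mul_right (hφ : φ ∈ parabolicHoms ℝ (Gamma0 N) ℝ) (g p : SL(2, ℤ))
    (hp : p 1 0 = 0) : f0 φ (g * p) = f0 φ g := by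
  obtain ⟨γ₀, p₀, hp₀, h₀⟩ := rep_rel N g
  have hrep : rep N (g * p) = rep N g := (rep_eq ⟨1, p, hp, by simp⟩).symm
  rw [f0_eq hφ g γ₀ p₀ hp₀ h₀]
  refine f0_eq hφ _ γ₀ (p₀ * p) (c_mul hp₀ hp) ?_
  rw [hrep]
  conv_lhs => rw [h₀]
  simp [mul_assoc]

/-! ### The potential -/

/-- Denominator: the `SL(2,ℤ)`-invariant sum of the translates of the weight. -/
def den (z : ℍ) : ℝ := ∑ᶠ g : SL(2, ℤ), Wc ↑(g • z)

/-- Numerator. -/
def num (φ : Additive (Gamma0 N) →+ ℝ) (z : ℍ) : ℝ :=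
  ∑ᶠ g : SL(2, ℤ), Wc ↑(g • z) * f0 φ g⁻¹

/-- The potential. -/
def pot (φ : Additive (Gamma0 N) →+ ℝ) (z : ℍ) : ℝ := num φ z / den z

theorem den_pos (z : ℍ) : 0 < den z := by
  obtain ⟨g₀, hg₀⟩ := ModularGroup.exists_smul_mem_fd z
  refine finsum_pos (fun g => Wc_nonneg _) ⟨g₀, ?_⟩ (finite_support_Wc z)
  rw [Wc_pos_iff]
  obtain ⟨h1, h2⟩ := hg₀
  have h3 := abs_le.mp h2
  have hre : ((g₀ • z : ℍ) : ℂ).re = (g₀ • z).re := rfl
  have him : ((g₀ • z : ℍ) : ℂ).im = (g₀ • z).im := rfl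
  rw [Complex.normSq_apply, hre, him] at h1
  rw [hre, him]
  refine ⟨by linarith, by linarith, ?_⟩
  have hpos := (g₀ • z).im_pos
  nlinarith [abs_le.mp h2]

theorem den_smul (σ : SL(2, ℤ)) (z : ℍ) : den (σ • z) = den z := by
  unfold den
  rw [← finsum_comp_equiv (Equiv.mulRight σ) (f := fun g : SL(2, ℤ) => Wc ↑(g • z))]
  refine finsum_congr fun g => ?_
  rw [Equiv.coe_mulRight, mul_smul]

theorem num_smul (φ : Additive (Gamma0 N) →+ ℝ) (σ : SL(2, ℤ)) (z : ℍ) :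
    num φ (σ • z) = ∑ᶠ g : SL(2, ℤ), Wc ↑(g • z) * f0 φ (σ * g⁻¹) := by
  unfold num
  rw [← finsum_comp_equiv (Equiv.mulRight σ)
    (f := fun g : SL(2, ℤ) => Wc ↑(g • z) * f0 φ (σ * g⁻¹))]
  refine finsum_congr fun g => ?_
  rw [Equiv.coe_mulRight, mul_smul, mul_inv_rev, mul_inv_cancel_left]

theorem pot_smul (hφ : φ ∈ parabolicHoms ℝ (Gamma0 N) ℝ) (γ : Gamma0 N) (z : ℍ) :
    pot φ ((γ : SL(2, ℤ)) • z) = pot φ z + φ (Additive.ofMul γ) := by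
  unfold pot
  rw [den_smul, num_smul]
  have h1 : ∑ᶠ g : SL(2, ℤ), Wc ↑(g • z) * f0 φ ((γ : SL(2, ℤ)) * g⁻¹)
      = φ (Additive.ofMul γ) * den z + num φ z := by
    have h2 : ∀ g : SL(2, ℤ), Wc ↑(g • z) * f0 φ ((γ : SL(2, ℤ)) * g⁻¹)
        = φ (Additive.ofMul γ) * Wc ↑(g • z) + Wc ↑(g • z) * f0 φ g⁻¹ := by
      intro g
      rw [f0_mul_left hφ]
      ring
    rw [finsum_congr h2, finsum_add_distrib, ← mul_finsum]
    · rfl
    · exact (finite_support_Wc z).subset fun g hg => right_ne_zero_of_mul hg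
    · exact (finite_support_Wc z).subset fun g hg => left_ne_zero_of_mul hg
  rw [h1]
  have hd := (den_pos z).ne'
  field_simp
  ring

theorem pot_cusp (hφ : φ ∈ parabolicHoms ℝ (Gamma0 N) ℝ) (σ : SL(2, ℤ)) (z : ℍ)
    (hz : 2 < z.im) : pot φ (σ • z) = f0 φ σ := by
  unfold pot
  rw [den_smul, num_smul]
  have h2 : ∀ g : SL(2, ℤ), Wc ↑(g • z) * f0 φ (σ * g⁻¹) = Wc ↑(g • z) * f0 φ σ := by
    intro g
    by_cases hW : Wc ↑(g • z) = 0
    · rw [hW, zero_mul, zero_mul]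
    · have hc : g 1 0 = 0 := by
        by_contra hc
        have h1 := im_smul_mul_im_le g z hc
        have h3 : 1 / 2 < (g • z).im := ((Wc_ne_zero_iff _).mp hW).2.2
        nlinarith [(g • z).im_pos]
      rw [f0_mul_right hφ σ g⁻¹ (c_inv hc)]
  rw [finsum_congr h2, ← finsum_mul]
  have hd := (den_pos z).ne'
  show den z * f0 φ σ / den z = f0 φ σ
  field_simp

/-! ### Smoothness -/

theorem contDiffAt_smul_comp (g : SL(2, ℤ)) {z₀ : ℂ} (hz₀ : 0 < z₀.im) :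
    ContDiffAt ℝ ∞ (fun z : ℂ => ((g • ofComplex z : ℍ) : ℂ)) z₀ := by
  have hdet : 0 < ((g : GL (Fin 2) ℝ) : Matrix (Fin 2) (Fin 2) ℝ).det := by
    have h1 : ((g : GL (Fin 2) ℝ) : Matrix (Fin 2) (Fin 2) ℝ).det = 1 :=
      (Matrix.SpecialLinearGroup.map (Int.castRingHom ℝ) g).det_coe
    rw [h1]
    exact one_pos
  have h := (analyticAt_smul (g := (g : GL (Fin 2) ℝ)) hdet ⟨z₀, hz₀⟩).contDiffAt (n := ∞)
  exact h.restrict_scalars ℝ

theorem contDiffOn_pot (φ : Additive (Gamma0 N) →+ ℝ) :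
    ContDiffOn ℝ ∞ (pot φ ∘ ofComplex) {z : ℂ | 0 < z.im} := by
  intro z₀ hz₀
  apply ContDiffAt.contDiffWithinAt
  have hz₀' : 0 < z₀.im := hz₀
  obtain ⟨U, hU, hfin⟩ := exists_nhds_finite (ofComplex z₀)
  have hcont : ContinuousAt ofComplex z₀ := (contMDiffAt_ofComplex (n := 0) hz₀').continuousAt
  have hU' : ∀ᶠ z in 𝓝 z₀, ofComplex z ∈ U := hcont.eventually hU
  set s := hfin.toFinset with hs
  have hmem : ∀ (z : ℂ), ofComplex z ∈ U → ∀ g : SL(2, ℤ), Wc ↑(g • ofComplex z) ≠ 0 → g ∈ s := by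
    intro z hz g hg
    rw [hs, Set.Finite.mem_toFinset]
    exact ⟨ofComplex z, hz, hg⟩
  have hnum : (num φ ∘ ofComplex)
      =ᶠ[𝓝 z₀] fun z => ∑ g ∈ s, Wc ↑(g • ofComplex z) * f0 φ g⁻¹ := by
    filter_upwards [hU'] with z hz
    show num φ (ofComplex z) = _
    unfold num
    refine finsum_eq_sum_of_support_subset _ fun g hg => ?_
    exact hmem z hz g (left_ne_zero_of_mul hg)
  have hden : (den ∘ ofComplex) =ᶠ[𝓝 z₀] fun z => ∑ g ∈ s, Wc ↑(g • ofComplex z) := by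
    filter_upwards [hU'] with z hz
    show den (ofComplex z) = _
    unfold den
    refine finsum_eq_sum_of_support_subset _ fun g hg => ?_
    exact hmem z hz g hg
  have hterm : ∀ g : SL(2, ℤ), ContDiffAt ℝ ∞ (fun z : ℂ => Wc ↑(g • ofComplex z)) z₀ :=
    fun g => Wc_contDiff.contDiffAt.comp z₀ (contDiffAt_smul_comp g hz₀')
  have hnum' : ContDiffAt ℝ ∞ (num φ ∘ ofComplex) z₀ := by
    refine ContDiffAt.congr_of_eventuallyEq ?_ hnum
    exact ContDiffAt.sum fun g _ => (hterm g).mul contDiffAt_const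
  have hden' : ContDiffAt ℝ ∞ (den ∘ ofComplex) z₀ := by
    refine ContDiffAt.congr_of_eventuallyEq ?_ hden
    exact ContDiffAt.sum fun g _ => hterm g
  exact hnum'.div hden' (den_pos _).ne'

/-! ### The POT statement -/

/-- (POT) every real parabolic hom of `Γ₀(N)` has a smooth potential on the upper half-plane
which is constant on every horoball `σ • {im > 2}`, `σ ∈ SL(2,ℤ)`.
(This is verbatim the body of `helper4076.Stmt_POT N` and of `helper2385.SpecPOT N`.) -/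
theorem stmt_POT (N : ℕ) :
    ∀ φ : Additive (Gamma0 N) →+ ℝ, φ ∈ parabolicHoms ℝ (Gamma0 N) ℝ →
      ∃ u : ℍ → ℝ,
        (∀ (γ : Gamma0 N) (z : ℍ), u ((γ : SL(2, ℤ)) • z) = u z + φ (Additive.ofMul γ)) ∧
        ContDiffOn ℝ ∞ (u ∘ ofComplex) {z : ℂ | 0 < z.im} ∧
        ∀ σ : SL(2, ℤ), ∃ c : ℝ, ∀ z : ℍ, 2 < z.im → u (σ • z) = c := by
  intro φ hφ
  exact ⟨pot φ, pot_smul hφ, contDiffOn_pot φ, fun σ => ⟨f0 φ σ, fun z hz => pot_cusp hφ σ z hz⟩⟩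

end

end Fermat.Agent.S21.helper8454
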