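import Mathlib

set_option autoImplicit false

namespace Fermat.Agent.S21.helper921

open UpperHalfPlane Complex Function Filter Topology
open scoped MatrixGroups Manifold

/-- Vector-valued maximum modulus principle on the modular curve of level one:
a finite family of periodic holomorphic functions on the upper half plane, bounded at `i∞`,
whose sum of squared norms is `SL(2, ℤ)`-invariant, consists of constant functions. -/
theorem const_of_sum_norm_sq_invariant {ι : Type*} [Fintype ι] {h : ℝ} (hh : 0 < h)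
    (e : ι → ℍ → ℂ)
    (hper : ∀ i, Periodic (e i ∘ ofComplex) h)
    (hhol : ∀ i, MDiff (e i))
    (hbdd : ∀ i, IsBoundedAtImInfty (e i))
    (hinv : ∀ (g : SL(2, ℤ)) (w : ℍ), ∑ i, ‖e i (g • w)‖ ^ 2 = ∑ i, ‖e i w‖ ^ 2)
    (i : ι) (w : ℍ) : e i w = cuspFunction h (e i) 0 := by
  let f : ℂ → EuclideanSpace ℂ ι := fun q => WithLp.toLp 2 (fun i => cuspFunction h (e i) q)
  have hdiff : DifferentiableOn ℂ f (Metric.ball 0 1) := by
    rw [differentiableOn_euclidean]
    intro i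
    exact differentiableOn_cuspFunction_ball hh (hper i) (hhol i) (hbdd i)
  have hnorm : ∀ τ : ℍ, ‖f (Periodic.qParam h τ)‖ ^ 2 = ∑ i, ‖e i τ‖ ^ 2 := by
    intro τ
    rw [EuclideanSpace.norm_sq_eq]
    refine Finset.sum_congr rfl fun i _ => ?_
    simp only [f]
    rw [eq_cuspFunction τ hh.ne' (hper i)]
  have hr_lt : Real.exp (-Real.pi / h) < 1 := by
    rw [Real.exp_lt_one_iff]
    exact div_neg_of_neg_of_pos (neg_lt_zero.mpr Real.pi_pos) hh
  have key := Complex.eq_const_of_exists_le (r := Real.exp (-Real.pi / h)) (b := 1) hdiff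
    (Real.exp_nonneg _) hr_lt (fun q hq => by
      rcases eq_or_ne q 0 with rfl | hq0
      · exact ⟨0, by simp [Real.exp_nonneg], le_rfl⟩
      · have hq1 : ‖q‖ < 1 := by simpa using hq
        set τ : ℍ := ⟨Periodic.invQParam h q, Periodic.im_invQParam_pos_of_norm_lt_one hh hq1 hq0⟩
          with hτ
        have hqτ : Periodic.qParam h (τ : ℂ) = q := Periodic.qParam_right_inv hh.ne' hq0
        obtain ⟨γ, hγ⟩ := ModularGroup.exists_one_half_le_im_smul τ
        refine ⟨Periodic.qParam h ((γ • τ : ℍ) : ℂ), ?_, ?_⟩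
        · rw [Metric.mem_closedBall, dist_zero_right, Periodic.norm_qParam, Real.exp_le_exp]
          rw [div_le_div_iff_of_pos_right hh]
          have : (1 : ℝ) / 2 ≤ ((γ • τ : ℍ) : ℂ).im := hγ
          nlinarith [Real.pi_pos]
        · have h1 := hnorm τ
          have h2 := hnorm (γ • τ)
          rw [hinv γ τ, ← h1, hqτ] at h2
          exact le_of_eq ((sq_eq_sq₀ (norm_nonneg _) (norm_nonneg _)).mp h2.symm))
  have hw : Periodic.qParam h (w : ℂ) ∈ Metric.ball (0 : ℂ) 1 := by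
    simpa using Periodic.norm_qParam_lt_one hh w.im_pos
  have := congrArg (fun v : EuclideanSpace ℂ ι => v.ofLp i) (key hw)
  simp only [f, Function.const] at this
  rw [eq_cuspFunction w hh.ne' (hper i)] at this
  exact this

end Fermat.Agent.S21.helper921

namespace Fermat.Agent.S21.helper921

open UpperHalfPlane Complex Function Filter Topology CongruenceSubgroup
open scoped MatrixGroups Manifold

/-- A holomorphic function on the upper half plane whose real part is `Γ₀(N)`-invariant, all of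
whose `SL(2, ℤ)`-translates are `N`-periodic and have a limit at `i∞`, has constant
exponential. -/
theorem exp_const_of_re_invariant {N : ℕ} [NeZero N] (G : ℍ → ℂ)
    (hhol : MDiff G)
    (hinv : ∀ γ ∈ Gamma0 N, ∀ z : ℍ, (G (γ • z)).re = (G z).re)
    (hper : ∀ δ : SL(2, ℤ), Periodic ((fun w : ℍ => G (δ • w)) ∘ ofComplex) ((N : ℝ) : ℂ))
    (hlim : ∀ δ : SL(2, ℤ), ∃ L : ℂ, Tendsto (fun w : ℍ => G (δ • w)) atImInfty (𝓝 L))
    (z w : ℍ) : Complex.exp (G z) = Complex.exp (G w) := by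
  have hN : (0 : ℝ) < N := by exact_mod_cast Nat.pos_of_ne_zero (NeZero.ne N)
  have : Finite (SL(2, ℤ) ⧸ Gamma0 N) := Subgroup.finite_quotient_of_finiteIndex
  letI : Fintype (SL(2, ℤ) ⧸ Gamma0 N) := Fintype.ofFinite _
  let e : (SL(2, ℤ) ⧸ Gamma0 N) → ℍ → ℂ := fun x w => Complex.exp (G ((x.out)⁻¹ • w))
  have hsmul : ∀ δ : SL(2, ℤ), MDiff (fun w : ℍ => δ • w) := fun δ =>
    mdifferentiable_smul (g := (δ : GL (Fin 2) ℝ)) (by simp)
  have he_per : ∀ x, Periodic (e x ∘ ofComplex) ((N : ℝ) : ℂ) := fun x =>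
    (hper (x.out)⁻¹).comp Complex.exp
  have he_hol : ∀ x, MDiff (e x) := by
    intro x
    have h1 : MDiff (fun w : ℍ => G ((x.out)⁻¹ • w)) := hhol.comp (hsmul _)
    rw [UpperHalfPlane.mdifferentiable_iff] at h1 ⊢
    exact h1.cexp
  have he_bdd : ∀ x, IsBoundedAtImInfty (e x) := by
    intro x
    obtain ⟨L, hL⟩ := hlim (x.out)⁻¹
    have : Tendsto (e x) atImInfty (𝓝 (Complex.exp L)) :=
      (Complex.continuous_exp.tendsto L).comp hL
    exact this.isBigO_one ℝ
  have he_inv : ∀ (g : SL(2, ℤ)) (w : ℍ), ∑ x, ‖e x (g • w)‖ ^ 2 = ∑ x, ‖e x w‖ ^ 2 := by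
    intro g w
    have hterm : ∀ x : SL(2, ℤ) ⧸ Gamma0 N, ‖e x (g • w)‖ ^ 2 = ‖e (g⁻¹ • x) w‖ ^ 2 := by
      intro x
      have hx : g⁻¹ • x = ((g⁻¹ * x.out : SL(2, ℤ)) : SL(2, ℤ) ⧸ Gamma0 N) := by
        conv_lhs => rw [← QuotientGroup.out_eq' x]
        rfl
      obtain ⟨η, hη⟩ := QuotientGroup.mk_out_eq_mul (Gamma0 N) (g⁻¹ * x.out)
      rw [← hx] at hη
      have hmul : (x.out)⁻¹ * g = (η : SL(2, ℤ)) * ((g⁻¹ • x).out)⁻¹ := by
        rw [hη]; group
      simp only [e, Complex.norm_exp]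
      rw [← mul_smul, hmul, mul_smul, hinv _ η.2]
    rw [Finset.sum_congr rfl fun x _ => hterm x]
    exact Equiv.sum_comp (MulAction.toPerm (g⁻¹ : SL(2, ℤ))) (fun x => ‖e x w‖ ^ 2)
  have hconst := const_of_sum_norm_sq_invariant hN e he_per he_hol he_bdd he_inv
  set x₀ : SL(2, ℤ) ⧸ Gamma0 N := ((1 : SL(2, ℤ)) : SL(2, ℤ) ⧸ Gamma0 N) with hx₀
  have hz : Complex.exp (G z) = e x₀ (x₀.out • z) := by
    simp only [e]
    rw [← mul_smul, inv_mul_cancel, one_smul]
  have hw : Complex.exp (G w) = e x₀ (x₀.out • w) := by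
    simp only [e]
    rw [← mul_smul, inv_mul_cancel, one_smul]
  rw [hz, hw, hconst x₀, hconst x₀]

end Fermat.Agent.S21.helper921
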