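import Fermat.Agent.S21.helper921_Wiring
import Fermat.Agent.S21.helper921_MaxMod
import Fermat.Agent.S21.helper376_Parabolic

set_option autoImplicit false

namespace Fermat.Agent.S21.helper921

open ModularCurve ModularCurve.Period CongruenceSubgroup UpperHalfPlane Filter Topology Function
open scoped MatrixGroups Manifold ComplexConjugate

/-! ### The reflection `z ↦ -conj z` and the involution `jConjSL` -/

/-- `J` intertwines the action of `γ` and `jConjSL γ`. -/
theorem J_mul_coe (γ : SL(2, ℤ)) :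
    UpperHalfPlane.J * (γ : GL (Fin 2) ℝ) = (jConjSL γ : GL (Fin 2) ℝ) * UpperHalfPlane.J := by
  ext i j
  fin_cases i <;> fin_cases j <;>
    simp [UpperHalfPlane.J, Matrix.mul_apply, Fin.sum_univ_two, jConjMat]

theorem J_smul_smul (γ : SL(2, ℤ)) (z : ℍ) : J • (γ • z) = (jConjSL γ) • (J • z) := by
  rw [ModularGroup.sl_moeb, ModularGroup.sl_moeb, ← mul_smul, ← mul_smul, J_mul_coe]

theorem J_smul_im (z : ℍ) : (J • z).im = z.im := by
  have := congrArg Complex.im (coe_J_smul z)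
  simpa using this

theorem tendsto_J_smul : Tendsto (fun z : ℍ => J • z) atImInfty atImInfty := by
  rw [atImInfty, tendsto_comap_iff]
  have : (UpperHalfPlane.im ∘ fun z : ℍ => J • z) = UpperHalfPlane.im := funext J_smul_im
  rw [this]
  exact tendsto_comap

theorem J_smul_vadd (x : ℝ) (z : ℍ) : J • (x +ᵥ z) = (-x) +ᵥ (J • z) := by
  apply UpperHalfPlane.ext
  rw [coe_J_smul, coe_vadd, coe_vadd, coe_J_smul]
  simp only [map_add, Complex.conj_ofReal, Complex.ofReal_neg]
  ring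

/-- `H(z) = conj (F (-conj z))`. -/
noncomputable def reflConj (F : ℍ → ℂ) : ℍ → ℂ := fun z => conj (F (J • z))

theorem hasDerivAt_reflConj {F : ℍ → ℂ} {f : ℍ → ℂ}
    (hF : ∀ τ : ℍ, HasDerivAt (F ∘ ofComplex) (f τ) ↑τ) (τ : ℍ) :
    HasDerivAt (reflConj F ∘ ofComplex) (-conj (f (J • τ))) ↑τ := by
  set Φ := F ∘ ofComplex with hΦ
  have h1 : HasDerivAt Φ (f (J • τ)) (-(conj (τ : ℂ))) := by
    have := hF (J • τ)
    rwa [coe_J_smul] at this
  have h2 : HasDerivAt (fun w : ℂ => Φ (-w)) (-(f (J • τ))) (conj (τ : ℂ)) := by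
    have hneg : HasDerivAt (fun w : ℂ => -w) (-1) (conj (τ : ℂ)) := (hasDerivAt_id _).neg
    have := HasDerivAt.comp (conj (τ : ℂ)) h1 hneg
    rw [mul_neg, mul_one] at this
    exact this
  have h3 : HasDerivAt (conj ∘ (fun w : ℂ => Φ (-w)) ∘ conj) (-conj (f (J • τ))) (τ : ℂ) := by
    rw [hasDerivAt_conj_conj_iff]
    simpa using h2
  refine h3.congr_of_eventuallyEq ?_
  have hopen : {z : ℂ | 0 < z.im} ∈ 𝓝 (τ : ℂ) := isOpen_upperHalfPlaneSet.mem_nhds τ.im_pos
  filter_upwards [hopen] with w hw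
  simp only [Function.comp_apply, reflConj, hΦ]
  congr 2
  rw [ofComplex_apply_of_im_pos hw, ← ofComplex_apply (J • (⟨w, hw⟩ : ℍ)), coe_J_smul]

/-! ### Periods of a primitive -/

variable {N : ℕ}

theorem primitive_sub_eq_periodMap {f : CuspForm (Gamma0 N) 2} {F : ℍ → ℂ}
    (hF : HasEquivariantPrimitive N f F) (γ : Gamma0 N) (z : ℍ) :
    F ((γ : SL(2, ℤ)) • z) - F z = periodMap N f (Additive.ofMul γ) := by
  rw [periodMap_eq_of_primitive hF]
  exact hF.2.2.1.sub_eq_period γ z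

theorem reflConj_sub_eq {f : CuspForm (Gamma0 N) 2} {F : ℍ → ℂ}
    (hF : HasEquivariantPrimitive N f F) (γ : Gamma0 N) (z : ℍ) :
    reflConj F ((γ : SL(2, ℤ)) • z) - reflConj F z
      = conj (periodMap N f (Additive.ofMul (jConjGamma0 N γ))) := by
  have h := primitive_sub_eq_periodMap hF (jConjGamma0 N γ) (J • z)
  rw [jConjGamma0_coe, ← J_smul_smul] at h
  simp only [reflConj]
  rw [← h, map_sub]

theorem conj_T_pow_mem_Gamma0 (N : ℕ) (δ : SL(2, ℤ)) :
    δ * ModularGroup.T ^ (N : ℤ) * δ⁻¹ ∈ Gamma0 N := by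
  have h1 : ModularGroup.T ^ (N : ℤ) ∈ Gamma N := by
    have := ModularGroup_T_pow_mem_Gamma (N : ℤ) (N : ℤ) dvd_rfl
    simpa using this
  have h2 : δ * ModularGroup.T ^ (N : ℤ) * δ⁻¹ ∈ Gamma N := (Gamma_normal N).conj_mem _ h1 δ
  rw [Gamma_mem] at h2
  rw [Gamma0_mem]
  exact h2.2.2.1

theorem trace_conj_T_pow (N : ℕ) (δ : SL(2, ℤ)) :
    ((δ * ModularGroup.T ^ (N : ℤ) * δ⁻¹ : SL(2, ℤ)) : Matrix (Fin 2) (Fin 2) ℤ).trace = 2 := by
  rw [Matrix.SpecialLinearGroup.coe_mul, Matrix.trace_mul_comm,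
    ← Matrix.SpecialLinearGroup.coe_mul, ← mul_assoc, inv_mul_cancel, one_mul,
    ModularGroup.coe_T_zpow, Matrix.trace_fin_two_of]
  norm_num

/-- Every `SL(2, ℤ)`-translate of a primitive is `N`-periodic. -/
theorem primitive_periodic {f : CuspForm (Gamma0 N) 2} {F : ℍ → ℂ}
    (hF : HasEquivariantPrimitive N f F) (δ : SL(2, ℤ)) (z : ℍ) :
    F (δ • ((N : ℝ) +ᵥ z)) = F (δ • z) := by
  set γ : Gamma0 N := ⟨δ * ModularGroup.T ^ (N : ℤ) * δ⁻¹, conj_T_pow_mem_Gamma0 N δ⟩ with hγ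
  have h0 : periodMap N f (Additive.ofMul γ) = 0 :=
    helper376.periodMap_apply_eq_zero_of_trace hF γ (by
      show ((δ * ModularGroup.T ^ (N : ℤ) * δ⁻¹ : SL(2, ℤ)) : Matrix (Fin 2) (Fin 2) ℤ).trace ^ 2
        = 4
      rw [trace_conj_T_pow]; norm_num)
  have h1 := primitive_sub_eq_periodMap hF γ (δ • z)
  rw [h0, sub_eq_zero] at h1
  rw [← h1]
  congr 1
  show δ • ((N : ℝ) +ᵥ z) = (δ * ModularGroup.T ^ (N : ℤ) * δ⁻¹) • (δ • z)
  rw [← mul_smul, inv_mul_cancel_right, mul_smul, modular_T_zpow_smul]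
  simp

theorem reflConj_periodic {f : CuspForm (Gamma0 N) 2} {F : ℍ → ℂ}
    (hF : HasEquivariantPrimitive N f F) (δ : SL(2, ℤ)) (z : ℍ) :
    reflConj F (δ • ((N : ℝ) +ᵥ z)) = reflConj F (δ • z) := by
  simp only [reflConj]
  congr 1
  rw [J_smul_smul, J_smul_smul, J_smul_vadd]
  have h := primitive_periodic hF (jConjSL δ) ((-(N : ℝ)) +ᵥ (J • z))
  rw [← h]
  congr 2
  apply UpperHalfPlane.ext
  simp

/-! ### The injectivity argument -/

/-- Core of the injectivity argument: if the combination `c₁ F + c₂ H` of a primitive `F` and its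
reflected conjugate `H` has `Γ₀(N)`-invariant real part, then its derivative vanishes. -/
theorem combo_deriv_eq_zero [NeZero N] {f : CuspForm (Gamma0 N) 2} {F : ℍ → ℂ}
    (hF : HasEquivariantPrimitive N f F) (c₁ c₂ : ℂ)
    (hP : ∀ γ : Gamma0 N, (c₁ * periodMap N f (Additive.ofMul γ)
        + c₂ * conj (periodMap N f (Additive.ofMul (jConjGamma0 N γ)))).re = 0) (τ : ℍ) :
    c₁ * f τ - c₂ * conj (f (J • τ)) = 0 := by
  set H := reflConj F with hH
  set G : ℍ → ℂ := fun z => c₁ * F z + c₂ * H z with hG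
  have hderiv : ∀ τ : ℍ, HasDerivAt (G ∘ ofComplex) (c₁ * f τ - c₂ * conj (f (J • τ))) ↑τ := by
    intro τ
    have h1 := (hF.1 τ).const_mul c₁
    have h2 := (hasDerivAt_reflConj hF.1 τ).const_mul c₂
    have h3 := h1.add h2
    have e : c₁ * f τ - c₂ * conj (f (J • τ)) = c₁ * f τ + c₂ * -conj (f (J • τ)) := by ring
    rw [e]
    exact h3
  have hhol : MDiff G := by
    rw [UpperHalfPlane.mdifferentiable_iff]
    intro z hz
    exact (hderiv ⟨z, hz⟩).differentiableAt.differentiableWithinAt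
  have hinv : ∀ γ ∈ Gamma0 N, ∀ z : ℍ, (G (γ • z)).re = (G z).re := by
    intro γ hγ z
    have e1 := primitive_sub_eq_periodMap hF ⟨γ, hγ⟩ z
    have e2 := reflConj_sub_eq hF ⟨γ, hγ⟩ z
    have e3 := hP ⟨γ, hγ⟩
    have e4 : G (γ • z) - G z = c₁ * periodMap N f (Additive.ofMul ⟨γ, hγ⟩)
        + c₂ * conj (periodMap N f (Additive.ofMul (jConjGamma0 N ⟨γ, hγ⟩))) := by
      simp only [hG]
      rw [← e1, ← e2]
      ring
    have e5 := congrArg Complex.re e4
    rw [e3, Complex.sub_re] at e5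
    linarith
  have hper : ∀ δ : SL(2, ℤ), Periodic ((fun w : ℍ => G (δ • w)) ∘ ofComplex) ((N : ℝ) : ℂ) := by
    intro δ w
    by_cases hw : 0 < w.im
    · have hw' : 0 < (w + ((N : ℝ) : ℂ)).im := by simpa using hw
      simp only [comp_apply, ofComplex_apply_of_im_pos hw', ofComplex_apply_of_im_pos hw]
      have e : (⟨w + ((N : ℝ) : ℂ), hw'⟩ : ℍ) = (N : ℝ) +ᵥ (⟨w, hw⟩ : ℍ) := by
        apply UpperHalfPlane.ext
        rw [coe_vadd]
        simp [add_comm]
      rw [e]
      simp only [hG]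
      rw [primitive_periodic hF, hH, reflConj_periodic hF]
    · have hw0 : w.im ≤ 0 := not_lt.mp hw
      have hw' : (w + ((N : ℝ) : ℂ)).im ≤ 0 := by simpa using hw0
      simp only [comp_apply, ofComplex_apply_of_im_nonpos hw', ofComplex_apply_of_im_nonpos hw0]
  have hlim : ∀ δ : SL(2, ℤ), ∃ L : ℂ, Tendsto (fun w : ℍ => G (δ • w)) atImInfty (𝓝 L) := by
    intro δ
    obtain ⟨L₁, h₁⟩ := hF.2.2.2 δ
    obtain ⟨L₂, h₂⟩ := hF.2.2.2 (jConjSL δ)
    refine ⟨c₁ * L₁ + c₂ * conj L₂, ?_⟩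
    have h₃ : Tendsto (fun w : ℍ => H (δ • w)) atImInfty (𝓝 (conj L₂)) := by
      have e : (fun w : ℍ => H (δ • w)) = fun w : ℍ => conj (F (jConjSL δ • (J • w))) := by
        funext w
        simp only [hH, reflConj]
        rw [J_smul_smul]
      rw [e]
      exact (Complex.continuous_conj.tendsto L₂).comp (h₂.comp tendsto_J_smul)
    exact (h₁.const_mul c₁).add (h₃.const_mul c₂)
  have hexp := exp_const_of_re_invariant G hhol hinv hper hlim
  have hd1 : HasDerivAt (fun z : ℂ => Complex.exp ((G ∘ ofComplex) z))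
      (Complex.exp ((G ∘ ofComplex) ↑τ) * (c₁ * f τ - c₂ * conj (f (J • τ)))) ↑τ :=
    (hderiv τ).cexp
  have hd2 : HasDerivAt (fun z : ℂ => Complex.exp ((G ∘ ofComplex) z)) 0 ↑τ := by
    refine (hasDerivAt_const (τ : ℂ) (Complex.exp (G τ))).congr_of_eventuallyEq ?_
    filter_upwards with w
    simp only [comp_apply]
    exact hexp _ _
  have h0 := hd1.unique hd2
  exact (mul_eq_zero.mp h0).resolve_left (Complex.exp_ne_zero _)

/-- If the period homomorphism `P` of `f` satisfies `P(γ) + ε P(jγj) = 0` for all `γ`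
(with `ε` real), then `f = 0`. -/
theorem eq_zero_of_period_relation [NeZero N] {f : CuspForm (Gamma0 N) 2} {F : ℍ → ℂ}
    (hF : HasEquivariantPrimitive N f F) (ε : ℝ)
    (hP : ∀ γ : Gamma0 N, periodMap N f (Additive.ofMul γ)
        + ε * periodMap N f (Additive.ofMul (jConjGamma0 N γ)) = 0) : f = 0 := by
  have h1 : ∀ τ : ℍ, (1 : ℂ) * f τ - (ε : ℂ) * conj (f (J • τ)) = 0 := by
    refine combo_deriv_eq_zero hF 1 ε (fun γ => ?_)
    have h := congrArg Complex.re (hP γ)
    simp only [Complex.add_re, Complex.mul_re, Complex.ofReal_re, Complex.ofReal_im, zero_mul,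
      sub_zero, Complex.zero_re] at h
    simp only [one_mul, Complex.add_re, Complex.mul_re, Complex.ofReal_re, Complex.ofReal_im,
      zero_mul, sub_zero, Complex.conj_re]
    exact h
  have h2 : ∀ τ : ℍ, (-Complex.I) * f τ - (Complex.I * ε) * conj (f (J • τ)) = 0 := by
    refine combo_deriv_eq_zero hF (-Complex.I) (Complex.I * ε) (fun γ => ?_)
    have h := congrArg Complex.im (hP γ)
    simp only [Complex.add_im, Complex.mul_im, Complex.ofReal_re, Complex.ofReal_im, zero_mul,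
      add_zero, Complex.zero_im] at h
    simp only [Complex.add_re, Complex.mul_re, Complex.mul_im, Complex.neg_re, Complex.neg_im,
      Complex.I_re, Complex.I_im, Complex.ofReal_re, Complex.ofReal_im, Complex.conj_re,
      Complex.conj_im]
    linarith
  ext τ
  have e1 := h1 τ
  have e2 := h2 τ
  have hI : Complex.I * Complex.I = -1 := Complex.I_mul_I
  have e3 : (2 : ℂ) * f τ = 0 := by
    linear_combination e1 + Complex.I * e2 + (f τ + ε * conj (f (J • τ))) * hI
  have e4 : f τ = 0 := (mul_eq_zero.mp e3).resolve_left two_ne_zero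
  simpa using e4

/-- **S21-C+**: given (A), the plus part of the period map is injective. -/
theorem stmtCplus_of_stmtA (N : ℕ) [NeZero N] (hA : StmtA N) : StmtCplus N := by
  intro f hf
  obtain ⟨F, hF⟩ := hA f
  refine eq_zero_of_period_relation hF 1 (fun γ => ?_)
  have h := congrArg (fun ψ : Additive (Gamma0 N) →+ ℂ => ψ (Additive.ofMul γ)) hf
  simp only [AddMonoidHom.add_apply, charInvolution_apply, toMul_ofMul,
    AddMonoidHom.zero_apply] at h
  rw [Complex.ofReal_one, one_mul]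
  exact h

/-- **S21-C-**: given (A), the minus part of the period map is injective. -/
theorem stmtCminus_of_stmtA (N : ℕ) [NeZero N] (hA : StmtA N) : StmtCminus N := by
  intro f hf
  obtain ⟨F, hF⟩ := hA f
  refine eq_zero_of_period_relation hF (-1) (fun γ => ?_)
  have h := congrArg (fun ψ : Additive (Gamma0 N) →+ ℂ => ψ (Additive.ofMul γ)) hf
  simp only [AddMonoidHom.sub_apply, charInvolution_apply, toMul_ofMul,
    AddMonoidHom.zero_apply] at h
  rw [Complex.ofReal_neg, Complex.ofReal_one, neg_one_mul, ← sub_eq_add_neg]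
  exact h

end Fermat.Agent.S21.helper921
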