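import Fermat.Agent.S21.helper921_LowerAsm
import Fermat.Agent.S20.helper921_Lower

/-!
# S20 and S21 from two leaves

With `Goal_Lower` proved (`Fermat.Agent.S20.helper921.goal_Lower`), both S20 and S21 follow from
* `helper560.Goal_BasisM`  (free basis of `M_*(Γ)` indexed by the cosets with `det Φ ≢ 0`) and
* `Goal_SumWeightsLe`      (`∑ κ j + 6 * cusps ≤ 6 * mu`; or the equality `helper260.Goal_SumWeights`).
-/

set_option autoImplicit false

namespace Fermat.Agent.S21.helper921

open Fermat.Agent.S20.helper560 Fermat.Agent.S20.helper260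

/-- **S20 from two leaves.** -/
theorem s20_of_two (hBM : Goal_BasisM) (hSW : Goal_SumWeightsLe) : Goal_S20 :=
  s20_of_leaves hBM hSW Fermat.Agent.S20.helper921.goal_Lower

/-- **S20 from two leaves** (equality form of the sum of weights). -/
theorem s20_of_two' (hBM : Goal_BasisM) (hSW : Goal_SumWeights) : Goal_S20 :=
  s20_of_two hBM (goal_SumWeightsLe_of_eq hSW)

/-- **S21 from two leaves.** -/
theorem s21_of_two (hBM : Goal_BasisM) (hSW : Goal_SumWeightsLe) (N : ℕ) [NeZero N] :
    Function.Injective (ModularCurve.periodHomPair N)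
      ∧ LinearMap.range (ModularCurve.periodHomPair N)
          = ModularCurve.Period.parabolicHoms ℂ (CongruenceSubgroup.Gamma0 N) ℂ :=
  s21_of_leaves hBM hSW Fermat.Agent.S20.helper921.goal_Lower N

/-- **S21 from two leaves** (equality form of the sum of weights). -/
theorem s21_of_two' (hBM : Goal_BasisM) (hSW : Goal_SumWeights) (N : ℕ) [NeZero N] :
    Function.Injective (ModularCurve.periodHomPair N)
      ∧ LinearMap.range (ModularCurve.periodHomPair N)
          = ModularCurve.Period.parabolicHoms ℂ (CongruenceSubgroup.Gamma0 N) ℂ :=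
  s21_of_two hBM (goal_SumWeightsLe_of_eq hSW) N

end Fermat.Agent.S21.helper921
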